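import Mathlib
import Fermat.Prelude.Def_GroupCohomology_ContinuousUnramified
import Fermat.Agent.S05.Inertia

/-!
# S55 / GL4: Kummer ramification inside `ℚ_S`

Namespace `Fermat.Agent.S55.GL.KummerUnram`.

All statements are in the language of the frozen definitions: valuation subrings `A` of
`ℚ̄ = AlgebraicClosure ℚ` lying over a rational prime `q` (`A.LiesOverPrime q`), their inertia
subgroups `A.inertiaSubgroupIn ℚ ≤ Gal(ℚ̄/ℚ)` and `IntermediateField.IsUnramifiedOutside`.

Main results (`p` prime, `p ∈ S`):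

* `apply_eq_of_pow_prime_pow_eq`: an inertia element at a place `A` of residue characteristic
  `≠ p` which fixes `β ^ (p ^ k)`, `β` a unit of `A`, fixes `β`.
* `isUnramifiedOutside_sup_adjoin_root`: if `F` is unramified outside `S`, `a ∈ F`, and off `S` the
  valuations of `a` are `p^k`-th powers of valuations of elements of `F`, then `F(a^{1/p^k})` is
  unramified outside `S`.
* `isUnramifiedOutside_adjoin_rootOfUnity`: `ℚ(ζ_{p^k})` is unramified outside `S`.
* `isUnramifiedOutside_sup_adjoin_root_of_isSUnit`, `isSUnit_root`: the `S`-units of `ℚ_S` are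
  `p`-divisible.
* `valuation_root_eq`: `p`-capitulation in valuation form.
* `inertiaSubgroupIn_smul`, `IsUnramifiedOutside.map`, `isUnramifiedOutside_normalClosure`: Galois
  conjugates and the normal closure of a field unramified outside `S` are unramified outside `S`.
-/

set_option autoImplicit false
set_option linter.style.haveILetI false

open scoped Pointwise
open IntermediateField

namespace Fermat.Agent.S55.GL.KummerUnram

local notation "Qbar" => AlgebraicClosure ℚ
local notation "Γ" => (AlgebraicClosure ℚ ≃ₐ[ℚ] AlgebraicClosure ℚ)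

section Valuation

variable {L : Type*} [Field L] (A : ValuationSubring L)

theorem valuation_eq_one_of_mem_of_not_mem_nonunits {x : L} (hx : x ∈ A)
    (hx' : x ∉ A.nonunits) : A.valuation x = 1 :=
  le_antisymm ((A.valuation_le_one_iff _).mpr hx)
    (not_lt.mp fun h => hx' (A.mem_nonunits_iff.mpr h))

theorem mem_of_valuation_eq_one {x : L} (hx : A.valuation x = 1) : x ∈ A :=
  (A.valuation_le_one_iff _).mp hx.le

theorem not_mem_nonunits_of_valuation_eq_one {x : L} (hx : A.valuation x = 1) :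
    x ∉ A.nonunits := fun h => by
  have := A.mem_nonunits_iff.mp h
  rw [hx] at this
  exact lt_irrefl _ this

theorem natCast_mem (n : ℕ) : (n : L) ∈ A := by
  induction n with
  | zero => simp
  | succ n ih => simpa using A.add_mem _ _ ih A.one_mem

theorem intCast_mem (n : ℤ) : (n : L) ∈ A := by
  cases n with
  | ofNat n =>
    rw [Int.ofNat_eq_natCast, Int.cast_natCast]
    exact natCast_mem A n
  | negSucc n =>
    rw [Int.cast_negSucc]
    exact A.neg_mem _ (natCast_mem A _)

/-- the maximal ideal is closed under multiplication by elements of `A`. -/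
theorem mul_mem_nonunits_left {x y : L} (hx : x ∈ A) (hy : y ∈ A.nonunits) :
    x * y ∈ A.nonunits := by
  rw [A.mem_nonunits_iff, map_mul]
  calc A.valuation x * A.valuation y ≤ 1 * A.valuation y := by
        gcongr; exact (A.valuation_le_one_iff _).mpr hx
    _ = A.valuation y := one_mul _
    _ < 1 := A.mem_nonunits_iff.mp hy

theorem mul_mem_nonunits_right {x y : L} (hx : x ∈ A.nonunits) (hy : y ∈ A) :
    x * y ∈ A.nonunits := by
  rw [mul_comm]; exact mul_mem_nonunits_left A hy hx

theorem add_mem_nonunits {x y : L} (hx : x ∈ A.nonunits) (hy : y ∈ A.nonunits) :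
    x + y ∈ A.nonunits := by
  rw [A.mem_nonunits_iff] at *
  exact lt_of_le_of_lt (A.valuation.map_add _ _) (max_lt hx hy)

theorem sum_mem_nonunits {ι : Type*} (s : Finset ι) (f : ι → L)
    (h : ∀ i ∈ s, f i ∈ A.nonunits) : ∑ i ∈ s, f i ∈ A.nonunits := by
  classical
  induction s using Finset.induction_on with
  | empty => simp [A.mem_nonunits_iff]
  | insert a s ha ih =>
    rw [Finset.sum_insert ha]
    exact add_mem_nonunits A (h a (Finset.mem_insert_self _ _))
      (ih fun i hi => h i (Finset.mem_insert_of_mem hi))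

/-- a natural number prime to the residue characteristic is a unit. -/
theorem natCast_not_mem_nonunits_of_coprime {q n : ℕ} (hq : A.LiesOverPrime q)
    (hn : Nat.Coprime n q) : (n : L) ∉ A.nonunits := by
  intro h
  have hb : (n : ℤ) * Nat.gcdA n q + (q : ℤ) * Nat.gcdB n q = 1 := by
    have := Nat.gcd_eq_gcd_ab n q
    rw [hn] at this
    simpa using this.symm
  have hL : (n : L) * ((Nat.gcdA n q : ℤ) : L) + (q : L) * ((Nat.gcdB n q : ℤ) : L) = 1 := by
    have := congrArg (fun z : ℤ => (z : L)) hb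
    simpa using this
  have h1 : (1 : L) ∈ A.nonunits := by
    rw [← hL]
    exact add_mem_nonunits A (mul_mem_nonunits_right A h (intCast_mem A _))
      (mul_mem_nonunits_right A hq (intCast_mem A _))
  have := A.mem_nonunits_iff.mp h1
  simp at this

theorem valuation_eq_one_of_pow_eq_one {x : L} {n : ℕ} (hn : n ≠ 0)
    (h : A.valuation x ^ n = 1) : A.valuation x = 1 := by
  rcases lt_trichotomy (A.valuation x) 1 with h1 | h1 | h1
  · exact absurd h (ne_of_lt (pow_lt_one₀ zero_le h1 hn))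
  · exact h1
  · exact absurd h (ne_of_gt (one_lt_pow₀ h1 hn))

/-- an element of a subfield-free formulation: if `x ^ n` is a unit then so is `x`. -/
theorem valuation_eq_one_of_valuation_pow_eq_one {x : L} {n : ℕ} (hn : n ≠ 0)
    (h : A.valuation (x ^ n) = 1) : A.valuation x = 1 :=
  valuation_eq_one_of_pow_eq_one A hn (by rwa [map_pow] at h)

end Valuation

section Roots

variable {K L : Type*} [Field K] [Field L] [Algebra K L] (A : ValuationSubring L)

/-- a nontrivial `p`-th root of unity is not congruent to `1` modulo a place of residue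
characteristic different from `p`. -/
theorem sub_one_not_mem_nonunits_of_pow_prime_eq_one {p : ℕ} (hpA : (p : L) ∉ A.nonunits)
    {ζ : L} (hζ : ζ ^ p = 1) (hζ1 : ζ ≠ 1) : ζ - 1 ∉ A.nonunits := by
  intro h
  apply hpA
  have hp0 : p ≠ 0 := by
    rintro rfl
    apply hpA
    rw [A.mem_nonunits_iff]; simp
  have hζA : ζ ∈ A := by
    have : A.valuation ζ = 1 :=
      valuation_eq_one_of_valuation_pow_eq_one A hp0 (by rw [hζ]; simp)
    exact mem_of_valuation_eq_one A this
  have hgeom : ∑ i ∈ Finset.range p, ζ ^ i = 0 := by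
    have h1 := mul_geom_sum ζ p
    rw [hζ, sub_self] at h1
    rcases mul_eq_zero.mp h1 with h2 | h2
    · exact absurd (sub_eq_zero.mp h2) hζ1
    · exact h2
  have hpow : ∀ i : ℕ, ζ ^ i - 1 ∈ A.nonunits := by
    intro i
    have : ζ ^ i - 1 = (ζ - 1) * ∑ j ∈ Finset.range i, ζ ^ j := (mul_geom_sum ζ i).symm
    rw [this]
    refine mul_mem_nonunits_right A h ?_
    exact A.toSubring.sum_mem fun j _ => A.toSubring.pow_mem hζA j
  have hsum : ∑ i ∈ Finset.range p, (ζ ^ i - 1) ∈ A.nonunits :=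
    sum_mem_nonunits A _ _ fun i _ => hpow i
  rw [Finset.sum_sub_distrib, hgeom, Finset.sum_const, Finset.card_range, nsmul_eq_mul, mul_one,
    zero_sub] at hsum
  rw [A.mem_nonunits_iff] at hsum ⊢
  rwa [Valuation.map_neg] at hsum

/-- **Inertia fixes prime-to-residue-characteristic roots of fixed units** (prime exponent). -/
theorem apply_eq_of_pow_prime_eq {p : ℕ} (hpA : (p : L) ∉ A.nonunits)
    {σ : L ≃ₐ[K] L} (hσ : σ ∈ A.inertiaSubgroupIn K) {β : L} (hβ : A.valuation β = 1)
    (hfix : σ (β ^ p) = β ^ p) : σ β = β := by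
  have hβA : β ∈ A := mem_of_valuation_eq_one A hβ
  have hβ0 : β ≠ 0 := by
    rintro rfl
    simp at hβ
  set ζ : L := σ β / β with hζdef
  have hζp : ζ ^ p = 1 := by
    rw [hζdef, div_pow, ← map_pow, hfix, div_self (pow_ne_zero _ hβ0)]
  by_contra hne
  have hζ1 : ζ ≠ 1 := by
    intro h
    apply hne
    rw [hζdef, div_eq_one_iff_eq hβ0] at h
    exact h
  have h1 : σ β - β ∈ A.nonunits :=
    Fermat.Agent.S05.Inertia.apply_sub_mem_nonunits_of_mem_inertiaSubgroupIn A hσ hβA
  have h2 : ζ - 1 ∈ A.nonunits := by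
    have : ζ - 1 = (σ β - β) * β⁻¹ := by
      rw [hζdef]; field_simp
    rw [this]
    refine mul_mem_nonunits_right A h1 ?_
    apply mem_of_valuation_eq_one
    rw [map_inv₀, hβ, inv_one]
  exact sub_one_not_mem_nonunits_of_pow_prime_eq_one A hpA hζp hζ1 h2

/-- the same for prime-power exponents. -/
theorem apply_eq_of_pow_prime_pow_eq {p : ℕ} (hpA : (p : L) ∉ A.nonunits)
    {σ : L ≃ₐ[K] L} (hσ : σ ∈ A.inertiaSubgroupIn K) (k : ℕ) {β : L} (hβ : A.valuation β = 1)
    (hfix : σ (β ^ (p ^ k)) = β ^ (p ^ k)) : σ β = β := by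
  induction k generalizing β with
  | zero => simpa using hfix
  | succ k ih =>
    apply ih hβ
    apply apply_eq_of_pow_prime_eq A hpA hσ (by rw [map_pow, hβ, one_pow])
    rw [← pow_mul, ← pow_succ]
    exact hfix

end Roots

section Main

theorem isIntegral_Qbar (x : Qbar) : IsIntegral ℚ x :=
  ((AlgebraicClosure.isAlgebraic ℚ).isAlgebraic x).isIntegral

/-- an automorphism fixing `α` fixes `ℚ(α)` pointwise. -/
theorem mem_fixingSubgroup_adjoin_simple {σ : Γ} {α : Qbar} (h : σ α = α) :
    σ ∈ (ℚ⟮α⟯).fixingSubgroup := by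
  have hle : ℚ⟮α⟯ ≤ IntermediateField.fixedField (Subgroup.zpowers σ) := by
    rw [adjoin_simple_le_iff, IntermediateField.mem_fixedField_iff]
    intro τ hτ
    have : Subgroup.zpowers σ ≤ MulAction.stabilizer Γ α :=
      Subgroup.zpowers_le.mpr (MulAction.mem_stabilizer_iff.mpr h)
    exact MulAction.mem_stabilizer_iff.mp (this hτ)
  exact (IntermediateField.le_iff_le _ _).mp hle (Subgroup.mem_zpowers σ)

theorem mem_fixingSubgroup_adjoin_simple_iff {σ : Γ} {α : Qbar} :
    σ ∈ (ℚ⟮α⟯).fixingSubgroup ↔ σ α = α :=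
  ⟨fun h => (IntermediateField.mem_fixingSubgroup_iff _ _).mp h α (mem_adjoin_simple_self ℚ α),
    mem_fixingSubgroup_adjoin_simple⟩

variable {S : Finset Nat.Primes} {p : ℕ}

/-- off `S` the prime `p ∈ S` is a unit. -/
theorem natCast_not_mem_nonunits_of_mem (hp : p.Prime) (hpS : (⟨p, hp⟩ : Nat.Primes) ∈ S)
    {q : Nat.Primes} (hq : q ∉ S) {A : ValuationSubring Qbar} (hA : A.LiesOverPrime (q : ℕ)) :
    (p : Qbar) ∉ A.nonunits := by
  apply natCast_not_mem_nonunits_of_coprime A hA
  rw [Nat.coprime_primes hp q.2]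
  rintro rfl
  exact hq hpS

/-- **Kummer extensions unramified outside `S`.** Let `F ⊆ ℚ̄` be unramified outside `S ∋ p`,
`a ∈ F`, `α ^ (p ^ k) = a`, and assume that at every place `A` of `ℚ̄` over a prime `q ∉ S` the
valuation of `a` is the `p ^ k`-th power of the valuation of a nonzero element of `F`
(i.e. `p ^ k ∣ w(a)` for the place `w` of `F` below `A`, as `F/ℚ` is unramified at `q`).
Then `F(α)` is unramified outside `S`. No root of unity is needed in `F`. -/
theorem isUnramifiedOutside_sup_adjoin_root (hp : p.Prime) (hpS : (⟨p, hp⟩ : Nat.Primes) ∈ S)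
    {F : IntermediateField ℚ Qbar} (hF : F.IsUnramifiedOutside S) {a α : Qbar} (ha : a ∈ F)
    (k : ℕ) (hα : α ^ (p ^ k) = a)
    (hval : ∀ q : Nat.Primes, q ∉ S → ∀ A : ValuationSubring Qbar, A.LiesOverPrime (q : ℕ) →
      ∃ b ∈ F, b ≠ 0 ∧ A.valuation a = A.valuation b ^ (p ^ k)) :
    (F ⊔ ℚ⟮α⟯).IsUnramifiedOutside S := by
  haveI := hF.1
  haveI : FiniteDimensional ℚ ℚ⟮α⟯ := adjoin.finiteDimensional (isIntegral_Qbar α)
  refine ⟨IntermediateField.finiteDimensional_sup F ℚ⟮α⟯, fun q hq A hA σ hσ => ?_⟩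
  rw [IntermediateField.fixingSubgroup_sup]
  have hσF : σ ∈ F.fixingSubgroup := hF.2 q hq A hA hσ
  refine ⟨hσF, mem_fixingSubgroup_adjoin_simple ?_⟩
  obtain ⟨b, hbF, hb0, hab⟩ := hval q hq A hA
  have hpA := natCast_not_mem_nonunits_of_mem hp hpS hq hA
  have hσa : σ a = a := (IntermediateField.mem_fixingSubgroup_iff _ _).mp hσF a ha
  have hσb : σ b = b := (IntermediateField.mem_fixingSubgroup_iff _ _).mp hσF b hbF
  have hpk : p ^ k ≠ 0 := pow_ne_zero _ hp.ne_zero
  -- `β = α / b` is a unit at `A` whose `p^k`-th power is fixed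
  have hβv : A.valuation (α / b) = 1 := by
    apply valuation_eq_one_of_valuation_pow_eq_one A hpk
    rw [div_pow, hα, map_div₀, map_pow, hab]
    exact div_self (pow_ne_zero _ ((map_ne_zero _).mpr hb0))
  have hβfix : σ ((α / b) ^ (p ^ k)) = (α / b) ^ (p ^ k) := by
    rw [div_pow, hα, map_div₀, map_pow, hσa, hσb]
  have hβ := apply_eq_of_pow_prime_pow_eq A hpA hσ k hβv hβfix
  rw [map_div₀, hσb] at hβ
  exact (div_left_inj' hb0).mp hβ

/-- `ℚ(ζ)` is unramified outside `S ∋ p` for every `p`-power root of unity `ζ`. -/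
theorem isUnramifiedOutside_adjoin_rootOfUnity (hp : p.Prime) (hpS : (⟨p, hp⟩ : Nat.Primes) ∈ S)
    (k : ℕ) {ζ : Qbar} (hζ : ζ ^ (p ^ k) = 1) : (ℚ⟮ζ⟯).IsUnramifiedOutside S := by
  have h := isUnramifiedOutside_sup_adjoin_root hp hpS
    (IntermediateField.isUnramifiedOutside_bot S) (a := 1) (α := ζ) (one_mem _) k hζ
    (fun q _ A _ => ⟨1, one_mem _, one_ne_zero, by simp⟩)
  rwa [bot_sup_eq] at h

/-- `x` is an `S`-unit: a unit at every place of `ℚ̄` over a prime outside `S`. -/
def IsSUnit (S : Finset Nat.Primes) (x : Qbar) : Prop :=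
  ∀ q : Nat.Primes, q ∉ S → ∀ A : ValuationSubring Qbar, A.LiesOverPrime (q : ℕ) →
    A.valuation x = 1

theorem IsSUnit.mul {x y : Qbar} (hx : IsSUnit S x) (hy : IsSUnit S y) : IsSUnit S (x * y) :=
  fun q hq A hA => by rw [map_mul, hx q hq A hA, hy q hq A hA, one_mul]

theorem IsSUnit.inv {x : Qbar} (hx : IsSUnit S x) : IsSUnit S x⁻¹ :=
  fun q hq A hA => by rw [map_inv₀, hx q hq A hA, inv_one]

theorem isSUnit_one : IsSUnit S 1 := fun _ _ A _ => map_one A.valuation

theorem IsSUnit.pow {x : Qbar} (hx : IsSUnit S x) (n : ℕ) : IsSUnit S (x ^ n) :=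
  fun q hq A hA => by rw [map_pow, hx q hq A hA, one_pow]

theorem IsSUnit.ne_zero {x : Qbar} (hx : IsSUnit S x) (hS : ∃ q : Nat.Primes, q ∉ S)
    (hex : ∀ q : Nat.Primes, ∃ A : ValuationSubring Qbar, A.LiesOverPrime (q : ℕ)) : x ≠ 0 := by
  obtain ⟨q, hq⟩ := hS
  obtain ⟨A, hA⟩ := hex q
  rintro rfl
  have := hx q hq A hA
  simp at this

/-- roots of `S`-units are `S`-units. -/
theorem isSUnit_root {u α : Qbar} (hu : IsSUnit S u) {n : ℕ} (hn : n ≠ 0) (hα : α ^ n = u) :
    IsSUnit S α := fun q hq A hA =>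
  valuation_eq_one_of_valuation_pow_eq_one A hn (by rw [hα]; exact hu q hq A hA)

/-- **The `S`-units of `ℚ_S` are `p`-divisible** (`p ∈ S`): a `p^k`-th root of an `S`-unit of a
field unramified outside `S` generates a field unramified outside `S`. -/
theorem isUnramifiedOutside_sup_adjoin_root_of_isSUnit (hp : p.Prime)
    (hpS : (⟨p, hp⟩ : Nat.Primes) ∈ S) {F : IntermediateField ℚ Qbar}
    (hF : F.IsUnramifiedOutside S) {u α : Qbar} (huF : u ∈ F) (hu : IsSUnit S u) (k : ℕ)
    (hα : α ^ (p ^ k) = u) : (F ⊔ ℚ⟮α⟯).IsUnramifiedOutside S :=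
  isUnramifiedOutside_sup_adjoin_root hp hpS hF huF k hα fun q hq A hA =>
    ⟨1, one_mem _, one_ne_zero, by rw [hu q hq A hA]; simp⟩

/-- **`p`-capitulation, valuation form**: in the situation of
`isUnramifiedOutside_sup_adjoin_root`, the valuation of the root `α` at `A` is the valuation of
the element `b ∈ F`: the "ideal" `𝔞` with `𝔞 ^ (p^k) = (a)` off `S` becomes the principal
ideal `(α)` off `S`. -/
theorem valuation_root_eq {A : ValuationSubring Qbar} {a α b : Qbar} {n : ℕ} (hn : n ≠ 0)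
    (hα : α ^ n = a) (hb0 : b ≠ 0) (hab : A.valuation a = A.valuation b ^ n) :
    A.valuation α = A.valuation b := by
  have h1 : A.valuation (α / b) = 1 := by
    apply valuation_eq_one_of_valuation_pow_eq_one A hn
    rw [div_pow, hα, map_div₀, map_pow, hab]
    exact div_self (pow_ne_zero _ ((map_ne_zero _).mpr hb0))
  rw [map_div₀] at h1
  exact (div_eq_one_iff_eq ((map_ne_zero _).mpr hb0)).mp h1

end Main

section Conj

variable {K L : Type*} [Field K] [Field L] [Algebra K L]

/-- membership in the inertia subgroup, spelled out. -/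
theorem mem_inertiaSubgroupIn_iff (A : ValuationSubring L) (σ : L ≃ₐ[K] L) :
    σ ∈ A.inertiaSubgroupIn K ↔
      σ ∈ A.decompositionSubgroup K ∧ ∀ x ∈ A, σ x - x ∈ A.nonunits := by
  constructor
  · intro h
    exact ⟨Fermat.Agent.S05.Inertia.mem_decompositionSubgroup_of_mem_inertiaSubgroupIn A h,
      fun x hx => Fermat.Agent.S05.Inertia.apply_sub_mem_nonunits_of_mem_inertiaSubgroupIn A h hx⟩
  · rintro ⟨hσ, hin⟩
    refine ⟨⟨σ, hσ⟩, ?_, rfl⟩
    change (⟨σ, hσ⟩ : A.decompositionSubgroup K) ∈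
      (MulSemiringAction.toRingAut (A.decompositionSubgroup K) (IsLocalRing.ResidueField A)).ker
    rw [MonoidHom.mem_ker]
    ext x
    change (⟨σ, hσ⟩ : A.decompositionSubgroup K) • x = x
    obtain ⟨a, rfl⟩ := IsLocalRing.residue_surjective x
    rw [← IsLocalRing.ResidueField.residue_smul, ← sub_eq_zero, ← map_sub,
      IsLocalRing.residue_eq_zero_iff, ← ValuationSubring.coe_mem_nonunits_iff]
    exact hin a a.2

theorem mem_nonunits_iff_inv_not_mem (A : ValuationSubring L) {x : L} (hx : x ≠ 0) :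
    x ∈ A.nonunits ↔ x⁻¹ ∉ A := by
  rw [A.mem_nonunits_iff, ← A.valuation_le_one_iff, map_inv₀, not_le,
    one_lt_inv₀ (zero_lt_iff.mpr ((map_ne_zero _).mpr hx))]

theorem mem_smul_iff (A : ValuationSubring L) (σ : L ≃ₐ[K] L) (x : L) :
    x ∈ σ • A ↔ σ.symm x ∈ A := by
  rw [ValuationSubring.mem_pointwise_smul_iff_inv_smul_mem]
  rfl

theorem apply_mem_smul_iff (A : ValuationSubring L) (σ : L ≃ₐ[K] L) (x : L) :
    σ x ∈ σ • A ↔ x ∈ A := by
  rw [mem_smul_iff, AlgEquiv.symm_apply_apply]

theorem mem_nonunits_smul_iff (A : ValuationSubring L) (σ : L ≃ₐ[K] L) (x : L) :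
    x ∈ (σ • A).nonunits ↔ σ.symm x ∈ A.nonunits := by
  by_cases hx : x = 0
  · subst hx
    simp
  · have hx' : σ.symm x ≠ 0 := by
      simpa using hx
    rw [mem_nonunits_iff_inv_not_mem _ hx, mem_nonunits_iff_inv_not_mem _ hx', mem_smul_iff,
      map_inv₀]

theorem apply_mem_nonunits_smul_iff (A : ValuationSubring L) (σ : L ≃ₐ[K] L) (x : L) :
    σ x ∈ (σ • A).nonunits ↔ x ∈ A.nonunits := by
  rw [mem_nonunits_smul_iff, AlgEquiv.symm_apply_apply]

theorem liesOverPrime_smul_iff (A : ValuationSubring L) (σ : L ≃ₐ[K] L) (q : ℕ) :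
    (σ • A).LiesOverPrime q ↔ A.LiesOverPrime q := by
  unfold ValuationSubring.LiesOverPrime
  rw [mem_nonunits_smul_iff, map_natCast]

theorem mem_decompositionSubgroup_smul_iff (A : ValuationSubring L) (σ τ : L ≃ₐ[K] L) :
    τ ∈ (σ • A).decompositionSubgroup K ↔ σ⁻¹ * τ * σ ∈ A.decompositionSubgroup K := by
  unfold ValuationSubring.decompositionSubgroup
  rw [MulAction.mem_stabilizer_iff, MulAction.mem_stabilizer_iff, mul_smul, mul_smul,
    inv_smul_eq_iff]

/-- **Inertia groups of conjugate places are conjugate.** -/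
theorem mem_inertiaSubgroupIn_smul_iff (A : ValuationSubring L) (σ τ : L ≃ₐ[K] L) :
    τ ∈ (σ • A).inertiaSubgroupIn K ↔ σ⁻¹ * τ * σ ∈ A.inertiaSubgroupIn K := by
  rw [mem_inertiaSubgroupIn_iff, mem_inertiaSubgroupIn_iff, mem_decompositionSubgroup_smul_iff]
  refine and_congr_right fun _ => ?_
  constructor
  · intro h x hx
    have h1 := h (σ x) ((apply_mem_smul_iff A σ x).mpr hx)
    have h2 : τ (σ x) - σ x = σ ((σ⁻¹ * τ * σ) x - x) := by
      simp [AlgEquiv.mul_apply, AlgEquiv.aut_inv]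
    rw [h2, apply_mem_nonunits_smul_iff] at h1
    exact h1
  · intro h x hx
    rw [mem_smul_iff] at hx
    have h1 := h (σ.symm x) hx
    have h2 : τ x - x = σ ((σ⁻¹ * τ * σ) (σ.symm x) - σ.symm x) := by
      simp [AlgEquiv.mul_apply, AlgEquiv.aut_inv]
    rw [h2, apply_mem_nonunits_smul_iff]
    exact h1

end Conj

section Closure

local instance isAlgClosureQbar_S55GL : IsAlgClosure ℚ (AlgebraicClosure ℚ) :=
  ⟨inferInstance, AlgebraicClosure.isAlgebraic ℚ⟩
local instance normalQbar_S55GL : Normal ℚ (AlgebraicClosure ℚ) :=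
  IsAlgClosure.normal ℚ (AlgebraicClosure ℚ)

variable {S : Finset Nat.Primes}

/-- a Galois conjugate of a field unramified outside `S` is unramified outside `S`. -/
theorem isUnramifiedOutside_map {F : IntermediateField ℚ Qbar} (hF : F.IsUnramifiedOutside S)
    (σ : Γ) : (F.map (σ : Qbar →ₐ[ℚ] Qbar)).IsUnramifiedOutside S := by
  haveI := hF.1
  refine ⟨(F.equivMap (σ : Qbar →ₐ[ℚ] Qbar)).toLinearEquiv.finiteDimensional, ?_⟩
  intro q hq A hA τ hτ
  rw [IntermediateField.mem_fixingSubgroup_iff]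
  rintro _ ⟨y, hy, rfl⟩
  have h1 : σ⁻¹ * τ * σ ∈ (σ⁻¹ • A).inertiaSubgroupIn ℚ := by
    rw [mem_inertiaSubgroupIn_smul_iff]
    simpa [mul_assoc] using hτ
  have h2 : (σ⁻¹ • A).LiesOverPrime (q : ℕ) := (liesOverPrime_smul_iff A σ⁻¹ _).mpr hA
  have h3 := (IntermediateField.mem_fixingSubgroup_iff _ _).mp (hF.2 q hq _ h2 h1) y hy
  have h4 : τ (σ y) = σ ((σ⁻¹ * τ * σ) y) := by
    simp [AlgEquiv.mul_apply, AlgEquiv.aut_inv]
  change τ (σ y) = σ y
  rw [h4, h3]

/-- **The normal closure of a field unramified outside `S` is unramified outside `S`**, so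
the levels of `G_S` may be taken Galois over `ℚ`. -/
theorem isUnramifiedOutside_normalClosure {F : IntermediateField ℚ Qbar}
    (hF : F.IsUnramifiedOutside S) :
    (IntermediateField.normalClosure ℚ F Qbar).IsUnramifiedOutside S := by
  haveI := hF.1
  refine ⟨normalClosure.is_finiteDimensional ℚ F Qbar, ?_⟩
  intro q hq A hA τ hτ
  have hle : IntermediateField.normalClosure ℚ F Qbar ≤
      IntermediateField.fixedField (Subgroup.zpowers τ) := by
    have hdef : IntermediateField.normalClosure ℚ F Qbar =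
        ⨆ σ : Γ, F.map (σ : Qbar →ₐ[ℚ] Qbar) := IntermediateField.normalClosure_def'' F
    rw [hdef]
    refine iSup_le fun σ => ?_
    rw [IntermediateField.le_iff_le, Subgroup.zpowers_le]
    exact (isUnramifiedOutside_map hF σ).2 q hq A hA hτ
  exact (IntermediateField.le_iff_le _ _).mp hle (Subgroup.mem_zpowers τ)

theorem le_normalClosure (F : IntermediateField ℚ Qbar) :
    F ≤ IntermediateField.normalClosure ℚ F Qbar :=
  IntermediateField.le_normalClosure F

/-- every field unramified outside `S` is contained in a finite GALOIS extension of `ℚ`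
unramified outside `S`. -/
theorem exists_isGalois_isUnramifiedOutside {F : IntermediateField ℚ Qbar}
    (hF : F.IsUnramifiedOutside S) :
    ∃ F' : IntermediateField ℚ Qbar, F ≤ F' ∧ F'.IsUnramifiedOutside S ∧ IsGalois ℚ F' := by
  refine ⟨IntermediateField.normalClosure ℚ F Qbar, le_normalClosure F,
    isUnramifiedOutside_normalClosure hF, ?_⟩
  haveI : Normal ℚ (IntermediateField.normalClosure ℚ F Qbar) := normalClosure.normal ℚ F Qbar
  exact ⟨⟩

end Closure

end Fermat.Agent.S55.GL.KummerUnram
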