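/-
S55 (T4), block GLO2 (Places), part 1: places of a number field `K ⊆ ℚ̄` over a prime `q`,
as `D_q \ Γ / G_K`, realised by the embeddings `ι ∘ σ : K → PadicAlgCl q`.
-/
import Mathlib
import Fermat.Agent.S55.LocalKrasner

set_option autoImplicit false
set_option linter.style.haveILetI false

namespace Fermat.Agent.S55.GL.Places

open Polynomial IntermediateField Fermat.Agent.S55.LocalDict
open scoped Pointwise

variable (q : ℕ) [Fact q.Prime]

local notation "Qbar" => AlgebraicClosure ℚ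
local notation "Γ" => (AlgebraicClosure ℚ ≃ₐ[ℚ] AlgebraicClosure ℚ)

local instance isAlgebraicQbar_PL : Algebra.IsAlgebraic ℚ (AlgebraicClosure ℚ) :=
  AlgebraicClosure.isAlgebraic ℚ
local instance isAlgClosureQbar_PL : IsAlgClosure ℚ (AlgebraicClosure ℚ) :=
  ⟨inferInstance, inferInstance⟩
local instance normalQbar_PL : Normal ℚ (AlgebraicClosure ℚ) :=
  IsAlgClosure.normal ℚ (AlgebraicClosure ℚ)

/-! ### Comparing norms of polynomial values -/

/-- If `‖R(a)‖ = ‖R(a')‖` for all rational polynomials `R`, the same holds for all polynomials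
with coefficients in `ℚ_q` (density of `ℚ` in `ℚ_q`). -/
theorem norm_aeval_eq_of_forall_rat {a a' : PadicAlgCl q}
    (h : ∀ R : ℚ[X], ‖aeval a R‖ = ‖aeval a' R‖) (P : ℚ_[q][X]) :
    ‖aeval a P‖ = ‖aeval a' P‖ := by
  set n := P.natDegree + 1 with hn
  let Φ : PadicAlgCl q → (ℕ → ℚ_[q]) → PadicAlgCl q := fun b c =>
    ∑ i ∈ Finset.range n, algebraMap ℚ_[q] (PadicAlgCl q) (c i) * b ^ i
  have hΦc : ∀ b, Continuous (Φ b) := by
    intro b
    refine continuous_finsetSum _ fun i _ => ?_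
    exact ((continuous_algebraMap ℚ_[q] (PadicAlgCl q)).comp (continuous_apply i)).mul
      continuous_const
  have hclosed : IsClosed {c : ℕ → ℚ_[q] | ‖Φ a c‖ = ‖Φ a' c‖} :=
    isClosed_eq (hΦc a).norm (hΦc a').norm
  have hdense : DenseRange (Pi.map (fun (_ : ℕ) => (algebraMap ℚ ℚ_[q]))) :=
    DenseRange.piMap fun _ => Padic.denseRange_ratCast q
  have hsub : Set.range (Pi.map (fun (_ : ℕ) => (algebraMap ℚ ℚ_[q]))) ⊆
      {c : ℕ → ℚ_[q] | ‖Φ a c‖ = ‖Φ a' c‖} := by
    rintro _ ⟨r, rfl⟩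
    have key : ∀ b : PadicAlgCl q, Φ b (Pi.map (fun (_ : ℕ) => (algebraMap ℚ ℚ_[q])) r) =
        aeval b (∑ i ∈ Finset.range n, C (r i) * X ^ i : ℚ[X]) := by
      intro b
      simp only [Φ, Pi.map_apply, map_sum, map_mul, map_pow, aeval_C, aeval_X]
      refine Finset.sum_congr rfl fun i _ => ?_
      rw [← IsScalarTower.algebraMap_apply ℚ ℚ_[q] (PadicAlgCl q)]
    show ‖Φ a _‖ = ‖Φ a' _‖
    rw [key a, key a']
    exact h _
  have hall : ∀ c : ℕ → ℚ_[q], ‖Φ a c‖ = ‖Φ a' c‖ := by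
    intro c
    have : c ∈ closure (Set.range (Pi.map (fun (_ : ℕ) => (algebraMap ℚ ℚ_[q])))) := hdense c
    exact (hclosed.closure_subset_iff.mpr hsub) this
  have hP : ∀ b : PadicAlgCl q, aeval b P = Φ b (fun i => P.coeff i) := by
    intro b
    rw [aeval_eq_sum_range]
    refine Finset.sum_congr rfl fun i _ => ?_
    rw [Algebra.smul_def]
  rw [hP a, hP a']
  exact hall _

/-- If `‖R(a)‖ = ‖R(a')‖` for all rational polynomials `R`, then `a` and `a'` are conjugate over
`ℚ_q`. -/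
theorem exists_algEquiv_of_forall_rat {a a' : PadicAlgCl q}
    (h : ∀ R : ℚ[X], ‖aeval a R‖ = ‖aeval a' R‖) :
    ∃ τ : PadicAlgCl q ≃ₐ[ℚ_[q]] PadicAlgCl q, τ a = a' := by
  have hint : IsIntegral ℚ_[q] a := Algebra.IsIntegral.isIntegral a
  have h0 : aeval a' (minpoly ℚ_[q] a) = 0 := by
    have := norm_aeval_eq_of_forall_rat q h (minpoly ℚ_[q] a)
    rw [minpoly.aeval, norm_zero] at this
    exact norm_eq_zero.mp this.symm
  have hconj : IsConjRoot ℚ_[q] a' a := (isConjRoot_of_aeval_eq_zero hint h0).symm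
  haveI : Normal ℚ_[q] (PadicAlgCl q) := IsAlgClosure.normal ℚ_[q] (PadicAlgCl q)
  exact isConjRoot_iff_exists_algEquiv.mp hconj

/-! ### (PL0) the absolute values `|x|_σ = ‖ι (σ x)‖` and the local fields `ℚ_q(ι σ K)` -/

/-- The absolute value `x ↦ ‖ι (σ x)‖` on `ℚ̄`. -/
noncomputable def absAt (σ : Γ) : AbsoluteValue Qbar ℝ :=
  (absQbar q).comp (f := (σ : Qbar →+* Qbar)) σ.injective

theorem absAt_apply (σ : Γ) (x : Qbar) : absAt q σ x = ‖padicEmbedding q (σ x)‖ := rfl

theorem absAt_one (x : Qbar) : absAt q 1 x = absQbar q x := rfl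

theorem absAt_mul (σ g : Γ) (x : Qbar) : absAt q (σ * g) x = absAt q σ (g x) := rfl

/-- Elements of the decomposition group `D_q` do not change the absolute value. -/
theorem absAt_localGaloisToGlobal_mul (τ : PadicAlgCl q ≃ₐ[ℚ_[q]] PadicAlgCl q) (σ : Γ)
    (x : Qbar) : absAt q (localGaloisToGlobal q τ * σ) x = absAt q σ x := by
  rw [absAt_apply, absAt_apply, AlgEquiv.mul_apply, padicEmbedding_localGaloisToGlobal]
  exact (isometry_algEquiv q τ).norm_map_of_map_zero (map_zero τ) _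

/-- The local field `ℚ_q(ι σ K)`. -/
noncomputable def localFieldAt (K : IntermediateField ℚ Qbar) (σ : Γ) :
    IntermediateField ℚ_[q] (PadicAlgCl q) :=
  localField q (K.map (σ : Qbar →ₐ[ℚ] Qbar))

theorem localFieldAt_one (K : IntermediateField ℚ Qbar) : localFieldAt q K 1 = localField q K := by
  rw [localFieldAt]
  congr 1
  exact IntermediateField.map_id K

theorem padicEmbedding_apply_mem_localFieldAt {K : IntermediateField ℚ Qbar} (σ : Γ) {x : Qbar}
    (hx : x ∈ K) : padicEmbedding q (σ x) ∈ localFieldAt q K σ :=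
  padicEmbedding_mem_localField q ⟨x, hx, rfl⟩

theorem localFieldAt_mono {K L : IntermediateField ℚ Qbar} (h : K ≤ L) (σ : Γ) :
    localFieldAt q K σ ≤ localFieldAt q L σ :=
  localField_mono q (IntermediateField.map_mono _ h)

theorem localFieldAt_le_iff {K : IntermediateField ℚ Qbar} (σ : Γ)
    {E : IntermediateField ℚ_[q] (PadicAlgCl q)} :
    localFieldAt q K σ ≤ E ↔ ∀ x ∈ K, padicEmbedding q (σ x) ∈ E := by
  rw [localFieldAt, localField_le_iff]
  constructor
  · intro h x hx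
    exact h _ ⟨x, hx, rfl⟩
  · rintro h _ ⟨x, hx, rfl⟩
    exact h x hx

instance finiteDimensional_localFieldAt (K : IntermediateField ℚ Qbar) [FiniteDimensional ℚ K]
    (σ : Γ) : FiniteDimensional ℚ_[q] (localFieldAt q K σ) := by
  haveI : FiniteDimensional ℚ (K.map (σ : Qbar →ₐ[ℚ] Qbar)) :=
    LinearEquiv.finiteDimensional (K.equivMap (σ : Qbar →ₐ[ℚ] Qbar)).toLinearEquiv
  exact finiteDimensional_localField q _

/-- `ℚ_q(ι σ g L) = ℚ_q(ι σ L)` when `g` stabilises `L`. -/
theorem localFieldAt_mul_of_map_eq {L : IntermediateField ℚ Qbar} (σ g : Γ)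
    (hg : L.map (g : Qbar →ₐ[ℚ] Qbar) = L) : localFieldAt q L (σ * g) = localFieldAt q L σ := by
  rw [localFieldAt, localFieldAt]
  congr 1
  conv_rhs => rw [← hg]
  rw [IntermediateField.map_map]
  rfl

/-- `ℚ_q(ι (r τ) σ K) = τ (ℚ_q(ι σ K))`. -/
theorem localFieldAt_localGaloisToGlobal_mul (K : IntermediateField ℚ Qbar)
    (τ : PadicAlgCl q ≃ₐ[ℚ_[q]] PadicAlgCl q) (σ : Γ) :
    localFieldAt q K (localGaloisToGlobal q τ * σ) =
      (localFieldAt q K σ).map (τ : PadicAlgCl q →ₐ[ℚ_[q]] PadicAlgCl q) := by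
  rw [localFieldAt, localFieldAt, map_localField, IntermediateField.map_map]
  rfl

/-! ### (PL1) when do `σ`, `σ'` define the same place of `K`? -/

/-- `σ` and `σ'` induce the same absolute value on `K`. -/
def SamePlace (K : IntermediateField ℚ Qbar) (σ σ' : Γ) : Prop :=
  ∀ x ∈ K, absAt q σ x = absAt q σ' x

theorem SamePlace.refl (K : IntermediateField ℚ Qbar) (σ : Γ) : SamePlace q K σ σ :=
  fun _ _ => rfl

theorem SamePlace.symm {K : IntermediateField ℚ Qbar} {σ σ' : Γ} (h : SamePlace q K σ σ') :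
    SamePlace q K σ' σ := fun x hx => (h x hx).symm

theorem SamePlace.trans {K : IntermediateField ℚ Qbar} {σ σ' σ'' : Γ}
    (h : SamePlace q K σ σ') (h' : SamePlace q K σ' σ'') : SamePlace q K σ σ'' :=
  fun x hx => (h x hx).trans (h' x hx)

theorem SamePlace.mono {K L : IntermediateField ℚ Qbar} (hKL : K ≤ L) {σ σ' : Γ}
    (h : SamePlace q L σ σ') : SamePlace q K σ σ' := fun x hx => h x (hKL hx)

/-- Double coset form `⇒` same place. -/
theorem samePlace_of_eq_mul {K : IntermediateField ℚ Qbar} {σ σ' : Γ}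
    (τ : PadicAlgCl q ≃ₐ[ℚ_[q]] PadicAlgCl q) {g : Γ} (hg : g ∈ K.fixingSubgroup)
    (h : σ' = localGaloisToGlobal q τ * σ * g) : SamePlace q K σ σ' := by
  intro x hx
  rw [h, absAt_mul, (IntermediateField.mem_fixingSubgroup_iff K g).mp hg x hx,
    absAt_localGaloisToGlobal_mul]

/-- **(PL1)**, hard direction: two embeddings of `K` inducing the same absolute value differ by an
element of the local Galois group. Double coset form. -/
theorem SamePlace.exists_eq_mul {K : IntermediateField ℚ Qbar} [FiniteDimensional ℚ K]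
    {σ σ' : Γ} (h : SamePlace q K σ σ') :
    ∃ τ : PadicAlgCl q ≃ₐ[ℚ_[q]] PadicAlgCl q, ∃ g ∈ K.fixingSubgroup,
      σ' = localGaloisToGlobal q τ * σ * g := by
  obtain ⟨θ, rfl⟩ := exists_eq_adjoin_simple K
  have hR : ∀ R : ℚ[X], ‖aeval (padicEmbedding q (σ θ)) R‖ =
      ‖aeval (padicEmbedding q (σ' θ)) R‖ := by
    intro R
    have h1 : ∀ ρ : Γ, aeval (padicEmbedding q (ρ θ)) R =
        padicEmbedding q (ρ (aeval θ R)) := by
      intro ρ
      rw [← AlgEquiv.coe_toAlgHom ρ, ← aeval_algHom_apply, ← aeval_algHom_apply]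
    rw [h1, h1]
    have hmem : aeval θ R ∈ ℚ⟮θ⟯ :=
      IntermediateField.algebra_adjoin_le_adjoin ℚ _ (aeval_mem_adjoin_singleton ℚ θ)
    exact h _ hmem
  obtain ⟨τ, hτ⟩ := exists_algEquiv_of_forall_rat q hR
  have hθ : localGaloisToGlobal q τ (σ θ) = σ' θ := by
    apply (padicEmbedding q).toRingHom.injective
    show padicEmbedding q (localGaloisToGlobal q τ (σ θ)) = padicEmbedding q (σ' θ)
    rw [padicEmbedding_localGaloisToGlobal, hτ]
  refine ⟨τ, (localGaloisToGlobal q τ * σ)⁻¹ * σ', ?_, by group⟩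
  rw [mem_fixingSubgroup_adjoin_iff]
  intro s hs
  rw [Set.mem_singleton_iff] at hs
  subst hs
  rw [AlgEquiv.mul_apply, ← hθ, ← AlgEquiv.mul_apply, ← AlgEquiv.mul_apply, mul_assoc,
    inv_mul_cancel]
  rfl

theorem samePlace_iff_exists_eq_mul {K : IntermediateField ℚ Qbar} [FiniteDimensional ℚ K]
    {σ σ' : Γ} :
    SamePlace q K σ σ' ↔ ∃ τ : PadicAlgCl q ≃ₐ[ℚ_[q]] PadicAlgCl q, ∃ g ∈ K.fixingSubgroup,
      σ' = localGaloisToGlobal q τ * σ * g :=
  ⟨fun h => h.exists_eq_mul q, fun ⟨τ, _, hg, h⟩ => samePlace_of_eq_mul q τ hg h⟩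

/-- **(PL1)**, embedding form: `σ`, `σ'` define the same place of `K` iff the embeddings
`ι ∘ σ'` and `ι ∘ σ` of `K` into `PadicAlgCl q` differ by an automorphism over `ℚ_q`. -/
theorem samePlace_iff_exists_algEquiv {K : IntermediateField ℚ Qbar} [FiniteDimensional ℚ K]
    {σ σ' : Γ} :
    SamePlace q K σ σ' ↔ ∃ τ : PadicAlgCl q ≃ₐ[ℚ_[q]] PadicAlgCl q,
      ∀ x ∈ K, padicEmbedding q (σ' x) = τ (padicEmbedding q (σ x)) := by
  constructor
  · intro h
    obtain ⟨τ, g, hg, rfl⟩ := h.exists_eq_mul q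
    refine ⟨τ, fun x hx => ?_⟩
    rw [AlgEquiv.mul_apply, (IntermediateField.mem_fixingSubgroup_iff K g).mp hg x hx,
      AlgEquiv.mul_apply, padicEmbedding_localGaloisToGlobal]
  · rintro ⟨τ, hτ⟩ x hx
    rw [absAt_apply, absAt_apply, hτ x hx]
    exact ((isometry_algEquiv q τ).norm_map_of_map_zero (map_zero τ) _).symm

/-- Same place `⇒` the local fields are conjugate. -/
theorem SamePlace.exists_map_eq {K : IntermediateField ℚ Qbar} [FiniteDimensional ℚ K]
    {σ σ' : Γ} (h : SamePlace q K σ σ') :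
    ∃ τ : PadicAlgCl q ≃ₐ[ℚ_[q]] PadicAlgCl q,
      (∀ x ∈ K, padicEmbedding q (σ' x) = τ (padicEmbedding q (σ x))) ∧
      localFieldAt q K σ' = (localFieldAt q K σ).map (τ : PadicAlgCl q →ₐ[ℚ_[q]] PadicAlgCl q) := by
  obtain ⟨τ, g, hg, rfl⟩ := h.exists_eq_mul q
  refine ⟨τ, fun x hx => ?_, ?_⟩
  · rw [AlgEquiv.mul_apply, (IntermediateField.mem_fixingSubgroup_iff K g).mp hg x hx,
      AlgEquiv.mul_apply, padicEmbedding_localGaloisToGlobal]
  · rw [← localFieldAt_localGaloisToGlobal_mul]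
    apply le_antisymm
    · rw [localFieldAt_le_iff]
      intro x hx
      rw [AlgEquiv.mul_apply, (IntermediateField.mem_fixingSubgroup_iff K g).mp hg x hx]
      exact padicEmbedding_apply_mem_localFieldAt q _ hx
    · rw [localFieldAt_le_iff]
      intro x hx
      have := padicEmbedding_apply_mem_localFieldAt q (localGaloisToGlobal q τ * σ * g) hx
      rwa [AlgEquiv.mul_apply, (IntermediateField.mem_fixingSubgroup_iff K g).mp hg x hx] at this

/-! ### The set of places of `K` over `q` -/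

/-- The absolute value on `K` induced by the embedding `ι ∘ σ`. -/
noncomputable def absOn (K : IntermediateField ℚ Qbar) (σ : Γ) : AbsoluteValue K ℝ :=
  (absAt q σ).comp (f := (algebraMap K Qbar)) (algebraMap K Qbar).injective

theorem absOn_apply (K : IntermediateField ℚ Qbar) (σ : Γ) (x : K) :
    absOn q K σ x = ‖padicEmbedding q (σ (x : Qbar))‖ := rfl

theorem absOn_eq_iff {K : IntermediateField ℚ Qbar} {σ σ' : Γ} :
    absOn q K σ = absOn q K σ' ↔ SamePlace q K σ σ' := by
  constructor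
  · intro h x hx
    exact congrArg (fun v : AbsoluteValue K ℝ => v ⟨x, hx⟩) h
  · intro h
    ext x
    exact h x x.2

/-- The places of `K` over `q`: the absolute values on `K` of the form `x ↦ ‖ι (σ x)‖`. -/
def PlacesOver (K : IntermediateField ℚ Qbar) : Type :=
  {v : AbsoluteValue K ℝ // ∃ σ : Γ, absOn q K σ = v}

/-- The place of `K` defined by `σ`. -/
noncomputable def placeOf (K : IntermediateField ℚ Qbar) (σ : Γ) : PlacesOver q K :=
  ⟨absOn q K σ, σ, rfl⟩

theorem placeOf_val (K : IntermediateField ℚ Qbar) (σ : Γ) :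
    (placeOf q K σ).1 = absOn q K σ := rfl

theorem placeOf_surjective (K : IntermediateField ℚ Qbar) :
    Function.Surjective (placeOf q K) := by
  rintro ⟨v, σ, rfl⟩
  exact ⟨σ, rfl⟩

theorem placeOf_eq_iff {K : IntermediateField ℚ Qbar} {σ σ' : Γ} :
    placeOf q K σ = placeOf q K σ' ↔ SamePlace q K σ σ' := by
  rw [← absOn_eq_iff]
  exact Subtype.ext_iff

/-- A chosen representative of a place. -/
noncomputable def PlacesOver.rep {K : IntermediateField ℚ Qbar} (w : PlacesOver q K) : Γ :=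
  Classical.choose w.2

@[simp]
theorem placeOf_rep {K : IntermediateField ℚ Qbar} (w : PlacesOver q K) :
    placeOf q K (PlacesOver.rep q w) = w :=
  Subtype.ext (Classical.choose_spec w.2)

theorem samePlace_rep_placeOf {K : IntermediateField ℚ Qbar} (σ : Γ) :
    SamePlace q K (PlacesOver.rep q (placeOf q K σ)) σ :=
  (placeOf_eq_iff q).mp (placeOf_rep q _)

/-- The absolute value attached to an embedding `j : K → ℚ̄`. -/
noncomputable def absOfEmb (K : IntermediateField ℚ Qbar) (j : K →ₐ[ℚ] Qbar) :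
    AbsoluteValue K ℝ :=
  (absQbar q).comp (f := (j : K →+* Qbar)) j.injective

theorem absOn_eq_absOfEmb (K : IntermediateField ℚ Qbar) (σ : Γ) :
    absOn q K σ = absOfEmb q K ((σ : Qbar →ₐ[ℚ] Qbar).comp K.val) := rfl

instance finite_placesOver (K : IntermediateField ℚ Qbar) [FiniteDimensional ℚ K] :
    Finite (PlacesOver q K) := by
  have hfin : (Set.range (absOfEmb q K)).Finite := Set.finite_range _
  have hsub : {v : AbsoluteValue K ℝ | ∃ σ : Γ, absOn q K σ = v} ⊆ Set.range (absOfEmb q K) := by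
    rintro _ ⟨σ, rfl⟩
    exact ⟨_, (absOn_eq_absOfEmb q K σ).symm⟩
  exact (hfin.subset hsub).to_subtype

instance nonempty_placesOver (K : IntermediateField ℚ Qbar) : Nonempty (PlacesOver q K) :=
  ⟨placeOf q K 1⟩

/-- The local field `K_w` at a place `w`, via the chosen representative. -/
noncomputable def PlacesOver.localField {K : IntermediateField ℚ Qbar} (w : PlacesOver q K) :
    IntermediateField ℚ_[q] (PadicAlgCl q) :=
  localFieldAt q K (PlacesOver.rep q w)

/-- The embedding `K → K_w`. -/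
noncomputable def embAt (K : IntermediateField ℚ Qbar) (σ : Γ) : K →+* localFieldAt q K σ :=
  (((padicEmbedding q : Qbar →+* PadicAlgCl q).comp (σ : Qbar →+* Qbar)).comp
    (algebraMap K Qbar)).codRestrict (localFieldAt q K σ).toSubfield
    (fun x => padicEmbedding_apply_mem_localFieldAt q σ x.2)

theorem coe_embAt (K : IntermediateField ℚ Qbar) (σ : Γ) (x : K) :
    (embAt q K σ x : PadicAlgCl q) = padicEmbedding q (σ (x : Qbar)) := rfl

theorem norm_embAt (K : IntermediateField ℚ Qbar) (σ : Γ) (x : K) :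
    ‖(embAt q K σ x : PadicAlgCl q)‖ = absOn q K σ x := rfl

/-! ### Restriction of places along `K ≤ L` -/

/-- Restriction of a place of `L` to `K`. -/
noncomputable def PlacesOver.restrict {K L : IntermediateField ℚ Qbar} (hKL : K ≤ L)
    (w : PlacesOver q L) : PlacesOver q K :=
  ⟨w.1.comp (f := ((IntermediateField.inclusion hKL : K →ₐ[ℚ] L) : K →+* L))
      (IntermediateField.inclusion hKL).injective, by
    obtain ⟨v, σ, rfl⟩ := w
    exact ⟨σ, rfl⟩⟩

theorem restrict_placeOf {K L : IntermediateField ℚ Qbar} (hKL : K ≤ L) (σ : Γ) :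
    (placeOf q L σ).restrict q hKL = placeOf q K σ := rfl

theorem restrict_surjective {K L : IntermediateField ℚ Qbar} (hKL : K ≤ L) :
    Function.Surjective (PlacesOver.restrict q hKL) := by
  intro v
  obtain ⟨σ, rfl⟩ := placeOf_surjective q K v
  exact ⟨placeOf q L σ, rfl⟩

/-- Two places of `L` with the same restriction to `K` (finite over `ℚ`) are represented by
`σ` and `σ * g` with `g ∈ G_K`. -/
theorem exists_mul_of_restrict_eq {K L : IntermediateField ℚ Qbar} [FiniteDimensional ℚ K]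
    (hKL : K ≤ L) {σ σ' : Γ}
    (h : (placeOf q L σ').restrict q hKL = (placeOf q L σ).restrict q hKL) :
    ∃ g ∈ K.fixingSubgroup, placeOf q L σ' = placeOf q L (σ * g) := by
  rw [restrict_placeOf, restrict_placeOf, placeOf_eq_iff] at h
  obtain ⟨τ, g, hg, rfl⟩ := (SamePlace.symm q h).exists_eq_mul q
  refine ⟨g, hg, ?_⟩
  rw [placeOf_eq_iff]
  intro x _
  rw [mul_assoc, absAt_localGaloisToGlobal_mul]

/-! ### The Galois action on places -/

/-- The subgroup of `Γ` mapping `L` onto itself. -/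
def stabField (L : IntermediateField ℚ Qbar) : Subgroup Γ where
  carrier := {g | L.map (g : Qbar →ₐ[ℚ] Qbar) = L}
  one_mem' := IntermediateField.map_id L
  mul_mem' := by
    intro g h hg hh
    show L.map ((g * h : Γ) : Qbar →ₐ[ℚ] Qbar) = L
    have : ((g * h : Γ) : Qbar →ₐ[ℚ] Qbar) = (g : Qbar →ₐ[ℚ] Qbar).comp (h : Qbar →ₐ[ℚ] Qbar) := rfl
    rw [this, ← IntermediateField.map_map, hh, hg]
  inv_mem' := by
    intro g hg
    show L.map ((g⁻¹ : Γ) : Qbar →ₐ[ℚ] Qbar) = L
    conv_lhs => rw [← (show L.map (g : Qbar →ₐ[ℚ] Qbar) = L from hg)]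
    rw [IntermediateField.map_map]
    have : ((g⁻¹ : Γ) : Qbar →ₐ[ℚ] Qbar).comp (g : Qbar →ₐ[ℚ] Qbar) = AlgHom.id ℚ Qbar := by
      ext x
      exact g.symm_apply_apply x
    rw [this, IntermediateField.map_id]

theorem mem_stabField_iff {L : IntermediateField ℚ Qbar} {g : Γ} :
    g ∈ stabField L ↔ L.map (g : Qbar →ₐ[ℚ] Qbar) = L := Iff.rfl

theorem apply_mem_of_mem_stabField {L : IntermediateField ℚ Qbar} {g : Γ} (hg : g ∈ stabField L)
    {x : Qbar} (hx : x ∈ L) : g x ∈ L := by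
  have : g x ∈ L.map (g : Qbar →ₐ[ℚ] Qbar) := ⟨x, hx, rfl⟩
  rwa [mem_stabField_iff.mp hg] at this

theorem mem_stabField_of_forall {L : IntermediateField ℚ Qbar} {g : Γ}
    (h1 : ∀ x ∈ L, g x ∈ L) (h2 : ∀ x ∈ L, g⁻¹ x ∈ L) : g ∈ stabField L := by
  rw [mem_stabField_iff]
  apply le_antisymm
  · rintro _ ⟨x, hx, rfl⟩
    exact h1 x hx
  · intro x hx
    exact ⟨g⁻¹ x, h2 x hx, g.apply_symm_apply x⟩

theorem fixingSubgroup_le_stabField (L : IntermediateField ℚ Qbar) :
    L.fixingSubgroup ≤ stabField L := by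
  intro g hg
  have h1 : ∀ x ∈ L, g x = x := (IntermediateField.mem_fixingSubgroup_iff L g).mp hg
  have h2 : ∀ x ∈ L, g⁻¹ x = x :=
    (IntermediateField.mem_fixingSubgroup_iff L g⁻¹).mp (inv_mem hg)
  exact mem_stabField_of_forall (fun x hx => by rw [h1 x hx]; exact hx)
    (fun x hx => by rw [h2 x hx]; exact hx)

theorem stabField_eq_top_of_normal (L : IntermediateField ℚ Qbar) [Normal ℚ L] :
    stabField L = ⊤ := by
  rw [eq_top_iff]
  intro g _
  exact (IntermediateField.normal_iff_forall_map_eq'.mp ‹Normal ℚ L›) g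

/-- The restriction to `L` of an automorphism stabilising `L`, as a ring endomorphism. -/
noncomputable def resHom (L : IntermediateField ℚ Qbar) (g : stabField L) : L →+* L :=
  (((g : Γ) : Qbar →+* Qbar).comp (algebraMap L Qbar)).codRestrict L.toSubfield
    (fun x => apply_mem_of_mem_stabField g.2 x.2)

theorem coe_resHom (L : IntermediateField ℚ Qbar) (g : stabField L) (x : L) :
    (resHom L g x : Qbar) = (g : Γ) (x : Qbar) := rfl

theorem resHom_injective (L : IntermediateField ℚ Qbar) (g : stabField L) :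
    Function.Injective (resHom L g) := (resHom L g).injective

/-- `stabField L` acts on the places of `L`: `(g • w)(x) = w(g⁻¹ x)`. -/
noncomputable instance mulActionPlaces (L : IntermediateField ℚ Qbar) :
    MulAction (stabField L) (PlacesOver q L) where
  smul g w := ⟨w.1.comp (resHom_injective L g⁻¹), by
    obtain ⟨v, σ, rfl⟩ := w
    exact ⟨σ * (g : Γ)⁻¹, rfl⟩⟩
  one_smul w := by
    apply Subtype.ext
    ext x
    rfl
  mul_smul g h w := by
    apply Subtype.ext
    ext x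
    show w.1 (resHom L (g * h)⁻¹ x) = w.1 (resHom L h⁻¹ (resHom L g⁻¹ x))
    congr 1

theorem smul_placeOf (L : IntermediateField ℚ Qbar) (g : stabField L) (σ : Γ) :
    g • placeOf q L σ = placeOf q L (σ * (g : Γ)⁻¹) := rfl

theorem smul_apply (L : IntermediateField ℚ Qbar) (g : stabField L) (w : PlacesOver q L) (x : L) :
    (g • w).1 x = w.1 (resHom L g⁻¹ x) := rfl

/-- Elements of `G_K` do not change the restriction to `K`. -/
theorem restrict_smul {K L : IntermediateField ℚ Qbar} (hKL : K ≤ L) (g : stabField L)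
    (hg : (g : Γ) ∈ K.fixingSubgroup) (w : PlacesOver q L) :
    (g • w).restrict q hKL = w.restrict q hKL := by
  obtain ⟨σ, rfl⟩ := placeOf_surjective q L w
  rw [smul_placeOf, restrict_placeOf, restrict_placeOf, placeOf_eq_iff]
  intro x hx
  rw [absAt_mul, (IntermediateField.mem_fixingSubgroup_iff K _).mp (inv_mem hg) x hx]

/-- If `L/K` is normal (`G_K` stabilises `L`), then `G_K` acts transitively on the places of `L`
above a given place of `K`. -/
theorem exists_smul_eq_of_restrict_eq {K L : IntermediateField ℚ Qbar} [FiniteDimensional ℚ K]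
    (hKL : K ≤ L) (hnorm : K.fixingSubgroup ≤ stabField L) {w w' : PlacesOver q L}
    (h : w'.restrict q hKL = w.restrict q hKL) :
    ∃ g : stabField L, (g : Γ) ∈ K.fixingSubgroup ∧ g • w = w' := by
  obtain ⟨σ, rfl⟩ := placeOf_surjective q L w
  obtain ⟨σ', rfl⟩ := placeOf_surjective q L w'
  obtain ⟨g, hg, hgw⟩ := exists_mul_of_restrict_eq q hKL h
  refine ⟨⟨g⁻¹, hnorm (inv_mem hg)⟩, inv_mem hg, ?_⟩
  rw [smul_placeOf, hgw, inv_inv]

/-! ### (PL4) decomposition groups -/

/-- `τ ↦ σ⁻¹ (r τ) σ`: the local Galois group mapped to the decomposition group of the place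
defined by `σ`. -/
noncomputable def conjLocal (σ : Γ) : (PadicAlgCl q ≃ₐ[ℚ_[q]] PadicAlgCl q) →* Γ :=
  (MulAut.conj σ⁻¹).toMonoidHom.comp (localGaloisToGlobal q)

theorem conjLocal_apply (σ : Γ) (τ : PadicAlgCl q ≃ₐ[ℚ_[q]] PadicAlgCl q) :
    conjLocal q σ τ = σ⁻¹ * localGaloisToGlobal q τ * σ := by
  simp [conjLocal]

theorem conjLocal_injective (σ : Γ) : Function.Injective (conjLocal q σ) := by
  intro τ τ' h
  rw [conjLocal_apply, conjLocal_apply] at h
  apply localGaloisToGlobal_injective q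
  have := congrArg (fun x => σ * x * σ⁻¹) h
  simpa [mul_assoc] using this

/-- `ι (σ (conjLocal σ τ x)) = τ (ι (σ x))`. -/
theorem padicEmbedding_conjLocal (σ : Γ) (τ : PadicAlgCl q ≃ₐ[ℚ_[q]] PadicAlgCl q) (x : Qbar) :
    padicEmbedding q (σ (conjLocal q σ τ x)) = τ (padicEmbedding q (σ x)) := by
  rw [conjLocal_apply, AlgEquiv.mul_apply, AlgEquiv.mul_apply, ← AlgEquiv.mul_apply σ,
    mul_inv_cancel, AlgEquiv.one_apply, padicEmbedding_localGaloisToGlobal]

/-- **(PL4a)** `Gal(PadicAlgCl q / K_σ) = (conjLocal σ)⁻¹ (G_K)`. -/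
theorem comap_conjLocal_fixingSubgroup (K : IntermediateField ℚ Qbar) (σ : Γ) :
    K.fixingSubgroup.comap (conjLocal q σ) = (localFieldAt q K σ).fixingSubgroup := by
  ext τ
  rw [Subgroup.mem_comap, IntermediateField.mem_fixingSubgroup_iff, localFieldAt, localField,
    mem_fixingSubgroup_adjoin_iff]
  constructor
  · rintro h _ ⟨_, ⟨x, hx, rfl⟩, rfl⟩
    have := padicEmbedding_conjLocal q σ τ x
    rw [h x hx] at this
    exact this.symm
  · intro h x hx
    apply σ.injective
    apply (padicEmbedding q).toRingHom.injective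
    show padicEmbedding q (σ (conjLocal q σ τ x)) = padicEmbedding q (σ x)
    rw [padicEmbedding_conjLocal]
    exact h _ ⟨_, ⟨x, hx, rfl⟩, rfl⟩

/-- The decomposition group fixes the place. -/
theorem samePlace_mul_conjLocal (L : IntermediateField ℚ Qbar) (σ : Γ)
    (τ : PadicAlgCl q ≃ₐ[ℚ_[q]] PadicAlgCl q) : SamePlace q L (σ * conjLocal q σ τ) σ := by
  intro x _
  rw [absAt_mul, absAt_apply, absAt_apply, padicEmbedding_conjLocal]
  exact (isometry_algEquiv q τ).norm_map_of_map_zero (map_zero τ) _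

/-- **(PL4b)** For `L` finite over `ℚ`: `g` fixes the place `w_σ` of `L` iff
`g ∈ (σ⁻¹ D_q σ) · G_L`. -/
theorem samePlace_mul_iff {L : IntermediateField ℚ Qbar} [FiniteDimensional ℚ L] (σ g : Γ) :
    SamePlace q L (σ * g) σ ↔
      ∃ τ : PadicAlgCl q ≃ₐ[ℚ_[q]] PadicAlgCl q, ∃ h ∈ L.fixingSubgroup,
        g = conjLocal q σ τ * h := by
  constructor
  · intro hs
    obtain ⟨τ, h, hh, heq⟩ := (SamePlace.symm q hs).exists_eq_mul q
    refine ⟨τ, h, hh, ?_⟩
    rw [conjLocal_apply]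
    have := congrArg (fun x => σ⁻¹ * x) heq
    simpa [mul_assoc] using this
  · rintro ⟨τ, h, hh, rfl⟩
    intro x hx
    rw [← mul_assoc, absAt_mul, (IntermediateField.mem_fixingSubgroup_iff L h).mp hh x hx]
    exact samePlace_mul_conjLocal q L σ τ x hx

/-- `G_L` is normalised by `stabField L`. -/
theorem conj_mem_fixingSubgroup {L : IntermediateField ℚ Qbar} {g h : Γ} (hg : g ∈ stabField L)
    (hh : h ∈ L.fixingSubgroup) : g * h * g⁻¹ ∈ L.fixingSubgroup := by
  rw [IntermediateField.mem_fixingSubgroup_iff]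
  intro x hx
  have hgx : g⁻¹ x ∈ L := apply_mem_of_mem_stabField (inv_mem hg) hx
  show g (h (g⁻¹ x)) = x
  rw [(IntermediateField.mem_fixingSubgroup_iff L h).mp hh _ hgx]
  exact g.apply_symm_apply x

/-- **(PL4b)**, action form. -/
theorem smul_placeOf_eq_iff {L : IntermediateField ℚ Qbar} [FiniteDimensional ℚ L]
    (g : stabField L) (σ : Γ) :
    g • placeOf q L σ = placeOf q L σ ↔
      ∃ τ : PadicAlgCl q ≃ₐ[ℚ_[q]] PadicAlgCl q, ∃ h ∈ L.fixingSubgroup,
        (g : Γ) = conjLocal q σ τ * h := by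
  rw [smul_placeOf, placeOf_eq_iff, samePlace_mul_iff]
  constructor
  · rintro ⟨τ, h, hh, heq⟩
    refine ⟨τ⁻¹, (g : Γ)⁻¹ * h⁻¹ * ((g : Γ)⁻¹)⁻¹,
      conj_mem_fixingSubgroup (inv_mem g.2) (inv_mem hh), ?_⟩
    have hc : conjLocal q σ τ = (g : Γ)⁻¹ * h⁻¹ := by rw [heq]; group
    rw [map_inv, hc]
    group
  · rintro ⟨τ, h, hh, heq⟩
    refine ⟨τ⁻¹, (g : Γ) * h⁻¹ * (g : Γ)⁻¹, conj_mem_fixingSubgroup g.2 (inv_mem hh), ?_⟩
    have hc : conjLocal q σ τ = (g : Γ) * h⁻¹ := by rw [heq]; group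
    rw [map_inv, hc]
    group

end Fermat.Agent.S55.GL.Places
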