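/-
S55 (T4), block GLO2 (Places), part 2: local degrees.
`∑_{w | q} [K_w : ℚ_q] = [K : ℚ]`.
-/
import Mathlib
import Fermat.Agent.S55.GL.Places

set_option autoImplicit false
set_option linter.style.haveILetI false

namespace Fermat.Agent.S55.GL.Places

open Polynomial IntermediateField Fermat.Agent.S55.LocalDict
open scoped Pointwise

variable (q : ℕ) [Fact q.Prime]

local notation "Qbar" => AlgebraicClosure ℚ
local notation "Γ" => (AlgebraicClosure ℚ ≃ₐ[ℚ] AlgebraicClosure ℚ)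

local instance isAlgebraicQbar_PD : Algebra.IsAlgebraic ℚ (AlgebraicClosure ℚ) :=
  AlgebraicClosure.isAlgebraic ℚ
local instance isAlgClosureQbar_PD : IsAlgClosure ℚ (AlgebraicClosure ℚ) :=
  ⟨inferInstance, inferInstance⟩
local instance normalQbar_PD : Normal ℚ (AlgebraicClosure ℚ) :=
  IsAlgClosure.normal ℚ (AlgebraicClosure ℚ)

/-- Two algebra homomorphisms out of `F(S)` into a division ring which agree on `S` are equal. -/
theorem algHom_ext_adjoin {F E A : Type*} [Field F] [Field E] [Algebra F E] [DivisionRing A]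
    [Algebra F A] (S : Set E) {φ ψ : IntermediateField.adjoin F S →ₐ[F] A}
    (h : ∀ s (hs : s ∈ S), φ ⟨s, subset_adjoin F S hs⟩ = ψ ⟨s, subset_adjoin F S hs⟩) :
    φ = ψ := by
  ext ⟨x, hx⟩
  induction hx using IntermediateField.adjoin_induction with
  | mem x hx => exact h x hx
  | algebraMap r =>
    have : (⟨algebraMap F E r, IntermediateField.algebraMap_mem _ r⟩ :
        IntermediateField.adjoin F S) = algebraMap F (IntermediateField.adjoin F S) r := rfl
    rw [this, φ.commutes, ψ.commutes]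
  | add x y hx hy ihx ihy =>
    have : (⟨x + y, add_mem hx hy⟩ : IntermediateField.adjoin F S) = ⟨x, hx⟩ + ⟨y, hy⟩ := rfl
    rw [this, map_add, map_add, ihx, ihy]
  | inv x hx ih =>
    have : (⟨x⁻¹, inv_mem hx⟩ : IntermediateField.adjoin F S) = (⟨x, hx⟩)⁻¹ := rfl
    rw [this, map_inv₀, map_inv₀, ih]
  | mul x y hx hy ihx ihy =>
    have : (⟨x * y, mul_mem hx hy⟩ : IntermediateField.adjoin F S) = ⟨x, hx⟩ * ⟨y, hy⟩ := rfl
    rw [this, map_mul, map_mul, ihx, ihy]

/-- `ℚ_q`-embeddings of subfields of `PadicAlgCl q` preserve the norm. -/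
theorem norm_algHom_apply (E : IntermediateField ℚ_[q] (PadicAlgCl q))
    (φ : E →ₐ[ℚ_[q]] PadicAlgCl q) (y : E) : ‖φ y‖ = ‖(y : PadicAlgCl q)‖ := by
  rw [← PadicAlgCl.spectralNorm_eq, ← PadicAlgCl.spectralNorm_eq, spectralNorm, spectralNorm,
    minpoly.algHom_eq φ φ.injective, ← minpoly.algHom_eq E.val E.val.injective]
  rfl

/-! ### Embeddings of `K` into `PadicAlgCl q` -/

/-- Every `ℚ`-embedding of `K` into `PadicAlgCl q` is `ι ∘ σ` for some `σ ∈ Γ`. -/
theorem exists_eq_padicEmbedding_comp (K : IntermediateField ℚ Qbar) [FiniteDimensional ℚ K]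
    (j : K →ₐ[ℚ] PadicAlgCl q) : ∃ σ : Γ, ∀ x : K, j x = padicEmbedding q (σ (x : Qbar)) := by
  obtain ⟨θ, rfl⟩ := exists_eq_adjoin_simple K
  set θ' : ℚ⟮θ⟯ := ⟨θ, IntermediateField.mem_adjoin_simple_self ℚ θ⟩ with hθ'
  have halg : IsAlgebraic ℚ (j θ') := by
    have : IsIntegral ℚ θ' := Algebra.IsIntegral.isIntegral θ'
    exact (this.map j).isAlgebraic
  obtain ⟨β, hβ⟩ := mem_range_padicEmbedding_of_isAlgebraic q halg
  -- `β` is conjugate to `θ`
  have hθint : IsIntegral ℚ θ := Algebra.IsIntegral.isIntegral θ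
  have hmin : aeval β (minpoly ℚ θ) = 0 := by
    apply (padicEmbedding q).toRingHom.injective
    show padicEmbedding q (aeval β (minpoly ℚ θ)) = padicEmbedding q 0
    rw [← aeval_algHom_apply, hβ, map_zero, aeval_algHom_apply]
    have h1 : aeval θ' (minpoly ℚ θ) = 0 := by
      apply Subtype.ext
      have := aeval_algHom_apply ℚ⟮θ⟯.val θ' (minpoly ℚ θ)
      rw [show ℚ⟮θ⟯.val θ' = θ from rfl, minpoly.aeval] at this
      exact this.symm
    rw [h1, map_zero]
  have hconj : IsConjRoot ℚ β θ := (isConjRoot_of_aeval_eq_zero hθint hmin).symm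
  obtain ⟨σ, hσ⟩ := isConjRoot_iff_exists_algEquiv.mp hconj
  refine ⟨σ, ?_⟩
  -- two algebra maps agreeing on the generator
  let ψ : ℚ⟮θ⟯ →ₐ[ℚ] PadicAlgCl q :=
    ((padicEmbedding q).comp (σ : Qbar →ₐ[ℚ] Qbar)).comp ℚ⟮θ⟯.val
  have : j = ψ := by
    apply algHom_ext_adjoin
    intro s hs
    rw [Set.mem_singleton_iff] at hs
    subst hs
    show j θ' = padicEmbedding q (σ s)
    rw [hσ, hβ]
  intro x
  rw [this]
  rfl

/-- The absolute value on `K` induced by an embedding into `PadicAlgCl q`. -/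
noncomputable def absOfHom (K : IntermediateField ℚ Qbar) (j : K →ₐ[ℚ] PadicAlgCl q) :
    AbsoluteValue K ℝ where
  toFun x := ‖j x‖
  map_mul' x y := by rw [map_mul, norm_mul]
  nonneg' x := norm_nonneg _
  eq_zero' x := by rw [norm_eq_zero, map_eq_zero]
  add_le' x y := by rw [map_add]; exact norm_add_le _ _

/-- The place of `K` induced by an embedding into `PadicAlgCl q`. -/
noncomputable def placeOfHom (K : IntermediateField ℚ Qbar) [FiniteDimensional ℚ K]
    (j : K →ₐ[ℚ] PadicAlgCl q) : PlacesOver q K :=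
  ⟨absOfHom q K j, by
    obtain ⟨σ, hσ⟩ := exists_eq_padicEmbedding_comp q K j
    refine ⟨σ, ?_⟩
    ext x
    show ‖padicEmbedding q (σ (x : Qbar))‖ = ‖j x‖
    rw [hσ]⟩

theorem placeOfHom_apply (K : IntermediateField ℚ Qbar) [FiniteDimensional ℚ K]
    (j : K →ₐ[ℚ] PadicAlgCl q) (x : K) : (placeOfHom q K j).1 x = ‖j x‖ := rfl

theorem rep_apply {K : IntermediateField ℚ Qbar} (w : PlacesOver q K) (x : K) :
    ‖padicEmbedding q (PlacesOver.rep q w (x : Qbar))‖ = w.1 x := by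
  have := congrArg (fun v : PlacesOver q K => v.1 x) (placeOf_rep q w)
  exact this

/-- `embAt` sends rationals to rationals. -/
theorem embAt_algebraMap (K : IntermediateField ℚ Qbar) (σ : Γ) (r : ℚ) :
    embAt q K σ (algebraMap ℚ K r) = algebraMap ℚ_[q] (localFieldAt q K σ) (r : ℚ_[q]) := by
  apply Subtype.ext
  rw [coe_embAt]
  show padicEmbedding q (σ (algebraMap ℚ Qbar r)) = algebraMap ℚ_[q] (PadicAlgCl q) (r : ℚ_[q])
  rw [AlgEquiv.commutes, AlgHom.commutes]
  exact IsScalarTower.algebraMap_apply ℚ ℚ_[q] (PadicAlgCl q) r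

/-- The embedding `K → PadicAlgCl q` attached to `σ` and a `ℚ_q`-embedding of `ℚ_q(ι σ K)`. -/
noncomputable def homOfLocal (K : IntermediateField ℚ Qbar) (σ : Γ)
    (φ : localFieldAt q K σ →ₐ[ℚ_[q]] PadicAlgCl q) : K →ₐ[ℚ] PadicAlgCl q where
  toFun x := φ (embAt q K σ x)
  map_one' := by rw [map_one, map_one]
  map_mul' x y := by rw [map_mul, map_mul]
  map_zero' := by rw [map_zero, map_zero]
  map_add' x y := by rw [map_add, map_add]
  commutes' r := by
    rw [embAt_algebraMap, φ.commutes]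
    exact (IsScalarTower.algebraMap_apply ℚ ℚ_[q] (PadicAlgCl q) r).symm

theorem homOfLocal_apply (K : IntermediateField ℚ Qbar) (σ : Γ)
    (φ : localFieldAt q K σ →ₐ[ℚ_[q]] PadicAlgCl q) (x : K) :
    homOfLocal q K σ φ x = φ (embAt q K σ x) := rfl

theorem placeOfHom_homOfLocal (K : IntermediateField ℚ Qbar) [FiniteDimensional ℚ K] (σ : Γ)
    (φ : localFieldAt q K σ →ₐ[ℚ_[q]] PadicAlgCl q) :
    placeOfHom q K (homOfLocal q K σ φ) = placeOf q K σ := by
  apply Subtype.ext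
  ext x
  show ‖φ (embAt q K σ x)‖ = ‖padicEmbedding q (σ (x : Qbar))‖
  rw [norm_algHom_apply, coe_embAt]

theorem homOfLocal_injective (K : IntermediateField ℚ Qbar) (σ : Γ) :
    Function.Injective (homOfLocal q K σ) := by
  intro φ ψ h
  refine algHom_ext_adjoin (F := ℚ_[q]) (E := PadicAlgCl q)
    (padicEmbedding q '' ((K.map (σ : Qbar →ₐ[ℚ] Qbar) : IntermediateField ℚ Qbar) : Set Qbar))
    (φ := φ) (ψ := ψ) ?_
  rintro _ ⟨_, ⟨x, hx, rfl⟩, rfl⟩
  exact congrArg (fun j : K →ₐ[ℚ] PadicAlgCl q => j ⟨x, hx⟩) h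

theorem exists_homOfLocal_eq (K : IntermediateField ℚ Qbar) [FiniteDimensional ℚ K] (σ : Γ)
    (j : K →ₐ[ℚ] PadicAlgCl q) (hj : placeOfHom q K j = placeOf q K σ) :
    ∃ φ : localFieldAt q K σ →ₐ[ℚ_[q]] PadicAlgCl q, homOfLocal q K σ φ = j := by
  obtain ⟨σ', hσ'⟩ := exists_eq_padicEmbedding_comp q K j
  have hs : SamePlace q K σ σ' := by
    intro x hx
    have := congrArg (fun v : PlacesOver q K => v.1 ⟨x, hx⟩) hj
    simp only [placeOfHom_apply, placeOf_val, absOn_apply] at this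
    rw [absAt_apply, absAt_apply, ← this, hσ']
  obtain ⟨τ, hτ⟩ := (samePlace_iff_exists_algEquiv q).mp hs
  refine ⟨(τ : PadicAlgCl q →ₐ[ℚ_[q]] PadicAlgCl q).comp (localFieldAt q K σ).val, ?_⟩
  ext x
  rw [homOfLocal_apply, hσ']
  exact (hτ x x.2).symm

/-! ### (PL3) the degree formula -/

noncomputable instance fintypePlacesOver (K : IntermediateField ℚ Qbar) [FiniteDimensional ℚ K] :
    Fintype (PlacesOver q K) := Fintype.ofFinite _

/-- The embeddings inducing the place `w` correspond to the `ℚ_q`-embeddings of `K_w`. -/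
noncomputable def fiberEquiv (K : IntermediateField ℚ Qbar) [FiniteDimensional ℚ K]
    (w : PlacesOver q K) :
    (localFieldAt q K (PlacesOver.rep q w) →ₐ[ℚ_[q]] PadicAlgCl q) ≃
      {j : K →ₐ[ℚ] PadicAlgCl q // placeOfHom q K j = w} :=
  Equiv.ofBijective
    (fun φ => ⟨homOfLocal q K (PlacesOver.rep q w) φ, by
      rw [placeOfHom_homOfLocal, placeOf_rep]⟩)
    ⟨fun φ ψ h => homOfLocal_injective q K _ (congrArg Subtype.val h), fun ⟨j, hj⟩ => by
      obtain ⟨φ, hφ⟩ := exists_homOfLocal_eq q K (PlacesOver.rep q w) j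
        (by rw [hj, placeOf_rep])
      exact ⟨φ, Subtype.ext hφ⟩⟩

theorem natCard_algHom_localFieldAt (K : IntermediateField ℚ Qbar) [FiniteDimensional ℚ K]
    (σ : Γ) :
    Nat.card (localFieldAt q K σ →ₐ[ℚ_[q]] PadicAlgCl q) =
      Module.finrank ℚ_[q] (localFieldAt q K σ) :=
  AlgHom.natCard_of_splits ℚ_[q] (localFieldAt q K σ) (PadicAlgCl q)
    (fun _ => IsAlgClosed.splits _)

/-- **(PL3)** `∑_{w | q} [K_w : ℚ_q] = [K : ℚ]`. -/
theorem sum_finrank_localField (K : IntermediateField ℚ Qbar) [FiniteDimensional ℚ K] :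
    ∑ w : PlacesOver q K, Module.finrank ℚ_[q] (PlacesOver.localField q w) =
      Module.finrank ℚ K := by
  have h1 : Nat.card (K →ₐ[ℚ] PadicAlgCl q) = Module.finrank ℚ K :=
    AlgHom.natCard_of_splits ℚ K (PadicAlgCl q) (fun _ => IsAlgClosed.splits _)
  rw [← h1, Nat.card_congr (Equiv.sigmaFiberEquiv (placeOfHom q K)).symm, Nat.card_sigma]
  refine Finset.sum_congr rfl fun w _ => ?_
  rw [← Nat.card_congr (fiberEquiv q K w), natCard_algHom_localFieldAt]
  rfl

end Fermat.Agent.S55.GL.Places
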