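/-
S55 (T4), block GLO2 (Places), part 3: decomposition groups at finite level.
For `K ≤ L` finite with `L/K` normal: the stabiliser of a place `w` of `L` in `G_K` is
`(σ⁻¹ D_q σ ∩ G_K) · G_L`, and `#{w | v} · [L_w : K_v] = [L : K]`.
-/
import Mathlib
import Fermat.Agent.S55.GL.PlacesDeg

set_option autoImplicit false
set_option linter.style.haveILetI false

namespace Fermat.Agent.S55.GL.Places

open Polynomial IntermediateField Fermat.Agent.S55.LocalDict
open scoped Pointwise

variable (q : ℕ) [Fact q.Prime]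

local notation "Qbar" => AlgebraicClosure ℚ
local notation "Γ" => (AlgebraicClosure ℚ ≃ₐ[ℚ] AlgebraicClosure ℚ)

local instance isAlgebraicQbar_PDc : Algebra.IsAlgebraic ℚ (AlgebraicClosure ℚ) :=
  AlgebraicClosure.isAlgebraic ℚ
local instance isAlgClosureQbar_PDc : IsAlgClosure ℚ (AlgebraicClosure ℚ) :=
  ⟨inferInstance, inferInstance⟩
local instance normalQbar_PDc : Normal ℚ (AlgebraicClosure ℚ) :=
  IsAlgClosure.normal ℚ (AlgebraicClosure ℚ)

/-- The local degree `[ℚ_q(ι σ L) : ℚ_q(ι σ K)]`. -/
noncomputable def localDeg (K L : IntermediateField ℚ Qbar) (σ : Γ) : ℕ :=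
  IntermediateField.relfinrank (localFieldAt q K σ) (localFieldAt q L σ)

theorem finrank_mul_localDeg {K L : IntermediateField ℚ Qbar} (hKL : K ≤ L) (σ : Γ) :
    Module.finrank ℚ_[q] (localFieldAt q K σ) * localDeg q K L σ =
      Module.finrank ℚ_[q] (localFieldAt q L σ) :=
  IntermediateField.finrank_bot_mul_relfinrank (localFieldAt_mono q hKL σ)

/-- The local degree as a relative index of Galois groups. -/
theorem localDeg_eq_relIndex {K L : IntermediateField ℚ Qbar} [FiniteDimensional ℚ K]
    [FiniteDimensional ℚ L] (hKL : K ≤ L) (σ : Γ) :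
    localDeg q K L σ =
      (localFieldAt q L σ).fixingSubgroup.relIndex (localFieldAt q K σ).fixingSubgroup := by
  have h1 := finrank_mul_localDeg q hKL σ
  have h2 : (localFieldAt q L σ).fixingSubgroup.relIndex (localFieldAt q K σ).fixingSubgroup *
      (localFieldAt q K σ).fixingSubgroup.index = (localFieldAt q L σ).fixingSubgroup.index :=
    Subgroup.relIndex_mul_index
      (IntermediateField.fixingSubgroup_antitone (localFieldAt_mono q hKL σ))
  rw [← IntermediateField.finrank_eq_fixingSubgroup_index,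
    ← IntermediateField.finrank_eq_fixingSubgroup_index] at h2
  have hpos : 0 < Module.finrank ℚ_[q] (localFieldAt q K σ) := Module.finrank_pos
  apply Nat.eq_of_mul_eq_mul_left hpos
  rw [h1, ← h2, mul_comm]

/-- The local degree only depends on the place of `L`. -/
theorem localDeg_eq_of_samePlace {K L : IntermediateField ℚ Qbar} [FiniteDimensional ℚ L]
    (hKL : K ≤ L) {σ σ' : Γ} (h : SamePlace q L σ σ') :
    localDeg q K L σ' = localDeg q K L σ := by
  obtain ⟨τ, g, hg, rfl⟩ := h.exists_eq_mul q
  have hgK : g ∈ K.fixingSubgroup := IntermediateField.fixingSubgroup_antitone hKL hg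
  have hL : L.map (g : Qbar →ₐ[ℚ] Qbar) = L := fixingSubgroup_le_stabField L hg
  have hK : K.map (g : Qbar →ₐ[ℚ] Qbar) = K := fixingSubgroup_le_stabField K hgK
  rw [localDeg, localDeg, localFieldAt_mul_of_map_eq q _ g hL, localFieldAt_mul_of_map_eq q _ g hK,
    localFieldAt_localGaloisToGlobal_mul, localFieldAt_localGaloisToGlobal_mul,
    IntermediateField.relfinrank_map_map]

/-- The local degree is unchanged by `σ ↦ σ * g` when `g` stabilises `K` and `L`. -/
theorem localDeg_mul_of_map_eq {K L : IntermediateField ℚ Qbar} (σ g : Γ)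
    (hK : K.map (g : Qbar →ₐ[ℚ] Qbar) = K) (hL : L.map (g : Qbar →ₐ[ℚ] Qbar) = L) :
    localDeg q K L (σ * g) = localDeg q K L σ := by
  rw [localDeg, localDeg, localFieldAt_mul_of_map_eq q _ g hL, localFieldAt_mul_of_map_eq q _ g hK]

/-! ### Global degrees as indices -/

theorem isGalois_Qbar : IsGalois ℚ Qbar := { to_normal := normalQbar_PDc }

theorem finrank_eq_index (K : IntermediateField ℚ Qbar) :
    Module.finrank ℚ K = K.fixingSubgroup.index := by
  haveI := isGalois_Qbar
  exact IntermediateField.finrank_eq_fixingSubgroup_index (F := ℚ) (E' := Qbar) K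

theorem relIndex_mul_finrank {K L : IntermediateField ℚ Qbar} (hKL : K ≤ L) :
    L.fixingSubgroup.relIndex K.fixingSubgroup * Module.finrank ℚ K = Module.finrank ℚ L := by
  rw [finrank_eq_index, finrank_eq_index]
  exact Subgroup.relIndex_mul_index (IntermediateField.fixingSubgroup_antitone hKL)

/-! ### The stabiliser of a place in `G_K` -/

section NormalExt

variable {K L : IntermediateField ℚ Qbar}

/-- `G_L` is normal in `stabField L`. -/
instance normal_fixingSubgroup_subgroupOf (L : IntermediateField ℚ Qbar) :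
    (L.fixingSubgroup.subgroupOf (stabField L)).Normal := by
  constructor
  intro n hn g
  rw [Subgroup.mem_subgroupOf] at hn ⊢
  exact conj_mem_fixingSubgroup g.2 hn

/-- **(PL4b)**, subgroup form: inside `stabField L`, the stabiliser of the place `w_σ` of `L`
intersected with `G_K` is `(σ⁻¹ D_q σ ∩ G_K) · G_L`. -/
theorem stabilizer_inf_eq [FiniteDimensional ℚ L] (hKL : K ≤ L)
    (hnorm : K.fixingSubgroup ≤ stabField L) (σ : Γ) :
    MulAction.stabilizer (stabField L) (placeOf q L σ) ⊓
        K.fixingSubgroup.subgroupOf (stabField L) =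
      ((conjLocal q σ).range ⊓ K.fixingSubgroup).subgroupOf (stabField L) ⊔
        L.fixingSubgroup.subgroupOf (stabField L) := by
  have hLK : L.fixingSubgroup ≤ K.fixingSubgroup := IntermediateField.fixingSubgroup_antitone hKL
  ext g
  rw [Subgroup.mem_inf, MulAction.mem_stabilizer_iff, Subgroup.mem_subgroupOf,
    Subgroup.mem_sup_of_normal_right]
  constructor
  · rintro ⟨hgw, hgK⟩
    obtain ⟨τ, h, hh, heq⟩ := (smul_placeOf_eq_iff q g σ).mp hgw
    have hc : conjLocal q σ τ ∈ K.fixingSubgroup := by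
      have : conjLocal q σ τ = (g : Γ) * h⁻¹ := by rw [heq]; group
      rw [this]
      exact mul_mem hgK (inv_mem (hLK hh))
    refine ⟨⟨conjLocal q σ τ, hnorm hc⟩, ?_, ⟨h, fixingSubgroup_le_stabField L hh⟩, ?_, ?_⟩
    · rw [Subgroup.mem_subgroupOf]
      exact ⟨⟨τ, rfl⟩, hc⟩
    · rw [Subgroup.mem_subgroupOf]
      exact hh
    · apply Subtype.ext
      exact heq.symm
  · rintro ⟨y, hy, z, hz, rfl⟩
    rw [Subgroup.mem_subgroupOf] at hy hz
    obtain ⟨⟨τ, hτ⟩, hyK⟩ := hy
    refine ⟨?_, mul_mem hyK (hLK hz)⟩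
    rw [smul_placeOf_eq_iff]
    exact ⟨τ, (z : Γ), hz, by rw [hτ]; rfl⟩

/-- The `G_K`-orbit of a place of `L` is the fibre over its restriction to `K`. -/
theorem orbit_eq_fiber [FiniteDimensional ℚ K] (hKL : K ≤ L)
    (hnorm : K.fixingSubgroup ≤ stabField L) (w : PlacesOver q L) :
    MulAction.orbit (K.fixingSubgroup.subgroupOf (stabField L)) w =
      {w' : PlacesOver q L | w'.restrict q hKL = w.restrict q hKL} := by
  ext w'
  constructor
  · rintro ⟨g, rfl⟩
    exact restrict_smul q hKL (g : stabField L) (Subgroup.mem_subgroupOf.mp g.2) w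
  · intro h
    obtain ⟨g, hgK, hgw⟩ := exists_smul_eq_of_restrict_eq q hKL hnorm h
    exact ⟨⟨g, Subgroup.mem_subgroupOf.mpr hgK⟩, hgw⟩

/-- **(PL4c)** `#{w' | v} · [L_w : K_v] = [L : K]` for `L/K` normal, in index form:
`#{w' | w'|_K = w|_K} * localDeg = (G_K : G_L)`. -/
theorem ncard_fiber_mul_localDeg [FiniteDimensional ℚ K] [FiniteDimensional ℚ L] (hKL : K ≤ L)
    (hnorm : K.fixingSubgroup ≤ stabField L) (σ : Γ) :
    {w' : PlacesOver q L | w'.restrict q hKL = placeOf q K σ}.ncard * localDeg q K L σ =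
      L.fixingSubgroup.relIndex K.fixingSubgroup := by
  have hLK : L.fixingSubgroup ≤ K.fixingSubgroup := IntermediateField.fixingSubgroup_antitone hKL
  set A := K.fixingSubgroup.subgroupOf (stabField L) with hA
  set B := L.fixingSubgroup.subgroupOf (stabField L) with hB
  set St := MulAction.stabilizer (stabField L) (placeOf q L σ) with hSt
  -- orbit-stabiliser
  have h1 : {w' : PlacesOver q L | w'.restrict q hKL = placeOf q K σ}.ncard = St.relIndex A := by
    have := orbit_eq_fiber q hKL hnorm (placeOf q L σ)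
    rw [restrict_placeOf] at this
    rw [← this, ← MulAction.index_stabilizer]
    rw [Subgroup.relIndex]
    congr 1
  -- the local degree
  have h2 : localDeg q K L σ = B.relIndex (St ⊓ A) := by
    rw [hSt, hA, stabilizer_inf_eq q hKL hnorm σ, Subgroup.relIndex_sup_right,
      Subgroup.relIndex_subgroupOf (inf_le_right.trans hnorm), localDeg_eq_relIndex q hKL,
      ← comap_conjLocal_fixingSubgroup, ← comap_conjLocal_fixingSubgroup,
      Subgroup.relIndex_comap, Subgroup.map_comap_eq]
  have hBA : B ≤ St ⊓ A := by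
    rw [hSt, hA, stabilizer_inf_eq q hKL hnorm σ]
    exact le_sup_right
  have h3 : B.relIndex (St ⊓ A) * (St ⊓ A).relIndex A = B.relIndex A :=
    Subgroup.relIndex_mul_relIndex _ _ _ hBA inf_le_right
  rw [Subgroup.inf_relIndex_right] at h3
  rw [h1, h2, mul_comm, h3, hB, hA, Subgroup.relIndex_subgroupOf hnorm]

/-- **(PL4c)** `#{w' | v} · [L_w : K_v] · [K : ℚ] = [L : ℚ]`. -/
theorem ncard_fiber_mul_localDeg_mul_finrank [FiniteDimensional ℚ K] [FiniteDimensional ℚ L]
    (hKL : K ≤ L) (hnorm : K.fixingSubgroup ≤ stabField L) (σ : Γ) :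
    {w' : PlacesOver q L | w'.restrict q hKL = placeOf q K σ}.ncard * localDeg q K L σ *
      Module.finrank ℚ K = Module.finrank ℚ L := by
  rw [ncard_fiber_mul_localDeg q hKL hnorm σ, relIndex_mul_finrank hKL]

end NormalExt

end Fermat.Agent.S55.GL.Places
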