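/-
S55 (T4), block GLO2 (Places), part 4 (= PL5 preliminaries): the completion picture.
* `ι σ L` is dense in `ℚ_q(ι σ L)`; same value group and residue field.
(The integers of `PadicAlgCl q` are in `S55/LocalInt.lean`.)
-/
import Mathlib
import Fermat.Agent.S55.GL.PlacesDecomp

set_option autoImplicit false
set_option linter.style.haveILetI false

namespace Fermat.Agent.S55.GL.PlacesComplete

open Polynomial IntermediateField Fermat.Agent.S55.LocalDict Fermat.Agent.S55.GL.Places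
open scoped Pointwise

variable (q : ℕ) [Fact q.Prime]

local notation "Qbar" => AlgebraicClosure ℚ
local notation "Γ" => (AlgebraicClosure ℚ ≃ₐ[ℚ] AlgebraicClosure ℚ)

/-! ### Density of `ι σ L` in `ℚ_q(ι σ L)` -/

/-- Polynomial values `P(a)`, `P ∈ ℚ_q[X]`, are approximated by `R(a)`, `R ∈ ℚ[X]`. -/
theorem exists_rat_poly_norm_sub_lt (a : PadicAlgCl q) (P : ℚ_[q][X]) {ε : ℝ} (hε : 0 < ε) :
    ∃ R : ℚ[X], ‖aeval a P - aeval a R‖ < ε := by
  set n := P.natDegree + 1 with hn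
  let Φ : (ℕ → ℚ_[q]) → PadicAlgCl q := fun c =>
    ∑ i ∈ Finset.range n, algebraMap ℚ_[q] (PadicAlgCl q) (c i) * a ^ i
  have hΦc : Continuous Φ := by
    refine continuous_finsetSum _ fun i _ => ?_
    exact ((continuous_algebraMap ℚ_[q] (PadicAlgCl q)).comp (continuous_apply i)).mul
      continuous_const
  have hP : aeval a P = Φ (fun i => P.coeff i) := by
    rw [aeval_eq_sum_range]
    refine Finset.sum_congr rfl fun i _ => ?_
    rw [Algebra.smul_def]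
  have hopen : IsOpen {c : ℕ → ℚ_[q] | ‖aeval a P - Φ c‖ < ε} :=
    isOpen_lt (continuous_const.sub hΦc).norm continuous_const
  have hne : {c : ℕ → ℚ_[q] | ‖aeval a P - Φ c‖ < ε}.Nonempty :=
    ⟨fun i => P.coeff i, by
      show ‖aeval a P - Φ _‖ < ε
      rw [hP, sub_self, norm_zero]; exact hε⟩
  have hdense : DenseRange (Pi.map (fun (_ : ℕ) => (algebraMap ℚ ℚ_[q]))) :=
    DenseRange.piMap fun _ => Padic.denseRange_ratCast q
  obtain ⟨r, hr⟩ := hdense.exists_mem_open hopen hne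
  refine ⟨∑ i ∈ Finset.range n, C (r i) * X ^ i, ?_⟩
  have key : Φ (Pi.map (fun (_ : ℕ) => (algebraMap ℚ ℚ_[q])) r) =
      aeval a (∑ i ∈ Finset.range n, C (r i) * X ^ i : ℚ[X]) := by
    simp only [Φ, Pi.map_apply, map_sum, map_mul, map_pow, aeval_C, aeval_X]
    refine Finset.sum_congr rfl fun i _ => ?_
    rw [← IsScalarTower.algebraMap_apply ℚ ℚ_[q] (PadicAlgCl q)]
  rw [← key]
  exact hr

/-- **Density**: `ι σ L` is dense in `ℚ_q(ι σ L)`. -/
theorem exists_norm_sub_lt (L : IntermediateField ℚ Qbar) [FiniteDimensional ℚ L] (σ : Γ)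
    {y : PadicAlgCl q} (hy : y ∈ localFieldAt q L σ) {ε : ℝ} (hε : 0 < ε) :
    ∃ x ∈ L, ‖y - padicEmbedding q (σ x)‖ < ε := by
  obtain ⟨θ, rfl⟩ := exists_eq_adjoin_simple L
  have hmap : (ℚ⟮θ⟯).map (σ : Qbar →ₐ[ℚ] Qbar) = ℚ⟮σ θ⟯ := by
    rw [IntermediateField.adjoin_map, Set.image_singleton]
    rfl
  rw [localFieldAt, hmap, localField_adjoin_simple] at hy
  set a := padicEmbedding q (σ θ) with ha
  have halg : IsAlgebraic ℚ_[q] a := Algebra.IsAlgebraic.isAlgebraic a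
  have hy' : y ∈ (ℚ_[q]⟮a⟯).toSubalgebra := hy
  rw [IntermediateField.adjoin_simple_toSubalgebra_of_isAlgebraic halg,
    Algebra.adjoin_singleton_eq_range_aeval] at hy'
  obtain ⟨P, rfl⟩ := hy'
  obtain ⟨R, hR⟩ := exists_rat_poly_norm_sub_lt q a P hε
  refine ⟨aeval θ R, IntermediateField.algebra_adjoin_le_adjoin ℚ _
    (aeval_mem_adjoin_singleton ℚ θ), ?_⟩
  have : padicEmbedding q (σ (aeval θ R)) = aeval a R := by
    rw [← AlgEquiv.coe_toAlgHom σ, ← aeval_algHom_apply, ← aeval_algHom_apply]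
    rfl
  rw [this]
  exact hR

/-- Ultrametric: `‖y - z‖ < ‖y‖ → ‖z‖ = ‖y‖`. -/
theorem norm_eq_of_norm_sub_lt {y z : PadicAlgCl q} (h : ‖y - z‖ < ‖y‖) : ‖z‖ = ‖y‖ := by
  have h1 : z = y + (z - y) := by ring
  have h2 : ‖z - y‖ < ‖y‖ := by rwa [norm_sub_rev]
  rw [h1, IsUltrametricDist.norm_add_eq_max_of_norm_ne_norm h2.ne', max_eq_left h2.le]

/-- Same value group: every nonzero `y ∈ ℚ_q(ι σ L)` has the norm of some `ι (σ x)`, `x ∈ L`. -/
theorem exists_norm_eq (L : IntermediateField ℚ Qbar) [FiniteDimensional ℚ L] (σ : Γ)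
    {y : PadicAlgCl q} (hy : y ∈ localFieldAt q L σ) (hy0 : y ≠ 0) :
    ∃ x ∈ L, x ≠ 0 ∧ ‖padicEmbedding q (σ x)‖ = ‖y‖ := by
  obtain ⟨x, hx, hlt⟩ := exists_norm_sub_lt q L σ hy (norm_pos_iff.mpr hy0)
  have hnorm : ‖padicEmbedding q (σ x)‖ = ‖y‖ := norm_eq_of_norm_sub_lt q hlt
  refine ⟨x, hx, ?_, hnorm⟩
  rintro rfl
  rw [map_zero, map_zero, norm_zero] at hnorm
  exact hy0 (norm_eq_zero.mp hnorm.symm)

/-- Same residue field: every `y ∈ ℚ_q(ι σ L)` with `‖y‖ ≤ 1` is congruent modulo the maximal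
ideal to some `ι (σ x)`, `x ∈ L`, `‖ι (σ x)‖ ≤ 1`. -/
theorem exists_norm_sub_lt_one (L : IntermediateField ℚ Qbar) [FiniteDimensional ℚ L] (σ : Γ)
    {y : PadicAlgCl q} (hy : y ∈ localFieldAt q L σ) (hy1 : ‖y‖ ≤ 1) :
    ∃ x ∈ L, ‖padicEmbedding q (σ x)‖ ≤ 1 ∧ ‖y - padicEmbedding q (σ x)‖ < 1 := by
  obtain ⟨x, hx, hlt⟩ := exists_norm_sub_lt q L σ hy one_pos
  refine ⟨x, hx, ?_, hlt⟩
  have h1 : padicEmbedding q (σ x) = y + -(y - padicEmbedding q (σ x)) := by ring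
  rw [h1]
  refine (IsUltrametricDist.norm_add_le_max _ _).trans (max_le hy1 ?_)
  rw [norm_neg]
  exact hlt.le

end Fermat.Agent.S55.GL.PlacesComplete
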