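/-
S55 (T4), block GLO3 (helper3): coinduced function modules, abstractly (no fields).

`φ : D →* G` a group homomorphism, `Ω` a commutative group with an action of `D`.
* `coindFun φ ≤ (G → Ω)` : functions with `f (φ d * g) = d • f g`; `G` acts by right translation.
  (For `G = Gal(L/ℚ)`, `D = Gal(L_q/ℚ_q)`, `Ω = L_q^×`, `φ = resLoc` this is `∏_{w ∣ q} L_w^×`.)
* `single φ hφ g₀ b` : the function supported on the coset `φ(D) g₀` with value `b` at `g₀`.
* For a finite family `φ i : D i →* G` (all injective) and a subgroup `H ≤ G`, the restriction to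
  `H` of `A = ∏ i, coindFun (φ i)` is semi-local: the family indexed by `(i, x)`, `x` a double
  coset `φ i (D i) \ G / H` with representative `g`, of
  `S = stab = {h ∈ H | g h g⁻¹ ∈ φ i (D i)}`, `B = Ω i` (with `S` acting through `toD`),
  `π f = f i g` satisfies helper6's recognition criterion (`GC/SemiLocal.lean`), hence
  `semiLocal : Hⁿ(H, A) → ∏_{(i,x)} Hⁿ(S_{i,x}, Ω i)` is bijective.
-/
import Mathlib
import Fermat.Agent.S55.GC.SemiLocal

set_option autoImplicit false
set_option linter.style.haveILetI false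

universe u

namespace Fermat.Agent.S55.GL.CoindFun

section Basic

variable {G D Ω : Type*} [Group G] [Group D] [CommGroup Ω] [MulDistribMulAction D Ω]
  (φ : D →* G)

/-- Functions `f : G → Ω` with `f (φ d * g) = d • f g`. -/
def coindFun : Subgroup (G → Ω) where
  carrier := {f | ∀ (d : D) (g : G), f (φ d * g) = d • f g}
  one_mem' := fun d g => by simp
  mul_mem' := fun {a b} ha hb d g => by
    show a (φ d * g) * b (φ d * g) = d • (a g * b g)
    rw [ha d g, hb d g, smul_mul']
  inv_mem' := fun {a} ha d g => by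
    show (a (φ d * g))⁻¹ = d • (a g)⁻¹
    rw [ha d g, smul_inv']

variable {φ} in
theorem mem_coindFun {f : G → Ω} :
    f ∈ coindFun φ ↔ ∀ (d : D) (g : G), f (φ d * g) = d • f g := Iff.rfl

/-- `G` acts on `coindFun φ` by right translation. -/
instance instMDMA : MulDistribMulAction G (coindFun (Ω := Ω) φ) where
  smul γ f := ⟨fun g => f.1 (g * γ), fun d g => by
    have := f.2 d (g * γ)
    simpa [mul_assoc] using this⟩
  one_smul f := by
    apply Subtype.ext; funext g; show f.1 (g * 1) = f.1 g; rw [mul_one]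
  mul_smul a b f := by
    apply Subtype.ext; funext g; show f.1 (g * (a * b)) = f.1 (g * a * b); rw [mul_assoc]
  smul_mul a f f' := rfl
  smul_one a := rfl

@[simp] theorem smul_apply (γ g : G) (f : coindFun (Ω := Ω) φ) : (γ • f).1 g = f.1 (g * γ) := rfl

theorem apply_map_mul (f : coindFun (Ω := Ω) φ) (d : D) (g : G) : f.1 (φ d * g) = d • f.1 g :=
  f.2 d g

section Single

open scoped Classical in
/-- The underlying function of `single`. -/
noncomputable def singleFun (g₀ : G) (b : Ω) : G → Ω :=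
  fun x => if h : ∃ d : D, x = φ d * g₀ then h.choose • b else 1

variable {φ}

theorem singleFun_of_exists {g₀ : G} {b : Ω} {x : G} (h : ∃ d : D, x = φ d * g₀) :
    singleFun φ g₀ b x = h.choose • b := by
  unfold singleFun
  exact dif_pos h

theorem singleFun_of_not_exists {g₀ : G} {b : Ω} {x : G} (h : ¬ ∃ d : D, x = φ d * g₀) :
    singleFun φ g₀ b x = 1 := by
  unfold singleFun
  exact dif_neg h

variable (hφ : Function.Injective φ)

include hφ in
theorem singleFun_map_mul (g₀ : G) (b : Ω) (d : D) : singleFun φ g₀ b (φ d * g₀) = d • b := by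
  have h : ∃ d' : D, φ d * g₀ = φ d' * g₀ := ⟨d, rfl⟩
  rw [singleFun_of_exists h]
  have : h.choose = d := hφ (mul_right_cancel h.choose_spec).symm
  rw [this]

include hφ in
theorem singleFun_mem (g₀ : G) (b : Ω) : singleFun φ g₀ b ∈ coindFun (Ω := Ω) φ := by
  intro d g
  by_cases h : ∃ d' : D, g = φ d' * g₀
  · obtain ⟨d', rfl⟩ := h
    rw [← mul_assoc, ← map_mul, singleFun_map_mul hφ, singleFun_map_mul hφ, mul_smul]
  · have h' : ¬ ∃ d'' : D, φ d * g = φ d'' * g₀ := by
      rintro ⟨d'', hd''⟩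
      refine h ⟨d⁻¹ * d'', ?_⟩
      rw [map_mul, map_inv, mul_assoc, ← hd'', inv_mul_cancel_left]
    rw [singleFun_of_not_exists h, singleFun_of_not_exists h', smul_one]

/-- The function supported on the coset `φ(D) g₀`, with value `b` at `g₀`. -/
noncomputable def single (g₀ : G) (b : Ω) : coindFun (Ω := Ω) φ :=
  ⟨singleFun φ g₀ b, singleFun_mem hφ g₀ b⟩

theorem single_apply_map_mul (g₀ : G) (b : Ω) (d : D) :
    (single hφ g₀ b).1 (φ d * g₀) = d • b := singleFun_map_mul hφ g₀ b d

theorem single_apply_self (g₀ : G) (b : Ω) : (single hφ g₀ b).1 g₀ = b := by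
  have := single_apply_map_mul hφ g₀ b 1
  rwa [map_one, one_mul, one_smul] at this

theorem single_apply_of_not_exists (g₀ : G) (b : Ω) {x : G} (hx : ¬ ∃ d : D, x = φ d * g₀) :
    (single hφ g₀ b).1 x = 1 := singleFun_of_not_exists hx

end Single

end Basic

section Family

open CategoryTheory

variable {G : Type} [Group G] {I : Type} {D : I → Type*} {Ω : I → Type}
  [∀ i, Group (D i)] [∀ i, CommGroup (Ω i)] [∀ i, MulDistribMulAction (D i) (Ω i)]
  (φ : ∀ i, D i →* G) (hφ : ∀ i, Function.Injective (φ i))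

/-- The product `∏ i, coindFun (φ i)`. -/
abbrev ProdCoind : Type _ := ∀ i, coindFun (Ω := Ω i) (φ i)

/-- The product `∏ i, coindFun (φ i)` as a representation of `G` over `ℤ`. -/
noncomputable def prodRep : Rep ℤ G := Rep.ofMulDistribMulAction G (ProdCoind (Ω := Ω) φ)

theorem prodRep_ρ_apply (γ : G) (a : Additive (ProdCoind (Ω := Ω) φ)) :
    (prodRep φ).ρ γ a = Additive.ofMul (γ • Additive.toMul a) := rfl

variable (H : Subgroup G)

/-- The stabiliser in `H` of the coset `φ i (D i) g` (for the action by right translation). -/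
def stab (i : I) (g : G) : Subgroup H where
  carrier := {h | g * (h : G) * g⁻¹ ∈ (φ i).range}
  one_mem' := by
    show g * ((1 : H) : G) * g⁻¹ ∈ (φ i).range
    rw [Subgroup.coe_one, mul_one, mul_inv_cancel]
    exact one_mem _
  mul_mem' := fun {a b} ha hb => by
    show g * ((a * b : H) : G) * g⁻¹ ∈ (φ i).range
    have : g * ((a * b : H) : G) * g⁻¹ = (g * (a : G) * g⁻¹) * (g * (b : G) * g⁻¹) := by
      rw [Subgroup.coe_mul]; group
    rw [this]
    exact mul_mem ha hb
  inv_mem' := fun {a} ha => by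
    show g * ((a⁻¹ : H) : G) * g⁻¹ ∈ (φ i).range
    have : g * ((a⁻¹ : H) : G) * g⁻¹ = (g * (a : G) * g⁻¹)⁻¹ := by
      rw [Subgroup.coe_inv]; group
    rw [this]
    exact inv_mem ha

variable {φ H} in
theorem mem_stab {i : I} {g : G} {h : H} :
    h ∈ stab φ H i g ↔ g * (h : G) * g⁻¹ ∈ (φ i).range := Iff.rfl

variable {φ H} in
theorem mem_stab_iff_exists {i : I} {g : G} {h : H} :
    h ∈ stab φ H i g ↔ ∃ d : D i, g * (h : G) = φ i d * g := by
  rw [mem_stab]
  constructor
  · rintro ⟨d, hd⟩
    exact ⟨d, by rw [hd]; group⟩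
  · rintro ⟨d, hd⟩
    exact ⟨d, by rw [hd]; group⟩

/-- The homomorphism `stab → D i`, `h ↦ φ⁻¹ (g h g⁻¹)`. -/
noncomputable def toD (i : I) (g : G) : stab φ H i g →* D i where
  toFun h := (h.2 : ∃ d, φ i d = g * ((h : H) : G) * g⁻¹).choose
  map_one' := by
    apply hφ i
    have := (((1 : stab φ H i g)).2 : ∃ d, φ i d = g * (((1 : stab φ H i g) : H) : G) * g⁻¹).choose_spec
    rw [this, map_one]
    simp
  map_mul' a b := by
    apply hφ i
    have ha := (a.2 : ∃ d, φ i d = g * ((a : H) : G) * g⁻¹).choose_spec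
    have hb := (b.2 : ∃ d, φ i d = g * ((b : H) : G) * g⁻¹).choose_spec
    have hab := ((a * b).2 : ∃ d, φ i d = g * (((a * b : stab φ H i g) : H) : G) * g⁻¹).choose_spec
    rw [hab, map_mul, ha, hb]
    simp only [Subgroup.coe_mul]
    group

theorem map_toD (i : I) (g : G) (h : stab φ H i g) :
    φ i (toD φ hφ H i g h) = g * ((h : H) : G) * g⁻¹ :=
  (h.2 : ∃ d, φ i d = g * ((h : H) : G) * g⁻¹).choose_spec

theorem mul_coe_eq (i : I) (g : G) (h : stab φ H i g) :
    g * ((h : H) : G) = φ i (toD φ hφ H i g h) * g := by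
  rw [map_toD]; group

/-- `Ω i` as a representation of `stab φ H i g` (acting through `toD`). -/
noncomputable def repB (i : I) (g : G) : Rep ℤ (stab φ H i g) :=
  letI : MulDistribMulAction (stab φ H i g) (Ω i) :=
    MulDistribMulAction.compHom (Ω i) (toD φ hφ H i g)
  Rep.ofMulDistribMulAction (stab φ H i g) (Ω i)

theorem repB_ρ_apply (i : I) (g : G) (h : stab φ H i g) (a : Additive (Ω i)) :
    (repB φ hφ H i g).ρ h a = Additive.ofMul (toD φ hφ H i g h • Additive.toMul a) := rfl

/-- Evaluation at `(i, g)` as a group homomorphism. -/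
def evalMonoidHom (i : I) (g : G) : ProdCoind (Ω := Ω) φ →* Ω i where
  toFun f := (f i).1 g
  map_one' := rfl
  map_mul' _ _ := rfl

/-- The component map `f ↦ f i g`, a morphism of representations of `stab φ H i g`. -/
noncomputable def evalHom (i : I) (g : G) :
    Rep.res (stab φ H i g).subtype (Rep.res H.subtype (prodRep (Ω := Ω) φ)) ⟶
      repB (Ω := Ω) φ hφ H i g :=
  Rep.ofHom ⟨(MonoidHom.toAdditive (evalMonoidHom φ i g)).toIntLinearMap, fun h =>
    LinearMap.ext fun a => by
      show Additive.ofMul ((Additive.toMul a i).1 (g * ((h : H) : G))) =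
        Additive.ofMul (toD φ hφ H i g h • (Additive.toMul a i).1 g)
      rw [mul_coe_eq φ hφ H i g h, (Additive.toMul a i).2]⟩

theorem evalHom_apply (i : I) (g : G) (a : Additive (ProdCoind (Ω := Ω) φ)) :
    (evalHom (Ω := Ω) φ hφ H i g).hom a = Additive.ofMul ((Additive.toMul a i).1 g) := rfl

/-! ### The semi-local decomposition -/

/-- Index set of the semi-local decomposition: pairs `(i, x)`, `x` a double coset
`φ i (D i) \ G / H`. -/
abbrev Idx : Type := Σ i : I, DoubleCoset.Quotient ((φ i).range : Set G) (H : Set G)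

/-- The chosen representative of the double coset. -/
noncomputable def rep (j : Idx φ H) : G := Quotient.out j.2

variable {φ H} in
theorem exists_eq_mul_rep_mul (i : I) (g : G) :
    ∃ (d : D i) (h : H), g = φ i d * rep φ H ⟨i, DoubleCoset.mk _ _ g⟩ * (h : G) := by
  obtain ⟨a, b, ha, hb, hab⟩ := DoubleCoset.mk_out_eq_mul (φ i).range H g
  obtain ⟨d, rfl⟩ := ha
  refine ⟨d⁻¹, ⟨b⁻¹, inv_mem hb⟩, ?_⟩
  show g = φ i d⁻¹ * Quotient.out (DoubleCoset.mk (φ i).range H g) * b⁻¹
  rw [hab, map_inv]
  group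

variable {φ H} in
theorem eq_of_rep_mul_eq {i : I} {x y : DoubleCoset.Quotient ((φ i).range : Set G) (H : Set G)}
    {h : H} {d : D i} (hxy : rep φ H ⟨i, y⟩ * (h : G) = φ i d * rep φ H ⟨i, x⟩) : y = x := by
  rw [← DoubleCoset.out_eq' (φ i).range H y, ← DoubleCoset.out_eq' (φ i).range H x]
  rw [DoubleCoset.eq]
  refine ⟨φ i d⁻¹, ⟨d⁻¹, rfl⟩, (h : G), h.2, ?_⟩
  show Quotient.out x = φ i d⁻¹ * Quotient.out y * (h : G)
  have : Quotient.out y * (h : G) = φ i d * Quotient.out x := hxy
  rw [mul_assoc, this, map_inv, inv_mul_cancel_left]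

open scoped Classical in
/-- the element of the product with `single g b` at `i` and `1` elsewhere -/
noncomputable def singleAt (i : I) (g : G) (b : Ω i) : ProdCoind (Ω := Ω) φ :=
  fun i' => if h : i = i' then h ▸ single (hφ i) g b else 1

theorem singleAt_same (i : I) (g : G) (b : Ω i) :
    singleAt φ hφ i g b i = single (hφ i) g b := by
  unfold singleAt
  rw [dif_pos rfl]

theorem singleAt_ne (i : I) (g : G) (b : Ω i) {i' : I} (h : i ≠ i') :
    singleAt φ hφ i g b i' = 1 := by
  unfold singleAt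
  rw [dif_neg h]

open Fermat.Agent.S55.GC.SemiLocal in
/-- **Semi-local decomposition**: for every subgroup `H ≤ G` (`G` finite) the product of the
localisation maps `Hⁿ(H, ∏ i, coindFun (φ i)) → ∏_{(i,x)} Hⁿ(stab, Ω i)` is bijective. -/
theorem semiLocal [Finite G] [Finite I] (n : ℕ) :
    Function.Bijective (fun (x : groupCohomology (Rep.res H.subtype (prodRep (Ω := Ω) φ)) n)
      (j : Idx φ H) => (loc (evalHom (Ω := Ω) φ hφ H j.1 (rep φ H j)) n).hom x) := by
  haveI : ∀ i, Finite (DoubleCoset.Quotient ((φ i).range : Set G) (H : Set G)) := fun i =>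
    Quotient.finite _
  haveI : Finite (Idx φ H) := inferInstanceAs (Finite (Σ i : I, _))
  refine semiLocal_bijective (fun j : Idx φ H => evalHom (Ω := Ω) φ hφ H j.1 (rep φ H j)) ?_ ?_ n
  · -- separation
    intro a ha
    have key : ∀ (i : I) (g : G), (Additive.toMul a i).1 g = 1 := by
      intro i g
      obtain ⟨d, h, hg⟩ := exists_eq_mul_rep_mul (φ := φ) (H := H) i g
      have h1 := ha ⟨i, DoubleCoset.mk _ _ g⟩ h
      have h2 : (Additive.toMul a i).1 (rep φ H ⟨i, DoubleCoset.mk _ _ g⟩ * (h : G)) = 1 := h1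
      rw [hg, mul_assoc, (Additive.toMul a i).2, h2, smul_one]
    have h1 : Additive.toMul (show Additive (ProdCoind (Ω := Ω) φ) from a) = 1 := by
      funext i
      exact Subtype.ext (funext fun g => key i g)
    exact congrArg Additive.ofMul h1
  · -- single components
    rintro ⟨i, x⟩ b
    refine ⟨Additive.ofMul (singleAt φ hφ i (rep φ H ⟨i, x⟩) (Additive.toMul b)), ?_, ?_, ?_⟩
    · show Additive.ofMul ((singleAt φ hφ i (rep φ H ⟨i, x⟩) (Additive.toMul b) i).1
        (rep φ H ⟨i, x⟩)) = b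
      rw [singleAt_same, single_apply_self]
      rfl
    · intro h hh
      show Additive.ofMul ((singleAt φ hφ i (rep φ H ⟨i, x⟩) (Additive.toMul b) i).1
        (rep φ H ⟨i, x⟩ * (h : G))) = 0
      rw [singleAt_same, single_apply_of_not_exists]
      · rfl
      · rintro ⟨d, hd⟩
        exact hh (mem_stab_iff_exists.mpr ⟨d, hd⟩)
    · rintro ⟨i', y⟩ hne h
      show Additive.ofMul ((singleAt φ hφ i (rep φ H ⟨i, x⟩) (Additive.toMul b) i').1
        (rep φ H ⟨i', y⟩ * (h : G))) = 0
      by_cases hi : i = i'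
      · subst hi
        rw [singleAt_same, single_apply_of_not_exists]
        · rfl
        · rintro ⟨d, hd⟩
          apply hne
          rw [eq_of_rep_mul_eq hd]
      · rw [singleAt_ne φ hφ i _ _ hi]
        rfl

end Family

end Fermat.Agent.S55.GL.CoindFun
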