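/-
S55 (T4), block GL2 / GLO2 (helper3): the local field `L_q = ℚ_q(ι L)` attached to a number field
`L ⊆ ℚ̄` and a prime `q`, and the restriction map `Gal(L_q/ℚ_q) → Gal(L/ℚ)`.

`ι = padicEmbedding q : ℚ̄ → PadicAlgCl q` (prelude), `localField q L = ℚ_q(ι L)` (helper2's
`LocalDict`).  Everything lives inside `PadicAlgCl q`, so that the local Galois groups are
quotients of the frozen local group `Gal(PadicAlgCl q/ℚ_q)`.
-/
import Mathlib
import Fermat.Agent.S55.LocalKrasner

set_option autoImplicit false
set_option linter.style.haveILetI false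

namespace Fermat.Agent.S55.GL.LocalFieldAt

open IntermediateField Polynomial
open Fermat.Agent.S55.LocalDict

local notation "Qbar" => AlgebraicClosure ℚ

local instance isAlgebraicQbar_lfa : Algebra.IsAlgebraic ℚ Qbar :=
  AlgebraicClosure.isAlgebraic ℚ
local instance isAlgClosureQbar_lfa : IsAlgClosure ℚ Qbar :=
  ⟨inferInstance, inferInstance⟩
local instance normalQbar_lfa : Normal ℚ Qbar :=
  IsAlgClosure.normal ℚ Qbar

variable (q : ℕ) [Fact q.Prime] (L : IntermediateField ℚ Qbar)

/-- The embedding `L → L_q` induced by `ι`. -/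
noncomputable def emb : L →ₐ[ℚ] localField q L :=
  ((padicEmbedding q).comp L.val).codRestrict
    ((localField q L).toSubalgebra.restrictScalars ℚ)
    (fun x => padicEmbedding_mem_localField q x.2)

@[simp]
theorem coe_emb (x : L) : ((emb q L x : localField q L) : PadicAlgCl q) =
    padicEmbedding q (x : Qbar) := rfl

theorem emb_injective : Function.Injective (emb q L) := (emb q L).toRingHom.injective


section Restriction

noncomputable local instance instAlgebraEmb_lfa : Algebra L (localField q L) :=
  (emb q L).toRingHom.toAlgebra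
local instance instTowerEmb_lfa : IsScalarTower ℚ L (localField q L) :=
  IsScalarTower.of_algebraMap_eq' (Subsingleton.elim _ _)

/-- The restriction map `Gal(L_q/ℚ_q) → Gal(L/ℚ)` (for `L/ℚ` normal): `ι (resLoc d x) = d (ι x)`. -/
noncomputable def resLoc [Normal ℚ L] :
    (localField q L ≃ₐ[ℚ_[q]] localField q L) →* (L ≃ₐ[ℚ] L) :=
  (AlgEquiv.restrictNormalHom (F := ℚ) (K₁ := localField q L) L).comp
    (MonoidHom.mk' (fun τ => τ.restrictScalars ℚ) (fun _ _ => rfl))

theorem emb_resLoc [Normal ℚ L] (d : localField q L ≃ₐ[ℚ_[q]] localField q L) (x : L) :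
    emb q L (resLoc q L d x) = d (emb q L x) :=
  AlgEquiv.restrictNormal_commutes (d.restrictScalars ℚ) L x

theorem coe_resLoc [Normal ℚ L] (d : localField q L ≃ₐ[ℚ_[q]] localField q L) (x : L) :
    padicEmbedding q ((resLoc q L d x : L) : Qbar) = ((d (emb q L x) : localField q L) : PadicAlgCl q) :=
  congrArg Subtype.val (emb_resLoc q L d x)

/-- an automorphism of `L_q/ℚ_q` is determined by its values on `ι L`. -/
theorem algEquiv_ext_of_emb {d d' : localField q L ≃ₐ[ℚ_[q]] localField q L}
    (h : ∀ x : L, d (emb q L x) = d' (emb q L x)) : d = d' := by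
  have key : ∀ y ∈ localField q L, ∀ hy : y ∈ localField q L,
      d ⟨y, hy⟩ = d' ⟨y, hy⟩ := by
    intro y hy
    induction hy using IntermediateField.adjoin_induction with
    | mem y hy =>
      obtain ⟨x, hx, rfl⟩ := hy
      intro hy
      exact h ⟨x, hx⟩
    | algebraMap a =>
      intro hy
      exact (d.commutes a).trans (d'.commutes a).symm
    | add x y hx hy ihx ihy =>
      intro hxy
      have : (⟨x + y, hxy⟩ : localField q L) = ⟨x, hx⟩ + ⟨y, hy⟩ := rfl
      rw [this, map_add, map_add, ihx hx, ihy hy]
    | inv x hx ihx =>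
      intro hx'
      have : (⟨x⁻¹, hx'⟩ : localField q L) = (⟨x, hx⟩ : localField q L)⁻¹ := rfl
      rw [this, map_inv₀, map_inv₀, ihx hx]
    | mul x y hx hy ihx ihy =>
      intro hxy
      have : (⟨x * y, hxy⟩ : localField q L) = ⟨x, hx⟩ * ⟨y, hy⟩ := rfl
      rw [this, map_mul, map_mul, ihx hx, ihy hy]
  exact AlgEquiv.ext fun y => key y.1 y.2 y.2

theorem resLoc_injective [Normal ℚ L] : Function.Injective (resLoc q L) := by
  intro d d' h
  apply algEquiv_ext_of_emb
  intro x
  rw [← emb_resLoc, ← emb_resLoc, h]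

/-- compatibility of `resLoc` with the absolute restriction map `localGaloisToGlobal` -/
theorem resLoc_restrictNormalHom [Normal ℚ L] (τ : PadicAlgCl q ≃ₐ[ℚ_[q]] PadicAlgCl q) :
    resLoc q L (AlgEquiv.restrictNormalHom (localField q L) τ) =
      AlgEquiv.restrictNormalHom L (localGaloisToGlobal q τ) := by
  ext x
  apply (padicEmbedding q).toRingHom.injective
  show padicEmbedding q _ = padicEmbedding q _
  rw [coe_resLoc]
  have h1 := AlgEquiv.restrictNormal_commutes τ (localField q L) (emb q L x)
  have h2 := AlgEquiv.restrictNormal_commutes (localGaloisToGlobal q τ) L x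
  change ((AlgEquiv.restrictNormalHom (localField q L) τ (emb q L x) : localField q L) :
    PadicAlgCl q) = τ (emb q L x : PadicAlgCl q) at h1
  change ((AlgEquiv.restrictNormalHom L (localGaloisToGlobal q τ) x : L) : Qbar) =
    localGaloisToGlobal q τ (x : Qbar) at h2
  rw [h1, h2, padicEmbedding_localGaloisToGlobal, coe_emb]

end Restriction

/-! ### Restriction between intermediate fields of a common field -/

section ResIF

variable {F Ω : Type*} [Field F] [Field Ω] [Algebra F Ω] {E E' : IntermediateField F Ω}

/-- The inclusion `E → E'` as a ring homomorphism (no reference to `F`-algebra structures). -/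
def incl (h : E ≤ E') : E →+* E' where
  toFun x := ⟨x.1, h x.2⟩
  map_one' := rfl
  map_mul' _ _ := rfl
  map_zero' := rfl
  map_add' _ _ := rfl

@[simp] theorem coe_incl (h : E ≤ E') (x : E) : ((incl h x : E') : Ω) = (x : Ω) := rfl

theorem incl_injective (h : E ≤ E') : Function.Injective (incl h) := (incl h).injective

variable [Algebra F E] [Algebra F E'] [IsScalarTower F E Ω] [IsScalarTower F E' Ω]

/-- The tower `F ⊆ E ⊆ E'` (for whatever `F`-algebra structures on `E`, `E'` compatible with
`Ω`; this takes care of the `ℚ`-algebra diamond). -/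
theorem isScalarTower_incl (h : E ≤ E') :
    letI := (incl h).toAlgebra
    IsScalarTower F E E' := by
  letI := (incl h).toAlgebra
  refine IsScalarTower.of_algebraMap_eq fun x => Subtype.ext ?_
  show ((algebraMap F E' x : E') : Ω) = ((algebraMap F E x : E) : Ω)
  have h1 : ((algebraMap F E' x : E') : Ω) = algebraMap F Ω x :=
    (IsScalarTower.algebraMap_apply F E' Ω x).symm
  have h2 : ((algebraMap F E x : E) : Ω) = algebraMap F Ω x :=
    (IsScalarTower.algebraMap_apply F E Ω x).symm
  rw [h1, h2]

/-- Restriction `Gal(E'/F) → Gal(E/F)` for intermediate fields `E ≤ E'` of `Ω/F`, `E/F` normal. -/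
noncomputable def resIF (h : E ≤ E') [Normal F E] : (E' ≃ₐ[F] E') →* (E ≃ₐ[F] E) :=
  letI := (incl h).toAlgebra
  haveI : IsScalarTower F E E' := isScalarTower_incl h
  AlgEquiv.restrictNormalHom E

theorem incl_resIF (h : E ≤ E') [Normal F E] (d : E' ≃ₐ[F] E') (y : E) :
    incl h (resIF h d y) = d (incl h y) := by
  let _ := (incl h).toAlgebra
  have : IsScalarTower F E E' := isScalarTower_incl h
  exact AlgEquiv.restrictNormal_commutes d E y

theorem coe_resIF (h : E ≤ E') [Normal F E] (d : E' ≃ₐ[F] E') (y : E) :
    ((resIF h d y : E) : Ω) = (d (incl h y) : Ω) :=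
  congrArg Subtype.val (incl_resIF h d y)

theorem resIF_surjective (h : E ≤ E') [Normal F E] [Normal F E'] :
    Function.Surjective (resIF h) := by
  let _ := (incl h).toAlgebra
  have : IsScalarTower F E E' := isScalarTower_incl h
  exact AlgEquiv.restrictNormalHom_surjective E'

end ResIF

section Functoriality

variable {L} {L' : IntermediateField ℚ Qbar} (hLL' : L ≤ L')

theorem incl_emb (x : L) :
    incl (localField_mono q hLL') (emb q L x) = emb q L' (incl hLL' x) := rfl

/-- `resLoc` commutes with the restrictions `Gal(L'_q/ℚ_q) → Gal(L_q/ℚ_q)` and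
`Gal(L'/ℚ) → Gal(L/ℚ)`. -/
theorem resLoc_resIF [Normal ℚ L] [Normal ℚ L']
    (d : localField q L' ≃ₐ[ℚ_[q]] localField q L') :
    resLoc q L (resIF (localField_mono q hLL') d) = resIF hLL' (resLoc q L' d) := by
  ext x
  apply (padicEmbedding q).toRingHom.injective
  show padicEmbedding q _ = padicEmbedding q _
  rw [coe_resLoc, coe_resIF, coe_resIF, incl_emb, coe_resLoc]

end Functoriality

end Fermat.Agent.S55.GL.LocalFieldAt
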