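/-
S55 (T4), block GL2 / GLO3 (helper3): finite-product idèles of a finite Galois extension `L/ℚ`
inside `ℚ̄`, with their Galois action, the diagonal embedding, `T`-units and the `T`-idèle class
group.  No restricted products, no topology.

`G = Gal(L/ℚ)`, `L_q = localField q L = ℚ_q(ι L) ⊆ PadicAlgCl q`, `D_q = Gal(L_q/ℚ_q)`,
`resLoc q L : D_q →* G` (injective).  The places of `L` over `q` are the embeddings `ι ∘ g`,
`g ∈ G`, modulo `D_q` (i.e. the right cosets `D_q \ G`).

* `ideleAt q L ≤ (G → L_q^×)` : functions with `f (resLoc d * g) = d • f g` (the coinduced module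
  `Coind_{D_q}^G L_q^× = ∏_{w ∣ q} L_w^×`); `G` acts by right translation `(γ • f) g = f (g * γ)`.
* `Idele L T = ∀ q : T, ideleAt q L` for `T : Finset Nat.Primes` (`CommGroup`,
  `MulDistribMulAction G`); `Idele.comp f q g : L_q^×` the components, `Idele.ext`.
* `diag L T : L^× →* Idele L T`, `x ↦ (q, g ↦ ι_q (g x))`; `diag_smul`, `diag_injective`.
* `IsUnitAt L q x`, `tUnits L T ≤ L^×` (units at all places over all `q ∉ T`), Galois stable.
* representations over `ℤ` of `G` (on `Additive _`): `unitsRep L`, `J L T`, `E L T`, `C L T`,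
  `diagRep`, `iE : E ⟶ J`, `pC : J ⟶ C`, the short complex `seq L T`, and
  `seq_shortExact (hT : T.Nonempty) : (seq L T).ShortExact`.
* `shortExact_of_elementwise` : a general criterion for short exactness in `Rep k G`.
-/
import Mathlib
import Fermat.Agent.S55.GL.LocalFieldAt
import Fermat.Agent.S55.GL.CoindFun

set_option autoImplicit false
set_option linter.style.haveILetI false

namespace Fermat.Agent.S55.GL.Ideles

open IntermediateField
open Fermat.Agent.S55.LocalDict Fermat.Agent.S55.GL.LocalFieldAt Fermat.Agent.S55.GL.CoindFun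

local notation "Qbar" => AlgebraicClosure ℚ

section AtQ

variable (q : ℕ) [Fact q.Prime] (L : IntermediateField ℚ Qbar)

/-- shortcut instance (type class search is slow here) -/
noncomputable instance instMDMALocalUnits :
    MulDistribMulAction (localField q L ≃ₐ[ℚ_[q]] localField q L) (localField q L)ˣ :=
  AlgEquiv.instMulDistribMulActionUnits

/-- shortcut instance (type class search is slow here) -/
noncomputable instance instMDMAGlobalUnits : MulDistribMulAction (L ≃ₐ[ℚ] L) Lˣ :=
  AlgEquiv.instMulDistribMulActionUnits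

noncomputable instance instMulActionLocalUnits :
    MulAction (localField q L ≃ₐ[ℚ_[q]] localField q L) (localField q L)ˣ :=
  (instMDMALocalUnits q L).toMulAction

noncomputable instance instSMulLocalUnits :
    SMul (localField q L ≃ₐ[ℚ_[q]] localField q L) (localField q L)ˣ :=
  (instMulActionLocalUnits q L).toSMul

noncomputable instance instMulActionGlobalUnits : MulAction (L ≃ₐ[ℚ] L) Lˣ :=
  (instMDMAGlobalUnits L).toMulAction

noncomputable instance instSMulGlobalUnits : SMul (L ≃ₐ[ℚ] L) Lˣ :=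
  (instMulActionGlobalUnits L).toSMul

variable [Normal ℚ L]

/-- The `q`-component `∏_{w ∣ q} L_w^×` of the idèle group of `L` (`L/ℚ` finite Galois), as the
group of functions `f : Gal(L/ℚ) → L_q^×` with `f (resLoc d * g) = d • f g` for `d ∈ Gal(L_q/ℚ_q)`
(coinduced module, `CoindFun.coindFun`).  `f g` is the component of `f` at the place
`x ↦ |ι (g x)|_q` of `L`.  `Gal(L/ℚ)` acts by right translation. -/
noncomputable abbrev ideleAt : Subgroup ((L ≃ₐ[ℚ] L) → (localField q L)ˣ) :=
  coindFun (Ω := (localField q L)ˣ) (resLoc q L)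

theorem mem_ideleAt {f : (L ≃ₐ[ℚ] L) → (localField q L)ˣ} :
    f ∈ ideleAt q L ↔ ∀ (d : localField q L ≃ₐ[ℚ_[q]] localField q L) (g : L ≃ₐ[ℚ] L),
      f (resLoc q L d * g) = d • f g := Iff.rfl

/-- `Gal(L/ℚ)` acts on `ideleAt` by right translation (shortcut instance). -/
noncomputable instance instMDMAIdeleAt : MulDistribMulAction (L ≃ₐ[ℚ] L) (ideleAt q L) :=
  CoindFun.instMDMA (Ω := (localField q L)ˣ) (resLoc q L)

noncomputable instance instMulActionIdeleAt : MulAction (L ≃ₐ[ℚ] L) (ideleAt q L) :=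
  (instMDMAIdeleAt q L).toMulAction

noncomputable instance instSMulIdeleAt : SMul (L ≃ₐ[ℚ] L) (ideleAt q L) :=
  (instMulActionIdeleAt q L).toSMul

@[simp] theorem smul_ideleAt_apply (γ g : L ≃ₐ[ℚ] L) (f : ideleAt q L) :
    (γ • f).1 g = f.1 (g * γ) := rfl

/-- The diagonal embedding `L^× → ∏_{w ∣ q} L_w^×`, `x ↦ (g ↦ ι (g x))`. -/
noncomputable def diagAt : Lˣ →* ideleAt q L where
  toFun x := ⟨fun g => Units.map (emb q L : L →* localField q L) (g • x), fun d g => by
    apply Units.ext
    show emb q L ((resLoc q L d * g) (x : L)) = d (emb q L (g (x : L)))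
    rw [AlgEquiv.mul_apply, emb_resLoc]⟩
  map_one' := by
    apply Subtype.ext; funext g; simp
  map_mul' x y := by
    apply Subtype.ext; funext g; simp [smul_mul']

@[simp] theorem coe_diagAt_apply (x : Lˣ) (g : L ≃ₐ[ℚ] L) :
    (((diagAt q L x).1 g : (localField q L)ˣ) : localField q L) = emb q L (g (x : L)) := rfl

theorem diagAt_smul (γ : L ≃ₐ[ℚ] L) (x : Lˣ) : diagAt q L (γ • x) = γ • diagAt q L x := by
  apply Subtype.ext; funext g; apply Units.ext
  show emb q L (g (γ (x : L))) = emb q L ((g * γ) (x : L))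
  rw [AlgEquiv.mul_apply]

theorem diagAt_injective : Function.Injective (diagAt q L) := by
  intro x y h
  have := congrArg (fun f : ideleAt q L => ((f.1 1 : (localField q L)ˣ) : localField q L)) h
  simp only [coe_diagAt_apply, AlgEquiv.one_apply] at this
  exact Units.ext (emb_injective q L this)

end AtQ

section TUnits

/-- primes as `Fact`s -/
local instance factPrime_tu (q : Nat.Primes) : Fact (q : ℕ).Prime := ⟨q.2⟩

variable (L : IntermediateField ℚ Qbar) (T : Finset Nat.Primes)

/-! ### `T`-units -/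

/-- `x ∈ L` is a unit at all places of `L` over `q`. -/
def IsUnitAt (q : ℕ) [Fact q.Prime] (x : L) : Prop :=
  ∀ g : L ≃ₐ[ℚ] L, ‖padicEmbedding q ((g x : L) : Qbar)‖ = 1

variable {L} in
theorem IsUnitAt.map {q : ℕ} [Fact q.Prime] {x : L} (h : IsUnitAt L q x) (γ : L ≃ₐ[ℚ] L) :
    IsUnitAt L q (γ x) := fun g => by
  have := h (g * γ)
  rwa [AlgEquiv.mul_apply] at this

/-- The group `E_{L,T}` of `T`-units of `L`: units at all places over all primes `q ∉ T`. -/
def tUnits : Subgroup Lˣ where
  carrier := {x | ∀ q : Nat.Primes, q ∉ T → IsUnitAt L (q : ℕ) (x : L)}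
  one_mem' := fun q _ g => by simp
  mul_mem' := fun {a b} ha hb q hq g => by
    have h1 := ha q hq g
    have h2 := hb q hq g
    rw [Units.val_mul, map_mul, MulMemClass.coe_mul, map_mul, norm_mul, h1, h2, one_mul]
  inv_mem' := fun {a} ha q hq g => by
    have h1 := ha q hq g
    rw [Units.val_inv_eq_inv_val, map_inv₀, IntermediateField.coe_inv, map_inv₀, norm_inv, h1,
      inv_one]

variable {L T} in
theorem mem_tUnits {x : Lˣ} :
    x ∈ tUnits L T ↔ ∀ q : Nat.Primes, q ∉ T → IsUnitAt L (q : ℕ) (x : L) := Iff.rfl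

variable {L T} in
theorem smul_mem_tUnits {x : Lˣ} (hx : x ∈ tUnits L T) (γ : L ≃ₐ[ℚ] L) : γ • x ∈ tUnits L T :=
  fun q hq => (hx q hq).map γ

variable {L} in
theorem tUnits_mono {T T' : Finset Nat.Primes} (h : T ⊆ T') : tUnits L T ≤ tUnits L T' :=
  fun _ hx q hq => hx q fun hqT => hq (h hqT)

end TUnits

section Product

/-- primes as `Fact`s -/
local instance factPrime_idl (q : Nat.Primes) : Fact (q : ℕ).Prime := ⟨q.2⟩

variable (L : IntermediateField ℚ Qbar) [Normal ℚ L] (T : Finset Nat.Primes)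

/-- The `T`-idèles `J_{L,T} = ∏_{q ∈ T} ∏_{w ∣ q} L_w^×` of `L` (`T` a finite set of rational
primes), a commutative group with an action of `Gal(L/ℚ)`. -/
def Idele : Type := ∀ q : T, ideleAt ((q : Nat.Primes) : ℕ) L

noncomputable instance : CommGroup (Idele L T) :=
  inferInstanceAs (CommGroup (∀ q : T, ideleAt ((q : Nat.Primes) : ℕ) L))

noncomputable instance instMDMAIdele : MulDistribMulAction (L ≃ₐ[ℚ] L) (Idele L T) :=
  inferInstanceAs (MulDistribMulAction (L ≃ₐ[ℚ] L) (∀ q : T, ideleAt ((q : Nat.Primes) : ℕ) L))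

noncomputable instance instMulActionIdele : MulAction (L ≃ₐ[ℚ] L) (Idele L T) :=
  (instMDMAIdele L T).toMulAction

noncomputable instance instSMulIdele : SMul (L ≃ₐ[ℚ] L) (Idele L T) :=
  (instMulActionIdele L T).toSMul

variable {L T}

/-- the component of the idèle `f` at the prime `q ∈ T` and the place `x ↦ |ι_q (g x)|_q`. -/
def Idele.comp (f : Idele L T) (q : T) (g : L ≃ₐ[ℚ] L) :
    (localField ((q : Nat.Primes) : ℕ) L)ˣ := (f q).1 g

@[ext] theorem Idele.ext {f f' : Idele L T} (h : ∀ q g, f.comp q g = f'.comp q g) : f = f' :=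
  funext fun q => Subtype.ext (funext fun g => h q g)

theorem Idele.comp_resLoc_mul (f : Idele L T) (q : T)
    (d : localField ((q : Nat.Primes) : ℕ) L ≃ₐ[ℚ_[((q : Nat.Primes) : ℕ)]]
      localField ((q : Nat.Primes) : ℕ) L) (g : L ≃ₐ[ℚ] L) :
    f.comp q (resLoc ((q : Nat.Primes) : ℕ) L d * g) = d • f.comp q g := (f q).2 d g

@[simp] theorem Idele.comp_smul (γ : L ≃ₐ[ℚ] L) (f : Idele L T) (q : T) (g : L ≃ₐ[ℚ] L) :
    (γ • f).comp q g = f.comp q (g * γ) := rfl

@[simp] theorem Idele.comp_mul (f f' : Idele L T) (q : T) (g : L ≃ₐ[ℚ] L) :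
    (f * f').comp q g = f.comp q g * f'.comp q g := rfl

@[simp] theorem Idele.comp_one (q : T) (g : L ≃ₐ[ℚ] L) : (1 : Idele L T).comp q g = 1 := rfl

@[simp] theorem Idele.comp_inv (f : Idele L T) (q : T) (g : L ≃ₐ[ℚ] L) :
    (f⁻¹).comp q g = (f.comp q g)⁻¹ := rfl

variable (L T)

/-- The diagonal embedding `L^× → J_{L,T}`. -/
noncomputable def diag : Lˣ →* Idele L T where
  toFun x := fun q => diagAt ((q : Nat.Primes) : ℕ) L x
  map_one' := by funext q; exact map_one _
  map_mul' x y := by funext q; exact map_mul _ x y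

@[simp] theorem coe_comp_diag (x : Lˣ) (q : T) (g : L ≃ₐ[ℚ] L) :
    (((diag L T x).comp q g : (localField ((q : Nat.Primes) : ℕ) L)ˣ) :
      localField ((q : Nat.Primes) : ℕ) L) = emb ((q : Nat.Primes) : ℕ) L (g (x : L)) := rfl

theorem diag_smul (γ : L ≃ₐ[ℚ] L) (x : Lˣ) : diag L T (γ • x) = γ • diag L T x := by
  funext q; exact diagAt_smul _ L γ x

theorem diag_injective (hT : T.Nonempty) : Function.Injective (diag L T) := by
  obtain ⟨q, hq⟩ := hT
  intro x y h
  exact diagAt_injective ((q : Nat.Primes) : ℕ) L (congrFun h ⟨q, hq⟩)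

end Product

section RepHelper

open CategoryTheory

universe u

/-- A short complex of representations is short exact as soon as it is so elementwise. -/
theorem shortExact_of_elementwise {k G : Type u} [CommRing k] [Monoid G]
    (X : ShortComplex (Rep.{u} k G)) (hf : Function.Injective X.f.hom)
    (hg : Function.Surjective X.g.hom)
    (hex : ∀ b : X.X₂, X.g.hom b = 0 → ∃ a : X.X₁, X.f.hom a = b) : X.ShortExact := by
  have h1 : Mono X.f := (Rep.mono_iff_injective X.f).2 hf
  have h2 : Epi X.g := (Rep.epi_iff_surjective X.g).2 hg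
  refine ShortComplex.ShortExact.mk' ?_ h1 h2
  rw [← ShortComplex.exact_map_iff_of_faithful X (forget₂ (Rep k G) (ModuleCat k)),
    ShortComplex.moduleCat_exact_iff]
  intro b hb
  exact hex b hb

end RepHelper

section Reps

open CategoryTheory

/-- primes as `Fact`s -/
local instance factPrime_rep (q : Nat.Primes) : Fact (q : ℕ).Prime := ⟨q.2⟩

variable (L : IntermediateField ℚ Qbar) [Normal ℚ L] (T : Finset Nat.Primes)

/-- `L^×` as a representation of `Gal(L/ℚ)` (on `Additive L^×`). -/
noncomputable def unitsRep : Rep ℤ (L ≃ₐ[ℚ] L) := Rep.ofMulDistribMulAction (L ≃ₐ[ℚ] L) Lˣ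

/-- `J_{L,T}` as a representation of `Gal(L/ℚ)` (on `Additive (Idele L T)`). -/
noncomputable def J : Rep ℤ (L ≃ₐ[ℚ] L) := Rep.ofMulDistribMulAction (L ≃ₐ[ℚ] L) (Idele L T)

/-- the diagonal embedding as a morphism of representations. -/
noncomputable def diagRep : unitsRep L ⟶ J L T :=
  Rep.ofHom ⟨(MonoidHom.toAdditive (diag L T)).toIntLinearMap, fun γ =>
    LinearMap.ext fun x => congrArg Additive.ofMul (diag_smul L T γ (Additive.toMul x))⟩

theorem diagRep_apply (x : Additive Lˣ) :
    (diagRep L T).hom x = Additive.ofMul (diag L T (Additive.toMul x)) := rfl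

/-- the `T`-units as a `ℤ`-submodule of `Additive L^×`. -/
noncomputable def tUnitsSubmodule : Submodule ℤ (unitsRep L) :=
  show Submodule ℤ (Additive Lˣ) from
    AddSubgroup.toIntSubmodule (Subgroup.toAddSubgroup (tUnits L T))

theorem mem_tUnitsSubmodule {x : Additive Lˣ} :
    x ∈ (show Submodule ℤ (Additive Lˣ) from tUnitsSubmodule L T) ↔
      Additive.toMul x ∈ tUnits L T := Iff.rfl

theorem tUnitsSubmodule_le_comap (γ : L ≃ₐ[ℚ] L) :
    tUnitsSubmodule L T ≤ (tUnitsSubmodule L T).comap ((unitsRep L).ρ γ) := fun _ hx =>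
  smul_mem_tUnits hx γ

/-- `E_{L,T}` as a representation of `Gal(L/ℚ)`. -/
noncomputable def E : Rep ℤ (L ≃ₐ[ℚ] L) :=
  (unitsRep L).subrepresentation (tUnitsSubmodule L T) (tUnitsSubmodule_le_comap L T)

/-- `E_{L,T} → J_{L,T}`. -/
noncomputable def iE : E L T ⟶ J L T :=
  Rep.subtype (unitsRep L) (tUnitsSubmodule L T) (tUnitsSubmodule_le_comap L T) ≫ diagRep L T

theorem iE_injective (hT : T.Nonempty) : Function.Injective (iE L T).hom := by
  intro x y h
  apply Subtype.ext
  exact diag_injective L T hT h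

/-- the image of `E_{L,T}` in `J_{L,T}`. -/
noncomputable def rangeE : Submodule ℤ (J L T) := LinearMap.range (iE L T).hom.toLinearMap

theorem rangeE_le_comap (γ : L ≃ₐ[ℚ] L) : rangeE L T ≤ (rangeE L T).comap ((J L T).ρ γ) := by
  intro y hy
  obtain ⟨x, rfl⟩ := hy
  refine ⟨(E L T).ρ γ x, ?_⟩
  exact (Rep.hom_comm_apply (iE L T) γ x)

/-- The `T`-idèle class group `C_{L,T} = J_{L,T}/E_{L,T}` as a representation of `Gal(L/ℚ)`. -/
noncomputable def C : Rep ℤ (L ≃ₐ[ℚ] L) := (J L T).quotient (rangeE L T) (rangeE_le_comap L T)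

/-- `J_{L,T} → C_{L,T}`. -/
noncomputable def pC : J L T ⟶ C L T := Rep.mkQ (J L T) (rangeE L T) (rangeE_le_comap L T)

/-- The short complex `E_{L,T} → J_{L,T} → C_{L,T}`. -/
noncomputable def seq : ShortComplex (Rep ℤ (L ≃ₐ[ℚ] L)) where
  X₁ := E L T
  X₂ := J L T
  X₃ := C L T
  f := iE L T
  g := pC L T
  zero := by
    ext x
    exact (Submodule.Quotient.mk_eq_zero _).2 ⟨x, rfl⟩

theorem seq_shortExact (hT : T.Nonempty) : (seq L T).ShortExact := by
  refine shortExact_of_elementwise _ (iE_injective L T hT) ?_ ?_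
  · exact Submodule.mkQ_surjective _
  · intro b hb
    exact (Submodule.Quotient.mk_eq_zero _).1 hb

end Reps

end Fermat.Agent.S55.GL.Ideles
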