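import Mathlib
import Fermat.Agent.S54.Frobenius
import Fermat.Agent.S55.GL.KummerUnram

/-!
# S55 / GLO1 part 2: dictionary between places of `ℚ̄` and primes of number fields `E ⊆ ℚ̄`

Namespace `Fermat.Agent.S55.GL.QS`.

For `E : IntermediateField ℚ ℚ̄` a number field and `A : ValuationSubring ℚ̄`:

* `primeBelow E A : Ideal (𝓞 E)`, the prime of `𝓞 E` below `A`; `placeBelow E A hA` as a
  `HeightOneSpectrum (𝓞 E)` when `A` lies over a rational prime.
* `mem_iff_valuation_le_one`, `mem_nonunits_iff_valuation_lt_one`, `valuation_eq_one_iff`: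
  `A ∩ E` is the valuation ring of the `placeBelow`-adic valuation of `E`.
* `exists_placeBelow_eq`: every height-one prime of `𝓞 E` is the `placeBelow` of some `A`.
* `exists_valuation_eq_pow_of_dvd`: the hypothesis `hval` of
  `KummerUnram.isUnramifiedOutside_sup_adjoin_root` from the divisibility of the
  `𝔮`-adic orders of `a` in `E`.
-/

set_option autoImplicit false
set_option linter.style.haveILetI false
set_option linter.unusedSectionVars false

open IntermediateField NumberField IsDedekindDomain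
open Fermat.Agent.S55.GL.KummerUnram

namespace Fermat.Agent.S55.GL.QS

local notation "Qbar" => AlgebraicClosure ℚ
local notation "Γ" => (AlgebraicClosure ℚ ≃ₐ[ℚ] AlgebraicClosure ℚ)

variable (E : IntermediateField ℚ Qbar)

/-- a finite subextension of `ℚ̄` is a number field. -/
theorem numberField_of_finiteDimensional (h : FiniteDimensional ℚ E) : NumberField E :=
  { to_charZero := inferInstance, to_finiteDimensional := h }

section Below

variable (A : ValuationSubring Qbar)

/-- algebraic integers of `E` lie in every valuation subring of `ℚ̄`. -/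
theorem coe_mem (x : 𝓞 E) : ((x : E) : Qbar) ∈ A := by
  apply Fermat.Agent.S54.mem_valuationSubring_of_isIntegral_int
  have h1 : IsIntegral ℤ (x : E) := NumberField.RingOfIntegers.isIntegral_coe x
  exact h1.map (IsScalarTower.toAlgHom ℤ E Qbar)

/-- the prime ideal of `𝓞 E` below the place `A` of `ℚ̄`. -/
noncomputable def primeBelow : Ideal (𝓞 E) where
  carrier := {x | ((x : E) : Qbar) ∈ A.nonunits}
  add_mem' {x y} hx hy := by
    show (((x + y : 𝓞 E) : E) : Qbar) ∈ A.nonunits
    push_cast
    exact add_mem_nonunits A hx hy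
  zero_mem' := by
    show (((0 : 𝓞 E) : E) : Qbar) ∈ A.nonunits
    simp [A.mem_nonunits_iff]
  smul_mem' c x hx := by
    show (((c • x : 𝓞 E) : E) : Qbar) ∈ A.nonunits
    rw [smul_eq_mul]
    push_cast
    exact mul_mem_nonunits_left A (coe_mem E A c) hx

theorem mem_primeBelow {x : 𝓞 E} : x ∈ primeBelow E A ↔ ((x : E) : Qbar) ∈ A.nonunits := Iff.rfl

instance isPrime_primeBelow : (primeBelow E A).IsPrime := by
  refine ⟨fun h => ?_, fun {x y} hxy => ?_⟩
  · have h1 : (1 : 𝓞 E) ∈ primeBelow E A := h ▸ Submodule.mem_top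
    rw [mem_primeBelow, A.mem_nonunits_iff] at h1
    simp at h1
  · rw [mem_primeBelow] at hxy
    by_contra hcon
    rw [not_or] at hcon
    have hx : A.valuation ((x : E) : Qbar) = 1 :=
      valuation_eq_one_of_mem_of_not_mem_nonunits A (coe_mem E A x) hcon.1
    have hy : A.valuation ((y : E) : Qbar) = 1 :=
      valuation_eq_one_of_mem_of_not_mem_nonunits A (coe_mem E A y) hcon.2
    rw [A.mem_nonunits_iff] at hxy
    push_cast at hxy
    rw [map_mul, hx, hy, one_mul] at hxy
    exact lt_irrefl _ hxy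

theorem natCast_mem_primeBelow {q : ℕ} (hA : A.LiesOverPrime q) : (q : 𝓞 E) ∈ primeBelow E A := by
  rw [mem_primeBelow]
  have : (((q : 𝓞 E) : E) : Qbar) = (q : Qbar) := by push_cast; rfl
  rw [this]
  exact hA

theorem primeBelow_ne_bot {q : ℕ} (hq : q ≠ 0) (hA : A.LiesOverPrime q) :
    primeBelow E A ≠ ⊥ := by
  intro h
  have h1 := natCast_mem_primeBelow E A hA
  rw [h, Ideal.mem_bot] at h1
  exact hq (by exact_mod_cast h1)

variable [NumberField E]

/-- the place of `E` below a place `A` of `ℚ̄` over a rational prime. -/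
noncomputable def placeBelow {q : ℕ} (hq : q ≠ 0) (hA : A.LiesOverPrime q) :
    HeightOneSpectrum (𝓞 E) :=
  ⟨primeBelow E A, isPrime_primeBelow E A, primeBelow_ne_bot E A hq hA⟩

@[simp] theorem placeBelow_asIdeal {q : ℕ} (hq : q ≠ 0) (hA : A.LiesOverPrime q) :
    (placeBelow E A hq hA).asIdeal = primeBelow E A := rfl

variable {q : ℕ} (hq : q ≠ 0) (hA : A.LiesOverPrime q)

theorem coe_primeCompl_not_mem_nonunits (d : (placeBelow E A hq hA).asIdeal.primeCompl) :
    (((d : 𝓞 E) : E) : Qbar) ∉ A.nonunits := fun h => d.2 ((mem_primeBelow E A).mpr h)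

theorem valuation_coe_primeCompl (d : (placeBelow E A hq hA).asIdeal.primeCompl) :
    A.valuation (((d : 𝓞 E) : E) : Qbar) = 1 :=
  valuation_eq_one_of_mem_of_not_mem_nonunits A (coe_mem E A d)
    (coe_primeCompl_not_mem_nonunits E A hq hA d)

theorem mem_of_valuation_le_one {x : E} (h : (placeBelow E A hq hA).valuation E x ≤ 1) :
    (x : Qbar) ∈ A := by
  obtain ⟨n, d, hnd⟩ := HeightOneSpectrum.exists_primeCompl_mul_eq_of_integer _ x h
  have hd := valuation_coe_primeCompl E A hq hA d
  have hnd' : (x : Qbar) * (((d : 𝓞 E) : E) : Qbar) = ((n : E) : Qbar) := by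
    have := congrArg (fun z : E => (z : Qbar)) hnd
    simpa using this
  rw [← A.valuation_le_one_iff]
  have h2 : A.valuation ((n : E) : Qbar) ≤ 1 := (A.valuation_le_one_iff _).mpr (coe_mem E A n)
  rw [← hnd', map_mul, hd, mul_one] at h2
  exact h2

theorem mem_nonunits_of_valuation_lt_one {x : E}
    (h : (placeBelow E A hq hA).valuation E x < 1) : (x : Qbar) ∈ A.nonunits := by
  obtain ⟨n, d, hnd⟩ := HeightOneSpectrum.exists_primeCompl_mul_eq_of_integer _ x h.le
  have hd := valuation_coe_primeCompl E A hq hA d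
  have hnd' : (x : Qbar) * (((d : 𝓞 E) : E) : Qbar) = ((n : E) : Qbar) := by
    have := congrArg (fun z : E => (z : Qbar)) hnd
    simpa using this
  have hn : n ∈ (placeBelow E A hq hA).asIdeal := by
    have hd' : (placeBelow E A hq hA).valuation E (algebraMap (𝓞 E) E d) = 1 :=
      (HeightOneSpectrum.valuation_eq_one_iff_notMem (K := E) _).mpr d.2
    have h3 : (placeBelow E A hq hA).valuation E (algebraMap (𝓞 E) E n) < 1 := by
      rw [← hnd, map_mul, hd', mul_one]
      exact h
    exact (HeightOneSpectrum.valuation_lt_one_iff_mem _ n).mp h3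
  have h2 : A.valuation ((n : E) : Qbar) < 1 :=
    A.mem_nonunits_iff.mp ((mem_primeBelow E A).mp hn)
  rw [← hnd', map_mul, hd, mul_one] at h2
  exact A.mem_nonunits_iff.mpr h2

/-- **`A ∩ E` is the valuation ring of the place below `A`.** -/
theorem mem_iff_valuation_le_one (x : E) :
    (x : Qbar) ∈ A ↔ (placeBelow E A hq hA).valuation E x ≤ 1 := by
  refine ⟨fun h => ?_, mem_of_valuation_le_one E A hq hA⟩
  by_contra hcon
  rw [not_le] at hcon
  have hx0 : x ≠ 0 := by
    rintro rfl
    simp at hcon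
  have h1 : (placeBelow E A hq hA).valuation E x⁻¹ < 1 := by
    rw [map_inv₀]
    exact inv_lt_one_of_one_lt₀ hcon
  have h2 := mem_nonunits_of_valuation_lt_one E A hq hA h1
  have hx0' : (x : Qbar) ≠ 0 := by simpa using hx0
  have h3 : ((x⁻¹ : E) : Qbar) = (x : Qbar)⁻¹ := by simp
  rw [h3, mem_nonunits_iff_inv_not_mem A (inv_ne_zero hx0'), inv_inv] at h2
  exact h2 h

theorem mem_nonunits_iff_valuation_lt_one (x : E) :
    (x : Qbar) ∈ A.nonunits ↔ (placeBelow E A hq hA).valuation E x < 1 := by
  refine ⟨fun h => ?_, mem_nonunits_of_valuation_lt_one E A hq hA⟩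
  by_contra hcon
  rw [not_lt] at hcon
  have hx0 : x ≠ 0 := by
    rintro rfl
    simp at hcon
  have h1 : (placeBelow E A hq hA).valuation E x⁻¹ ≤ 1 := by
    rw [map_inv₀]
    exact inv_le_one_of_one_le₀ hcon
  have h2 := mem_of_valuation_le_one E A hq hA h1
  have hx0' : (x : Qbar) ≠ 0 := by simpa using hx0
  have h3 : ((x⁻¹ : E) : Qbar) = (x : Qbar)⁻¹ := by simp
  rw [h3] at h2
  exact (mem_nonunits_iff_inv_not_mem A hx0').mp h h2

theorem valuation_eq_one_iff (x : E) :
    A.valuation (x : Qbar) = 1 ↔ (placeBelow E A hq hA).valuation E x = 1 := by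
  constructor
  · intro h
    have h1 := (mem_iff_valuation_le_one E A hq hA x).mp (mem_of_valuation_eq_one A h)
    have h2 := mt (mem_nonunits_iff_valuation_lt_one E A hq hA x).mpr
      (not_mem_nonunits_of_valuation_eq_one A h)
    exact le_antisymm h1 (not_lt.mp h2)
  · intro h
    have h1 := (mem_iff_valuation_le_one E A hq hA x).mpr h.le
    have h2 := mt (mem_nonunits_iff_valuation_lt_one E A hq hA x).mp (by rw [h]; exact lt_irrefl _)
    exact valuation_eq_one_of_mem_of_not_mem_nonunits A h1 h2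

end Below

section Exists

variable [NumberField E]

/-- every nonzero prime of `𝓞 E` is the prime below some place of `ℚ̄` over a rational prime. -/
theorem exists_primeBelow_eq (P : Ideal (𝓞 E)) [hPp : P.IsPrime] (hP : P ≠ ⊥) :
    ∃ (q : ℕ) (A : ValuationSubring Qbar), q.Prime ∧ A.LiesOverPrime q ∧ primeBelow E A = P := by
  let f : 𝓞 E →+* Qbar := (algebraMap E Qbar).comp (algebraMap (𝓞 E) E)
  have hf : Function.Injective f :=
    (algebraMap E Qbar).injective.comp (FaithfulSMul.algebraMap_injective (𝓞 E) E)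
  let I : Ideal f.range := P.map f.rangeRestrict
  have hI : I ≠ ⊤ := by
    intro htop
    have h1 : (1 : f.range) ∈ I := htop ▸ Submodule.mem_top
    obtain ⟨x, hxP, hx⟩ := (Ideal.mem_map_iff_of_surjective f.rangeRestrict
      f.rangeRestrict_surjective).mp h1
    have h2 : f x = f 1 := by
      rw [map_one]
      exact congrArg Subtype.val hx
    rw [hf h2] at hxP
    exact hPp.ne_top ((Ideal.eq_top_iff_one P).mpr hxP)
  obtain ⟨A, -, hIA⟩ := Ideal.image_subset_nonunits_valuationSubring I hI
  have hPA : P ≤ primeBelow E A := by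
    intro x hx
    exact hIA ⟨f.rangeRestrict x, Ideal.mem_map_of_mem _ hx, rfl⟩
  have hmax : P.IsMaximal := Ring.DimensionLEOne.maximalOfPrime hP hPp
  have heq : primeBelow E A = P :=
    (hmax.eq_of_le (isPrime_primeBelow E A).ne_top hPA).symm
  have : NeZero P := ⟨hP⟩
  have hℓ : (Ideal.absNorm (P.under ℤ)).Prime := Nat.absNorm_under_prime P
  refine ⟨Ideal.absNorm (P.under ℤ), A, hℓ, ?_, heq⟩
  have h3 : ((Ideal.absNorm (P.under ℤ) : ℕ) : ℤ) ∈ P.under ℤ := by
    have h5 := Int.ideal_span_absNorm_eq_self (P.under ℤ)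
    have h6 : ((Ideal.absNorm (P.under ℤ) : ℕ) : ℤ) ∈
        Ideal.span {((Ideal.absNorm (P.under ℤ) : ℕ) : ℤ)} := Ideal.subset_span rfl
    rwa [h5] at h6
  rw [Ideal.under_def, Ideal.mem_comap] at h3
  have h4 := hPA h3
  show ((Ideal.absNorm (P.under ℤ) : ℕ) : Qbar) ∈ A.nonunits
  have h7 : (((((Ideal.absNorm (P.under ℤ) : ℕ) : ℤ) : 𝓞 E) : E) : Qbar) =
      ((Ideal.absNorm (P.under ℤ) : ℕ) : Qbar) := by
    push_cast
    rfl
  rw [← h7]
  exact h4

theorem exists_placeBelow_eq (v : HeightOneSpectrum (𝓞 E)) :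
    ∃ (q : ℕ) (hq : q.Prime) (A : ValuationSubring Qbar) (hA : A.LiesOverPrime q),
      placeBelow E A hq.ne_zero hA = v := by
  obtain ⟨q, A, hq, hA, h⟩ := exists_primeBelow_eq E v.asIdeal v.ne_bot
  exact ⟨q, hq, A, hA, HeightOneSpectrum.ext h⟩

end Exists

end Fermat.Agent.S55.GL.QS
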