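/-
S55 (T4), block GLO2 (Places), part PL2: places of a number field `K ⊆ ℚ̄` over `q`
(helper2's `PlacesOver q K`) versus the primes of `𝓞 K` over `q`.
-/
import Mathlib
import Fermat.Agent.S13.InertiaLift
import Fermat.Agent.S14.GalDivisors
import Fermat.Agent.S54.Frobenius
import Fermat.Agent.S55.GL.Places
import Fermat.Agent.S55.GL.QS
import Fermat.Agent.S55.SUnit

set_option autoImplicit false
set_option linter.style.haveILetI false
set_option linter.unusedSectionVars false

namespace Fermat.Agent.S55.GL.Places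

open IntermediateField NumberField IsDedekindDomain Fermat.Agent.S55.LocalDict
open Fermat.Agent.S55.GL
open scoped Pointwise

variable (q : ℕ) [Fact q.Prime]

local notation "Qbar" => AlgebraicClosure ℚ
local notation "Γ" => (AlgebraicClosure ℚ ≃ₐ[ℚ] AlgebraicClosure ℚ)
local notation "Zbar" => integralClosure ℤ (AlgebraicClosure ℚ)

local instance isAlgebraicQbar_PP : Algebra.IsAlgebraic ℚ (AlgebraicClosure ℚ) :=
  AlgebraicClosure.isAlgebraic ℚ
local instance isAlgClosureQbar_PP : IsAlgClosure ℚ (AlgebraicClosure ℚ) :=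
  ⟨inferInstance, inferInstance⟩
local instance normalQbar_PP : Normal ℚ (AlgebraicClosure ℚ) :=
  IsAlgClosure.normal ℚ (AlgebraicClosure ℚ)

/-! ### The valuation subring of `ℚ̄` attached to `σ` -/

/-- The valuation subring `{x | ‖ι (σ x)‖ ≤ 1} = σ⁻¹ • padicPlace q` of `ℚ̄`. -/
noncomputable def placeSub (σ : Γ) : ValuationSubring Qbar := σ⁻¹ • padicPlace q

theorem mem_placeSub_iff (σ : Γ) (x : Qbar) : x ∈ placeSub q σ ↔ absAt q σ x ≤ 1 := by
  rw [placeSub, KummerUnram.mem_smul_iff, mem_padicPlace_iff_absQbar]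
  rfl

theorem mem_nonunits_placeSub_iff (σ : Γ) (x : Qbar) :
    x ∈ (placeSub q σ).nonunits ↔ absAt q σ x < 1 := by
  by_cases hx : x = 0
  · subst hx
    simp
  · rw [KummerUnram.mem_nonunits_iff_inv_not_mem _ hx, mem_placeSub_iff, map_inv₀, not_le,
      one_lt_inv₀ ((absAt q σ).pos hx)]

theorem absAt_natCast_prime (σ : Γ) : absAt q σ (q : Qbar) = (q : ℝ)⁻¹ := by
  rw [absAt_apply, map_natCast]
  exact absQbar_natCast_prime q

theorem liesOverPrime_placeSub (σ : Γ) : (placeSub q σ).LiesOverPrime q := by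
  show (q : Qbar) ∈ (placeSub q σ).nonunits
  rw [mem_nonunits_placeSub_iff, absAt_natCast_prime]
  have hq1 : (1 : ℝ) < q := by exact_mod_cast (Fact.out : q.Prime).one_lt
  exact inv_lt_one_of_one_lt₀ hq1

theorem placeSub_mul (σ g : Γ) : placeSub q (σ * g) = g⁻¹ • placeSub q σ := by
  rw [placeSub, placeSub, mul_inv_rev, mul_smul]

/-! ### The prime of `𝓞 K` attached to `σ` -/

section Prime

variable (K : IntermediateField ℚ Qbar) [NumberField K]

/-- The prime `{x ∈ 𝓞 K | ‖ι (σ x)‖ < 1}` of `𝓞 K` cut out by the embedding `ι ∘ σ`. -/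
noncomputable def primeAt (σ : Γ) : HeightOneSpectrum (𝓞 K) :=
  QS.placeBelow K (placeSub q σ) (Fact.out : q.Prime).ne_zero (liesOverPrime_placeSub q σ)

theorem absOn_le_one_iff (σ : Γ) (x : K) :
    absOn q K σ x ≤ 1 ↔ (primeAt q K σ).valuation K x ≤ 1 := by
  rw [primeAt, ← QS.mem_iff_valuation_le_one, mem_placeSub_iff]
  rfl

theorem absOn_lt_one_iff (σ : Γ) (x : K) :
    absOn q K σ x < 1 ↔ (primeAt q K σ).valuation K x < 1 := by
  rw [primeAt, ← QS.mem_nonunits_iff_valuation_lt_one, mem_nonunits_placeSub_iff]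
  rfl

theorem absOn_eq_one_iff (σ : Γ) (x : K) :
    absOn q K σ x = 1 ↔ (primeAt q K σ).valuation K x = 1 := by
  have h1 := absOn_le_one_iff q K σ x
  have h2 := absOn_lt_one_iff q K σ x
  constructor
  · intro h
    exact le_antisymm (h1.mp h.le) (not_lt.mp fun h3 => (h2.mpr h3).ne h)
  · intro h
    exact le_antisymm (h1.mpr h.le) (not_lt.mp fun h3 => (h2.mp h3).ne h)

theorem mem_primeAt_iff (σ : Γ) (x : 𝓞 K) :
    x ∈ (primeAt q K σ).asIdeal ↔ absOn q K σ (x : K) < 1 := by
  rw [absOn_lt_one_iff]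
  exact (HeightOneSpectrum.valuation_lt_one_iff_mem _ x).symm

theorem natCast_mem_primeAt (σ : Γ) : (q : 𝓞 K) ∈ (primeAt q K σ).asIdeal :=
  QS.natCast_mem_primeBelow K _ (liesOverPrime_placeSub q σ)

theorem absOn_natCast_prime (σ : Γ) : absOn q K σ (q : K) = (q : ℝ)⁻¹ := by
  rw [absOn_apply]
  have : (((q : K) : Qbar)) = (q : Qbar) := by push_cast; rfl
  rw [this, ← absAt_apply, absAt_natCast_prime]

/-- The absolute values `absOn q K σ` are nonarchimedean. -/
theorem absOn_add_le_max (σ : Γ) (x y : K) :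
    absOn q K σ (x + y) ≤ max (absOn q K σ x) (absOn q K σ y) := by
  rw [absOn_apply, absOn_apply, absOn_apply]
  push_cast
  rw [map_add, map_add]
  exact IsUltrametricDist.norm_add_le_max _ _

/-! ### The explicit formula `|x|_σ = q ^ (-ord_P x / e)` -/

/-- `q` as a unit of `K`. -/
noncomputable def qUnit : (↥K)ˣ :=
  Units.mk0 (q : K) (by exact_mod_cast (Fact.out : q.Prime).ne_zero)

@[simp] theorem coe_qUnit : ((qUnit q K : (↥K)ˣ) : K) = (q : K) := rfl

/-- The ramification index of `primeAt q K σ` over `q`: the order of `q` at this prime. -/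
noncomputable def ramIdx (σ : Γ) : ℤ :=
  SUnit.ordAt (primeAt q K σ) (Additive.ofMul (qUnit q K))

theorem ordAt_pos_iff (σ : Γ) (x : (↥K)ˣ) :
    0 < SUnit.ordAt (primeAt q K σ) (Additive.ofMul x) ↔ absOn q K σ (x : K) < 1 := by
  rw [absOn_lt_one_iff, SUnit.valuation_eq_exp_neg_ordAt, ← WithZero.exp_zero,
    WithZero.exp_lt_exp]
  omega

theorem ordAt_eq_zero_iff_absOn (σ : Γ) (x : (↥K)ˣ) :
    SUnit.ordAt (primeAt q K σ) (Additive.ofMul x) = 0 ↔ absOn q K σ (x : K) = 1 := by
  rw [absOn_eq_one_iff, SUnit.ordAt_eq_zero_iff]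

theorem ramIdx_pos (σ : Γ) : 0 < ramIdx q K σ := by
  rw [ramIdx, ordAt_pos_iff, coe_qUnit, absOn_natCast_prime]
  have hq1 : (1 : ℝ) < q := by exact_mod_cast (Fact.out : q.Prime).one_lt
  exact inv_lt_one_of_one_lt₀ hq1

/-- **The formula for the absolute value**, integral form:
`|x|_σ ^ e = q ^ (- ord_P x)`, `P = primeAt q K σ`, `e = ramIdx q K σ`. -/
theorem absOn_zpow_ramIdx (σ : Γ) (x : (↥K)ˣ) :
    absOn q K σ (x : K) ^ (ramIdx q K σ) =
      ((q : ℝ)⁻¹) ^ (SUnit.ordAt (primeAt q K σ) (Additive.ofMul x)) := by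
  set e := ramIdx q K σ with he
  set n := SUnit.ordAt (primeAt q K σ) (Additive.ofMul x) with hn
  have hy : SUnit.ordAt (primeAt q K σ) (Additive.ofMul (x ^ e * (qUnit q K) ^ (-n))) = 0 := by
    rw [ofMul_mul, ofMul_zpow, ofMul_zpow, map_add, map_zsmul, map_zsmul, ← hn, ← ramIdx, ← he,
      smul_eq_mul, smul_eq_mul]
    ring
  rw [ordAt_eq_zero_iff_absOn] at hy
  rw [Units.val_mul, Units.val_zpow_eq_zpow_val, Units.val_zpow_eq_zpow_val, map_mul,
    map_zpow₀, map_zpow₀, coe_qUnit, absOn_natCast_prime, zpow_neg] at hy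
  have hq0 : ((q : ℝ)⁻¹) ^ n ≠ 0 := by
    apply zpow_ne_zero
    apply inv_ne_zero
    exact_mod_cast (Fact.out : q.Prime).ne_zero
  rw [mul_inv_eq_one₀ hq0] at hy
  exact hy

/-- **The formula for the absolute value**: `|x|_σ = q ^ (- ord_P x / e)`. -/
theorem absOn_eq_rpow (σ : Γ) (x : (↥K)ˣ) :
    absOn q K σ (x : K) =
      (q : ℝ) ^ (-(SUnit.ordAt (primeAt q K σ) (Additive.ofMul x) : ℝ) / (ramIdx q K σ : ℝ)) := by
  have h := absOn_zpow_ramIdx q K σ x
  have hq0 : (0 : ℝ) < q := by exact_mod_cast (Fact.out : q.Prime).pos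
  have ha : 0 < absOn q K σ (x : K) := (absOn q K σ).pos x.ne_zero
  have he : (0 : ℝ) < (ramIdx q K σ : ℝ) := by exact_mod_cast ramIdx_pos q K σ
  have h2 := congrArg Real.log h
  rw [Real.log_zpow, Real.log_zpow, Real.log_inv] at h2
  rw [Real.rpow_def_of_pos hq0]
  have h3 : Real.log (absOn q K σ (x : K)) = Real.log q *
      (-(SUnit.ordAt (primeAt q K σ) (Additive.ofMul x) : ℝ) / (ramIdx q K σ : ℝ)) := by
    field_simp
    linarith
  rw [← h3, Real.exp_log ha]

/-- **Same prime `⇔` same place.** -/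
theorem primeAt_eq_iff {σ σ' : Γ} : primeAt q K σ = primeAt q K σ' ↔ SamePlace q K σ σ' := by
  constructor
  · intro h x hx
    by_cases hx0 : x = 0
    · subst hx0
      rw [map_zero, map_zero]
    · have hx0' : (⟨x, hx⟩ : K) ≠ 0 := fun h0 => hx0 (congrArg Subtype.val h0)
      have h1 := absOn_eq_rpow q K σ (Units.mk0 _ hx0')
      have h2 := absOn_eq_rpow q K σ' (Units.mk0 _ hx0')
      rw [ramIdx, h] at h1
      rw [ramIdx] at h2
      exact h1.trans h2.symm
  · intro h
    apply HeightOneSpectrum.ext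
    ext x
    rw [mem_primeAt_iff, mem_primeAt_iff, (absOn_eq_iff q).mpr h]

end Prime

/-! ### Every prime over `q` comes from an embedding -/

section Surj

open Fermat.Agent.S13.InertiaLift

theorem under_primeOf (A : ValuationSubring Qbar) (hA : A.LiesOverPrime q) :
    (primeOf A).under ℤ = Ideal.span {(q : ℤ)} := by
  have hPmax : (Ideal.span {(q : ℤ)}).IsMaximal :=
    PrincipalIdealRing.isMaximal_of_irreducible
      (Nat.prime_iff_prime_int.mp (Fact.out : q.Prime)).irreducible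
  symm
  refine hPmax.eq_of_le ?_ ?_
  · intro htop
    have h1 : (1 : ℤ) ∈ (primeOf A).under ℤ := htop ▸ Submodule.mem_top
    rw [Ideal.under_def, Ideal.mem_comap, map_one, mem_primeOf] at h1
    have := A.mem_nonunits_iff.mp h1
    simp at this
  · rw [Ideal.span_le, Set.singleton_subset_iff, SetLike.mem_coe, Ideal.under_def,
      Ideal.mem_comap, mem_primeOf]
    simpa using (show (q : Qbar) ∈ A.nonunits from hA)

/-- `Γ` acts transitively on the places of `ℚ̄` over `q` (at the level of primes of `ℤ̄`). -/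
theorem exists_primeOf_eq_smul (A B : ValuationSubring Qbar) (hA : A.LiesOverPrime q)
    (hB : B.LiesOverPrime q) : ∃ g : Γ, primeOf A = g • primeOf B := by
  let _ : TopologicalSpace Zbar := ⊥
  have : DiscreteTopology Zbar := ⟨rfl⟩
  have := Fermat.Agent.S54.continuousSMul_integralClosure_Qbar
  have := Fermat.Agent.S54.isInvariant_int_integralClosure_Qbar
  exact Algebra.IsInvariant.exists_smul_of_under_eq_of_profinite (A := ℤ) (B := Zbar) (G := Γ)
    (primeOf B) (primeOf A) ((under_primeOf q B hB).trans (under_primeOf q A hA).symm)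

/-- Integral elements: membership in the maximal ideal of `A` over `q` is membership in the
maximal ideal of `placeSub q g⁻¹` for a suitable `g`. -/
theorem exists_forall_mem_nonunits_iff (A : ValuationSubring Qbar) (hA : A.LiesOverPrime q) :
    ∃ σ : Γ, ∀ b : Qbar, IsIntegral ℤ b → (b ∈ A.nonunits ↔ absAt q σ b < 1) := by
  obtain ⟨g, hg⟩ := exists_primeOf_eq_smul q A (padicPlace q) hA
    (by simpa [placeSub] using liesOverPrime_placeSub q 1)
  refine ⟨g⁻¹, fun b hb => ?_⟩
  have h1 : (⟨b, hb⟩ : Zbar) ∈ primeOf A ↔ g⁻¹ • (⟨b, hb⟩ : Zbar) ∈ primeOf (padicPlace q) := by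
    rw [hg, Ideal.mem_pointwise_smul_iff_inv_smul_mem]
  rw [mem_primeOf, mem_primeOf] at h1
  rw [h1, ← mem_nonunits_placeSub_iff]
  have h2 : placeSub q g⁻¹ = g • padicPlace q := by rw [placeSub, inv_inv]
  rw [h2, KummerUnram.mem_nonunits_smul_iff]
  rfl

variable (K : IntermediateField ℚ Qbar) [NumberField K]

/-- **Every prime of `𝓞 K` over `q` is cut out by an embedding `ι ∘ σ`.** -/
theorem exists_primeAt_eq (P : HeightOneSpectrum (𝓞 K)) (hP : (q : 𝓞 K) ∈ P.asIdeal) :
    ∃ σ : Γ, primeAt q K σ = P := by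
  haveI := P.isPrime
  obtain ⟨q', A, -, -, heq⟩ := QS.exists_primeBelow_eq K P.asIdeal P.ne_bot
  have hA : A.LiesOverPrime q := by
    rw [← heq, QS.mem_primeBelow] at hP
    have : (((q : 𝓞 K) : K) : Qbar) = (q : Qbar) := by push_cast; rfl
    rwa [this] at hP
  obtain ⟨σ, hσ⟩ := exists_forall_mem_nonunits_iff q A hA
  refine ⟨σ, ?_⟩
  apply HeightOneSpectrum.ext
  ext x
  rw [mem_primeAt_iff, ← heq, QS.mem_primeBelow, hσ]
  · rfl
  · have h1 : IsIntegral ℤ (x : K) := NumberField.RingOfIntegers.isIntegral_coe x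
    exact h1.map (IsScalarTower.toAlgHom ℤ K Qbar)

end Surj

/-! ### Places over `q` versus primes over `q` -/

section Equiv

variable {K : IntermediateField ℚ Qbar} [NumberField K]

/-- The prime of `𝓞 K` attached to a place of `K` over `q`. -/
noncomputable def PlacesOver.prime (w : PlacesOver q K) : HeightOneSpectrum (𝓞 K) :=
  primeAt q K (PlacesOver.rep q w)

theorem PlacesOver.absOn_rep (w : PlacesOver q K) : absOn q K (PlacesOver.rep q w) = w.1 :=
  congrArg Subtype.val (placeOf_rep q w)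

@[simp] theorem prime_placeOf (σ : Γ) : (placeOf q K σ).prime q = primeAt q K σ :=
  (primeAt_eq_iff q K).mpr (samePlace_rep_placeOf q σ)

theorem PlacesOver.prime_injective :
    Function.Injective (PlacesOver.prime q : PlacesOver q K → HeightOneSpectrum (𝓞 K)) := by
  intro w w' h
  rw [← placeOf_rep q w, ← placeOf_rep q w', placeOf_eq_iff]
  exact (primeAt_eq_iff q K).mp h

theorem PlacesOver.natCast_mem_prime (w : PlacesOver q K) : (q : 𝓞 K) ∈ (w.prime q).asIdeal :=
  natCast_mem_primeAt q K _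

theorem exists_prime_eq (P : HeightOneSpectrum (𝓞 K)) (hP : (q : 𝓞 K) ∈ P.asIdeal) :
    ∃ w : PlacesOver q K, w.prime q = P := by
  obtain ⟨σ, rfl⟩ := exists_primeAt_eq q K P hP
  exact ⟨placeOf q K σ, prime_placeOf q σ⟩

variable (K) in
/-- **The places of `K` over `q` are the primes of `𝓞 K` containing `q`.** -/
noncomputable def placesEquivPrimes :
    PlacesOver q K ≃ {P : HeightOneSpectrum (𝓞 K) // (q : 𝓞 K) ∈ P.asIdeal} :=
  Equiv.ofBijective (fun w => ⟨w.prime q, w.natCast_mem_prime q⟩)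
    ⟨fun _ _ h => PlacesOver.prime_injective q (congrArg Subtype.val h),
      fun P => by
        obtain ⟨w, hw⟩ := exists_prime_eq q P.1 P.2
        exact ⟨w, Subtype.ext hw⟩⟩

@[simp] theorem placesEquivPrimes_apply (w : PlacesOver q K) :
    ((placesEquivPrimes q K w : {P : HeightOneSpectrum (𝓞 K) // (q : 𝓞 K) ∈ P.asIdeal}) :
      HeightOneSpectrum (𝓞 K)) = w.prime q := rfl

theorem PlacesOver.le_one_iff (w : PlacesOver q K) (x : K) :
    w.1 x ≤ 1 ↔ (w.prime q).valuation K x ≤ 1 := by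
  rw [← w.absOn_rep q]; exact absOn_le_one_iff q K _ x

theorem PlacesOver.lt_one_iff (w : PlacesOver q K) (x : K) :
    w.1 x < 1 ↔ (w.prime q).valuation K x < 1 := by
  rw [← w.absOn_rep q]; exact absOn_lt_one_iff q K _ x

theorem PlacesOver.eq_one_iff (w : PlacesOver q K) (x : K) :
    w.1 x = 1 ↔ (w.prime q).valuation K x = 1 := by
  rw [← w.absOn_rep q]; exact absOn_eq_one_iff q K _ x

theorem PlacesOver.mem_prime_iff (w : PlacesOver q K) (x : 𝓞 K) :
    x ∈ (w.prime q).asIdeal ↔ w.1 (x : K) < 1 := by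
  rw [← w.absOn_rep q]; exact mem_primeAt_iff q K _ x

theorem PlacesOver.add_le_max (w : PlacesOver q K) (x y : K) :
    w.1 (x + y) ≤ max (w.1 x) (w.1 y) := by
  rw [← w.absOn_rep q]; exact absOn_add_le_max q K _ x y

/-- The ramification index of a place over `q`. -/
noncomputable def PlacesOver.ramIdx (w : PlacesOver q K) : ℤ := Places.ramIdx q K (PlacesOver.rep q w)

theorem PlacesOver.ramIdx_pos (w : PlacesOver q K) : 0 < w.ramIdx q := Places.ramIdx_pos q K _

theorem PlacesOver.ramIdx_eq (w : PlacesOver q K) :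
    w.ramIdx q = SUnit.ordAt (w.prime q) (Additive.ofMul (qUnit q K)) := rfl

/-- `|x|_w = q ^ (- ord_P x / e)`. -/
theorem PlacesOver.eq_rpow (w : PlacesOver q K) (x : (↥K)ˣ) :
    w.1 (x : K) =
      (q : ℝ) ^ (-(SUnit.ordAt (w.prime q) (Additive.ofMul x) : ℝ) / (w.ramIdx q : ℝ)) := by
  rw [← w.absOn_rep q]; exact absOn_eq_rpow q K _ x

end Equiv

/-! ### Restriction and the Galois action -/

section Restrict

variable {K L : IntermediateField ℚ Qbar} [NumberField K] [NumberField L]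

/-- `primeAt q K σ` lies under `primeAt q L σ` (elementwise form, no algebra instance needed). -/
theorem mem_primeAt_iff_of_coe_eq (σ : Γ) (x : 𝓞 K) (y : 𝓞 L)
    (hxy : ((x : K) : Qbar) = ((y : L) : Qbar)) :
    x ∈ (primeAt q K σ).asIdeal ↔ y ∈ (primeAt q L σ).asIdeal := by
  rw [mem_primeAt_iff, mem_primeAt_iff, absOn_apply, absOn_apply, hxy]

theorem valuation_primeAt_le_one_iff_of_coe_eq (σ : Γ) (x : K) (y : L)
    (hxy : (x : Qbar) = (y : Qbar)) :
    (primeAt q K σ).valuation K x ≤ 1 ↔ (primeAt q L σ).valuation L y ≤ 1 := by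
  rw [← absOn_le_one_iff, ← absOn_le_one_iff, absOn_apply, absOn_apply, hxy]

theorem valuation_primeAt_eq_one_iff_of_coe_eq (σ : Γ) (x : K) (y : L)
    (hxy : (x : Qbar) = (y : Qbar)) :
    (primeAt q K σ).valuation K x = 1 ↔ (primeAt q L σ).valuation L y = 1 := by
  rw [← absOn_eq_one_iff, ← absOn_eq_one_iff, absOn_apply, absOn_apply, hxy]

theorem prime_restrict (hKL : K ≤ L) (w : PlacesOver q L) :
    (w.restrict q hKL).prime q = primeAt q K (PlacesOver.rep q w) := by
  conv_lhs => rw [← placeOf_rep q w, restrict_placeOf, prime_placeOf]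

end Restrict

section Galois

open Fermat.Agent.S14.GalDiv

variable {L : IntermediateField ℚ Qbar} [NumberField L]
variable {K' : Type*} [Field K'] [NumberField K'] [Algebra K' L] [IsGalois K' L]

/-- **Equivariance**: if `g ∈ Γ` restricts to `τ ∈ Gal(L/K')` then
`primeAt q L (σ g⁻¹) = τ • primeAt q L σ`. -/
theorem primeAt_mul_inv (σ g : Γ) (τ : L ≃ₐ[K'] L)
    (h : ∀ x : L, g (x : Qbar) = ((τ x : L) : Qbar)) :
    primeAt q L (σ * g⁻¹) = τ • primeAt q L σ := by
  apply HeightOneSpectrum.ext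
  ext x
  rw [mem_smul_asIdeal_iff, mem_primeAt_iff, mem_primeAt_iff, absOn_apply, absOn_apply]
  have h2 : (σ * g⁻¹) ((x : L) : Qbar) = σ ((((τ⁻¹ • x : 𝓞 L) : 𝓞 L) : L) : Qbar) := by
    rw [AlgEquiv.mul_apply]
    congr 1
    have h1 := h (τ⁻¹ (x : L))
    have h3 : τ (τ⁻¹ (x : L)) = (x : L) := τ.apply_symm_apply _
    rw [h3] at h1
    have h4 : (((τ⁻¹ • x : 𝓞 L) : 𝓞 L) : L) = τ⁻¹ (x : L) := rfl
    rw [h4, ← h1]
    exact g.symm_apply_apply _
  rw [h2]

/-- **Equivariance**, action form: `(g • w).prime = τ • w.prime` for `g ∈ stabField L`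
restricting to `τ`. -/
theorem prime_smul (g : stabField L) (τ : L ≃ₐ[K'] L)
    (h : ∀ x : L, (g : Γ) (x : Qbar) = ((τ x : L) : Qbar)) (w : PlacesOver q L) :
    (g • w).prime q = τ • w.prime q := by
  obtain ⟨σ, rfl⟩ := placeOf_surjective q L w
  rw [smul_placeOf, prime_placeOf, prime_placeOf]
  exact primeAt_mul_inv q σ g τ h

end Galois

end Fermat.Agent.S55.GL.Places
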