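/-
S55 (T4), block GLO2 (Places), part PL2b: `T`-units of number fields `K ⊆ ℚ̄` in the language of
places (`absAt q σ`) versus the language of primes (`SUnit.TUnit`), and the dictionary with the
`T`-units of `GL/Ideles.lean`.
-/
import Mathlib
import Fermat.Agent.S55.GL.PlacesPrime
import Fermat.Agent.S55.GL.Ideles
import Fermat.Agent.S55.SUnitGalois

set_option autoImplicit false
set_option linter.style.haveILetI false
set_option linter.unusedSectionVars false

namespace Fermat.Agent.S55.GL.PlacesUnits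

open IntermediateField NumberField IsDedekindDomain Fermat.Agent.S55.LocalDict
open Fermat.Agent.S55.GL Fermat.Agent.S55.GL.Places
open scoped Pointwise

local notation "Qbar" => AlgebraicClosure ℚ
local notation "Γ" => (AlgebraicClosure ℚ ≃ₐ[ℚ] AlgebraicClosure ℚ)

local instance isAlgebraicQbar_PU : Algebra.IsAlgebraic ℚ (AlgebraicClosure ℚ) :=
  AlgebraicClosure.isAlgebraic ℚ
local instance isAlgClosureQbar_PU : IsAlgClosure ℚ (AlgebraicClosure ℚ) :=
  ⟨inferInstance, inferInstance⟩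
local instance normalQbar_PU : Normal ℚ (AlgebraicClosure ℚ) :=
  IsAlgClosure.normal ℚ (AlgebraicClosure ℚ)

/-- primes as `Fact`s -/
local instance factPrime_pu (q : Nat.Primes) : Fact (q : ℕ).Prime := ⟨q.2⟩

/-! ### The rational prime below a prime of a number field -/

section RatPrime

variable {K : Type*} [Field K] [NumberField K]

/-- Every nonzero prime of `𝓞 K` contains a rational prime. -/
theorem exists_natCast_mem (P : HeightOneSpectrum (𝓞 K)) :
    ∃ q : Nat.Primes, ((q : ℕ) : 𝓞 K) ∈ P.asIdeal := by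
  haveI := P.isPrime
  have : NeZero P.asIdeal := ⟨P.ne_bot⟩
  have hℓ : (Ideal.absNorm (P.asIdeal.under ℤ)).Prime := Nat.absNorm_under_prime P.asIdeal
  refine ⟨⟨_, hℓ⟩, ?_⟩
  have h3 : ((Ideal.absNorm (P.asIdeal.under ℤ) : ℕ) : ℤ) ∈ P.asIdeal.under ℤ := by
    have h5 := Int.ideal_span_absNorm_eq_self (P.asIdeal.under ℤ)
    have h6 : ((Ideal.absNorm (P.asIdeal.under ℤ) : ℕ) : ℤ) ∈
        Ideal.span {((Ideal.absNorm (P.asIdeal.under ℤ) : ℕ) : ℤ)} := Ideal.subset_span rfl
    rwa [h5] at h6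
  rw [Ideal.under_def, Ideal.mem_comap] at h3
  have h4 : algebraMap ℤ (𝓞 K) ((Ideal.absNorm (P.asIdeal.under ℤ) : ℕ) : ℤ) =
      ((Ideal.absNorm (P.asIdeal.under ℤ) : ℕ) : 𝓞 K) := by simp
  rw [h4] at h3
  exact h3

/-- A prime of `𝓞 K` contains at most one rational prime. -/
theorem eq_of_natCast_mem (P : HeightOneSpectrum (𝓞 K)) {q q' : ℕ} (hq : q.Prime)
    (hq' : q'.Prime) (h : (q : 𝓞 K) ∈ P.asIdeal) (h' : (q' : 𝓞 K) ∈ P.asIdeal) : q = q' := by
  by_contra hne
  have hcop : Nat.Coprime q q' := (Nat.coprime_primes hq hq').mpr hne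
  have hb : (q : ℤ) * Nat.gcdA q q' + (q' : ℤ) * Nat.gcdB q q' = 1 := by
    have := Nat.gcd_eq_gcd_ab q q'
    rw [hcop] at this
    simpa using this.symm
  have hL : (q : 𝓞 K) * ((Nat.gcdA q q' : ℤ) : 𝓞 K) + (q' : 𝓞 K) * ((Nat.gcdB q q' : ℤ) : 𝓞 K)
      = 1 := by
    have := congrArg (fun z : ℤ => (z : 𝓞 K)) hb
    simpa using this
  have h1 : (1 : 𝓞 K) ∈ P.asIdeal := by
    rw [← hL]
    exact P.asIdeal.add_mem (P.asIdeal.mul_mem_right _ h) (P.asIdeal.mul_mem_right _ h')
  exact P.isPrime.ne_top ((Ideal.eq_top_iff_one _).mpr h1)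

end RatPrime

/-! ### The primes of `K` over a finite set of rational primes -/

section PrimesOver

variable (K : IntermediateField ℚ Qbar) [NumberField K]

theorem finite_primes_over (q : Nat.Primes) :
    {P : HeightOneSpectrum (𝓞 K) | ((q : ℕ) : 𝓞 K) ∈ P.asIdeal}.Finite := by
  haveI : Finite {P : HeightOneSpectrum (𝓞 K) // ((q : ℕ) : 𝓞 K) ∈ P.asIdeal} :=
    Finite.of_equiv _ (placesEquivPrimes (q : ℕ) K)
  exact Set.finite_coe_iff.mp this

/-- The (finite) set of primes of `𝓞 K` over the rational primes in `T`. -/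
noncomputable def primesOver (T : Finset Nat.Primes) : Finset (HeightOneSpectrum (𝓞 K)) :=
  (Set.Finite.biUnion T.finite_toSet (fun q _ => finite_primes_over K q)).toFinset

variable {K} in
theorem mem_primesOver {T : Finset Nat.Primes} {P : HeightOneSpectrum (𝓞 K)} :
    P ∈ primesOver K T ↔ ∃ q ∈ T, ((q : ℕ) : 𝓞 K) ∈ P.asIdeal := by
  simp [primesOver]

theorem primesOver_mono {T T' : Finset Nat.Primes} (h : T ⊆ T') :
    primesOver K T ⊆ primesOver K T' := by
  intro P hP
  obtain ⟨q, hq, hqP⟩ := mem_primesOver.mp hP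
  exact mem_primesOver.mpr ⟨q, h hq, hqP⟩

variable {K} in
theorem primeAt_mem_primesOver_iff {T : Finset Nat.Primes} (q : Nat.Primes) (σ : Γ) :
    primeAt (q : ℕ) K σ ∈ primesOver K T ↔ q ∈ T := by
  rw [mem_primesOver]
  constructor
  · rintro ⟨q', hq', h⟩
    have := eq_of_natCast_mem _ q'.2 q.2 h (natCast_mem_primeAt (q : ℕ) K σ)
    rwa [← Subtype.ext this]
  · intro hq
    exact ⟨q, hq, natCast_mem_primeAt (q : ℕ) K σ⟩

/-- `x ∈ K` is a unit at all places over `q`, in the language of embeddings and in the language of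
primes. -/
theorem forall_absAt_eq_one_iff (q : Nat.Primes) (x : K) :
    (∀ σ : Γ, absAt (q : ℕ) σ (x : Qbar) = 1) ↔
      ∀ P : HeightOneSpectrum (𝓞 K), ((q : ℕ) : 𝓞 K) ∈ P.asIdeal → P.valuation K x = 1 := by
  constructor
  · intro h P hP
    obtain ⟨σ, rfl⟩ := exists_primeAt_eq (q : ℕ) K P hP
    exact (absOn_eq_one_iff (q : ℕ) K σ x).mp (h σ)
  · intro h σ
    exact (absOn_eq_one_iff (q : ℕ) K σ x).mpr (h _ (natCast_mem_primeAt (q : ℕ) K σ))

/-- **The `T`-units of `K`, in the language of embeddings `ι_q ∘ σ`.** -/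
theorem mem_TUnit_primesOver_iff (T : Finset Nat.Primes) (x : (↥K)ˣ) :
    x ∈ SUnit.TUnit K (primesOver K T) ↔
      ∀ q : Nat.Primes, q ∉ T → ∀ σ : Γ, absAt (q : ℕ) σ ((x : K) : Qbar) = 1 := by
  rw [SUnit.mem_TUnit_iff]
  constructor
  · intro h q hq σ
    have h1 : primeAt (q : ℕ) K σ ∉ primesOver K T := by
      rw [primeAt_mem_primesOver_iff]; exact hq
    exact (absOn_eq_one_iff (q : ℕ) K σ (x : K)).mpr (h _ h1)
  · intro h P hP
    obtain ⟨q, hq⟩ := exists_natCast_mem P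
    have hqT : q ∉ T := fun hqT => hP (mem_primesOver.mpr ⟨q, hqT, hq⟩)
    exact (forall_absAt_eq_one_iff K q (x : K)).mp (h q hqT) P hq

/-- The `T`-units do not depend on the field: `x ∈ K ∩ L` is a `T`-unit of `K` iff it is a
`T`-unit of `L`. -/
theorem mem_TUnit_primesOver_iff_of_coe_eq {K L : IntermediateField ℚ Qbar} [NumberField K]
    [NumberField L] (T : Finset Nat.Primes) (x : (↥K)ˣ) (y : (↥L)ˣ)
    (hxy : ((x : K) : Qbar) = ((y : L) : Qbar)) :
    x ∈ SUnit.TUnit K (primesOver K T) ↔ y ∈ SUnit.TUnit L (primesOver L T) := by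
  rw [mem_TUnit_primesOver_iff, mem_TUnit_primesOver_iff, hxy]

end PrimesOver

/-! ### Galois stability of `primesOver` -/

section GalStable

open Fermat.Agent.S14.GalDiv

variable (L : IntermediateField ℚ Qbar) [NumberField L]
variable (K' : Type*) [Field K'] [NumberField K'] [Algebra K' L]

theorem smul_mem_primesOver (T : Finset Nat.Primes) (τ : L ≃ₐ[K'] L)
    {w : HeightOneSpectrum (𝓞 L)} (hw : w ∈ primesOver L T) : τ • w ∈ primesOver L T := by
  obtain ⟨q, hq, hqw⟩ := mem_primesOver.mp hw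
  refine mem_primesOver.mpr ⟨q, hq, ?_⟩
  show ((q : ℕ) : 𝓞 L) ∈ τ • w.asIdeal
  rw [Ideal.mem_pointwise_smul_iff_inv_smul_mem]
  have h1 : τ⁻¹ • (((q : ℕ) : 𝓞 L)) = (((q : ℕ) : 𝓞 L)) :=
    map_natCast (MulSemiringAction.toRingHom (L ≃ₐ[K'] L) (𝓞 L) τ⁻¹) (q : ℕ)
  rw [h1]
  exact hqw

instance isGalStable_primesOver (T : Finset Nat.Primes) :
    SUnitGalois.IsGalStable K' (primesOver L T) :=
  ⟨fun τ _ hw => smul_mem_primesOver L K' T τ hw⟩

end GalStable

/-! ### The dictionary with the `T`-units of `GL/Ideles.lean` -/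

section IdelesDict

variable (L : IntermediateField ℚ Qbar) [NumberField L] [Normal ℚ L]

/-- helper3's `IsUnitAt L q x` (`‖ι_q (g x)‖ = 1` for all `g ∈ Gal(L/ℚ)`) in the language of the
embeddings `ι_q ∘ σ`, `σ ∈ Γ`. -/
theorem isUnitAt_iff_forall_absAt (q : Nat.Primes) (x : L) :
    Ideles.IsUnitAt L (q : ℕ) x ↔ ∀ σ : Γ, absAt (q : ℕ) σ (x : Qbar) = 1 := by
  constructor
  · intro h σ
    have h1 := h (σ.restrictNormal L)
    have h2 : (((σ.restrictNormal L) x : L) : Qbar) = σ (x : Qbar) :=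
      AlgEquiv.restrictNormal_commutes σ L x
    rw [h2] at h1
    exact h1
  · intro h g
    have h1 := h (g.liftNormal Qbar)
    have h2 : (g.liftNormal Qbar) (x : Qbar) = ((g x : L) : Qbar) :=
      AlgEquiv.liftNormal_commutes g Qbar x
    rw [absAt_apply, h2] at h1
    exact h1

/-- helper3's `IsUnitAt L q x` in the language of primes. -/
theorem isUnitAt_iff_forall_valuation (q : Nat.Primes) (x : L) :
    Ideles.IsUnitAt L (q : ℕ) x ↔
      ∀ P : HeightOneSpectrum (𝓞 L), ((q : ℕ) : 𝓞 L) ∈ P.asIdeal → P.valuation L x = 1 := by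
  rw [isUnitAt_iff_forall_absAt, forall_absAt_eq_one_iff]

/-- **The `T`-units of `GL/Ideles.lean` are the `T`-units of `SUnit.lean`** for the set of primes
of `𝓞 L` over `T`. -/
theorem tUnits_eq_TUnit (T : Finset Nat.Primes) :
    Ideles.tUnits L T = SUnit.TUnit L (primesOver L T) := by
  ext x
  rw [Ideles.mem_tUnits, mem_TUnit_primesOver_iff]
  exact forall_congr' fun q => forall_congr' fun _ => isUnitAt_iff_forall_absAt L q (x : L)

theorem mem_tUnits_iff (T : Finset Nat.Primes) (x : (↥L)ˣ) :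
    x ∈ Ideles.tUnits L T ↔ ∀ P ∉ primesOver L T, P.valuation L (x : L) = 1 := by
  rw [tUnits_eq_TUnit]
  exact SUnit.mem_TUnit_iff

end IdelesDict

end Fermat.Agent.S55.GL.PlacesUnits
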