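/-
S55 (T4), block GLO2 (Places), part 6: the complete discrete valuation ring at a place.
For a finite `E/ℚ_q` inside `PadicAlgCl q`, `B := integralClosure ℤ_[q] E` is a complete DVR with
finite residue field and fraction field `E`; its valuation is equivalent to the norm.
For a number field `K ⊆ Qbar` and `σ : Γ`, the valuation of `localFieldAt q K σ` restricts on `K`
to the valuation of the prime `primeAt q K σ` (helper11), and `K` is dense.
-/
import Mathlib
import Fermat.Agent.S55.GL.PlacesComplete
import Fermat.Agent.S55.GL.PlacesPrime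
import Fermat.Agent.S55.GL.PlacesPrimeUnits
import Fermat.Agent.S55.LocalInt
import Fermat.Agent.S55.Local.ValZ

set_option autoImplicit false
set_option linter.style.haveILetI false

namespace Fermat.Agent.S55.GL.PlacesDVR

open IntermediateField IsLocalRing IsDedekindDomain Fermat.Agent.S55.LocalDict
  Fermat.Agent.S55.GL.Places Fermat.Agent.S55.GL.PlacesComplete Fermat.Agent.S55.LocalInt
  Fermat.Agent.S55.Local

local notation "Qbar" => AlgebraicClosure ℚ
local notation "Γ" => (AlgebraicClosure ℚ ≃ₐ[ℚ] AlgebraicClosure ℚ)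

/-! ### Two normalised discrete valuations with the same valuation ring are equal -/

section General

variable {K : Type*} [Field K]

theorem valuation_eq_of_le_one_iff (v w : Valuation K (WithZero (Multiplicative ℤ)))
    (h : ∀ x, v x ≤ 1 ↔ w x ≤ 1)
    (hv : ∃ π, v π = WithZero.exp (-1 : ℤ)) (hw : ∃ π, w π = WithZero.exp (-1 : ℤ)) :
    v = w := by
  have h1 : ∀ x, x ≠ 0 → (v x = 1 ↔ w x = 1) := by
    intro x hx
    have hx' := h x
    have hxi := h x⁻¹
    rw [map_inv₀, map_inv₀, inv_le_one₀ (zero_lt_iff.mpr ((map_ne_zero v).mpr hx)),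
      inv_le_one₀ (zero_lt_iff.mpr ((map_ne_zero w).mpr hx))] at hxi
    constructor
    · intro hv1
      exact le_antisymm (hx'.mp hv1.le) (hxi.mp hv1.ge)
    · intro hw1
      exact le_antisymm (hx'.mpr hw1.le) (hxi.mpr hw1.ge)
  obtain ⟨π, hπ⟩ := hv
  obtain ⟨π', hπ'⟩ := hw
  have hπ0 : π ≠ 0 := by
    rintro rfl
    rw [map_zero] at hπ
    exact WithZero.exp_ne_zero hπ.symm
  have hπ'0 : π' ≠ 0 := by
    rintro rfl
    rw [map_zero] at hπ'
    exact WithZero.exp_ne_zero hπ'.symm
  -- `w π = exp (-m)`, `v π' = exp (-m')`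
  set m : ℤ := -WithZero.log (w π) with hm
  have hwπ : w π = WithZero.exp (-m) := by
    rw [hm, neg_neg, WithZero.exp_log ((map_ne_zero w).mpr hπ0)]
  set m' : ℤ := -WithZero.log (v π') with hm'
  have hvπ' : v π' = WithZero.exp (-m') := by
    rw [hm', neg_neg, WithZero.exp_log ((map_ne_zero v).mpr hπ'0)]
  have hexp : WithZero.exp (-1 : ℤ) ≤ (1 : WithZero (Multiplicative ℤ)) := by
    rw [← WithZero.exp_zero, WithZero.exp_le_exp]
    norm_num
  have hm0 : 0 ≤ m := by
    have : w π ≤ 1 := (h π).mp (by rw [hπ]; exact hexp)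
    rw [hwπ, ← WithZero.exp_zero, WithZero.exp_le_exp] at this
    omega
  have hm'0 : 0 ≤ m' := by
    have : v π' ≤ 1 := (h π').mpr (by rw [hπ']; exact hexp)
    rw [hvπ', ← WithZero.exp_zero, WithZero.exp_le_exp] at this
    omega
  -- `m * m' = 1`
  have hmm : m * m' = 1 := by
    have hx0 : π' / π ^ m' ≠ 0 := div_ne_zero hπ'0 (zpow_ne_zero _ hπ0)
    have hvx : v (π' / π ^ m') = 1 := by
      rw [map_div₀, map_zpow₀, hπ, hvπ', ← WithZero.exp_zsmul, smul_eq_mul, mul_neg, mul_one]
      exact div_self WithZero.exp_ne_zero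
    have hwx := (h1 _ hx0).mp hvx
    rw [map_div₀, map_zpow₀, hπ', hwπ, ← WithZero.exp_zsmul, smul_eq_mul,
      div_eq_one_iff_eq WithZero.exp_ne_zero, WithZero.exp_inj] at hwx
    linarith
  have hm1 : m = 1 := by
    rcases Int.eq_one_or_neg_one_of_mul_eq_one hmm with h | h
    · exact h
    · omega
  rw [hm1] at hwπ
  ext x
  by_cases hx : x = 0
  · rw [hx, map_zero, map_zero]
  set n : ℤ := WithZero.log (v x) with hn
  have hvx : v x = WithZero.exp n := (WithZero.exp_log ((map_ne_zero v).mpr hx)).symm
  have hy0 : x * π ^ n ≠ 0 := mul_ne_zero hx (zpow_ne_zero _ hπ0)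
  have hvy : v (x * π ^ n) = 1 := by
    rw [map_mul, map_zpow₀, hπ, hvx, ← WithZero.exp_zsmul, smul_eq_mul, mul_neg, mul_one,
      ← WithZero.exp_add, add_neg_cancel, WithZero.exp_zero]
  have hwy := (h1 _ hy0).mp hvy
  rw [map_mul, map_zpow₀, hwπ, ← WithZero.exp_zsmul, smul_eq_mul, mul_neg, mul_one] at hwy
  rw [hvx]
  have : w x = w x * WithZero.exp (-n) * WithZero.exp n := by
    rw [mul_assoc, ← WithZero.exp_add, neg_add_cancel, WithZero.exp_zero, mul_one]
  rw [this, hwy, one_mul]

end General

/-! ### The complete DVR of a finite extension of `ℚ_q` inside `PadicAlgCl q` -/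

section Local

variable {q : ℕ} [Fact q.Prime]
variable (E : IntermediateField ℚ_[q] (PadicAlgCl q)) [FiniteDimensional ℚ_[q] E]

instance isDVR_integralClosure_padic : IsDiscreteValuationRing (integralClosure ℤ_[q] E) :=
  isDiscreteValuationRing_of_isIntegralClosure ℤ_[q] ℚ_[q] E (integralClosure ℤ_[q] E)

instance isAdicComplete_integralClosure_padic :
    IsAdicComplete (maximalIdeal (integralClosure ℤ_[q] E)) (integralClosure ℤ_[q] E) :=
  isAdicComplete_maximalIdeal_of_isIntegralClosure ℤ_[q] ℚ_[q] E (integralClosure ℤ_[q] E)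

instance finite_residueField_integralClosure_padic :
    Finite (ResidueField (integralClosure ℤ_[q] E)) :=
  finite_residueField_of_isIntegralClosure ℤ_[q] ℚ_[q] E (integralClosure ℤ_[q] E)

instance isFractionRing_integralClosure_padic : IsFractionRing (integralClosure ℤ_[q] E) E :=
  isFractionRing_of_isIntegralClosure ℤ_[q] ℚ_[q] E (integralClosure ℤ_[q] E)

/-- The valuation of `E` and the norm define the same unit ball. -/
theorem dvrValuation_le_one_iff_norm_le_one (x : E) :
    dvrValuation (integralClosure ℤ_[q] E) E x ≤ 1 ↔ ‖(x : PadicAlgCl q)‖ ≤ 1 := by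
  rw [← mem_integralClosure_iff_norm_le_one]
  constructor
  · intro h
    have hall : ∀ v : HeightOneSpectrum (integralClosure ℤ_[q] E), v.valuation E x ≤ 1 := by
      intro v
      have hv : v = IsDiscreteValuationRing.maximalIdeal (integralClosure ℤ_[q] E) :=
        HeightOneSpectrum.ext (IsLocalRing.eq_maximalIdeal v.isMaximal)
      rw [hv]
      exact h
    obtain ⟨b, hb⟩ := HeightOneSpectrum.mem_integers_of_valuation_le_one E x hall
    rw [← hb]
    exact b.2
  · intro h
    exact HeightOneSpectrum.valuation_le_one _ (⟨x, h⟩ : integralClosure ℤ_[q] E)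

/-- The valuation of `E` and the norm define the same order. -/
theorem dvrValuation_le_iff_norm_le (x y : E) :
    dvrValuation (integralClosure ℤ_[q] E) E x ≤ dvrValuation (integralClosure ℤ_[q] E) E y ↔
      ‖(x : PadicAlgCl q)‖ ≤ ‖(y : PadicAlgCl q)‖ := by
  by_cases hy : y = 0
  · rw [hy, map_zero, le_zero_iff, map_eq_zero]
    simp only [ZeroMemClass.coe_zero, norm_zero, norm_le_zero_iff, ZeroMemClass.coe_eq_zero]
  · have hvy : dvrValuation (integralClosure ℤ_[q] E) E y ≠ 0 := (map_ne_zero _).mpr hy
    have hny : 0 < ‖(y : PadicAlgCl q)‖ := by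
      rw [norm_pos_iff]
      exact_mod_cast hy
    have h := dvrValuation_le_one_iff_norm_le_one E (x / y)
    rw [map_div₀, div_le_one₀ (zero_lt_iff.mpr hvy)] at h
    rw [h]
    push_cast
    rw [norm_div, div_le_one hny]

theorem dvrValuation_lt_iff_norm_lt (x y : E) :
    dvrValuation (integralClosure ℤ_[q] E) E x < dvrValuation (integralClosure ℤ_[q] E) E y ↔
      ‖(x : PadicAlgCl q)‖ < ‖(y : PadicAlgCl q)‖ := by
  rw [← not_le, ← not_le, dvrValuation_le_iff_norm_le]

theorem dvrValuation_eq_iff_norm_eq (x y : E) :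
    dvrValuation (integralClosure ℤ_[q] E) E x = dvrValuation (integralClosure ℤ_[q] E) E y ↔
      ‖(x : PadicAlgCl q)‖ = ‖(y : PadicAlgCl q)‖ := by
  rw [le_antisymm_iff, le_antisymm_iff, dvrValuation_le_iff_norm_le, dvrValuation_le_iff_norm_le]

end Local

/-! ### The completion of a number field `K ⊆ Qbar` at the place `x ↦ ‖ι_q (σ x)‖` -/

section Global

variable (q : ℕ) [Fact q.Prime] (K : IntermediateField ℚ Qbar) [NumberField K] (σ : Γ)

/-- **Valuation compatibility**: the normalised valuation of the complete DVR of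
`K_w = ℚ_q(ι σ K)` restricts on `K` to the valuation of the prime `primeAt q K σ`. -/
theorem dvrValuation_embAt (x : K) :
    dvrValuation (integralClosure ℤ_[q] (localFieldAt q K σ)) (localFieldAt q K σ)
      (embAt q K σ x) = (primeAt q K σ).valuation K x := by
  set E := localFieldAt q K σ with hE
  have key : (dvrValuation (integralClosure ℤ_[q] E) E).comap (embAt q K σ) =
      (primeAt q K σ).valuation K := by
    symm
    apply valuation_eq_of_le_one_iff
    · intro y
      rw [← absOn_le_one_iff, Valuation.comap_apply, dvrValuation_le_one_iff_norm_le_one,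
        norm_embAt]
    · exact HeightOneSpectrum.valuation_exists_uniformizer K (primeAt q K σ)
    · obtain ⟨ϖ, hϖ⟩ := IsDiscreteValuationRing.exists_irreducible (integralClosure ℤ_[q] E)
      have hϖE : ((ϖ : E) : PadicAlgCl q) ∈ localFieldAt q K σ := (ϖ : E).2
      have hϖ0 : ((ϖ : E) : PadicAlgCl q) ≠ 0 := by
        have : (ϖ : E) ≠ 0 := by
          intro h0
          exact hϖ.ne_zero (Subtype.ext h0)
        exact_mod_cast this
      obtain ⟨y, hy, _, hnorm⟩ := exists_norm_eq q K σ hϖE hϖ0
      refine ⟨⟨y, hy⟩, ?_⟩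
      rw [Valuation.comap_apply, ← dvrValuation_uniformizer (F := E) hϖ]
      rw [dvrValuation_eq_iff_norm_eq]
      exact hnorm
  have := congrArg (fun v : Valuation K (WithZero (Multiplicative ℤ)) => v x) key
  exact this

/-- **Density in valuation form**: every `y ∈ K_w` is approximated by elements of `K` to any
prescribed valuation precision. -/
theorem exists_dvrValuation_sub_embAt_le (y : localFieldAt q K σ) (n : ℤ) :
    ∃ x : K, dvrValuation (integralClosure ℤ_[q] (localFieldAt q K σ)) (localFieldAt q K σ)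
      (y - embAt q K σ x) ≤ WithZero.exp (-n) := by
  obtain ⟨ϖ, hϖ⟩ := IsDiscreteValuationRing.exists_irreducible
    (integralClosure ℤ_[q] (localFieldAt q K σ))
  have hϖ0 : (ϖ : localFieldAt q K σ) ≠ 0 := fun h0 => hϖ.ne_zero (Subtype.ext h0)
  have hz0 : ((ϖ : localFieldAt q K σ) ^ n : localFieldAt q K σ) ≠ 0 := zpow_ne_zero _ hϖ0
  have hpos : 0 < ‖(((ϖ : localFieldAt q K σ) ^ n : localFieldAt q K σ) : PadicAlgCl q)‖ := by
    rw [norm_pos_iff]
    exact_mod_cast hz0
  obtain ⟨x, hx, hlt⟩ := exists_norm_sub_lt q K σ y.2 hpos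
  refine ⟨⟨x, hx⟩, ?_⟩
  have h1 : dvrValuation (integralClosure ℤ_[q] (localFieldAt q K σ)) (localFieldAt q K σ)
      ((ϖ : localFieldAt q K σ) ^ n) = WithZero.exp (-n) := by
    have := dvrValuation_uniformizer (F := localFieldAt q K σ) hϖ
    rw [map_zpow₀]
    have h2 : algebraMap (integralClosure ℤ_[q] (localFieldAt q K σ)) (localFieldAt q K σ) ϖ =
        (ϖ : localFieldAt q K σ) := rfl
    rw [← h2, this, ← WithZero.exp_zsmul, smul_eq_mul, mul_neg, mul_one]
  rw [← h1]
  refine ((dvrValuation_lt_iff_norm_lt (localFieldAt q K σ) _ _).mpr ?_).le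
  have h3 : ((y - embAt q K σ ⟨x, hx⟩ : localFieldAt q K σ) : PadicAlgCl q) =
      (y : PadicAlgCl q) - padicEmbedding q (σ x) := rfl
  rw [h3]
  exact hlt

end Global

/-! ### A completion for every prime of `𝓞 K` -/

section PerPrime

/-- primes as `Fact`s -/
local instance factPrime_pdvr (q : Nat.Primes) : Fact (q : ℕ).Prime := ⟨q.2⟩

variable (K : IntermediateField ℚ Qbar) [NumberField K]

/-- The rational prime below the prime `v` of `𝓞 K`. -/
noncomputable def ratPrime (v : HeightOneSpectrum (NumberField.RingOfIntegers K)) : Nat.Primes :=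
  Classical.choose (PlacesUnits.exists_natCast_mem v)

theorem natCast_ratPrime_mem (v : HeightOneSpectrum (NumberField.RingOfIntegers K)) :
    (((ratPrime K v : ℕ)) : NumberField.RingOfIntegers K) ∈ v.asIdeal :=
  Classical.choose_spec (PlacesUnits.exists_natCast_mem v)

/-- An automorphism `σ` with `primeAt q K σ = v`. -/
noncomputable def sigmaAt (v : HeightOneSpectrum (NumberField.RingOfIntegers K)) : Γ :=
  Classical.choose (exists_primeAt_eq (ratPrime K v : ℕ) K v (natCast_ratPrime_mem K v))

theorem primeAt_sigmaAt (v : HeightOneSpectrum (NumberField.RingOfIntegers K)) :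
    primeAt (ratPrime K v : ℕ) K (sigmaAt K v) = v :=
  Classical.choose_spec (exists_primeAt_eq (ratPrime K v : ℕ) K v (natCast_ratPrime_mem K v))

/-- The completion `K_v` of `K` at the prime `v`, as a subfield of `PadicAlgCl q_v`. -/
noncomputable def completionAt (v : HeightOneSpectrum (NumberField.RingOfIntegers K)) :
    IntermediateField ℚ_[(ratPrime K v : ℕ)] (PadicAlgCl (ratPrime K v : ℕ)) :=
  localFieldAt (ratPrime K v : ℕ) K (sigmaAt K v)

instance finiteDimensional_completionAt (v : HeightOneSpectrum (NumberField.RingOfIntegers K)) :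
    FiniteDimensional ℚ_[(ratPrime K v : ℕ)] (completionAt K v) := by
  unfold completionAt
  infer_instance

/-- The embedding `K → K_v`. -/
noncomputable def locAt (v : HeightOneSpectrum (NumberField.RingOfIntegers K)) :
    K →+* completionAt K v :=
  embAt (ratPrime K v : ℕ) K (sigmaAt K v)

theorem coe_locAt (v : HeightOneSpectrum (NumberField.RingOfIntegers K)) (x : K) :
    ((locAt K v x : completionAt K v) : PadicAlgCl (ratPrime K v : ℕ)) =
      padicEmbedding (ratPrime K v : ℕ) (sigmaAt K v (x : Qbar)) := rfl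

/-- **Valuation compatibility** at the prime `v`. -/
theorem dvrValuation_locAt (v : HeightOneSpectrum (NumberField.RingOfIntegers K)) (x : K) :
    dvrValuation (integralClosure ℤ_[(ratPrime K v : ℕ)] (completionAt K v)) (completionAt K v)
      (locAt K v x) = v.valuation K x := by
  have := dvrValuation_embAt (ratPrime K v : ℕ) K (sigmaAt K v) x
  rw [primeAt_sigmaAt] at this
  exact this

/-- **Density** of `K` in `K_v`. -/
theorem exists_dvrValuation_sub_locAt_le (v : HeightOneSpectrum (NumberField.RingOfIntegers K))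
    (y : completionAt K v) (n : ℤ) :
    ∃ x : K, dvrValuation (integralClosure ℤ_[(ratPrime K v : ℕ)] (completionAt K v))
      (completionAt K v) (y - locAt K v x) ≤ WithZero.exp (-n) :=
  exists_dvrValuation_sub_embAt_le (ratPrime K v : ℕ) K (sigmaAt K v) y n

/-- The normalised valuation on units: `valZ (loc x) = v(x)`. -/
theorem valZ_locAt (v : HeightOneSpectrum (NumberField.RingOfIntegers K)) (x : Kˣ) :
    ((valZ (integralClosure ℤ_[(ratPrime K v : ℕ)] (completionAt K v)) (completionAt K v)
      (Units.map (locAt K v : K →* completionAt K v) x) : Multiplicative ℤ) :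
        WithZero (Multiplicative ℤ)) = v.valuation K (x : K) := by
  rw [coe_valZ]
  exact dvrValuation_locAt K v x

end PerPrime

end Fermat.Agent.S55.GL.PlacesDVR
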