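/-
S55 (T4), block GLO2 (Places), part 7: relative decomposition groups.
For number fields `K ⊆ L ⊆ Qbar` with `L/K` Galois and `σ : Γ`, the decomposition group
`D_w ≤ Gal(L/K)` of the place `w : x ↦ ‖ι_q (σ x)‖` of `L` is isomorphic to
`Gal(L_w/K_v)`, `K_v = ℚ_q(ι σ K) ≤ L_w = ℚ_q(ι σ L)`, compatibly with the embedding `L → L_w`.
-/
import Mathlib
import Fermat.Agent.S55.GL.PlacesDVR

set_option autoImplicit false
set_option linter.style.haveILetI false

namespace Fermat.Agent.S55.GL.PlacesRel

open IntermediateField IsDedekindDomain Fermat.Agent.S55.LocalDict Fermat.Agent.S55.GL.Places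
  Fermat.Agent.S55.GL.PlacesComplete

local notation "Qbar" => AlgebraicClosure ℚ
local notation "Γ" => (AlgebraicClosure ℚ ≃ₐ[ℚ] AlgebraicClosure ℚ)

local instance isAlgebraicQbar_PRel : Algebra.IsAlgebraic ℚ (AlgebraicClosure ℚ) :=
  AlgebraicClosure.isAlgebraic ℚ
local instance isAlgClosureQbar_PRel : IsAlgClosure ℚ (AlgebraicClosure ℚ) :=
  ⟨inferInstance, inferInstance⟩
local instance normalQbar_PRel : Normal ℚ (AlgebraicClosure ℚ) :=
  IsAlgClosure.normal ℚ (AlgebraicClosure ℚ)

variable {K L : IntermediateField ℚ Qbar} [Algebra K L]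

/-! ### The restriction `G_K → Gal(L/K)` -/

section ResGlobal

variable (halg : ∀ x : K, ((algebraMap K L x : L) : Qbar) = x)
include halg

theorem isScalarTower_of_halg : IsScalarTower K L Qbar :=
  IsScalarTower.of_algebraMap_eq fun x => (halg x).symm

theorem le_of_halg : K ≤ L := fun x hx => by
  have h : ((algebraMap K L ⟨x, hx⟩ : L) : Qbar) = x := halg ⟨x, hx⟩
  rw [← h]
  exact (algebraMap K L ⟨x, hx⟩).2

variable [Normal K L]

/-- The restriction map `G_K = Gal(Qbar/K) → Gal(L/K)`. -/
noncomputable def resGlobal : K.fixingSubgroup →* (L ≃ₐ[K] L) :=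
  haveI := isScalarTower_of_halg halg
  (AlgEquiv.restrictNormalHom (F := K) (K₁ := Qbar) L).comp
    (IntermediateField.fixingSubgroupEquiv K).toMonoidHom

theorem coe_resGlobal (γ : K.fixingSubgroup) (x : L) :
    ((resGlobal halg γ x : L) : Qbar) = (γ : Γ) (x : Qbar) := by
  haveI := isScalarTower_of_halg halg
  exact AlgEquiv.restrictNormal_commutes (IntermediateField.fixingSubgroupEquiv K γ) L x

theorem resGlobal_surjective : Function.Surjective (resGlobal halg) := by
  haveI := isScalarTower_of_halg halg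
  haveI : Normal K Qbar := Normal.tower_top_of_normal ℚ K Qbar
  intro g
  obtain ⟨γ, hγ⟩ := AlgEquiv.restrictNormalHom_surjective (F := K) (K₁ := L) Qbar g
  exact ⟨(IntermediateField.fixingSubgroupEquiv K).symm γ, by
    simp only [resGlobal, MonoidHom.coe_comp, MulEquiv.coe_toMonoidHom, Function.comp_apply,
      MulEquiv.apply_symm_apply]
    exact hγ⟩

theorem resGlobal_eq_one_iff (γ : K.fixingSubgroup) :
    resGlobal halg γ = 1 ↔ (γ : Γ) ∈ L.fixingSubgroup := by
  rw [IntermediateField.mem_fixingSubgroup_iff]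
  constructor
  · intro h x hx
    have := coe_resGlobal halg γ ⟨x, hx⟩
    rw [h] at this
    exact this.symm
  · intro h
    ext x
    rw [coe_resGlobal]
    exact h x x.2

end ResGlobal

/-! ### From the local Galois group to `Gal(L/K)` -/

section Local

variable (q : ℕ) [Fact q.Prime] (σ : Γ)

/-- `conjLocal q σ` maps `Gal(PadicAlgCl q / K_v)` into `G_K`. -/
noncomputable def conjLocalK (K : IntermediateField ℚ Qbar) :
    (localFieldAt q K σ).fixingSubgroup →* K.fixingSubgroup :=
  ((conjLocal q σ).comp (localFieldAt q K σ).fixingSubgroup.subtype).codRestrict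
    K.fixingSubgroup (fun d => by
      have h : (d : PadicAlgCl q ≃ₐ[ℚ_[q]] PadicAlgCl q) ∈
          K.fixingSubgroup.comap (conjLocal q σ) := by
        rw [comap_conjLocal_fixingSubgroup]
        exact d.2
      exact h)

theorem coe_conjLocalK (K : IntermediateField ℚ Qbar)
    (d : (localFieldAt q K σ).fixingSubgroup) :
    ((conjLocalK q σ K d : K.fixingSubgroup) : Γ) = conjLocal q σ d := rfl

variable (halg : ∀ x : K, ((algebraMap K L x : L) : Qbar) = x) [Normal K L]

/-- The map `Gal(PadicAlgCl q / K_v) → Gal(L/K)`. -/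
noncomputable def toGlobal : (localFieldAt q K σ).fixingSubgroup →* (L ≃ₐ[K] L) :=
  (resGlobal halg).comp (conjLocalK q σ K)

/-- `ι σ (toGlobal d x) = d (ι σ x)`. -/
theorem padicEmbedding_toGlobal (d : (localFieldAt q K σ).fixingSubgroup) (x : L) :
    padicEmbedding q (σ ((toGlobal q σ halg d x : L) : Qbar)) =
      (d : PadicAlgCl q ≃ₐ[ℚ_[q]] PadicAlgCl q) (padicEmbedding q (σ (x : Qbar))) := by
  rw [toGlobal, MonoidHom.comp_apply, coe_resGlobal, coe_conjLocalK, padicEmbedding_conjLocal]

theorem toGlobal_eq_one_iff (d : (localFieldAt q K σ).fixingSubgroup) :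
    toGlobal q σ halg d = 1 ↔
      (d : PadicAlgCl q ≃ₐ[ℚ_[q]] PadicAlgCl q) ∈ (localFieldAt q L σ).fixingSubgroup := by
  rw [toGlobal, MonoidHom.comp_apply, resGlobal_eq_one_iff, coe_conjLocalK]
  have h := comap_conjLocal_fixingSubgroup q L σ
  exact (Subgroup.mem_comap (K := L.fixingSubgroup) (f := conjLocal q σ)).symm.trans
    (by rw [h])

/-- The decomposition group of the place `x ↦ ‖ι_q (σ x)‖` of `L` in `Gal(L/K)`. -/
def decompAt : Subgroup (L ≃ₐ[K] L) where
  carrier := {g | ∀ x : L, absOn q L σ (g x) = absOn q L σ x}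
  mul_mem' := fun {a b} ha hb x => by
    rw [AlgEquiv.mul_apply, ha, hb]
  one_mem' := fun _ => rfl
  inv_mem' := fun {a} ha x => by
    have := ha (a⁻¹ x)
    rw [← AlgEquiv.mul_apply, mul_inv_cancel, AlgEquiv.one_apply] at this
    exact this.symm

omit [Normal K L] in
theorem mem_decompAt_iff (g : L ≃ₐ[K] L) :
    g ∈ decompAt (K := K) (L := L) q σ ↔ ∀ x : L, absOn q L σ (g x) = absOn q L σ x := Iff.rfl

theorem toGlobal_mem_decompAt (d : (localFieldAt q K σ).fixingSubgroup) :
    toGlobal q σ halg d ∈ decompAt (K := K) (L := L) q σ := by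
  intro x
  rw [absOn_apply, absOn_apply, padicEmbedding_toGlobal]
  exact (isometry_algEquiv q _).norm_map_of_map_zero (map_zero _) _

theorem exists_toGlobal_eq [FiniteDimensional ℚ L] {g : L ≃ₐ[K] L}
    (hg : g ∈ decompAt (K := K) (L := L) q σ) :
    ∃ d : (localFieldAt q K σ).fixingSubgroup, toGlobal q σ halg d = g := by
  obtain ⟨γ, rfl⟩ := resGlobal_surjective halg g
  have hsame : SamePlace q L (σ * (γ : Γ)) σ := by
    intro x hx
    have := hg ⟨x, hx⟩
    rw [absOn_apply, absOn_apply, coe_resGlobal] at this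
    rw [absAt_mul]
    exact this
  obtain ⟨τ, h, hh, heq⟩ := (samePlace_mul_iff q σ (γ : Γ)).mp hsame
  have hle : L.fixingSubgroup ≤ K.fixingSubgroup :=
    IntermediateField.fixingSubgroup_antitone (le_of_halg halg)
  have hτK : conjLocal q σ τ ∈ K.fixingSubgroup := by
    have : conjLocal q σ τ = (γ : Γ) * h⁻¹ := by rw [heq]; group
    rw [this]
    exact mul_mem γ.2 (inv_mem (hle hh))
  have hτ : τ ∈ (localFieldAt q K σ).fixingSubgroup := by
    rw [← comap_conjLocal_fixingSubgroup]
    exact hτK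
  refine ⟨⟨τ, hτ⟩, ?_⟩
  have h1 : conjLocalK q σ K ⟨τ, hτ⟩ = γ * (⟨h, hle hh⟩ : K.fixingSubgroup)⁻¹ := by
    apply Subtype.ext
    rw [coe_conjLocalK]
    push_cast
    rw [heq]; group
  have h2 : resGlobal halg (⟨h, hle hh⟩ : K.fixingSubgroup) = 1 :=
    (resGlobal_eq_one_iff halg _).mpr hh
  rw [toGlobal, MonoidHom.comp_apply, h1, map_mul, map_inv, h2, inv_one, mul_one]

theorem range_toGlobal [FiniteDimensional ℚ L] :
    (toGlobal q σ halg).range = decompAt (K := K) (L := L) q σ := by
  ext g
  constructor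
  · rintro ⟨d, rfl⟩
    exact toGlobal_mem_decompAt q σ halg d
  · exact fun hg => exists_toGlobal_eq q σ halg hg

/-! ### The local extension `L_w / K_v` -/

/-- `L_w = ℚ_q(ι σ L)` as an intermediate field of `PadicAlgCl q / K_v`. -/
noncomputable def localExt : IntermediateField (localFieldAt q K σ) (PadicAlgCl q) :=
  IntermediateField.extendScalars (localFieldAt_mono q (le_of_halg halg) σ)

omit [Normal K L] in
theorem mem_localExt {y : PadicAlgCl q} :
    y ∈ localExt q σ halg ↔ y ∈ localFieldAt q L σ :=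
  IntermediateField.mem_extendScalars _

omit [Normal K L] in
theorem padicEmbedding_mem_localExt (x : L) :
    padicEmbedding q (σ (x : Qbar)) ∈ localExt q σ halg :=
  (mem_localExt q σ halg).mpr (padicEmbedding_apply_mem_localFieldAt q σ x.2)

instance normal_padicAlgCl_localFieldAt :
    Normal (localFieldAt q K σ) (PadicAlgCl q) :=
  Normal.tower_top_of_normal ℚ_[q] (localFieldAt q K σ) (PadicAlgCl q)

include halg in
theorem map_le_localFieldAt (d : (localFieldAt q K σ).fixingSubgroup) :
    localFieldAt q L σ ≤ (localFieldAt q L σ).comap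
      ((d : PadicAlgCl q ≃ₐ[ℚ_[q]] PadicAlgCl q) : PadicAlgCl q →ₐ[ℚ_[q]] PadicAlgCl q) := by
  rw [localFieldAt_le_iff]
  intro x hx
  show (d : PadicAlgCl q ≃ₐ[ℚ_[q]] PadicAlgCl q) (padicEmbedding q (σ x)) ∈ localFieldAt q L σ
  have := padicEmbedding_toGlobal q σ halg d ⟨x, hx⟩
  rw [← this]
  exact padicEmbedding_apply_mem_localFieldAt q σ (toGlobal q σ halg d ⟨x, hx⟩).2

instance normal_localExt : Normal (localFieldAt q K σ) (localExt q σ halg) := by
  rw [IntermediateField.normal_iff_forall_map_le']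
  intro τ y hy
  obtain ⟨z, hz, rfl⟩ := hy
  have hz' : z ∈ localFieldAt q L σ := (mem_localExt q σ halg).mp hz
  rw [mem_localExt]
  exact map_le_localFieldAt q σ halg
    ((IntermediateField.fixingSubgroupEquiv (localFieldAt q K σ)).symm τ) hz'

/-- The restriction `Gal(PadicAlgCl q / K_v) → Gal(L_w / K_v)`. -/
noncomputable def toLocal : (localFieldAt q K σ).fixingSubgroup →*
    (localExt q σ halg ≃ₐ[localFieldAt q K σ] localExt q σ halg) :=
  (AlgEquiv.restrictNormalHom (F := localFieldAt q K σ) (K₁ := PadicAlgCl q)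
    (localExt q σ halg)).comp
    (IntermediateField.fixingSubgroupEquiv (localFieldAt q K σ)).toMonoidHom

theorem coe_toLocal (d : (localFieldAt q K σ).fixingSubgroup) (y : localExt q σ halg) :
    ((toLocal q σ halg d y : localExt q σ halg) : PadicAlgCl q) =
      (d : PadicAlgCl q ≃ₐ[ℚ_[q]] PadicAlgCl q) (y : PadicAlgCl q) :=
  AlgEquiv.restrictNormal_commutes
    (IntermediateField.fixingSubgroupEquiv (localFieldAt q K σ) d) (localExt q σ halg) y

theorem toLocal_surjective : Function.Surjective (toLocal q σ halg) := by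
  intro g
  obtain ⟨γ, hγ⟩ := AlgEquiv.restrictNormalHom_surjective (F := localFieldAt q K σ)
    (K₁ := localExt q σ halg) (PadicAlgCl q) g
  exact ⟨(IntermediateField.fixingSubgroupEquiv (localFieldAt q K σ)).symm γ, by
    simp only [toLocal, MonoidHom.coe_comp, MulEquiv.coe_toMonoidHom, Function.comp_apply,
      MulEquiv.apply_symm_apply]
    exact hγ⟩

theorem toLocal_eq_one_iff (d : (localFieldAt q K σ).fixingSubgroup) :
    toLocal q σ halg d = 1 ↔
      (d : PadicAlgCl q ≃ₐ[ℚ_[q]] PadicAlgCl q) ∈ (localFieldAt q L σ).fixingSubgroup := by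
  rw [IntermediateField.mem_fixingSubgroup_iff]
  constructor
  · intro h y hy
    have := coe_toLocal q σ halg d ⟨y, (mem_localExt q σ halg).mpr hy⟩
    rw [h] at this
    exact this.symm
  · intro h
    ext y
    rw [coe_toLocal]
    exact h y ((mem_localExt q σ halg).mp y.2)

theorem ker_toGlobal_eq_ker_toLocal :
    (toGlobal q σ halg).ker = (toLocal q σ halg).ker := by
  ext d
  rw [MonoidHom.mem_ker, MonoidHom.mem_ker, toGlobal_eq_one_iff, toLocal_eq_one_iff]

/-! ### The decomposition group is the local Galois group -/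

variable [FiniteDimensional ℚ L]

/-- **`D_w ≃* Gal(L_w / K_v)`**. -/
noncomputable def decompEquiv : decompAt (K := K) (L := L) q σ ≃*
    (localExt q σ halg ≃ₐ[localFieldAt q K σ] localExt q σ halg) :=
  ((MulEquiv.subgroupCongr (range_toGlobal q σ halg)).symm.trans
    (QuotientGroup.quotientKerEquivRange (toGlobal q σ halg)).symm).trans
  ((QuotientGroup.quotientMulEquivOfEq (ker_toGlobal_eq_ker_toLocal q σ halg)).trans
    (QuotientGroup.quotientKerEquivOfSurjective (toLocal q σ halg)
      (toLocal_surjective q σ halg)))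

theorem decompEquiv_toGlobal (d : (localFieldAt q K σ).fixingSubgroup) :
    decompEquiv q σ halg ⟨toGlobal q σ halg d, toGlobal_mem_decompAt q σ halg d⟩ =
      toLocal q σ halg d := by
  have h1 : (QuotientGroup.quotientKerEquivRange (toGlobal q σ halg)).symm
      ⟨toGlobal q σ halg d, ⟨d, rfl⟩⟩ = (d : _ ⧸ (toGlobal q σ halg).ker) := by
    rw [MulEquiv.symm_apply_eq]
    rfl
  simp only [decompEquiv, MulEquiv.trans_apply]
  have h2 : (MulEquiv.subgroupCongr (range_toGlobal q σ halg)).symm
      ⟨toGlobal q σ halg d, toGlobal_mem_decompAt q σ halg d⟩ =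
        ⟨toGlobal q σ halg d, ⟨d, rfl⟩⟩ := rfl
  rw [h2, h1]
  rfl

/-- **Equivariance of `L → L_w`**: `ι σ (g x) = (decompEquiv g) (ι σ x)`. -/
theorem decompEquiv_apply (g : decompAt (K := K) (L := L) q σ) (x : L) :
    ((decompEquiv q σ halg g ⟨padicEmbedding q (σ (x : Qbar)),
      padicEmbedding_mem_localExt q σ halg x⟩ : localExt q σ halg) : PadicAlgCl q) =
      padicEmbedding q (σ (((g : L ≃ₐ[K] L) x : L) : Qbar)) := by
  obtain ⟨d, hd⟩ := exists_toGlobal_eq q σ halg g.2
  have hg : g = ⟨toGlobal q σ halg d, toGlobal_mem_decompAt q σ halg d⟩ := Subtype.ext hd.symm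
  rw [hg, decompEquiv_toGlobal, coe_toLocal, padicEmbedding_toGlobal]

omit [FiniteDimensional ℚ L] in
/-- Automorphisms of `L_w / K_v` are isometries. -/
theorem norm_algEquiv_localExt
    (δ : localExt q σ halg ≃ₐ[localFieldAt q K σ] localExt q σ halg) (y : localExt q σ halg) :
    ‖((δ y : localExt q σ halg) : PadicAlgCl q)‖ = ‖(y : PadicAlgCl q)‖ := by
  obtain ⟨d, rfl⟩ := toLocal_surjective q σ halg δ
  rw [coe_toLocal]
  exact (isometry_algEquiv q _).norm_map_of_map_zero (map_zero _) _

omit [Normal K L] in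
/-- `L_w` and `localExt` have the same underlying set. -/
noncomputable def localExtLinearEquiv :
    localFieldAt q L σ ≃ₗ[ℚ_[q]] localExt q σ halg where
  toFun y := ⟨y, (mem_localExt q σ halg).mpr y.2⟩
  invFun y := ⟨y, (mem_localExt q σ halg).mp y.2⟩
  map_add' _ _ := rfl
  map_smul' _ _ := rfl
  left_inv _ := rfl
  right_inv _ := rfl

omit [Normal K L] in
instance finiteDimensional_localExt :
    FiniteDimensional (localFieldAt q K σ) (localExt q σ halg) := by
  haveI : FiniteDimensional ℚ_[q] (localExt q σ halg) :=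
    LinearEquiv.finiteDimensional (localExtLinearEquiv q σ halg)
  exact Module.Finite.of_restrictScalars_finite ℚ_[q] (localFieldAt q K σ) (localExt q σ halg)

instance isGalois_localExt : IsGalois (localFieldAt q K σ) (localExt q σ halg) where
  to_normal := normal_localExt q σ halg

include halg in
/-- `|D_w| = [L_w : K_v]` (the local degree of `PlacesDecomp`). -/
theorem card_decompAt :
    Nat.card (decompAt (K := K) (L := L) q σ) = localDeg q K L σ := by
  rw [Nat.card_congr (decompEquiv q σ halg).toEquiv, IsGalois.card_aut_eq_finrank, localDeg,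
    IntermediateField.relfinrank_eq_finrank_of_le (localFieldAt_mono q (le_of_halg halg) σ)]
  rfl

end Local

/-! ### Decomposition groups and primes -/

section Primes

open Fermat.Agent.S14.GalDiv

variable (q : ℕ) [Fact q.Prime] (σ : Γ)
variable [NumberField K] [NumberField L] [IsGalois K L]
variable (halg : ∀ x : K, ((algebraMap K L x : L) : Qbar) = x)

include halg in
/-- `D_w` is the stabiliser of the prime `primeAt q L σ` of `𝓞 L` in `Gal(L/K)`. -/
theorem mem_decompAt_iff_smul (g : L ≃ₐ[K] L) :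
    g ∈ decompAt (K := K) (L := L) q σ ↔ g • primeAt q L σ = primeAt q L σ := by
  obtain ⟨γ, rfl⟩ := resGlobal_surjective halg g
  have h1 : primeAt q L (σ * (γ : Γ)⁻¹) = resGlobal halg γ • primeAt q L σ :=
    primeAt_mul_inv q σ (γ : Γ) (resGlobal halg γ) (fun x => (coe_resGlobal halg γ x).symm)
  rw [← h1, primeAt_eq_iff]
  constructor
  · intro hg x hx
    -- apply `hg` to `γ⁻¹ x`
    have hinv : (resGlobal halg γ)⁻¹ ∈ decompAt (K := K) (L := L) q σ := inv_mem hg
    have := hinv ⟨x, hx⟩
    rw [absOn_apply, absOn_apply, ← map_inv, coe_resGlobal] at this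
    rw [absAt_mul]
    exact this
  · intro hs
    have hinv : (resGlobal halg γ)⁻¹ ∈ decompAt (K := K) (L := L) q σ := by
      intro x
      have := hs x x.2
      rw [absAt_mul] at this
      rw [absOn_apply, absOn_apply, ← map_inv, coe_resGlobal]
      exact this
    have := inv_mem hinv
    rwa [inv_inv] at this

end Primes

/-! ### Multiplicative density -/

section Density

open Fermat.Agent.S55.Local Fermat.Agent.S55.GL.PlacesDVR

variable (q : ℕ) [Fact q.Prime] (L : IntermediateField ℚ Qbar) [NumberField L] (σ : Γ)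

/-- **Multiplicative density**: every `b' ∈ L_wˣ` is approximated multiplicatively by elements of
`Lˣ`: `v(ι b / b' - 1) ≤ exp (-k)`. -/
theorem exists_dvrValuation_embAt_div_sub_one_le (b' : localFieldAt q L σ) (hb' : b' ≠ 0)
    (k : ℕ) :
    ∃ b : L, b ≠ 0 ∧
      dvrValuation (integralClosure ℤ_[q] (localFieldAt q L σ)) (localFieldAt q L σ)
        (embAt q L σ b / b' - 1) ≤ WithZero.exp (-(k : ℤ)) := by
  set v := dvrValuation (integralClosure ℤ_[q] (localFieldAt q L σ)) (localFieldAt q L σ) with hv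
  have hvb : v b' ≠ 0 := (map_ne_zero v).mpr hb'
  set m : ℤ := WithZero.log (v b') with hm
  have hvm : v b' = WithZero.exp m := (WithZero.exp_log hvb).symm
  -- approximate `b'` up to `exp (m - k - 1)`
  obtain ⟨b, hb⟩ := exists_dvrValuation_sub_embAt_le q L σ b' (-(m - k - 1))
  rw [neg_neg] at hb
  have hlt : v (b' - embAt q L σ b) < v b' := by
    rw [hvm]
    refine lt_of_le_of_lt hb ?_
    rw [WithZero.exp_lt_exp]
    omega
  have hb0 : b ≠ 0 := by
    rintro rfl
    rw [map_zero, sub_zero] at hlt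
    exact lt_irrefl _ hlt
  refine ⟨b, hb0, ?_⟩
  have h1 : embAt q L σ b / b' - 1 = -((b' - embAt q L σ b) / b') := by
    field_simp
    ring
  rw [h1, Valuation.map_neg, map_div₀, hvm]
  rw [div_le_iff₀ (zero_lt_iff.mpr WithZero.exp_ne_zero), ← WithZero.exp_add]
  refine hb.trans ?_
  rw [WithZero.exp_le_exp]
  omega

end Density

end Fermat.Agent.S55.GL.PlacesRel
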