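/-
S55 GLO9c (reciprocity): multiplicative congruences `x ≡ 1 mod^× v^k` in the fraction field of a
Dedekind domain and WEAK APPROXIMATION (via the Chinese remainder theorem).  Mathlib only.

* `OneMod v k x` : `v (x - 1) ≤ exp (-k)`; closed under products, inverses, quotients.
* `exists_oneMod_div` : for finitely many primes `w ∈ s` and targets `t w ≠ 0` there is `b ≠ 0`
  with `b / t w ≡ 1 mod^× w^k` for all `w ∈ s`.
-/
import Mathlib

set_option autoImplicit false

namespace Fermat.Agent.S55.GL.WeakApprox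

open IsDedekindDomain HeightOneSpectrum WithZero

variable {R : Type*} [CommRing R] [IsDedekindDomain R] {K : Type*} [Field K] [Algebra R K]
  [IsFractionRing R K]

/-- The multiplicative congruence `x ≡ 1 mod^× v^k`. -/
def OneMod (v : HeightOneSpectrum R) (k : ℕ) (x : K) : Prop :=
  v.valuation K (x - 1) ≤ exp (-(k : ℤ))

variable {v : HeightOneSpectrum R} {k : ℕ} {x y : K}

theorem oneMod_iff : OneMod v k x ↔ v.valuation K (x - 1) ≤ exp (-(k : ℤ)) := Iff.rfl

theorem oneMod_one (v : HeightOneSpectrum R) (k : ℕ) : OneMod v k (1 : K) := by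
  rw [OneMod, sub_self, map_zero]
  exact zero_le

theorem OneMod.mono {k' : ℕ} (h : k' ≤ k) (hx : OneMod v k x) : OneMod v k' x :=
  hx.trans (exp_le_exp.2 (by omega))

theorem exp_neg_lt_one (hk : 1 ≤ k) : (exp (-(k : ℤ)) : ℤᵐ⁰) < 1 := by
  rw [← exp_zero, exp_lt_exp]
  omega

theorem OneMod.valuation_eq_one (hk : 1 ≤ k) (hx : OneMod v k x) : v.valuation K x = 1 := by
  have h : v.valuation K (x - 1) < 1 := lt_of_le_of_lt hx (exp_neg_lt_one hk)
  have := Valuation.map_one_add_of_lt (v.valuation K) h
  rwa [add_sub_cancel] at this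

theorem OneMod.ne_zero (hk : 1 ≤ k) (hx : OneMod v k x) : x ≠ 0 := by
  intro h
  have := hx.valuation_eq_one hk
  rw [h, map_zero] at this
  exact zero_ne_one this

theorem OneMod.mul (hk : 1 ≤ k) (hx : OneMod v k x) (hy : OneMod v k y) : OneMod v k (x * y) := by
  have e : x * y - 1 = (x - 1) * y + (y - 1) := by ring
  rw [OneMod, e]
  refine Valuation.map_add_le _ ?_ hy
  rw [map_mul, hy.valuation_eq_one hk, mul_one]
  exact hx

theorem OneMod.inv (hk : 1 ≤ k) (hx : OneMod v k x) : OneMod v k x⁻¹ := by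
  have hx0 := hx.ne_zero hk
  have e : x⁻¹ - 1 = (1 - x) * x⁻¹ := by field_simp
  rw [OneMod, e, map_mul, map_inv₀, hx.valuation_eq_one hk, inv_one, mul_one,
    Valuation.map_sub_swap]
  exact hx

theorem OneMod.div (hk : 1 ≤ k) (hx : OneMod v k x) (hy : OneMod v k y) : OneMod v k (x / y) := by
  rw [div_eq_mul_inv]
  exact hx.mul hk (hy.inv hk)

theorem OneMod.prod (hk : 1 ≤ k) {ι : Type*} (s : Finset ι) (f : ι → K)
    (h : ∀ i ∈ s, OneMod v k (f i)) : OneMod v k (∏ i ∈ s, f i) := by
  classical
  induction s using Finset.induction_on with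
  | empty => simpa using oneMod_one v k
  | insert a s ha ih =>
    rw [Finset.prod_insert ha]
    exact (h a (Finset.mem_insert_self a s)).mul hk
      (ih fun i hi => h i (Finset.mem_insert_of_mem hi))

theorem OneMod.pow (hk : 1 ≤ k) (hx : OneMod v k x) (n : ℕ) : OneMod v k (x ^ n) := by
  induction n with
  | zero => simpa using oneMod_one v k
  | succ n ih => rw [pow_succ]; exact ih.mul hk hx

/-- Transitivity: `x / y ≡ 1` and `y / z ≡ 1` imply `x / z ≡ 1`. -/
theorem OneMod.trans_div {z : K} (hk : 1 ≤ k) (hxy : OneMod v k (x / y))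
    (hyz : OneMod v k (y / z)) : OneMod v k (x / z) := by
  have hy : y ≠ 0 := by
    intro h
    have := hxy.ne_zero hk
    rw [h, div_zero] at this
    exact this rfl
  have hz : z ≠ 0 := by
    intro h
    have := hyz.ne_zero hk
    rw [h, div_zero] at this
    exact this rfl
  have e : x / z = x / y * (y / z) := by field_simp
  rw [e]
  exact hxy.mul hk hyz

/-- An element congruent to `1` modulo `v^k`, as an element of `R`. -/
theorem oneMod_algebraMap_iff (r : R) :
    OneMod v k (algebraMap R K r) ↔ r - 1 ∈ v.asIdeal ^ k := by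
  rw [OneMod, ← map_one (algebraMap R K), ← map_sub, valuation_of_algebraMap,
    intValuation_le_pow_iff_mem]

/-! ### Weak approximation -/

/-- The valuation of a nonzero element of `R` is `exp (-n)` for a natural number `n`. -/
theorem exists_intValuation_eq (v : HeightOneSpectrum R) {r : R} (hr : r ≠ 0) :
    ∃ n : ℕ, v.intValuation r = exp (-(n : ℤ)) :=
  ⟨_, v.intValuation_if_neg hr⟩

/-- **Weak approximation** (multiplicative form): for finitely many primes `w ∈ s` and nonzero
targets `t w` there is a nonzero `b` with `b / t w ≡ 1 mod^× w^k` for all `w ∈ s`. -/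
theorem exists_oneMod_div (s : Finset (HeightOneSpectrum R)) (t : HeightOneSpectrum R → K)
    (ht : ∀ w ∈ s, t w ≠ 0) (k : ℕ) :
    ∃ b : K, b ≠ 0 ∧ ∀ w ∈ s, OneMod w k (b / t w) := by
  classical
  rcases s.eq_empty_or_nonempty with rfl | hne
  · exact ⟨1, one_ne_zero, fun w hw => absurd hw (Finset.notMem_empty w)⟩
  -- common denominator
  obtain ⟨⟨D, hD⟩, hDint⟩ :=
    IsLocalization.exist_integer_multiples_of_finset (nonZeroDivisors R) (s.image t)
  have hD0 : D ≠ 0 := nonZeroDivisors.ne_zero hD
  have hDK : algebraMap R K D ≠ 0 := by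
    rwa [Ne, IsFractionRing.to_map_eq_zero_iff]
  have hr : ∀ w ∈ s, ∃ r : R, algebraMap R K r = algebraMap R K D * t w := by
    intro w hw
    obtain ⟨r, hr⟩ := hDint (t w) (Finset.mem_image_of_mem t hw)
    exact ⟨r, by rw [hr, Algebra.smul_def]⟩
  choose! r hr using hr
  have hr0 : ∀ w ∈ s, r w ≠ 0 := by
    intro w hw h
    have := hr w hw
    rw [h, map_zero] at this
    exact mul_ne_zero hDK (ht w hw) this.symm
  have hn : ∀ w ∈ s, ∃ n : ℕ, w.intValuation (r w) = exp (-(n : ℤ)) :=
    fun w hw => exists_intValuation_eq w (hr0 w hw)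
  choose! n hn using hn
  -- CRT
  obtain ⟨y, hy⟩ := IsDedekindDomain.exists_forall_sub_mem_ideal
    (s := s) (fun w : HeightOneSpectrum R => w.asIdeal) (fun w => n w + (k + 1))
    (fun w _ => w.prime) (fun w _ w' _ hne h => hne (HeightOneSpectrum.ext h))
    (fun w => r w.1)
  have key : ∀ w ∈ s, w.valuation K (algebraMap R K y / algebraMap R K (r w) - 1) ≤
      exp (-((k + 1 : ℕ) : ℤ)) := by
    intro w hw
    have hrK : algebraMap R K (r w) ≠ 0 := by
      rw [Ne, IsFractionRing.to_map_eq_zero_iff]; exact hr0 w hw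
    have e : algebraMap R K y / algebraMap R K (r w) - 1 =
        algebraMap R K (y - r w) / algebraMap R K (r w) := by
      rw [map_sub]; field_simp
    rw [e, map_div₀, valuation_of_algebraMap, valuation_of_algebraMap, hn w hw]
    have h1 : w.intValuation (y - r w) ≤ exp (-((n w + (k + 1) : ℕ) : ℤ)) :=
      (intValuation_le_pow_iff_mem _ _ _).2 (hy w hw)
    rw [div_le_iff₀ (by exact (zero_lt_iff.2 exp_ne_zero)), ← exp_add]
    refine h1.trans (exp_le_exp.2 ?_)
    push_cast
    omega
  refine ⟨algebraMap R K y / algebraMap R K D, ?_, ?_⟩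
  · obtain ⟨w, hw⟩ := hne
    have h1 := key w hw
    have hrK : algebraMap R K (r w) ≠ 0 := by
      rw [Ne, IsFractionRing.to_map_eq_zero_iff]; exact hr0 w hw
    have h2 : OneMod w (k + 1) (algebraMap R K y / algebraMap R K (r w)) := h1
    have h3 := h2.ne_zero (by omega)
    have hyK : algebraMap R K y ≠ 0 := fun h => h3 (by rw [h, zero_div])
    exact div_ne_zero hyK hDK
  · intro w hw
    have e : algebraMap R K y / algebraMap R K D / t w =
        algebraMap R K y / algebraMap R K (r w) := by
      rw [hr w hw, div_div]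
    rw [e]
    exact OneMod.mono (by omega) (key w hw)

end Fermat.Agent.S55.GL.WeakApprox
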