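/-
S55 (T4), block GLO2 (Places), part 8: unramified local extensions `L_w / K_v` and Frobenius.
* relative unit ball / unramified criterion for a finite `E/F` inside `PadicAlgCl q`
  over the base `(integralClosure ℤ_[q] F, F)`;
* residue field of `K_v` = `𝓞 K / v`;
* `e(w|v) = 1 ⇒ L_w/K_v` unramified (helper1's `IsUnramifiedIn`), and its Frobenius corresponds
  under `decompEquiv` to the arithmetic Frobenius of `w` in `Gal(L/K)` (Mathlib's `IsArithFrobAt`);
* trivial inertia at `w` gives `e(w|v) = 1`;
* `embExt : L →+* localExt`, valuation / `ordZ` / `OneMod` links, multiplicative density.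
-/
import Mathlib
import Fermat.Agent.S55.GL.PlacesRel
import Fermat.Agent.S55.Local.UnramTower
import Fermat.Agent.S55.Local.UnramLayerInst
import Fermat.Agent.S55.GL.WeakApprox

set_option autoImplicit false
set_option linter.style.haveILetI false
set_option linter.unusedSectionVars false

namespace Fermat.Agent.S55.GL.PlacesRelUnram

open IntermediateField IsLocalRing IsDedekindDomain Fermat.Agent.S55.LocalDict
  Fermat.Agent.S55.GL.Places Fermat.Agent.S55.GL.PlacesComplete Fermat.Agent.S55.LocalInt
  Fermat.Agent.S55.Local Fermat.Agent.S55.Local.Unram Fermat.Agent.S55.GL.PlacesDVR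
  Fermat.Agent.S55.GL.PlacesRel

local notation "Qbar" => AlgebraicClosure ℚ
local notation "Γ" => (AlgebraicClosure ℚ ≃ₐ[ℚ] AlgebraicClosure ℚ)

/-! ### Relative integers and the relative unramified criterion -/

section Relative

variable {q : ℕ} [Fact q.Prime] (F : IntermediateField ℚ_[q] (PadicAlgCl q))
  [FiniteDimensional ℚ_[q] F] (E : IntermediateField F (PadicAlgCl q))

omit [FiniteDimensional ℚ_[q] F] in
/-- The integers of `E` over `𝒪_F` are the unit ball. -/
theorem mem_integralClosure_rel_iff (y : E) :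
    y ∈ integralClosure (integralClosure ℤ_[q] F) E ↔ ‖(y : PadicAlgCl q)‖ ≤ 1 := by
  rw [mem_integralClosure_iff, ← isIntegral_padicInt_iff_norm_le_one]
  have h1 : IsIntegral (integralClosure ℤ_[q] F) y ↔ IsIntegral ℤ_[q] y :=
    ⟨fun h => isIntegral_trans y h, fun h => h.tower_top⟩
  rw [h1]
  exact (isIntegral_algebraMap_iff (FaithfulSMul.algebraMap_injective E (PadicAlgCl q))).symm

omit [FiniteDimensional ℚ_[q] F] in
theorem norm_le_one_of_mem_rel (b : integralClosure (integralClosure ℤ_[q] F) E) :
    ‖((b : E) : PadicAlgCl q)‖ ≤ 1 :=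
  (mem_integralClosure_rel_iff F E b).mp b.2

set_option synthInstance.maxHeartbeats 400000 in
/-- **Relative unramified criterion**: if `E` and `F` have the same value group then `E/F` is
unramified. -/
theorem isUnramifiedIn_of_forall_exists_norm_eq [FiniteDimensional F E]
    (h : ∀ y : E, y ≠ 0 → ∃ x : F, ‖(x : PadicAlgCl q)‖ = ‖(y : PadicAlgCl q)‖) :
    IsUnramifiedIn (integralClosure ℤ_[q] F) E := by
  refine ⟨inferInstance, ?_⟩
  obtain ⟨ϖ, hϖ⟩ := IsDiscreteValuationRing.exists_irreducible (integralClosure ℤ_[q] F)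
  have hϖ0 : ((ϖ : F) : PadicAlgCl q) ≠ 0 := by
    have : (ϖ : F) ≠ 0 := fun h0 => hϖ.ne_zero (Subtype.ext h0)
    exact_mod_cast this
  have hϖpos : 0 < ‖((ϖ : F) : PadicAlgCl q)‖ := norm_pos_iff.mpr hϖ0
  have hϖlt : ‖((ϖ : F) : PadicAlgCl q)‖ < 1 := by
    rw [← mem_maximalIdeal_iff_norm_lt_one, hϖ.maximalIdeal_eq]
    exact Ideal.mem_span_singleton_self ϖ
  rw [hϖ.maximalIdeal_eq, Ideal.map_span, Set.image_singleton]
  set π : integralClosure (integralClosure ℤ_[q] F) E :=
    algebraMap (integralClosure ℤ_[q] F) (integralClosure (integralClosure ℤ_[q] F) E) ϖ with hπ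
  have hπcoe : (((π : integralClosure (integralClosure ℤ_[q] F) E) : E) : PadicAlgCl q) = ((ϖ : F) : PadicAlgCl q) := rfl
  -- membership in `(π)` is `‖b‖ ≤ ‖ϖ‖`
  have hmem : ∀ b : integralClosure (integralClosure ℤ_[q] F) E, b ∈ Ideal.span {π} ↔
      ‖((b : E) : PadicAlgCl q)‖ ≤ ‖((ϖ : F) : PadicAlgCl q)‖ := by
    intro b
    rw [Ideal.mem_span_singleton']
    constructor
    · rintro ⟨c, rfl⟩
      have : (((c * π : integralClosure (integralClosure ℤ_[q] F) E) : E) : PadicAlgCl q) =
          ((c : E) : PadicAlgCl q) * ((ϖ : F) : PadicAlgCl q) := by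
        rw [← hπcoe]; rfl
      rw [this, norm_mul]
      exact mul_le_of_le_one_left hϖpos.le (norm_le_one_of_mem_rel F E c)
    · intro hb
      have hπE : ((π : integralClosure (integralClosure ℤ_[q] F) E) : E) ≠ 0 := by
        intro h0
        apply hϖ0
        rw [← hπcoe, h0]
        rfl
      have hc : (b : E) / ((π : integralClosure (integralClosure ℤ_[q] F) E) : E) ∈ integralClosure (integralClosure ℤ_[q] F) E := by
        rw [mem_integralClosure_rel_iff]
        have : (((b : E) / ((π : integralClosure (integralClosure ℤ_[q] F) E) : E) : E) : PadicAlgCl q) =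
            ((b : E) : PadicAlgCl q) / ((ϖ : F) : PadicAlgCl q) := by
          rw [← hπcoe]; rfl
        rw [this, norm_div, div_le_one hϖpos]
        exact hb
      refine ⟨⟨_, hc⟩, ?_⟩
      apply Subtype.ext
      show (b : E) / ((π : integralClosure (integralClosure ℤ_[q] F) E) : E) * ((π : integralClosure (integralClosure ℤ_[q] F) E) : E) = (b : E)
      exact div_mul_cancel₀ _ hπE
  -- elements of norm `< 1` have norm `≤ ‖ϖ‖`
  have hlt : ∀ b : integralClosure (integralClosure ℤ_[q] F) E, ‖((b : E) : PadicAlgCl q)‖ < 1 →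
      ‖((b : E) : PadicAlgCl q)‖ ≤ ‖((ϖ : F) : PadicAlgCl q)‖ := by
    intro b hb
    by_cases hb0 : (b : E) = 0
    · rw [hb0]
      simp only [ZeroMemClass.coe_zero, norm_zero]
      exact hϖpos.le
    · obtain ⟨x, hx⟩ := h b hb0
      rw [← hx] at hb ⊢
      have hxO : x ∈ integralClosure ℤ_[q] F :=
        (mem_integralClosure_iff_norm_le_one F x).mpr hb.le
      have hxm : (⟨x, hxO⟩ : integralClosure ℤ_[q] F) ∈
          maximalIdeal (integralClosure ℤ_[q] F) :=
        (mem_maximalIdeal_iff_norm_lt_one F _).mpr hb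
      rw [hϖ.maximalIdeal_eq, Ideal.mem_span_singleton'] at hxm
      obtain ⟨c, hc⟩ := hxm
      have : (x : PadicAlgCl q) = ((c : F) : PadicAlgCl q) * ((ϖ : F) : PadicAlgCl q) := by
        have := congrArg (fun z : integralClosure ℤ_[q] F => ((z : F) : PadicAlgCl q)) hc
        exact this.symm
      rw [this, norm_mul]
      exact mul_le_of_le_one_left hϖpos.le (norm_le_one_of_mem F c)
  rw [Ideal.isMaximal_iff]
  constructor
  · rw [hmem]
    have : (((1 : integralClosure (integralClosure ℤ_[q] F) E) : E) : PadicAlgCl q) = 1 := rfl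
    rw [this, norm_one, not_le]
    exact hϖlt
  · intro J b hJ hb hbJ
    have hb1 : ‖((b : E) : PadicAlgCl q)‖ = 1 := by
      by_contra hne
      have hblt := lt_of_le_of_ne (norm_le_one_of_mem_rel F E b) hne
      exact hb ((hmem b).mpr (hlt b hblt))
    have hb0 : (b : E) ≠ 0 := by
      intro h0
      rw [h0] at hb1
      simp at hb1
    have hinv : (b : E)⁻¹ ∈ integralClosure (integralClosure ℤ_[q] F) E := by
      rw [mem_integralClosure_rel_iff]
      have : (((b : E)⁻¹ : E) : PadicAlgCl q) = ((b : E) : PadicAlgCl q)⁻¹ := rfl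
      rw [this, norm_inv, hb1, inv_one]
    have h1 : (1 : integralClosure (integralClosure ℤ_[q] F) E) = ⟨(b : E)⁻¹, hinv⟩ * b := by
      apply Subtype.ext
      show (1 : E) = (b : E)⁻¹ * (b : E)
      rw [inv_mul_cancel₀ hb0]
    rw [h1]
    exact J.mul_mem_left _ hbJ

/-- Elements of the relative maximal ideal have norm `< 1`. -/
theorem norm_lt_one_of_mem_maximalIdeal_rel [FiniteDimensional F E]
    [IsLocalRing (integralClosure (integralClosure ℤ_[q] F) E)]
    {c : integralClosure (integralClosure ℤ_[q] F) E}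
    (hc : c ∈ maximalIdeal (integralClosure (integralClosure ℤ_[q] F) E)) :
    ‖((c : E) : PadicAlgCl q)‖ < 1 := by
  refine lt_of_le_of_ne (norm_le_one_of_mem_rel F E c) fun h1 => ?_
  rw [mem_maximalIdeal, mem_nonunits_iff] at hc
  apply hc
  have hc0 : (c : E) ≠ 0 := by
    intro h0
    rw [h0] at h1
    simp at h1
  have hinv : (c : E)⁻¹ ∈ integralClosure (integralClosure ℤ_[q] F) E := by
    rw [mem_integralClosure_rel_iff]
    have : (((c : E)⁻¹ : E) : PadicAlgCl q) = ((c : E) : PadicAlgCl q)⁻¹ := rfl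
    rw [this, norm_inv, h1, inv_one]
  refine isUnit_iff_exists_inv.mpr ⟨⟨(c : E)⁻¹, hinv⟩, ?_⟩
  apply Subtype.ext
  show (c : E) * (c : E)⁻¹ = 1
  exact mul_inv_cancel₀ hc0

end Relative

/-! ### The residue field of `K_v` is `𝓞 K / v` -/

section Residue

open NumberField

variable (q : ℕ) [Fact q.Prime] (K : IntermediateField ℚ Qbar) [NumberField K] (σ : Γ)

/-- Global integers are local integers. -/
theorem embAt_mem_integralClosure (x : 𝓞 K) :
    embAt q K σ (x : K) ∈ integralClosure ℤ_[q] (localFieldAt q K σ) := by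
  rw [mem_integralClosure_iff_norm_le_one, norm_embAt, absOn_le_one_iff]
  exact HeightOneSpectrum.valuation_le_one _ x

/-- The embedding `𝓞 K → 𝒪_{K_v}`. -/
noncomputable def intEmb : 𝓞 K →+* integralClosure ℤ_[q] (localFieldAt q K σ) :=
  ((embAt q K σ).comp (algebraMap (𝓞 K) K)).codRestrict
    (integralClosure ℤ_[q] (localFieldAt q K σ)).toSubring
    (fun x => embAt_mem_integralClosure q K σ x)

theorem coe_intEmb (x : 𝓞 K) :
    (((intEmb q K σ x : integralClosure ℤ_[q] (localFieldAt q K σ)) : localFieldAt q K σ) :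
      PadicAlgCl q) = padicEmbedding q (σ ((x : K) : Qbar)) := rfl

/-- The reduction map `𝓞 K → k_v`. -/
noncomputable def resMap : 𝓞 K →+* ResidueField (integralClosure ℤ_[q] (localFieldAt q K σ)) :=
  (residue (integralClosure ℤ_[q] (localFieldAt q K σ))).comp (intEmb q K σ)

theorem resMap_eq_zero_iff (x : 𝓞 K) :
    resMap q K σ x = 0 ↔ x ∈ (primeAt q K σ).asIdeal := by
  rw [resMap, RingHom.comp_apply, residue_eq_zero_iff, mem_maximalIdeal_iff_norm_lt_one,
    coe_intEmb, mem_primeAt_iff, absOn_apply]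

theorem ker_resMap : RingHom.ker (resMap q K σ) = (primeAt q K σ).asIdeal := by
  ext x
  rw [RingHom.mem_ker, resMap_eq_zero_iff]

theorem resMap_surjective : Function.Surjective (resMap q K σ) := by
  intro z
  obtain ⟨y, rfl⟩ := residue_surjective z
  have hy1 : ‖((y : localFieldAt q K σ) : PadicAlgCl q)‖ ≤ 1 := norm_le_one_of_mem _ y
  obtain ⟨x₀, hx₀, hx₀1, hx₀y⟩ := exists_norm_sub_lt_one q K σ (y : localFieldAt q K σ).2 hy1
  have hv : (primeAt q K σ).valuation K (⟨x₀, hx₀⟩ : K) ≤ 1 := by
    rw [← absOn_le_one_iff, absOn_apply]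
    exact hx₀1
  obtain ⟨a, ha⟩ := HeightOneSpectrum.exists_valuation_sub_lt_of_integer (primeAt q K σ) hv 1
  have ha' : ‖padicEmbedding q (σ (((algebraMap (𝓞 K) K a - ⟨x₀, hx₀⟩ : K) : K) : Qbar))‖ < 1 := by
    have := (absOn_lt_one_iff q K σ (algebraMap (𝓞 K) K a - ⟨x₀, hx₀⟩)).mpr (by simpa using ha)
    rwa [absOn_apply] at this
  refine ⟨a, ?_⟩
  rw [resMap, RingHom.comp_apply, ← sub_eq_zero, ← map_sub, residue_eq_zero_iff,
    mem_maximalIdeal_iff_norm_lt_one]
  have hcoe : (((intEmb q K σ a - y : integralClosure ℤ_[q] (localFieldAt q K σ)) :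
      localFieldAt q K σ) : PadicAlgCl q) =
      padicEmbedding q (σ (((algebraMap (𝓞 K) K a - ⟨x₀, hx₀⟩ : K) : K) : Qbar)) +
        -(((y : localFieldAt q K σ) : PadicAlgCl q) - padicEmbedding q (σ x₀)) := by
    have h1 : (((intEmb q K σ a - y : integralClosure ℤ_[q] (localFieldAt q K σ)) :
        localFieldAt q K σ) : PadicAlgCl q) =
        padicEmbedding q (σ ((a : K) : Qbar)) - ((y : localFieldAt q K σ) : PadicAlgCl q) := rfl
    have h2 : (((algebraMap (𝓞 K) K a - ⟨x₀, hx₀⟩ : K) : K) : Qbar) = ((a : K) : Qbar) - x₀ := rfl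
    rw [h1, h2, map_sub, map_sub]
    ring
  rw [hcoe]
  refine lt_of_le_of_lt (IsUltrametricDist.norm_add_le_max _ _) (max_lt ha' ?_)
  rw [norm_neg]
  exact hx₀y

/-- **`𝓞 K / v ≃ k_v`**. -/
noncomputable def residueEquiv :
    (𝓞 K ⧸ (primeAt q K σ).asIdeal) ≃+*
      ResidueField (integralClosure ℤ_[q] (localFieldAt q K σ)) :=
  (Ideal.quotEquivOfEq (ker_resMap q K σ).symm).trans
    (RingHom.quotientKerEquivOfSurjective (resMap_surjective q K σ))

theorem card_residueField_localFieldAt :
    Nat.card (ResidueField (integralClosure ℤ_[q] (localFieldAt q K σ))) =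
      Nat.card (𝓞 K ⧸ (primeAt q K σ).asIdeal) :=
  (Nat.card_congr (residueEquiv q K σ).toEquiv).symm

end Residue

/-! ### `e(w|v) = 1 ⇒ L_w / K_v` unramified -/

section Unram

open NumberField

variable {K L : IntermediateField ℚ Qbar} [NumberField K] [NumberField L] [Algebra K L]
  (halg : ∀ x : K, ((algebraMap K L x : L) : Qbar) = x) (q : ℕ) [Fact q.Prime] (σ : Γ)

include halg in
theorem absOn_algebraMap (x : K) : absOn q L σ (algebraMap K L x) = absOn q K σ x := by
  rw [absOn_apply, absOn_apply, halg]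

/-- If a uniformizer of `v` stays a uniformizer at `w`, then `L_w` and `K_v` have the same
value group. -/
theorem exists_norm_eq_of_uniformizer
    (hπ : ∃ π : K, (primeAt q K σ).valuation K π = WithZero.exp (-1 : ℤ) ∧
      (primeAt q L σ).valuation L (algebraMap K L π) = WithZero.exp (-1 : ℤ))
    (y : localExt q σ halg) (hy : y ≠ 0) :
    ∃ x : localFieldAt q K σ, ‖(x : PadicAlgCl q)‖ = ‖(y : PadicAlgCl q)‖ := by
  obtain ⟨π, hπK, hπL⟩ := hπ
  have hπ0 : π ≠ 0 := by
    rintro rfl
    rw [map_zero] at hπK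
    exact WithZero.exp_ne_zero hπK.symm
  have hyL : (y : PadicAlgCl q) ∈ localFieldAt q L σ := (mem_localExt q σ halg).mp y.2
  have hy0 : (y : PadicAlgCl q) ≠ 0 := by exact_mod_cast hy
  obtain ⟨b, hb, hb0, hnorm⟩ := exists_norm_eq q L σ hyL hy0
  have hbL : (⟨b, hb⟩ : L) ≠ 0 := fun h => hb0 (congrArg Subtype.val h)
  set n : ℤ := WithZero.log ((primeAt q L σ).valuation L ⟨b, hb⟩) with hn
  have hwb : (primeAt q L σ).valuation L ⟨b, hb⟩ = WithZero.exp n :=
    (WithZero.exp_log ((map_ne_zero _).mpr hbL)).symm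
  have hc1 : (primeAt q L σ).valuation L (⟨b, hb⟩ * (algebraMap K L π) ^ n) = 1 := by
    rw [map_mul, map_zpow₀, hπL, hwb, ← WithZero.exp_zsmul, smul_eq_mul, mul_neg, mul_one,
      ← WithZero.exp_add, add_neg_cancel, WithZero.exp_zero]
  rw [← absOn_eq_one_iff, map_mul, map_zpow₀, absOn_algebraMap halg] at hc1
  have hπpos : 0 < absOn q K σ π := (absOn q K σ).pos hπ0
  refine ⟨(embAt q K σ π) ^ (-n), ?_⟩
  have hcoe : (((embAt q K σ π) ^ (-n) : localFieldAt q K σ) : PadicAlgCl q) =
      ((embAt q K σ π : localFieldAt q K σ) : PadicAlgCl q) ^ (-n) :=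
    map_zpow₀ (algebraMap (localFieldAt q K σ) (PadicAlgCl q)) _ _
  rw [hcoe, norm_zpow, norm_embAt, ← hnorm]
  have : absOn q L σ ⟨b, hb⟩ = ‖padicEmbedding q (σ b)‖ := rfl
  rw [← this]
  rw [zpow_neg]
  field_simp
  rw [mul_comm] at hc1
  linarith [hc1]

variable [IsGalois K L]

/-- **`L_w / K_v` is unramified** as soon as a uniformizer of `v` is a uniformizer of `w`. -/
theorem isUnramifiedIn_localExt_of_uniformizer
    (hπ : ∃ π : K, (primeAt q K σ).valuation K π = WithZero.exp (-1 : ℤ) ∧
      (primeAt q L σ).valuation L (algebraMap K L π) = WithZero.exp (-1 : ℤ)) :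
    IsUnramifiedIn (integralClosure ℤ_[q] (localFieldAt q K σ)) (localExt q σ halg) :=
  isUnramifiedIn_of_forall_exists_norm_eq _ _ (exists_norm_eq_of_uniformizer halg q σ hπ)

/-! ### Frobenius -/

include halg in
theorem under_primeAt :
    (primeAt q L σ).asIdeal.under (𝓞 K) = (primeAt q K σ).asIdeal := by
  ext x
  rw [Ideal.under_def, Ideal.mem_comap]
  refine (mem_primeAt_iff_of_coe_eq q σ x (algebraMap (𝓞 K) (𝓞 L) x) ?_).symm
  have h1 : ((algebraMap (𝓞 K) (𝓞 L) x : 𝓞 L) : L) = algebraMap K L (x : K) :=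
    (IsScalarTower.algebraMap_apply (𝓞 K) (𝓞 L) L x).symm.trans
      (IsScalarTower.algebraMap_apply (𝓞 K) K L x)
  rw [h1, halg]

set_option maxHeartbeats 1000000 in
set_option synthInstance.maxHeartbeats 400000 in
/-- **Frobenius compatibility**: under `D_w ≃* Gal(L_w/K_v)` the local Frobenius of the
unramified extension `L_w/K_v` is an arithmetic Frobenius at `w` in `Gal(L/K)`. -/
theorem isArithFrobAt_decompEquiv_symm_frob
    (h : IsUnramifiedIn (integralClosure ℤ_[q] (localFieldAt q K σ)) (localExt q σ halg)) :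
    IsArithFrobAt (𝓞 K)
      ((((decompEquiv q σ halg).symm h.frob : decompAt (K := K) (L := L) q σ)) : L ≃ₐ[K] L)
      (primeAt q L σ).asIdeal := by
  intro x
  set g : decompAt (K := K) (L := L) q σ := (decompEquiv q σ halg).symm h.frob with hg
  have hgf : decompEquiv q σ halg g = h.frob := (decompEquiv q σ halg).apply_symm_apply _
  rw [under_primeAt halg q σ, ← card_residueField_localFieldAt q K σ]
  set N := Nat.card (ResidueField (integralClosure ℤ_[q] (localFieldAt q K σ))) with hN
  rw [mem_primeAt_iff, absOn_apply]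
  -- the image of `x` in `𝒪_{L_w}`
  have hxint : (⟨padicEmbedding q (σ ((x : L) : Qbar)), padicEmbedding_mem_localExt q σ halg x⟩ :
      localExt q σ halg) ∈
      integralClosure (integralClosure ℤ_[q] (localFieldAt q K σ)) (localExt q σ halg) := by
    rw [mem_integralClosure_rel_iff]
    have := embAt_mem_integralClosure q L σ x
    rwa [mem_integralClosure_iff_norm_le_one] at this
  obtain ⟨c, hc, hfc⟩ := h.frob_apply ⟨_, hxint⟩
  haveI : IsLocalRing (integralClosure (integralClosure ℤ_[q] (localFieldAt q K σ))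
      (localExt q σ halg)) :=
    isLocalRing_of_isIntegralClosure (integralClosure ℤ_[q] (localFieldAt q K σ))
      (localFieldAt q K σ) (localExt q σ halg) _
  have hclt := norm_lt_one_of_mem_maximalIdeal_rel (localFieldAt q K σ) (localExt q σ halg) hc
  have h1 := decompEquiv_apply q σ halg g (x : L)
  rw [hgf] at h1
  have h2 := congrArg (fun z : localExt q σ halg => (z : PadicAlgCl q)) hfc
  simp only at h2
  rw [h1] at h2
  have h3a : (((MulSemiringAction.toAlgHom (𝓞 K) (𝓞 L) (g : L ≃ₐ[K] L)) x : 𝓞 L) : L) =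
      (g : L ≃ₐ[K] L) (x : L) := rfl
  have h3b : (((MulSemiringAction.toAlgHom (𝓞 K) (𝓞 L) (g : L ≃ₐ[K] L)) x - x ^ N : 𝓞 L) : L) =
      (g : L ≃ₐ[K] L) (x : L) - (x : L) ^ N := by
    rw [← h3a]
    push_cast
    rfl
  have h3 : ((((MulSemiringAction.toAlgHom (𝓞 K) (𝓞 L) (g : L ≃ₐ[K] L)) x - x ^ N : 𝓞 L) : L) :
      Qbar) = (((g : L ≃ₐ[K] L) (x : L) : L) : Qbar) - ((x : L) : Qbar) ^ N := by
    rw [h3b]
    push_cast
    rfl
  rw [h3, map_sub, map_sub, map_pow, map_pow, h2]
  have h4 : (((⟨_, hxint⟩ ^ N + c : integralClosure (integralClosure ℤ_[q] (localFieldAt q K σ))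
      (localExt q σ halg)) : localExt q σ halg) : PadicAlgCl q) =
      padicEmbedding q (σ ((x : L) : Qbar)) ^ N + ((c : localExt q σ halg) : PadicAlgCl q) := by
    push_cast
    rfl
  rw [h4, add_sub_cancel_left]
  exact hclt

end Unram

/-! ### Trivial inertia -/

section Inertia

open NumberField

variable {K L : IntermediateField ℚ Qbar} [NumberField K] [NumberField L] [Algebra K L]
  (halg : ∀ x : K, ((algebraMap K L x : L) : Qbar) = x) (q : ℕ) [Fact q.Prime] (σ : Γ)
  [IsGalois K L]

include halg in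
/-- Trivial inertia at `w` gives a common uniformizer of `v` and `w`. -/
theorem exists_uniformizer_of_inertia_eq_bot
    (hI : (primeAt q L σ).asIdeal.inertia (L ≃ₐ[K] L) = ⊥) :
    ∃ π : K, (primeAt q K σ).valuation K π = WithZero.exp (-1 : ℤ) ∧
      (primeAt q L σ).valuation L (algebraMap K L π) = WithZero.exp (-1 : ℤ) := by
  haveI hlo : (primeAt q L σ).asIdeal.LiesOver (primeAt q K σ).asIdeal :=
    ⟨(under_primeAt halg q σ).symm⟩
  haveI : (primeAt q K σ).asIdeal.IsMaximal := (primeAt q K σ).isMaximal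
  haveI : Finite (𝓞 K ⧸ (primeAt q K σ).asIdeal) :=
    Ideal.finiteQuotientOfFreeOfNeBot _ (primeAt q K σ).ne_bot
  have e1 := Ideal.card_inertia_eq_ramificationIdxIn (G := (L ≃ₐ[K] L))
    (primeAt q K σ).asIdeal (primeAt q L σ).asIdeal
  rw [hI, Subgroup.card_bot] at e1
  have e2 := Ideal.ramificationIdxIn_eq_ramificationIdx (primeAt q K σ).asIdeal
    (primeAt q L σ).asIdeal (L ≃ₐ[K] L)
  have e3 := Ideal.ramificationIdx'_eq_ramificationIdx (primeAt q K σ).asIdeal
    (primeAt q L σ).asIdeal (primeAt q K σ).ne_bot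
  obtain ⟨π, hπ⟩ := (primeAt q K σ).valuation_exists_uniformizer K
  refine ⟨π, hπ, ?_⟩
  have := HeightOneSpectrum.valuation_liesOver L (primeAt q K σ) (primeAt q L σ) π
  rw [← this, e3, ← e2, ← e1, pow_one, hπ]

/-- **Trivial inertia ⇒ `L_w / K_v` unramified.** -/
theorem isUnramifiedIn_localExt_of_inertia_eq_bot
    (hI : (primeAt q L σ).asIdeal.inertia (L ≃ₐ[K] L) = ⊥) :
    IsUnramifiedIn (integralClosure ℤ_[q] (localFieldAt q K σ)) (localExt q σ halg) :=
  isUnramifiedIn_localExt_of_uniformizer halg q σ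
    (exists_uniformizer_of_inertia_eq_bot halg q σ hI)

/-- **Trivial inertia ⇒ the local Frobenius is an arithmetic Frobenius at `w`.** -/
theorem isArithFrobAt_of_inertia_eq_bot
    (hI : (primeAt q L σ).asIdeal.inertia (L ≃ₐ[K] L) = ⊥) :
    IsArithFrobAt (𝓞 K)
      ((((decompEquiv q σ halg).symm
        (isUnramifiedIn_localExt_of_inertia_eq_bot halg q σ hI).frob :
          decompAt (K := K) (L := L) q σ)) : L ≃ₐ[K] L)
      (primeAt q L σ).asIdeal :=
  isArithFrobAt_decompEquiv_symm_frob halg q σ _

end Inertia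

/-! ### Transfer of DVR valuations along a field isomorphism -/

section Transfer

variable {B₁ E₁ B₂ E₂ : Type*} [CommRing B₁] [IsDomain B₁] [IsDiscreteValuationRing B₁]
  [Field E₁] [Algebra B₁ E₁] [IsFractionRing B₁ E₁]
  [CommRing B₂] [IsDomain B₂] [IsDiscreteValuationRing B₂]
  [Field E₂] [Algebra B₂ E₂] [IsFractionRing B₂ E₂]

theorem dvrValuation_le_one_iff_mem_range (x : E₁) :
    dvrValuation B₁ E₁ x ≤ 1 ↔ x ∈ (algebraMap B₁ E₁).range := by
  constructor
  · intro h
    have hall : ∀ v : HeightOneSpectrum B₁, v.valuation E₁ x ≤ 1 := by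
      intro v
      have hv : v = IsDiscreteValuationRing.maximalIdeal B₁ :=
        HeightOneSpectrum.ext (IsLocalRing.eq_maximalIdeal v.isMaximal)
      rw [hv]
      exact h
    exact HeightOneSpectrum.mem_integers_of_valuation_le_one E₁ x hall
  · rintro ⟨b, rfl⟩
    exact HeightOneSpectrum.valuation_le_one _ b

/-- A field isomorphism matching the valuation rings matches the normalised valuations. -/
theorem dvrValuation_ringEquiv (e : E₁ ≃+* E₂)
    (he : ∀ x, x ∈ (algebraMap B₁ E₁).range ↔ e x ∈ (algebraMap B₂ E₂).range) (x : E₁) :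
    dvrValuation B₂ E₂ (e x) = dvrValuation B₁ E₁ x := by
  have key : dvrValuation B₁ E₁ = (dvrValuation B₂ E₂).comap (e : E₁ →+* E₂) := by
    apply valuation_eq_of_le_one_iff
    · intro y
      rw [Valuation.comap_apply, dvrValuation_le_one_iff_mem_range,
        dvrValuation_le_one_iff_mem_range]
      exact he y
    · obtain ⟨ϖ, hϖ⟩ := IsDiscreteValuationRing.exists_irreducible B₁
      exact ⟨_, dvrValuation_uniformizer (F := E₁) hϖ⟩
    · obtain ⟨ϖ, hϖ⟩ := IsDiscreteValuationRing.exists_irreducible B₂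
      refine ⟨e.symm (algebraMap B₂ E₂ ϖ), ?_⟩
      rw [Valuation.comap_apply]
      have : (e : E₁ →+* E₂) (e.symm (algebraMap B₂ E₂ ϖ)) = algebraMap B₂ E₂ ϖ :=
        e.apply_symm_apply _
      rw [this]
      exact dvrValuation_uniformizer (F := E₂) hϖ
  have := congrArg (fun v : Valuation E₁ (WithZero (Multiplicative ℤ)) => v x) key
  exact this.symm

end Transfer

/-! ### The valuation of `localExt` restricted to `L` -/

section ValuationLocalExt

open NumberField

variable {K L : IntermediateField ℚ Qbar} [NumberField K] [NumberField L] [Algebra K L]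
  (halg : ∀ x : K, ((algebraMap K L x : L) : Qbar) = x) (q : ℕ) [Fact q.Prime] (σ : Γ)

set_option synthInstance.maxHeartbeats 400000 in
instance isDVR_integralClosure_localExt :
    IsDiscreteValuationRing
      (integralClosure (integralClosure ℤ_[q] (localFieldAt q K σ)) (localExt q σ halg)) :=
  isDiscreteValuationRing_of_isIntegralClosure (integralClosure ℤ_[q] (localFieldAt q K σ))
    (localFieldAt q K σ) (localExt q σ halg) _

set_option synthInstance.maxHeartbeats 400000 in
instance (priority := 2000) isFractionRing_integralClosure_localExt :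
    IsFractionRing
      (integralClosure (integralClosure ℤ_[q] (localFieldAt q K σ)) (localExt q σ halg))
      (localExt q σ halg) :=
  integralClosure.isFractionRing_of_finite_extension (localFieldAt q K σ) (localExt q σ halg)

/-- `L_w` and `localExt` are the same field. -/
noncomputable def localExtRingEquiv : localFieldAt q L σ ≃+* localExt q σ halg where
  toFun y := ⟨y, (mem_localExt q σ halg).mpr y.2⟩
  invFun y := ⟨y, (mem_localExt q σ halg).mp y.2⟩
  map_add' _ _ := rfl
  map_mul' _ _ := rfl
  left_inv _ := rfl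
  right_inv _ := rfl

theorem coe_localExtRingEquiv (y : localFieldAt q L σ) :
    ((localExtRingEquiv halg q σ y : localExt q σ halg) : PadicAlgCl q) = y := rfl

set_option synthInstance.maxHeartbeats 400000 in
/-- The relative and the absolute integral closures define the same valuation on `L_w`. -/
theorem dvrValuation_localExtRingEquiv (y : localFieldAt q L σ) :
    dvrValuation (integralClosure (integralClosure ℤ_[q] (localFieldAt q K σ))
      (localExt q σ halg)) (localExt q σ halg) (localExtRingEquiv halg q σ y) =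
    dvrValuation (integralClosure ℤ_[q] (localFieldAt q L σ)) (localFieldAt q L σ) y := by
  apply dvrValuation_ringEquiv
  intro x
  constructor
  · rintro ⟨b, rfl⟩
    have hb : localExtRingEquiv halg q σ (b : localFieldAt q L σ) ∈
        integralClosure (integralClosure ℤ_[q] (localFieldAt q K σ)) (localExt q σ halg) := by
      rw [mem_integralClosure_rel_iff, coe_localExtRingEquiv]
      exact norm_le_one_of_mem _ b
    exact ⟨⟨_, hb⟩, rfl⟩
  · rintro ⟨b, hb⟩
    have hx : x ∈ integralClosure ℤ_[q] (localFieldAt q L σ) := by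
      rw [mem_integralClosure_iff_norm_le_one, ← coe_localExtRingEquiv halg q σ x, ← hb]
      exact norm_le_one_of_mem_rel _ _ b
    exact ⟨⟨x, hx⟩, rfl⟩

set_option synthInstance.maxHeartbeats 400000 in
/-- **Valuation compatibility** for the relative model: the normalised valuation of
`𝒪_{L_w}` (integral closure of `𝒪_{K_v}` in `localExt`) restricts on `L` to the valuation of
`primeAt q L σ`. -/
theorem dvrValuation_localExt_embedding (x : L) :
    dvrValuation (integralClosure (integralClosure ℤ_[q] (localFieldAt q K σ))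
      (localExt q σ halg)) (localExt q σ halg)
      ⟨padicEmbedding q (σ (x : Qbar)), padicEmbedding_mem_localExt q σ halg x⟩ =
    (primeAt q L σ).valuation L x := by
  rw [← dvrValuation_embAt q L σ x, ← dvrValuation_localExtRingEquiv halg q σ (embAt q L σ x)]
  rfl

end ValuationLocalExt

/-! ### The embedding `L → localExt`: valuation, `ordZ`, `OneMod`, density, equivariance -/

section EmbExt

open NumberField

variable {K L : IntermediateField ℚ Qbar} [NumberField K] [NumberField L] [Algebra K L]
  (halg : ∀ x : K, ((algebraMap K L x : L) : Qbar) = x) (q : ℕ) [Fact q.Prime] (σ : Γ)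

/-- The embedding `L → L_w` into the relative model `localExt`. -/
noncomputable def embExt : L →+* localExt q σ halg :=
  (localExtRingEquiv halg q σ : localFieldAt q L σ →+* localExt q σ halg).comp (embAt q L σ)

theorem coe_embExt (x : L) :
    ((embExt halg q σ x : localExt q σ halg) : PadicAlgCl q) = padicEmbedding q (σ (x : Qbar)) :=
  rfl

theorem embExt_apply (x : L) :
    embExt halg q σ x =
      ⟨padicEmbedding q (σ (x : Qbar)), padicEmbedding_mem_localExt q σ halg x⟩ := rfl

theorem embExt_injective : Function.Injective (embExt halg q σ) :=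
  (embExt halg q σ).injective

/-- `embExt` restricted to `K` is `embAt q K σ`. -/
theorem embExt_algebraMap (x : K) :
    embExt halg q σ (algebraMap K L x) =
      algebraMap (localFieldAt q K σ) (localExt q σ halg) (embAt q K σ x) := by
  apply Subtype.ext
  show padicEmbedding q (σ ((algebraMap K L x : L) : Qbar)) = padicEmbedding q (σ (x : Qbar))
  rw [halg]

set_option synthInstance.maxHeartbeats 400000 in
/-- **Valuation compatibility** (relative model). -/
theorem dvrValuation_embExt (x : L) :
    dvrValuation (integralClosure (integralClosure ℤ_[q] (localFieldAt q K σ))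
      (localExt q σ halg)) (localExt q σ halg) (embExt halg q σ x) =
    (primeAt q L σ).valuation L x :=
  dvrValuation_localExt_embedding halg q σ x

set_option synthInstance.maxHeartbeats 400000 in
/-- `x ≡ 1 mod^× w^k` read in `L_w`. -/
theorem oneMod_primeAt_iff (k : ℕ) (x : L) :
    WeakApprox.OneMod (primeAt q L σ) k x ↔
      dvrValuation (integralClosure (integralClosure ℤ_[q] (localFieldAt q K σ))
        (localExt q σ halg)) (localExt q σ halg) (embExt halg q σ x - 1) ≤
        WithZero.exp (-(k : ℤ)) := by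
  rw [WeakApprox.oneMod_iff, ← dvrValuation_embExt halg q σ (x - 1), map_sub, map_one]

set_option synthInstance.maxHeartbeats 400000 in
/-- **Multiplicative density** in the relative model. -/
theorem exists_dvrValuation_embExt_div_sub_one_le (b' : localExt q σ halg) (hb' : b' ≠ 0)
    (k : ℕ) :
    ∃ b : L, b ≠ 0 ∧
      dvrValuation (integralClosure (integralClosure ℤ_[q] (localFieldAt q K σ))
        (localExt q σ halg)) (localExt q σ halg) (embExt halg q σ b / b' - 1) ≤
        WithZero.exp (-(k : ℤ)) := by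
  have hb'' : (localExtRingEquiv halg q σ).symm b' ≠ 0 := by
    intro h0
    apply hb'
    have := congrArg (localExtRingEquiv halg q σ) h0
    rwa [RingEquiv.apply_symm_apply, map_zero] at this
  obtain ⟨b, hb0, hb⟩ := exists_dvrValuation_embAt_div_sub_one_le q L σ
    ((localExtRingEquiv halg q σ).symm b') hb'' k
  refine ⟨b, hb0, ?_⟩
  rw [← dvrValuation_localExtRingEquiv halg q σ] at hb
  have : localExtRingEquiv halg q σ (embAt q L σ b / (localExtRingEquiv halg q σ).symm b' - 1) =
      embExt halg q σ b / b' - 1 := by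
    rw [map_sub, map_div₀, map_one, RingEquiv.apply_symm_apply]
    rfl
  rwa [this] at hb

set_option synthInstance.maxHeartbeats 400000 in
/-- **Valuation link with `ordZ`**: `w(x) = exp (-ord_w(ι x))`. -/
theorem valuation_eq_exp_neg_ordZ (x : Lˣ) :
    (primeAt q L σ).valuation L (x : L) =
      WithZero.exp (-(Multiplicative.toAdd
        (ordZ (integralClosure (integralClosure ℤ_[q] (localFieldAt q K σ))
          (localExt q σ halg)) (localExt q σ halg)
          (Units.map (embExt halg q σ : L →* localExt q σ halg) x)))) := by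
  rw [toAdd_ordZ, neg_neg, ← dvrValuation_embExt halg q σ (x : L)]
  have := coe_valZ (O := integralClosure (integralClosure ℤ_[q] (localFieldAt q K σ))
    (localExt q σ halg)) (F := localExt q σ halg)
    (Units.map (embExt halg q σ : L →* localExt q σ halg) x)
  rw [Units.coe_map] at this
  exact this.symm

variable [IsGalois K L]

/-- **Equivariance of `L → L_w`** in terms of `embExt`. -/
theorem decompEquiv_embExt (g : decompAt (K := K) (L := L) q σ) (x : L) :
    decompEquiv q σ halg g (embExt halg q σ x) = embExt halg q σ ((g : L ≃ₐ[K] L) x) :=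
  Subtype.ext (decompEquiv_apply q σ halg g x)

theorem embExt_decompEquiv_symm
    (δ : localExt q σ halg ≃ₐ[localFieldAt q K σ] localExt q σ halg) (x : L) :
    embExt halg q σ ((((decompEquiv q σ halg).symm δ : decompAt (K := K) (L := L) q σ) :
      L ≃ₐ[K] L) x) = δ (embExt halg q σ x) := by
  rw [← decompEquiv_embExt, MulEquiv.apply_symm_apply]

end EmbExt

end Fermat.Agent.S55.GL.PlacesRelUnram
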