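/-
S55 / GLO8 = CF1, abstract core (helper7): **dévissage for class formations**
(Sylow + inflation–restriction).

`G` a finite group, `A : Rep k G`.  HYPOTHESIS ("cyclic layers of prime degree"): for every subgroup
`H ≤ G` and every normal subgroup `N ◁ H` of prime index `p`, the `H/N`-module `A^N`
(`(res H.subtype A).quotientToInvariants N`) has `H¹ = 0` and `|H²| ∣ p`
(first + second inequality for the cyclic layers).  CONCLUSION: `H¹(G, A) = 0` and `H²(G, A)` is
finite of order dividing `|G|` — and the same for every subgroup of `G`.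

Main declarations (namespace `Fermat.Agent.S55.GL.CF1`):
* `card_dvd_of_exact` : `X₁ → X₂ → X₃` exact, `X₁`, `X₃` finite ⇒ `|X₂| ∣ |X₁| * |X₃|`.
* `CycLayers p A` : the hypothesis for ONE prime `p`, quantified over abstract injective
  `φ : K →* G` (this is the form stable under the induction); `CycLayers.res`.
* `LayerHyp p A` / `CycLayersSub p A` : the same over subgroups `H ≤ G`, `N ◁ H`, `N.index = p`
  (without / with the redundant finiteness clause); `LayerHyp.cycLayers`, `CycLayersSub.cycLayers`
  (transport along `K ≃ φ.range`, `layerIso`).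
* `pgroup_devissage` : `|G| = p^n`, `CycLayers p A` ⇒ `H¹(G,A) = 0`, `|H²(G,A)| ∣ p^n`.
* `pPrimary p M`, `pPrimary_H1_eq_bot_of_sylow`, `pPrimary_H2_card_dvd_of_sylow` : one prime `p`,
  any finite `G`: `H¹(G,A)(p) = 0`, `|H²(G,A)(p)| ∣ p^{v_p |G|}`.
* `devissage` / `devissage_sub` / `devissage_subgroup` : all primes ⇒ `H¹(G,A) = 0`,
  `H²(G,A)` finite, `|H²(G,A)| ∣ |G|`.
Uses Mathlib `H1InfRes_exact`, helper6's `InfRes2.H2InfRes_exact_of_isZero` and helper27's
`Cores.index_nsmul_eq_zero_of_resMap_eq_zero` (`cores ∘ res = index`).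
-/
import Mathlib
import Fermat.Agent.S55.GC.InfRes2
import Fermat.Agent.S55.GC.Cores

set_option autoImplicit false

universe u

open CategoryTheory groupCohomology Rep

namespace Fermat.Agent.S55.GL.CF1

variable {k : Type u} [CommRing k]

/-- From an exact sequence `X₁ → X₂ → X₃` of modules with `X₁`, `X₃` finite:
`X₂` is finite and `|X₂|` divides `|X₁| * |X₃|`. -/
theorem card_dvd_of_exact (S : ShortComplex (ModuleCat.{u} k)) (hS : S.Exact)
    [Finite S.X₁] [Finite S.X₃] :
    Finite S.X₂ ∧ Nat.card S.X₂ ∣ Nat.card S.X₁ * Nat.card S.X₃ := by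
  have hex := (ShortComplex.moduleCat_exact_iff_range_eq_ker S).mp hS
  set f : S.X₁ →+ S.X₂ := S.f.hom.toAddMonoidHom with hf
  set g : S.X₂ →+ S.X₃ := S.g.hom.toAddMonoidHom with hg
  have hfg : f.range = g.ker := by
    ext x
    have := congrArg (fun M : Submodule k S.X₂ => x ∈ M) hex
    simpa [hf, hg, LinearMap.mem_range, LinearMap.mem_ker] using this
  have hfin_ker : Finite g.ker := by
    rw [← hfg]
    exact Set.finite_range f |>.to_subtype
  have hfin_quot : Finite (S.X₂ ⧸ g.ker) :=
    Finite.of_equiv _ (QuotientAddGroup.quotientKerEquivRange g).symm.toEquiv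
  have hfin : Finite S.X₂ := (_root_.finite_iff_addSubgroup_quotient g.ker).mpr ⟨hfin_ker, hfin_quot⟩
  refine ⟨hfin, ?_⟩
  have h1 : Nat.card S.X₂ = Nat.card g.ker * g.ker.index := (AddSubgroup.card_mul_index g.ker).symm
  have h2 : g.ker.index = Nat.card g.range := AddSubgroup.index_ker g
  have h3 : Nat.card g.range ∣ Nat.card S.X₃ := AddSubgroup.card_addSubgroup_dvd_card g.range
  have h4 : Nat.card g.ker ∣ Nat.card S.X₁ := by
    rw [← hfg]
    exact AddSubgroup.card_range_dvd f
  rw [h1, h2]
  exact Nat.mul_dvd_mul h4 h3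

/-- The "cyclic layers" hypothesis on a `G`-module `A` for a prime `p`: for every subquotient
`K/N` of `G` of order `p` (`K` injecting into `G`, `N ◁ K` of index `p`), the `K/N`-module `A^N`
has `H¹ = 0` and `|H²|` dividing `p`.
(First + second inequality for the cyclic layers of degree `p`.) -/
def CycLayers (p : ℕ) {G : Type u} [Group G] (A : Rep.{u} k G) : Prop :=
  ∀ (K : Type u) [Group K] (φ : K →* G), Function.Injective φ →
    ∀ (N : Subgroup K) [N.Normal], N.index = p →
      Limits.IsZero (groupCohomology ((res φ A).quotientToInvariants N) 1) ∧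
      Finite (groupCohomology ((res φ A).quotientToInvariants N) 2) ∧
      Nat.card (groupCohomology ((res φ A).quotientToInvariants N) 2) ∣ p

theorem CycLayers.res {p : ℕ} {G H : Type u} [Group G] [Group H] {A : Rep.{u} k G}
    (h : CycLayers p A) (φ : H →* G) (hφ : Function.Injective φ) : CycLayers p (res φ A) :=
  fun K _ ψ hψ N _ hN => h K (φ.comp ψ) (hφ.comp hψ) N hN

/-- **Dévissage for `p`-groups**: if all cyclic layers of degree `p` satisfy `H¹ = 0`, `|H²| ∣ p`,
then for a group `G` of order `p^n`: `H¹(G, A) = 0`, `H²(G, A)` is finite of order dividing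
`p^n`. -/
theorem pgroup_devissage (p : ℕ) [hp : Fact p.Prime] :
    ∀ (n : ℕ) (G : Type u) [Group G] [Finite G], Nat.card G = p ^ n →
      ∀ A : Rep.{u} k G, CycLayers p A →
        Limits.IsZero (groupCohomology A 1) ∧ Finite (groupCohomology A 2) ∧
          Nat.card (groupCohomology A 2) ∣ p ^ n := by
  intro n
  induction n with
  | zero =>
    intro G _ _ hG A _
    have hsub : Subsingleton G := by
      rw [pow_zero] at hG
      exact (Nat.card_eq_one_iff_unique.mp hG).1
    have h1 := isZero_groupCohomology_succ_of_subsingleton A 0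
    have h2 := isZero_groupCohomology_succ_of_subsingleton A 1
    have hs2 : Subsingleton (groupCohomology A 2) := ModuleCat.isZero_iff_subsingleton.mp h2
    refine ⟨h1, inferInstance, ?_⟩
    rw [Nat.card_unique]
    exact one_dvd _
  | succ n ih =>
    intro G _ _ hG A hA
    -- a normal subgroup of index `p`
    obtain ⟨N, hN⟩ := Sylow.exists_subgroup_card_pow_prime p
      (show p ^ n ∣ Nat.card G from hG ▸ pow_dvd_pow p (Nat.le_succ n))
    have hidx : N.index = p := by
      have h1 := N.card_mul_index
      rw [hN, hG, pow_succ] at h1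
      exact Nat.eq_of_mul_eq_mul_left (pow_pos hp.out.pos n) h1
    have hnormal : N.Normal := by
      apply Subgroup.normal_of_index_eq_minFac_card
      rw [hidx, hG, hp.out.pow_minFac (Nat.succ_ne_zero n)]
    -- the layer `G/N`
    obtain ⟨hQ1, hQ2fin, hQ2⟩ := hA G (MonoidHom.id G) Function.injective_id N hidx
    -- the subgroup `N`
    obtain ⟨hN1, hN2fin, hN2⟩ := ih N hN (res N.subtype A) (hA.res N.subtype N.subtype_injective)
    -- degree 1
    have hH1 : Limits.IsZero (groupCohomology A 1) := by
      have hex := H1InfRes_exact A N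
      rw [ModuleCat.isZero_iff_subsingleton]
      have hs1 : Subsingleton (H1InfRes A N).X₁ :=
        ModuleCat.isZero_iff_subsingleton.mp hQ1
      have hs3 : Subsingleton (H1InfRes A N).X₃ :=
        ModuleCat.isZero_iff_subsingleton.mp hN1
      have := card_dvd_of_exact (H1InfRes A N) hex
      obtain ⟨hfin, hdvd⟩ := this
      have hc1 : Nat.card (H1InfRes A N).X₁ = 1 := Nat.card_unique
      have hc3 : Nat.card (H1InfRes A N).X₃ = 1 := Nat.card_unique
      rw [hc1, hc3, mul_one, Nat.dvd_one] at hdvd
      exact (Nat.card_eq_one_iff_unique.mp hdvd).1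
    -- degree 2
    have hex2 := Fermat.Agent.S55.GC.InfRes2.H2InfRes_exact_of_isZero A N hN1
    have hfin1 : Finite (Fermat.Agent.S55.GC.InfRes2.H2InfRes A N).X₁ := hQ2fin
    have hfin3 : Finite (Fermat.Agent.S55.GC.InfRes2.H2InfRes A N).X₃ := hN2fin
    obtain ⟨hfin, hdvd⟩ := card_dvd_of_exact (Fermat.Agent.S55.GC.InfRes2.H2InfRes A N) hex2
    refine ⟨hH1, hfin, hdvd.trans ?_⟩
    rw [pow_succ, mul_comm]
    exact Nat.mul_dvd_mul hN2 hQ2

section Sylow

variable {G : Type u} [Group G]

/-- The restriction map `Hⁿ(G, A) → Hⁿ(P, A)`. -/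
noncomputable abbrev resTo (A : Rep.{u} k G) (P : Subgroup G) (n : ℕ) :
    groupCohomology A n ⟶ groupCohomology (res P.subtype A) n :=
  map P.subtype (𝟙 (res P.subtype A)) n

/-- The consequence of `cores ∘ res = index` used here: a class restricting to `0` on `P` is killed
by the index of `P`. -/
def ResKills (A : Rep.{u} k G) (P : Subgroup G) (n : ℕ) : Prop :=
  ∀ x : groupCohomology A n, resTo A P n x = 0 → P.index • x = 0

/-- The `p`-primary part of a module, as an additive subgroup. -/
def pPrimary (p : ℕ) (M : Type*) [AddCommGroup M] : AddSubgroup M where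
  carrier := {x | ∃ j : ℕ, p ^ j • x = 0}
  zero_mem' := ⟨0, by simp⟩
  add_mem' := by
    rintro x y ⟨i, hi⟩ ⟨j, hj⟩
    refine ⟨i + j, ?_⟩
    have h1 : p ^ (i + j) • x = 0 := by
      rw [pow_add, mul_comm, mul_smul, hi, smul_zero]
    have h2 : p ^ (i + j) • y = 0 := by
      rw [pow_add, mul_smul, hj, smul_zero]
    rw [smul_add, h1, h2, add_zero]
  neg_mem' := by
    rintro x ⟨i, hi⟩
    exact ⟨i, by rw [smul_neg, hi, neg_zero]⟩

lemma mem_pPrimary {p : ℕ} {M : Type*} [AddCommGroup M] {x : M} :
    x ∈ pPrimary p M ↔ ∃ j : ℕ, p ^ j • x = 0 := Iff.rfl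

/-- **General finite group, `H¹`**: the whole of `H¹(G, A)` is killed by the index of a Sylow
`p`-subgroup (so its `p`-primary part vanishes). -/
theorem H1_killed (p : ℕ) [Fact p.Prime] [Finite G] (A : Rep.{u} k G) (hA : CycLayers p A)
    (P : Subgroup G) {m : ℕ} (hP : Nat.card P = p ^ m) (hres : ResKills A P 1)
    (x : groupCohomology A 1) : P.index • x = 0 := by
  have h := pgroup_devissage (k := k) p m P hP (res P.subtype A)
    (hA.res P.subtype P.subtype_injective)
  have hs : Subsingleton (groupCohomology (res P.subtype A) 1) :=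
    ModuleCat.isZero_iff_subsingleton.mp h.1
  exact hres x (Subsingleton.elim _ _)

theorem pPrimary_H1_eq_bot (p : ℕ) [hp : Fact p.Prime] [Finite G] (A : Rep.{u} k G)
    (hA : CycLayers p A) (P : Subgroup G) {m : ℕ} (hP : Nat.card P = p ^ m)
    (hidx : ¬ p ∣ P.index) (hres : ResKills A P 1) :
    pPrimary p (groupCohomology A 1) = ⊥ := by
  rw [eq_bot_iff]
  rintro x ⟨j, hj⟩
  have h1 := H1_killed p A hA P hP hres x
  have hcop : Nat.Coprime (p ^ j) P.index :=
    Nat.Coprime.pow_left j ((Nat.Prime.coprime_iff_not_dvd hp.out).mpr hidx)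
  have h2 : (Nat.gcd (p ^ j) P.index) • x = 0 := by
    have := Nat.gcd_eq_gcd_ab (p ^ j) P.index
    have hz : ((Nat.gcd (p ^ j) P.index : ℕ) : ℤ) • x = 0 := by
      rw [this, add_smul, mul_comm, mul_smul, mul_comm, mul_smul]
      rw [natCast_zsmul, natCast_zsmul, hj, h1, smul_zero, smul_zero, add_zero]
    rwa [natCast_zsmul] at hz
  rw [hcop, one_smul] at h2
  exact h2

/-- **General finite group, `H²`**: the `p`-primary part of `H²(G, A)` is finite of order dividing
the order of a Sylow `p`-subgroup. -/
theorem pPrimary_H2_card_dvd (p : ℕ) [hp : Fact p.Prime] [Finite G] (A : Rep.{u} k G)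
    (hA : CycLayers p A) (P : Subgroup G) {m : ℕ} (hP : Nat.card P = p ^ m)
    (hidx : ¬ p ∣ P.index) (hres : ResKills A P 2) :
    Finite (pPrimary p (groupCohomology A 2)) ∧
      Nat.card (pPrimary p (groupCohomology A 2)) ∣ p ^ m := by
  obtain ⟨-, hfin, hdvd⟩ := pgroup_devissage (k := k) p m P hP (res P.subtype A)
    (hA.res P.subtype P.subtype_injective)
  set r : groupCohomology A 2 →+ groupCohomology (res P.subtype A) 2 :=
    (resTo A P 2).hom.toAddMonoidHom with hr
  set T := pPrimary p (groupCohomology A 2) with hT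
  have hinj : Function.Injective (r.comp T.subtype) := by
    rw [injective_iff_map_eq_zero]
    rintro ⟨x, j, hj⟩ hx
    have hx' : resTo A P 2 x = 0 := hx
    have h1 := hres x hx'
    have hcop : Nat.Coprime (p ^ j) P.index :=
      Nat.Coprime.pow_left j ((Nat.Prime.coprime_iff_not_dvd hp.out).mpr hidx)
    have hz : ((Nat.gcd (p ^ j) P.index : ℕ) : ℤ) • x = 0 := by
      rw [Nat.gcd_eq_gcd_ab (p ^ j) P.index, add_smul, mul_comm, mul_smul, mul_comm, mul_smul]
      rw [natCast_zsmul, natCast_zsmul, hj, h1, smul_zero, smul_zero, add_zero]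
    rw [natCast_zsmul, hcop, one_smul] at hz
    exact Subtype.ext hz
  have hfinT : Finite T := Finite.of_injective _ hinj
  refine ⟨hfinT, ?_⟩
  have h2 : Nat.card T = Nat.card (r.comp T.subtype).range :=
    Nat.card_congr (AddMonoidHom.ofInjective hinj).toEquiv
  rw [h2]
  exact (AddSubgroup.card_addSubgroup_dvd_card _).trans hdvd

/-- `cores ∘ res = index` (helper27, `GC/Cores.lean`) discharges `ResKills`. -/
theorem resKills (A : Rep.{u} k G) (P : Subgroup G) [P.FiniteIndex] (n : ℕ) : ResKills A P n :=
  fun x hx => Fermat.Agent.S55.GC.Cores.index_nsmul_eq_zero_of_resMap_eq_zero P A n x hx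

/-- **Dévissage, general finite group** (Sylow + inflation–restriction): if for every prime `p`
all cyclic layers of degree `p` of `A` satisfy `H¹ = 0` and `|H²| ∣ p`, then `H¹(G, A) = 0` and
`H²(G, A)` is finite of order dividing `|G|`. -/
theorem devissage [Finite G] (A : Rep.{u} k G) (hA : ∀ p : ℕ, p.Prime → CycLayers p A) :
    Limits.IsZero (groupCohomology A 1) ∧ Finite (groupCohomology A 2) ∧
      Nat.card (groupCohomology A 2) ∣ Nat.card G := by
  classical
  have hG0 : Nat.card G ≠ 0 := Nat.card_pos.ne'
  have hprime : ∀ p : (Nat.card G).primeFactors, (p : ℕ).Prime :=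
    fun p => Nat.prime_of_mem_primeFactors p.2
  choose P hP using fun p : (Nat.card G).primeFactors =>
    (⟨default, trivial⟩ : ∃ _ : Sylow (p : ℕ) G, True)
  have hcard : ∀ p : (Nat.card G).primeFactors,
      Nat.card (P p : Subgroup G) = (p : ℕ) ^ (Nat.card G).factorization p := fun p => by
    have : Fact (p : ℕ).Prime := ⟨hprime p⟩
    exact (P p).card_eq_multiplicity
  have hdev : ∀ p : (Nat.card G).primeFactors,
      Limits.IsZero (groupCohomology (res (P p : Subgroup G).subtype A) 1) ∧
      Finite (groupCohomology (res (P p : Subgroup G).subtype A) 2) ∧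
      Nat.card (groupCohomology (res (P p : Subgroup G).subtype A) 2) ∣
        (p : ℕ) ^ (Nat.card G).factorization p := fun p => by
    have : Fact (p : ℕ).Prime := ⟨hprime p⟩
    exact pgroup_devissage (k := k) (p : ℕ) _ (P p : Subgroup G) (hcard p)
      (res (P p : Subgroup G).subtype A)
      ((hA p (hprime p)).res (P p : Subgroup G).subtype (P p : Subgroup G).subtype_injective)
  -- a class killed by the indices of all the `P p` vanishes
  have hzero : ∀ (n : ℕ) (x : groupCohomology A (n + 1)),
      (∀ p : (Nat.card G).primeFactors, (P p : Subgroup G).index • x = 0) → x = 0 := by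
    intro n x hx
    have hd : addOrderOf x ∣ Nat.card G :=
      addOrderOf_dvd_of_nsmul_eq_zero (Fermat.Agent.S55.GC.Cores.card_nsmul_eq_zero A n x)
    by_contra hne
    have hne1 : addOrderOf x ≠ 1 := fun h1 => hne (AddMonoid.addOrderOf_eq_one_iff.mp h1)
    obtain ⟨q, hq, hqd⟩ := Nat.exists_prime_and_dvd hne1
    have hqS : q ∈ (Nat.card G).primeFactors :=
      Nat.mem_primeFactors.mpr ⟨hq, hqd.trans hd, hG0⟩
    have : Fact q.Prime := ⟨hq⟩
    have h2 : addOrderOf x ∣ (P ⟨q, hqS⟩ : Subgroup G).index :=
      addOrderOf_dvd_of_nsmul_eq_zero (hx ⟨q, hqS⟩)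
    exact (P ⟨q, hqS⟩).not_dvd_index (hqd.trans h2)
  refine ⟨?_, ?_⟩
  · rw [ModuleCat.isZero_iff_subsingleton]
    refine ⟨fun x y => ?_⟩
    suffices hz : ∀ z : groupCohomology A 1, z = 0 by rw [hz x, hz y]
    intro z
    refine hzero 0 z fun p => ?_
    have : Subsingleton (groupCohomology (res (P p : Subgroup G).subtype A) 1) :=
      ModuleCat.isZero_iff_subsingleton.mp (hdev p).1
    exact resKills A (P p : Subgroup G) 1 z (Subsingleton.elim _ _)
  · have hfinP : ∀ p : (Nat.card G).primeFactors,
        Finite (groupCohomology (res (P p : Subgroup G).subtype A) 2) := fun p => (hdev p).2.1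
    let r : groupCohomology A 2 →+
        ∀ p : (Nat.card G).primeFactors, groupCohomology (res (P p : Subgroup G).subtype A) 2 :=
      AddMonoidHom.pi fun p => (resTo A (P p : Subgroup G) 2).hom.toAddMonoidHom
    have hinj : Function.Injective r := by
      rw [injective_iff_map_eq_zero]
      intro x hx
      refine hzero 1 x fun p => ?_
      have hxp : resTo A (P p : Subgroup G) 2 x = 0 := congrFun hx p
      exact resKills A (P p : Subgroup G) 2 x hxp
    have hfin : Finite (groupCohomology A 2) := Finite.of_injective r hinj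
    refine ⟨hfin, ?_⟩
    have h1 : Nat.card (groupCohomology A 2) = Nat.card r.range :=
      Nat.card_congr (AddMonoidHom.ofInjective hinj).toEquiv
    have h2 : Nat.card r.range ∣ Nat.card (∀ p : (Nat.card G).primeFactors,
        groupCohomology (res (P p : Subgroup G).subtype A) 2) :=
      AddSubgroup.card_addSubgroup_dvd_card _
    have h3 : Nat.card (∀ p : (Nat.card G).primeFactors,
        groupCohomology (res (P p : Subgroup G).subtype A) 2) ∣ Nat.card G := by
      rw [Nat.card_pi]
      conv_rhs => rw [Nat.prod_primeFactors_pow_factorization hG0]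
      rw [← Finset.prod_coe_sort (Nat.card G).primeFactors
        (fun p => p ^ (Nat.card G).factorization p)]
      exact Finset.prod_dvd_prod_of_dvd _ _ fun p _ => (hdev p).2.2
    rw [h1]
    exact h2.trans h3

end Sylow

section Transport

variable {G K : Type u} [Group G] [Group K]

/-- The image of `N ≤ K` in `φ.range`, for `φ : K →* G`. -/
abbrev imgSub (φ : K →* G) (N : Subgroup K) : Subgroup φ.range := N.map φ.rangeRestrict

instance imgSub_normal (φ : K →* G) (N : Subgroup K) [hN : N.Normal] : (imgSub φ N).Normal :=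
  hN.map φ.rangeRestrict φ.rangeRestrict_surjective

lemma index_imgSub (φ : K →* G) (hφ : Function.Injective φ) (N : Subgroup K) :
    (imgSub φ N).index = N.index :=
  Subgroup.index_map_equiv (H := N) (MonoidHom.ofInjective hφ)

/-- The underlying linear equivalence of `layerIso`: both layers are the same submodule of `A`. -/
def layerLinearEquiv (φ : K →* G) (A : Rep.{u} k G) (N : Subgroup K) [N.Normal] :
    ((res φ A).quotientToInvariants N).V ≃ₗ[k]
      ((res φ.range.subtype A).quotientToInvariants (imgSub φ N)).V where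
  toFun := fun x => ⟨x.1, by
        rintro ⟨h, hh⟩
        obtain ⟨g, hg, rfl⟩ := hh
        exact x.2 ⟨g, hg⟩⟩
  invFun := fun y => ⟨y.1, by
        rintro ⟨g, hg⟩
        exact y.2 ⟨φ.rangeRestrict g, ⟨g, hg, rfl⟩⟩⟩
  map_add' := fun _ _ => rfl
  map_smul' := fun _ _ => rfl
  left_inv := fun _ => rfl
  right_inv := fun _ => rfl

/-- The layer of `res φ A` at `N ◁ K` (`φ` injective) has the same cohomology as the layer of
`res φ.range.subtype A` at the image of `N`. -/
noncomputable def layerIso (φ : K →* G) (hφ : Function.Injective φ) (A : Rep.{u} k G)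
    (N : Subgroup K) [N.Normal] (n : ℕ) :
    groupCohomology ((res φ A).quotientToInvariants N) n ≅
      groupCohomology ((res φ.range.subtype A).quotientToInvariants (imgSub φ N)) n :=
  groupCohomology.mapIso
    (QuotientGroup.congr N (imgSub φ N) (MonoidHom.ofInjective hφ) rfl)
    (layerLinearEquiv φ A N)
    (by
      intro q
      induction q using QuotientGroup.induction_on with
      | H g =>
        ext x
        rfl) n

end Transport

section SubgroupForm

variable {G : Type u} [Group G]

/-- The cyclic layers hypothesis over subgroups `H ≤ G`, `N ◁ H` of index `p`. -/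
def CycLayersSub (p : ℕ) (A : Rep.{u} k G) : Prop :=
  ∀ (H : Subgroup G) (N : Subgroup H) [N.Normal], N.index = p →
    Limits.IsZero (groupCohomology ((res H.subtype A).quotientToInvariants N) 1) ∧
    Finite (groupCohomology ((res H.subtype A).quotientToInvariants N) 2) ∧
    Nat.card (groupCohomology ((res H.subtype A).quotientToInvariants N) 2) ∣ p

/-- The cyclic layers hypothesis over subgroups, lean form (finiteness is automatic). -/
def LayerHyp (p : ℕ) (A : Rep.{u} k G) : Prop :=
  ∀ (H : Subgroup G) (N : Subgroup H) [N.Normal], N.index = p →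
    Limits.IsZero (groupCohomology ((res H.subtype A).quotientToInvariants N) 1) ∧
    Nat.card (groupCohomology ((res H.subtype A).quotientToInvariants N) 2) ∣ p

lemma finite_of_card_dvd {X : Type*} {p : ℕ} (hp : p ≠ 0) (h : Nat.card X ∣ p) : Finite X :=
  Nat.finite_of_card_ne_zero fun h0 => hp (by rwa [h0, zero_dvd_iff] at h)

theorem LayerHyp.cycLayersSub {p : ℕ} (hp : p ≠ 0) {A : Rep.{u} k G} (h : LayerHyp p A) :
    CycLayersSub p A := fun H N _ hN =>
  ⟨(h H N hN).1, finite_of_card_dvd hp (h H N hN).2, (h H N hN).2⟩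

theorem CycLayersSub.cycLayers {p : ℕ} {A : Rep.{u} k G} (h : CycLayersSub p A) :
    CycLayers p A := by
  intro K _ φ hφ N _ hN
  obtain ⟨h1, h2, h3⟩ := h φ.range (imgSub φ N) ((index_imgSub φ hφ N).trans hN)
  have e2 := (layerIso φ hφ A N 2).toLinearEquiv
  refine ⟨h1.of_iso (layerIso φ hφ A N 1), ?_, ?_⟩
  · exact Finite.of_equiv _ e2.symm.toEquiv
  · rw [Nat.card_congr e2.toEquiv]
    exact h3

theorem LayerHyp.cycLayers {p : ℕ} (hp : p ≠ 0) {A : Rep.{u} k G} (h : LayerHyp p A) :
    CycLayers p A := (h.cycLayersSub hp).cycLayers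

theorem CycLayers.cycLayersSub {p : ℕ} {A : Rep.{u} k G} (h : CycLayers p A) :
    CycLayersSub p A := fun H N _ hN => h H H.subtype H.subtype_injective N hN

/-- **Dévissage, subgroup form**: if for every prime `p`, every `H ≤ G` and every `N ◁ H` of
index `p` the layer `A^N` has `H¹(H/N, A^N) = 0` and `|H²(H/N, A^N)| ∣ p`, then `H¹(G, A) = 0`
and `H²(G, A)` is finite of order dividing `|G|`. -/
theorem devissage_sub [Finite G] (A : Rep.{u} k G) (hA : ∀ p : ℕ, p.Prime → LayerHyp p A) :
    Limits.IsZero (groupCohomology A 1) ∧ Finite (groupCohomology A 2) ∧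
      Nat.card (groupCohomology A 2) ∣ Nat.card G :=
  devissage A fun p hp => (hA p hp).cycLayers hp.ne_zero

/-- The same for every subgroup `S ≤ G`. -/
theorem devissage_subgroup [Finite G] (A : Rep.{u} k G) (hA : ∀ p : ℕ, p.Prime → LayerHyp p A)
    (S : Subgroup G) :
    Limits.IsZero (groupCohomology (res S.subtype A) 1) ∧
      Finite (groupCohomology (res S.subtype A) 2) ∧
      Nat.card (groupCohomology (res S.subtype A) 2) ∣ Nat.card S :=
  devissage (res S.subtype A) fun p hp =>
    ((hA p hp).cycLayers hp.ne_zero).res S.subtype S.subtype_injective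

/-- One prime `p`, any finite `G`: the `p`-primary part of `H¹(G, A)` vanishes. -/
theorem pPrimary_H1_eq_bot_of_sylow (p : ℕ) [Fact p.Prime] [Finite G] (A : Rep.{u} k G)
    (hA : CycLayers p A) : pPrimary p (groupCohomology A 1) = ⊥ := by
  have P : Sylow p G := default
  exact pPrimary_H1_eq_bot p A hA (P : Subgroup G) P.card_eq_multiplicity P.not_dvd_index
    (resKills A (P : Subgroup G) 1)

/-- One prime `p`, any finite `G`: the `p`-primary part of `H²(G, A)` is finite of order dividing
the `p`-part of `|G|`. -/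
theorem pPrimary_H2_card_dvd_of_sylow (p : ℕ) [Fact p.Prime] [Finite G] (A : Rep.{u} k G)
    (hA : CycLayers p A) :
    Finite (pPrimary p (groupCohomology A 2)) ∧
      Nat.card (pPrimary p (groupCohomology A 2)) ∣ p ^ (Nat.card G).factorization p := by
  have P : Sylow p G := default
  exact pPrimary_H2_card_dvd p A hA (P : Subgroup G) P.card_eq_multiplicity P.not_dvd_index
    (resKills A (P : Subgroup G) 2)

end SubgroupForm

end Fermat.Agent.S55.GL.CF1
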