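/-
S55 block GLO10 (local degrees), part 1: the arithmetic core, Mathlib only.

For a number field `K`, a prime number `p` and a nonzero prime `w` of `𝓞 K`, the local degree
`e(W|w) * f(W|w)` of the cyclotomic extension `K(ζ_{p^n})/K` at any prime `W | w` is divisible by
an arbitrarily high power of `p` as soon as `n` is large (explicit bound `globalBound p w N`).
This is "`p^∞` divides the local degrees of the cyclotomic `ℤ_p`-extension at every finite place",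
in `e * f` form (`pow_dvd_ramificationIdx_mul_inertiaDeg`) and in decomposition-group form
(`pow_dvd_card_stabilizer`).

Two cases:
* `p ∉ w`: a primitive `p^n`-th root of unity keeps exact order `p^n` in the residue field of `W`,
  so `p^n ∣ N(w)^f - 1`; a soft estimate on multiplicative orders modulo `p^n`
  (`pow_dvd_of_pow_dvd_pow_sub_one`) gives `p^N ∣ f` (`pow_dvd_inertiaDeg`).
* `p ∈ w`: `p` is totally ramified in `ℚ(ζ_{p^n})` with index `p^(n-1)(p-1)`; multiplicativity of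
  ramification indices in the two towers `ℤ ⊆ 𝓞 K ⊆ 𝓞 K_n` and `ℤ ⊆ 𝓞 ℚ(ζ) ⊆ 𝓞 K_n` gives
  `p^(n-1) ∣ e(w|p) * e(W|w)` (`pow_dvd_ramificationIdx`).

The purely arithmetic lemmas of the first sections are reused by the local (complete DVR) version
in `LocalDegreesLocal.lean`.
-/
import Mathlib

set_option autoImplicit false
set_option linter.style.haveILetI false

namespace Fermat.Agent.S55.GL.LocalDegrees

open NumberField Ideal IntermediateField
open scoped Pointwise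

section Arith

/-- A divisor of `p ^ m * (p - 1)` not divisible by `p ^ N` divides `p ^ N * (p - 1)`. -/
theorem dvd_pow_mul_of_not_pow_dvd {p : ℕ} (hp : p.Prime) {o m N : ℕ}
    (ho : o ∣ p ^ m * (p - 1)) (hN : ¬ p ^ N ∣ o) : o ∣ p ^ N * (p - 1) := by
  have hp1 : p - 1 ≠ 0 := Nat.sub_ne_zero_of_lt hp.one_lt
  have ho0 : o ≠ 0 := by
    rintro rfl
    exact (mul_ne_zero (pow_ne_zero _ hp.ne_zero) hp1) (zero_dvd_iff.1 ho)
  obtain ⟨e, m', hm', rfl⟩ := Nat.exists_eq_pow_mul_and_not_dvd ho0 p hp.ne_one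
  have he : e < N := by
    by_contra hle
    exact hN (Dvd.dvd.mul_right (pow_dvd_pow p (not_lt.1 hle)) m')
  have hcop : Nat.Coprime m' (p ^ m) :=
    (Nat.Coprime.pow_left m ((hp.coprime_iff_not_dvd).2 hm')).symm
  have hm'' : m' ∣ p - 1 := hcop.dvd_of_dvd_mul_left ((Dvd.intro_left _ rfl).trans ho)
  exact Nat.mul_dvd_mul (pow_dvd_pow p he.le) hm''

/-- Soft lower bound for multiplicative orders modulo prime powers: if `p ^ n ∣ Q ^ f - 1` and
`p ^ n` is large with respect to `Q` and `N`, then `p ^ N ∣ f`. -/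
theorem pow_dvd_of_pow_dvd_pow_sub_one {p : ℕ} (hp : p.Prime) {Q : ℕ} (hQ : 2 ≤ Q) {N n f : ℕ}
    (hn : Q ^ (p ^ N * (p - 1)) ≤ p ^ n) (h : p ^ n ∣ Q ^ f - 1) : p ^ N ∣ f := by
  rcases Nat.eq_zero_or_pos f with rfl | hf
  · exact dvd_zero _
  set B := p ^ N * (p - 1) with hB
  have hp1 : p - 1 ≠ 0 := Nat.sub_ne_zero_of_lt hp.one_lt
  have hB0 : B ≠ 0 := mul_ne_zero (pow_ne_zero _ hp.ne_zero) hp1
  have h2B : 2 ^ 1 ≤ Q ^ B :=
    (Nat.pow_le_pow_left hQ 1).trans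
      (Nat.pow_le_pow_right (by omega) (Nat.one_le_iff_ne_zero.2 hB0))
  have hn1 : 1 ≤ n := by
    by_contra hn0
    have : n = 0 := by omega
    subst this
    simp at hn
    omega
  have hQpos : ∀ k, 1 ≤ Q ^ k := fun k => Nat.one_le_pow _ _ (by omega)
  -- `Q` is coprime to `p`
  have hcop : Nat.Coprime Q p := by
    rw [Nat.coprime_comm, hp.coprime_iff_not_dvd]
    intro hpQ
    have h1 : p ∣ Q ^ f - 1 := (dvd_pow_self p (by omega : n ≠ 0)).trans h
    have h2 : p ∣ Q ^ f := hpQ.trans (dvd_pow_self Q (by omega))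
    have h3 : p ∣ 1 := by
      have := (Nat.dvd_sub h2 h1)
      rwa [Nat.sub_sub_self (hQpos f)] at this
    exact hp.one_lt.ne' (Nat.dvd_one.1 h3)
  have hcop' : Nat.Coprime Q (p ^ n) := hcop.pow_right n
  let u : (ZMod (p ^ n))ˣ := ZMod.unitOfCoprime Q hcop'
  have hu : ∀ k, u ^ k = 1 ↔ p ^ n ∣ Q ^ k - 1 := by
    intro k
    rw [← Units.val_inj, Units.val_pow_eq_pow_val, ZMod.coe_unitOfCoprime, Units.val_one,
      ← Nat.cast_pow, ← Nat.cast_one (R := ZMod (p ^ n)), ZMod.natCast_eq_natCast_iff,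
      Nat.ModEq.comm, Nat.modEq_iff_dvd' (hQpos k)]
  by_contra hNf
  have ho1 : orderOf u ∣ f := orderOf_dvd_of_pow_eq_one ((hu f).2 h)
  have ho2 : orderOf u ∣ p ^ (n - 1) * (p - 1) := by
    haveI : NeZero (p ^ n) := ⟨pow_ne_zero _ hp.ne_zero⟩
    have h3 : orderOf u ∣ Nat.card (ZMod (p ^ n))ˣ := orderOf_dvd_natCard u
    rwa [Nat.card_eq_fintype_card, ZMod.card_units_eq_totient (p ^ n),
      Nat.totient_prime_pow hp (by omega)] at h3
  have ho3 : ¬ p ^ N ∣ orderOf u := fun h' => hNf (h'.trans ho1)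
  have ho4 : orderOf u ∣ B := dvd_pow_mul_of_not_pow_dvd hp ho2 ho3
  have h5 : p ^ n ∣ Q ^ B - 1 := (hu B).1 (orderOf_dvd_iff_pow_eq_one.1 ho4)
  have h6 : 0 < Q ^ B - 1 := by omega
  have h7 := Nat.le_of_dvd h6 h5
  have := hQpos B
  omega

/-- If `p ^ m ∣ A * B` with `A ≠ 0`, then `p ^ (m - A) ∣ B` (crude bound `v_p(A) < A`). -/
theorem pow_sub_dvd_of_pow_dvd_mul {p : ℕ} (hp : p.Prime) {A B m : ℕ} (hA : A ≠ 0)
    (h : p ^ m ∣ A * B) : p ^ (m - A) ∣ B := by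
  rcases Nat.eq_zero_or_pos B with rfl | hB
  · exact dvd_zero _
  rw [hp.pow_dvd_iff_le_factorization (mul_ne_zero hA hB.ne'), Nat.factorization_mul hA hB.ne',
    Finsupp.add_apply] at h
  rw [hp.pow_dvd_iff_le_factorization hB.ne']
  have := (Nat.factorization_lt p hA)
  omega

end Arith

section FiniteField

/-- In a finite field, an element of exact order `p ^ (k + 1)` forces `p ^ (k + 1) ∣ |F| - 1`. -/
theorem pow_dvd_card_sub_one {F : Type*} [Field F] [Finite F] {p : ℕ} [Fact p.Prime] {k : ℕ}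
    {x : F} (h1 : x ^ p ^ (k + 1) = 1) (h2 : x ^ p ^ k ≠ 1) : p ^ (k + 1) ∣ Nat.card F - 1 := by
  have := Fintype.ofFinite F
  have hx0 : x ≠ 0 := by
    rintro rfl
    rw [zero_pow (pow_ne_zero _ (Fact.out : p.Prime).ne_zero)] at h1
    exact zero_ne_one h1
  rw [← orderOf_eq_prime_pow h2 h1, Nat.card_eq_fintype_card]
  exact orderOf_dvd_of_pow_eq_one (FiniteField.pow_card_sub_one_eq_one x hx0)

end FiniteField

section Reduction

variable {R : Type*} [CommRing R]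

/-- A primitive `p ^ (k + 1)`-th root of unity stays of exact order `p ^ (k + 1)` modulo any ideal
not containing `p`. -/
theorem mk_pow_ne_one [IsDomain R] {p : ℕ} [Fact p.Prime] {k : ℕ} {ζ : R}
    (hζ : IsPrimitiveRoot ζ (p ^ (k + 1))) (W : Ideal R) (hpW : (p : R) ∉ W) :
    (Ideal.Quotient.mk W ζ) ^ p ^ k ≠ 1 := by
  have hp : p.Prime := Fact.out
  intro h
  apply hpW
  have hη : IsPrimitiveRoot (ζ ^ p ^ k) p :=
    hζ.pow (pow_pos hp.pos _) (by rw [pow_succ])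
  have hdvd : ζ ^ p ^ k - 1 ∣ (p : R) :=
    sub_one_dvd_natCast_of_pow_eq_one hη.pow_eq_one (hη.ne_one hp.one_lt)
  have hmem : ζ ^ p ^ k - 1 ∈ W := by
    rw [← Ideal.Quotient.eq_zero_iff_mem, map_sub, map_pow, h, map_one, sub_self]
  exact W.mem_of_dvd hdvd hmem

theorem mk_pow_eq_one {n : ℕ} {ζ : R} (hζ : IsPrimitiveRoot ζ n) (W : Ideal R) :
    (Ideal.Quotient.mk W ζ) ^ n = 1 := by
  rw [← map_pow, hζ.pow_eq_one, map_one]

end Reduction

section Global

variable {K : Type*} [Field K] [NumberField K] {Kn : Type*} [Field Kn] [NumberField Kn]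
  [Algebra K Kn]

/-- **Case `p ∉ w`**: the inertia degree of `K(ζ_{p^n})/K` at a prime over `w` is divisible by
`p ^ N` as soon as `N(w) ^ (p ^ N * (p - 1)) ≤ p ^ n`. -/
theorem pow_dvd_inertiaDeg {p : ℕ} [Fact p.Prime] (w : Ideal (𝓞 K)) [w.IsPrime] (hw : w ≠ ⊥)
    (hpw : (p : 𝓞 K) ∉ w) {N n : ℕ} (hn : absNorm w ^ (p ^ N * (p - 1)) ≤ p ^ n)
    [IsCyclotomicExtension {p ^ n} K Kn] (W : Ideal (𝓞 Kn)) [W.IsPrime] [W.LiesOver w] :
    p ^ N ∣ W.inertiaDeg (𝓞 K) := by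
  have hp : p.Prime := Fact.out
  have hQ : 2 ≤ absNorm w := by
    have h0 : absNorm w ≠ 0 := by rwa [Ne, Ideal.absNorm_eq_zero_iff]
    have h1 : absNorm w ≠ 1 := by
      rw [Ne, Ideal.absNorm_eq_one_iff]; exact IsPrime.ne_top'
    omega
  have hn1 : n ≠ 0 := by
    rintro rfl
    have : 2 ^ 1 ≤ absNorm w ^ (p ^ N * (p - 1)) :=
      (Nat.pow_le_pow_left hQ 1).trans (Nat.pow_le_pow_right (by omega)
        (Nat.one_le_iff_ne_zero.2 (mul_ne_zero (pow_ne_zero _ hp.ne_zero)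
          (Nat.sub_ne_zero_of_lt hp.one_lt))))
    simp at hn
    omega
  obtain ⟨k, rfl⟩ := Nat.exists_eq_succ_of_ne_zero hn1
  haveI : NeZero (p ^ (k + 1)) := ⟨pow_ne_zero _ hp.ne_zero⟩
  obtain ⟨ζ, hζ⟩ := IsCyclotomicExtension.exists_isPrimitiveRoot K Kn
    (Set.mem_singleton (p ^ (k + 1))) (NeZero.ne _)
  have hζ' : IsPrimitiveRoot hζ.toInteger (p ^ (k + 1)) := hζ.toInteger_isPrimitiveRoot
  have hW0 : W ≠ ⊥ := Ideal.ne_bot_of_liesOver_of_ne_bot hw W
  haveI : W.IsMaximal := IsPrime.isMaximal inferInstance hW0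
  letI : Field (𝓞 Kn ⧸ W) := Ideal.Quotient.field W
  haveI : Finite (𝓞 Kn ⧸ W) := Ideal.finiteQuotientOfFreeOfNeBot W hW0
  have hpW : (p : 𝓞 Kn) ∉ W := by
    intro h
    apply hpw
    rw [Ideal.over_def W w, Ideal.mem_comap, map_natCast]
    exact h
  have h1 := pow_dvd_card_sub_one (F := 𝓞 Kn ⧸ W) (mk_pow_eq_one hζ' W) (mk_pow_ne_one hζ' W hpW)
  have h2 : Nat.card (𝓞 Kn ⧸ W) = absNorm w ^ W.inertiaDeg (𝓞 K) := by
    rw [Ideal.absNorm_pow_inertiaDeg w W, Ideal.absNorm_apply, Submodule.cardQuot_apply]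
  rw [h2] at h1
  exact pow_dvd_of_pow_dvd_pow_sub_one hp hQ hn h1

/-- **Case `p ∈ w`**: the ramification index of `K(ζ_{p^n})/K` at a prime over `w` is divisible by
`p ^ N` as soon as `N + 1 + e(w|p) ≤ n`. -/
theorem pow_dvd_ramificationIdx {p : ℕ} [Fact p.Prime] (w : Ideal (𝓞 K)) [w.IsPrime]
    (hpw : (p : 𝓞 K) ∈ w) {N n : ℕ} (hn : N + 1 + w.ramificationIdx ℤ ≤ n)
    [IsCyclotomicExtension {p ^ n} K Kn] (W : Ideal (𝓞 Kn)) [W.IsPrime] [W.LiesOver w] :
    p ^ N ∣ W.ramificationIdx (𝓞 K) := by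
  have hp : p.Prime := Fact.out
  obtain ⟨k, rfl⟩ := Nat.exists_eq_succ_of_ne_zero (by omega : n ≠ 0)
  haveI : NeZero (p ^ (k + 1)) := ⟨pow_ne_zero _ hp.ne_zero⟩
  obtain ⟨ζ, hζ⟩ := IsCyclotomicExtension.exists_isPrimitiveRoot K Kn
    (Set.mem_singleton (p ^ (k + 1))) (NeZero.ne _)
  -- the cyclotomic subfield `ℚ(ζ)`
  haveI : IsCyclotomicExtension {p ^ (k + 1)} ℚ ℚ⟮ζ⟯ :=
    hζ.intermediateField_adjoin_isCyclotomicExtension ℚ
  -- `w` lies over `p`
  haveI hwp : w.LiesOver (span {(p : ℤ)}) := by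
    rw [liesOver_iff]
    refine IsMaximal.eq_of_le (Int.ideal_span_isMaximal_of_prime p) IsPrime.ne_top' ?_
    rw [span_singleton_le_iff_mem, under_def, mem_comap, algebraMap_int_eq, map_natCast]
    exact hpw
  haveI : W.LiesOver (span {(p : ℤ)}) := LiesOver.trans W w _
  set P : Ideal (𝓞 ℚ⟮ζ⟯) := W.under (𝓞 ℚ⟮ζ⟯) with hP
  haveI : P.LiesOver (span {(p : ℤ)}) := LiesOver.tower_bot W P _
  have h1 : P.ramificationIdx ℤ = p ^ k * (p - 1) :=
    IsCyclotomicExtension.Rat.ramificationIdx_eq_of_prime_pow p k ℚ⟮ζ⟯ P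
  have h2 : W.ramificationIdx ℤ = P.ramificationIdx ℤ * W.ramificationIdx (𝓞 ℚ⟮ζ⟯) :=
    Ideal.ramificationIdx_tower P W
  have h3 : W.ramificationIdx ℤ = w.ramificationIdx ℤ * W.ramificationIdx (𝓞 K) :=
    Ideal.ramificationIdx_tower w W
  have h4 : p ^ k ∣ w.ramificationIdx ℤ * W.ramificationIdx (𝓞 K) := by
    rw [← h3, h2, h1]
    exact Dvd.dvd.mul_right (Dvd.intro _ rfl) _
  have h5 : w.ramificationIdx ℤ ≠ 0 := (Ideal.ramificationIdx_pos w ℤ).ne'
  exact (pow_dvd_pow p (by omega)).trans (pow_sub_dvd_of_pow_dvd_mul hp h5 h4)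

/-- The explicit level from which on the local degree of `K(ζ_{p^n})/K` at `w` is divisible by
`p ^ N`. -/
noncomputable def globalBound (p : ℕ) (w : Ideal (𝓞 K)) (N : ℕ) : ℕ :=
  max (absNorm w ^ (p ^ N * (p - 1))) (N + 1 + w.ramificationIdx ℤ)

/-- **Local degrees of the cyclotomic `ℤ_p`-tower, `e * f` form.**  For every nonzero prime `w` of
a number field `K` and every `N`, the local degree `e * f` of `K(ζ_{p^n})/K` at every prime above
`w` is divisible by `p ^ N` for all `n ≥ globalBound p w N`. -/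
theorem pow_dvd_ramificationIdx_mul_inertiaDeg {p : ℕ} [Fact p.Prime] (w : Ideal (𝓞 K))
    [w.IsPrime] (hw : w ≠ ⊥) {N n : ℕ} (hn : globalBound p w N ≤ n)
    [IsCyclotomicExtension {p ^ n} K Kn] (W : Ideal (𝓞 Kn)) [W.IsPrime] [W.LiesOver w] :
    p ^ N ∣ W.ramificationIdx (𝓞 K) * W.inertiaDeg (𝓞 K) := by
  have hp : p.Prime := Fact.out
  by_cases hpw : (p : 𝓞 K) ∈ w
  · exact Dvd.dvd.mul_right
      (pow_dvd_ramificationIdx w hpw ((le_max_right _ _).trans hn) W) _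
  · refine Dvd.dvd.mul_left (pow_dvd_inertiaDeg (n := n) w hw hpw ?_ W) _
    exact ((le_max_left _ _).trans hn).trans (Nat.lt_pow_self hp.one_lt).le

/-- **Local degrees of the cyclotomic `ℤ_p`-tower, decomposition-group form.**  The decomposition
group in `Gal(K(ζ_{p^n})/K)` of any prime above `w` has order divisible by `p ^ N` for all
`n ≥ globalBound p w N`. -/
theorem pow_dvd_card_stabilizer {p : ℕ} [Fact p.Prime] (w : Ideal (𝓞 K))
    [w.IsPrime] (hw : w ≠ ⊥) {N n : ℕ} (hn : globalBound p w N ≤ n)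
    [IsCyclotomicExtension {p ^ n} K Kn] (W : Ideal (𝓞 Kn)) [W.IsPrime] [W.LiesOver w] :
    p ^ N ∣ Nat.card (MulAction.stabilizer Gal(Kn/K) W) := by
  have hp : p.Prime := Fact.out
  haveI : NeZero (p ^ n) := ⟨pow_ne_zero _ hp.ne_zero⟩
  haveI : IsGalois K Kn := IsCyclotomicExtension.isGalois {p ^ n} K Kn
  haveI : w.IsMaximal := IsPrime.isMaximal inferInstance hw
  rw [Ideal.card_stabilizer_eq (G := Gal(Kn/K)) w W,
    ramificationIdxIn_eq_ramificationIdx w W Gal(Kn/K), inertiaDegIn_eq_inertiaDeg w W Gal(Kn/K)]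
  exact pow_dvd_ramificationIdx_mul_inertiaDeg w hw hn W

/-- Existential form, uniform in the model of `K(ζ_{p^n})`. -/
theorem exists_forall_pow_dvd {p : ℕ} [Fact p.Prime] (w : Ideal (𝓞 K)) [w.IsPrime] (hw : w ≠ ⊥)
    (N : ℕ) : ∃ n₀ : ℕ, ∀ n, n₀ ≤ n → ∀ (Kn : Type*) [Field Kn] [NumberField Kn] [Algebra K Kn]
      [IsCyclotomicExtension {p ^ n} K Kn] (W : Ideal (𝓞 Kn)) [W.IsPrime] [W.LiesOver w],
      p ^ N ∣ W.ramificationIdx (𝓞 K) * W.inertiaDeg (𝓞 K) :=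
  ⟨globalBound p w N, fun n hn _ _ _ _ _ W _ _ =>
    pow_dvd_ramificationIdx_mul_inertiaDeg (n := n) w hw hn W⟩

end Global

end Fermat.Agent.S55.GL.LocalDegrees
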