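/-
S55 block GLO10 (local degrees), part 2: the LOCAL statement.

Let `F` be the fraction field of a complete discrete valuation ring `O` with finite residue field,
`char F = 0` (e.g. a finite extension of `ℚ_q`), and let `p` be any prime (`p = q` allowed).
For every `N` there is `n₀` such that `p ^ N ∣ [F(ζ_{p^n}) : F]` for all `n ≥ n₀`
(`exists_forall_pow_dvd_finrank`; `p`-adic instantiation `exists_forall_pow_dvd_finrank_padic`;
intermediate-field form `exists_forall_pow_dvd_finrank_adjoin`).
This is "`p^∞` divides the local degrees of the cyclotomic `ℤ_p`-extension" (fact (F6) of the S55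
blueprint), the input for `Br(K_{S,v})(p) = 0` and `H²(G_S, I_S)(p) = ⊕_w Br(L_w)(p)`.

Proof: with `B` the integral closure of `O` in `E = F(ζ_{p^n})` (a complete DVR, finite free of
rank `[E : F]` over `O`, by `S55/Local/CompleteDVR.lean`), `[E : F] = e * f`
(`ramificationIdx_mul_inertiaDeg_eq_finrank`) and
* residue characteristic `≠ p`: `ζ` keeps exact order `p^n` in the residue field of `B`, so
  `p^n ∣ |k_O|^f - 1` and `p^N ∣ f` by `pow_dvd_of_pow_dvd_pow_sub_one`
  (`pow_dvd_inertiaDeg_of_isPrimitiveRoot`);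
* residue characteristic `= p`: `p ~ (ζ - 1)^{φ(p^n)}` (`associated_sub_one_pow_natCast`), so
  `φ(p^n) ∣ e * v_O(p)` and `p^(n-1-v_O(p)) ∣ e` (`pow_dvd_ramificationIdx_of_isPrimitiveRoot`).

Imports: Mathlib, `S55/GL/LocalDegrees` (arithmetic lemmas), `S55/Local/CompleteDVR` (helper8).
-/
import Mathlib
import Fermat.Agent.S55.GL.LocalDegrees
import Fermat.Agent.S55.Local.CompleteDVR

set_option autoImplicit false
set_option linter.style.haveILetI false
set_option linter.unusedSectionVars false

namespace Fermat.Agent.S55.GL.LocalDegrees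

open IsLocalRing Polynomial IntermediateField Fermat.Agent.S55.Local

/-- In a domain containing a primitive `p ^ (k + 1)`-th root of unity `ζ`, the prime `p` is
associated to `(ζ - 1) ^ φ(p ^ (k + 1))`. -/
theorem associated_sub_one_pow_natCast {A : Type*} [CommRing A] [IsDomain A] {p : ℕ}
    [Fact p.Prime] {k : ℕ} {ζ : A} (hζ : IsPrimitiveRoot ζ (p ^ (k + 1))) :
    Associated ((ζ - 1) ^ (p ^ k * (p - 1))) (p : A) := by
  have hp : p.Prime := Fact.out
  haveI : NeZero (p ^ (k + 1)) := ⟨pow_ne_zero _ hp.ne_zero⟩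
  have h1 : (p : A) = ∏ μ ∈ primitiveRoots (p ^ (k + 1)) A, (1 - μ) := by
    have := congrArg (Polynomial.eval 1) (cyclotomic_eq_prod_X_sub_primitiveRoots hζ)
    rw [eval_one_cyclotomic_prime_pow, eval_prod] at this
    simpa using this
  have h2 : ∀ μ ∈ primitiveRoots (p ^ (k + 1)) A, Associated (1 - μ) (ζ - 1) := by
    intro μ hμ
    rw [mem_primitiveRoots (pow_pos hp.pos _)] at hμ
    obtain ⟨i, -, hi, rfl⟩ := (hζ.isPrimitiveRoot_iff).1 hμ
    have := (hζ.associated_sub_one_pow_sub_one_of_coprime hi).symm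
    rw [← neg_sub]
    exact (Associated.neg_left this)
  have h3 := Associated.prod (primitiveRoots (p ^ (k + 1)) A) (fun μ => 1 - μ) (fun _ => ζ - 1) h2
  rw [← h1, Finset.prod_const, hζ.card_primitiveRoots, Nat.totient_prime_pow_succ hp] at h3
  exact h3.symm

section Extension

variable (O : Type*) [CommRing O] [IsDomain O] [IsDiscreteValuationRing O]
  [IsAdicComplete (maximalIdeal O) O]
  (F : Type*) [Field F] [Algebra O F] [IsFractionRing O F]
  (E : Type*) [Field E] [Algebra F E] [Algebra O E] [IsScalarTower O F E]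
  [FiniteDimensional F E] [Algebra.IsSeparable F E]
  (B : Type*) [CommRing B] [Algebra O B] [Algebra B E] [IsScalarTower O B E]
  [IsIntegralClosure B O E] [IsLocalRing B]

include O F E in
theorem liesOver_maximalIdeal : (maximalIdeal B).LiesOver (maximalIdeal O) := by
  rw [Ideal.liesOver_iff, Ideal.under_def]
  refine (IsLocalRing.maximalIdeal.isMaximal O).eq_of_le (Ideal.IsPrime.ne_top inferInstance) ?_
  rw [← Ideal.map_le_iff_le_comap]
  exact map_maximalIdeal_le_of_isMaximal O F E B (maximalIdeal B) inferInstance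

include O F E in
/-- `e * f = n` for a finite separable extension of the fraction field of a complete DVR. -/
theorem ramificationIdx_mul_inertiaDeg_eq_finrank :
    (maximalIdeal B).ramificationIdx O * (maximalIdeal B).inertiaDeg O = Module.finrank F E := by
  haveI : IsDomain B := isDomain_of_isIntegralClosure O F E B
  haveI := finite_of_isIntegralClosure O F E B
  haveI := free_of_isIntegralClosure O F E B
  haveI := isDedekindDomain_of_isIntegralClosure O F E B
  haveI := liesOver_maximalIdeal O F E B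
  have hm0 : maximalIdeal O ≠ ⊥ := IsDiscreteValuationRing.not_a_field O
  letI : Unique ((maximalIdeal O).primesOver B) :=
    { default := ⟨maximalIdeal B, inferInstance, inferInstance⟩
      uniq := fun q => by
        apply Subtype.ext
        haveI := q.2.1
        haveI := q.2.2
        have hq0 : q.1 ≠ ⊥ := Ideal.ne_bot_of_liesOver_of_ne_bot hm0 q.1
        exact IsLocalRing.eq_maximalIdeal (Ideal.IsPrime.isMaximal inferInstance hq0) }
  have h := Ideal.sum_ramification_inertia_eq_finrank (maximalIdeal O) B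
  rw [Fintype.sum_unique, finrank_of_isIntegralClosure O F E B] at h
  exact h

include O F E in
/-- **Local case `p ≠` residue characteristic.** -/
theorem pow_dvd_inertiaDeg_of_isPrimitiveRoot [Finite (ResidueField O)] {p : ℕ} [Fact p.Prime]
    (hpO : (p : O) ∉ maximalIdeal O) {N k : ℕ}
    (hn : Nat.card (ResidueField O) ^ (p ^ N * (p - 1)) ≤ p ^ (k + 1)) {ζ : B}
    (hζ : IsPrimitiveRoot ζ (p ^ (k + 1))) : p ^ N ∣ (maximalIdeal B).inertiaDeg O := by
  have hp : p.Prime := Fact.out
  haveI : IsDomain B := isDomain_of_isIntegralClosure O F E B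
  haveI := finite_of_isIntegralClosure O F E B
  haveI := liesOver_maximalIdeal O F E B
  have hQ : 2 ≤ Nat.card (ResidueField O) := Finite.one_lt_card
  have hpB : (p : B) ∉ maximalIdeal B := by
    intro h
    apply hpO
    rw [Ideal.over_def (maximalIdeal B) (maximalIdeal O), Ideal.mem_comap, map_natCast]
    exact h
  letI : Field (B ⧸ maximalIdeal B) := Ideal.Quotient.field _
  haveI : Finite (B ⧸ maximalIdeal B) := finite_residueField_of_isIntegralClosure O F E B
  have h1 := pow_dvd_card_sub_one (F := B ⧸ maximalIdeal B) (mk_pow_eq_one hζ _)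
    (mk_pow_ne_one hζ _ hpB)
  have h2 : Nat.card (B ⧸ maximalIdeal B) =
      Nat.card (ResidueField O) ^ (maximalIdeal B).inertiaDeg O := by
    have := Ideal.cardQuot_pow_inertiaDeg (maximalIdeal O) (maximalIdeal B)
    rw [Submodule.cardQuot_apply, Submodule.cardQuot_apply] at this
    exact this.symm
  rw [h2] at h1
  exact pow_dvd_of_pow_dvd_pow_sub_one hp hQ hn h1

include O F E in
/-- **Local case `p =` residue characteristic.** -/
theorem pow_dvd_ramificationIdx_of_isPrimitiveRoot {p : ℕ} [Fact p.Prime] {a : ℕ} (ha0 : a ≠ 0)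
    (ha : Ideal.span {(p : O)} = maximalIdeal O ^ a) {N k : ℕ} (hn : N + a ≤ k) {ζ : B}
    (hζ : IsPrimitiveRoot ζ (p ^ (k + 1))) : p ^ N ∣ (maximalIdeal B).ramificationIdx O := by
  have hp : p.Prime := Fact.out
  haveI : IsDomain B := isDomain_of_isIntegralClosure O F E B
  haveI := isDedekindDomain_of_isIntegralClosure O F E B
  haveI : IsDiscreteValuationRing B := isDiscreteValuationRing_of_isIntegralClosure O F E B
  haveI := liesOver_maximalIdeal O F E B
  have hmB0 : maximalIdeal B ≠ ⊥ := IsDiscreteValuationRing.not_a_field B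
  have hmB1 : maximalIdeal B ≠ ⊤ := Ideal.IsPrime.ne_top inferInstance
  obtain ⟨e, he0, he⟩ := exists_map_maximalIdeal_eq_pow O F E B
  have hee : (maximalIdeal B).ramificationIdx O = e := by
    rw [Ideal.IsDedekindDomain.ramificationIdx_eq_multiplicity (maximalIdeal O) (maximalIdeal B)
      (map_maximalIdeal_ne_bot O F E B), he]
    exact multiplicity_pow_self hmB0 (by rwa [Ideal.isUnit_iff]) e
  rw [hee]
  -- `(p) = 𝔪_B ^ (e * a)`
  have h1 : Ideal.span {(p : B)} = maximalIdeal B ^ (e * a) := by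
    have := congrArg (Ideal.map (algebraMap O B)) ha
    rwa [Ideal.map_span, Set.image_singleton, map_natCast, Ideal.map_pow, he, ← pow_mul] at this
  -- `(ζ - 1) = 𝔪_B ^ b`
  have hζ1 : ζ - 1 ≠ 0 := sub_ne_zero.2 (hζ.ne_one (Nat.one_lt_pow (by omega) hp.one_lt))
  have hnf : ¬ IsField B := IsDiscreteValuationRing.not_isField B
  have h6 := ((IsDiscreteValuationRing.TFAE B hnf).out 0 6).1
    (inferInstance : IsDiscreteValuationRing B)
  obtain ⟨b, hb⟩ := h6 (Ideal.span {ζ - 1}) (by rwa [Ne, Ideal.span_singleton_eq_bot])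
  have h2 : Ideal.span {(p : B)} = maximalIdeal B ^ (b * (p ^ k * (p - 1))) := by
    rw [← Ideal.span_singleton_eq_span_singleton.2 (associated_sub_one_pow_natCast hζ),
      ← Ideal.span_singleton_pow, hb, ← pow_mul]
  have h3 : e * a = b * (p ^ k * (p - 1)) :=
    ((maximalIdeal B).pow_right_strictAnti hmB0 hmB1).injective (h1.symm.trans h2)
  have h4 : p ^ k ∣ a * e := by
    rw [mul_comm a e, h3]
    exact Dvd.dvd.mul_left (Dvd.intro _ rfl) _
  exact (pow_dvd_pow p (by omega)).trans (pow_sub_dvd_of_pow_dvd_mul hp ha0 h4)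

end Extension

section Main

variable (O : Type*) [CommRing O] [IsDomain O] [IsDiscreteValuationRing O]
  [IsAdicComplete (maximalIdeal O) O] [Finite (ResidueField O)]
  (F : Type*) [Field F] [Algebra O F] [IsFractionRing O F] [CharZero F]

/-- Explicit form: for a cyclotomic extension `E = F(ζ_{p^n})` of the fraction field `F` of a
complete DVR `O` with finite residue field (characteristic zero), `p ^ N ∣ [E : F]` as soon as
`|k_O| ^ (p ^ N * (p - 1)) ≤ p ^ n` (if `p` is a unit of `O`), resp. `N + v_O(p) + 1 ≤ n`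
(if `p` is not a unit of `O`). -/
theorem pow_dvd_finrank_of_le {p : ℕ} [Fact p.Prime] {N n : ℕ}
    (hA : (p : O) ∉ maximalIdeal O → Nat.card (ResidueField O) ^ (p ^ N * (p - 1)) ≤ p ^ n)
    (hB : (p : O) ∈ maximalIdeal O →
      ∃ a, a ≠ 0 ∧ Ideal.span {(p : O)} = maximalIdeal O ^ a ∧ N + a + 1 ≤ n)
    (E : Type*) [Field E] [Algebra F E] [IsCyclotomicExtension {p ^ n} F E] :
    p ^ N ∣ Module.finrank F E := by
  have hp : p.Prime := Fact.out
  have hQ : 2 ≤ Nat.card (ResidueField O) := Finite.one_lt_card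
  have hn1 : n ≠ 0 := by
    rintro rfl
    by_cases hpO : (p : O) ∈ maximalIdeal O
    · obtain ⟨a, -, -, h⟩ := hB hpO
      omega
    · have := hA hpO
      have h2 : 2 ^ 1 ≤ Nat.card (ResidueField O) ^ (p ^ N * (p - 1)) :=
        (Nat.pow_le_pow_left hQ 1).trans (Nat.pow_le_pow_right (by omega)
          (Nat.one_le_iff_ne_zero.2 (mul_ne_zero (pow_ne_zero _ hp.ne_zero)
            (Nat.sub_ne_zero_of_lt hp.one_lt))))
      simp at this
      omega
  obtain ⟨k, rfl⟩ := Nat.exists_eq_succ_of_ne_zero hn1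
  haveI : NeZero (p ^ (k + 1)) := ⟨pow_ne_zero _ hp.ne_zero⟩
  letI : Algebra O E := ((algebraMap F E).comp (algebraMap O F)).toAlgebra
  haveI : IsScalarTower O F E := IsScalarTower.of_algebraMap_eq' rfl
  haveI : FiniteDimensional F E := IsCyclotomicExtension.finiteDimensional {p ^ (k + 1)} F E
  haveI : CharZero E := charZero_of_injective_algebraMap (algebraMap F E).injective
  haveI : Algebra.IsSeparable F E := inferInstance
  obtain ⟨ζ, hζ⟩ := IsCyclotomicExtension.exists_isPrimitiveRoot F E
    (Set.mem_singleton (p ^ (k + 1))) (NeZero.ne _)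
  let B := integralClosure O E
  haveI : IsLocalRing B := isLocalRing_of_isIntegralClosure O F E B
  have hζint : IsIntegral O ζ := by
    refine IsIntegral.of_pow (Nat.pos_of_ne_zero (NeZero.ne (p ^ (k + 1)))) ?_
    rw [hζ.pow_eq_one]
    exact isIntegral_one
  let ζB : B := ⟨ζ, hζint⟩
  have hζB : IsPrimitiveRoot ζB (p ^ (k + 1)) :=
    IsPrimitiveRoot.of_map_of_injective (f := algebraMap B E) (by exact hζ)
      (IsIntegralClosure.algebraMap_injective B O E)
  rw [← ramificationIdx_mul_inertiaDeg_eq_finrank O F E B]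
  by_cases hpO : (p : O) ∈ maximalIdeal O
  · obtain ⟨a, ha0, ha, h⟩ := hB hpO
    exact Dvd.dvd.mul_right
      (pow_dvd_ramificationIdx_of_isPrimitiveRoot O F E B ha0 ha (by omega) hζB) _
  · exact Dvd.dvd.mul_left
      (pow_dvd_inertiaDeg_of_isPrimitiveRoot O F E B hpO (hA hpO) hζB) _

include O in
/-- **Local degrees of the cyclotomic `ℤ_p`-tower over a local field.**  Let `F` be the fraction
field of a complete discrete valuation ring `O` with finite residue field, of characteristic
zero, and `p` any prime.  For every `N` there is `n₀` such that `p ^ N ∣ [F(ζ_{p^n}) : F]` for all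
`n ≥ n₀`. -/
theorem exists_forall_pow_dvd_finrank (p : ℕ) [Fact p.Prime] (N : ℕ) :
    ∃ n₀ : ℕ, ∀ n, n₀ ≤ n → ∀ (E : Type*) [Field E] [Algebra F E]
      [IsCyclotomicExtension {p ^ n} F E], p ^ N ∣ Module.finrank F E := by
  have hp : p.Prime := Fact.out
  by_cases hpO : (p : O) ∈ maximalIdeal O
  · have hp0 : (p : O) ≠ 0 := by
      intro h
      have := congrArg (algebraMap O F) h
      rw [map_natCast, map_zero] at this
      exact hp.ne_zero (Nat.cast_eq_zero.1 this)
    have hnf : ¬ IsField O := IsDiscreteValuationRing.not_isField O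
    have h6 := ((IsDiscreteValuationRing.TFAE O hnf).out 0 6).1
      (inferInstance : IsDiscreteValuationRing O)
    obtain ⟨a, ha⟩ := h6 (Ideal.span {(p : O)}) (by rwa [Ne, Ideal.span_singleton_eq_bot])
    have ha0 : a ≠ 0 := by
      rintro rfl
      rw [pow_zero, Ideal.one_eq_top] at ha
      have : maximalIdeal O = ⊤ := top_le_iff.1
        (ha ▸ (Ideal.span_singleton_le_iff_mem _).2 hpO)
      exact Ideal.IsPrime.ne_top inferInstance this
    refine ⟨N + a + 1, fun n hn E _ _ _ => pow_dvd_finrank_of_le O F (fun h => absurd hpO h)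
      (fun _ => ⟨a, ha0, ha, hn⟩) E⟩
  · refine ⟨Nat.card (ResidueField O) ^ (p ^ N * (p - 1)), fun n hn E _ _ _ =>
      pow_dvd_finrank_of_le O F (fun _ => hn.trans (Nat.lt_pow_self hp.one_lt).le)
        (fun h => absurd h hpO) E⟩

include O in
/-- Intermediate-field form: inside any algebraic extension `L` of `F`, the fields `F(ζ)` for `ζ`
a primitive `p ^ n`-th root of unity have degree divisible by `p ^ N` for `n ≥ n₀`. -/
theorem exists_forall_pow_dvd_finrank_adjoin (p : ℕ) [Fact p.Prime] (N : ℕ) :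
    ∃ n₀ : ℕ, ∀ n, n₀ ≤ n → ∀ (L : Type*) [Field L] [Algebra F L] [Algebra.IsIntegral F L]
      (ζ : L), IsPrimitiveRoot ζ (p ^ n) → p ^ N ∣ Module.finrank F F⟮ζ⟯ := by
  obtain ⟨n₀, h⟩ := exists_forall_pow_dvd_finrank O F p N
  refine ⟨n₀, fun n hn L _ _ _ ζ hζ => ?_⟩
  haveI : NeZero (p ^ n) := ⟨pow_ne_zero _ (Fact.out : p.Prime).ne_zero⟩
  haveI : IsCyclotomicExtension {p ^ n} F F⟮ζ⟯ :=
    hζ.intermediateField_adjoin_isCyclotomicExtension F
  exact h n hn F⟮ζ⟯

end Main

section Padic

/-- **`p`-adic instantiation**: for a finite extension `F` of `ℚ_q` and any prime `p`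
(`p = q` allowed), `p ^ N ∣ [F(ζ_{p^n}) : F]` for all large `n`. -/
theorem exists_forall_pow_dvd_finrank_padic (q : ℕ) [Fact q.Prime] (F : Type*) [Field F]
    [Algebra ℚ_[q] F] [FiniteDimensional ℚ_[q] F] (p : ℕ) [Fact p.Prime] (N : ℕ) :
    ∃ n₀ : ℕ, ∀ n, n₀ ≤ n → ∀ (E : Type*) [Field E] [Algebra F E]
      [IsCyclotomicExtension {p ^ n} F E], p ^ N ∣ Module.finrank F E := by
  letI : Algebra ℤ_[q] F := ((algebraMap ℚ_[q] F).comp (algebraMap ℤ_[q] ℚ_[q])).toAlgebra
  haveI : IsScalarTower ℤ_[q] ℚ_[q] F := IsScalarTower.of_algebraMap_eq' rfl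
  haveI : CharZero F := charZero_of_injective_algebraMap (algebraMap ℚ_[q] F).injective
  haveI : Algebra.IsSeparable ℚ_[q] F := inferInstance
  let OF := integralClosure ℤ_[q] F
  haveI : IsLocalRing OF := isLocalRing_of_isIntegralClosure ℤ_[q] ℚ_[q] F OF
  haveI : IsDiscreteValuationRing OF :=
    isDiscreteValuationRing_of_isIntegralClosure ℤ_[q] ℚ_[q] F OF
  haveI : IsAdicComplete (maximalIdeal OF) OF :=
    isAdicComplete_maximalIdeal_of_isIntegralClosure ℤ_[q] ℚ_[q] F OF
  haveI : Finite (ResidueField OF) := finite_residueField_of_isIntegralClosure ℤ_[q] ℚ_[q] F OF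
  haveI : IsFractionRing OF F := isFractionRing_of_isIntegralClosure ℤ_[q] ℚ_[q] F OF
  exact exists_forall_pow_dvd_finrank OF F p N

end Padic

end Fermat.Agent.S55.GL.LocalDegrees
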