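/-
S55 / GLO12 (instantiation, part 1): the local data of the Brauer chase at the places of a number
field `L ⊆ ℚ̄`, in helper2's places model.

For a prime `q` and `σ ∈ Γ = Gal(ℚ̄/ℚ)` (the place `x ↦ ‖ι_q (σ x)‖` of `L`):

* `Kloc q L σ = localFieldAt q L σ ⊆ Ω_q = PadicAlgCl q`, the completion of `L` at the place;
* `Gloc q L σ = Gal(Ω_q / Kloc)`, with the Krull level structure `krullLevel` and the module
  `unitsRep = Ω_q^×` (the objects of the local class formation `CFAbs.Formation`);
* `decompHom q L σ : Gloc →* G_L = L.fixingSubgroup`, `τ ↦ σ⁻¹ r(τ) σ` (the decomposition map);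
* `unitsLoc q L σ : ℚ̄^× → Ω_q^×`, `x ↦ ι_q (σ x)`, equivariant along `decompHom`;
* refinement of the absolute (`krullLevel ℚ ℚ̄`) and of the `S`-level structure
  (`globalLevel S`), both restricted to `G_L`;
* `Br q L σ = H²(Gloc, Ω_q^×)` and, for a discrete `Γ`-module `A` with a morphism
  `j : A ⟶ ℚ̄^×`, the localisation maps `resAt`, `resAtS : H²(G_L, A) → Br q L σ`.
-/
import Fermat.Agent.S55.GL.Places
import Fermat.Agent.S55.GaloisLevel
import Fermat.Agent.S55.LevelRestrict
import Fermat.Agent.S55.LevelGalois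
import Fermat.Agent.S55.LevelTransport
import Fermat.Agent.S55.SmoothPart

set_option autoImplicit false

open CategoryTheory IntermediateField

namespace Fermat.Agent.S55.GL.BrauerLocal

open Fermat.Agent.S55.Level Fermat.Agent.S55.GaloisLevel Fermat.Agent.S55.GL.Places
  Fermat.Agent.S55.LevelTransport

local notation "Qbar" => AlgebraicClosure ℚ
local notation "Γ" => (AlgebraicClosure ℚ ≃ₐ[ℚ] AlgebraicClosure ℚ)

variable (q : ℕ) [Fact q.Prime] (L : IntermediateField ℚ Qbar) (σ : Γ)

/-- The local Galois group at the place `(q, σ)` of `L`. -/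
abbrev Gloc : Type := Gal(PadicAlgCl q/localFieldAt q L σ)

/-- The local Galois group as a subgroup of `Gal(Ω_q/ℚ_q)`. -/
noncomputable abbrev glocToAbs : Gloc q L σ →* Gal(PadicAlgCl q/ℚ_[q]) :=
  AlgEquiv.restrictScalarsHom ℚ_[q]

lemma glocToAbs_apply (τ : Gloc q L σ) (x : PadicAlgCl q) : glocToAbs q L σ τ x = τ x := rfl

lemma glocToAbs_mem (τ : Gloc q L σ) :
    glocToAbs q L σ τ ∈ (localFieldAt q L σ).fixingSubgroup := by
  rw [IntermediateField.mem_fixingSubgroup_iff]
  intro x hx
  exact τ.commutes ⟨x, hx⟩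

/-- The decomposition map `Gal(Ω_q/K_σ) →* G_L`, `τ ↦ σ⁻¹ r(τ) σ`. -/
noncomputable def decompHom : Gloc q L σ →* ↥L.fixingSubgroup :=
  ((conjLocal q σ).comp (glocToAbs q L σ)).codRestrict L.fixingSubgroup fun τ => by
    have h := glocToAbs_mem q L σ τ
    rw [← comap_conjLocal_fixingSubgroup] at h
    exact h

lemma coe_decompHom (τ : Gloc q L σ) :
    ((decompHom q L σ τ : ↥L.fixingSubgroup) : Γ) = conjLocal q σ (glocToAbs q L σ τ) := rfl

/-- `ι (σ (decompHom τ x)) = τ (ι (σ x))`. -/
lemma padicEmbedding_decompHom (τ : Gloc q L σ) (x : Qbar) :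
    padicEmbedding q (σ ((decompHom q L σ τ : Γ) x)) = τ (padicEmbedding q (σ x)) :=
  padicEmbedding_conjLocal q σ _ x

lemma decompHom_injective : Function.Injective (decompHom q L σ) := by
  intro τ τ' h
  have h1 : conjLocal q σ (glocToAbs q L σ τ) = conjLocal q σ (glocToAbs q L σ τ') :=
    congrArg Subtype.val h
  have h2 := conjLocal_injective q σ h1
  ext x
  exact congrArg (fun f : Gal(PadicAlgCl q/ℚ_[q]) => f x) h2

/-- The embedding `ℚ̄ → Ω_q` at the place `(q, σ)`. -/
noncomputable def embLoc : Qbar →+* PadicAlgCl q :=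
  (padicEmbedding q).toRingHom.comp (σ : Qbar →+* Qbar)

lemma embLoc_apply (x : Qbar) : embLoc q σ x = padicEmbedding q (σ x) := rfl

/-- `x ↦ ι_q (σ x)` on units, additively. -/
noncomputable def unitsLocAdd : Additive Qbarˣ →+ Additive (PadicAlgCl q)ˣ :=
  MonoidHom.toAdditive (Units.map (embLoc q σ : Qbar →* PadicAlgCl q))

lemma unitsLocAdd_apply (a : Additive Qbarˣ) :
    ((Additive.toMul (unitsLocAdd q σ a) : (PadicAlgCl q)ˣ) : PadicAlgCl q) =
      padicEmbedding q (σ ((Additive.toMul a : Qbarˣ) : Qbar)) := rfl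

/-- The localisation map on coefficients `ℚ̄^× → Ω_q^×`, equivariant along `decompHom`. -/
noncomputable def unitsLoc :
    Rep.res (decompHom q L σ) (Rep.res L.fixingSubgroup.subtype (unitsRep ℚ Qbar)) ⟶
      unitsRep (localFieldAt q L σ) (PadicAlgCl q) :=
  Rep.ofHom ⟨(unitsLocAdd q σ).toIntLinearMap, fun τ => by
    refine LinearMap.ext fun (a : Additive Qbarˣ) => ?_
    apply Additive.toMul.injective
    apply Units.ext
    exact padicEmbedding_decompHom q L σ τ ((Additive.toMul a : Qbarˣ) : Qbar)⟩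

/-! ### Refinement of the level structures -/

local instance isGaloisQbar_BL : IsGalois ℚ Qbar := Fermat.Agent.S55.Level.isGalois_Qbar

/-- The preimage under the decomposition map of (the trace on `G_L` of) an open subgroup of `Γ`
is open. -/
theorem isKrullOpen_comap_decompHom {U : Subgroup Γ} (hU : IsKrullOpen ℚ Qbar U) :
    IsKrullOpen (localFieldAt q L σ) (PadicAlgCl q)
      ((U.subgroupOf L.fixingSubgroup).comap (decompHom q L σ)) := by
  obtain ⟨E, hE, hEU⟩ := hU
  obtain ⟨β, rfl⟩ := Fermat.Agent.S55.LocalDict.exists_eq_adjoin_simple E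
  have hint : IsIntegral (localFieldAt q L σ) (embLoc q σ β) :=
    Algebra.IsIntegral.isIntegral _
  refine ⟨(localFieldAt q L σ)⟮embLoc q σ β⟯, IntermediateField.adjoin.finiteDimensional hint,
    fun τ hτ => ?_⟩
  rw [Subgroup.mem_comap, Subgroup.mem_subgroupOf]
  apply hEU
  rw [Fermat.Agent.S55.LocalDict.mem_fixingSubgroup_adjoin_iff]
  intro x hx
  rw [Set.mem_singleton_iff] at hx
  subst hx
  have h1 := (Fermat.Agent.S55.LocalDict.mem_fixingSubgroup_adjoin_iff _ τ).1 hτ
    (embLoc q σ x) (Set.mem_singleton _)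
  have h2 : embLoc q σ ((decompHom q L σ τ : Γ) x) = embLoc q σ x :=
    (padicEmbedding_decompHom q L σ τ x).trans h1
  exact (embLoc q σ).injective h2

/-- The Krull level structure of the local Galois group refines (the restriction to `G_L` of)
every level structure on `Γ` consisting of open subgroups. -/
theorem refines_decompHom (𝒰 : LevelStructure Γ) (h𝒰 : ∀ U ∈ 𝒰.sets, IsKrullOpen ℚ Qbar U) :
    (krullLevel (localFieldAt q L σ) (PadicAlgCl q)).Refines (𝒰.restrict L.fixingSubgroup)
      (decompHom q L σ) := by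
  rintro _ ⟨U, hU, rfl⟩
  have := 𝒰.normal U hU
  have hn : (U.subgroupOf L.fixingSubgroup).Normal := Subgroup.normal_subgroupOf
  exact ⟨_, ⟨hn.comap _, isKrullOpen_comap_decompHom q L σ (h𝒰 U hU)⟩, le_rfl⟩

/-- The members of `globalLevel S` are open. -/
theorem isKrullOpen_of_mem_globalLevel (S : Finset Nat.Primes) {U : Subgroup Γ}
    (hU : U ∈ (globalLevel S).sets) : IsKrullOpen ℚ Qbar U := by
  obtain ⟨_, F, hF, hFU⟩ := hU
  exact ⟨F, hF.1, hFU⟩

/-- The members of `krullLevel ℚ ℚ̄` are open. -/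
theorem isKrullOpen_of_mem_krullLevel {U : Subgroup Γ}
    (hU : U ∈ (krullLevel ℚ Qbar).sets) : IsKrullOpen ℚ Qbar U := hU.2

/-! ### The local Brauer group and the localisation maps -/

/-- The local Brauer group `H²(Gal(Ω_q/K_σ), Ω_q^×)` at the place `(q, σ)` of `L`. -/
noncomputable abbrev Br : ModuleCat ℤ :=
  levelCohomology (krullLevel (localFieldAt q L σ) (PadicAlgCl q))
    (unitsRep (localFieldAt q L σ) (PadicAlgCl q)) 2

section Res

variable {A : Rep.{0} ℤ Γ} (j : A ⟶ unitsRep ℚ Qbar) (𝒰 : LevelStructure Γ) [IsDiscrete 𝒰 A]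
  (h𝒰 : ∀ U ∈ 𝒰.sets, IsKrullOpen ℚ Qbar U)

/-- The restriction of a discrete `Γ`-module to `G_L`. -/
noncomputable abbrev resL (A : Rep.{0} ℤ Γ) : Rep.{0} ℤ ↥L.fixingSubgroup :=
  Rep.res L.fixingSubgroup.subtype A

instance isDiscrete_resL : IsDiscrete (𝒰.restrict L.fixingSubgroup) (resL L A) :=
  Fermat.Agent.S55.SmoothPart.isDiscrete_res_restrict 𝒰 A L.fixingSubgroup

/-- The coefficient map `A → ℚ̄^× → Ω_q^×` at the place `(q, σ)`, equivariant along
`decompHom`. -/
noncomputable def coeffLoc :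
    Rep.res (decompHom q L σ) (resL L A) ⟶ unitsRep (localFieldAt q L σ) (PadicAlgCl q) :=
  (Rep.resFunctor (decompHom q L σ)).map ((Rep.resFunctor L.fixingSubgroup.subtype).map j) ≫
    unitsLoc q L σ

lemma coeffLoc_hom_apply (a : A.V) :
    (coeffLoc q L σ j).hom a = unitsLocAdd q σ (j.hom a) := rfl

/-- **The localisation map** `Hⁿ(G_L, A) → Hⁿ(Gal(Ω_q/K_σ), Ω_q^×)` at the place `(q, σ)` of `L`,
for the level structure `𝒰` (restricted to `G_L`) on the global side. -/
noncomputable def resAt (n : ℕ) :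
    levelCohomology (𝒰.restrict L.fixingSubgroup) (resL L A) n ⟶
      levelCohomology (krullLevel (localFieldAt q L σ) (PadicAlgCl q))
        (unitsRep (localFieldAt q L σ) (PadicAlgCl q)) n :=
  levelCohomologyMap (decompHom q L σ) (refines_decompHom q L σ 𝒰 h𝒰) (coeffLoc q L σ j) n

end Res

/-! ### Change of level structure and of coefficients (inflation) -/

section Funct

variable {A A' : Rep.{0} ℤ Γ} (i : A ⟶ A') (j' : A' ⟶ unitsRep ℚ Qbar)
  (𝒰 𝒰' : LevelStructure Γ) [IsDiscrete 𝒰 A] [IsDiscrete 𝒰' A']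
  (h𝒰 : ∀ U ∈ 𝒰.sets, IsKrullOpen ℚ Qbar U) (h𝒰' : ∀ U ∈ 𝒰'.sets, IsKrullOpen ℚ Qbar U)
  (hle : ∀ U ∈ 𝒰.sets, ∃ U' ∈ 𝒰'.sets, U' ≤ U)

include hle in
/-- If `𝒰'` is finer than `𝒰` on `Γ`, the same holds for the restrictions to `G_L`. -/
theorem refines_id_restrict :
    (𝒰'.restrict L.fixingSubgroup).Refines (𝒰.restrict L.fixingSubgroup)
      (MonoidHom.id ↥L.fixingSubgroup) := by
  rintro _ ⟨U, hU, rfl⟩
  obtain ⟨U', hU', hUU'⟩ := hle U hU
  exact ⟨_, 𝒰'.mem_restrict_sets _ hU', fun x hx => hUU' hx⟩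

/-- Inflation `Hⁿ(G_L, A) → Hⁿ(G_L, A')` from the level structure `𝒰` to the finer level
structure `𝒰'` (e.g. from `G_{L,S}` to the absolute Galois group `G_L`) along `i : A ⟶ A'`. -/
noncomputable def inflL (n : ℕ) :
    levelCohomology (𝒰.restrict L.fixingSubgroup) (resL L A) n ⟶
      levelCohomology (𝒰'.restrict L.fixingSubgroup) (resL L A') n :=
  levelCohomologyMap (MonoidHom.id ↥L.fixingSubgroup) (refines_id_restrict L 𝒰 𝒰' hle)
    ((Rep.resFunctor L.fixingSubgroup.subtype).map i) n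

/-- **The localisation maps are compatible with inflation**: localising a class of
`Hⁿ(G_{L,S}, A)` is the same as inflating it to `Hⁿ(G_L, A')` and localising there. -/
theorem inflL_resAt (n : ℕ) :
    inflL L i 𝒰 𝒰' hle n ≫ resAt q L σ j' 𝒰' h𝒰' n = resAt q L σ (i ≫ j') 𝒰 h𝒰 n := by
  have h := levelCohomologyMap_comp (A := resL L A) (B := resL L A')
    (MonoidHom.id ↥L.fixingSubgroup) (decompHom q L σ)
    (refines_id_restrict L 𝒰 𝒰' hle) (refines_decompHom q L σ 𝒰' h𝒰')
    ((Rep.resFunctor L.fixingSubgroup.subtype).map i) (coeffLoc q L σ j') n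
  rw [inflL, resAt, ← h]
  exact levelCohomologyMap_congr (MonoidHom.id_comp _) _ _ _ _ (fun _ => rfl) n

end Funct

/-! ### The set of finite places of `L` -/

section Places

/-- Primes as `Fact`s (local to this file). -/
local instance factPrime_BL (q : Nat.Primes) : Fact (q : ℕ).Prime := ⟨q.2⟩

/-- The finite places of `L`: a prime `q` and a place of `L` over `q` (helper2's model). -/
def FinPlace : Type := Σ q : Nat.Primes, PlacesOver (q : ℕ) L

variable {L}

/-- The residue characteristic of a finite place. -/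
def FinPlace.prime (v : FinPlace L) : Nat.Primes := v.1

/-- The chosen representative `σ ∈ Γ` of a finite place (`x ↦ ‖ι_q (σ x)‖`). -/
noncomputable def FinPlace.rep (v : FinPlace L) : Γ := PlacesOver.rep (v.1 : ℕ) v.2

variable (L)

/-- The finite place of `L` defined by `(q, σ)`. -/
noncomputable def FinPlace.of (q : Nat.Primes) (σ : Γ) : FinPlace L := ⟨q, placeOf (q : ℕ) L σ⟩

/-- Every finite place is of the form `(q, σ)`. -/
theorem FinPlace.of_rep (v : FinPlace L) : FinPlace.of L v.prime v.rep = v := by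
  obtain ⟨q, w⟩ := v
  exact Sigma.ext rfl (heq_of_eq (placeOf_rep (q : ℕ) w))

/-- The set of places of `L` above a finite set of primes `S` is finite. -/
theorem finite_placesAbove [FiniteDimensional ℚ L] (S : Finset Nat.Primes) :
    {v : FinPlace L | v.prime ∈ S}.Finite := by
  classical
  have h : {v : FinPlace L | v.prime ∈ S} =
      ⋃ q ∈ S, Set.range (fun w : PlacesOver (q : ℕ) L => (⟨q, w⟩ : FinPlace L)) := by
    ext v
    obtain ⟨q, w⟩ := v
    constructor
    · intro hq
      exact Set.mem_biUnion (show q ∈ S from hq) ⟨w, rfl⟩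
    · intro hv
      obtain ⟨q', hq', w', h⟩ := Set.mem_iUnion₂.1 hv
      have : q' = q := congrArg Sigma.fst h
      exact this ▸ hq'
  rw [h]
  exact S.finite_toSet.biUnion fun q _ => Set.finite_range _

/-- The places of `L` above `S`, as a finset. -/
noncomputable def placesAbove [FiniteDimensional ℚ L] (S : Finset Nat.Primes) :
    Finset (FinPlace L) :=
  (finite_placesAbove L S).toFinset

@[simp] theorem mem_placesAbove [FiniteDimensional ℚ L] (S : Finset Nat.Primes)
    (v : FinPlace L) : v ∈ placesAbove L S ↔ v.prime ∈ S := by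
  simp [placesAbove]

/-- The local Brauer group at a finite place of `L` (at its chosen representative). -/
noncomputable abbrev BrP (v : FinPlace L) : ModuleCat ℤ := Br (v.prime : ℕ) L v.rep

/-- The localisation map at a finite place of `L` (at its chosen representative). -/
noncomputable def resP {A : Rep.{0} ℤ Γ} (j : A ⟶ unitsRep ℚ Qbar) (𝒰 : LevelStructure Γ)
    [IsDiscrete 𝒰 A] (h𝒰 : ∀ U ∈ 𝒰.sets, IsKrullOpen ℚ Qbar U) (v : FinPlace L) (n : ℕ) :
    levelCohomology (𝒰.restrict L.fixingSubgroup) (resL L A) n ⟶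
      levelCohomology (krullLevel (localFieldAt (v.prime : ℕ) L v.rep) (PadicAlgCl (v.prime : ℕ)))
        (unitsRep (localFieldAt (v.prime : ℕ) L v.rep) (PadicAlgCl (v.prime : ℕ))) n :=
  resAt (v.prime : ℕ) L v.rep j 𝒰 h𝒰 n

end Places

end Fermat.Agent.S55.GL.BrauerLocal
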