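/-
S55 (helper5, module layer for GLO11/GLO12/(A3),(A4)): the global Galois modules
`Q_Sˣ`, `E_S` (the `S`-units of `Q_S`), `P_S = Q_Sˣ / E_S` and `μ_p` as DISCRETE representations of
`Γ = Gal(ℚ̄/ℚ)` over `ℤ`, for the level structure `globalLevel S`.

* `QbarUnits : Rep ℤ Γ`      = `ℚ̄ˣ` (`= Rep.ofAlgebraAutOnUnits ℚ ℚ̄ = GaloisLevel.unitsRep ℚ ℚ̄`);
* `QSUnits S : Rep ℤ Γ`      = `smoothPart (globalLevel S) QbarUnits` (`= Q_Sˣ`), with
  `QSUnitsι S : QSUnits S ⟶ QbarUnits`, `QSUnits.val : QSUnits S → ℚ̄`,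
  `exists_eq_val_iff : (∃ a, a.val = x) ↔ x ≠ 0 ∧ ∃ F, F.IsUnramifiedOutside S ∧ x ∈ F`;
* `ESUnits S : Rep ℤ Γ`      = the sub-representation of `S`-units (helper17's `IsSUnit`),
  `ESUnitsι S : ESUnits S ⟶ QSUnits S`;
* `PSUnits S : Rep ℤ Γ`      = the quotient, `PSUnitsπ S : QSUnits S ⟶ PSUnits S`;
* `unitSeq S : ShortComplex (Rep ℤ Γ)` = `0 → E_S → Q_Sˣ → P_S → 0`, `unitSeq_shortExact`;
* `muP S p : Rep ℤ Γ`        = the `p`-torsion of `E_S` (`= μ_p` when `p ∈ S`),
  `muPι S p : muP S p ⟶ ESUnits S`;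
* `kummerSeq_shortExact` (`p ∈ S`): `0 → μ_p → E_S --p--> E_S → 0` is short exact.
All four modules are discrete for `globalLevel S` (instances).
-/
import Fermat.Agent.S55.SmoothPart
import Fermat.Agent.S55.LevelGlobal
import Fermat.Agent.S55.GL.KummerUnram
import Fermat.Agent.S55.CF.Kummer

set_option autoImplicit false
set_option linter.style.haveILetI false

open scoped Pointwise
open CategoryTheory IntermediateField

namespace Fermat.Agent.S55.GL.QSMod

open Fermat.Agent.S55.Level Fermat.Agent.S55.SmoothPart Fermat.Agent.S55.GL.KummerUnram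

local notation "Qbar" => AlgebraicClosure ℚ
local notation "Γ" => (AlgebraicClosure ℚ ≃ₐ[ℚ] AlgebraicClosure ℚ)

/-! ### Generic: sub- and quotient representations of a discrete representation are discrete -/

section Generic

universe u

variable {k G : Type u} [CommRing k] [Group G] (𝒰 : LevelStructure G) (A : Rep.{u} k G)
  [IsDiscrete 𝒰 A] (W : Submodule k A) (h : ∀ g, W ≤ W.comap (A.ρ g))

theorem isDiscrete_subrepresentation : IsDiscrete 𝒰 (A.subrepresentation W h) where
  exists_fix := by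
    rintro ⟨a, ha⟩
    obtain ⟨U, hU, hfix⟩ := IsDiscrete.exists_fix (𝒰 := 𝒰) a
    exact ⟨U, hU, fun u hu => Subtype.ext (hfix u hu)⟩

theorem isDiscrete_quotient : IsDiscrete 𝒰 (A.quotient W h) where
  exists_fix := by
    intro a
    obtain ⟨b, rfl⟩ := Submodule.mkQ_surjective W a
    obtain ⟨U, hU, hfix⟩ := IsDiscrete.exists_fix (𝒰 := 𝒰) b
    exact ⟨U, hU, fun u hu => congrArg (Submodule.mkQ W) (hfix u hu)⟩

end Generic

/-! ### Definitions -/

/-- `ℚ̄ˣ` as a representation of `Γ` over `ℤ` (on `Additive ℚ̄ˣ`). -/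
noncomputable abbrev QbarUnits : Rep ℤ Γ := Rep.ofAlgebraAutOnUnits ℚ Qbar

variable (S : Finset Nat.Primes)

/-- `Q_Sˣ`: the units of the maximal extension of `ℚ` unramified outside `S`, as a discrete
representation of `Γ`. -/
noncomputable def QSUnits : Rep ℤ Γ := smoothPart (globalLevel S) QbarUnits

instance isDiscrete_QSUnits : IsDiscrete (globalLevel S) (QSUnits S) :=
  isDiscrete_smoothPart (globalLevel S) QbarUnits

/-- The inclusion `Q_Sˣ ⟶ ℚ̄ˣ`. -/
noncomputable def QSUnitsι : QSUnits S ⟶ QbarUnits := smoothPartι (globalLevel S) QbarUnits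

/-- The algebraic number underlying an element of `ℚ̄ˣ`. -/
def QbarUnits.val (a : QbarUnits) : Qbar := ((Additive.toMul (show Additive Qbarˣ from a) : Qbarˣ) : Qbar)

lemma QbarUnits.val_add (a b : QbarUnits) :
    QbarUnits.val (a + b) = QbarUnits.val a * QbarUnits.val b := rfl

lemma QbarUnits.val_zero : QbarUnits.val (0 : QbarUnits) = 1 := rfl

lemma QbarUnits.val_zsmul (n : ℤ) (a : QbarUnits) :
    QbarUnits.val (n • a) = QbarUnits.val a ^ n := by
  show ((Additive.toMul (n • (show Additive Qbarˣ from a)) : Qbarˣ) : Qbar) = _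
  rw [toMul_zsmul, Units.val_zpow_eq_zpow_val]
  rfl

lemma QbarUnits.val_nsmul (n : ℕ) (a : QbarUnits) :
    QbarUnits.val (n • a) = QbarUnits.val a ^ n := by
  show ((Additive.toMul (n • (show Additive Qbarˣ from a)) : Qbarˣ) : Qbar) = _
  rw [toMul_nsmul, Units.val_pow_eq_pow_val]
  rfl

lemma QbarUnits.val_ne_zero (a : QbarUnits) : QbarUnits.val a ≠ 0 :=
  (Additive.toMul (show Additive Qbarˣ from a) : Qbarˣ).ne_zero

lemma QbarUnits.val_injective : Function.Injective QbarUnits.val :=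
  fun _ _ h => Units.ext h

lemma QbarUnits.val_ρ (g : Γ) (a : QbarUnits) :
    QbarUnits.val (QbarUnits.ρ g a) = g (QbarUnits.val a) := rfl

/-- The element of `ℚ̄ˣ` attached to a nonzero algebraic number. -/
noncomputable def QbarUnits.mk (x : Qbar) (hx : x ≠ 0) : QbarUnits :=
  show Additive Qbarˣ from Additive.ofMul (Units.mk0 x hx)

lemma QbarUnits.val_mk (x : Qbar) (hx : x ≠ 0) : QbarUnits.val (QbarUnits.mk x hx) = x := rfl

/-- The algebraic number underlying an element of `Q_Sˣ`. -/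
noncomputable def QSUnits.val (a : QSUnits S) : Qbar := QbarUnits.val ((QSUnitsι S).hom a)

/-- The `S`-units inside `Q_Sˣ`, as a submodule. -/
noncomputable def sUnitSubmodule : Submodule ℤ (QSUnits S) where
  carrier := {a | IsSUnit S (QSUnits.val S a)}
  add_mem' {a b} ha hb := by
    show IsSUnit S (QSUnits.val S (a + b))
    have : QSUnits.val S (a + b) = QSUnits.val S a * QSUnits.val S b := rfl
    rw [this]
    exact ha.mul hb
  zero_mem' := by
    show IsSUnit S (QSUnits.val S 0)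
    exact isSUnit_one
  smul_mem' n a ha := by
    show IsSUnit S (QSUnits.val S (n • a))
    have h1 : QSUnits.val S (n • a) = QSUnits.val S a ^ n := by
      unfold QSUnits.val
      rw [map_zsmul, QbarUnits.val_zsmul]
    rw [h1]
    rcases n with n | n
    · simpa using ha.pow n
    · rw [zpow_negSucc]
      exact (ha.pow (n + 1)).inv

/-- Galois conjugates of `S`-units are `S`-units. -/
theorem isSUnit_apply {S : Finset Nat.Primes} {x : Qbar} (hx : IsSUnit S x) (σ : Γ) :
    IsSUnit S (σ x) := by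
  intro q hq A hA
  have hB : (σ⁻¹ • A).LiesOverPrime (q : ℕ) := (liesOverPrime_smul_iff A σ⁻¹ _).mpr hA
  have h1 := hx q hq (σ⁻¹ • A) hB
  have hmem : x ∈ σ⁻¹ • A := mem_of_valuation_eq_one _ h1
  have hnon : x ∉ (σ⁻¹ • A).nonunits := not_mem_nonunits_of_valuation_eq_one _ h1
  apply valuation_eq_one_of_mem_of_not_mem_nonunits
  · have := (mem_smul_iff A σ⁻¹ x).mp hmem
    simpa [AlgEquiv.aut_inv] using this
  · intro h
    apply hnon
    rw [mem_nonunits_smul_iff]
    simpa [AlgEquiv.aut_inv] using h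

lemma QSUnits.val_ρ (g : Γ) (a : QSUnits S) :
    QSUnits.val S ((QSUnits S).ρ g a) = g (QSUnits.val S a) := by
  unfold QSUnits.val
  rw [Rep.hom_comm_apply, QbarUnits.val_ρ]

lemma sUnitSubmodule_le_comap (g : Γ) :
    sUnitSubmodule S ≤ (sUnitSubmodule S).comap ((QSUnits S).ρ g) := by
  intro a ha
  show IsSUnit S (QSUnits.val S ((QSUnits S).ρ g a))
  rw [QSUnits.val_ρ]
  exact isSUnit_apply ha g

/-- `E_S`: the `S`-units of `Q_S`, as a discrete representation of `Γ`. -/
noncomputable def ESUnits : Rep ℤ Γ :=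
  (QSUnits S).subrepresentation (sUnitSubmodule S) (sUnitSubmodule_le_comap S)

instance isDiscrete_ESUnits : IsDiscrete (globalLevel S) (ESUnits S) :=
  isDiscrete_subrepresentation (globalLevel S) (QSUnits S) _ _

/-- The inclusion `E_S ⟶ Q_Sˣ`. -/
noncomputable def ESUnitsι : ESUnits S ⟶ QSUnits S :=
  Rep.subtype (QSUnits S) (sUnitSubmodule S) (sUnitSubmodule_le_comap S)

/-- `P_S = Q_Sˣ / E_S` (the group of principal fractional `S`-ideals of `Q_S`). -/
noncomputable def PSUnits : Rep ℤ Γ :=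
  (QSUnits S).quotient (sUnitSubmodule S) (sUnitSubmodule_le_comap S)

instance isDiscrete_PSUnits : IsDiscrete (globalLevel S) (PSUnits S) :=
  isDiscrete_quotient (globalLevel S) (QSUnits S) _ _

/-- The projection `Q_Sˣ ⟶ P_S`. -/
noncomputable def PSUnitsπ : QSUnits S ⟶ PSUnits S :=
  Rep.mkQ (QSUnits S) (sUnitSubmodule S) (sUnitSubmodule_le_comap S)

/-- The short complex `E_S ⟶ Q_Sˣ ⟶ P_S`. -/
noncomputable def unitSeq : ShortComplex (Rep ℤ Γ) where
  X₁ := ESUnits S
  X₂ := QSUnits S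
  X₃ := PSUnits S
  f := ESUnitsι S
  g := PSUnitsπ S
  zero := by
    ext x
    exact (Submodule.Quotient.mk_eq_zero _).2 (show sUnitSubmodule S from x).2

instance isDiscrete_unitSeq_X₁ : IsDiscrete (globalLevel S) (unitSeq S).X₁ := isDiscrete_ESUnits S
instance isDiscrete_unitSeq_X₂ : IsDiscrete (globalLevel S) (unitSeq S).X₂ := isDiscrete_QSUnits S
instance isDiscrete_unitSeq_X₃ : IsDiscrete (globalLevel S) (unitSeq S).X₃ := isDiscrete_PSUnits S

/-- The algebraic number underlying an element of `E_S`. -/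
noncomputable def ESUnits.val (a : ESUnits S) : Qbar := QSUnits.val S ((ESUnitsι S).hom a)

/-- The `p`-torsion of `E_S`, as a submodule. -/
noncomputable def muSubmodule (p : ℕ) : Submodule ℤ (ESUnits S) where
  carrier := {a | p • a = 0}
  add_mem' {a b} ha hb := by
    show p • (a + b) = 0
    rw [smul_add, show p • a = 0 from ha, show p • b = 0 from hb, add_zero]
  zero_mem' := smul_zero p
  smul_mem' n a ha := by
    show p • (n • a) = 0
    rw [smul_comm, show p • a = 0 from ha, smul_zero]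

lemma muSubmodule_le_comap (p : ℕ) (g : Γ) :
    muSubmodule S p ≤ (muSubmodule S p).comap ((ESUnits S).ρ g) := by
  intro a ha
  show p • (ESUnits S).ρ g a = 0
  rw [← map_nsmul, show p • a = 0 from ha, map_zero]

/-- `μ_p` (the `p`-torsion of `E_S`), as a discrete representation of `Γ`. -/
noncomputable def muP (p : ℕ) : Rep ℤ Γ :=
  (ESUnits S).subrepresentation (muSubmodule S p) (muSubmodule_le_comap S p)

instance isDiscrete_muP (p : ℕ) : IsDiscrete (globalLevel S) (muP S p) :=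
  isDiscrete_subrepresentation (globalLevel S) (ESUnits S) _ _

/-- The inclusion `μ_p ⟶ E_S`. -/
noncomputable def muPι (p : ℕ) : muP S p ⟶ ESUnits S :=
  Rep.subtype (ESUnits S) (muSubmodule S p) (muSubmodule_le_comap S p)

lemma muPι_comp_nsmul (p : ℕ) : muPι S p ≫ (p • 𝟙 (ESUnits S)) = 0 := by
  ext x
  exact (show muSubmodule S p from x).2

/-- The Kummer short complex `μ_p ⟶ E_S --p--> E_S`. -/
noncomputable def kummerSeq (p : ℕ) : ShortComplex (Rep ℤ Γ) :=
  ShortComplex.mk (muPι S p) (p • 𝟙 (ESUnits S)) (muPι_comp_nsmul S p)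

instance isDiscrete_kummerSeq_X₁ (p : ℕ) : IsDiscrete (globalLevel S) (kummerSeq S p).X₁ :=
  isDiscrete_muP S p
instance isDiscrete_kummerSeq_X₂ (p : ℕ) : IsDiscrete (globalLevel S) (kummerSeq S p).X₂ :=
  isDiscrete_ESUnits S
instance isDiscrete_kummerSeq_X₃ (p : ℕ) : IsDiscrete (globalLevel S) (kummerSeq S p).X₃ :=
  isDiscrete_ESUnits S

/-! ### Part 2: theorems -/

section Theorems

local instance isAlgClosureQbar_QSMod : IsAlgClosure ℚ (AlgebraicClosure ℚ) :=
  ⟨inferInstance, AlgebraicClosure.isAlgebraic ℚ⟩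
local instance isGaloisQbar_QSMod : IsGalois ℚ (AlgebraicClosure ℚ) := inferInstance

/-- **The short exact sequence `0 → E_S → Q_Sˣ → P_S → 0`.** -/
theorem unitSeq_shortExact : (unitSeq S).ShortExact := by
  refine Fermat.Agent.S55.CF.rep_shortExact_of _ ?_ ?_ ?_
  · intro x y h
    exact Subtype.ext h
  · exact Submodule.mkQ_surjective _
  · intro b hb
    exact ⟨⟨b, (Submodule.Quotient.mk_eq_zero _).1 hb⟩, rfl⟩

/-! #### Elements of `Q_Sˣ` -/

lemma QSUnits.val_add (a b : QSUnits S) :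
    QSUnits.val S (a + b) = QSUnits.val S a * QSUnits.val S b := by
  unfold QSUnits.val
  rw [map_add, QbarUnits.val_add]

lemma QSUnits.val_zero : QSUnits.val S 0 = 1 := by
  unfold QSUnits.val
  rw [map_zero, QbarUnits.val_zero]

lemma QSUnits.val_nsmul (n : ℕ) (a : QSUnits S) :
    QSUnits.val S (n • a) = QSUnits.val S a ^ n := by
  unfold QSUnits.val
  rw [map_nsmul, QbarUnits.val_nsmul]

lemma QSUnits.val_zsmul (n : ℤ) (a : QSUnits S) :
    QSUnits.val S (n • a) = QSUnits.val S a ^ n := by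
  unfold QSUnits.val
  rw [map_zsmul, QbarUnits.val_zsmul]

lemma QSUnits.val_ne_zero (a : QSUnits S) : QSUnits.val S a ≠ 0 := QbarUnits.val_ne_zero _

lemma QSUnits.val_injective : Function.Injective (QSUnits.val S) := fun _ _ h =>
  smoothPartι_injective (globalLevel S) QbarUnits (QbarUnits.val_injective h)

/-- A nonzero element of a field unramified outside `S` is fixed by a member of `globalLevel S`. -/
lemma mem_smoothSubmodule_of_mem {x : Qbar} (hx : x ≠ 0) {F : IntermediateField ℚ Qbar}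
    (hF : F.IsUnramifiedOutside S) (hxF : x ∈ F) :
    QbarUnits.mk x hx ∈ smoothSubmodule (globalLevel S) QbarUnits := by
  refine ⟨F.fixingSubgroup.normalCore, normalCore_mem_globalLevel S hF, fun u hu => ?_⟩
  apply QbarUnits.val_injective
  rw [QbarUnits.val_ρ, QbarUnits.val_mk]
  exact (IntermediateField.mem_fixingSubgroup_iff F u).1 (Subgroup.normalCore_le _ hu) x hxF

/-- The element of `Q_Sˣ` attached to a nonzero element of a field unramified outside `S`. -/
noncomputable def QSUnits.mk (x : Qbar) (hx : x ≠ 0) {F : IntermediateField ℚ Qbar}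
    (hF : F.IsUnramifiedOutside S) (hxF : x ∈ F) : QSUnits S :=
  (⟨QbarUnits.mk x hx, mem_smoothSubmodule_of_mem S hx hF hxF⟩ :
    smoothSubmodule (globalLevel S) QbarUnits)

lemma QSUnits.val_mk (x : Qbar) (hx : x ≠ 0) {F : IntermediateField ℚ Qbar}
    (hF : F.IsUnramifiedOutside S) (hxF : x ∈ F) :
    QSUnits.val S (QSUnits.mk S x hx hF hxF) = x := rfl

/-- Every element of `Q_Sˣ` lies in a finite extension of `ℚ` unramified outside `S`
(which may be taken normal). -/
lemma QSUnits.exists_mem (a : QSUnits S) :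
    ∃ F : IntermediateField ℚ Qbar, F.IsUnramifiedOutside S ∧ Normal ℚ F ∧
      QSUnits.val S a ∈ F := by
  obtain ⟨U, hU, hfix⟩ := (show smoothSubmodule (globalLevel S) QbarUnits from a).2
  obtain ⟨F, hF, hn, rfl⟩ := Fermat.Agent.S55.LevelGlobal.exists_eq_fixingSubgroup hU
  refine ⟨F, hF, hn, ?_⟩
  rw [← InfiniteGalois.fixedField_fixingSubgroup F, IntermediateField.mem_fixedField_iff]
  intro u hu
  have := congrArg QbarUnits.val (hfix u hu)
  rw [QbarUnits.val_ρ] at this
  exact this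

/-- **`Q_Sˣ` is the group of nonzero elements of the fields unramified outside `S`.** -/
theorem exists_val_eq_iff (x : Qbar) :
    (∃ a : QSUnits S, QSUnits.val S a = x) ↔
      x ≠ 0 ∧ ∃ F : IntermediateField ℚ Qbar, F.IsUnramifiedOutside S ∧ x ∈ F := by
  constructor
  · rintro ⟨a, rfl⟩
    obtain ⟨F, hF, -, hx⟩ := QSUnits.exists_mem S a
    exact ⟨QSUnits.val_ne_zero S a, F, hF, hx⟩
  · rintro ⟨hx, F, hF, hxF⟩
    exact ⟨QSUnits.mk S x hx hF hxF, rfl⟩

/-! #### Elements of `E_S` -/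

lemma ESUnits.val_add (a b : ESUnits S) :
    ESUnits.val S (a + b) = ESUnits.val S a * ESUnits.val S b := by
  unfold ESUnits.val
  rw [map_add, QSUnits.val_add]

lemma ESUnits.val_zero : ESUnits.val S 0 = 1 := by
  unfold ESUnits.val
  rw [map_zero, QSUnits.val_zero]

lemma ESUnits.val_nsmul (n : ℕ) (a : ESUnits S) :
    ESUnits.val S (n • a) = ESUnits.val S a ^ n := by
  unfold ESUnits.val
  rw [map_nsmul, QSUnits.val_nsmul]

lemma ESUnits.val_ρ (g : Γ) (a : ESUnits S) :
    ESUnits.val S ((ESUnits S).ρ g a) = g (ESUnits.val S a) := by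
  unfold ESUnits.val
  rw [Rep.hom_comm_apply, QSUnits.val_ρ]

lemma ESUnits.val_injective : Function.Injective (ESUnits.val S) := fun _ _ h =>
  Subtype.ext (QSUnits.val_injective S h)

lemma ESUnits.isSUnit_val (a : ESUnits S) : IsSUnit S (ESUnits.val S a) :=
  (show sUnitSubmodule S from a).2

/-- The element of `E_S` attached to an `S`-unit of a field unramified outside `S`. -/
noncomputable def ESUnits.mk (x : Qbar) (hx : x ≠ 0) {F : IntermediateField ℚ Qbar}
    (hF : F.IsUnramifiedOutside S) (hxF : x ∈ F) (hu : IsSUnit S x) : ESUnits S :=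
  (⟨QSUnits.mk S x hx hF hxF, hu⟩ : sUnitSubmodule S)

lemma ESUnits.val_mk (x : Qbar) (hx : x ≠ 0) {F : IntermediateField ℚ Qbar}
    (hF : F.IsUnramifiedOutside S) (hxF : x ∈ F) (hu : IsSUnit S x) :
    ESUnits.val S (ESUnits.mk S x hx hF hxF hu) = x := rfl

/-- The image of `E_S ⟶ Q_Sˣ`. -/
theorem exists_ESUnitsι_eq_iff (b : QSUnits S) :
    (∃ a : ESUnits S, (ESUnitsι S).hom a = b) ↔ IsSUnit S (QSUnits.val S b) :=
  ⟨by rintro ⟨a, rfl⟩; exact ESUnits.isSUnit_val S a, fun h => ⟨(⟨b, h⟩ : sUnitSubmodule S), rfl⟩⟩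

/-- **`E_S` is `p`-divisible for `p ∈ S`** (helper17's Kummer ramification criterion). -/
theorem ESUnits.exists_nsmul_eq {p : ℕ} (hp : p.Prime) (hpS : (⟨p, hp⟩ : Nat.Primes) ∈ S)
    (e : ESUnits S) : ∃ e' : ESUnits S, p • e' = e := by
  obtain ⟨F, hF, -, hxF⟩ := QSUnits.exists_mem S ((ESUnitsι S).hom e)
  have hu := ESUnits.isSUnit_val S e
  set x : Qbar := ESUnits.val S e with hxdef
  have hx0 : x ≠ 0 := QSUnits.val_ne_zero S _
  obtain ⟨α, hα⟩ := IsAlgClosed.exists_pow_nat_eq x hp.pos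
  have hα0 : α ≠ 0 := by
    rintro rfl
    rw [zero_pow hp.ne_zero] at hα
    exact hx0 hα.symm
  have hα' : α ^ (p ^ 1) = x := by rw [pow_one]; exact hα
  have hFα : (F ⊔ ℚ⟮α⟯).IsUnramifiedOutside S :=
    isUnramifiedOutside_sup_adjoin_root_of_isSUnit hp hpS hF hxF hu 1 hα'
  have hαmem : α ∈ F ⊔ ℚ⟮α⟯ :=
    (le_sup_right : ℚ⟮α⟯ ≤ F ⊔ ℚ⟮α⟯) (IntermediateField.mem_adjoin_simple_self ℚ α)
  refine ⟨ESUnits.mk S α hα0 hFα hαmem (isSUnit_root hu hp.ne_zero hα), ?_⟩
  apply ESUnits.val_injective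
  rw [ESUnits.val_nsmul, ESUnits.val_mk]
  exact hα

/-- **The Kummer sequence `0 → μ_p → E_S --p--> E_S → 0` is short exact for `p ∈ S`.** -/
theorem kummerSeq_shortExact {p : ℕ} (hp : p.Prime) (hpS : (⟨p, hp⟩ : Nat.Primes) ∈ S) :
    (kummerSeq S p).ShortExact :=
  Fermat.Agent.S55.CF.kummer_shortExact_of (muPι S p) p
    (fun _ _ h => Subtype.ext h) (fun e he => ⟨(⟨e, he⟩ : muSubmodule S p), rfl⟩)
    (ESUnits.exists_nsmul_eq S hp hpS) (muPι_comp_nsmul S p)

/-- The algebraic number underlying an element of `μ_p`. -/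
noncomputable def muP.val (p : ℕ) (z : muP S p) : Qbar := ESUnits.val S ((muPι S p).hom z)

lemma muP.val_pow (p : ℕ) (z : muP S p) : muP.val S p z ^ p = 1 := by
  unfold muP.val
  have hz : p • (muPι S p).hom z = 0 := (show muSubmodule S p from z).2
  rw [← ESUnits.val_nsmul, hz, ESUnits.val_zero]

lemma muP.val_injective (p : ℕ) : Function.Injective (muP.val S p) := fun _ _ h =>
  Subtype.ext (ESUnits.val_injective S h)

lemma muP.val_ρ (p : ℕ) (g : Γ) (z : muP S p) :
    muP.val S p ((muP S p).ρ g z) = g (muP.val S p z) := by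
  unfold muP.val
  rw [Rep.hom_comm_apply, ESUnits.val_ρ]

lemma muP.val_add (p : ℕ) (z w : muP S p) :
    muP.val S p (z + w) = muP.val S p z * muP.val S p w := by
  unfold muP.val
  rw [map_add, ESUnits.val_add]

/-- A `p`-th root of unity is an `S`-unit. -/
lemma isSUnit_of_pow_eq_one {ζ : Qbar} {n : ℕ} (hn : n ≠ 0) (hζ : ζ ^ n = 1) : IsSUnit S ζ :=
  isSUnit_root (isSUnit_one (S := S)) hn hζ

/-- Every `p`-th root of unity of `ℚ̄` is in `μ_p` when `p ∈ S`. -/
theorem muP.exists_val_eq {p : ℕ} (hp : p.Prime) (hpS : (⟨p, hp⟩ : Nat.Primes) ∈ S) {ζ : Qbar}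
    (hζ : ζ ^ p = 1) : ∃ z : muP S p, muP.val S p z = ζ := by
  have hζ0 : ζ ≠ 0 := by
    rintro rfl
    rw [zero_pow hp.ne_zero] at hζ
    exact zero_ne_one hζ
  have hF : (ℚ⟮ζ⟯).IsUnramifiedOutside S :=
    isUnramifiedOutside_adjoin_rootOfUnity hp hpS 1 (by rw [pow_one]; exact hζ)
  let e : ESUnits S := ESUnits.mk S ζ hζ0 hF (IntermediateField.mem_adjoin_simple_self ℚ ζ)
    (isSUnit_of_pow_eq_one S hp.ne_zero hζ)
  have he : p • e = 0 := by
    apply ESUnits.val_injective
    rw [ESUnits.val_nsmul, ESUnits.val_zero]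
    exact hζ
  exact ⟨(⟨e, he⟩ : muSubmodule S p), rfl⟩

end Theorems

end Fermat.Agent.S55.GL.QSMod
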