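/-
S55 / GLO12 (instantiation, part 2): ARITH-L (b), (c) over `G_{L,S}` from the concrete inputs.

`L ⊆ ℚ̄` a number field, `S` a finite set of primes, `p ∈ S`; `G_{L,S}` is `G_L = L.fixingSubgroup`
with the level structure `(globalLevel S).restrict G_L`; coefficient modules `E_S ⊆ ℚ_S^×`, `μ_p`
of `QSUnits.lean` (helper5), restricted to `G_L`; local data of `BrauerLocal.lean` at the finite
places of `L`; local class formations `F v` (LOC5) as a parameter.

* `BrauerInput p S L F`: the six arithmetic inputs (R), (HS), (EX), (U1), (U2), (U3) in concrete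
  form — the statements the owners of GLO9c / GLO8 / GLO11 / GLO12b have to supply;
* `BrauerInput.core`: they give `CF.BrauerCore` for `G_{L,S}`;
* `locμ`, `kappa`: the localisation maps of `μ_p` and the local Kummer maps, `kappa_injective`
  (local Hilbert 90), `kappa_locμ` (naturality);
* `BrauerInput.locμ_eq_zero_iff`, `BrauerInput.card_sha2_le` (ARITH-L (b)),
  `BrauerInput.exists_locμ_eq_iff` (ARITH-L (c)).
-/
import Fermat.Agent.S55.GL.BrauerLocal
import Fermat.Agent.S55.GL.QSUnits
import Fermat.Agent.S55.CF.BrauerCore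
import Fermat.Agent.S55.Local.LocalInv

set_option autoImplicit false
set_option linter.unusedSectionVars false

open CategoryTheory IntermediateField

namespace Fermat.Agent.S55.GL.BrauerInst

open Fermat.Agent.S55.Level Fermat.Agent.S55.GaloisLevel Fermat.Agent.S55.GL.Places
  Fermat.Agent.S55.LevelTransport Fermat.Agent.S55.GL.BrauerLocal Fermat.Agent.S55.GL.QSMod
  Fermat.Agent.S55.CF Fermat.Agent.S55.CFAbs

local notation "Qbar" => AlgebraicClosure ℚ
local notation "Γ" => (AlgebraicClosure ℚ ≃ₐ[ℚ] AlgebraicClosure ℚ)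

/-! ### Generic complements to `BrauerLocal` -/

section Generic

universe u

/-- Restriction of representations preserves short exact sequences. -/
theorem shortExact_map_resFunctor {k G H : Type u} [CommRing k] [Group G] [Group H] (f : H →* G)
    {X : ShortComplex (Rep.{u} k G)} (hX : X.ShortExact) :
    (X.map (Rep.resFunctor f)).ShortExact := by
  have h1 : Function.Injective X.f.hom := (Rep.mono_iff_injective _).1 hX.mono_f
  have h2 : Function.Surjective X.g.hom := (Rep.epi_iff_surjective _).1 hX.epi_g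
  have h3 := (rep_exact_iff X).1 hX.exact
  exact rep_shortExact_of _ h1 h2 h3

/-- Restriction along a refining homomorphism preserves discreteness. -/
theorem isDiscrete_res_of_refines {k G H : Type u} [CommRing k] [Group G] [Group H]
    {𝒰 : LevelStructure G} {𝒱 : LevelStructure H} (f : H →* G) (hf : 𝒱.Refines 𝒰 f)
    (A : Rep.{u} k G) [IsDiscrete 𝒰 A] : IsDiscrete 𝒱 (Rep.res f A) := ⟨fun a => by
  obtain ⟨U, hU, h⟩ := IsDiscrete.exists_fix (𝒰 := 𝒰) (A := A) a
  obtain ⟨V, hV, hVU⟩ := hf U hU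
  exact ⟨V, hV, fun v hv => h (f v) (hVU hv)⟩⟩

end Generic

section Loc

variable (q : ℕ) [Fact q.Prime] (L : IntermediateField ℚ Qbar) (σ : Γ)

local instance isGaloisQbar_BI : IsGalois ℚ Qbar := Fermat.Agent.S55.Level.isGalois_Qbar

variable (A : Rep.{0} ℤ Γ) (𝒰 : LevelStructure Γ) [IsDiscrete 𝒰 A]
  (h𝒰 : ∀ U ∈ 𝒰.sets, IsKrullOpen ℚ Qbar U)

/-- The restriction of `A` to the local Galois group at the place `(q, σ)` of `L`. -/
noncomputable abbrev resLoc : Rep.{0} ℤ (Gloc q L σ) := Rep.res (decompHom q L σ) (resL L A)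

include h𝒰 in
theorem isDiscrete_resLoc :
    IsDiscrete (krullLevel (localFieldAt q L σ) (PadicAlgCl q)) (resLoc q L σ A) :=
  isDiscrete_res_of_refines (decompHom q L σ) (refines_decompHom q L σ 𝒰 h𝒰) (resL L A)

variable {A} in
/-- Naturality of `resAt` in the coefficients. -/
theorem Hmap_resAt {A' : Rep.{0} ℤ Γ} [IsDiscrete 𝒰 A'] (i : A ⟶ A')
    (j' : A' ⟶ unitsRep ℚ Qbar) (n : ℕ) :
    Hmap (𝒰.restrict L.fixingSubgroup) ((Rep.resFunctor L.fixingSubgroup.subtype).map i) n ≫
        resAt q L σ j' 𝒰 h𝒰 n = resAt q L σ (i ≫ j') 𝒰 h𝒰 n :=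
  inflL_resAt q L σ i j' 𝒰 𝒰 h𝒰 h𝒰 (fun U hU => ⟨U, hU, le_rfl⟩) n

variable [IsDiscrete (krullLevel (localFieldAt q L σ) (PadicAlgCl q)) (resLoc q L σ A)]

/-- The localisation map `Hⁿ(G_L, A) → Hⁿ(Gal(Ω_q/K_σ), A)` with coefficients in `A` itself. -/
noncomputable def locAt (n : ℕ) :
    levelCohomology (𝒰.restrict L.fixingSubgroup) (resL L A) n ⟶
      levelCohomology (krullLevel (localFieldAt q L σ) (PadicAlgCl q)) (resLoc q L σ A) n :=
  levelCohomologyMap (decompHom q L σ) (refines_decompHom q L σ 𝒰 h𝒰) (𝟙 _) n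

variable {A}

/-- `resAt = (coefficient map) ∘ locAt`. -/
theorem locAt_Hmap_coeffLoc (j : A ⟶ unitsRep ℚ Qbar) (n : ℕ) :
    locAt q L σ A 𝒰 h𝒰 n ≫
        Hmap (krullLevel (localFieldAt q L σ) (PadicAlgCl q)) (coeffLoc q L σ j) n =
      resAt q L σ j 𝒰 h𝒰 n := by
  have h := levelCohomologyMap_comp (A := resL L A) (B := resLoc q L σ A)
    (C := unitsRep (localFieldAt q L σ) (PadicAlgCl q))
    (decompHom q L σ) (MonoidHom.id (Gloc q L σ))
    (refines_decompHom q L σ 𝒰 h𝒰) (krullLevel (localFieldAt q L σ) (PadicAlgCl q)).refines_id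
    (𝟙 _) (coeffLoc q L σ j) n
  rw [locAt, resAt]
  refine Eq.trans ?_ (h.symm.trans ?_)
  · rfl
  · exact levelCohomologyMap_congr (MonoidHom.comp_id _) _ _ _ _ (fun _ => rfl) n

end Loc

/-! ### The concrete objects over `G_{L,S}` -/

section Concrete

local instance isGaloisQbar_BI' : IsGalois ℚ Qbar := Fermat.Agent.S55.Level.isGalois_Qbar
local instance factPrime_BI (q : Nat.Primes) : Fact (q : ℕ).Prime := ⟨q.2⟩

variable (p : ℕ) (S : Finset Nat.Primes) (L : IntermediateField ℚ Qbar)

/-- The members of `globalLevel S` are open (explicit-binder form). -/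
theorem open_globalLevel : ∀ U ∈ (globalLevel S).sets, IsKrullOpen ℚ Qbar U :=
  fun _ hU => isKrullOpen_of_mem_globalLevel S hU

/-- The level structure of `G_{L,S}` on `G_L`. -/
noncomputable abbrev levelLS : LevelStructure ↥L.fixingSubgroup :=
  (globalLevel S).restrict L.fixingSubgroup

/-- `E_S → ℚ_S^×` over `G_L`. -/
noncomputable abbrev fL : resL L (ESUnits S) ⟶ resL L (QSUnits S) :=
  (Rep.resFunctor L.fixingSubgroup.subtype).map (ESUnitsι S)

/-- `μ_p → E_S` over `G_L`. -/
noncomputable abbrev ιL : resL L (muP S p) ⟶ resL L (ESUnits S) :=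
  (Rep.resFunctor L.fixingSubgroup.subtype).map (muPι S p)

lemma ιL_comp_nsmul : ιL p S L ≫ (p • 𝟙 (resL L (ESUnits S))) = 0 := by
  have h := congrArg (fun φ => (Rep.resFunctor L.fixingSubgroup.subtype).map φ)
    (muPι_comp_nsmul S p)
  refine Rep.hom_ext ?_
  have h' := congrArg Rep.Hom.hom h
  exact h'

/-- The Kummer sequence over `G_L`. -/
theorem kummerL_shortExact (hp : p.Prime) (hpS : (⟨p, hp⟩ : Nat.Primes) ∈ S) :
    (ShortComplex.mk (ιL p S L) (p • 𝟙 (resL L (ESUnits S))) (ιL_comp_nsmul p S L)).ShortExact := by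
  have hK := kummerSeq_shortExact S hp hpS
  have h1 : Function.Injective (muPι S p).hom := (Rep.mono_iff_injective _).1 hK.mono_f
  have h3 := (rep_exact_iff (kummerSeq S p)).1 hK.exact
  have h2 : Function.Surjective ((kummerSeq S p).g.hom) := (Rep.epi_iff_surjective _).1 hK.epi_g
  refine kummer_shortExact_of (ιL p S L) p h1 (fun e he => ?_) (fun e => ?_) _
  · refine h3 e ?_
    show (p • 𝟙 (ESUnits S) : ESUnits S ⟶ ESUnits S).hom e = 0
    rw [nsmul_id_hom_apply]
    exact he
  · obtain ⟨e', he'⟩ := h2 e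
    refine ⟨e', ?_⟩
    rw [← he']
    exact (nsmul_id_hom_apply (E := ESUnits S) p e').symm

/-- The coefficient map `μ_p → ℚ̄^×`. -/
noncomputable abbrev jμ : muP S p ⟶ unitsRep ℚ Qbar := muPι S p ≫ ESUnitsι S ≫ QSUnitsι S

variable (v : FinPlace L)

/-- The local field at a finite place. -/
noncomputable abbrev Kv : IntermediateField ℚ_[(v.prime : ℕ)] (PadicAlgCl (v.prime : ℕ)) :=
  localFieldAt (v.prime : ℕ) L v.rep

/-- The Krull level structure of the local Galois group at a finite place. -/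
noncomputable abbrev levelv : LevelStructure (Gloc (v.prime : ℕ) L v.rep) :=
  krullLevel (Kv L v) (PadicAlgCl (v.prime : ℕ))

/-- `μ_p` over the local Galois group at a finite place. -/
noncomputable abbrev muv : Rep.{0} ℤ (Gloc (v.prime : ℕ) L v.rep) :=
  resLoc (v.prime : ℕ) L v.rep (muP S p)

instance isDiscrete_muv : IsDiscrete (levelv L v) (muv p S L v) :=
  isDiscrete_resLoc (v.prime : ℕ) L v.rep (muP S p) (globalLevel S) (open_globalLevel S)

/-- The local Kummer embedding `μ_p → Ω_q^×` at a finite place. -/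
noncomputable abbrev ιv : muv p S L v ⟶ unitsRep (Kv L v) (PadicAlgCl (v.prime : ℕ)) :=
  coeffLoc (v.prime : ℕ) L v.rep (jμ p S)

/-- The element of `Ω_q` underlying an element of `Ω_q^×` (as a module). -/
def valΩ (a : (unitsRep (Kv L v) (PadicAlgCl (v.prime : ℕ))).V) : PadicAlgCl (v.prime : ℕ) :=
  ((Additive.toMul (show Additive (PadicAlgCl (v.prime : ℕ))ˣ from a) :
    (PadicAlgCl (v.prime : ℕ))ˣ) : PadicAlgCl (v.prime : ℕ))

lemma valΩ_injective : Function.Injective (valΩ L v) := fun _ _ h =>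
  Additive.toMul.injective (Units.ext h)

lemma valΩ_nsmul (n : ℕ) (a : (unitsRep (Kv L v) (PadicAlgCl (v.prime : ℕ))).V) :
    valΩ L v (n • a) = valΩ L v a ^ n := rfl

lemma valΩ_ιv (z : muP S p) :
    valΩ L v ((ιv p S L v).hom z) = embLoc (v.prime : ℕ) v.rep (muP.val S p z) := rfl

lemma ιv_comp_nsmul :
    ιv p S L v ≫ (p • 𝟙 (unitsRep (Kv L v) (PadicAlgCl (v.prime : ℕ)))) = 0 := by
  refine kummer_zero_of (ιv p S L v) p fun z => ?_
  have hz : p • (muPι S p).hom z = 0 := (show muSubmodule S p from z).2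
  have hinj : Function.Injective (muPι S p).hom := fun _ _ h => Subtype.ext h
  apply hinj
  rw [map_nsmul, hz, map_zero]

/-- **The local Kummer sequence** `0 → μ_p → Ω_q^× --p--> Ω_q^× → 0` at a finite place of `L`
(`μ_p` = the global `μ_p ⊆ ℚ̄^×`, embedded through the place). -/
theorem kummerv_shortExact (hp : p.Prime) (hpS : (⟨p, hp⟩ : Nat.Primes) ∈ S) :
    (ShortComplex.mk (ιv p S L v) (p • 𝟙 (unitsRep (Kv L v) (PadicAlgCl (v.prime : ℕ))))
      (ιv_comp_nsmul p S L v)).ShortExact := by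
  have : Fact p.Prime := ⟨hp⟩
  refine kummer_shortExact_of (ιv p S L v) p ?_ ?_ ?_ _
  · -- injectivity
    intro z z' h
    apply muP.val_injective S p
    apply (embLoc (v.prime : ℕ) v.rep).injective
    rw [← valΩ_ιv p S L v z, ← valΩ_ιv p S L v z', h]
  · -- the kernel of `p` is the image of `μ_p`
    intro e he
    obtain ⟨ζ, hζ⟩ := Fermat.Agent.S55.DualTwist.exists_primitiveRoot p
    have hξ : IsPrimitiveRoot (embLoc (v.prime : ℕ) v.rep ζ) p :=
      hζ.map_of_injective (embLoc (v.prime : ℕ) v.rep).injective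
    have hx : valΩ L v e ^ p = 1 := by
      rw [← valΩ_nsmul, he]
      rfl
    obtain ⟨i, _, hi⟩ := hξ.eq_pow_of_pow_eq_one hx
    have hζi : (ζ ^ i) ^ p = 1 := by rw [← pow_mul, mul_comm, pow_mul, hζ.pow_eq_one, one_pow]
    obtain ⟨z, hz⟩ := muP.exists_val_eq S hp hpS hζi
    refine ⟨z, valΩ_injective L v ?_⟩
    rw [valΩ_ιv, hz, map_pow, hi]
  · -- `Ω_q^×` is `p`-divisible
    exact Fermat.Agent.S55.Local.Tate.unitsRep_divisible p hp.ne_zero
      (fun x => IsAlgClosed.exists_pow_nat_eq x hp.pos)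

/-- The local Brauer group at a finite place of `L`, as a type. -/
noncomputable abbrev BrT : Type := ↥(BrP L v)

/-- The localisation map `H²(G_{L,S}, ℚ_S^×) → Br(L_v)`. -/
noncomputable def resQ :
    levelCohomology (levelLS S L) (resL L (QSUnits S)) 2 →+ BrT L v :=
  (resP L (QSUnitsι S) (globalLevel S) (open_globalLevel S) v 2).hom.toAddMonoidHom

/-- `H²(L_v, μ_p)`. -/
noncomputable abbrev H2μv : Type := ↥(levelCohomology (levelv L v) (muv p S L v) 2)

/-- The localisation map `H²(G_{L,S}, μ_p) → H²(L_v, μ_p)`. -/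
noncomputable def locμ :
    levelCohomology (levelLS S L) (resL L (muP S p)) 2 →+ H2μv p S L v :=
  (locAt (v.prime : ℕ) L v.rep (muP S p) (globalLevel S) (open_globalLevel S) 2).hom.toAddMonoidHom

/-- The local Kummer map `H²(L_v, μ_p) → Br(L_v)`. -/
noncomputable def kappa : H2μv p S L v →+ BrT L v :=
  (Hmap (levelv L v) (ιv p S L v) 2).hom.toAddMonoidHom

/-- `κ_v` is injective (local Hilbert 90). -/
theorem kappa_injective (hp : p.Prime) (hpS : (⟨p, hp⟩ : Nat.Primes) ∈ S) :
    Function.Injective (kappa p S L v) :=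
  haveI : NeZero p := ⟨hp.ne_zero⟩
  Fermat.Agent.S55.Local.LocalInv.Hmap_two_injective (kummerv_shortExact p S L v hp hpS)

/-- `H²(L_v, μ_p)` is killed by `p`. -/
theorem nsmul_H2μv (hp : p.Prime) (hpS : (⟨p, hp⟩ : Nat.Primes) ∈ S) (a : H2μv p S L v) :
    p • a = 0 :=
  nsmul_levelCohomology_eq_zero (levelv L v) (kummerv_shortExact p S L v hp hpS) 2 a

/-- **Naturality**: `κ_v ∘ loc_v = res_v ∘ f_* ∘ ι_*` on `H²(G_{L,S}, μ_p)`. -/
theorem kappa_locμ (c : levelCohomology (levelLS S L) (resL L (muP S p)) 2) :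
    kappa p S L v (locμ p S L v c) =
      resQ S L v ((Hmap (levelLS S L) (fL S L) 2).hom ((Hmap (levelLS S L) (ιL p S L) 2).hom c)) := by
  have h1 := locAt_Hmap_coeffLoc (v.prime : ℕ) L v.rep (globalLevel S) (open_globalLevel S)
    (jμ p S) 2
  have h2 := Hmap_resAt (v.prime : ℕ) L v.rep (globalLevel S) (open_globalLevel S)
    (ESUnitsι S) (QSUnitsι S) 2
  have h3 := Hmap_resAt (v.prime : ℕ) L v.rep (globalLevel S) (open_globalLevel S)
    (muPι S p) (ESUnitsι S ≫ QSUnitsι S) 2
  have e1 := congrArg (fun ψ => ψ.hom c) h1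
  have e3 := congrArg (fun ψ => ψ.hom c) h3
  have e2 := congrArg (fun ψ => ψ.hom ((Hmap (levelLS S L) (ιL p S L) 2).hom c)) h2
  exact e1.trans (e3.symm.trans e2.symm)

end Concrete

/-! ### The arithmetic inputs and ARITH-L (b), (c) over `G_{L,S}` -/

section Main

local instance isGaloisQbar_BI'' : IsGalois ℚ Qbar := Fermat.Agent.S55.Level.isGalois_Qbar
local instance factPrime_BI' (q : Nat.Primes) : Fact (q : ℕ).Prime := ⟨q.2⟩

variable (p : ℕ) (S : Finset Nat.Primes) (L : IntermediateField ℚ Qbar)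
  (F : ∀ v : FinPlace L, Formation (levelv L v) (unitsRep (Kv L v) (PadicAlgCl (v.prime : ℕ))))

/-- **The arithmetic inputs of ARITH-L (b), (c)** over `G_{L,S}`, in concrete form: reciprocity
(R), the Hasse principle (HS) and existence (EX) for `p`-primary classes of
`H²(G_{L,S}, ℚ_S^×)`, and the unit sequence (U1)–(U3) relating `H²(G_{L,S}, E_S)(p)` to the
classes which are locally trivial outside `S` (`(U2)`, `(U3)` up to integers prime to `p`). -/
structure BrauerInput : Prop where
  recip : ∀ y : levelCohomology (levelLS S L) (resL L (QSUnits S)) 2, IsPPrim p y →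
    ∃ T : Finset (FinPlace L), (∀ v, v ∉ T → resQ S L v y = 0) ∧
      ∑ v ∈ T, (F v).inv (resQ S L v y) = 0
  hasse : ∀ y : levelCohomology (levelLS S L) (resL L (QSUnits S)) 2, IsPPrim p y →
    (∀ v, resQ S L v y = 0) → y = 0
  exist : ∀ (T : Finset (FinPlace L)) (x : ∀ v, BrT L v), (∀ v, v ∉ T → x v = 0) →
    (∀ v, IsPPrim p (x v)) → ∑ v ∈ T, (F v).inv (x v) = 0 →
    ∃ y : levelCohomology (levelLS S L) (resL L (QSUnits S)) 2, IsPPrim p y ∧
      ∀ v, resQ S L v y = x v
  unit_res : ∀ v : FinPlace L, v.prime ∉ S →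
    ∀ e : levelCohomology (levelLS S L) (resL L (ESUnits S)) 2, IsPPrim p e →
      resQ S L v ((Hmap (levelLS S L) (fL S L) 2).hom e) = 0
  unit_lift : ∀ y : levelCohomology (levelLS S L) (resL L (QSUnits S)) 2, IsPPrim p y →
    (∀ v : FinPlace L, v.prime ∉ S → resQ S L v y = 0) →
    ∃ (m : ℕ) (e : levelCohomology (levelLS S L) (resL L (ESUnits S)) 2),
      m.Coprime p ∧ (Hmap (levelLS S L) (fL S L) 2).hom e = m • y
  unit_ker : ∀ e : levelCohomology (levelLS S L) (resL L (ESUnits S)) 2, IsPPrim p e →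
    (Hmap (levelLS S L) (fL S L) 2).hom e = 0 → IsPTrivElt p e

variable {p S L F} [FiniteDimensional ℚ L]

/-- The concrete inputs give the abstract `BrauerCore` for `G_{L,S}`. -/
theorem BrauerInput.core [Fact p.Prime] (H : BrauerInput p S L F) :
    BrauerCore (levelLS S L) p (fL S L) (placesAbove L S) (resQ S L) (fun v => (F v).inv) :=
  BrauerCore.mk' H.recip H.hasse H.exist
    (fun v hv e he => H.unit_res v (fun h => hv ((mem_placesAbove L S v).2 h)) e he)
    (fun y hy hyS => H.unit_lift y hy fun v hv =>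
      hyS v (fun h => hv ((mem_placesAbove L S v).1 h)))
    H.unit_ker

variable (hp : p.Prime) (hpS : (⟨p, hp⟩ : Nat.Primes) ∈ S)

include hp hpS

/-- **ARITH-L (b)** over `G_{L,S}`: a class of `H²(G_{L,S}, μ_p)` is locally trivial at the places
of `L` above `S` iff it is the Kummer boundary of a class of `H¹(G_{L,S}, E_S)`. -/
theorem BrauerInput.locμ_eq_zero_iff (H : BrauerInput p S L F)
    (c : levelCohomology (levelLS S L) (resL L (muP S p)) 2) :
    (∀ v, v ∈ placesAbove L S → locμ p S L v c = 0) ↔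
      ∃ a : levelCohomology (levelLS S L) (resL L (ESUnits S)) 1,
        (kummerδ (levelLS S L) (kummerL_shortExact p S L hp hpS) 1).hom a = c :=
  haveI : Fact p.Prime := ⟨hp⟩
  H.core.locμ_eq_zero_iff_exists_kummerδ (kummerL_shortExact p S L hp hpS) (locμ p S L)
    (kappa p S L) (fun v _ => kappa_injective p S L v hp hpS)
    (fun v _ c => kappa_locμ p S L v c) c

/-- **ARITH-L (b), counting form**: if `H¹(G_{L,S}, E_S)` embeds into a finite abelian group `C`
(`C = Cl_S(L)`), then `Ш²_S(L, μ_p)` has at most `|C / pC|` elements. -/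
theorem BrauerInput.card_sha2_le (H : BrauerInput p S L F) {C : Type*} [AddCommGroup C]
    [Finite C] (φ : levelCohomology (levelLS S L) (resL L (ESUnits S)) 1 →+ C)
    (hφ : Function.Injective φ) :
    Nat.card (BrauerCore.kerLocμ (S := placesAbove L S) (locμ p S L)) ≤
      Nat.card (C ⧸ (nsmulAddMonoidHom p : C →+ C).range) :=
  haveI : Fact p.Prime := ⟨hp⟩
  H.core.card_kerLocμ_le (kummerL_shortExact p S L hp hpS) (locμ p S L)
    (kappa p S L) (fun v _ => kappa_injective p S L v hp hpS)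
    (fun v _ c => kappa_locμ p S L v c) φ hφ

/-- **ARITH-L (c)** over `G_{L,S}`: a family of local classes `x v ∈ H²(L_v, μ_p)`, `v | S`, is
the localisation of a class of `H²(G_{L,S}, μ_p)` iff the sum of the invariants of its images in
the local Brauer groups vanishes. -/
theorem BrauerInput.exists_locμ_eq_iff (H : BrauerInput p S L F) (x : ∀ v, H2μv p S L v) :
    (∃ c : levelCohomology (levelLS S L) (resL L (muP S p)) 2,
        ∀ v, v ∈ placesAbove L S → locμ p S L v c = x v) ↔
      ∑ v ∈ placesAbove L S, (F v).inv (kappa p S L v (x v)) = 0 :=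
  haveI : Fact p.Prime := ⟨hp⟩
  H.core.exists_locμ_eq_iff (kummerL_shortExact p S L hp hpS) (locμ p S L)
    (kappa p S L) (fun v _ => kappa_injective p S L v hp hpS)
    (fun v _ c => kappa_locμ p S L v c) (fun v a => nsmul_H2μv p S L v hp hpS a) x

end Main

end Fermat.Agent.S55.GL.BrauerInst
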