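/-
S55 / final assembly: RECIPROCITY OVER `ℚ` in the frozen types (`hrec` of
`TraceGlue.result_of_inv`).

For `y ∈ H²(G_S, 𝔽_p(χ_cyc))` the sum of the local invariants
`invPrime q hζ (Fq q) (loc_q y)`, `q ∈ S`, vanishes.  The arithmetic input is the global
reciprocity law for the field `L = ⊥` (i.e. `ℚ`) in the shape delivered by `BrauerInst`
(`BrauerInput.exists_locμ_eq_iff`); everything here is the dictionary

* `𝔽_p(χ_cyc) ≅ μ_p ⊆ ℚ̄^×` (choice of `ζ`), `ZMod p`-coefficients vs `ℤ`-coefficients;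
* `G_ℚ` vs `G_⊥ = (⊥ : IntermediateField ℚ ℚ̄).fixingSubgroup`;
* the unique place of `⊥` over `q` and its (arbitrary) representative `σ`: conjugation acts
  trivially on cohomology;
* `Br(ℚ_q) → Br(K_v)` (`bcMap`) for the local field `K_v` of `⊥` at the place.

Main results: `resAt_toL_toMu` (the key functoriality, for ALL `L` and `σ`), `hrec_of_sum`,
`hrec_of_brauerInput`.
-/
import Fermat.Agent.S55.GL.BrauerInst
import Fermat.Agent.S55.Local.LocalInv
import Fermat.Agent.S55.LevelConj
import Fermat.Agent.S55.LevelScalars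
import Fermat.Agent.S55.GaloisLevelBC
import Fermat.Agent.S55.AssemblyMain

set_option autoImplicit false
set_option linter.unusedSectionVars false

open CategoryTheory IntermediateField

namespace Fermat.Agent.S55.GL.RecipQ

open Fermat.Agent.S55.Level Fermat.Agent.S55.GaloisLevel Fermat.Agent.S55.GL.Places
  Fermat.Agent.S55.LevelTransport Fermat.Agent.S55.GL.BrauerLocal Fermat.Agent.S55.GL.QSMod
  Fermat.Agent.S55.GL.BrauerInst Fermat.Agent.S55.CF Fermat.Agent.S55.CFAbs
  Fermat.Agent.S55.LevelScalars Fermat.Agent.S55.DualTwist Fermat.Agent.S55.Local.LocalInv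
  ExtCitation groupCohomology

local notation "Qbar" => AlgebraicClosure ℚ
local notation "Γ" => (AlgebraicClosure ℚ ≃ₐ[ℚ] AlgebraicClosure ℚ)

local instance isGaloisQbar_RQ : IsGalois ℚ Qbar := Fermat.Agent.S55.Level.isGalois_Qbar

/-! ### The global Kummer map `𝔽_p(χ_cyc) ≅ μ_p` -/

section ZetaGlob

variable {p : ℕ} [hpF : Fact p.Prime] (S : Finset Nat.Primes)
  (hpS : (⟨p, hpF.out⟩ : Nat.Primes) ∈ S) {ζ : Qbar} (hζ : IsPrimitiveRoot ζ p)

/-- The element of `μ_p` with value `ζ ^ a`. -/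
noncomputable def zetaElt (a : ZMod p) : muP S p :=
  Classical.choose (muP.exists_val_eq S hpF.out hpS (zetaPow_pow_eq_one hζ.pow_eq_one a))

lemma val_zetaElt (a : ZMod p) : muP.val S p (zetaElt S hpS hζ a) = zetaPow p ζ a :=
  Classical.choose_spec (muP.exists_val_eq S hpF.out hpS (zetaPow_pow_eq_one hζ.pow_eq_one a))

/-- `a ↦ ζ ^ a` as an additive map `ZMod p →+ μ_p`. -/
noncomputable def zetaEltHom : ZMod p →+ muP S p where
  toFun := zetaElt S hpS hζ
  map_zero' := by
    apply muP.val_injective S p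
    rw [val_zetaElt, zetaPow_zero]
    unfold muP.val
    rw [map_zero, ESUnits.val_zero]
  map_add' a b := by
    apply muP.val_injective S p
    rw [muP.val_add, val_zetaElt, val_zetaElt, val_zetaElt, zetaPow_add hζ.pow_eq_one]

lemma val_zetaEltHom (a : ZMod p) : muP.val S p (zetaEltHom S hpS hζ a) = zetaPow p ζ a :=
  val_zetaElt S hpS hζ a

/-- **The global Kummer map** `𝔽_p(χ_cyc) ⟶ μ_p`, `a ↦ ζ ^ a`, of `ℤ[Γ]`-modules. -/
noncomputable def zetaGlob :
    toIntRep (ofChar (k := ZMod p) (cycloChar p)) ⟶ muP S p :=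
  Rep.ofHom ⟨(zetaEltHom S hpS hζ).toIntLinearMap, fun g => by
    refine LinearMap.ext fun (a : ZMod p) => ?_
    apply muP.val_injective S p
    show muP.val S p (zetaEltHom S hpS hζ (((cycloChar p g : (ZMod p)ˣ) : ZMod p) * a)) =
      muP.val S p ((muP S p).ρ g (zetaEltHom S hpS hζ a))
    rw [muP.val_ρ, val_zetaEltHom, val_zetaEltHom, apply_zetaPow hζ.pow_eq_one]⟩

lemma val_zetaGlob (a : ZMod p) :
    muP.val S p ((zetaGlob S hpS hζ).hom a) = zetaPow p ζ a :=
  val_zetaElt S hpS hζ a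

end ZetaGlob

/-! ### The key functoriality -/

section Key

variable {p : ℕ} [hpF : Fact p.Prime] (S : Finset Nat.Primes)
  (hpS : (⟨p, hpF.out⟩ : Nat.Primes) ∈ S) {ζ : Qbar} (hζ : IsPrimitiveRoot ζ p)
  [IsDiscrete (globalLevel S) (ofChar (k := ZMod p) (cycloChar p))]

/-- `Hⁿ(G_S, 𝔽_p(χ_cyc)) → Hⁿ(G_S, μ_p)`: change of scalars and the global Kummer map. -/
noncomputable def toMu (n : ℕ) :
    levelCohomology (globalLevel S) (ofChar (k := ZMod p) (cycloChar p)) n →+
      levelCohomology (globalLevel S) (muP S p) n :=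
  (Hmap (globalLevel S) (zetaGlob S hpS hζ) n).hom.toAddMonoidHom.comp
    (levelCohomologyIntEquiv (ofChar (k := ZMod p) (cycloChar p))
      (globalLevel S) n).symm.toAddMonoidHom

lemma toMu_apply (n : ℕ)
    (y : levelCohomology (globalLevel S) (ofChar (k := ZMod p) (cycloChar p)) n) :
    toMu S hpS hζ n y = (Hmap (globalLevel S) (zetaGlob S hpS hζ) n).hom
      ((levelCohomologyIntEquiv (ofChar (k := ZMod p) (cycloChar p)) (globalLevel S) n).symm y) :=
  rfl

variable (L : IntermediateField ℚ Qbar)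

/-- Restriction `Hⁿ(G_S, μ_p) → Hⁿ(G_{L,S}, μ_p)`. -/
noncomputable def toL (n : ℕ) :
    levelCohomology (globalLevel S) (muP S p) n ⟶
      levelCohomology (levelLS S L) (resL L (muP S p)) n :=
  levelCohomologyMap L.fixingSubgroup.subtype
    ((globalLevel S).restrict_refines L.fixingSubgroup) (𝟙 _) n

variable (q : ℕ) [Fact q.Prime] (σ : Γ)

/-- The group homomorphism `Gal(Ω_q/K_σ) → Γ`, `τ ↦ σ⁻¹ r(τ) σ`. -/
noncomputable def fLoc : Gloc q L σ →* Γ := L.fixingSubgroup.subtype.comp (decompHom q L σ)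

lemma fLoc_apply (τ : Gloc q L σ) :
    fLoc L q σ τ = σ⁻¹ * localGaloisToGlobal q (glocToAbs q L σ τ) * σ := by
  show ((decompHom q L σ τ : ↥L.fixingSubgroup) : Γ) = _
  rw [coe_decompHom, conjLocal_apply]

/-- The group homomorphism `Gal(Ω_q/K_σ) → Γ`, `τ ↦ r(τ)`. -/
noncomputable def gLoc : Gloc q L σ →* Γ := (localGaloisToGlobal q).comp (glocToAbs q L σ)

lemma refines_fLoc :
    (krullLevel (localFieldAt q L σ) (PadicAlgCl q)).Refines (globalLevel S) (fLoc L q σ) :=
  refines_comp ((globalLevel S).restrict_refines L.fixingSubgroup)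
    (refines_decompHom q L σ (globalLevel S) (open_globalLevel S))

lemma refines_localGaloisToGlobal :
    (krullLevel ℚ_[q] (PadicAlgCl q)).Refines (globalLevel S) (localGaloisToGlobal q) := by
  rw [← Fermat.Agent.S55.Local.KrullLocal.localLevel_eq_krullLevel q]
  exact localLevel_refines (localGaloisToGlobal q) S

lemma refines_gLoc :
    (krullLevel (localFieldAt q L σ) (PadicAlgCl q)).Refines (globalLevel S) (gLoc L q σ) :=
  refines_comp (refines_localGaloisToGlobal S q)
    (refines_restrictScalarsHom ℚ_[q] (localFieldAt q L σ) (PadicAlgCl q))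

/-- The coefficient map of the left hand side: `a ↦ ι_q (σ (ζ ^ a))`. -/
noncomputable def phiLoc :
    Rep.res (fLoc L q σ) (toIntRep (ofChar (k := ZMod p) (cycloChar p))) ⟶
      unitsRep (localFieldAt q L σ) (PadicAlgCl q) :=
  (Rep.resFunctor (fLoc L q σ)).map (zetaGlob S hpS hζ) ≫ coeffLoc q L σ (jμ p S)

/-- The coefficient map of the right hand side: `a ↦ (ι_q ζ) ^ a`. -/
noncomputable def psiLoc :
    Rep.res (gLoc L q σ) (toIntRep (ofChar (k := ZMod p) (cycloChar p))) ⟶
      unitsRep (localFieldAt q L σ) (PadicAlgCl q) :=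
  (Rep.resFunctor (glocToAbs q L σ)).map (zetaMap q hζ) ≫
    unitsRes ℚ_[q] (localFieldAt q L σ) (PadicAlgCl q)

/-- The element of `Ω_q` underlying an element of the module `Ω_q^×`. -/
def uval (a : Additive (PadicAlgCl q)ˣ) : PadicAlgCl q :=
  ((Additive.toMul a : (PadicAlgCl q)ˣ) : PadicAlgCl q)

lemma uval_injective : Function.Injective (uval q) := fun _ _ h =>
  Additive.toMul.injective (Units.ext h)

lemma uval_phiLoc (a : ZMod p) :
    uval q ((phiLoc S hpS hζ L q σ).hom a) = padicEmbedding q (σ (zetaPow p ζ a)) := by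
  have h : uval q ((phiLoc S hpS hζ L q σ).hom a) =
      padicEmbedding q (σ (muP.val S p ((zetaGlob S hpS hζ).hom a))) := rfl
  rw [h, val_zetaGlob]

lemma uval_psiLoc (a : ZMod p) :
    uval q ((psiLoc hζ L q σ).hom a) = padicEmbedding q (zetaPow p ζ a) := by
  have h : (psiLoc hζ L q σ).hom a = zetaHom q hζ a := rfl
  rw [h]
  have h2 : zetaHom q hζ a = Additive.ofMul (zetaUnit q hζ ^ a.val) := by
    conv_lhs => rw [← ZMod.natCast_zmod_val a]
    exact zetaHom_natCast q hζ a.val
  rw [h2]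
  show ((zetaUnit q hζ ^ a.val : (PadicAlgCl q)ˣ) : PadicAlgCl q) = _
  rw [Units.val_pow_eq_pow_val, coe_zetaUnit, zetaPow, map_pow]

lemma phiLoc_eq_psiLoc (a : ZMod p) :
    (phiLoc S hpS hζ L q σ).hom a =
      (psiLoc hζ L q σ).hom ((((cycloChar p σ : (ZMod p)ˣ) : ZMod p) * a : ZMod p)) := by
  apply uval_injective q
  rw [uval_phiLoc, uval_psiLoc, apply_zetaPow hζ.pow_eq_one]

/-- **Conjugation step**: the data `(σ⁻¹ r(·) σ, a ↦ ι_q (σ ζ^a))` and `(r(·), a ↦ (ι_q ζ)^a)` induce
the same map `Hⁿ(G_S, 𝔽_p(χ_cyc)) → Hⁿ(Gal(Ω_q/K_σ), Ω_q^×)`. -/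
theorem levelCohomologyMap_fLoc_eq_gLoc (n : ℕ) :
    levelCohomologyMap (fLoc L q σ) (refines_fLoc S L q σ) (phiLoc S hpS hζ L q σ) n =
      levelCohomologyMap (gLoc L q σ) (refines_gLoc S L q σ) (psiLoc hζ L q σ) n :=
  levelCohomologyMap_eq_of_conj σ⁻¹ (gLoc L q σ) (refines_gLoc S L q σ) (fLoc L q σ)
    (refines_fLoc S L q σ)
    (fun x => by rw [fLoc_apply, inv_inv]; rfl)
    (psiLoc hζ L q σ) (phiLoc S hpS hζ L q σ)
    (fun a => by rw [inv_inv]; exact phiLoc_eq_psiLoc S hpS hζ L q σ a) n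

/-- The left hand side as ONE change-of-group map. -/
theorem resAt_toL_toMu_eq
    (y : levelCohomology (globalLevel S) (ofChar (k := ZMod p) (cycloChar p)) 2) :
    (resAt q L σ (jμ p S) (globalLevel S) (open_globalLevel S) 2).hom
        ((toL S L 2).hom (toMu S hpS hζ 2 y)) =
      (levelCohomologyMap (fLoc L q σ) (refines_fLoc S L q σ) (phiLoc S hpS hζ L q σ) 2).hom
        ((levelCohomologyIntEquiv (ofChar (k := ZMod p) (cycloChar p))
          (globalLevel S) 2).symm y) := by
  rw [toMu_apply]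
  set y' := (levelCohomologyIntEquiv (ofChar (k := ZMod p) (cycloChar p))
    (globalLevel S) 2).symm y with hy'
  have h1 := levelCohomologyMap_comp_eq_apply (MonoidHom.id Γ) (globalLevel S).refines_id
    (zetaGlob S hpS hζ) L.fixingSubgroup.subtype
    ((globalLevel S).restrict_refines L.fixingSubgroup) (𝟙 (resL L (muP S p)))
    L.fixingSubgroup.subtype ((globalLevel S).restrict_refines L.fixingSubgroup)
    ((Rep.resFunctor L.fixingSubgroup.subtype).map (zetaGlob S hpS hζ))
    (fun _ => rfl) (fun _ => rfl) 2 y'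
  have h2 := levelCohomologyMap_comp_eq_apply L.fixingSubgroup.subtype
    ((globalLevel S).restrict_refines L.fixingSubgroup)
    ((Rep.resFunctor L.fixingSubgroup.subtype).map (zetaGlob S hpS hζ))
    (decompHom q L σ) (refines_decompHom q L σ (globalLevel S) (open_globalLevel S))
    (coeffLoc q L σ (jμ p S)) (fLoc L q σ) (refines_fLoc S L q σ) (phiLoc S hpS hζ L q σ)
    (fun _ => rfl) (fun _ => rfl) 2 y'
  rw [← h2, ← h1]
  rfl

variable [IsDiscrete (localLevel (localGaloisToGlobal q)) (localMu p q)]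

/-- The local Kummer map over `ℚ_q`, as a coefficient map along `localGaloisToGlobal q`. -/
noncomputable def zetaQ :
    Rep.res (localGaloisToGlobal q) (toIntRep (ofChar (k := ZMod p) (cycloChar p))) ⟶
      unitsRep ℚ_[q] (PadicAlgCl q) :=
  zetaMap q hζ

/-- The right hand side as ONE change-of-group map. -/
theorem bcMap_locBr_eq
    (y : levelCohomology (globalLevel S) (ofChar (k := ZMod p) (cycloChar p)) 2) :
    (bcMap ℚ_[q] (localFieldAt q L σ) (PadicAlgCl q) 2).hom
        (locBr q hζ ((levelCohomologyMap (localGaloisToGlobal q)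
          (localLevel_refines (localGaloisToGlobal q) S)
          (𝟙 (Rep.res (localGaloisToGlobal q) (ofChar (k := ZMod p) (cycloChar p)))) 2).hom y)) =
      (levelCohomologyMap (gLoc L q σ) (refines_gLoc S L q σ) (psiLoc hζ L q σ) 2).hom
        ((levelCohomologyIntEquiv (ofChar (k := ZMod p) (cycloChar p))
          (globalLevel S) 2).symm y) := by
  set y' := (levelCohomologyIntEquiv (ofChar (k := ZMod p) (cycloChar p))
    (globalLevel S) 2).symm y with hy'
  have hy : levelCohomologyIntEquiv (ofChar (k := ZMod p) (cycloChar p)) (globalLevel S) 2 y' = y :=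
    AddEquiv.apply_symm_apply _ y
  -- scalars commute with localisation
  have hint : (levelCohomologyIntEquiv (localMu p q) (localLevel (localGaloisToGlobal q)) 2).symm
      ((levelCohomologyMap (localGaloisToGlobal q)
        (localLevel_refines (localGaloisToGlobal q) S)
        (𝟙 (Rep.res (localGaloisToGlobal q) (ofChar (k := ZMod p) (cycloChar p)))) 2).hom y) =
      (levelCohomologyMap (localGaloisToGlobal q)
        (localLevel_refines (localGaloisToGlobal q) S)
        (toIntRepResMap (localGaloisToGlobal q)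
          (𝟙 (Rep.res (localGaloisToGlobal q) (ofChar (k := ZMod p) (cycloChar p))))) 2).hom y' := by
    rw [AddEquiv.symm_apply_eq]
    rw [levelCohomologyIntEquiv_map, hy]
  rw [locBr_apply]
  have hk : toKrull (p := p) q 2 ((levelCohomologyMap (localGaloisToGlobal q)
        (localLevel_refines (localGaloisToGlobal q) S)
        (𝟙 (Rep.res (localGaloisToGlobal q) (ofChar (k := ZMod p) (cycloChar p)))) 2).hom y) =
      (levelCohomologyMap (MonoidHom.id _)
        (refines_id_of_sets_eq (congrArg LevelStructure.sets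
          (Fermat.Agent.S55.Local.KrullLocal.localLevel_eq_krullLevel q)))
        (𝟙 (toIntRep (localMu p q))) 2).hom
        ((levelCohomologyMap (localGaloisToGlobal q)
          (localLevel_refines (localGaloisToGlobal q) S)
          (toIntRepResMap (localGaloisToGlobal q)
            (𝟙 (Rep.res (localGaloisToGlobal q) (ofChar (k := ZMod p) (cycloChar p))))) 2).hom y') := by
    rw [← hint]
    rfl
  rw [hk]
  have m1 := levelCohomologyMap_comp_eq_apply (localGaloisToGlobal q)
    (localLevel_refines (localGaloisToGlobal q) S)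
    (toIntRepResMap (localGaloisToGlobal q)
      (𝟙 (Rep.res (localGaloisToGlobal q) (ofChar (k := ZMod p) (cycloChar p)))))
    (MonoidHom.id _)
    (refines_id_of_sets_eq (congrArg LevelStructure.sets
      (Fermat.Agent.S55.Local.KrullLocal.localLevel_eq_krullLevel q)))
    (𝟙 (toIntRep (localMu p q)))
    (localGaloisToGlobal q) (refines_localGaloisToGlobal S q)
    (toIntRepResMap (localGaloisToGlobal q)
      (𝟙 (Rep.res (localGaloisToGlobal q) (ofChar (k := ZMod p) (cycloChar p)))))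
    (fun _ => rfl) (fun _ => rfl) 2 y'
  rw [m1]
  have m2 := levelCohomologyMap_comp_eq_apply (localGaloisToGlobal q)
    (refines_localGaloisToGlobal S q)
    (toIntRepResMap (localGaloisToGlobal q)
      (𝟙 (Rep.res (localGaloisToGlobal q) (ofChar (k := ZMod p) (cycloChar p)))))
    (MonoidHom.id _) (krullLevel ℚ_[q] (PadicAlgCl q)).refines_id (zetaMap q hζ)
    (localGaloisToGlobal q) (refines_localGaloisToGlobal S q) (zetaQ hζ q)
    (fun _ => rfl) (fun _ => rfl) 2 y'
  have m3 := levelCohomologyMap_comp_eq_apply (localGaloisToGlobal q)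
    (refines_localGaloisToGlobal S q) (zetaQ hζ q)
    (AlgEquiv.restrictScalarsHom ℚ_[q])
    (refines_restrictScalarsHom ℚ_[q] (localFieldAt q L σ) (PadicAlgCl q))
    (unitsRes ℚ_[q] (localFieldAt q L σ) (PadicAlgCl q))
    (gLoc L q σ) (refines_gLoc S L q σ) (psiLoc hζ L q σ)
    (fun _ => rfl) (fun _ => rfl) 2 y'
  rw [← m3, ← m2]
  rfl

/-- **The key functoriality** (all `L`, all `σ`): localising the image in `H²(G_{L,S}, μ_p)` of a
class `y ∈ H²(G_S, 𝔽_p(χ_cyc))` at the place `(q, σ)` of `L` into `Br(K_σ)` is the same as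
localising `y` at `q` over `ℚ`, mapping to `Br(ℚ_q)` by the local Kummer map and restricting to
`Br(K_σ)`. -/
theorem resAt_toL_toMu
    (y : levelCohomology (globalLevel S) (ofChar (k := ZMod p) (cycloChar p)) 2) :
    (resAt q L σ (jμ p S) (globalLevel S) (open_globalLevel S) 2).hom
        ((toL S L 2).hom (toMu S hpS hζ 2 y)) =
      (bcMap ℚ_[q] (localFieldAt q L σ) (PadicAlgCl q) 2).hom
        (locBr q hζ ((levelCohomologyMap (localGaloisToGlobal q)
          (localLevel_refines (localGaloisToGlobal q) S)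
          (𝟙 (Rep.res (localGaloisToGlobal q) (ofChar (k := ZMod p) (cycloChar p)))) 2).hom y)) := by
  rw [resAt_toL_toMu_eq, bcMap_locBr_eq, levelCohomologyMap_fLoc_eq_gLoc]

end Key

/-! ### The places of `ℚ = ⊥` -/

section Bot

local instance factPrime_RQ (q : Nat.Primes) : Fact (q : ℕ).Prime := ⟨q.2⟩

/-- `ℚ` has exactly one place over `q`. -/
theorem placesOver_bot_eq (q : ℕ) [Fact q.Prime]
    (w w' : PlacesOver q (⊥ : IntermediateField ℚ Qbar)) : w = w' := by
  obtain ⟨σ, rfl⟩ := placeOf_surjective q ⊥ w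
  obtain ⟨σ', rfl⟩ := placeOf_surjective q ⊥ w'
  rw [placeOf_eq_iff]
  intro x hx
  obtain ⟨r, rfl⟩ := IntermediateField.mem_bot.1 hx
  rw [absAt_apply, absAt_apply, AlgEquiv.commutes, AlgEquiv.commutes]

/-- The place of `ℚ` over `q`. -/
noncomputable def botPlace (q : Nat.Primes) : FinPlace (⊥ : IntermediateField ℚ Qbar) :=
  ⟨q, placeOf (q : ℕ) ⊥ 1⟩

lemma botPlace_prime (q : Nat.Primes) : (botPlace q).prime = q := rfl

lemma eq_botPlace (v : FinPlace (⊥ : IntermediateField ℚ Qbar)) : v = botPlace v.prime := by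
  obtain ⟨q, w⟩ := v
  exact Sigma.ext rfl (heq_of_eq (placesOver_bot_eq (q : ℕ) _ _))

/-- Sums over the places of `ℚ` above `S` are sums over `S`. -/
theorem sum_placesAbove_bot {M : Type*} [AddCommMonoid M] (S : Finset Nat.Primes)
    (g : FinPlace (⊥ : IntermediateField ℚ Qbar) → M) :
    ∑ v ∈ placesAbove (⊥ : IntermediateField ℚ Qbar) S, g v = ∑ q : ↥S, g (botPlace q.1) := by
  symm
  refine Finset.sum_bij (fun q _ => botPlace q.1) ?_ ?_ ?_ ?_
  · intro q _
    rw [mem_placesAbove]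
    exact q.2
  · intro q _ q' _ h
    exact Subtype.ext (congrArg FinPlace.prime h)
  · intro v hv
    rw [mem_placesAbove] at hv
    exact ⟨⟨v.prime, hv⟩, Finset.mem_univ _, (eq_botPlace v).symm⟩
  · intro q _
    rfl

end Bot

/-! ### Reciprocity over `ℚ` in the frozen types -/

section Final

local instance factPrime_RQ' (q : Nat.Primes) : Fact (q : ℕ).Prime := ⟨q.2⟩

open Fermat.Agent.S55.Assembly Fermat.Agent.S55.Cone

variable {p : ℕ} [hpF : Fact p.Prime] (S : Finset Nat.Primes)
  (hpS : (⟨p, hpF.out⟩ : Nat.Primes) ∈ S) {ζ : Qbar} (hζ : IsPrimitiveRoot ζ p)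
  (Fb : ∀ v : FinPlace (⊥ : IntermediateField ℚ Qbar),
    Formation (levelv ⊥ v) (unitsRep (Kv ⊥ v) (PadicAlgCl (v.prime : ℕ))))
  (Fq : ∀ q : Nat.Primes, Formation (krullLevel ℚ_[(q : ℕ)] (PadicAlgCl (q : ℕ)))
    (unitsRep ℚ_[(q : ℕ)] (PadicAlgCl (q : ℕ))))

/-- `κ_v ∘ loc_v = res_v` with coefficient map `μ_p → ℚ̄^×`. -/
lemma kappa_locμ_eq_resAt (L : IntermediateField ℚ Qbar) (v : FinPlace L)
    (c : levelCohomology (levelLS S L) (resL L (muP S p)) 2) :
    kappa p S L v (locμ p S L v c) =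
      (resAt (v.prime : ℕ) L v.rep (jμ p S) (globalLevel S) (open_globalLevel S) 2).hom c :=
  congrArg (fun ψ => ψ.hom c)
    (locAt_Hmap_coeffLoc (v.prime : ℕ) L v.rep (globalLevel S) (open_globalLevel S) (jμ p S) 2)

variable [IsDiscrete (globalLevel S) (ofChar (k := ZMod p) (cycloChar p))]

/-- The invariant of the class of `y` at `q`, computed at the place of `⊥` over `q`. -/
theorem inv_locBrPrime_eq
    (hF : ∀ (v : FinPlace (⊥ : IntermediateField ℚ Qbar))
      (x : levelCohomology (krullLevel ℚ_[(v.prime : ℕ)] (PadicAlgCl (v.prime : ℕ)))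
        (unitsRep ℚ_[(v.prime : ℕ)] (PadicAlgCl (v.prime : ℕ))) 2),
      (Fb v).inv ((bcMap ℚ_[(v.prime : ℕ)] (Kv ⊥ v) (PadicAlgCl (v.prime : ℕ)) 2).hom x) =
        (Fq v.prime).inv x)
    (y : levelCohomology (globalLevel S) (ofChar (k := ZMod p) (cycloChar p)) 2)
    (q : (localData S).ι) :
    (Fq q.1).inv (@locBrPrime p _ q.1 ζ hζ
        ((localData S).isDiscrete_res (ofChar (k := ZMod p) (cycloChar p)) q)
        (locH (localData S) (ofChar (k := ZMod p) (cycloChar p)) 2 y q)) =
      (Fb (botPlace q.1)).inv (kappa p S ⊥ (botPlace q.1) (locμ p S ⊥ (botPlace q.1)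
        ((toL S ⊥ 2).hom (toMu S hpS hζ 2 y)))) := by
  rw [kappa_locμ_eq_resAt]
  have hd : IsDiscrete (localLevel (localGaloisToGlobal ((q.1 : Nat.Primes) : ℕ)))
      (localMu p ((q.1 : Nat.Primes) : ℕ)) :=
    (localData S).isDiscrete_res (ofChar (k := ZMod p) (cycloChar p)) q
  have key := resAt_toL_toMu S hpS hζ ⊥ ((q.1 : Nat.Primes) : ℕ) (botPlace q.1).rep y
  rw [show (resAt ((botPlace q.1).prime : ℕ) ⊥ (botPlace q.1).rep (jμ p S) (globalLevel S)
      (open_globalLevel S) 2).hom ((toL S ⊥ 2).hom (toMu S hpS hζ 2 y)) = _ from key]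
  exact (hF (botPlace q.1) _).symm

include hpS in
/-- **Reciprocity over `ℚ` in the frozen types** (`hrec` of `TraceGlue.result_of_inv`), from the
sum formula over the places of `⊥` above `S` (the `→` direction of
`BrauerInput.exists_locμ_eq_iff` for `L = ⊥`) and the compatibility `inv_{K_v} ∘ res = inv_{ℚ_q}`
(degree one base change) between the local class formations at the places of `⊥` and over
`ℚ_q`. -/
theorem hrec_of_sum
    (hF : ∀ (v : FinPlace (⊥ : IntermediateField ℚ Qbar))
      (x : levelCohomology (krullLevel ℚ_[(v.prime : ℕ)] (PadicAlgCl (v.prime : ℕ)))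
        (unitsRep ℚ_[(v.prime : ℕ)] (PadicAlgCl (v.prime : ℕ))) 2),
      (Fb v).inv ((bcMap ℚ_[(v.prime : ℕ)] (Kv ⊥ v) (PadicAlgCl (v.prime : ℕ)) 2).hom x) =
        (Fq v.prime).inv x)
    (hsum : ∀ c : levelCohomology (levelLS S ⊥) (resL ⊥ (muP S p)) 2,
      ∑ v ∈ placesAbove (⊥ : IntermediateField ℚ Qbar) S,
        (Fb v).inv (kappa p S ⊥ v (locμ p S ⊥ v c)) = 0)
    (y : levelCohomology (globalLevel S) (ofChar (k := ZMod p) (cycloChar p)) 2) :
    ∑ q : (localData S).ι, @invPrime p _ q.1 ζ hζ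
        ((localData S).isDiscrete_res (ofChar (k := ZMod p) (cycloChar p)) q) (Fq q.1)
        (locH (localData S) (ofChar (k := ZMod p) (cycloChar p)) 2 y q) = 0 := by
  have : NeZero p := ⟨hpF.out.ne_zero⟩
  apply ZMod.toAddCircle_injective p
  rw [map_sum, map_zero]
  have h := hsum ((toL S ⊥ 2).hom (toMu S hpS hζ 2 y))
  rw [sum_placesAbove_bot] at h
  rw [← h]
  refine Finset.sum_congr rfl fun q _ => ?_
  exact (@toAddCircle_invPrime p _ q.1 ζ hζ
    ((localData S).isDiscrete_res (ofChar (k := ZMod p) (cycloChar p)) q) (Fq q.1) _).trans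
    (inv_locBrPrime_eq S hpS hζ Fb Fq hF y q)

include hpS in
/-- **Reciprocity over `ℚ` from the arithmetic inputs of `BrauerInst` at `L = ⊥`.** -/
theorem hrec_of_brauerInput (H : BrauerInput p S (⊥ : IntermediateField ℚ Qbar) Fb)
    (hF : ∀ (v : FinPlace (⊥ : IntermediateField ℚ Qbar))
      (x : levelCohomology (krullLevel ℚ_[(v.prime : ℕ)] (PadicAlgCl (v.prime : ℕ)))
        (unitsRep ℚ_[(v.prime : ℕ)] (PadicAlgCl (v.prime : ℕ))) 2),
      (Fb v).inv ((bcMap ℚ_[(v.prime : ℕ)] (Kv ⊥ v) (PadicAlgCl (v.prime : ℕ)) 2).hom x) =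
        (Fq v.prime).inv x)
    (y : levelCohomology (globalLevel S) (ofChar (k := ZMod p) (cycloChar p)) 2) :
    ∑ q : (localData S).ι, @invPrime p _ q.1 ζ hζ
        ((localData S).isDiscrete_res (ofChar (k := ZMod p) (cycloChar p)) q) (Fq q.1)
        (locH (localData S) (ofChar (k := ZMod p) (cycloChar p)) 2 y q) = 0 :=
  hrec_of_sum S hpS hζ Fb Fq hF
    (fun c => (H.exists_locμ_eq_iff hpF.out hpS (fun v => locμ p S ⊥ v c)).1
      ⟨c, fun _ _ => rfl⟩) y

/-- The family of local invariants `inv_q`, `q ∈ S`, in the types of `TraceGlue.result_of_inv`. -/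
noncomputable def invFamily (q : (localData S).ι) :
    levelCohomology ((localData S).𝒱 q)
      (Rep.res ((localData S).r q) (ofChar (k := ZMod p) (cycloChar p))) 2 →ₗ[ZMod p] ZMod p :=
  @invPrime p _ q.1 ζ hζ
    ((localData S).isDiscrete_res (ofChar (k := ZMod p) (cycloChar p)) q) (Fq q.1)

lemma invFamily_bijective (q : (localData S).ι) : Function.Bijective (invFamily S hζ Fq q) :=
  @invPrime_bijective p _ q.1 ζ hζ
    ((localData S).isDiscrete_res (ofChar (k := ZMod p) (cycloChar p)) q) (Fq q.1)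

include hpS in
/-- `hrec` of `TraceGlue.result_of_inv` for `invFamily`. -/
theorem hrec_invFamily (H : BrauerInput p S (⊥ : IntermediateField ℚ Qbar) Fb)
    (hF : ∀ (v : FinPlace (⊥ : IntermediateField ℚ Qbar))
      (x : levelCohomology (krullLevel ℚ_[(v.prime : ℕ)] (PadicAlgCl (v.prime : ℕ)))
        (unitsRep ℚ_[(v.prime : ℕ)] (PadicAlgCl (v.prime : ℕ))) 2),
      (Fb v).inv ((bcMap ℚ_[(v.prime : ℕ)] (Kv ⊥ v) (PadicAlgCl (v.prime : ℕ)) 2).hom x) =
        (Fq v.prime).inv x) :
    ∀ y : levelCohomology (globalLevel S) (ofChar (k := ZMod p) (cycloChar p)) 2,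
      ∑ q, invFamily S hζ Fq q
        (locH (localData S) (ofChar (k := ZMod p) (cycloChar p)) 2 y q) = 0 :=
  fun y => hrec_of_brauerInput S hpS hζ Fb Fq H hF y

end Final

end Fermat.Agent.S55.GL.RecipQ
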