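/-
S55 (T4), row LI (board #653, for GLO13/GLO14 counting route (δ) and LOC7 finiteness):
LOCAL INDEX AT THE MODEL.

* `card_quotient_span_algebraMap` : `R` local with `𝔪 = (a)`, `S` finite free over `R`:
  `|S / aS| = |R/𝔪| ^ rank_R S`.
* **(LI1)** `index_range_pow_units q F hp hζ` : for `F/ℚ_q` finite, `ζ ∈ F` a primitive `p`-th root
  of unity: `[Fˣ : Fˣᵖ] = p ^ (2 + if q = p then [F : ℚ_q] else 0)`;
  `card_quotient_range_pow` (`Nat.card` of the quotient), `finrank_quotient_range_pow`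
  (`ZMod p`-dimension, any module structure), `finrank_eq_of_card_eq_pow`.
* **(LI2)** `sum_local_exponents L S p hpS` :
  `∑_{q ∈ S} ∑_{w | q} (2 + [q = p]·[L_w : ℚ_q]) = 2 |S_L| + [L : ℚ]`;
  `sum_local_exponents_of_isPrimitiveRoot` : `= 2 (|S_L| + r₂(L))` if `ζ_p ∈ L`, `p` odd;
  `prod_index_range_pow` : `∏_{q ∈ S} ∏_{w | q} [L_wˣ : L_wˣᵖ] = p ^ (2 (|S_L| + r₂(L)))`.

On helper8's `Local/PowerIndex2` + `Local/CompleteDVR` (instantiated at `integralClosure ℤ_[q] F`
as in helper20's `LocalDegreesLocal`), helper2's `GL/PlacesDeg`, helper11's `SUnitPow`.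
-/
import Mathlib
import Fermat.Agent.S55.Local.PowerIndex2
import Fermat.Agent.S55.Local.CompleteDVR
import Fermat.Agent.S55.GL.PlacesDeg
import Fermat.Agent.S55.SUnitPow

set_option autoImplicit false
set_option linter.style.haveILetI false
set_option linter.unusedSectionVars false

namespace Fermat.Agent.S55.GL.LocalIndex

open IsLocalRing Fermat.Agent.S55.Local

section General

attribute [local instance] Ideal.Quotient.field

/-- For a finite free algebra `S` over a local ring `R` with principal maximal ideal `(a)` and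
finite residue field: `|S / aS| = |R / 𝔪| ^ rank_R S`. -/
theorem card_quotient_span_algebraMap {R S : Type*} [CommRing R] [IsLocalRing R] [CommRing S]
    [Algebra R S] [Module.Finite R S] [Module.Free R S] {a : R}
    (ha : maximalIdeal R = Ideal.span {a}) :
    Nat.card (S ⧸ Ideal.span {algebraMap R S a}) =
      Nat.card (R ⧸ maximalIdeal R) ^ Module.finrank R S := by
  have h1 : Ideal.span {algebraMap R S a} = Ideal.map (algebraMap R S) (maximalIdeal R) := by
    rw [ha, Ideal.map_span, Set.image_singleton]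
  rw [h1]
  have : Module.Finite (R ⧸ maximalIdeal R) (S ⧸ Ideal.map (algebraMap R S) (maximalIdeal R)) :=
    Module.Finite.of_restrictScalars_finite R _ _
  rw [Module.natCard_eq_pow_finrank (K := R ⧸ maximalIdeal R), IsLocalRing.finrank_quotient_map]

end General

section Padic

variable (q : ℕ) [Fact q.Prime]

/-- `|ℤ_q / 𝔪| = q`. -/
theorem card_quotient_maximalIdeal_padicInt :
    Nat.card (ℤ_[q] ⧸ maximalIdeal ℤ_[q]) = q := by
  have e : (ℤ_[q] ⧸ maximalIdeal ℤ_[q]) ≃ ZMod q := (PadicInt.residueField (p := q)).toEquiv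
  rw [Nat.card_congr e, Nat.card_zmod]

end Padic

section PadicIndex

variable (q : ℕ) [Fact q.Prime] (F : Type*) [Field F] [Algebra ℚ_[q] F] [FiniteDimensional ℚ_[q] F]

/-- **(LI1)** For a finite extension `F` of `ℚ_q` containing a primitive `p`-th root of unity:
`[Fˣ : Fˣᵖ] = p ^ (2 + [F : ℚ_q])` if `q = p`, and `p ^ 2` if `q ≠ p`. -/
theorem index_range_pow_units {p : ℕ} (hp : p.Prime) {ζ : F} (hζ : IsPrimitiveRoot ζ p) :
    (powMonoidHom p : Fˣ →* Fˣ).range.index =
      p ^ (2 + if q = p then Module.finrank ℚ_[q] F else 0) := by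
  letI : Algebra ℤ_[q] F := ((algebraMap ℚ_[q] F).comp (algebraMap ℤ_[q] ℚ_[q])).toAlgebra
  haveI : IsScalarTower ℤ_[q] ℚ_[q] F := IsScalarTower.of_algebraMap_eq' rfl
  haveI : CharZero F := charZero_of_injective_algebraMap (algebraMap ℚ_[q] F).injective
  haveI : Algebra.IsSeparable ℚ_[q] F := inferInstance
  let OF := integralClosure ℤ_[q] F
  haveI : IsLocalRing OF := isLocalRing_of_isIntegralClosure ℤ_[q] ℚ_[q] F OF
  haveI : IsDiscreteValuationRing OF :=
    isDiscreteValuationRing_of_isIntegralClosure ℤ_[q] ℚ_[q] F OF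
  haveI : IsAdicComplete (maximalIdeal OF) OF :=
    isAdicComplete_maximalIdeal_of_isIntegralClosure ℤ_[q] ℚ_[q] F OF
  haveI : Finite (ResidueField OF) := finite_residueField_of_isIntegralClosure ℤ_[q] ℚ_[q] F OF
  haveI : IsFractionRing OF F := isFractionRing_of_isIntegralClosure ℤ_[q] ℚ_[q] F OF
  haveI : Module.Finite ℤ_[q] OF := finite_of_isIntegralClosure ℤ_[q] ℚ_[q] F OF
  haveI : Module.Free ℤ_[q] OF := free_of_isIntegralClosure ℤ_[q] ℚ_[q] F OF
  have hrank : Module.finrank ℤ_[q] OF = Module.finrank ℚ_[q] F :=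
    finrank_of_isIntegralClosure ℤ_[q] ℚ_[q] F OF
  haveI : NeZero p := ⟨hp.ne_zero⟩
  have hroots : Nat.card (rootsOfUnity p F) = p := hζ.card_rootsOfUnity
  have hcast : (p : OF) = algebraMap ℤ_[q] OF (p : ℤ_[q]) := (map_natCast _ p).symm
  by_cases hqp : q = p
  · subst hqp
    have hp0 : (q : OF) ≠ 0 := by
      have : ((q : ℕ) : OF) ≠ 0 := Nat.cast_ne_zero.mpr hp.ne_zero
      exact this
    rw [index_range_pow_field_units' F hp hp0, hroots, hcast,
      card_quotient_span_algebraMap (R := ℤ_[q]) (S := OF) PadicInt.maximalIdeal_eq_span_p,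
      card_quotient_maximalIdeal_padicInt, hrank, if_pos rfl]
    ring
  · have hu : IsUnit (p : OF) := by
      rw [hcast]
      apply IsUnit.map
      rw [PadicInt.isUnit_iff, PadicInt.norm_natCast_eq_one_iff]
      exact (Nat.coprime_primes Fact.out hp).mpr hqp
    rw [index_range_pow_field_units_of_isUnit F hp hu, hroots, if_neg hqp]
    ring

end PadicIndex

section Forms

/-- `Nat.card` form of an index of `p`-th powers. -/
theorem card_quotient_range_pow (q : ℕ) [Fact q.Prime] (F : Type*) [Field F] [Algebra ℚ_[q] F]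
    [FiniteDimensional ℚ_[q] F] {p : ℕ} (hp : p.Prime) {ζ : F} (hζ : IsPrimitiveRoot ζ p) :
    Nat.card (Fˣ ⧸ (powMonoidHom p : Fˣ →* Fˣ).range) =
      p ^ (2 + if q = p then Module.finrank ℚ_[q] F else 0) := by
  rw [← Subgroup.index_eq_card]
  exact index_range_pow_units q F hp hζ

/-- A finite `ZMod p`-module with `p ^ n` elements has dimension `n`. -/
theorem finrank_eq_of_card_eq_pow {p : ℕ} [Fact p.Prime] {V : Type*} [AddCommGroup V]
    [Module (ZMod p) V] {n : ℕ} (h : Nat.card V = p ^ n) : Module.finrank (ZMod p) V = n := by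
  have hp : p.Prime := Fact.out
  have hfin : Finite V := Nat.finite_of_card_ne_zero (by rw [h]; exact pow_ne_zero _ hp.ne_zero)
  have h1 := Module.natCard_eq_pow_finrank (K := ZMod p) (V := V)
  rw [Nat.card_zmod, h] at h1
  exact (Nat.pow_right_injective hp.two_le h1).symm

/-- `ZMod p`-dimension form of (LI1), for any `ZMod p`-module structure on `Fˣ / Fˣᵖ`. -/
theorem finrank_quotient_range_pow (q : ℕ) [Fact q.Prime] (F : Type*) [Field F] [Algebra ℚ_[q] F]
    [FiniteDimensional ℚ_[q] F] {p : ℕ} [Fact p.Prime] {ζ : F} (hζ : IsPrimitiveRoot ζ p)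
    [Module (ZMod p) (Additive (Fˣ ⧸ (powMonoidHom p : Fˣ →* Fˣ).range))] :
    Module.finrank (ZMod p) (Additive (Fˣ ⧸ (powMonoidHom p : Fˣ →* Fˣ).range)) =
      2 + if q = p then Module.finrank ℚ_[q] F else 0 :=
  finrank_eq_of_card_eq_pow (V := Additive (Fˣ ⧸ (powMonoidHom p : Fˣ →* Fˣ).range))
    (card_quotient_range_pow q F Fact.out hζ)

end Forms

section Global

open Fermat.Agent.S55.GL.Places NumberField

local notation "Qbar" => AlgebraicClosure ℚ

local instance factPrime_li (q : Nat.Primes) : Fact (q : ℕ).Prime := ⟨q.2⟩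

/-- **(LI2)** `∑_{q ∈ S} ∑_{w | q} (2 + [q = p]·[L_w : ℚ_q]) = 2·|S_L| + [L : ℚ]` when `p ∈ S`. -/
theorem sum_local_exponents (L : IntermediateField ℚ Qbar) [FiniteDimensional ℚ L]
    (S : Finset Nat.Primes) (p : Nat.Primes) (hpS : p ∈ S) :
    ∑ q ∈ S, ∑ w : PlacesOver (q : ℕ) L,
        (2 + if (q : ℕ) = (p : ℕ) then
          Module.finrank ℚ_[(q : ℕ)] (PlacesOver.localField (q : ℕ) w) else 0) =
      2 * (∑ q ∈ S, Fintype.card (PlacesOver (q : ℕ) L)) + Module.finrank ℚ L := by
  simp_rw [Finset.sum_add_distrib]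
  congr 1
  · rw [Finset.mul_sum]
    refine Finset.sum_congr rfl fun q _ => ?_
    rw [Finset.sum_const, Finset.card_univ, smul_eq_mul, mul_comm]
  · rw [Finset.sum_eq_single_of_mem p hpS]
    · simp only [if_true]
      exact sum_finrank_localField (p : ℕ) L
    · intro q _ hq
      have hne : (q : ℕ) ≠ (p : ℕ) := fun h => hq (Subtype.ext h)
      simp only [if_neg hne, Finset.sum_const_zero]

/-- The image of a primitive root of unity of `L` in the local field `L_w`. -/
theorem isPrimitiveRoot_embAt (q : ℕ) [Fact q.Prime] (L : IntermediateField ℚ Qbar)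
    (w : PlacesOver q L) {n : ℕ} {ζ : L} (hζ : IsPrimitiveRoot ζ n) :
    IsPrimitiveRoot ((embAt q L (PlacesOver.rep q w) ζ : PlacesOver.localField q w)) n :=
  hζ.map_of_injective (embAt q L (PlacesOver.rep q w)).injective

instance finiteDimensional_localField (q : ℕ) [Fact q.Prime] (L : IntermediateField ℚ Qbar)
    [FiniteDimensional ℚ L] (w : PlacesOver q L) :
    FiniteDimensional ℚ_[q] (PlacesOver.localField q w) :=
  finiteDimensional_localFieldAt q L _

/-- **(LI2')** totally complex form: if `ζ_p ∈ L`, `p` odd, then the sum of the local exponents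
over `S ∋ p` is `2 (|S_L| + r₂(L))`. -/
theorem sum_local_exponents_of_isPrimitiveRoot (L : IntermediateField ℚ Qbar) [NumberField L]
    (S : Finset Nat.Primes) (p : Nat.Primes) (hp2 : 2 < (p : ℕ)) (hpS : p ∈ S) {ζ : L}
    (hζ : IsPrimitiveRoot ζ (p : ℕ)) :
    ∑ q ∈ S, ∑ w : PlacesOver (q : ℕ) L,
        (2 + if (q : ℕ) = (p : ℕ) then
          Module.finrank ℚ_[(q : ℕ)] (PlacesOver.localField (q : ℕ) w) else 0) =
      2 * (∑ q ∈ S, Fintype.card (PlacesOver (q : ℕ) L) + InfinitePlace.nrComplexPlaces L) := by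
  have : IsTotallyComplex L := Fermat.Agent.S55.SUnitPow.isTotallyComplex_of_isPrimitiveRoot hp2 hζ
  rw [sum_local_exponents L S p hpS, IsTotallyComplex.finrank, mul_add]

/-- **(LI1)+(LI2)**: `∏_{q ∈ S} ∏_{w | q} [L_wˣ : L_wˣᵖ] = p ^ (2 (|S_L| + r₂(L)))` for `ζ_p ∈ L`,
`p` odd, `p ∈ S`. -/
theorem prod_index_range_pow (L : IntermediateField ℚ Qbar) [NumberField L]
    (S : Finset Nat.Primes) (p : Nat.Primes) (hp2 : 2 < (p : ℕ)) (hpS : p ∈ S) {ζ : L}
    (hζ : IsPrimitiveRoot ζ (p : ℕ)) :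
    ∏ q ∈ S, ∏ w : PlacesOver (q : ℕ) L,
        (powMonoidHom (p : ℕ) : (PlacesOver.localField (q : ℕ) w)ˣ →*
          (PlacesOver.localField (q : ℕ) w)ˣ).range.index =
      (p : ℕ) ^ (2 * (∑ q ∈ S, Fintype.card (PlacesOver (q : ℕ) L) +
        InfinitePlace.nrComplexPlaces L)) := by
  rw [← sum_local_exponents_of_isPrimitiveRoot L S p hp2 hpS hζ, ← Finset.prod_pow_eq_pow_sum]
  refine Finset.prod_congr rfl fun q _ => ?_
  rw [← Finset.prod_pow_eq_pow_sum]
  refine Finset.prod_congr rfl fun w _ => ?_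
  exact index_range_pow_units (q : ℕ) (PlacesOver.localField (q : ℕ) w) p.2
    (isPrimitiveRoot_embAt (q : ℕ) L w hζ)

end Global

end Fermat.Agent.S55.GL.LocalIndex
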