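import Mathlib
import Fermat.Agent.S55.SUnit
import Fermat.Agent.S55.SUnitClass
import Fermat.Agent.S55.SUnitPow

/-!
# S55 / GL4 part 4a (K-d): the `T`-class group of a number field and the count of `V_T / K^{×p}`

Namespace `Fermat.Agent.S55.GL.ClassT`.  `K` a number field (any `Type*`), `T` a finite set of
finite places, on helper11's `SUnit` (`ordAt`, `TUnit`), `SUnitClass` (`IsClTrivial`) and `SUnitPow`.

* `DivT K T`, `divT T : Additive Kˣ →+ DivT K T` (divisor off `T`), kernel = `T`-units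
  (`divT_eq_zero_iff`); `ClT K T := DivT K T ⧸ range (divT T)`, `clOf`.
* `classNumber_nsmul_eq_zero`, `closure_clOf_single_eq_top`, **`instFiniteClT : Finite (ClT K T)`**.
* `VT T p ≤ Kˣ` (divisor off `T` divisible by `p`), `theta : V_T →* Cl_T`, `a ↦ [(a)/p]`, with
  kernel `E_T · K^{×p}` (`mem_ker_theta_iff`) and range `Cl_T[p]` (`mem_range_theta_iff`):
  the exact sequence `0 → E_T/p → V_T/K^{×p} → Cl_T[p] → 0`.
* **`relIndex_pow_VT`**: `[V_T : K^{×p}] = p ^ (rank K + #T + 1) · #Cl_T[p]` when `ζ_p ∈ K`.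
* `card_torsion_eq_card_quotient`: `#A[n] = #A/nA` for a finite abelian group.
-/

set_option autoImplicit false
set_option linter.style.haveILetI false

namespace Fermat.Agent.S55.GL.ClassT

open NumberField IsDedekindDomain HeightOneSpectrum
open Fermat.Agent.S55.SUnit Fermat.Agent.S55.SUnitClass

variable {K : Type*} [Field K] [NumberField K]

theorem finite_ordAt_ne_zero (x : Kˣ) :
    {v : HeightOneSpectrum (𝓞 K) | ordAt v (Additive.ofMul x) ≠ 0}.Finite := by
  refine ((HeightOneSpectrum.Support.finite (𝓞 K) (x : K)).union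
    (HeightOneSpectrum.Support.finite (𝓞 K) ((x⁻¹ : Kˣ) : K))).subset ?_
  intro v hv
  rw [Set.mem_ofPred_eq, Ne, ordAt_eq_zero_iff] at hv
  rcases lt_or_gt_of_ne hv with h | h
  · right
    show 1 < v.valuation K ((x⁻¹ : Kˣ) : K)
    rw [Units.val_inv_eq_inv_val, map_inv₀]
    exact (one_lt_inv₀ (by simp [zero_lt_iff])).mpr h
  · left
    exact h

variable (T : Finset (HeightOneSpectrum (𝓞 K)))

/-- divisors of `K` supported off `T`. -/
abbrev DivT (K : Type*) [Field K] [NumberField K] (T : Finset (HeightOneSpectrum (𝓞 K))) :=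
  {v : HeightOneSpectrum (𝓞 K) // v ∉ T} →₀ ℤ

/-- the divisor map off `T`. -/
noncomputable def divT : Additive Kˣ →+ DivT K T where
  toFun x := Finsupp.ofSupportFinite (fun v => ordAt v.1 x) (by
    refine Set.Finite.subset ((finite_ordAt_ne_zero (Additive.toMul x)).preimage
      (Subtype.val_injective.injOn)) ?_
    intro v hv
    exact hv)
  map_zero' := by
    ext v
    simp [Finsupp.ofSupportFinite_coe]
  map_add' x y := by
    ext v
    simp [Finsupp.ofSupportFinite_coe]

@[simp] theorem divT_apply (x : Additive Kˣ) (v : {v : HeightOneSpectrum (𝓞 K) // v ∉ T}) :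
    divT T x v = ordAt v.1 x := rfl

theorem divT_eq_zero_iff (x : Additive Kˣ) : divT T x = 0 ↔ Additive.toMul x ∈ TUnit K T := by
  rw [mem_TUnit_iff]
  constructor
  · intro h v hv
    have := DFunLike.congr_fun h ⟨v, hv⟩
    rw [divT_apply] at this
    exact (ordAt_eq_zero_iff v _).mp this
  · intro h
    ext v
    rw [divT_apply]
    exact (ordAt_eq_zero_iff v.1 _).mpr (h v.1 v.2)

theorem divT_ofMul_eq_zero_iff (y : Kˣ) : divT T (Additive.ofMul y) = 0 ↔ y ∈ TUnit K T :=
  divT_eq_zero_iff T _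

/-- the `T`-class group: divisors off `T` modulo principal divisors. -/
abbrev ClT (K : Type*) [Field K] [NumberField K] (T : Finset (HeightOneSpectrum (𝓞 K))) :=
  DivT K T ⧸ (divT T).range

/-- class of a divisor -/
noncomputable def clOf : DivT K T →+ ClT K T := QuotientAddGroup.mk' _

theorem clOf_eq_zero_iff (D : DivT K T) : clOf T D = 0 ↔ ∃ x : Additive Kˣ, divT T x = D := by
  rw [clOf, QuotientAddGroup.mk'_apply, QuotientAddGroup.eq_zero_iff]
  rfl

theorem clOf_surjective : Function.Surjective (clOf T) := QuotientAddGroup.mk'_surjective _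

/-- `h • [v] = 0` for `h` the class number. -/
theorem classNumber_nsmul_clOf_single (v : {v : HeightOneSpectrum (𝓞 K) // v ∉ T}) :
    classNumber K • clOf T (Finsupp.single v 1) = 0 := by
  classical
  obtain ⟨π, hπ0, hπ⟩ := exists_span_eq_pow_classNumber v.1
  have hπK : algebraMap (𝓞 K) K π ≠ 0 := by
    simpa using hπ0
  rw [← map_nsmul, clOf_eq_zero_iff]
  refine ⟨Additive.ofMul (Units.mk0 _ hπK), ?_⟩
  ext w
  rw [divT_apply, ordAt_apply, Units.val_mk0, valuation_of_algebraMap, Finsupp.smul_apply,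
    Finsupp.single_apply]
  by_cases hw : v = w
  · subst hw
    rw [if_pos rfl, intValuation_of_span_eq_pow v.1 hπ0 hπ, WithZero.log_exp]
    simp
  · rw [if_neg hw, intValuation_of_span_eq_pow_of_ne v.1 w.1 (fun h => hw (Subtype.ext h.symm)) hπ]
    simp

theorem classNumber_nsmul_eq_zero (c : ClT K T) : classNumber K • c = 0 := by
  classical
  obtain ⟨D, rfl⟩ := clOf_surjective T c
  induction D using Finsupp.induction_linear with
  | zero => simp
  | add D D' hD hD' => rw [map_add, nsmul_add, hD, hD', add_zero]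
  | single v n =>
    have : Finsupp.single v n = n • Finsupp.single v (1 : ℤ) := by
      rw [Finsupp.smul_single, smul_eq_mul, mul_one]
    rw [this, map_zsmul, smul_comm, classNumber_nsmul_clOf_single, smul_zero]

/-- the classes of the primes in a set `T₀` with `Cl_{T₀} = 0` generate `Cl_T`. -/
theorem closure_clOf_single_eq_top {T₀ : Finset (HeightOneSpectrum (𝓞 K))}
    (hT₀ : IsClTrivial T₀) :
    AddSubgroup.closure {c : ClT K T | ∃ v : {v : HeightOneSpectrum (𝓞 K) // v ∉ T},
      v.1 ∈ T₀ ∧ c = clOf T (Finsupp.single v 1)} = ⊤ := by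
  classical
  set G := AddSubgroup.closure {c : ClT K T | ∃ v : {v : HeightOneSpectrum (𝓞 K) // v ∉ T},
      v.1 ∈ T₀ ∧ c = clOf T (Finsupp.single v 1)} with hG
  have hgen : ∀ v : {v : HeightOneSpectrum (𝓞 K) // v ∉ T}, v.1 ∈ T₀ →
      clOf T (Finsupp.single v 1) ∈ G := fun v hv =>
    AddSubgroup.subset_closure ⟨v, hv, rfl⟩
  have hsingle : ∀ v : {v : HeightOneSpectrum (𝓞 K) // v ∉ T},
      clOf T (Finsupp.single v 1) ∈ G := by
    intro v
    by_cases hv : v.1 ∈ T₀
    · exact hgen v hv
    · obtain ⟨π, h1, h2⟩ := hT₀.ordAt_eq hv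
      set E : DivT K T := divT T (Additive.ofMul π) - Finsupp.single v 1 with hE
      have hEsupp : ∀ w ∈ E.support, w.1 ∈ T₀ := by
        intro w hw
        by_contra hwT
        rw [Finsupp.mem_support_iff] at hw
        apply hw
        rw [hE, Finsupp.sub_apply, divT_apply, Finsupp.single_apply]
        by_cases hvw : v = w
        · subst hvw
          rw [if_pos rfl, h1, sub_self]
        · rw [if_neg hvw, h2 w.1 hwT (fun h => hvw (Subtype.ext h.symm)), sub_zero]
      have hEG : clOf T E ∈ G := by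
        have hsum : E = E.sum Finsupp.single := (Finsupp.sum_single E).symm
        rw [hsum, Finsupp.sum, map_sum]
        refine AddSubgroup.sum_mem _ fun w hw => ?_
        have : Finsupp.single w (E w) = (E w) • Finsupp.single w (1 : ℤ) := by
          rw [Finsupp.smul_single, smul_eq_mul, mul_one]
        rw [this, map_zsmul]
        exact AddSubgroup.zsmul_mem _ (hgen w (hEsupp w hw)) _
      have h0 : clOf T (divT T (Additive.ofMul π)) = 0 := (clOf_eq_zero_iff T _).mpr ⟨_, rfl⟩
      have h3 : clOf T (Finsupp.single v 1) = - clOf T E := by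
        rw [hE, map_sub, h0, zero_sub, neg_neg]
      rw [h3]
      exact AddSubgroup.neg_mem _ hEG
  rw [eq_top_iff]
  intro c _
  obtain ⟨D, rfl⟩ := clOf_surjective T c
  clear * - hsingle
  induction D using Finsupp.induction_linear with
  | zero => rw [map_zero]; exact AddSubgroup.zero_mem _
  | add D D' hD hD' => rw [map_add]; exact AddSubgroup.add_mem _ hD hD'
  | single v n =>
    have : Finsupp.single v n = n • Finsupp.single v (1 : ℤ) := by
      rw [Finsupp.smul_single, smul_eq_mul, mul_one]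
    rw [this, map_zsmul]
    exact AddSubgroup.zsmul_mem _ (hsingle v) _

/-- **`Cl_T(K)` is finite.** -/
instance instFiniteClT : Finite (ClT K T) := by
  classical
  obtain ⟨T₀, -, hT₀⟩ := exists_finset_isClTrivial_of_subset T
  have hcl := closure_clOf_single_eq_top T (hT₀ T₀ le_rfl)
  have hfin : {c : ClT K T | ∃ v : {v : HeightOneSpectrum (𝓞 K) // v ∉ T},
      v.1 ∈ T₀ ∧ c = clOf T (Finsupp.single v 1)}.Finite := by
    have h1 : {v : {v : HeightOneSpectrum (𝓞 K) // v ∉ T} | v.1 ∈ T₀}.Finite :=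
      (T₀.finite_toSet).preimage (Subtype.val_injective.injOn)
    refine (h1.image fun v => clOf T (Finsupp.single v 1)).subset ?_
    rintro c ⟨v, hv, rfl⟩
    exact ⟨v, hv, rfl⟩
  haveI : AddGroup.FG (ClT K T) := (AddGroup.fg_iff).mpr ⟨_, hcl, hfin⟩
  refine AddCommGroup.finite_of_fg_isAddTorsion _ fun c => ?_
  rw [isOfFinAddOrder_iff_nsmul_eq_zero]
  exact ⟨classNumber K, Nat.pos_of_ne_zero (classNumber_ne_zero K), classNumber_nsmul_eq_zero T c⟩

section VT

variable (p : ℕ)

/-- `V_T`: elements of `K^×` whose divisor off `T` is divisible by `p`. -/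
def VT : Subgroup Kˣ where
  carrier := {a | ∀ v ∉ T, (p : ℤ) ∣ ordAt v (Additive.ofMul a)}
  one_mem' := fun v _ => by simp
  mul_mem' := fun {a b} ha hb v hv => by
    rw [ofMul_mul, map_add]
    exact dvd_add (ha v hv) (hb v hv)
  inv_mem' := fun {a} ha v hv => by
    rw [ofMul_inv, map_neg]
    exact (dvd_neg).mpr (ha v hv)

theorem mem_VT {a : Kˣ} : a ∈ VT T p ↔ ∀ v ∉ T, (p : ℤ) ∣ ordAt v (Additive.ofMul a) := Iff.rfl

theorem mem_VT_iff_divT {a : Kˣ} : a ∈ VT T p ↔ ∃ D : DivT K T, p • D = divT T (Additive.ofMul a) := by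
  constructor
  · intro h
    refine ⟨(divT T (Additive.ofMul a)).mapRange (fun n => n / (p : ℤ)) (Int.zero_ediv _), ?_⟩
    ext v
    rw [Finsupp.smul_apply, Finsupp.mapRange_apply, divT_apply, nsmul_eq_mul]
    exact Int.mul_ediv_cancel' (h v.1 v.2)
  · rintro ⟨D, hD⟩ v hv
    have := DFunLike.congr_fun hD ⟨v, hv⟩
    rw [Finsupp.smul_apply, divT_apply, nsmul_eq_mul] at this
    exact ⟨D ⟨v, hv⟩, this.symm⟩

theorem tunit_le_VT : TUnit K T ≤ VT T p := fun a ha v hv => by
  rw [(ordAt_eq_zero_iff v a).mpr (mem_TUnit_iff.mp ha v hv)]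
  exact dvd_zero _

theorem pow_le_VT : (powMonoidHom p : Kˣ →* Kˣ).range ≤ VT T p := by
  rintro _ ⟨b, rfl⟩ v _
  rw [powMonoidHom_apply, ofMul_pow, map_nsmul, nsmul_eq_mul]
  exact dvd_mul_right _ _

variable {p}

theorem nsmul_divT_injective (hp : p ≠ 0) {D D' : DivT K T} (h : p • D = p • D') : D = D' := by
  ext v
  have := DFunLike.congr_fun h v
  rw [Finsupp.smul_apply, Finsupp.smul_apply, nsmul_eq_mul, nsmul_eq_mul] at this
  exact mul_left_cancel₀ (by exact_mod_cast hp) this

/-- the divisor `(a)/p` of an element of `V_T`. -/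
noncomputable def divP (a : VT T p) : DivT K T :=
  ((mem_VT_iff_divT T p).mp a.2).choose

theorem nsmul_divP (a : VT T p) : p • divP T a = divT T (Additive.ofMul (a : Kˣ)) :=
  ((mem_VT_iff_divT T p).mp a.2).choose_spec

/-- the class map `V_T → Cl_T`, `a ↦ [(a)/p]`. -/
noncomputable def theta (hp : p ≠ 0) : VT T p →* Multiplicative (ClT K T) where
  toFun a := Multiplicative.ofAdd (clOf T (divP T a))
  map_one' := by
    have : divP T (1 : VT T p) = 0 := by
      apply nsmul_divT_injective T hp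
      rw [nsmul_divP, smul_zero]
      simp
    rw [this, map_zero]
    rfl
  map_mul' a b := by
    have : divP T (a * b) = divP T a + divP T b := by
      apply nsmul_divT_injective T hp
      rw [nsmul_divP, smul_add, nsmul_divP, nsmul_divP]
      simp
    rw [this, map_add]
    rfl

theorem theta_apply (hp : p ≠ 0) (a : VT T p) :
    Multiplicative.toAdd (theta T hp a) = clOf T (divP T a) := rfl

theorem mem_ker_theta_iff (hp : p ≠ 0) (a : VT T p) :
    a ∈ (theta T hp).ker ↔ (a : Kˣ) ∈ TUnit K T ⊔ (powMonoidHom p : Kˣ →* Kˣ).range := by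
  rw [MonoidHom.mem_ker, Subgroup.mem_sup]
  constructor
  · intro h
    have h1 : clOf T (divP T a) = 0 := by
      have := congrArg Multiplicative.toAdd h
      simpa [theta_apply] using this
    obtain ⟨x, hx⟩ := (clOf_eq_zero_iff T _).mp h1
    refine ⟨(a : Kˣ) * ((Additive.toMul x) ^ p)⁻¹, ?_, (Additive.toMul x) ^ p, ⟨_, rfl⟩, ?_⟩
    · rw [← divT_ofMul_eq_zero_iff]
      have : Additive.ofMul ((a : Kˣ) * ((Additive.toMul x) ^ p)⁻¹) =
          Additive.ofMul (a : Kˣ) - p • x := by
        rw [ofMul_mul, ofMul_inv, ofMul_pow, sub_eq_add_neg]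
        rfl
      rw [this, map_sub, map_nsmul, hx, nsmul_divP, sub_self]
    · simp
  · rintro ⟨u, hu, _, ⟨b, rfl⟩, hab⟩
    have h1 : divP T a = divT T (Additive.ofMul b) := by
      apply nsmul_divT_injective T hp
      rw [nsmul_divP, ← hab, ofMul_mul, map_add, (divT_ofMul_eq_zero_iff T _).mpr hu, zero_add,
        powMonoidHom_apply, ofMul_pow, map_nsmul]
    apply Multiplicative.toAdd.injective
    rw [theta_apply, h1]
    exact (clOf_eq_zero_iff T _).mpr ⟨_, rfl⟩

theorem mem_range_theta_iff (hp : p ≠ 0) (c : Multiplicative (ClT K T)) :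
    c ∈ (theta T hp).range ↔ p • Multiplicative.toAdd c = 0 := by
  constructor
  · rintro ⟨a, rfl⟩
    rw [theta_apply, ← map_nsmul, nsmul_divP]
    exact (clOf_eq_zero_iff T _).mpr ⟨_, rfl⟩
  · intro h
    obtain ⟨D, hD⟩ := clOf_surjective T (Multiplicative.toAdd c)
    rw [← hD, ← map_nsmul, clOf_eq_zero_iff] at h
    obtain ⟨x, hx⟩ := h
    have ha : Additive.toMul x ∈ VT T p := (mem_VT_iff_divT T p).mpr ⟨D, hx.symm⟩
    refine ⟨⟨Additive.toMul x, ha⟩, ?_⟩
    apply Multiplicative.toAdd.injective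
    rw [theta_apply, ← hD]
    congr 1
    apply nsmul_divT_injective T hp
    rw [nsmul_divP]
    exact hx

/-- `T`-units which are `p`-th powers in `K^×` are `p`-th powers of `T`-units. -/
theorem subgroupOf_pow_range_eq (hp : p ≠ 0) :
    (powMonoidHom p : Kˣ →* Kˣ).range.subgroupOf (TUnit K T) =
      (powMonoidHom p : TUnit K T →* TUnit K T).range := by
  ext u
  rw [Subgroup.mem_subgroupOf]
  constructor
  · rintro ⟨b, hb⟩
    rw [powMonoidHom_apply] at hb
    have hbT : b ∈ TUnit K T := by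
      rw [mem_TUnit_iff]
      intro v hv
      have h1 := mem_TUnit_iff.mp u.2 v hv
      rw [← hb, Units.val_pow_eq_pow_val, map_pow] at h1
      exact (pow_eq_one_iff_of_nonneg zero_le hp).mp h1
    exact ⟨⟨b, hbT⟩, Subtype.ext hb⟩
  · rintro ⟨b, rfl⟩
    exact ⟨(b : Kˣ), rfl⟩

/-- **Count**: `[V_T : K^{×p}] = [E_T : E_T^p] · #Cl_T[p]`. -/
theorem relIndex_pow_VT (hp : p.Prime) {ζ : K} (hζ : IsPrimitiveRoot ζ p) :
    (powMonoidHom p : Kˣ →* Kˣ).range.relIndex (VT T p) =
      p ^ (Units.rank K + T.card + 1) * Nat.card {c : ClT K T // p • c = 0} := by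
  have h1 : (powMonoidHom p : Kˣ →* Kˣ).range ≤ TUnit K T ⊔ (powMonoidHom p : Kˣ →* Kˣ).range :=
    le_sup_right
  have h2 : TUnit K T ⊔ (powMonoidHom p : Kˣ →* Kˣ).range ≤ VT T p :=
    sup_le (tunit_le_VT T p) (pow_le_VT T p)
  rw [← Subgroup.relIndex_mul_relIndex _ _ _ h1 h2, Subgroup.relIndex_sup_right]
  congr 1
  · rw [Subgroup.relIndex, subgroupOf_pow_range_eq T hp.ne_zero]
    exact SUnitPow.index_pow_TUnit T hp hζ
  · rw [Subgroup.relIndex]
    have hker : (TUnit K T ⊔ (powMonoidHom p : Kˣ →* Kˣ).range).subgroupOf (VT T p) =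
        (theta T hp.ne_zero).ker := by
      ext a
      rw [Subgroup.mem_subgroupOf, mem_ker_theta_iff]
    rw [hker, Subgroup.index_ker]
    refine Nat.card_congr ?_
    exact
      { toFun := fun c => ⟨Multiplicative.toAdd c.1, (mem_range_theta_iff T hp.ne_zero c.1).mp c.2⟩
        invFun := fun c => ⟨Multiplicative.ofAdd c.1,
          (mem_range_theta_iff T hp.ne_zero _).mpr c.2⟩
        left_inv := fun c => rfl
        right_inv := fun c => rfl }

end VT

/-- for a finite abelian group, `#A[n] = #(A/nA)`. -/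
theorem card_torsion_eq_card_quotient (A : Type*) [AddCommGroup A] [Finite A] (n : ℕ) :
    Nat.card {a : A // n • a = 0} = Nat.card (A ⧸ (nsmulAddMonoidHom n : A →+ A).range) := by
  have h1 : Nat.card (nsmulAddMonoidHom n : A →+ A).ker *
      (nsmulAddMonoidHom n : A →+ A).ker.index = Nat.card A := AddSubgroup.card_mul_index _
  have h2 : Nat.card (nsmulAddMonoidHom n : A →+ A).range *
      (nsmulAddMonoidHom n : A →+ A).range.index = Nat.card A := AddSubgroup.card_mul_index _
  rw [AddSubgroup.index_ker] at h1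
  have h3 : Nat.card (nsmulAddMonoidHom n : A →+ A).range ≠ 0 := Nat.card_pos.ne'
  have h4 : Nat.card (nsmulAddMonoidHom n : A →+ A).ker =
      (nsmulAddMonoidHom n : A →+ A).range.index := by
    have := h1.trans h2.symm
    rw [mul_comm] at this
    exact mul_left_cancel₀ h3 this
  rw [← AddSubgroup.index_eq_card, ← h4]
  exact Nat.card_congr (Equiv.refl _)

end Fermat.Agent.S55.GL.ClassT
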