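import Mathlib

/-!
# S55 / GL4 part 3a: Kummer characters and Hilbert 90, generic form (Mathlib only)

Namespace `Fermat.Agent.S55.GL.Kummer`.  `E/k` a field extension, `Gal(E/k) = E ≃ₐ[k] E`,
`L : IntermediateField k E`, `G_L = L.fixingSubgroup`.

* `exists_eigenvector`: **Hilbert 90 (Noether) in eigenvector form** for a subgroup `K ≤ Gal(E/k)`
  and a character `χ : K →* Eˣ` with `K`-fixed values which is trivial on `K ∩ Gal(E/M)`, `M/k`
  finite: there is `b ≠ 0` with `σ b = χ σ * b` for all `σ ∈ K` (Dedekind independence of the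
  embeddings of `M`).
* `kummerHom L n hμ α hα0 hα : G_L →* rootsOfUnity n E`, `σ ↦ σ α / α`, for `α ^ n ∈ L` and
  `μ_n ⊆ L`; multiplicative in `α`, trivial iff `α ∈ L` (`E/k` Galois), depends only on `α ^ n`.
* `exists_kummerHom_eq`: **Kummer surjectivity**: every character `G_L →* μ_n` trivial on
  `G_L ∩ Gal(E/M)` (`M/k` finite) is a Kummer character.
-/

set_option autoImplicit false

open IntermediateField

namespace Fermat.Agent.S55.GL.Kummer

variable {k E : Type*} [Field k] [Field E] [Algebra k E]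

/-- restriction of an automorphism of `E` to an intermediate field, as an embedding. -/
noncomputable def resEmb (M : IntermediateField k E) (τ : E ≃ₐ[k] E) : M →ₐ[k] E :=
  (τ : E →ₐ[k] E).comp M.val

@[simp] theorem resEmb_apply (M : IntermediateField k E) (τ : E ≃ₐ[k] E) (x : M) :
    resEmb M τ x = τ (x : E) := rfl

theorem resEmb_eq_iff (M : IntermediateField k E) (τ τ' : E ≃ₐ[k] E) :
    resEmb M τ = resEmb M τ' ↔ τ⁻¹ * τ' ∈ M.fixingSubgroup := by
  rw [IntermediateField.mem_fixingSubgroup_iff]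
  constructor
  · intro h x hx
    have := DFunLike.congr_fun h ⟨x, hx⟩
    simp only [resEmb_apply] at this
    rw [AlgEquiv.mul_apply, ← this]
    exact τ.symm_apply_apply x
  · intro h
    ext x
    simp only [resEmb_apply]
    have := h x x.2
    rw [AlgEquiv.mul_apply] at this
    have h2 := congrArg τ this
    rw [show τ ((τ⁻¹ : E ≃ₐ[k] E) (τ' (x : E))) = τ' x from τ.apply_symm_apply _] at h2
    exact h2.symm

/-- **Hilbert 90 (Noether), Dedekind-independence form**, for a subgroup `K` of `Gal(E/k)` acting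
through the finite quotient cut out by a finite subextension `M`. -/
theorem exists_eigenvector (K : Subgroup (E ≃ₐ[k] E)) (M : IntermediateField k E)
    [FiniteDimensional k M] (χ : K →* Eˣ)
    (hχfix : ∀ σ τ : K, (σ : E ≃ₐ[k] E) ((χ τ : Eˣ) : E) = ((χ τ : Eˣ) : E))
    (hχM : ∀ σ : K, (σ : E ≃ₐ[k] E) ∈ M.fixingSubgroup → χ σ = 1) :
    ∃ b : E, b ≠ 0 ∧ (∀ σ : K, (σ : E ≃ₐ[k] E) b = ((χ σ : Eˣ) : E) * b) ∧
      ∃ (z : M), b ∈ Submodule.span k {y : E | ∃ τ : K, y = ((χ τ : Eˣ) : E)⁻¹ * (τ : E ≃ₐ[k] E) z} := by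
  classical
  have : Fintype (M →ₐ[k] E) := Fintype.ofFinite _
  -- the coefficient function
  let c : (M →ₐ[k] E) → E := fun e =>
    if h : ∃ τ : K, resEmb M τ = e then (((χ h.choose : Eˣ) : E))⁻¹ else 0
  have hc : ∀ τ : K, c (resEmb M τ) = (((χ τ : Eˣ) : E))⁻¹ := by
    intro τ
    have h : ∃ τ' : K, resEmb M τ' = resEmb M τ := ⟨τ, rfl⟩
    simp only [c, dif_pos h]
    have h1 := h.choose_spec
    rw [resEmb_eq_iff] at h1
    have h2 : χ (h.choose⁻¹ * τ) = 1 := hχM _ h1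
    rw [map_mul, map_inv, inv_mul_eq_one] at h2
    rw [h2]
  have hc0 : ∀ e : M →ₐ[k] E, (¬ ∃ τ : K, resEmb M τ = e) → c e = 0 := by
    intro e he
    simp only [c, dif_neg he]
  have hli := linearIndependent_algHom_toLinearMap k M E
  have hne : ∑ e : M →ₐ[k] E, c e • e.toLinearMap ≠ 0 := by
    intro h
    have := (Fintype.linearIndependent_iff.mp hli) c h (resEmb M (1 : K))
    rw [hc, map_one] at this
    simp at this
  obtain ⟨z, hz⟩ : ∃ z : M, (∑ e : M →ₐ[k] E, c e • e.toLinearMap) z ≠ 0 := by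
    by_contra hcon
    push Not at hcon
    exact hne (LinearMap.ext hcon)
  have hb : (∑ e : M →ₐ[k] E, c e • e.toLinearMap) z = ∑ e : M →ₐ[k] E, c e * e z := by
    simp [LinearMap.sum_apply]
  rw [hb] at hz
  refine ⟨∑ e : M →ₐ[k] E, c e * e z, hz, ?_, z, ?_⟩
  · intro σ
    rw [map_sum, Finset.mul_sum]
    -- reindex by `e ↦ σ ∘ e`
    let φ : (M →ₐ[k] E) ≃ (M →ₐ[k] E) :=
      { toFun := fun e => ((σ : E ≃ₐ[k] E) : E →ₐ[k] E).comp e
        invFun := fun e => (((σ : E ≃ₐ[k] E)⁻¹ : E ≃ₐ[k] E) : E →ₐ[k] E).comp e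
        left_inv := fun e => by
          ext x
          simp
        right_inv := fun e => by
          ext x
          simp }
    rw [← Equiv.sum_comp φ (fun e => ((χ σ : Eˣ) : E) * (c e * e z))]
    refine Finset.sum_congr rfl fun e _ => ?_
    have hφ : φ e z = (σ : E ≃ₐ[k] E) (e z) := rfl
    rw [map_mul, hφ]
    by_cases he : ∃ τ : K, resEmb M τ = e
    · obtain ⟨τ, rfl⟩ := he
      have h1 : φ (resEmb M τ) = resEmb M ((σ * τ : K) : E ≃ₐ[k] E) := by
        ext x
        rfl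
      rw [h1, hc, hc, map_inv₀, hχfix, map_mul]
      have hu : ((χ σ : Eˣ) : E) ≠ 0 := Units.ne_zero _
      have hu' : ((χ τ : Eˣ) : E) ≠ 0 := Units.ne_zero _
      simp only [Units.val_mul]
      field_simp
    · have he' : ¬ ∃ τ : K, resEmb M τ = φ e := by
        rintro ⟨τ, hτ⟩
        apply he
        refine ⟨σ⁻¹ * τ, ?_⟩
        have : e = φ.symm (φ e) := (φ.symm_apply_apply e).symm
        rw [this, ← hτ]
        ext x
        rfl
      rw [hc0 e he, hc0 _ he']
      simp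
  · refine Submodule.sum_mem _ fun e _ => ?_
    by_cases he : ∃ τ : K, resEmb M τ = e
    · obtain ⟨τ, rfl⟩ := he
      rw [hc]
      exact Submodule.subset_span ⟨τ, rfl⟩
    · rw [hc0 e he, zero_mul]
      exact Submodule.zero_mem _
variable (L : IntermediateField k E) (n : ℕ)

theorem div_pow_eq_one_of_mem_fixingSubgroup {σ : E ≃ₐ[k] E} (hσ : σ ∈ L.fixingSubgroup)
    {α : E} (hα0 : α ≠ 0) (hα : α ^ n ∈ L) : (σ α / α) ^ n = 1 := by
  have h1 : σ (α ^ n) = α ^ n := (IntermediateField.mem_fixingSubgroup_iff _ _).mp hσ _ hα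
  rw [div_pow, ← map_pow, h1]
  exact div_self (pow_ne_zero _ hα0)

/-- the Kummer character `σ ↦ σ α / α` of `Gal(E/L)` attached to an `n`-th root `α` of an element
of `L`, when `L` contains the `n`-th roots of unity. -/
noncomputable def kummerHom [NeZero n] (hμ : ∀ ω : E, ω ^ n = 1 → ω ∈ L) (α : E) (hα0 : α ≠ 0)
    (hα : α ^ n ∈ L) : L.fixingSubgroup →* rootsOfUnity n E where
  toFun σ := ⟨Units.mk0 ((σ : E ≃ₐ[k] E) α / α)
      (div_ne_zero ((map_ne_zero _).mpr hα0) hα0), by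
    rw [mem_rootsOfUnity]
    apply Units.ext
    simp only [Units.val_pow_eq_pow_val, Units.val_mk0, Units.val_one]
    exact div_pow_eq_one_of_mem_fixingSubgroup L n σ.2 hα0 hα⟩
  map_one' := by
    apply Subtype.ext
    apply Units.ext
    simp [div_self hα0]
  map_mul' σ τ := by
    apply Subtype.ext
    apply Units.ext
    simp only [Subgroup.coe_mul, Units.val_mul, Units.val_mk0, AlgEquiv.mul_apply]
    have hω : (τ : E ≃ₐ[k] E) α / α ∈ L :=
      hμ _ (div_pow_eq_one_of_mem_fixingSubgroup L n τ.2 hα0 hα)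
    have h1 : (σ : E ≃ₐ[k] E) ((τ : E ≃ₐ[k] E) α / α) = (τ : E ≃ₐ[k] E) α / α :=
      (IntermediateField.mem_fixingSubgroup_iff _ _).mp σ.2 _ hω
    have h2 : (τ : E ≃ₐ[k] E) α = ((τ : E ≃ₐ[k] E) α / α) * α := by
      field_simp
    rw [h2, map_mul, h1]
    field_simp

variable [NeZero n] (hμ : ∀ ω : E, ω ^ n = 1 → ω ∈ L)

@[simp] theorem kummerHom_apply_coe (α : E) (hα0 : α ≠ 0) (hα : α ^ n ∈ L)
    (σ : L.fixingSubgroup) :
    (((kummerHom L n hμ α hα0 hα σ : rootsOfUnity n E) : Eˣ) : E) = (σ : E ≃ₐ[k] E) α / α := rfl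

theorem kummerHom_apply_eq_one_iff (α : E) (hα0 : α ≠ 0) (hα : α ^ n ∈ L)
    (σ : L.fixingSubgroup) :
    kummerHom L n hμ α hα0 hα σ = 1 ↔ (σ : E ≃ₐ[k] E) α = α := by
  rw [← Subtype.coe_inj, ← Units.val_inj, kummerHom_apply_coe]
  simp only [OneMemClass.coe_one, Units.val_one]
  exact div_eq_one_iff_eq hα0

theorem kummerHom_mul (α β : E) (hα0 : α ≠ 0) (hα : α ^ n ∈ L) (hβ0 : β ≠ 0) (hβ : β ^ n ∈ L) :
    kummerHom L n hμ (α * β) (mul_ne_zero hα0 hβ0) (by rw [mul_pow]; exact mul_mem hα hβ) =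
      kummerHom L n hμ α hα0 hα * kummerHom L n hμ β hβ0 hβ := by
  ext σ
  simp only [MonoidHom.mul_apply, Subgroup.coe_mul, Units.val_mul, kummerHom_apply_coe, map_mul]
  field_simp

theorem kummerHom_of_mem (c : E) (hc0 : c ≠ 0) (hc : c ∈ L) :
    kummerHom L n hμ c hc0 (pow_mem hc n) = 1 := by
  ext σ
  rw [kummerHom_apply_coe, (IntermediateField.mem_fixingSubgroup_iff _ _).mp σ.2 c hc,
    div_self hc0]
  rfl

/-- the Kummer character only depends on `α ^ n`. -/
theorem kummerHom_congr (α β : E) (hα0 : α ≠ 0) (hα : α ^ n ∈ L) (hβ0 : β ≠ 0)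
    (hαβ : α ^ n = β ^ n) :
    kummerHom L n hμ α hα0 hα = kummerHom L n hμ β hβ0 (hαβ ▸ hα) := by
  have hω : (α / β) ^ n = 1 := by
    rw [div_pow, hαβ]
    exact div_self (pow_ne_zero _ hβ0)
  have hωL : α / β ∈ L := hμ _ hω
  ext σ
  rw [kummerHom_apply_coe, kummerHom_apply_coe]
  have h1 : (σ : E ≃ₐ[k] E) (α / β) = α / β :=
    (IntermediateField.mem_fixingSubgroup_iff _ _).mp σ.2 _ hωL
  have h2 : α = (α / β) * β := by field_simp
  rw [h2, map_mul, h1]
  have hσβ : (σ : E ≃ₐ[k] E) β ≠ 0 := (map_ne_zero _).mpr hβ0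
  field_simp

/-- the Kummer character is trivial iff `α ∈ L` (for `E/k` Galois). -/
theorem kummerHom_eq_one_iff [IsGalois k E] (α : E) (hα0 : α ≠ 0) (hα : α ^ n ∈ L) :
    kummerHom L n hμ α hα0 hα = 1 ↔ α ∈ L := by
  constructor
  · intro h
    have h1 : α ∈ IntermediateField.fixedField L.fixingSubgroup := by
      rw [IntermediateField.mem_fixedField_iff]
      intro σ hσ
      have := (kummerHom_apply_eq_one_iff L n hμ α hα0 hα ⟨σ, hσ⟩).mp (by rw [h]; rfl)
      exact this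
    rwa [InfiniteGalois.fixedField_fixingSubgroup] at h1
  · intro h
    ext σ
    rw [kummerHom_apply_coe, (IntermediateField.mem_fixingSubgroup_iff _ _).mp σ.2 α h,
      div_self hα0]
    rfl

/-- **Kummer surjectivity (via Hilbert 90)**: every character `Gal(E/L) → μ_n` which is trivial on
`Gal(E/L) ∩ Gal(E/M)` for a finite `M/k` is a Kummer character; the root `b` can be found in any
`Gal(E/L)`-stable intermediate field containing `L` and `M`. -/
theorem exists_kummerHom_eq [IsGalois k E] (M : IntermediateField k E) [FiniteDimensional k M]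
    (χ : L.fixingSubgroup →* rootsOfUnity n E)
    (hχM : ∀ σ : L.fixingSubgroup, (σ : E ≃ₐ[k] E) ∈ M.fixingSubgroup → χ σ = 1) :
    ∃ (b : E) (hb0 : b ≠ 0) (hb : b ^ n ∈ L), kummerHom L n hμ b hb0 hb = χ ∧
      ∀ N : IntermediateField k E, L ≤ N → M ≤ N →
        (∀ σ ∈ L.fixingSubgroup, ∀ x ∈ N, σ x ∈ N) → b ∈ N := by
  have hval : ∀ τ : L.fixingSubgroup, (((χ τ : rootsOfUnity n E) : Eˣ) : E) ∈ L := by
    intro τ
    apply hμ
    have := (mem_rootsOfUnity _ _).mp (χ τ).2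
    have h2 := congrArg (fun u : Eˣ => (u : E)) this
    simpa using h2
  obtain ⟨b, hb0, hb, z, hspan⟩ := exists_eigenvector L.fixingSubgroup M
    ((rootsOfUnity n E).subtype.comp χ)
    (fun σ τ => (IntermediateField.mem_fixingSubgroup_iff _ _).mp σ.2 _ (hval τ))
    (fun σ hσ => by
      rw [MonoidHom.comp_apply, hχM σ hσ]
      rfl)
  have hbσ : ∀ σ : L.fixingSubgroup,
      (σ : E ≃ₐ[k] E) b = (((χ σ : rootsOfUnity n E) : Eˣ) : E) * b := hb
  have hbn : b ^ n ∈ L := by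
    have h1 : b ^ n ∈ IntermediateField.fixedField L.fixingSubgroup := by
      rw [IntermediateField.mem_fixedField_iff]
      intro σ hσ
      rw [map_pow, hbσ ⟨σ, hσ⟩, mul_pow]
      have := (mem_rootsOfUnity _ _).mp (χ ⟨σ, hσ⟩).2
      have h2 := congrArg (fun u : Eˣ => (u : E)) this
      simp only [Units.val_pow_eq_pow_val, Units.val_one] at h2
      rw [h2, one_mul]
    rwa [InfiniteGalois.fixedField_fixingSubgroup] at h1
  refine ⟨b, hb0, hbn, ?_, ?_⟩
  · ext σ
    rw [kummerHom_apply_coe, hbσ σ, mul_div_assoc, div_self hb0, mul_one]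
  · intro N hLN hMN hN
    refine (Submodule.span_le (p := N.toSubalgebra.toSubmodule)).mpr ?_ hspan
    rintro y ⟨τ, rfl⟩
    show _ ∈ N
    exact mul_mem (inv_mem (hLN (hval τ))) (hN _ τ.2 _ (hMN z.2))

theorem mem_ker_kummerHom_iff (α : E) (hα0 : α ≠ 0) (hα : α ^ n ∈ L) (σ : L.fixingSubgroup) :
    σ ∈ (kummerHom L n hμ α hα0 hα).ker ↔ (σ : E ≃ₐ[k] E) α = α := by
  rw [MonoidHom.mem_ker]
  exact kummerHom_apply_eq_one_iff L n hμ α hα0 hα σ

end Fermat.Agent.S55.GL.Kummer
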