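import Mathlib
import Fermat.Agent.S13.InertiaLift
import Fermat.Agent.S55.GL.KummerUnram
import Fermat.Agent.S55.GL.QS

/-!
# S55 / GLO1 + GL4 part 2: prelude-unramified ⇒ ideal-theoretically unramified; Kummer converse

Namespace `Fermat.Agent.S55.GL.UnramBridge`.

* `inertia_eq_bot`: for `N/ℚ` finite Galois inside `ℚ̄` on which the prelude inertia group of a
  place `A` of `ℚ̄` acts trivially, the Mathlib inertia group of `primeBelow N A` in `Gal(N/ℚ)` is
  trivial; `ramificationIdx_eq_one_of_isGalois`: hence `e = 1`.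
* `valuation_natCast`: `v_P(q) = exp(-1) ^ e(P|q)` for `P = placeBelow N A`.
* `exists_valuation_eq_zpow_of_isUnramifiedOutside`: **value group**: if `F` is unramified outside
  `S` (prelude sense), `A` lies over `q ∉ S`, then every `x ∈ F^×` has `v_A(x) = v_A(q) ^ n`.
* `ramificationIdx_eq_one_of_isUnramifiedOutside`: **bridge**: every prime of `𝓞 F` not above `S`
  has ramification index `1` over `ℤ`.
* `exists_valuation_eq_pow_of_isUnramifiedOutside`, `isUnramifiedOutside_sup_adjoin_root_iff`,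
  `isUnramifiedOutside_sup_adjoin_root_iff_dvd`: **Kummer criterion, both directions**:
  `F(a^(1/p^k))` is unramified outside `S ∋ p` iff `p^k ∣ ord_v(a)` for all `v` not above `S`.
-/

set_option autoImplicit false
set_option linter.style.haveILetI false
set_option linter.unusedSectionVars false

open IntermediateField NumberField IsDedekindDomain
open Fermat.Agent.S55.GL.KummerUnram Fermat.Agent.S55.GL.QS

namespace Fermat.Agent.S55.GL.UnramBridge

local notation "Qbar" => AlgebraicClosure ℚ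
local notation "Γ" => (AlgebraicClosure ℚ ≃ₐ[ℚ] AlgebraicClosure ℚ)

local instance isAlgebraicQbar_S55UB : Algebra.IsAlgebraic ℚ (AlgebraicClosure ℚ) :=
  AlgebraicClosure.isAlgebraic ℚ
local instance isAlgClosureQbar_S55UB : IsAlgClosure ℚ (AlgebraicClosure ℚ) :=
  ⟨inferInstance, AlgebraicClosure.isAlgebraic ℚ⟩
local instance normalQbar_S55UB : Normal ℚ (AlgebraicClosure ℚ) :=
  IsAlgClosure.normal ℚ (AlgebraicClosure ℚ)

section Galois

variable (N : IntermediateField ℚ Qbar) [NumberField N] [IsGalois ℚ N]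

/-- If the (prelude) inertia group of the place `A` of `ℚ̄` acts trivially on the finite Galois
extension `N/ℚ`, then the inertia group of the prime of `N` below `A` is trivial. -/
theorem inertia_eq_bot (A : ValuationSubring Qbar) {q : ℕ} (hq : q.Prime)
    (hA : A.LiesOverPrime q) (hN : A.inertiaSubgroupIn ℚ ≤ N.fixingSubgroup) :
    (primeBelow N A).inertia Gal(N/ℚ) = ⊥ := by
  have hnorm : Normal ℚ N := IsGalois.to_normal
  rw [eq_bot_iff]
  intro σ₀ hσ₀
  rw [Subgroup.mem_bot]
  obtain ⟨τ, hτ⟩ := AlgEquiv.restrictNormalHom_surjective (F := ℚ) (K₁ := N) Qbar σ₀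
  have hτx : ∀ x : N, τ (x : Qbar) = ((σ₀ x : N) : Qbar) := by
    intro x
    rw [← hτ]
    exact (AlgEquiv.restrictNormal_commutes τ N x).symm
  have hfd : FiniteDimensional ℚ N := inferInstance
  obtain ⟨σ, hσI, hσ⟩ := Fermat.Agent.S13.InertiaLift.exists_mem_inertiaSubgroupIn_forall_eq N A hq
    hA τ (fun b hb hbN => by
      have hbint : IsIntegral ℤ (⟨b, hbN⟩ : N) := by
        rw [← isIntegral_algebraMap_iff (B := Qbar) (algebraMap N Qbar).injective]
        exact hb
      let x : 𝓞 N := ⟨⟨b, hbN⟩, hbint⟩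
      have h1 : σ₀ • x - x ∈ primeBelow N A := hσ₀ x
      rw [mem_primeBelow] at h1
      have h2 : (((σ₀ • x - x : 𝓞 N) : N) : Qbar) = τ b - b := by
        have := hτx ⟨b, hbN⟩
        push_cast
        rw [this]
        rfl
      rw [← h2]
      exact h1)
  have hfix := hN hσI
  apply AlgEquiv.ext
  intro x
  have h3 : σ (x : Qbar) = (x : Qbar) :=
    (IntermediateField.mem_fixingSubgroup_iff _ _).mp hfix _ x.2
  have h4 := hσ (x : Qbar) x.2
  rw [h3, hτx] at h4
  exact (Subtype.ext h4).symm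

/-- ... hence that prime is unramified over `ℤ`. -/
theorem ramificationIdx_eq_one_of_isGalois (A : ValuationSubring Qbar) {q : ℕ} (hq : q.Prime)
    (hA : A.LiesOverPrime q) (hN : A.inertiaSubgroupIn ℚ ≤ N.fixingSubgroup) :
    (primeBelow N A).ramificationIdx ℤ = 1 := by
  have hin := inertia_eq_bot N A hq hA hN
  have hlo : (primeBelow N A).LiesOver ((primeBelow N A).under ℤ) := ⟨rfl⟩
  have hp : ((primeBelow N A).under ℤ).IsPrime := Ideal.IsPrime.under ℤ (primeBelow N A)
  have h1 := Ideal.card_inertia_eq_ramificationIdxIn (G := Gal(N/ℚ)) ((primeBelow N A).under ℤ)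
    (primeBelow N A)
  rw [hin, Subgroup.card_bot,
    Ideal.ramificationIdxIn_eq_ramificationIdx ((primeBelow N A).under ℤ) (primeBelow N A)
      Gal(N/ℚ)] at h1
  exact h1.symm

end Galois

section Val

variable (N : IntermediateField ℚ Qbar) [NumberField N]

/-- the prime `(q)` of `ℤ`. -/
noncomputable def primeInt {q : ℕ} (hq : q.Prime) : HeightOneSpectrum ℤ :=
  ⟨Ideal.span {(q : ℤ)}, (Ideal.span_singleton_prime (by exact_mod_cast hq.ne_zero)).mpr
    (Nat.prime_iff_prime_int.mp hq), by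
    rw [Ne, Ideal.span_singleton_eq_bot]; exact_mod_cast hq.ne_zero⟩

theorem under_primeBelow (A : ValuationSubring Qbar) {q : ℕ} (hq : q.Prime)
    (hA : A.LiesOverPrime q) : (primeBelow N A).under ℤ = Ideal.span {(q : ℤ)} := by
  have hmax : (Ideal.span {(q : ℤ)}).IsMaximal :=
    Ring.DimensionLEOne.maximalOfPrime (primeInt hq).ne_bot (primeInt hq).isPrime
  refine (hmax.eq_of_le (Ideal.IsPrime.under ℤ (primeBelow N A)).ne_top ?_).symm
  rw [Ideal.span_singleton_le_iff_mem, Ideal.under_def, Ideal.mem_comap]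
  have := natCast_mem_primeBelow N A hA
  simpa using this

theorem valuation_primeInt {q : ℕ} (hq : q.Prime) :
    (primeInt hq).valuation ℚ (q : ℚ) = WithZero.exp (-1 : ℤ) := by
  have := HeightOneSpectrum.valuation_of_algebraMap (K := ℚ) (primeInt hq) (q : ℤ)
  refine Eq.trans ?_ (this.trans ?_)
  · rfl
  exact HeightOneSpectrum.intValuation_singleton _ (by exact_mod_cast hq.ne_zero) rfl

/-- `v_P(q) = exp(-1) ^ e(P|q)` for the prime `P` of `N` below `A`. -/
theorem valuation_natCast (A : ValuationSubring Qbar) {q : ℕ} (hq : q.Prime)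
    (hA : A.LiesOverPrime q) :
    (placeBelow N A hq.ne_zero hA).valuation N (q : N) =
      WithZero.exp (-1 : ℤ) ^ (primeBelow N A).ramificationIdx ℤ := by
  have hlo : (placeBelow N A hq.ne_zero hA).asIdeal.LiesOver (primeInt hq).asIdeal :=
    ⟨(under_primeBelow N A hq hA).symm⟩
  have h1 := HeightOneSpectrum.valuation_liesOver N (primeInt hq) (placeBelow N A hq.ne_zero hA)
    (q : ℚ)
  rw [valuation_primeInt hq, Ideal.ramificationIdx'_eq_ramificationIdx _ _ (primeInt hq).ne_bot,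
    map_natCast] at h1
  exact h1.symm

/-- if `e(P|q) = 1` then the value group of `N` at `A` is generated by `v_A(q)`. -/
theorem exists_valuation_eq_zpow (A : ValuationSubring Qbar) {q : ℕ} (hq : q.Prime)
    (hA : A.LiesOverPrime q) (he : (primeBelow N A).ramificationIdx ℤ = 1) {x : Qbar}
    (hx : x ∈ N) (hx0 : x ≠ 0) : ∃ n : ℤ, A.valuation x = A.valuation (q : Qbar) ^ n := by
  set w := placeBelow N A hq.ne_zero hA with hw
  have hwq : w.valuation N (q : N) = WithZero.exp (-1 : ℤ) := by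
    rw [hw, valuation_natCast N A hq hA, he, pow_one]
  have hx0' : (⟨x, hx⟩ : N) ≠ 0 := fun h => hx0 (congrArg Subtype.val h)
  have hv0 : w.valuation N ⟨x, hx⟩ ≠ 0 := (map_ne_zero _).mpr hx0'
  set m : ℤ := WithZero.log (w.valuation N ⟨x, hx⟩) with hm
  have hvm : w.valuation N ⟨x, hx⟩ = WithZero.exp m := (WithZero.exp_log hv0).symm
  refine ⟨-m, ?_⟩
  have hq0 : (q : N) ≠ 0 := by exact_mod_cast hq.ne_zero
  have h1 : w.valuation N (⟨x, hx⟩ / (q : N) ^ (-m)) = 1 := by
    rw [map_div₀, map_zpow₀, hwq, hvm, ← WithZero.exp_zsmul]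
    simp
  have h2 := (valuation_eq_one_iff N A hq.ne_zero hA _).mpr h1
  have h3 : (((⟨x, hx⟩ / (q : N) ^ (-m) : N)) : Qbar) = x / (q : Qbar) ^ (-m) := by
    push_cast
    rfl
  rw [h3, map_div₀, map_zpow₀] at h2
  have hq0' : A.valuation (q : Qbar) ^ (-m) ≠ 0 :=
    zpow_ne_zero _ ((map_ne_zero _).mpr (by exact_mod_cast hq.ne_zero))
  exact (div_eq_one_iff_eq hq0').mp h2

end Val

section Main

variable {S : Finset Nat.Primes}

/-- **Value group of a field unramified outside `S`** at a place over `q ∉ S`: generated by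
`v_A(q)`. -/
theorem exists_valuation_eq_zpow_of_isUnramifiedOutside {F : IntermediateField ℚ Qbar}
    (hF : F.IsUnramifiedOutside S) {q : Nat.Primes} (hq : q ∉ S) {A : ValuationSubring Qbar}
    (hA : A.LiesOverPrime (q : ℕ)) {x : Qbar} (hx : x ∈ F) (hx0 : x ≠ 0) :
    ∃ n : ℤ, A.valuation x = A.valuation ((q : ℕ) : Qbar) ^ n := by
  obtain ⟨N, hFN, hN, hgal⟩ := exists_isGalois_isUnramifiedOutside hF
  haveI : NumberField N := numberField_of_finiteDimensional N hN.1
  have he := ramificationIdx_eq_one_of_isGalois N A q.2 hA (hN.2 q hq A hA)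
  exact exists_valuation_eq_zpow N A q.2 hA he (hFN hx) hx0

/-- a height-one prime of `𝓞 F` is *off `S`* if it contains no prime number from `S`. -/
def IsOff (S : Finset Nat.Primes) {F : IntermediateField ℚ Qbar} [NumberField F]
    (v : HeightOneSpectrum (𝓞 F)) : Prop :=
  ∀ q ∈ S, (((q : ℕ) : 𝓞 F)) ∉ v.asIdeal

theorem not_mem_of_isOff_placeBelow {F : IntermediateField ℚ Qbar} [NumberField F]
    {A : ValuationSubring Qbar} {q : Nat.Primes} (hA : A.LiesOverPrime (q : ℕ))
    (hv : IsOff S (placeBelow F A q.2.ne_zero hA)) : q ∉ S := fun hqS =>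
  hv q hqS (natCast_mem_primeBelow F A hA)

theorem isOff_placeBelow {F : IntermediateField ℚ Qbar} [NumberField F]
    {A : ValuationSubring Qbar} {q : Nat.Primes} (hA : A.LiesOverPrime (q : ℕ)) (hq : q ∉ S) :
    IsOff S (placeBelow F A q.2.ne_zero hA) := by
  intro q' hq' hmem
  have hne : (q' : ℕ) ≠ (q : ℕ) := fun h => hq (by rwa [← Subtype.ext h])
  have hcop : Nat.Coprime (q' : ℕ) (q : ℕ) := (Nat.coprime_primes q'.2 q.2).mpr hne
  have h1 : (((q' : ℕ) : 𝓞 F) : F) = ((q' : ℕ) : F) := by push_cast; rfl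
  have h2 : ((((q' : ℕ) : 𝓞 F) : F) : Qbar) ∈ A.nonunits := hmem
  rw [h1] at h2
  have h3 : (((q' : ℕ) : F) : Qbar) = ((q' : ℕ) : Qbar) := by push_cast; rfl
  rw [h3] at h2
  exact natCast_not_mem_nonunits_of_coprime A hA hcop h2

/-- transfer of "valuation one" statements for quotients by powers of `q`. -/
theorem valuation_eq_zpow_iff {F : IntermediateField ℚ Qbar} [NumberField F]
    (A : ValuationSubring Qbar) {q : ℕ} (hq : q.Prime) (hA : A.LiesOverPrime q) (x : F) (n : ℤ) :
    A.valuation (x : Qbar) = A.valuation (q : Qbar) ^ n ↔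
      (placeBelow F A hq.ne_zero hA).valuation F x =
        (placeBelow F A hq.ne_zero hA).valuation F (q : F) ^ n := by
  have hq0 : (q : F) ≠ 0 := by exact_mod_cast hq.ne_zero
  have hq0' : (q : Qbar) ≠ 0 := by exact_mod_cast hq.ne_zero
  have h3 : (((x / (q : F) ^ n : F)) : Qbar) = (x : Qbar) / (q : Qbar) ^ n := by
    push_cast
    rfl
  have key := valuation_eq_one_iff F A hq.ne_zero hA (x / (q : F) ^ n)
  rw [h3, map_div₀, map_zpow₀, map_div₀, map_zpow₀,
    div_eq_one_iff_eq (zpow_ne_zero _ ((map_ne_zero _).mpr hq0')),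
    div_eq_one_iff_eq (zpow_ne_zero _ ((map_ne_zero _).mpr hq0))] at key
  exact key

/-- **Bridge**: a field unramified outside `S` in the prelude sense is unramified, in the sense
of Dedekind domains, at every prime not above `S`. -/
theorem ramificationIdx_eq_one_of_isUnramifiedOutside {F : IntermediateField ℚ Qbar}
    [NumberField F] (hF : F.IsUnramifiedOutside S) (v : HeightOneSpectrum (𝓞 F))
    (hv : IsOff S v) : v.asIdeal.ramificationIdx ℤ = 1 := by
  obtain ⟨q, hq, A, hA, rfl⟩ := exists_placeBelow_eq F v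
  have hqS : (⟨q, hq⟩ : Nat.Primes) ∉ S := not_mem_of_isOff_placeBelow (q := ⟨q, hq⟩) hA hv
  obtain ⟨π, hπ⟩ := HeightOneSpectrum.valuation_exists_uniformizer F
    (placeBelow F A hq.ne_zero hA)
  have hπ0 : π ≠ 0 := by
    rintro rfl
    rw [map_zero] at hπ
    exact WithZero.exp_ne_zero hπ.symm
  have hπ0' : (π : Qbar) ≠ 0 := by simpa using hπ0
  obtain ⟨n, hn⟩ := exists_valuation_eq_zpow_of_isUnramifiedOutside hF hqS (q := ⟨q, hq⟩) hA
    π.2 hπ0'
  have h1 := (valuation_eq_zpow_iff A hq hA π n).mp hn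
  rw [hπ, valuation_natCast F A hq hA, ← zpow_natCast, ← zpow_mul, ← WithZero.exp_zsmul,
    WithZero.exp_inj] at h1
  have h2 : ((primeBelow F A).ramificationIdx ℤ : ℤ) * n = 1 := by
    simp only [smul_eq_mul] at h1
    linarith
  have h3 := Int.eq_one_or_neg_one_of_mul_eq_one h2
  rcases h3 with h3 | h3
  · exact_mod_cast h3
  · exfalso
    have : (0 : ℤ) ≤ ((primeBelow F A).ramificationIdx ℤ : ℤ) := Int.natCast_nonneg _
    omega

/-- **Kummer converse**: if `F(α)` is unramified outside `S` and `α ^ n = a ≠ 0`, then at every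
place `A` over `q ∉ S` the valuation of `a` is an `n`-th power of the valuation of a nonzero
RATIONAL number (a power of `q`). -/
theorem exists_valuation_eq_pow_of_isUnramifiedOutside {F : IntermediateField ℚ Qbar}
    {a α : Qbar} {n : ℕ} (hFα : (F ⊔ ℚ⟮α⟯).IsUnramifiedOutside S) (hα : α ^ n = a) (ha0 : a ≠ 0)
    {q : Nat.Primes} (hq : q ∉ S) {A : ValuationSubring Qbar} (hA : A.LiesOverPrime (q : ℕ)) :
    ∃ m : ℤ, A.valuation a = A.valuation (((q : ℕ) : Qbar) ^ m) ^ n := by
  by_cases hα0 : α = 0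
  · refine ⟨0, ?_⟩
    rcases Nat.eq_zero_or_pos n with hn | hn
    · subst hn
      rw [← hα]
      simp
    · exfalso
      rw [hα0, zero_pow hn.ne'] at hα
      exact ha0 hα.symm
  · have hαmem : α ∈ F ⊔ ℚ⟮α⟯ :=
      (le_sup_right : ℚ⟮α⟯ ≤ F ⊔ ℚ⟮α⟯) (mem_adjoin_simple_self ℚ α)
    obtain ⟨m, hm⟩ := exists_valuation_eq_zpow_of_isUnramifiedOutside hFα hq hA hαmem hα0
    refine ⟨m, ?_⟩
    rw [← hα, map_pow, hm, map_zpow₀]

variable {p : ℕ}

/-- **Kummer criterion, valuation form.** -/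
theorem isUnramifiedOutside_sup_adjoin_root_iff (hp : p.Prime) (hpS : (⟨p, hp⟩ : Nat.Primes) ∈ S)
    {F : IntermediateField ℚ Qbar} (hF : F.IsUnramifiedOutside S) {a α : Qbar} (ha : a ∈ F)
    (ha0 : a ≠ 0) (k : ℕ) (hα : α ^ (p ^ k) = a) :
    (F ⊔ ℚ⟮α⟯).IsUnramifiedOutside S ↔
      ∀ q : Nat.Primes, q ∉ S → ∀ A : ValuationSubring Qbar, A.LiesOverPrime (q : ℕ) →
        ∃ b ∈ F, b ≠ 0 ∧ A.valuation a = A.valuation b ^ (p ^ k) := by
  refine ⟨fun h q hq A hA => ?_, isUnramifiedOutside_sup_adjoin_root hp hpS hF ha k hα⟩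
  obtain ⟨m, hm⟩ := exists_valuation_eq_pow_of_isUnramifiedOutside h hα ha0 hq hA
  have hq0 : ((q : ℕ) : Qbar) ≠ 0 := by exact_mod_cast q.2.ne_zero
  exact ⟨((q : ℕ) : Qbar) ^ m, zpow_mem (IntermediateField.natCast_mem F (q : ℕ)) m, zpow_ne_zero _ hq0, hm⟩

/-- **Kummer criterion, divisor form**: for `F` unramified outside `S ∋ p` and `a ∈ F^×`, the field
`F(a^(1/p^k))` is unramified outside `S` iff `p^k` divides `ord_v(a)` for every prime `v` of `F`
not above `S`. (`WithZero.log (v.valuation F a) = - ord_v(a)`.) -/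
theorem isUnramifiedOutside_sup_adjoin_root_iff_dvd (hp : p.Prime)
    (hpS : (⟨p, hp⟩ : Nat.Primes) ∈ S) {F : IntermediateField ℚ Qbar} [NumberField F]
    (hF : F.IsUnramifiedOutside S) {a : F} (ha0 : a ≠ 0) {α : Qbar} (k : ℕ)
    (hα : α ^ (p ^ k) = (a : Qbar)) :
    (F ⊔ ℚ⟮α⟯).IsUnramifiedOutside S ↔
      ∀ v : HeightOneSpectrum (𝓞 F), IsOff S v →
        ((p ^ k : ℕ) : ℤ) ∣ WithZero.log (v.valuation F a) := by
  have ha0' : (a : Qbar) ≠ 0 := by simpa using ha0
  constructor
  · intro h v hv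
    obtain ⟨q, hq, A, hA, rfl⟩ := exists_placeBelow_eq F v
    have hqS : (⟨q, hq⟩ : Nat.Primes) ∉ S := not_mem_of_isOff_placeBelow (q := ⟨q, hq⟩) hA hv
    obtain ⟨m, hm⟩ := exists_valuation_eq_pow_of_isUnramifiedOutside h hα ha0' hqS
      (q := ⟨q, hq⟩) hA
    rw [map_zpow₀, ← zpow_natCast, ← zpow_mul] at hm
    have h1 := (valuation_eq_zpow_iff A hq hA a _).mp hm
    rw [h1, valuation_natCast F A hq hA, ← zpow_natCast, ← zpow_mul, ← WithZero.exp_zsmul,
      WithZero.log_exp]
    refine ⟨-(((primeBelow F A).ramificationIdx ℤ : ℤ) * m), ?_⟩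
    simp only [smul_eq_mul]
    push_cast
    ring
  · intro h
    refine isUnramifiedOutside_sup_adjoin_root hp hpS hF a.2 k hα fun q hq A hA => ?_
    obtain ⟨m, hm⟩ := h _ (isOff_placeBelow (F := F) hA hq)
    obtain ⟨π, hπ⟩ := HeightOneSpectrum.valuation_exists_uniformizer F
      (placeBelow F A q.2.ne_zero hA)
    have hπ0 : π ≠ 0 := by
      rintro rfl
      rw [map_zero] at hπ
      exact WithZero.exp_ne_zero hπ.symm
    have hπ0' : (π : Qbar) ≠ 0 := by simpa using hπ0
    have hv0 : (placeBelow F A q.2.ne_zero hA).valuation F a ≠ 0 := (map_ne_zero _).mpr ha0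
    refine ⟨((π ^ (-m) : F) : Qbar), (π ^ (-m) : F).2, ?_, ?_⟩
    · have : (π ^ (-m) : F) ≠ 0 := zpow_ne_zero _ hπ0
      simpa using this
    · have h1 : (placeBelow F A q.2.ne_zero hA).valuation F (a / (π ^ (-m)) ^ (p ^ k)) = 1 := by
        rw [map_div₀, map_pow, map_zpow₀, hπ, ← WithZero.exp_log hv0, hm, ← WithZero.exp_zsmul,
          ← WithZero.exp_nsmul]
        rw [div_eq_one_iff_eq WithZero.exp_ne_zero, WithZero.exp_inj]
        simp only [smul_eq_mul, nsmul_eq_mul]
        push_cast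
        ring
      have h2 := (valuation_eq_one_iff F A q.2.ne_zero hA _).mpr h1
      have h3 : (((a / (π ^ (-m)) ^ (p ^ k) : F)) : Qbar) =
          (a : Qbar) / ((π ^ (-m) : F) : Qbar) ^ (p ^ k) := by
        push_cast
        rfl
      rw [h3, map_div₀, map_pow] at h2
      have hne : A.valuation ((π ^ (-m) : F) : Qbar) ^ (p ^ k) ≠ 0 := by
        apply pow_ne_zero
        rw [map_ne_zero]
        have : (π ^ (-m) : F) ≠ 0 := zpow_ne_zero _ hπ0
        simpa using this
      exact (div_eq_one_iff_eq hne).mp h2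

end Main

end Fermat.Agent.S55.GL.UnramBridge
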