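import Mathlib
import Fermat.Agent.S55.GL.KummerChar
import Fermat.Agent.S55.GL.UnramBridge
import Fermat.Agent.S55.LevelGlobal

/-!
# S55 / GL4 part 3b: Kummer theory for `G_{L,S}` — `H¹(G_{L,S}, μ_n)` via radicals

Namespace `Fermat.Agent.S55.GL.Kummer`.  `L : IntermediateField ℚ ℚ̄` with `μ_n ⊆ L`,
`G_L = L.fixingSubgroup ≤ Γ = Gal(ℚ̄/ℚ)`.

* `IsSLevel L S χ`: the character `χ` of `G_L` is trivial on `G_L ∩ U` for some `U` of
  `globalLevel S` (helper10's level structure of `G_{ℚ,S}`); `isSLevel_iff` (`U = Gal(ℚ̄/F)`,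
  `F` unramified outside `S`).
* `isSLevel_kummerHom_iff`: the Kummer character of `α` is an `S`-level character iff
  `L(α)` is unramified outside `S`.
* `exists_kummerHom_eq_of_isSLevel`: every `S`-level character `G_L → μ_n` is a Kummer character
  `σ ↦ σ b / b` with `L(b)` unramified outside `S`.
* `kummerUnitHom L n hμ : L^× →* Hom(G_L, μ_n)` (trivial exactly on `n`-th powers);
  `VS L S p ≤ L^×` (divisor a `p`-th power off `S`); **(K1)**: `isSLevel_kummerUnitHom_iff`
  (`χ_a` is an `S`-level character iff `a ∈ V_S(L)`), `exists_kummerUnitHom_eq_of_isSLevel`,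
  `kummerVS : V_S(L) →* X_S(L)` surjective (`kummerVS_surjective`) with kernel the `p`-th powers
  (`mem_ker_kummerVS_iff`): `H¹(G_{L,S}, μ_p) = X_S(L) ≅ V_S(L)/L^{×p}`.
-/

set_option autoImplicit false
set_option linter.style.haveILetI false
set_option linter.unusedSectionVars false

open IntermediateField NumberField IsDedekindDomain
open Fermat.Agent.S55.Level Fermat.Agent.S55.LevelGlobal
open Fermat.Agent.S55.GL.KummerUnram Fermat.Agent.S55.GL.QS Fermat.Agent.S55.GL.UnramBridge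

namespace Fermat.Agent.S55.GL.Kummer

local notation "Qbar" => AlgebraicClosure ℚ
local notation "Γ" => (AlgebraicClosure ℚ ≃ₐ[ℚ] AlgebraicClosure ℚ)

variable {S : Finset Nat.Primes} (L : IntermediateField ℚ Qbar)

section Level

variable {X : Type*} [Monoid X]

/-- `χ` is an `S`-level character of `G_L`: trivial on `G_L ∩ U` for a member `U` of the level
structure of `G_{ℚ,S}`. -/
def IsSLevel (S : Finset Nat.Primes) (χ : L.fixingSubgroup →* X) : Prop :=
  ∃ U ∈ (globalLevel S).sets, ∀ σ : L.fixingSubgroup, (σ : Γ) ∈ U → χ σ = 1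

theorem isSLevel_iff (χ : L.fixingSubgroup →* X) :
    IsSLevel L S χ ↔ ∃ F : IntermediateField ℚ Qbar, F.IsUnramifiedOutside S ∧
      ∀ σ : L.fixingSubgroup, (σ : Γ) ∈ F.fixingSubgroup → χ σ = 1 := by
  constructor
  · rintro ⟨U, hU, h⟩
    obtain ⟨F, hF, -, rfl⟩ := exists_eq_fixingSubgroup hU
    exact ⟨F, hF, h⟩
  · rintro ⟨F, hF, h⟩
    obtain ⟨F', hFF', hF', hgal⟩ := exists_isGalois_isUnramifiedOutside hF
    refine ⟨F'.fixingSubgroup, fixingSubgroup_mem_globalLevel hF' hgal.to_normal, fun σ hσ => ?_⟩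
    exact h σ (IntermediateField.fixingSubgroup_antitone hFF' hσ)

theorem isSLevel_one : IsSLevel L S (1 : L.fixingSubgroup →* X) := by
  obtain ⟨U, hU⟩ := (globalLevel S).nonempty
  exact ⟨U, hU, fun _ _ => rfl⟩

end Level

section Comm

variable {X : Type*} [CommGroup X]

theorem IsSLevel.mul {χ ψ : L.fixingSubgroup →* X} (hχ : IsSLevel L S χ) (hψ : IsSLevel L S ψ) :
    IsSLevel L S (χ * ψ) := by
  obtain ⟨U, hU, h⟩ := hχ
  obtain ⟨V, hV, h'⟩ := hψ
  obtain ⟨W, hW, hWle⟩ := (globalLevel S).directed U hU V hV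
  refine ⟨W, hW, fun σ hσ => ?_⟩
  rw [MonoidHom.mul_apply, h σ (hWle hσ).1, h' σ (hWle hσ).2, one_mul]

theorem IsSLevel.inv {χ : L.fixingSubgroup →* X} (hχ : IsSLevel L S χ) : IsSLevel L S χ⁻¹ := by
  obtain ⟨U, hU, h⟩ := hχ
  exact ⟨U, hU, fun σ hσ => by rw [MonoidHom.inv_apply, h σ hσ, inv_one]⟩

/-- the group of `S`-level characters of `G_L` with values in `X`. -/
def levelChars (S : Finset Nat.Primes) (X : Type*) [CommGroup X] :
    Subgroup (L.fixingSubgroup →* X) where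
  carrier := {χ | IsSLevel L S χ}
  mul_mem' := IsSLevel.mul L
  one_mem' := isSLevel_one L
  inv_mem' := IsSLevel.inv L

theorem mem_levelChars {χ : L.fixingSubgroup →* X} : χ ∈ levelChars L S X ↔ IsSLevel L S χ :=
  Iff.rfl

end Comm

section Kummer

variable (n : ℕ) [NeZero n] (hμ : ∀ ω : Qbar, ω ^ n = 1 → ω ∈ L)

theorem isGalois_Qbar' : IsGalois ℚ Qbar := Fermat.Agent.S55.Level.isGalois_Qbar

/-- **the Kummer character of `α` is an `S`-level character iff `L(α)` is unramified outside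
`S`.** -/
theorem isSLevel_kummerHom_iff (hL : L.IsUnramifiedOutside S) (α : Qbar) (hα0 : α ≠ 0)
    (hα : α ^ n ∈ L) :
    IsSLevel L S (kummerHom L n hμ α hα0 hα) ↔ (L ⊔ ℚ⟮α⟯).IsUnramifiedOutside S := by
  haveI := isGalois_Qbar'
  rw [isSLevel_iff]
  constructor
  · rintro ⟨F, hF, h⟩
    -- `α` is fixed by `G_L ∩ G_F = G_{L ⊔ F}`, hence lies in `L ⊔ F`
    have hαmem : α ∈ L ⊔ F := by
      have h1 : α ∈ IntermediateField.fixedField (L ⊔ F).fixingSubgroup := by
        rw [IntermediateField.mem_fixedField_iff]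
        intro σ hσ
        rw [IntermediateField.fixingSubgroup_sup] at hσ
        exact (kummerHom_apply_eq_one_iff L n hμ α hα0 hα ⟨σ, hσ.1⟩).mp (h ⟨σ, hσ.1⟩ hσ.2)
      rwa [InfiniteGalois.fixedField_fixingSubgroup] at h1
    refine (hL.sup hF).of_le (sup_le le_sup_left ?_)
    rw [adjoin_simple_le_iff]
    exact hαmem
  · intro h
    refine ⟨L ⊔ ℚ⟮α⟯, h, fun σ hσ => ?_⟩
    rw [kummerHom_apply_eq_one_iff]
    exact (IntermediateField.mem_fixingSubgroup_iff _ _).mp hσ α
      ((le_sup_right : ℚ⟮α⟯ ≤ L ⊔ ℚ⟮α⟯) (mem_adjoin_simple_self ℚ α))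

/-- **Kummer surjectivity for `G_{L,S}`**: every `S`-level character `G_L → μ_n` is the Kummer
character of some `b` with `b ^ n ∈ L` and `L(b)` unramified outside `S`. -/
theorem exists_kummerHom_eq_of_isSLevel (hL : L.IsUnramifiedOutside S)
    (χ : L.fixingSubgroup →* rootsOfUnity n Qbar) (hχ : IsSLevel L S χ) :
    ∃ (b : Qbar) (hb0 : b ≠ 0) (hb : b ^ n ∈ L), kummerHom L n hμ b hb0 hb = χ ∧
      (L ⊔ ℚ⟮b⟯).IsUnramifiedOutside S := by
  haveI := isGalois_Qbar'
  obtain ⟨U, hU, h⟩ := hχ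
  obtain ⟨F, hF, hFn, rfl⟩ := exists_eq_fixingSubgroup hU
  haveI := hF.1
  obtain ⟨b, hb0, hb, hbχ, hbN⟩ := exists_kummerHom_eq L n hμ F χ h
  refine ⟨b, hb0, hb, hbχ, ?_⟩
  have hbmem : b ∈ L ⊔ F := by
    refine hbN (L ⊔ F) le_sup_left le_sup_right fun σ hσ x hx => ?_
    -- `L ⊔ F` is stable under `G_L` since `F/ℚ` is normal
    have h1 : (L ⊔ F).map (σ : Qbar →ₐ[ℚ] Qbar) ≤ L ⊔ F := by
      rw [IntermediateField.map_sup]
      refine sup_le (le_trans ?_ le_sup_left) (le_trans ?_ le_sup_right)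
      · intro y hy
        obtain ⟨z, hz, rfl⟩ := (IntermediateField.mem_map _).mp hy
        have : σ z = z := (IntermediateField.mem_fixingSubgroup_iff _ _).mp hσ z hz
        change σ z ∈ L
        rw [this]
        exact hz
      · have hn' : @Normal ℚ F _ _ F.algebra' := hFn
        exact (IntermediateField.normal_iff_forall_map_le'.mp hn') σ
    exact h1 ((IntermediateField.mem_map _).mpr ⟨x, hx, rfl⟩)
  refine (hL.sup hF).of_le (sup_le le_sup_left ?_)
  rw [adjoin_simple_le_iff]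
  exact hbmem

end Kummer

section Units

variable (n : ℕ) [NeZero n] (hμ : ∀ ω : Qbar, ω ^ n = 1 → ω ∈ L)

/-- a chosen `n`-th root in `ℚ̄`. -/
noncomputable def nthRoot (a : Qbar) : Qbar :=
  (IsAlgClosed.exists_pow_nat_eq a (NeZero.pos n)).choose

theorem nthRoot_pow (a : Qbar) : nthRoot n a ^ n = a :=
  (IsAlgClosed.exists_pow_nat_eq a (NeZero.pos n)).choose_spec

theorem nthRoot_ne_zero {a : Qbar} (ha : a ≠ 0) : nthRoot n a ≠ 0 := by
  intro h
  have := nthRoot_pow n a
  rw [h, zero_pow (NeZero.ne n)] at this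
  exact ha this.symm

/-- the Kummer character of a unit `a` of `L` (via a chosen root). -/
noncomputable def kummerOfUnit (a : Lˣ) : L.fixingSubgroup →* rootsOfUnity n Qbar :=
  kummerHom L n hμ (nthRoot n ((a : L) : Qbar))
    (nthRoot_ne_zero n (by simpa using a.ne_zero))
    (by rw [nthRoot_pow]; exact (a : L).2)

theorem kummerOfUnit_eq (a : Lˣ) (α : Qbar) (hα : α ^ n = ((a : L) : Qbar)) :
    kummerOfUnit L n hμ a = kummerHom L n hμ α
      (by rintro rfl; rw [zero_pow (NeZero.ne n)] at hα; exact a.ne_zero (by exact_mod_cast hα.symm))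
      (by rw [hα]; exact (a : L).2) := by
  unfold kummerOfUnit
  apply kummerHom_congr
  rw [nthRoot_pow, hα]

/-- the Kummer homomorphism `L^× → Hom(G_L, μ_n)`. -/
noncomputable def kummerUnitHom : Lˣ →* (L.fixingSubgroup →* rootsOfUnity n Qbar) where
  toFun a := kummerOfUnit L n hμ a
  map_one' := by
    rw [kummerOfUnit_eq L n hμ 1 1 (by simp)]
    exact kummerHom_of_mem L n hμ 1 one_ne_zero (one_mem L)
  map_mul' a b := by
    have ha := nthRoot_pow n ((a : L) : Qbar)
    have hb := nthRoot_pow n ((b : L) : Qbar)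
    rw [kummerOfUnit_eq L n hμ (a * b) (nthRoot n ((a : L) : Qbar) * nthRoot n ((b : L) : Qbar))
      (by rw [mul_pow, ha, hb]; simp)]
    exact kummerHom_mul L n hμ _ _ _ _ _ _

theorem kummerUnitHom_apply (a : Lˣ) : kummerUnitHom L n hμ a = kummerOfUnit L n hμ a := rfl

theorem kummerUnitHom_eq_one_iff (a : Lˣ) :
    kummerUnitHom L n hμ a = 1 ↔ ∃ b : Lˣ, b ^ n = a := by
  haveI := isGalois_Qbar'
  rw [kummerUnitHom_apply]
  unfold kummerOfUnit
  rw [kummerHom_eq_one_iff]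
  constructor
  · intro h
    have h0 : (⟨nthRoot n ((a : L) : Qbar), h⟩ : L) ≠ 0 := by
      intro h'
      exact nthRoot_ne_zero n (by simpa using a.ne_zero) (congrArg Subtype.val h')
    refine ⟨Units.mk0 _ h0, ?_⟩
    apply Units.ext
    apply Subtype.ext
    simp only [Units.val_pow_eq_pow_val, Units.val_mk0]
    exact nthRoot_pow n _
  · rintro ⟨b, rfl⟩
    -- the chosen root differs from `b` by a root of unity
    have h1 : nthRoot n (((b ^ n : Lˣ) : L) : Qbar) ^ n = ((b : L) : Qbar) ^ n := by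
      rw [nthRoot_pow]
      simp
    have hb0 : ((b : L) : Qbar) ≠ 0 := by simpa using b.ne_zero
    have hω : (nthRoot n (((b ^ n : Lˣ) : L) : Qbar) / ((b : L) : Qbar)) ^ n = 1 := by
      rw [div_pow, h1]
      exact div_self (pow_ne_zero _ hb0)
    have := mul_mem (hμ _ hω) (b : L).2
    rwa [div_mul_cancel₀ _ hb0] at this

section SPart

variable {p : ℕ} (hp : p.Prime) (hpS : (⟨p, hp⟩ : Nat.Primes) ∈ S) [NumberField L]
  (hL : L.IsUnramifiedOutside S)

/-- `V_S(L)`: the elements of `L^×` whose divisor is a `p`-th power off `S`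
(`WithZero.log (v.valuation L a) = - ord_v a`). -/
def VS (S : Finset Nat.Primes) (p : ℕ) : Subgroup Lˣ where
  carrier := {a | ∀ v : HeightOneSpectrum (𝓞 L), IsOff S v →
    (p : ℤ) ∣ WithZero.log (v.valuation L (a : L))}
  one_mem' := fun v _ => by simp
  mul_mem' := fun {a b} ha hb v hv => by
    have h1 : v.valuation L (a : L) ≠ 0 := (map_ne_zero _).mpr a.ne_zero
    have h2 : v.valuation L (b : L) ≠ 0 := (map_ne_zero _).mpr b.ne_zero
    simp only [Units.val_mul, map_mul, WithZero.log_mul h1 h2]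
    exact dvd_add (ha v hv) (hb v hv)
  inv_mem' := fun {a} ha v hv => by
    simp only [Units.val_inv_eq_inv_val, map_inv₀, WithZero.log_inv]
    exact (dvd_neg).mpr (ha v hv)

theorem mem_VS {a : Lˣ} : a ∈ VS L S p ↔ ∀ v : HeightOneSpectrum (𝓞 L), IsOff S v →
    (p : ℤ) ∣ WithZero.log (v.valuation L (a : L)) := Iff.rfl

theorem pow_mem_VS (b : Lˣ) : b ^ p ∈ VS L S p := fun v _ => by
  simp only [Units.val_pow_eq_pow_val, map_pow, WithZero.log_pow, nsmul_eq_mul]
  exact dvd_mul_right _ _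

variable (hμp : ∀ ω : Qbar, ω ^ p = 1 → ω ∈ L)

include hpS hL

/-- **(K1), element form**: the Kummer character of `a ∈ L^×` is an `S`-level character iff
`a ∈ V_S(L)`. -/
theorem isSLevel_kummerUnitHom_iff (a : Lˣ) :
    haveI : NeZero p := ⟨hp.ne_zero⟩
    IsSLevel L S (kummerUnitHom L p hμp a) ↔ a ∈ VS L S p := by
  haveI : NeZero p := ⟨hp.ne_zero⟩
  have hα := nthRoot_pow p ((a : L) : Qbar)
  rw [kummerUnitHom_apply, kummerOfUnit_eq L p hμp a _ hα, isSLevel_kummerHom_iff L p hμp hL,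
    isUnramifiedOutside_sup_adjoin_root_iff_dvd hp hpS hL (a := (a : L)) a.ne_zero 1
      (by rw [pow_one]; exact hα), mem_VS]
  simp only [pow_one]

/-- **(K1), surjectivity**: every `S`-level character `G_L → μ_p` is the Kummer character of an
element of `V_S(L)`. -/
theorem exists_kummerUnitHom_eq_of_isSLevel
    (χ : L.fixingSubgroup →* rootsOfUnity p Qbar) (hχ : IsSLevel L S χ) :
    haveI : NeZero p := ⟨hp.ne_zero⟩
    ∃ a : Lˣ, a ∈ VS L S p ∧ kummerUnitHom L p hμp a = χ := by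
  haveI : NeZero p := ⟨hp.ne_zero⟩
  obtain ⟨b, hb0, hb, hbχ, -⟩ := exists_kummerHom_eq_of_isSLevel L p hμp hL χ hχ
  have h0 : (⟨b ^ p, hb⟩ : L) ≠ 0 := fun h => pow_ne_zero p hb0 (congrArg Subtype.val h)
  have hk : kummerUnitHom L p hμp (Units.mk0 _ h0) = χ := by
    rw [kummerUnitHom_apply, kummerOfUnit_eq L p hμp (Units.mk0 _ h0) b rfl]
    exact hbχ
  refine ⟨Units.mk0 _ h0, ?_, hk⟩
  rw [← isSLevel_kummerUnitHom_iff L hp hpS hL hμp, hk]
  exact hχ

/-- the Kummer homomorphism `V_S(L) → X_S(L) = {S-level characters G_L → μ_p}`. -/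
noncomputable def kummerVS :
    haveI : NeZero p := ⟨hp.ne_zero⟩
    VS L S p →* levelChars L S (rootsOfUnity p Qbar) :=
  haveI : NeZero p := ⟨hp.ne_zero⟩
  { toFun := fun a => ⟨kummerUnitHom L p hμp a,
      (isSLevel_kummerUnitHom_iff L hp hpS hL hμp a).mpr a.2⟩
    map_one' := Subtype.ext (map_one _)
    map_mul' := fun a b => Subtype.ext (map_mul _ _ _) }

theorem kummerVS_surjective : Function.Surjective (kummerVS L hp hpS hL hμp) := by
  rintro ⟨χ, hχ⟩
  obtain ⟨a, ha, hk⟩ := exists_kummerUnitHom_eq_of_isSLevel L hp hpS hL hμp χ hχ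
  exact ⟨⟨a, ha⟩, Subtype.ext hk⟩

theorem mem_ker_kummerVS_iff (a : VS L S p) :
    a ∈ (kummerVS L hp hpS hL hμp).ker ↔ ∃ b : Lˣ, b ^ p = (a : Lˣ) := by
  haveI : NeZero p := ⟨hp.ne_zero⟩
  rw [MonoidHom.mem_ker, ← kummerUnitHom_eq_one_iff L p hμp]
  constructor
  · intro h
    exact congrArg Subtype.val h
  · intro h
    exact Subtype.ext h

end SPart

end Units

end Fermat.Agent.S55.GL.Kummer
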