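import Mathlib
import Fermat.Agent.S55.GL.KummerS
import Fermat.Agent.S55.GL.ClassT
import Fermat.Agent.S55.LevelFinite

/-!
# S55 / GL4 part 4b: the count of `H¹(G_{L,S}, μ_p)` and the finiteness input `hfin`

Namespace `Fermat.Agent.S55.GL.Kummer`.  `L : IntermediateField ℚ ℚ̄` a number field unramified
outside `S ∋ p` containing `μ_p`.

* `primesAbove L S : Finset (HeightOneSpectrum (𝓞 L))`, the primes of `L` above `S`
  (`mem_primesAbove : v ∈ primesAbove L S ↔ ¬ IsOff S v`); `VS_eq_VT`.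
* **`card_levelChars`**: `#X_S(L) = p ^ (rank L + #S_L + 1) · #Cl_S(L)[p]`, where
  `X_S(L) = levelChars L S μ_p = H¹(G_{L,S}, μ_p)` and `Cl_S(L) = ClassT.ClT L (primesAbove L S)`;
  `finite_levelChars`.
* **`exists_small_finite_levelChars`**: the arithmetic input of helper10's
  `Bridge.finiteDimensional_ker_bLoc_one` (`hfin`): arbitrarily small members `U` of
  `globalLevel S` have finitely many `ℤ/p`-valued level characters.
-/

set_option autoImplicit false
set_option linter.style.haveILetI false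
set_option linter.unusedSectionVars false

open IntermediateField NumberField IsDedekindDomain
open Fermat.Agent.S55.Level Fermat.Agent.S55.LevelGlobal
open Fermat.Agent.S55.GL.KummerUnram Fermat.Agent.S55.GL.QS Fermat.Agent.S55.GL.UnramBridge
open Fermat.Agent.S55.SUnit Fermat.Agent.S55.GL.ClassT

namespace Fermat.Agent.S55.GL.Kummer

local notation "Qbar" => AlgebraicClosure ℚ
local notation "Γ" => (AlgebraicClosure ℚ ≃ₐ[ℚ] AlgebraicClosure ℚ)

section Count

variable {S : Finset Nat.Primes} (L : IntermediateField ℚ Qbar) [NumberField L]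

theorem finite_not_isOff (S : Finset Nat.Primes) :
    {v : HeightOneSpectrum (𝓞 L) | ¬ IsOff S v}.Finite := by
  have h1 : {v : HeightOneSpectrum (𝓞 L) | ¬ IsOff S v} ⊆
      ⋃ q ∈ S, {v : HeightOneSpectrum (𝓞 L) | v.asIdeal ∣ Ideal.span {(((q : ℕ) : 𝓞 L))}} := by
    intro v hv
    simp only [IsOff, not_forall, not_not] at hv
    obtain ⟨q, hq, hmem⟩ := hv
    simp only [Set.mem_iUnion]
    refine ⟨q, hq, ?_⟩
    show v.asIdeal ∣ _
    rw [Ideal.dvd_span_singleton]
    exact hmem
  refine Set.Finite.subset ?_ h1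
  refine Set.Finite.biUnion S.finite_toSet fun q _ => ?_
  apply Ideal.finite_factors
  rw [Ne, Ideal.zero_eq_bot, Ideal.span_singleton_eq_bot]
  exact_mod_cast q.2.ne_zero

/-- the primes of `L` above `S`. -/
noncomputable def primesAbove (S : Finset Nat.Primes) : Finset (HeightOneSpectrum (𝓞 L)) :=
  (finite_not_isOff L S).toFinset

theorem mem_primesAbove {v : HeightOneSpectrum (𝓞 L)} : v ∈ primesAbove L S ↔ ¬ IsOff S v := by
  rw [primesAbove, Set.Finite.mem_toFinset]
  rfl

theorem not_mem_primesAbove {v : HeightOneSpectrum (𝓞 L)} : v ∉ primesAbove L S ↔ IsOff S v := by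
  rw [mem_primesAbove, not_not]

variable (p : ℕ)

theorem VS_eq_VT : VS L S p = VT (primesAbove L S) p := by
  ext a
  rw [mem_VS, mem_VT]
  constructor
  · intro h v hv
    rw [ordAt_apply]
    exact (dvd_neg).mpr (h v ((not_mem_primesAbove L).mp hv))
  · intro h v hv
    have := h v ((not_mem_primesAbove L).mpr hv)
    rw [ordAt_apply] at this
    exact (dvd_neg).mp this

variable {p} (hp : p.Prime) (hpS : (⟨p, hp⟩ : Nat.Primes) ∈ S) (hL : L.IsUnramifiedOutside S)
  (hμp : ∀ ω : Qbar, ω ^ p = 1 → ω ∈ L)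

include hp hpS hL hμp

/-- **(K1) count**: `#H¹(G_{L,S}, μ_p) = p ^ (rank L + #S_L + 1) · #Cl_S(L)[p]`. -/
theorem card_levelChars {ζ : L} (hζ : IsPrimitiveRoot ζ p) :
    Nat.card (levelChars L S (rootsOfUnity p Qbar)) =
      p ^ (Units.rank L + (primesAbove L S).card + 1) *
        Nat.card {c : ClT L (primesAbove L S) // p • c = 0} := by
  have hsurj := kummerVS_surjective L hp hpS hL hμp
  have h1 : Nat.card (levelChars L S (rootsOfUnity p Qbar)) =
      Nat.card (kummerVS L hp hpS hL hμp).range := by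
    rw [MonoidHom.range_eq_top.mpr hsurj]
    exact (Nat.card_congr Subgroup.topEquiv.toEquiv).symm
  rw [h1, ← Subgroup.index_ker]
  have hker : (kummerVS L hp hpS hL hμp).ker =
      (powMonoidHom p : Lˣ →* Lˣ).range.subgroupOf (VS L S p) := by
    ext a
    rw [mem_ker_kummerVS_iff, Subgroup.mem_subgroupOf]
    rfl
  rw [hker, ← Subgroup.relIndex, VS_eq_VT]
  exact relIndex_pow_VT (primesAbove L S) hp hζ

theorem finite_levelChars {ζ : L} (hζ : IsPrimitiveRoot ζ p) :
    Finite (levelChars L S (rootsOfUnity p Qbar)) := by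
  apply Nat.finite_of_card_ne_zero
  rw [card_levelChars L hp hpS hL hμp hζ]
  apply mul_ne_zero (pow_ne_zero _ hp.ne_zero)
  haveI : Nonempty {c : ClT L (primesAbove L S) // p • c = 0} := ⟨⟨0, smul_zero _⟩⟩
  exact Nat.card_pos.ne'

end Count

section Hfin

variable {S : Finset Nat.Primes} {p : ℕ} [hpF : Fact p.Prime]

theorem exists_primitiveRoot_Qbar : ∃ ζ : Qbar, IsPrimitiveRoot ζ p := by
  have : NeZero p := ⟨hpF.out.ne_zero⟩
  exact HasEnoughRootsOfUnity.exists_primitiveRoot Qbar p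

/-- a chosen isomorphism `μ_p(ℚ̄) ≃ ℤ/p`. -/
noncomputable def muEquivZMod (p : ℕ) [hpF : Fact p.Prime] :
    rootsOfUnity p Qbar ≃* Multiplicative (ZMod p) :=
  haveI : NeZero p := ⟨hpF.out.ne_zero⟩
  mulEquivOfPrimeCardEq (p := p)
    ((exists_primitiveRoot_Qbar (p := p)).choose_spec.card_rootsOfUnity)
    (by
      rw [Nat.card_congr (Multiplicative.toAdd (α := ZMod p)), Nat.card_eq_fintype_card]
      exact ZMod.card p)

/-- **finiteness of `H¹(G_{L,S}, ℤ/p)`** in helper10's `Level.levelChars` form. -/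
theorem finite_levelChars_zmod (L : IntermediateField ℚ Qbar) [NumberField L]
    (hpS : (⟨p, hpF.out⟩ : Nat.Primes) ∈ S) (hL : L.IsUnramifiedOutside S)
    (hμp : ∀ ω : Qbar, ω ^ p = 1 → ω ∈ L) :
    (Level.levelChars (globalLevel S) L.fixingSubgroup (ZMod p)).Finite := by
  obtain ⟨ζ, hζ⟩ := exists_primitiveRoot_Qbar (p := p)
  have hζL : ζ ∈ L := hμp ζ hζ.pow_eq_one
  have hζ' : IsPrimitiveRoot (⟨ζ, hζL⟩ : L) p :=
    IsPrimitiveRoot.of_map_of_injective (f := algebraMap L Qbar) (by simpa using hζ)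
      (algebraMap L Qbar).injective
  have hfin := finite_levelChars L hpF.out hpS hL hμp hζ'
  let Φ : ↥(Level.levelChars (globalLevel S) L.fixingSubgroup (ZMod p)) →
      ↥(levelChars L S (rootsOfUnity p Qbar)) := fun χ =>
    ⟨(muEquivZMod p).symm.toMonoidHom.comp χ.1, by
      obtain ⟨V, hV, h⟩ := χ.2
      refine ⟨V, hV, fun σ hσ => ?_⟩
      rw [MonoidHom.comp_apply, h σ hσ, map_one]⟩
  have hΦ : Function.Injective Φ := by
    intro χ χ' h
    apply Subtype.ext
    apply MonoidHom.ext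
    intro σ
    have h1 := congrArg (fun ψ => ψ.1 σ) h
    simp only [Φ, MonoidHom.comp_apply] at h1
    exact (muEquivZMod p).symm.injective h1
  have : Finite ↥(Level.levelChars (globalLevel S) L.fixingSubgroup (ZMod p)) :=
    Finite.of_injective Φ hΦ
  exact Set.toFinite _

/-- **`hfin` input**: arbitrarily small members of `globalLevel S` have finitely many `ℤ/p`-valued
level characters. -/
theorem exists_small_finite_levelChars (hpS : (⟨p, hpF.out⟩ : Nat.Primes) ∈ S) :
    ∀ U₀ ∈ (globalLevel S).sets, ∃ U ∈ (globalLevel S).sets, U ≤ U₀ ∧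
      (Level.levelChars (globalLevel S) U (ZMod p)).Finite := by
  intro U₀ hU₀
  obtain ⟨F₀, hF₀, -, rfl⟩ := exists_eq_fixingSubgroup hU₀
  obtain ⟨ζ, hζ⟩ := exists_primitiveRoot_Qbar (p := p)
  have hζS : (ℚ⟮ζ⟯).IsUnramifiedOutside S :=
    isUnramifiedOutside_adjoin_rootOfUnity hpF.out hpS 1 (by rw [pow_one]; exact hζ.pow_eq_one)
  obtain ⟨L, hle, hL, hgal⟩ := exists_isGalois_isUnramifiedOutside (hF₀.sup hζS)
  haveI : NumberField L := numberField_of_finiteDimensional L hL.1
  have hζL : ζ ∈ L := hle ((le_sup_right : ℚ⟮ζ⟯ ≤ F₀ ⊔ ℚ⟮ζ⟯) (mem_adjoin_simple_self ℚ ζ))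
  have hμp : ∀ ω : Qbar, ω ^ p = 1 → ω ∈ L := by
    intro ω hω
    have : NeZero p := ⟨hpF.out.ne_zero⟩
    obtain ⟨i, -, rfl⟩ := hζ.eq_pow_of_pow_eq_one hω
    exact pow_mem hζL i
  refine ⟨L.fixingSubgroup, fixingSubgroup_mem_globalLevel hL hgal.to_normal, ?_,
    finite_levelChars_zmod L hpS hL hμp⟩
  exact IntermediateField.fixingSubgroup_antitone (le_trans le_sup_left hle)

end Hfin

end Fermat.Agent.S55.GL.Kummer
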