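import Mathlib
import Fermat.Agent.S55.GL.KummerCount
import Fermat.Agent.S55.Hchars

/-!
# S55 / GL4 part 4c: the two finiteness hypotheses of the assembly, closed

Namespace `Fermat.Agent.S55.GL.Kummer`.

* `hkummer S hpS` : the hypothesis `hkummer` of `Assembly.result_of_cone` /
  `Hchars.hchars_of_kummer`: for every `L ≤ ℚ̄` normal over `ℚ`, unramified outside `S ∋ p`
  and containing `μ_p`, the group `levelChars L S μ_p = H¹(G_{L,S}, μ_p)` is finite.
* `hchars S hpS` : the `hchars`/`hfin` hypothesis of `Bridge.finiteDimensional_ker_bLoc_one`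
  and of `Assembly.dualityDataOfCone`.
-/

set_option autoImplicit false
set_option linter.style.haveILetI false

open IntermediateField NumberField
open Fermat.Agent.S55.Level Fermat.Agent.S55.LevelGlobal
open Fermat.Agent.S55.GL.QS
open ExtCitation

namespace Fermat.Agent.S55.GL.Kummer

local notation "Qbar" => AlgebraicClosure ℚ

variable {p : ℕ} [hpF : Fact p.Prime] (S : Finset Nat.Primes)

/-- **(K1) finiteness** in the shape consumed by `Assembly.result_of_cone`. -/
theorem hkummer (hpS : pPrime p ∈ S) :
    ∀ L : IntermediateField ℚ Qbar, L.IsUnramifiedOutside S → Normal ℚ L →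
      (∀ ω : Qbar, ω ^ p = 1 → ω ∈ L) →
      Finite ↥(levelChars L S (rootsOfUnity p Qbar)) := by
  intro L hL _ hμp
  haveI : NumberField L := numberField_of_finiteDimensional L hL.1
  obtain ⟨ζ, hζ⟩ := exists_primitiveRoot_Qbar (p := p)
  have hζL : ζ ∈ L := hμp ζ hζ.pow_eq_one
  have hζ' : IsPrimitiveRoot (⟨ζ, hζL⟩ : L) p :=
    IsPrimitiveRoot.of_map_of_injective (f := algebraMap L Qbar) (by simpa using hζ)
      (algebraMap L Qbar).injective
  exact finite_levelChars L hpF.out hpS hL hμp hζ'

/-- the `hchars` / `hfin` hypothesis, closed. -/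
theorem hchars (hpS : pPrime p ∈ S) :
    ∀ U₀ ∈ (globalLevel S).sets, ∃ U ∈ (globalLevel S).sets, U ≤ U₀ ∧
      (Level.levelChars (globalLevel S) U (ZMod p)).Finite :=
  exists_small_finite_levelChars hpS

end Fermat.Agent.S55.GL.Kummer
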