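/-
S55 / final assembly: RECIPROCITY OVER `ℚ`, `S`-indexed form (= `hrec` of
`TraceGlueLocal.result_of_formations` verbatim), and the frozen S55 with `hrec` discharged.

Same content as `GL/RecipQ.lean`, for a family of local class formations `FG q` indexed by
`q : ↥S` only, and the local invariants `TraceGlueLocal.invLoc`.
-/
import Fermat.Agent.S55.GL.RecipQ
import Fermat.Agent.S55.TraceGlueLocal

set_option autoImplicit false
set_option linter.unusedSectionVars false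

open CategoryTheory IntermediateField

namespace Fermat.Agent.S55.GL.RecipQS

open Fermat.Agent.S55.Level Fermat.Agent.S55.GaloisLevel Fermat.Agent.S55.GL.Places
  Fermat.Agent.S55.LevelTransport Fermat.Agent.S55.GL.BrauerLocal Fermat.Agent.S55.GL.QSMod
  Fermat.Agent.S55.GL.BrauerInst Fermat.Agent.S55.CF Fermat.Agent.S55.CFAbs
  Fermat.Agent.S55.DualTwist Fermat.Agent.S55.Local.LocalInv
  ExtCitation groupCohomology Fermat.Agent.S55.Assembly Fermat.Agent.S55.Cone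
  Fermat.Agent.S55.GL.RecipQ Fermat.Agent.S55.TraceGlueLocal

local notation "Qbar" => AlgebraicClosure ℚ
local notation "Γ" => (AlgebraicClosure ℚ ≃ₐ[ℚ] AlgebraicClosure ℚ)

local instance isGaloisQbar_RQS : IsGalois ℚ Qbar := Fermat.Agent.S55.Level.isGalois_Qbar
local instance factPrime_RQS (q : Nat.Primes) : Fact (q : ℕ).Prime := ⟨q.2⟩

variable {p : ℕ} [hpF : Fact p.Prime] (S : Finset Nat.Primes)
  (hpS : (⟨p, hpF.out⟩ : Nat.Primes) ∈ S) {ζ : Qbar} (hζ : IsPrimitiveRoot ζ p)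
  (Fb : ∀ v : FinPlace (⊥ : IntermediateField ℚ Qbar),
    Formation (levelv ⊥ v) (unitsRep (Kv ⊥ v) (PadicAlgCl (v.prime : ℕ))))
  (FG : ∀ q : ↥S, Formation (krullLevel ℚ_[(q.1 : ℕ)] (PadicAlgCl (q.1 : ℕ)))
    (unitsRep ℚ_[(q.1 : ℕ)] (PadicAlgCl (q.1 : ℕ))))

/-- The invariant of the class of `y` at `q ∈ S`, computed at the place of `⊥` over `q`. -/
theorem inv_locBrPrime_eq' [IsDiscrete (globalLevel S) (ofChar (k := ZMod p) (cycloChar p))]
    (hF : ∀ (v : FinPlace (⊥ : IntermediateField ℚ Qbar)) (hv : v.prime ∈ S)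
      (x : levelCohomology (krullLevel ℚ_[(v.prime : ℕ)] (PadicAlgCl (v.prime : ℕ)))
        (unitsRep ℚ_[(v.prime : ℕ)] (PadicAlgCl (v.prime : ℕ))) 2),
      (Fb v).inv ((bcMap ℚ_[(v.prime : ℕ)] (Kv ⊥ v) (PadicAlgCl (v.prime : ℕ)) 2).hom x) =
        (FG ⟨v.prime, hv⟩).inv x)
    (y : levelCohomology (globalLevel S) (ofChar (k := ZMod p) (cycloChar p)) 2)
    (q : (localData S).ι) :
    (FG q).inv (@locBrPrime p _ q.1 ζ hζ
        ((localData S).isDiscrete_res (ofChar (k := ZMod p) (cycloChar p)) q)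
        (locH (localData S) (ofChar (k := ZMod p) (cycloChar p)) 2 y q)) =
      (Fb (botPlace q.1)).inv (kappa p S ⊥ (botPlace q.1) (locμ p S ⊥ (botPlace q.1)
        ((toL S ⊥ 2).hom (toMu S hpS hζ 2 y)))) := by
  rw [kappa_locμ_eq_resAt]
  have hd : IsDiscrete (localLevel (localGaloisToGlobal ((q.1 : Nat.Primes) : ℕ)))
      (localMu p ((q.1 : Nat.Primes) : ℕ)) :=
    (localData S).isDiscrete_res (ofChar (k := ZMod p) (cycloChar p)) q
  have key := resAt_toL_toMu S hpS hζ ⊥ ((q.1 : Nat.Primes) : ℕ) (botPlace q.1).rep y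
  rw [show (resAt ((botPlace q.1).prime : ℕ) ⊥ (botPlace q.1).rep (jμ p S) (globalLevel S)
      (open_globalLevel S) 2).hom ((toL S ⊥ 2).hom (toMu S hpS hζ 2 y)) = _ from key]
  exact (hF (botPlace q.1) q.2 _).symm

include hpS in
/-- **Reciprocity over `ℚ`** for the local invariants `invLoc q hζ (FG q)`, `q ∈ S`: the `hrec`
hypothesis of `TraceGlueLocal.result_of_formations`, from the arithmetic inputs of `BrauerInst` at
`L = ⊥` and the degree one base change compatibility of the formations. -/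
theorem hrec_invLoc (H : BrauerInput p S (⊥ : IntermediateField ℚ Qbar) Fb)
    (hF : ∀ (v : FinPlace (⊥ : IntermediateField ℚ Qbar)) (hv : v.prime ∈ S)
      (x : levelCohomology (krullLevel ℚ_[(v.prime : ℕ)] (PadicAlgCl (v.prime : ℕ)))
        (unitsRep ℚ_[(v.prime : ℕ)] (PadicAlgCl (v.prime : ℕ))) 2),
      (Fb v).inv ((bcMap ℚ_[(v.prime : ℕ)] (Kv ⊥ v) (PadicAlgCl (v.prime : ℕ)) 2).hom x) =
        (FG ⟨v.prime, hv⟩).inv x)
    [IsDiscrete (globalLevel S) (ofChar (k := ZMod p) (cycloChar p))]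
    (y : levelCohomology (globalLevel S) (ofChar (k := ZMod p) (cycloChar p)) 2) :
    ∑ q : (localData S).ι,
      invLoc q.1 hζ (FG q) (locH (localData S) (ofChar (k := ZMod p) (cycloChar p)) 2 y q) = 0 := by
  have : NeZero p := ⟨hpF.out.ne_zero⟩
  apply ZMod.toAddCircle_injective p
  rw [map_sum, map_zero]
  have h := (H.exists_locμ_eq_iff hpF.out hpS
    (fun v => locμ p S ⊥ v ((toL S ⊥ 2).hom (toMu S hpS hζ 2 y)))).1 ⟨_, fun _ _ => rfl⟩
  rw [sum_placesAbove_bot] at h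
  rw [← h]
  refine Finset.sum_congr rfl fun q _ => ?_
  exact (@toAddCircle_invPrime p _ q.1 ζ hζ
    ((localData S).isDiscrete_res (ofChar (k := ZMod p) (cycloChar p)) q) (FG q) _).trans
    (inv_locBrPrime_eq' S hpS hζ Fb FG hF y q)

/-- **The frozen S55 from local class formations, the Brauer inputs at `ℚ` and the global base
case.**  `TraceGlueLocal.result_of_formations` with the reciprocity law discharged by
`hrec_invLoc`. -/
theorem result_of_brauer (hp2 : p ≠ 2) (hpS' : pPrime p ∈ S) (M : Rep (ZMod p) Γ)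
    [FiniteDimensional (ZMod p) M]
    (hsm : ∀ m : M, ∃ F : IntermediateField ℚ Qbar, FiniteDimensional ℚ F ∧
      ∀ s ∈ F.fixingSubgroup, M.ρ s m = m)
    (hMur : ∀ q : Nat.Primes, q ∉ S → ∀ A : ValuationSubring Qbar,
      A.LiesOverPrime (q : ℕ) → ∀ g ∈ A.inertiaSubgroupIn ℚ, M.ρ g = 1)
    (FE : ∀ (q : ↥S) (E : IntermediateField ℚ_[(q.1 : ℕ)] (PadicAlgCl (q.1 : ℕ))),
      FiniteDimensional ℚ_[(q.1 : ℕ)] E → IsGalois ℚ_[(q.1 : ℕ)] E →
      Formation (krullLevel E (PadicAlgCl (q.1 : ℕ))) (unitsRep E (PadicAlgCl (q.1 : ℕ))))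
    (hBC : ∀ (q : ↥S) (E : IntermediateField ℚ_[(q.1 : ℕ)] (PadicAlgCl (q.1 : ℕ)))
      (hfd : FiniteDimensional ℚ_[(q.1 : ℕ)] E) (hgal : IsGalois ℚ_[(q.1 : ℕ)] E)
      (x : levelCohomology (krullLevel ℚ_[(q.1 : ℕ)] (PadicAlgCl (q.1 : ℕ)))
        (unitsRep ℚ_[(q.1 : ℕ)] (PadicAlgCl (q.1 : ℕ))) 2),
      (FE q E hfd hgal).inv ((bcMap ℚ_[(q.1 : ℕ)] E (PadicAlgCl (q.1 : ℕ)) 2).hom x) =
        Module.finrank ℚ_[(q.1 : ℕ)] E • (FG q).inv x)
    (H : BrauerInput p S (⊥ : IntermediateField ℚ Qbar) Fb)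
    (hF : ∀ (v : FinPlace (⊥ : IntermediateField ℚ Qbar)) (hv : v.prime ∈ S)
      (x : levelCohomology (krullLevel ℚ_[(v.prime : ℕ)] (PadicAlgCl (v.prime : ℕ)))
        (unitsRep ℚ_[(v.prime : ℕ)] (PadicAlgCl (v.prime : ℕ))) 2),
      (Fb v).inv ((bcMap ℚ_[(v.prime : ℕ)] (Kv ⊥ v) (PadicAlgCl (v.prime : ℕ)) 2).hom x) =
        (FG ⟨v.prime, hv⟩).inv x)
    (hbase : ∀ [IsDiscrete (globalLevel S) (ofChar (k := ZMod p) (cycloChar p))]
      (tr : Hc (localData S) (ofChar (k := ZMod p) (cycloChar p)) 3 →ₗ[ZMod p] ZMod p),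
      (∀ w, tr (HcBd (localData S) (ofChar (k := ZMod p) (cycloChar p)) 2 w) =
        ∑ q : (localData S).ι, invLoc q.1 hζ (FG q) (w q)) →
      Fermat.Agent.S55.Main.BaseCase (localData S) (cycloChar p) tr) :
    ∃ B : sha₁ S (M.dualTwist (cycloChar p)) →ₗ[ZMod p] sha₂ S M →ₗ[ZMod p] ZMod p,
      (∀ y, (∀ x, B y x = 0) → y = 0) ∧ (∀ x, (∀ y, B y x = 0) → x = 0) :=
  result_of_formations S hp2 hpS' M hsm hMur hζ FG FE hBC
    (fun {_} y => hrec_invLoc S hpS' hζ Fb FG H hF y) hbase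

end Fermat.Agent.S55.GL.RecipQS
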