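/-
S55 / GLO13 (existence theorem in exponent `p`), ABSTRACT CORE.  Mathlib only.

Over a number field `L ⊆ ℚ_S` containing `ζ_p`, for trivial coefficients `X = 𝔽_p`, `X' = μ_p`,
the base case of the dévissage (`Φ¹` bijective, `Φ²` injective) follows from the cone long exact
sequence, the boundary compatibilities and a COUNT:

* `(α)` `dim H¹(G_S, μ_p) = s + c`, `dim Ш²(G_S, μ_p) = c`      (Kummer sequences (K1), (K2));
* `(γ)` the images of `H¹(G_S, 𝔽_p)` and `H¹(G_S, μ_p)` in the local groups are orthogonal
        (reciprocity);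
* `(δ)` `dim ⊕_w H¹(L_w, μ_p) = 2 s` and the local pairing in degree `(1,1)` is nondegenerate.

Then `dim Ш¹ = c` (this IS the existence theorem in exponent `p`), the image of the localisation
map is its own annihilator, `Φ¹` is bijective (given that it is injective) and the part of `Φ²`
supported on the boundary is injective.  This file contains the linear algebra:

* `finrank_add_le_of_isotropic`, `mem_of_isotropic_of_le_finrank` : isotropic subspaces;
* `le_finrank_ker_of_count`, `mem_range_of_count`                 : the count `c ≤ d` and maximal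
  isotropy of the image of the localisation map;
* `eq_zero_of_phi_eq_zero_of_j_eq_zero`   : `Φ x = 0`, `j x = 0` ⇒ `x = 0` (boundary part);
* `eq_zero_of_res`                         : the elementwise one-step dévissage for `Φ¹`;
* `bijective_of_injective_of_count`        : `Φ¹` bijective from `Φ¹` injective and the count;
* `eq_zero_of_four`                        : the elementwise mono four lemma used for `Φ²`.
-/
import Mathlib

set_option autoImplicit false

namespace Fermat.Agent.S55.GL.BaseCount

open Module LinearMap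

variable {k : Type*} [Field k]

section Isotropic

variable {V V' : Type*} [AddCommGroup V] [Module k V] [AddCommGroup V'] [Module k V']
  [FiniteDimensional k V']

/-- The restriction of `ι` to `A`, as a map into the annihilator of `A'`. -/
def toAnnihilator (ι : V →ₗ[k] Dual k V') (A : Submodule k V) (A' : Submodule k V')
    (h : ∀ a ∈ A, ∀ a' ∈ A', ι a a' = 0) : A →ₗ[k] A'.dualAnnihilator :=
  (ι ∘ₗ A.subtype).codRestrict A'.dualAnnihilator (fun a => by
    rw [Submodule.mem_dualAnnihilator]
    intro a' ha'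
    exact h a a.2 a' ha')

omit [FiniteDimensional k V'] in
theorem toAnnihilator_injective (ι : V →ₗ[k] Dual k V') (hι : Function.Injective ι)
    (A : Submodule k V) (A' : Submodule k V') (h : ∀ a ∈ A, ∀ a' ∈ A', ι a a' = 0) :
    Function.Injective (toAnnihilator ι A A' h) := by
  intro a b hab
  have := congrArg Subtype.val hab
  exact Subtype.ext (hι this)

/-- If `ι : V → V'^*` is injective and `A ⊥ A'`, then `dim A + dim A' ≤ dim V'`. -/
theorem finrank_add_le_of_isotropic (ι : V →ₗ[k] Dual k V') (hι : Function.Injective ι)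
    (A : Submodule k V) (A' : Submodule k V') (h : ∀ a ∈ A, ∀ a' ∈ A', ι a a' = 0) :
    finrank k A + finrank k A' ≤ finrank k V' := by
  have h1 := LinearMap.finrank_le_finrank_of_injective (toAnnihilator_injective ι hι A A' h)
  have h2 := Subspace.finrank_add_finrank_dualAnnihilator_eq A'
  omega

/-- `A` is finite-dimensional as soon as it embeds into `V'^*`. -/
theorem finiteDimensional_of_injective (ι : V →ₗ[k] Dual k V') (hι : Function.Injective ι) :
    FiniteDimensional k V :=
  FiniteDimensional.of_injective ι hι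

/-- Equality case: if moreover `dim V' ≤ dim A + dim A'` then `A` is the full annihilator of
`A'`. -/
theorem mem_of_isotropic_of_le_finrank (ι : V →ₗ[k] Dual k V') (hι : Function.Injective ι)
    (A : Submodule k V) (A' : Submodule k V') (h : ∀ a ∈ A, ∀ a' ∈ A', ι a a' = 0)
    (hdim : finrank k V' ≤ finrank k A + finrank k A') {v : V}
    (hv : ∀ a' ∈ A', ι v a' = 0) : v ∈ A := by
  have : FiniteDimensional k V := finiteDimensional_of_injective ι hι
  set N : Submodule k V := A'.dualAnnihilator.comap ι with hN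
  have hAN : A ≤ N := by
    intro a ha
    rw [hN, Submodule.mem_comap, Submodule.mem_dualAnnihilator]
    exact fun a' ha' => h a ha a' ha'
  have hNiso : ∀ a ∈ N, ∀ a' ∈ A', ι a a' = 0 := by
    intro a ha a' ha'
    rw [hN, Submodule.mem_comap, Submodule.mem_dualAnnihilator] at ha
    exact ha a' ha'
  have h1 := finrank_add_le_of_isotropic ι hι N A' hNiso
  have h2 : finrank k N ≤ finrank k A := by omega
  have h3 : A = N := Submodule.eq_of_le_of_finrank_le hAN h2
  rw [h3, hN, Submodule.mem_comap, Submodule.mem_dualAnnihilator]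
  exact hv

end Isotropic

section Count

variable {H H' P P' : Type*} [AddCommGroup H] [Module k H] [AddCommGroup H'] [Module k H']
  [AddCommGroup P] [Module k P] [AddCommGroup P'] [Module k P']
  [FiniteDimensional k H] [FiniteDimensional k H'] [FiniteDimensional k P']

omit [FiniteDimensional k H] [FiniteDimensional k H'] [FiniteDimensional k P'] in
/-- Orthogonality of the images of the two localisation maps, in submodule form. -/
theorem range_isotropic (b : H →ₗ[k] P) (b' : H' →ₗ[k] P') (ι : P →ₗ[k] Dual k P')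
    (hiso : ∀ x y, ι (b x) (b' y) = 0) :
    ∀ a ∈ LinearMap.range b, ∀ a' ∈ LinearMap.range b', ι a a' = 0 := by
  rintro _ ⟨x, rfl⟩ _ ⟨y, rfl⟩
  exact hiso x y

/-- **The count `c ≤ d`.**  `b : H¹(𝔽_p) → P¹(𝔽_p)`, `b' : H¹(μ_p) → P¹(μ_p)` the localisation
maps, `ι` the local pairing (injective), orthogonal images; `dim H = dim H' = s + c`,
`dim P' = 2 s`, `dim ker b = dim ker b'`.  Then `c ≤ dim ker b'`. -/
theorem le_finrank_ker_of_count (b : H →ₗ[k] P) (b' : H' →ₗ[k] P') (ι : P →ₗ[k] Dual k P')
    (hι : Function.Injective ι) (hiso : ∀ x y, ι (b x) (b' y) = 0) {s c : ℕ}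
    (hH : finrank k H = s + c) (hH' : finrank k H' = s + c) (hP' : finrank k P' = 2 * s)
    (hker : finrank k (LinearMap.ker b) = finrank k (LinearMap.ker b')) :
    c ≤ finrank k (LinearMap.ker b') := by
  have h1 := finrank_add_le_of_isotropic ι hι (LinearMap.range b) (LinearMap.range b')
    (range_isotropic b b' ι hiso)
  have h2 := LinearMap.finrank_range_add_finrank_ker b
  have h3 := LinearMap.finrank_range_add_finrank_ker b'
  omega

/-- **Maximal isotropy** (= the existence theorem in exponent `p`): under the count, if moreover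
`dim ker b' ≤ c`, every `w ∈ P¹(𝔽_p)` orthogonal to the image of `H¹(μ_p)` is the localisation of
a global class. -/
theorem mem_range_of_count (b : H →ₗ[k] P) (b' : H' →ₗ[k] P') (ι : P →ₗ[k] Dual k P')
    (hι : Function.Injective ι) (hiso : ∀ x y, ι (b x) (b' y) = 0) {s c : ℕ}
    (hH : finrank k H = s + c) (hH' : finrank k H' = s + c) (hP' : finrank k P' = 2 * s)
    (hker : finrank k (LinearMap.ker b) = finrank k (LinearMap.ker b'))
    (hd : finrank k (LinearMap.ker b') ≤ c) {w : P} (hw : ∀ y, ι w (b' y) = 0) :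
    w ∈ LinearMap.range b := by
  have h2 := LinearMap.finrank_range_add_finrank_ker b
  have h3 := LinearMap.finrank_range_add_finrank_ker b'
  apply mem_of_isotropic_of_le_finrank ι hι (LinearMap.range b) (LinearMap.range b')
    (range_isotropic b b' ι hiso) (by omega)
  rintro _ ⟨y, rfl⟩
  exact hw y

end Count

section Boundary

variable {P Hc H Q' H' : Type*} [AddCommGroup P] [Module k P] [AddCommGroup Hc] [Module k Hc]
  [AddCommGroup H] [Module k H] [AddCommGroup Q'] [Module k Q'] [AddCommGroup H'] [Module k H']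

/-- **Boundary part of `Φ`.**  Piece `P --∂--> Hc --j--> H` of the cone sequence (exact at `Hc`),
localisation `β' : H' → Q'` on the dual side, `Φ : Hc → H'^*`, `ι : P → Q'^*` with
`Φ (∂ w) = ι w ∘ β'`.  If every `w` with `ι w ⊥ range β'` satisfies `∂ w = 0`, then `Φ x = 0` and
`j x = 0` imply `x = 0`. -/
theorem eq_zero_of_phi_eq_zero_of_j_eq_zero (bd : P →ₗ[k] Hc) (j : Hc →ₗ[k] H)
    (hex : LinearMap.ker j = LinearMap.range bd) (β' : H' →ₗ[k] Q') (Φ : Hc →ₗ[k] Dual k H')
    (ι : P →ₗ[k] Dual k Q') (hc : ∀ w y, Φ (bd w) y = ι w (β' y))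
    (hker : ∀ w, (∀ y, ι w (β' y) = 0) → bd w = 0) {x : Hc} (hΦ : Φ x = 0) (hj : j x = 0) :
    x = 0 := by
  have hx : x ∈ LinearMap.range bd := by rw [← hex]; exact hj
  obtain ⟨w, rfl⟩ := hx
  apply hker w
  intro y
  rw [← hc, hΦ]
  rfl

/-- **One-step dévissage for `Φ¹`, elementwise.**  `x ∈ H¹_c(L)`, `Φ x = 0`; `res` is the
(injective) restriction to a field `L'` over which `j x` dies; over `L'` the boundary part of `Φ`
is injective.  Then `x = 0`. -/
theorem eq_zero_of_res {Hc₂ H₂ Hd Hd₂ : Type*} [AddCommGroup Hc₂] [Module k Hc₂]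
    [AddCommGroup H₂] [Module k H₂] [AddCommGroup Hd] [Module k Hd] [AddCommGroup Hd₂]
    [Module k Hd₂]
    (j : Hc →ₗ[k] H) (Φ : Hc →ₗ[k] Dual k Hd) (res : Hc →ₗ[k] Hc₂) (resH : H →ₗ[k] H₂)
    (j₂ : Hc₂ →ₗ[k] H₂) (Φ₂ : Hc₂ →ₗ[k] Dual k Hd₂) (cor : Hd₂ →ₗ[k] Hd)
    (hres : Function.Injective res) (hsq : ∀ x, j₂ (res x) = resH (j x))
    (hproj : ∀ x y, Φ₂ (res x) y = Φ x (cor y))
    (hbd₂ : ∀ z, Φ₂ z = 0 → j₂ z = 0 → z = 0) {x : Hc} (hΦ : Φ x = 0) (hx : resH (j x) = 0) :
    x = 0 := by
  apply hres
  rw [map_zero]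
  apply hbd₂
  · ext y
    rw [hproj, hΦ]
    rfl
  · rw [hsq, hx]

end Boundary

section Bijective

variable {P Hc H Q Q' H' : Type*} [AddCommGroup P] [Module k P] [AddCommGroup Hc] [Module k Hc]
  [AddCommGroup H] [Module k H] [AddCommGroup Q] [Module k Q] [AddCommGroup Q'] [Module k Q']
  [AddCommGroup H'] [Module k H']
  [FiniteDimensional k Hc] [FiniteDimensional k H']

/-- **`Φ¹` bijective from `Φ¹` injective and the count.**  Piece `P --∂--> Hc --j--> H --β--> Q`
of the cone sequence (exact at `Hc` and `H`), `β' : H' → Q'` the localisation on the dual side.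
If `dim range ∂ ≥ dim range β'` (local duality in degree `(0,2)` + Hasse–Brauer–Noether) and
`dim ker β ≥ dim ker β'` (the count), an injective `Φ : Hc → H'^*` is bijective. -/
theorem bijective_of_injective_of_count (bd : P →ₗ[k] Hc) (j : Hc →ₗ[k] H) (β : H →ₗ[k] Q)
    (hex1 : LinearMap.ker j = LinearMap.range bd) (hex2 : LinearMap.ker β = LinearMap.range j)
    (β' : H' →ₗ[k] Q') (Φ : Hc →ₗ[k] Dual k H') (hΦ : Function.Injective Φ)
    (hsub : finrank k (LinearMap.range β') ≤ finrank k (LinearMap.range bd))
    (hsha : finrank k (LinearMap.ker β') ≤ finrank k (LinearMap.ker β)) :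
    Function.Bijective Φ := by
  have h1 := LinearMap.finrank_range_add_finrank_ker j
  have h2 := LinearMap.finrank_range_add_finrank_ker β'
  rw [hex1, ← hex2] at h1
  have h3 : finrank k (Dual k H') = finrank k H' := Subspace.dual_finrank_eq
  have h4 := LinearMap.finrank_le_finrank_of_injective hΦ
  have h5 : finrank k Hc = finrank k (Dual k H') := by omega
  exact ⟨hΦ, (LinearMap.injective_iff_surjective_of_finrank_eq_finrank h5).mp hΦ⟩

end Bijective

section Four

variable {A B C E A' B' C' : Type*} [AddCommGroup A] [AddCommGroup B] [AddCommGroup C]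
  [AddCommGroup E] [AddCommGroup A'] [AddCommGroup B'] [AddCommGroup C']

/-- **The mono four lemma, for one element.**  Rows `A → B → C → E` and `A' → B' → C'`, vertical
maps `α β γ`.  If `α` is surjective, `β` injective, the top row is a complex at `B` and exact at
`C`, the bottom row is exact at `B'`, the left square commutes and the middle one commutes in the
weak form `γ (g b) = 0 → g' (β b) = 0`, then `γ c = 0` and `h c = 0` imply `c = 0`.
(In the base case `h c = 0` is arranged by the CHOICE of the auxiliary field.) -/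
theorem eq_zero_of_four (f : A →+ B) (g : B →+ C) (h : C →+ E) (f' : A' →+ B') (g' : B' →+ C')
    (α : A →+ A') (β : B →+ B') (γ : C →+ C')
    (hα : Function.Surjective α) (hβ : Function.Injective β)
    (hgf : ∀ a, g (f a) = 0) (hexC : ∀ c, h c = 0 → ∃ b, g b = c)
    (hexB' : ∀ b', g' b' = 0 → ∃ a', f' a' = b')
    (sq1 : ∀ a, β (f a) = f' (α a)) (sq2 : ∀ b, γ (g b) = 0 → g' (β b) = 0)
    {c : C} (hc : γ c = 0) (hhc : h c = 0) : c = 0 := by
  obtain ⟨b, rfl⟩ := hexC c hhc
  obtain ⟨a', ha'⟩ := hexB' (β b) (sq2 b hc)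
  obtain ⟨a, rfl⟩ := hα a'
  have h2 : b = f a := hβ (by rw [sq1, ha'])
  rw [h2, hgf]

end Four

end Fermat.Agent.S55.GL.BaseCount
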