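/-
S55 / GLO13–GLO14, ABSTRACT FORM OF THE BASE CASE (route of board message #629).

Base objects are indexed by "levels" `U` (think: `I_U = coind_U^G 𝔽_p`, `U = Gal(ℚ_S/L)`, `L ∋ ζ_p`;
by Shapiro everything below is arithmetic of `L`).  `U' ≤ U` is a smaller level (`L ⊆ L'`).

* STAGE A, `phi1_injective`: `Φ¹` is injective on every base object, from
  - the boundary part: `ι⁰(w) ⊥ loc²(H²(μ_p))` ⇒ `∂w = 0`  [(K2): `loc² H² = ker Σ inv`],
  - class killing: every `χ ∈ H¹(I_U)` dies in some `H¹(I_U')`,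
  - `res : H¹_c(I_U) → H¹_c(I_U')` injective  [`H⁰_c(I_U'/I_U) = 0`] and adjoint to `cor`.
* STAGE B1, `base_count`: the count  `dim H¹ = s + c`, `dim ⊕_w H¹(L_w) = 2s`, `dim Ш²(μ_p) ≤ c`
  plus reciprocity (orthogonality of the localisation images) gives
  `dim Ш¹ = c`, `Φ¹` BIJECTIVE, and the localisation image is its own annihilator
  (= existence theorem in exponent `p`).
* STAGE B2, `phi2_eq_zero_of_j_eq_zero`: boundary part of `Φ²` from maximal isotropy;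
  `eq_zero_of_four_of_res`: the elementwise four-lemma chase for `Φ²` through `I_U ↪ I_U'`, `U'`
  chosen so that `j ỹ` dies in `H²(I_U')`.

Mathlib + EndgameR2 + BaseCount only.
-/
import Mathlib
import Fermat.Agent.S55.EndgameR2
import Fermat.Agent.S55.GL.BaseCount

set_option autoImplicit false

namespace Fermat.Agent.S55.GL.BaseStages

open Module LinearMap Fermat.Agent.S55.GL.BaseCount

variable {k : Type*} [Field k]

section StageA

variable {Lev : Type*} {P0 Hc1 H1 Hd2 Pd2 : Lev → Type*}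
  [∀ U, AddCommGroup (P0 U)] [∀ U, Module k (P0 U)]
  [∀ U, AddCommGroup (Hc1 U)] [∀ U, Module k (Hc1 U)]
  [∀ U, AddCommGroup (H1 U)] [∀ U, Module k (H1 U)]
  [∀ U, AddCommGroup (Hd2 U)] [∀ U, Module k (Hd2 U)]
  [∀ U, AddCommGroup (Pd2 U)] [∀ U, Module k (Pd2 U)]

/-- **STAGE A.** `Φ¹` is injective on every base object. -/
theorem phi1_injective
    (bd0 : ∀ U, P0 U →ₗ[k] Hc1 U) (j1 : ∀ U, Hc1 U →ₗ[k] H1 U)
    (hex : ∀ U, LinearMap.ker (j1 U) = LinearMap.range (bd0 U))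
    (b2' : ∀ U, Hd2 U →ₗ[k] Pd2 U) (Φ1 : ∀ U, Hc1 U →ₗ[k] Dual k (Hd2 U))
    (ι0 : ∀ U, P0 U →ₗ[k] Dual k (Pd2 U))
    (hC : ∀ U w y, Φ1 U (bd0 U w) y = ι0 U w (b2' U y))
    (hK2 : ∀ U w, (∀ y, ι0 U w (b2' U y) = 0) → bd0 U w = 0)
    (le : Lev → Lev → Prop)
    (res : ∀ U U', le U' U → Hc1 U →ₗ[k] Hc1 U') (resH : ∀ U U', le U' U → H1 U →ₗ[k] H1 U')
    (cor : ∀ U U', le U' U → Hd2 U' →ₗ[k] Hd2 U)
    (hres : ∀ U U' h, Function.Injective (res U U' h))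
    (hsq : ∀ U U' h x, j1 U' (res U U' h x) = resH U U' h (j1 U x))
    (hproj : ∀ U U' h x y, Φ1 U' (res U U' h x) y = Φ1 U x (cor U U' h y))
    (hkill : ∀ U (χ : H1 U), ∃ U', ∃ h : le U' U, resH U U' h χ = 0) :
    ∀ U, Function.Injective (Φ1 U) := by
  intro U
  rw [injective_iff_map_eq_zero]
  intro x hx
  obtain ⟨U', h, hχ⟩ := hkill U (j1 U x)
  exact eq_zero_of_res (j1 U) (Φ1 U) (res U U' h) (resH U U' h) (j1 U') (Φ1 U') (cor U U' h)
    (hres U U' h) (hsq U U' h) (hproj U U' h)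
    (fun z hz hjz => eq_zero_of_phi_eq_zero_of_j_eq_zero (bd0 U') (j1 U') (hex U') (b2' U')
      (Φ1 U') (ι0 U') (hC U') (hK2 U') hz hjz) hx hχ

end StageA

section StageB

variable {P0 Hc1 H1 P1 H1' P1' H2' P2' : Type*}
  [AddCommGroup P0] [Module k P0] [AddCommGroup Hc1] [Module k Hc1]
  [AddCommGroup H1] [Module k H1] [AddCommGroup P1] [Module k P1]
  [AddCommGroup H1'] [Module k H1'] [AddCommGroup P1'] [Module k P1']
  [AddCommGroup H2'] [Module k H2'] [AddCommGroup P2'] [Module k P2']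
  [FiniteDimensional k H1] [FiniteDimensional k H1'] [FiniteDimensional k P1']
  [FiniteDimensional k H2']

/-- **STAGE B1: the count.**  One base object.  `𝔽_p`-side: `P⁰ --∂--> H¹_c --j--> H¹ --β¹--> P¹`;
`μ_p`-side: `β¹' : H¹' → P¹'`, `β²' : H²' → P²'`.  `Φ¹ : H¹_c → (H²')^*` injective, `ι⁰ : P⁰ →
(P²')^*` surjective, `ι¹ : P¹ → (P¹')^*` injective, boundary compatibility, orthogonality of the
localisation images (reciprocity), and the count.  Then `dim Ш¹ = c`, `Φ¹` is bijective and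
`range β¹` is the full annihilator of `range β¹'`. -/
theorem base_count
    (bd0 : P0 →ₗ[k] Hc1) (j1 : Hc1 →ₗ[k] H1) (b1 : H1 →ₗ[k] P1)
    (hex1 : LinearMap.ker j1 = LinearMap.range bd0) (hex2 : LinearMap.ker b1 = LinearMap.range j1)
    (b1' : H1' →ₗ[k] P1') (b2' : H2' →ₗ[k] P2')
    (Φ1 : Hc1 →ₗ[k] Dual k H2') (hΦ1 : Function.Injective Φ1)
    (ι0 : P0 →ₗ[k] Dual k P2') (hι0 : Function.Surjective ι0)
    (hc0 : ∀ w y, Φ1 (bd0 w) y = ι0 w (b2' y))
    (ι1 : P1 →ₗ[k] Dual k P1') (hι1 : Function.Injective ι1)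
    (hiso : ∀ x y, ι1 (b1 x) (b1' y) = 0) {s c : ℕ}
    (hH : finrank k H1 = s + c) (hH' : finrank k H1' = s + c) (hP' : finrank k P1' = 2 * s)
    (hker : finrank k (LinearMap.ker b1) = finrank k (LinearMap.ker b1'))
    (hsha2 : finrank k (LinearMap.ker b2') ≤ c)
    (hsub : finrank k (LinearMap.range b2') ≤ finrank k (LinearMap.range bd0)) :
    finrank k (LinearMap.ker b1) = c ∧ Function.Bijective Φ1 ∧
      ∀ w : P1, (∀ y, ι1 w (b1' y) = 0) → w ∈ LinearMap.range b1 := by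
  have hfinHc : FiniteDimensional k Hc1 := FiniteDimensional.of_injective Φ1 hΦ1
  -- `d ≤ dim Ш²(μ_p) ≤ c`
  obtain ⟨f, hf, -⟩ := EndgameR2.exists_injective_ker_to_dual_ker bd0 j1 b1 hex1 hex2 b2' Φ1 ι0
    hΦ1 hι0 hc0
  have h1 := LinearMap.finrank_le_finrank_of_injective hf
  rw [Subspace.dual_finrank_eq] at h1
  -- `c ≤ d`
  have h2 := le_finrank_ker_of_count b1 b1' ι1 hι1 hiso hH hH' hP' hker
  have hd : finrank k (LinearMap.ker b1) = c := by omega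
  refine ⟨hd, ?_, ?_⟩
  · exact bijective_of_injective_of_count bd0 j1 b1 hex1 hex2 b2' Φ1 hΦ1 hsub (by omega)
  · intro w hw
    exact mem_range_of_count b1 b1' ι1 hι1 hiso hH hH' hP' hker (by omega) hw

end StageB

section Isotropy

variable {P1 Hc2 H1 H1' P1' : Type*}
  [AddCommGroup P1] [Module k P1] [AddCommGroup Hc2] [Module k Hc2]
  [AddCommGroup H1] [Module k H1]
  [AddCommGroup H1'] [Module k H1'] [AddCommGroup P1'] [Module k P1']

/-- **Reciprocity is formal** (helper25): the localisation images are orthogonal because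
`ι¹ (β¹ x) (β¹' y) = Φ² (∂ (β¹ x)) y` and `∂ ∘ β¹ = 0`.  (This is `hiso` of `base_count`.) -/
theorem isotropic_of_cone (b1 : H1 →ₗ[k] P1) (bd1 : P1 →ₗ[k] Hc2) (hcomp : ∀ x, bd1 (b1 x) = 0)
    (b1' : H1' →ₗ[k] P1') (Φ2 : Hc2 →ₗ[k] Dual k H1') (ι1 : P1 →ₗ[k] Dual k P1')
    (hc1 : ∀ w y, Φ2 (bd1 w) y = ι1 w (b1' y)) : ∀ x y, ι1 (b1 x) (b1' y) = 0 := by
  intro x y
  rw [← hc1, hcomp, map_zero]
  rfl

end Isotropy

section StageB2

variable {P1 Hc2 H2 H1 H1' P1' : Type*}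
  [AddCommGroup P1] [Module k P1] [AddCommGroup Hc2] [Module k Hc2]
  [AddCommGroup H2] [Module k H2] [AddCommGroup H1] [Module k H1]
  [AddCommGroup H1'] [Module k H1'] [AddCommGroup P1'] [Module k P1']

/-- **STAGE B2, boundary part of `Φ²`.**  Piece `H¹ --β¹--> P¹ --∂--> H²_c --j--> H²` of the cone
sequence (a complex at `P¹`, exact at `H²_c`), `Φ² (∂ w) = ι¹ w ∘ β¹'`, and maximal isotropy.
Then `Φ² x = 0` and `j x = 0` imply `x = 0`. -/
theorem phi2_eq_zero_of_j_eq_zero (b1 : H1 →ₗ[k] P1) (bd1 : P1 →ₗ[k] Hc2) (j2 : Hc2 →ₗ[k] H2)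
    (hcomp : ∀ x, bd1 (b1 x) = 0) (hex : LinearMap.ker j2 = LinearMap.range bd1)
    (b1' : H1' →ₗ[k] P1') (Φ2 : Hc2 →ₗ[k] Dual k H1') (ι1 : P1 →ₗ[k] Dual k P1')
    (hc1 : ∀ w y, Φ2 (bd1 w) y = ι1 w (b1' y))
    (hmax : ∀ w : P1, (∀ y, ι1 w (b1' y) = 0) → w ∈ LinearMap.range b1)
    {x : Hc2} (hΦ : Φ2 x = 0) (hj : j2 x = 0) : x = 0 := by
  apply eq_zero_of_phi_eq_zero_of_j_eq_zero bd1 j2 hex b1' Φ2 ι1 hc1 _ hΦ hj
  intro w hw
  obtain ⟨y, rfl⟩ := hmax w hw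
  exact hcomp y

end StageB2

section Four

variable {A B C E HE DE A' B' C' : Type*} [AddCommGroup A] [AddCommGroup B] [AddCommGroup C]
  [AddCommGroup E] [AddCommGroup HE] [AddCommGroup DE] [AddCommGroup A'] [AddCommGroup B']
  [AddCommGroup C']

/-- **STAGE B2, the chase for `Φ²`.**  Rows `A → B → C → E` (`H¹_c(I') → H¹_c(Q) → H²_c(I) →
H²_c(I')`) and `A' → B' → C'`, verticals `α = Φ¹_{I'}` (surjective), `β = Φ¹_Q` (injective),
`γ = Φ²_I`; over the smaller level: `jE : E → HE` (`H²_c(I') → H²(I')`), `γE = Φ²_{I'}`, with the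
boundary part `γE z = 0 → jE z = 0 → z = 0`.  If `γ c = 0`, `γE (h c) = 0` (adjunction) and
`jE (h c) = 0` (choice of the level), then `c = 0`. -/
theorem eq_zero_of_four_of_res (f : A →+ B) (g : B →+ C) (h : C →+ E) (f' : A' →+ B')
    (g' : B' →+ C') (α : A →+ A') (β : B →+ B') (γ : C →+ C') (jE : E →+ HE) (γE : E →+ DE)
    (hα : Function.Surjective α) (hβ : Function.Injective β)
    (hgf : ∀ a, g (f a) = 0) (hexC : ∀ c, h c = 0 → ∃ b, g b = c)
    (hexB' : ∀ b', g' b' = 0 → ∃ a', f' a' = b')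
    (sq1 : ∀ a, β (f a) = f' (α a)) (sq2 : ∀ b, γ (g b) = 0 → g' (β b) = 0)
    (hbdE : ∀ z, γE z = 0 → jE z = 0 → z = 0)
    {c : C} (hc : γ c = 0) (hγE : γE (h c) = 0) (hjE : jE (h c) = 0) : c = 0 :=
  eq_zero_of_four f g h f' g' α β γ hα hβ hgf hexC hexB' sq1 sq2 hc (hbdE (h c) hγE hjE)

end Four

section Sub

variable {H0 P0 Hc1 H2' P2' : Type*}
  [AddCommGroup H0] [Module k H0] [AddCommGroup P0] [Module k P0]
  [AddCommGroup Hc1] [Module k Hc1] [AddCommGroup H2'] [Module k H2']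
  [AddCommGroup P2'] [Module k P2'] [FiniteDimensional k P0] [FiniteDimensional k P2']

/-- **`hsub` of `base_count` is formal.**  Piece `H⁰ --β⁰--> P⁰ --∂--> H¹_c` of the cone sequence
(exact at `P⁰`), `Φ¹ (∂ w) = ι⁰ w ∘ β²'`, `ι⁰ : P⁰ → (P²')^*` bijective.  Then
`dim range β²' ≤ dim range ∂`.  (`ι⁰ (β⁰ c) ⊥ range β²'` because `∂ ∘ β⁰ = 0`: "the sum of the local
invariants of a global class is zero" is built into the existence of the trace.) -/
theorem finrank_range_le_of_cone (b0 : H0 →ₗ[k] P0) (bd0 : P0 →ₗ[k] Hc1)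
    (hex0 : LinearMap.ker bd0 = LinearMap.range b0) (b2' : H2' →ₗ[k] P2')
    (Φ1 : Hc1 →ₗ[k] Dual k H2') (ι0 : P0 →ₗ[k] Dual k P2') (hι0 : Function.Bijective ι0)
    (hc0 : ∀ w y, Φ1 (bd0 w) y = ι0 w (b2' y)) :
    finrank k (LinearMap.range b2') ≤ finrank k (LinearMap.range bd0) := by
  have hiso : ∀ a ∈ LinearMap.range b0, ∀ a' ∈ LinearMap.range b2', ι0 a a' = 0 := by
    rintro _ ⟨c, rfl⟩ _ ⟨y, rfl⟩
    have h0 : bd0 (b0 c) = 0 := by
      have : b0 c ∈ LinearMap.ker bd0 := by rw [hex0]; exact LinearMap.mem_range_self b0 c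
      exact this
    rw [← hc0, h0, map_zero]
    rfl
  have h1 := finrank_add_le_of_isotropic ι0 hι0.1 (LinearMap.range b0) (LinearMap.range b2') hiso
  have h2 := LinearMap.finrank_range_add_finrank_ker bd0
  rw [hex0] at h2
  have h3 : finrank k P0 = finrank k (Dual k P2') :=
    LinearEquiv.finrank_eq (LinearEquiv.ofBijective ι0 hι0)
  rw [Subspace.dual_finrank_eq] at h3
  omega

end Sub

end Fermat.Agent.S55.GL.BaseStages
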