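/-
S55 / GLO14: THE BASE CASE ON THE CONE API (counting route, blueprint v4).

Instantiation of the abstract chases of `GL/BaseCount.lean` + `GL/BaseStages.lean` (helper28) on the
compactly supported level cohomology `Hc D A n` of `ConeLevel.lean` / `ConePairing.lean` (helper9).

* `Pair 𝒰 C`: a pair `(X, Y)` of discrete representations with an equivariant pairing
  `φ : X × Y → C`;  `Phi1 : Hc¹(X) → H²(Y)^*`, `Phi2 : Hc²(X) → H¹(Y)^*`, `iota0`, `iota1`.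
* `Link P P'`: adjoint coefficient maps `inc : P.X ⟶ P'.X`, `cor : P'.Y ⟶ P.Y`
  (`I_L ↪ I_L'` and its transpose).
* `ExactLink P P'`: a link completed to two short exact sequences `0 → P.X → P'.X → Q.X → 0`,
  `0 → Q.Y → P'.Y → P.Y → 0` with adjoint pairings.
* STAGE A: `Pair.Phi1_injective`.  STAGE B1: `Pair.base_count`.  STAGE B2: `Pair.Phi2_injective`.
* `base_case`: the three stages assembled for a class `Base` of pairs.

Everything arithmetic is a hypothesis (`Pair.K2`, `Pair.Count`, class killing); everything formal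
(exactness, boundary compatibility, adjunction, reciprocity = isotropy) is proved here from the cone.
-/
import Fermat.Agent.S55.ConePairing
import Fermat.Agent.S55.ConeStep
import Fermat.Agent.S55.FiveDual
import Fermat.Agent.S55.CF.LESElem
import Fermat.Agent.S55.GL.BaseStages

set_option autoImplicit false

namespace Fermat.Agent.S55.GL.BaseCase

open CategoryTheory Module Fermat.Agent.S55.Level Fermat.Agent.S55.Cone Fermat.Agent.S55.CF
  Fermat.Agent.S55.GL.BaseCount Fermat.Agent.S55.GL.BaseStages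

universe u

variable {k G : Type u} [Field k] [Group G]

/-- A pair of discrete representations with an equivariant bilinear pairing to `C`. -/
structure Pair (𝒰 : LevelStructure G) (C : Rep.{u} k G) where
  /-- the first representation (`I_L`) -/
  X : Rep.{u} k G
  /-- the second representation (`I_L'`, the dual of `X`) -/
  Y : Rep.{u} k G
  [dX : IsDiscrete 𝒰 X]
  [dY : IsDiscrete 𝒰 Y]
  /-- the pairing -/
  φ : X →ₗ[k] Y →ₗ[k] C
  hφ : ∀ (g : G) (a : X) (b : Y), φ (X.ρ g a) (Y.ρ g b) = C.ρ g (φ a b)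

attribute [instance] Pair.dX Pair.dY

variable {𝒰 : LevelStructure G} {C : Rep.{u} k G}

/-- Adjoint coefficient maps between two pairs. -/
structure Link (P P' : Pair 𝒰 C) where
  /-- the map on the first representations -/
  inc : P.X ⟶ P'.X
  /-- the adjoint map on the second representations -/
  cor : P'.Y ⟶ P.Y
  adj : ∀ (a : P.X) (b : P'.Y), P'.φ (inc.hom a) b = P.φ a (cor.hom b)

/-- A link completed to two short exact sequences with adjoint pairings. -/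
structure ExactLink (P P' : Pair 𝒰 C) extends Link P P' where
  /-- the pair (cokernel of `inc`, kernel of `cor`) -/
  Q : Pair 𝒰 C
  /-- the projection to the cokernel -/
  pr : P'.X ⟶ Q.X
  /-- the inclusion of the kernel -/
  ker : Q.Y ⟶ P'.Y
  adjQ : ∀ (a : P'.X) (b : Q.Y), Q.φ (pr.hom a) b = P'.φ a (ker.hom b)
  zero : inc ≫ pr = 0
  zero' : ker ≫ cor = 0
  exact : (ShortComplex.mk inc pr zero).ShortExact
  exact' : (ShortComplex.mk ker cor zero').ShortExact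

section Maps

variable (D : LocalData 𝒰) [IsDiscrete 𝒰 C] (tr : Hc D C 3 →ₗ[k] k) (P : Pair 𝒰 C)

/-- `Φ¹ : Hc¹(X) → H²(Y)^*`. -/
noncomputable abbrev Pair.Phi1 : Hc D P.X 1 →ₗ[k] Dual k (levelCohomology 𝒰 P.Y 2) :=
  Phi D P.φ P.hφ 1 2 3 rfl tr

/-- `Φ² : Hc²(X) → H¹(Y)^*`. -/
noncomputable abbrev Pair.Phi2 : Hc D P.X 2 →ₗ[k] Dual k (levelCohomology 𝒰 P.Y 1) :=
  Phi D P.φ P.hφ 2 1 3 rfl tr

/-- The local pairing in degrees `(0,2)`. -/
noncomputable abbrev Pair.iota0 :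
    (∀ v, levelCohomology (D.𝒱 v) (Rep.res (D.r v) P.X) 0) →ₗ[k]
      Dual k (∀ v, levelCohomology (D.𝒱 v) (Rep.res (D.r v) P.Y) 2) :=
  locDual D P.φ P.hφ 0 2 2 rfl tr

/-- The local pairing in degrees `(1,1)`. -/
noncomputable abbrev Pair.iota1 :
    (∀ v, levelCohomology (D.𝒱 v) (Rep.res (D.r v) P.X) 1) →ₗ[k]
      Dual k (∀ v, levelCohomology (D.𝒱 v) (Rep.res (D.r v) P.Y) 1) :=
  locDual D P.φ P.hφ 1 1 2 rfl tr

/-- ARITH (c), `hK2` form: a family `w ∈ P⁰(X)` orthogonal to the localisation of `H²(Y)` has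
trivial boundary (i.e. comes from `H⁰(X)`). -/
def Pair.K2 : Prop :=
  ∀ w : (∀ v, levelCohomology (D.𝒱 v) (Rep.res (D.r v) P.X) 0),
    (∀ y : levelCohomology 𝒰 P.Y 2, P.iota0 D tr w (locH D P.Y 2 y) = 0) → HcBd D P.X 0 w = 0

/-- Maximal isotropy of the localisation image in degree 1 (output of the count). -/
def Pair.MaxIso : Prop :=
  ∀ w : (∀ v, levelCohomology (D.𝒱 v) (Rep.res (D.r v) P.X) 1),
    (∀ y : levelCohomology 𝒰 P.Y 1, P.iota1 D tr w (locH D P.Y 1 y) = 0) →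
      w ∈ LinearMap.range (locH D P.X 1)

end Maps

section StageA

variable (D : LocalData 𝒰) [IsDiscrete 𝒰 C] (tr : Hc D C 3 →ₗ[k] k)

/-- `∂ ∘ loc = 0` in degree `n`. -/
theorem HcBd_locH (A : Rep.{u} k G) [IsDiscrete 𝒰 A] (n : ℕ) (x : levelCohomology 𝒰 A n) :
    HcBd D A n (locH D A n x) = 0 := by
  have h : locH D A n x ∈ LinearMap.ker (HcBd D A n) := by
    rw [ker_HcBd_eq_range_locH]
    exact LinearMap.mem_range_self _ x
  exact h

/-- **Boundary part of `Φ¹`**: under ARITH (c), `Φ¹ x = 0` and `j x = 0` imply `x = 0`. -/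
theorem Pair.eq_zero_of_Phi1_of_HcToH (P : Pair 𝒰 C) (hK2 : P.K2 D tr) {x : Hc D P.X 1}
    (hΦ : P.Phi1 D tr x = 0) (hj : HcToH D P.X 1 x = 0) : x = 0 :=
  eq_zero_of_phi_eq_zero_of_j_eq_zero (HcBd D P.X 0) (HcToH D P.X 1)
    (ker_HcToH_eq_range_HcBd D P.X 0) (locH D P.Y 2) (P.Phi1 D tr) (P.iota0 D tr)
    (fun w y => Phi_HcBd D P.φ P.hφ 0 2 2 rfl tr w y) hK2 hΦ hj

variable {D tr} in
/-- (N1) for a link, degree `(1,2)`. -/
theorem Link.Phi1_comp {P P' : Pair 𝒰 C} (ℓ : Link P P') (x : Hc D P.X 1)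
    (y : levelCohomology 𝒰 P'.Y 2) :
    P'.Phi1 D tr (HcMap D ℓ.inc 1 x) y = P.Phi1 D tr x ((Hmap 𝒰 ℓ.cor 2).hom y) :=
  Phi_adjoint D P.φ P.hφ P'.φ P'.hφ ℓ.inc ℓ.cor ℓ.adj 1 2 3 rfl tr x y

variable {D tr} in
/-- (N1) for a link, degree `(2,1)`. -/
theorem Link.Phi2_comp {P P' : Pair 𝒰 C} (ℓ : Link P P') (x : Hc D P.X 2)
    (y : levelCohomology 𝒰 P'.Y 1) :
    P'.Phi2 D tr (HcMap D ℓ.inc 2 x) y = P.Phi2 D tr x ((Hmap 𝒰 ℓ.cor 1).hom y) :=
  Phi_adjoint D P.φ P.hφ P'.φ P'.hφ ℓ.inc ℓ.cor ℓ.adj 2 1 3 rfl tr x y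

/-- **Stage A, for one element**: `Φ¹ x = 0`, and `j x` dies along a link `P → P'` for which
`Hc¹(P.X) → Hc¹(P'.X)` is injective and `P'` satisfies ARITH (c).  Then `x = 0`. -/
theorem Link.eq_zero_of_Phi1 {P P' : Pair 𝒰 C} (ℓ : Link P P') (hK2 : P'.K2 D tr)
    (hres : Function.Injective (HcMap D ℓ.inc 1)) {x : Hc D P.X 1} (hΦ : P.Phi1 D tr x = 0)
    (hkill : (Hmap 𝒰 ℓ.inc 1).hom (HcToH D P.X 1 x) = 0) : x = 0 :=
  eq_zero_of_res (HcToH D P.X 1) (P.Phi1 D tr) (HcMap D ℓ.inc 1) (Hmap 𝒰 ℓ.inc 1).hom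
    (HcToH D P'.X 1) (P'.Phi1 D tr) (Hmap 𝒰 ℓ.cor 2).hom hres (HcToH_HcMap D ℓ.inc 1)
    ℓ.Phi1_comp (fun _ hz hjz => P'.eq_zero_of_Phi1_of_HcToH D tr hK2 hz hjz) hΦ hkill

/-- **STAGE A**: `Φ¹` is injective on `P` as soon as every class of `H¹(P.X)` dies along a suitable
link. -/
theorem Pair.Phi1_injective (P : Pair 𝒰 C)
    (h : ∀ χ : levelCohomology 𝒰 P.X 1, ∃ (P' : Pair 𝒰 C) (ℓ : Link P P'), P'.K2 D tr ∧
      Function.Injective (HcMap D ℓ.inc 1) ∧ (Hmap 𝒰 ℓ.inc 1).hom χ = 0) :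
    Function.Injective (P.Phi1 D tr) := by
  rw [injective_iff_map_eq_zero]
  intro x hx
  obtain ⟨P', ℓ, hK2, hres, hkill⟩ := h (HcToH D P.X 1 x)
  exact ℓ.eq_zero_of_Phi1 D tr hK2 hres hx hkill

end StageA

section Exact

variable (D : LocalData 𝒰) [IsDiscrete 𝒰 C] (tr : Hc D C 3 →ₗ[k] k) {P P' : Pair 𝒰 C}
  (ℓ : ExactLink P P')

/-- The short complex `P.X ⟶ P'.X ⟶ Q.X` of an exact link. -/
abbrev ExactLink.S : ShortComplex (Rep.{u} k G) := ShortComplex.mk ℓ.inc ℓ.pr ℓ.zero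

/-- The short complex `Q.Y ⟶ P'.Y ⟶ P.Y` of an exact link. -/
abbrev ExactLink.S' : ShortComplex (Rep.{u} k G) := ShortComplex.mk ℓ.ker ℓ.cor ℓ.zero'

instance : IsDiscrete 𝒰 ℓ.S.X₁ := P.dX
instance : IsDiscrete 𝒰 ℓ.S.X₂ := P'.dX
instance : IsDiscrete 𝒰 ℓ.S.X₃ := ℓ.Q.dX
instance : IsDiscrete 𝒰 ℓ.S'.X₁ := ℓ.Q.dY
instance : IsDiscrete 𝒰 ℓ.S'.X₂ := P'.dY
instance : IsDiscrete 𝒰 ℓ.S'.X₃ := P.dY

omit [IsDiscrete 𝒰 C] in
/-- `Hc¹(P.X) → Hc¹(P'.X)` is injective for an exact link, because `Hc⁰` of the cokernel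
vanishes. -/
theorem ExactLink.HcMap_inc_injective (hZ : ∀ x : Hc D ℓ.Q.X 0, x = 0) :
    Function.Injective (HcMap D ℓ.inc 1) := by
  rw [← LinearMap.ker_eq_bot, eq_bot_iff]
  intro x hx
  have h := ker_HcMap_f_eq_range_Hcδ D (X := ℓ.S) ℓ.exact 0 1 rfl
  have hx' : x ∈ LinearMap.ker (HcMap D ℓ.S.f 1) := hx
  rw [h] at hx'
  obtain ⟨z, rfl⟩ := hx'
  rw [hZ z, map_zero]
  exact Submodule.zero_mem _

end Exact

section StageB1

variable (D : LocalData 𝒰) [IsDiscrete 𝒰 C] (tr : Hc D C 3 →ₗ[k] k) (P : Pair 𝒰 C)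

/-- **ARITH-L (a), (b), (d)** for a pair: finiteness, the count `dim H¹(X) = dim H¹(Y) = s + c`,
`dim P¹(Y) = 2 s`, `dim Ш¹(X) = dim Ш¹(Y)`, `dim Ш²(Y) ≤ c`, and local duality in degrees `(0,2)`
(perfect) and `(1,1)` (injective). -/
structure Pair.Count (s c : ℕ) : Prop where
  fdH1 : FiniteDimensional k (levelCohomology 𝒰 P.X 1)
  fdH1' : FiniteDimensional k (levelCohomology 𝒰 P.Y 1)
  fdH2' : FiniteDimensional k (levelCohomology 𝒰 P.Y 2)
  fdP0 : FiniteDimensional k (∀ v, levelCohomology (D.𝒱 v) (Rep.res (D.r v) P.X) 0)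
  fdP1' : FiniteDimensional k (∀ v, levelCohomology (D.𝒱 v) (Rep.res (D.r v) P.Y) 1)
  fdP2' : FiniteDimensional k (∀ v, levelCohomology (D.𝒱 v) (Rep.res (D.r v) P.Y) 2)
  hH : finrank k (levelCohomology 𝒰 P.X 1) = s + c
  hH' : finrank k (levelCohomology 𝒰 P.Y 1) = s + c
  hP' : finrank k (∀ v, levelCohomology (D.𝒱 v) (Rep.res (D.r v) P.Y) 1) = 2 * s
  hker : finrank k (LinearMap.ker (locH D P.X 1)) = finrank k (LinearMap.ker (locH D P.Y 1))
  hsha2 : finrank k (LinearMap.ker (locH D P.Y 2)) ≤ c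
  hι0 : Function.Bijective (P.iota0 D tr)
  hι1 : Function.Injective (P.iota1 D tr)

/-- **Reciprocity is formal**: the localisation images in degree 1 are orthogonal. -/
theorem Pair.isotropic (x : levelCohomology 𝒰 P.X 1) (y : levelCohomology 𝒰 P.Y 1) :
    P.iota1 D tr (locH D P.X 1 x) (locH D P.Y 1 y) = 0 :=
  isotropic_of_cone (locH D P.X 1) (HcBd D P.X 1) (HcBd_locH D P.X 1) (locH D P.Y 1)
    (P.Phi2 D tr) (P.iota1 D tr) (fun w y => Phi_HcBd D P.φ P.hφ 1 1 2 rfl tr w y) x y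

variable {D tr P} in
/-- **STAGE B1: the count.**  `dim Ш¹(X) = c`, `Φ¹` is bijective and the localisation image in
degree 1 is maximal isotropic. -/
theorem Pair.base_count {s c : ℕ} (hcount : P.Count D tr s c)
    (hΦ1 : Function.Injective (P.Phi1 D tr)) :
    finrank k (LinearMap.ker (locH D P.X 1)) = c ∧ Function.Bijective (P.Phi1 D tr) ∧
      P.MaxIso D tr := by
  have := hcount.fdH1
  have := hcount.fdH1'
  have := hcount.fdH2'
  have := hcount.fdP0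
  have := hcount.fdP1'
  have := hcount.fdP2'
  have hc0 : ∀ w y, P.Phi1 D tr (HcBd D P.X 0 w) y = P.iota0 D tr w (locH D P.Y 2 y) :=
    fun w y => Phi_HcBd D P.φ P.hφ 0 2 2 rfl tr w y
  exact BaseStages.base_count (HcBd D P.X 0) (HcToH D P.X 1) (locH D P.X 1)
    (ker_HcToH_eq_range_HcBd D P.X 0) (ker_locH_eq_range_HcToH D P.X 1) (locH D P.Y 1)
    (locH D P.Y 2) (P.Phi1 D tr) hΦ1 (P.iota0 D tr) hcount.hι0.2 hc0 (P.iota1 D tr) hcount.hι1
    (P.isotropic D tr) hcount.hH hcount.hH' hcount.hP' hcount.hker hcount.hsha2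
    (finrank_range_le_of_cone (locH D P.X 0) (HcBd D P.X 0) (ker_HcBd_eq_range_locH D P.X 0)
      (locH D P.Y 2) (P.Phi1 D tr) (P.iota0 D tr) hcount.hι0 hc0)

end StageB1

section StageB2

variable (D : LocalData 𝒰) [IsDiscrete 𝒰 C] (tr : Hc D C 3 →ₗ[k] k)

/-- **Boundary part of `Φ²`**: under maximal isotropy, `Φ² x = 0` and `j x = 0` imply `x = 0`. -/
theorem Pair.eq_zero_of_Phi2_of_HcToH (P : Pair 𝒰 C) (hmax : P.MaxIso D tr) {x : Hc D P.X 2}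
    (hΦ : P.Phi2 D tr x = 0) (hj : HcToH D P.X 2 x = 0) : x = 0 :=
  phi2_eq_zero_of_j_eq_zero (locH D P.X 1) (HcBd D P.X 1) (HcToH D P.X 2) (HcBd_locH D P.X 1)
    (ker_HcToH_eq_range_HcBd D P.X 1) (locH D P.Y 1) (P.Phi2 D tr) (P.iota1 D tr)
    (fun w y => Phi_HcBd D P.φ P.hφ 1 1 2 rfl tr w y) hmax hΦ hj

variable {P P' : Pair 𝒰 C} (ℓ : ExactLink P P')

/-- The left square of the chase: `Φ¹_Q (pr x) = Φ¹_{P'} x ∘ H²(ker)`. -/
theorem ExactLink.Phi1_pr (x : Hc D P'.X 1) (y : levelCohomology 𝒰 ℓ.Q.Y 2) :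
    ℓ.Q.Phi1 D tr (HcMap D ℓ.pr 1 x) y = P'.Phi1 D tr x ((Hmap 𝒰 ℓ.ker 2).hom y) :=
  Phi_adjoint D P'.φ P'.hφ ℓ.Q.φ ℓ.Q.hφ ℓ.pr ℓ.ker ℓ.adjQ 1 2 3 rfl tr x y

/-- The middle square of the chase (up to the sign `-(-1)^1 = 1`):
`Φ²_P (δ q) y = Φ¹_Q q (δ y)`. -/
theorem ExactLink.Phi2_δ (q : Hc D ℓ.Q.X 1) (y : levelCohomology 𝒰 P.Y 1) :
    P.Phi2 D tr (Hcδ D (X := ℓ.S) ℓ.exact 1 2 rfl q) y =
      ℓ.Q.Phi1 D tr q ((levelδ 𝒰 (X := ℓ.S') ℓ.exact' 1 2 rfl).hom y) := by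
  have h := Phi_δ D (S := ℓ.S) (S' := ℓ.S') ℓ.exact ℓ.exact' P.φ P.hφ P'.φ P'.hφ ℓ.Q.φ ℓ.Q.hφ
    ℓ.adj ℓ.adjQ (m := 1) (n := 1) (p := 2) rfl tr q y
  rw [pow_one, neg_one_mul, neg_neg] at h
  exact h

/-- **Stage B2, the chase for one element.**  `Φ²_P x = 0`, and `j x` dies along an exact link
`P → P'` such that `Φ¹_{P'}` is surjective, `Φ¹_Q` is injective and `P'` is maximal isotropic.
Then `x = 0`. -/
theorem ExactLink.eq_zero_of_Phi2 (hα : Function.Surjective (P'.Phi1 D tr))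
    (hβ : Function.Injective (ℓ.Q.Phi1 D tr)) (hmax : P'.MaxIso D tr) {x : Hc D P.X 2}
    (hΦ : P.Phi2 D tr x = 0) (hkill : (Hmap 𝒰 ℓ.inc 2).hom (HcToH D P.X 2 x) = 0) : x = 0 := by
  refine eq_zero_of_four_of_res
    (f := (HcMap D ℓ.pr 1).toAddMonoidHom)
    (g := (Hcδ D (X := ℓ.S) ℓ.exact 1 2 rfl).toAddMonoidHom)
    (h := (HcMap D ℓ.inc 2).toAddMonoidHom)
    (f' := ((Hmap 𝒰 ℓ.ker 2).hom.dualMap).toAddMonoidHom)
    (g' := ((levelδ 𝒰 (X := ℓ.S') ℓ.exact' 1 2 rfl).hom.dualMap).toAddMonoidHom)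
    (α := (P'.Phi1 D tr).toAddMonoidHom) (β := (ℓ.Q.Phi1 D tr).toAddMonoidHom)
    (γ := (P.Phi2 D tr).toAddMonoidHom) (jE := (HcToH D P'.X 2).toAddMonoidHom)
    (γE := (P'.Phi2 D tr).toAddMonoidHom) hα hβ ?_ ?_ ?_ ?_ ?_ ?_ hΦ ?_ ?_
  · -- `δ ∘ pr = 0`
    intro a
    have h : HcMap D ℓ.S.g 1 a ∈ LinearMap.ker (Hcδ D (X := ℓ.S) ℓ.exact 1 2 rfl) := by
      rw [ker_Hcδ_eq_range_HcMap_g]
      exact LinearMap.mem_range_self _ a
    exact h
  · -- exactness at `Hc²(P.X)`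
    intro c hc
    have h : c ∈ LinearMap.ker (HcMap D ℓ.S.f 2) := hc
    rw [ker_HcMap_f_eq_range_Hcδ D (X := ℓ.S) ℓ.exact 1 2 rfl] at h
    exact h
  · -- exactness of the dual row
    intro b' hb'
    obtain ⟨ξ, hξ⟩ := FiveDual.exists_comp_eq_of_ker_le (Hmap 𝒰 ℓ.ker 2).hom b' (by
      intro v hv
      obtain ⟨z, rfl⟩ := exists_of_Hmap_f_eq_zero 𝒰 (X := ℓ.S') ℓ.exact' 1 2 rfl v hv
      exact LinearMap.congr_fun hb' z)
    exact ⟨ξ, hξ⟩
  · -- left square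
    intro a
    exact LinearMap.ext fun y => ℓ.Phi1_pr D tr a y
  · -- middle square
    intro q hq
    refine LinearMap.ext fun y => ?_
    have := ℓ.Phi2_δ D tr q y
    rw [show P.Phi2 D tr (Hcδ D (X := ℓ.S) ℓ.exact 1 2 rfl q) = 0 from hq] at this
    exact this.symm
  · -- boundary part over `P'`
    intro z hz hjz
    exact P'.eq_zero_of_Phi2_of_HcToH D tr hmax hz hjz
  · -- `Φ²_{P'} (inc x) = Φ²_P x ∘ cor = 0`
    refine LinearMap.ext fun y => ?_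
    have := ℓ.toLink.Phi2_comp (D := D) (tr := tr) x y
    rw [hΦ] at this
    exact this
  · -- `j (inc x) = inc (j x) = 0`
    exact (HcToH_HcMap D ℓ.inc 2 x).trans hkill

/-- **STAGE B2**: `Φ²` is injective on `P` as soon as every class of `H²(P.X)` dies along a
suitable exact link. -/
theorem Pair.Phi2_injective (P : Pair 𝒰 C)
    (h : ∀ y : levelCohomology 𝒰 P.X 2, ∃ (P' : Pair 𝒰 C) (ℓ : ExactLink P P'),
      Function.Surjective (P'.Phi1 D tr) ∧ Function.Injective (ℓ.Q.Phi1 D tr) ∧ P'.MaxIso D tr ∧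
        (Hmap 𝒰 ℓ.inc 2).hom y = 0) :
    Function.Injective (P.Phi2 D tr) := by
  rw [injective_iff_map_eq_zero]
  intro x hx
  obtain ⟨P', ℓ, hα, hβ, hmax, hkill⟩ := h (HcToH D P.X 2 x)
  exact ℓ.eq_zero_of_Phi2 D tr hα hβ hmax hx hkill

end StageB2

section Assembly

variable (D : LocalData 𝒰) [IsDiscrete 𝒰 C] (tr : Hc D C 3 →ₗ[k] k)

/-- **STAGE A for a class of pairs.**  `Base` a class of pairs all satisfying ARITH (c), in which
every class of `H¹` dies along an exact link to another member; at least one place.  Then `Φ¹` is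
injective on every member. -/
theorem Phi1_injective_of_base [Nonempty D.ι] (Base : Pair 𝒰 C → Prop)
    (hK2 : ∀ P, Base P → P.K2 D tr)
    (hkill1 : ∀ P, Base P → ∀ χ : levelCohomology 𝒰 P.X 1,
      ∃ P', Base P' ∧ ∃ ℓ : ExactLink P P', (Hmap 𝒰 ℓ.inc 1).hom χ = 0) :
    ∀ P, Base P → Function.Injective (P.Phi1 D tr) := by
  intro P hP
  apply P.Phi1_injective D tr
  intro χ
  obtain ⟨P', hP', ℓ, hχ⟩ := hkill1 P hP χ
  exact ⟨P', ℓ.toLink, hK2 P' hP', ℓ.HcMap_inc_injective D (Hc_zero_eq_zero D ℓ.Q.X), hχ⟩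

/-- **THE BASE CASE (GLO14), assembled.**  `Base` a class of pairs `(I_L, I_L', φ_L)` such that
* there is at least one place (so that `Hc⁰` vanishes identically),
* every member satisfies ARITH (c) (`K2`) and the count ARITH (a), (b), (d) (`Count`),
* every class of `H¹(I_L)`, resp. `H²(I_L)`, dies along an exact link to another member,
* (MAIN₀) if `Φ¹` is injective on all members, it is injective on the cokernel pair of every exact
  link between members (dévissage engine in degree `0`).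
Then for every member `Φ¹` is bijective, `Φ²` is injective and the localisation image in degree 1
is maximal isotropic. -/
theorem base_case [Nonempty D.ι] (Base : Pair 𝒰 C → Prop)
    (hK2 : ∀ P, Base P → P.K2 D tr)
    (hcount : ∀ P, Base P → ∃ s c, P.Count D tr s c)
    (hkill1 : ∀ P, Base P → ∀ χ : levelCohomology 𝒰 P.X 1,
      ∃ P', Base P' ∧ ∃ ℓ : ExactLink P P', (Hmap 𝒰 ℓ.inc 1).hom χ = 0)
    (hkill2 : ∀ P, Base P → ∀ y : levelCohomology 𝒰 P.X 2,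
      ∃ P', Base P' ∧ ∃ ℓ : ExactLink P P', (Hmap 𝒰 ℓ.inc 2).hom y = 0)
    (hmain0 : (∀ P, Base P → Function.Injective (P.Phi1 D tr)) →
      ∀ (P P' : Pair 𝒰 C) (ℓ : ExactLink P P'), Base P → Base P' →
        Function.Injective (ℓ.Q.Phi1 D tr)) :
    ∀ P, Base P → Function.Bijective (P.Phi1 D tr) ∧ Function.Injective (P.Phi2 D tr) ∧
      P.MaxIso D tr := by
  have hA := Phi1_injective_of_base D tr Base hK2 hkill1
  have hB1 : ∀ P, Base P → Function.Bijective (P.Phi1 D tr) ∧ P.MaxIso D tr := by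
    intro P hP
    obtain ⟨s, c, hc⟩ := hcount P hP
    exact (Pair.base_count hc (hA P hP)).2
  intro P hP
  refine ⟨(hB1 P hP).1, ?_, (hB1 P hP).2⟩
  apply P.Phi2_injective D tr
  intro y
  obtain ⟨P', hP', ℓ, hy⟩ := hkill2 P hP y
  exact ⟨P', ℓ, (hB1 P' hP').1.2, hmain0 hA P P' ℓ hP hP', (hB1 P' hP').2, hy⟩

end Assembly

section Iso

variable (D : LocalData 𝒰) {A B : Rep.{u} k G} [IsDiscrete 𝒰 A] [IsDiscrete 𝒰 B]

/-- The linear equivalence on level cohomology induced by an isomorphism of coefficients. -/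
noncomputable def HmapEquiv (e : A ≅ B) (n : ℕ) :
    levelCohomology 𝒰 A n ≃ₗ[k] levelCohomology 𝒰 B n :=
  LinearEquiv.ofLinearMap (Hmap 𝒰 e.hom n).hom (Hmap 𝒰 e.inv n).hom
    (LinearMap.ext fun x => by
      rw [LinearMap.comp_apply, ← Hmap_comp_apply, e.inv_hom_id, Hmap_id]
      rfl)
    (LinearMap.ext fun x => by
      rw [LinearMap.comp_apply, ← Hmap_comp_apply, e.hom_inv_id, Hmap_id]
      rfl)

theorem HmapEquiv_apply (e : A ≅ B) (n : ℕ) (x : levelCohomology 𝒰 A n) :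
    HmapEquiv e n x = (Hmap 𝒰 e.hom n).hom x := rfl

/-- A morphism of coefficients maps `ker loc` into `ker loc` (via the cone sequence). -/
theorem Hmap_mem_ker_locH (f : A ⟶ B) (n : ℕ) {x : levelCohomology 𝒰 A n}
    (hx : x ∈ LinearMap.ker (locH D A n)) : (Hmap 𝒰 f n).hom x ∈ LinearMap.ker (locH D B n) := by
  rw [ker_locH_eq_range_HcToH] at hx ⊢
  obtain ⟨z, rfl⟩ := hx
  exact ⟨HcMap D f n z, HcToH_HcMap D f n z⟩

/-- Isomorphic coefficients have isomorphic `Ш`: `dim ker loc` agrees. -/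
theorem finrank_ker_locH_eq_of_iso (e : A ≅ B) (n : ℕ) :
    finrank k (LinearMap.ker (locH D A n)) = finrank k (LinearMap.ker (locH D B n)) := by
  have h : (LinearMap.ker (locH D A n)).map (HmapEquiv e n).toLinearMap =
      LinearMap.ker (locH D B n) := by
    apply le_antisymm
    · rintro _ ⟨x, hx, rfl⟩
      exact Hmap_mem_ker_locH D e.hom n hx
    · intro y hy
      refine ⟨(Hmap 𝒰 e.inv n).hom y, Hmap_mem_ker_locH D e.inv n hy, ?_⟩
      exact (HmapEquiv e n).apply_symm_apply y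
  rw [← h]
  exact (LinearEquiv.finrank_map_eq (HmapEquiv e n) _).symm

/-- Isomorphic coefficients have level cohomology of the same dimension. -/
theorem finrank_levelCohomology_eq_of_iso (e : A ≅ B) (n : ℕ) :
    finrank k (levelCohomology 𝒰 A n) = finrank k (levelCohomology 𝒰 B n) :=
  (HmapEquiv e n).finrank_eq

end Iso

section OfShortExact

variable {S S' : ShortComplex (Rep.{u} k G)}
  [IsDiscrete 𝒰 S.X₁] [IsDiscrete 𝒰 S.X₂] [IsDiscrete 𝒰 S.X₃]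
  [IsDiscrete 𝒰 S'.X₁] [IsDiscrete 𝒰 S'.X₂] [IsDiscrete 𝒰 S'.X₃]

/-- An exact link from two short exact sequences `S : 0 → X₁ → X₂ → X₃ → 0`,
`S' : 0 → X'₁ → X'₂ → X'₃ → 0` and adjoint equivariant pairings `X₁ × X'₃ → C`, `X₂ × X'₂ → C`,
`X₃ × X'₁ → C` (the shape of `Cone.cupHc_δ`). -/
def ExactLink.ofShortExact (hS : S.ShortExact) (hS' : S'.ShortExact)
    (φ₁ : S.X₁ →ₗ[k] S'.X₃ →ₗ[k] C)
    (hφ₁ : ∀ (g : G) (a : S.X₁) (b : S'.X₃), φ₁ (S.X₁.ρ g a) (S'.X₃.ρ g b) = C.ρ g (φ₁ a b))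
    (φ₂ : S.X₂ →ₗ[k] S'.X₂ →ₗ[k] C)
    (hφ₂ : ∀ (g : G) (a : S.X₂) (b : S'.X₂), φ₂ (S.X₂.ρ g a) (S'.X₂.ρ g b) = C.ρ g (φ₂ a b))
    (φ₃ : S.X₃ →ₗ[k] S'.X₁ →ₗ[k] C)
    (hφ₃ : ∀ (g : G) (a : S.X₃) (b : S'.X₁), φ₃ (S.X₃.ρ g a) (S'.X₁.ρ g b) = C.ρ g (φ₃ a b))
    (h₁₂ : ∀ (a : S.X₁) (b : S'.X₂), φ₂ (S.f.hom a) b = φ₁ a (S'.g.hom b))
    (h₂₃ : ∀ (a : S.X₂) (b : S'.X₁), φ₃ (S.g.hom a) b = φ₂ a (S'.f.hom b)) :
    ExactLink (𝒰 := 𝒰) ⟨S.X₁, S'.X₃, φ₁, hφ₁⟩ ⟨S.X₂, S'.X₂, φ₂, hφ₂⟩ where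
  inc := S.f
  cor := S'.g
  adj := h₁₂
  Q := ⟨S.X₃, S'.X₁, φ₃, hφ₃⟩
  pr := S.g
  ker := S'.f
  adjQ := h₂₃
  zero := S.zero
  zero' := S'.zero
  exact := hS
  exact' := hS'

end OfShortExact

end Fermat.Agent.S55.GL.BaseCase
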