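/-
S55 / GLO14, part 2: the base case for a FAMILY of base objects, in the language of `MainDefs`.

`χ : G →* kˣ`, `tr : Hc³(k(χ)) → k`.  For a discrete `Y` with discrete twisted dual the pair
`twistPair χ Y = (Y, Y.dualTwist χ, evalPairing')` has `Phi1 = Main.PhiX Y 1 2`,
`Phi2 = Main.PhiX Y 2 1` (by `rfl`).  A short exact sequence `S` gives the exact link `twistLink`
through `dualSeq χ S`; an injective map `f : A ⟶ B` gives its cokernel sequence `cokerSeq f`.

`baseCase_of_family`: a family `I : Lev → Rep k G` of finite dimensional discrete representations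
with injective transition maps `incl L L' : I L ⟶ I L'` (`le L' L`) such that every class of
`H¹(I L)`, `H²(I L)` dies in some `I L'`, with ARITH-L (`K2`, `Count`) for every member, and MAIN₀
(injectivity of `PhiX¹` on the family implies injectivity of `PhiX¹` on all finite dimensional
discrete representations).  Then `PhiX¹` is bijective and `PhiX²` is injective on every member.
Nothing about coinduction inside.
-/
import Fermat.Agent.S55.GL.BaseCase
import Fermat.Agent.S55.MainDefs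

set_option autoImplicit false

namespace Fermat.Agent.S55.GL.BaseFamily

open CategoryTheory CategoryTheory.Limits Module groupCohomology Fermat.Agent.S55.Level Fermat.Agent.S55.Cone
  Fermat.Agent.S55.CF Fermat.Agent.S55.DualTwist Fermat.Agent.S55.LevelDuality
  Fermat.Agent.S55.Devissage Fermat.Agent.S55.Main Fermat.Agent.S55.GL.BaseCase

universe u

variable {k G : Type u} [Field k] [Group G] {𝒰 : LevelStructure G}

section Coker

variable {A B : Rep.{u} k G} (f : A ⟶ B)

/-- The cokernel sequence `A ⟶ B ⟶ coker f` of a morphism of representations. -/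
noncomputable def cokerSeq : ShortComplex (Rep.{u} k G) :=
  ShortComplex.mk f (cokernel.π f) (cokernel.condition f)

@[simp] theorem cokerSeq_X₁ : (cokerSeq f).X₁ = A := rfl
@[simp] theorem cokerSeq_X₂ : (cokerSeq f).X₂ = B := rfl
@[simp] theorem cokerSeq_X₃ : (cokerSeq f).X₃ = cokernel f := rfl
@[simp] theorem cokerSeq_f : (cokerSeq f).f = f := rfl

theorem cokerSeq_shortExact (hf : Function.Injective f.hom) : (cokerSeq f).ShortExact where
  exact := ShortComplex.exact_cokernel f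
  mono_f := (Rep.mono_iff_injective f).2 hf
  epi_g := inferInstanceAs (Epi (cokernel.π f))

theorem cokernelπ_surjective : Function.Surjective (cokernel.π f).hom :=
  (Rep.epi_iff_surjective _).1 inferInstance

/-- The cokernel of a morphism to a discrete representation is discrete. -/
theorem isDiscrete_cokernel [IsDiscrete 𝒰 B] : IsDiscrete 𝒰 (cokernel f) :=
  isDiscrete_of_surjective _ (cokernelπ_surjective f)

/-- The cokernel of a morphism to a finite dimensional representation is finite dimensional. -/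
theorem finiteDimensional_cokernel [FiniteDimensional k B] :
    FiniteDimensional k (cokernel f : Rep.{u} k G) :=
  Module.Finite.of_surjective (cokernel.π f).hom.toLinearMap (cokernelπ_surjective f)

end Coker

section Twist

variable (χ : G →* kˣ)

/-- The pair `(Y, Y.dualTwist χ)` with the evaluation pairing `Y × Y' → k(χ)`. -/
noncomputable def twistPair (Y : Rep.{u} k G) [IsDiscrete 𝒰 Y] [IsDiscrete 𝒰 (Y.dualTwist χ)] :
    Pair 𝒰 (ofChar χ) where
  X := Y
  Y := Y.dualTwist χ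
  φ := evalPairing' χ Y
  hφ := evalPairing'_equivariant χ Y

variable (D : LocalData 𝒰) [IsDiscrete 𝒰 (ofChar χ)] (tr : Hc D (ofChar χ) 3 →ₗ[k] k)

theorem twistPair_Phi1 (Y : Rep.{u} k G) [IsDiscrete 𝒰 Y] [IsDiscrete 𝒰 (Y.dualTwist χ)] :
    (twistPair (𝒰 := 𝒰) χ Y).Phi1 D tr = PhiX D χ tr Y 1 2 rfl := rfl

theorem twistPair_Phi2 (Y : Rep.{u} k G) [IsDiscrete 𝒰 Y] [IsDiscrete 𝒰 (Y.dualTwist χ)] :
    (twistPair (𝒰 := 𝒰) χ Y).Phi2 D tr = PhiX D χ tr Y 2 1 rfl := rfl

variable {S : ShortComplex (Rep.{u} k G)} [IsDiscrete 𝒰 S.X₁] [IsDiscrete 𝒰 S.X₂]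
  [IsDiscrete 𝒰 S.X₃] [IsDiscrete 𝒰 (S.X₁.dualTwist χ)] [IsDiscrete 𝒰 (S.X₂.dualTwist χ)]
  [IsDiscrete 𝒰 (S.X₃.dualTwist χ)]

/-- The exact link `twistPair S.X₁ → twistPair S.X₂` attached to a short exact sequence `S` and
its twisted dual `dualSeq χ S`; its cokernel pair is `twistPair S.X₃`. -/
noncomputable def twistLink (hS : S.ShortExact) :
    ExactLink (twistPair (𝒰 := 𝒰) χ S.X₁) (twistPair (𝒰 := 𝒰) χ S.X₂) :=
  ExactLink.ofShortExact (𝒰 := 𝒰) (S := S) (S' := dualSeq χ S) hS (dualSeq_shortExact χ hS)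
    (evalPairing' χ S.X₁) (evalPairing'_equivariant χ S.X₁)
    (evalPairing' χ S.X₂) (evalPairing'_equivariant χ S.X₂)
    (evalPairing' χ S.X₃) (evalPairing'_equivariant χ S.X₃)
    (fun _ _ => rfl) (fun _ _ => rfl)

omit [IsDiscrete 𝒰 (ofChar χ)] in
theorem twistLink_Q (hS : S.ShortExact) :
    (twistLink (𝒰 := 𝒰) χ hS).Q = twistPair (𝒰 := 𝒰) χ S.X₃ := rfl

omit [IsDiscrete 𝒰 (ofChar χ)] in
theorem twistLink_inc (hS : S.ShortExact) : (twistLink (𝒰 := 𝒰) χ hS).inc = S.f := rfl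

end Twist

section InclLink

variable (χ : G →* kˣ) [IsDiscrete 𝒰 (ofChar χ)] {A B : Rep.{u} k G} [IsDiscrete 𝒰 A]
  [IsDiscrete 𝒰 B] [FiniteDimensional k B] [IsDiscrete 𝒰 (A.dualTwist χ)]
  [IsDiscrete 𝒰 (B.dualTwist χ)]

/-- The exact link attached to an injective morphism `f : A ⟶ B` (through its cokernel sequence
and the twisted dual of the latter). -/
noncomputable def inclLink (f : A ⟶ B) (hf : Function.Injective f.hom) :
    ExactLink (twistPair (𝒰 := 𝒰) χ A) (twistPair (𝒰 := 𝒰) χ B) :=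
  have : IsDiscrete 𝒰 (cokernel f) := isDiscrete_cokernel f
  have : FiniteDimensional k (cokernel f : Rep.{u} k G) := finiteDimensional_cokernel f
  have : IsDiscrete 𝒰 ((cokernel f).dualTwist χ) := isDiscrete_dualTwist 𝒰 χ (cokernel f)
  have : IsDiscrete 𝒰 (cokerSeq f).X₁ := ‹IsDiscrete 𝒰 A›
  have : IsDiscrete 𝒰 (cokerSeq f).X₂ := ‹IsDiscrete 𝒰 B›
  have : IsDiscrete 𝒰 (cokerSeq f).X₃ := ‹IsDiscrete 𝒰 (cokernel f)›
  have : IsDiscrete 𝒰 ((cokerSeq f).X₁.dualTwist χ) := ‹IsDiscrete 𝒰 (A.dualTwist χ)›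
  have : IsDiscrete 𝒰 ((cokerSeq f).X₂.dualTwist χ) := ‹IsDiscrete 𝒰 (B.dualTwist χ)›
  have : IsDiscrete 𝒰 ((cokerSeq f).X₃.dualTwist χ) := ‹IsDiscrete 𝒰 ((cokernel f).dualTwist χ)›
  twistLink (𝒰 := 𝒰) χ (S := cokerSeq f) (cokerSeq_shortExact f hf)

theorem inclLink_inc (f : A ⟶ B) (hf : Function.Injective f.hom) :
    (inclLink (𝒰 := 𝒰) χ f hf).inc = f := rfl

theorem inclLink_Q_X (f : A ⟶ B) (hf : Function.Injective f.hom) :
    (inclLink (𝒰 := 𝒰) χ f hf).Q.X = cokernel f := rfl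

end InclLink

section Family

variable (D : LocalData 𝒰) (χ : G →* kˣ) [IsDiscrete 𝒰 (ofChar χ)]
  (tr : Hc D (ofChar χ) 3 →ₗ[k] k)
  {Lev : Type*} (I : Lev → Rep.{u} k G) [∀ L, IsDiscrete 𝒰 (I L)]
  [∀ L, FiniteDimensional k (I L)] [∀ L, IsDiscrete 𝒰 ((I L).dualTwist χ)]
  (le : Lev → Lev → Prop) (incl : ∀ L L', le L' L → (I L ⟶ I L'))
  (hincl : ∀ L L' h, Function.Injective (incl L L' h).hom)

include hincl in
/-- **STAGE A for a family**: `PhiX¹` is injective on every member of the family. -/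
theorem phiX_one_injective_of_family [Nonempty D.ι]
    (hK2 : ∀ L, (twistPair (𝒰 := 𝒰) χ (I L)).K2 D tr)
    (hkill1 : ∀ L (x : levelCohomology 𝒰 (I L) 1),
      ∃ L' h, (Hmap 𝒰 (incl L L' h) 1).hom x = 0) :
    ∀ L, Function.Injective (PhiX D χ tr (I L) 1 2 rfl) := by
  intro L
  apply (twistPair (𝒰 := 𝒰) χ (I L)).Phi1_injective D tr
  intro x
  obtain ⟨L', h, hx⟩ := hkill1 L x
  exact ⟨twistPair (𝒰 := 𝒰) χ (I L'), (inclLink (𝒰 := 𝒰) χ (incl L L' h) (hincl L L' h)).toLink,
    hK2 L', (inclLink (𝒰 := 𝒰) χ (incl L L' h) (hincl L L' h)).HcMap_inc_injective D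
      (Hc_zero_eq_zero D _), hx⟩

include hincl in
/-- **THE BASE CASE FOR A FAMILY** (GLO14).  A family `I L` of finite dimensional discrete
representations with injective transition maps, such that
* every member satisfies ARITH (c) (`K2`) and the count ARITH (a), (b), (d) (`Count`),
* every class of `H¹(I L)`, `H²(I L)` dies in some `I L'`,
* (MAIN₀) injectivity of `PhiX¹` on the family implies injectivity of `PhiX¹` on all finite
  dimensional discrete representations.
Then `PhiX¹` is bijective and `PhiX²` is injective on every member, and the localisation image in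
degree 1 is maximal isotropic. -/
theorem baseCase_of_family [Nonempty D.ι]
    (hK2 : ∀ L, (twistPair (𝒰 := 𝒰) χ (I L)).K2 D tr)
    (hcount : ∀ L, ∃ s c, (twistPair (𝒰 := 𝒰) χ (I L)).Count D tr s c)
    (hkill1 : ∀ L (x : levelCohomology 𝒰 (I L) 1),
      ∃ L' h, (Hmap 𝒰 (incl L L' h) 1).hom x = 0)
    (hkill2 : ∀ L (x : levelCohomology 𝒰 (I L) 2),
      ∃ L' h, (Hmap 𝒰 (incl L L' h) 2).hom x = 0)
    (hmain0 : (∀ L, Function.Injective (PhiX D χ tr (I L) 1 2 rfl)) →
      ∀ (Y : Rep.{u} k G) [IsDiscrete 𝒰 Y] [FiniteDimensional k Y]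
        [IsDiscrete 𝒰 (Y.dualTwist χ)], Function.Injective (PhiX D χ tr Y 1 2 rfl)) :
    ∀ L, Function.Bijective (PhiX D χ tr (I L) 1 2 rfl) ∧
      Function.Injective (PhiX D χ tr (I L) 2 1 rfl) ∧
      (twistPair (𝒰 := 𝒰) χ (I L)).MaxIso D tr := by
  have hA := phiX_one_injective_of_family D χ tr I le incl hincl hK2 hkill1
  have hQ := hmain0 hA
  have hB1 : ∀ L, Function.Bijective (PhiX D χ tr (I L) 1 2 rfl) ∧
      (twistPair (𝒰 := 𝒰) χ (I L)).MaxIso D tr := by
    intro L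
    obtain ⟨s, c, hc⟩ := hcount L
    exact (Pair.base_count hc (hA L)).2
  intro L
  refine ⟨(hB1 L).1, ?_, (hB1 L).2⟩
  apply (twistPair (𝒰 := 𝒰) χ (I L)).Phi2_injective D tr
  intro y
  obtain ⟨L', h, hy⟩ := hkill2 L y
  have h1 : IsDiscrete 𝒰 (cokernel (incl L L' h)) := isDiscrete_cokernel _
  have h2 : FiniteDimensional k (cokernel (incl L L' h) : Rep.{u} k G) :=
    finiteDimensional_cokernel _
  have h3 : IsDiscrete 𝒰 ((cokernel (incl L L' h)).dualTwist χ) :=
    isDiscrete_dualTwist 𝒰 χ _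
  exact ⟨twistPair (𝒰 := 𝒰) χ (I L'), inclLink (𝒰 := 𝒰) χ (incl L L' h) (hincl L L' h),
    (hB1 L').1.2, hQ (cokernel (incl L L' h)), (hB1 L').2, hy⟩

end Family

end Fermat.Agent.S55.GL.BaseFamily
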