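/-
S55 / GLO14, part 3: the base case for the coinduced modules `I_U = coind_U^G k`, in the exact shape
of `Main.BaseCaseOneTriv` / `Main.BaseCaseTriv`.

The family of `GL/BaseFamily.lean` is instantiated with
`Lev = {U ∈ 𝒰.sets | χ|U = 1}`, `I U = Devissage.coindRes U (Rep.trivial k G k)`, and the transition
maps `coindResIncl h : I U ⟶ I U'` (`U' ≤ U`; helper15's `Level.coindIncl`, which corresponds to the
restriction `Hⁿ(U, k) → Hⁿ(U', k)` under Shapiro by `Level.levelSh_coindIncl`).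

`structure ArithL D χ tr` collects EVERYTHING arithmetic that the base case consumes, per `U`:
`K2` (ARITH (c)), `count` (ARITH (a), (b), (d) + local duality for the base objects), `kill1`,
`kill2` (class killing in degrees 1, 2).  Then
* `baseCaseOneTriv_of_arithL : ArithL D χ tr → Main.BaseCaseOneTriv D χ tr`  (Stage A),
* `baseCaseTriv_of_arithL : ArithL D χ tr → (BaseCaseOneTriv → BaseCaseOne) → Main.BaseCaseTriv D χ tr`
  (Stages B1, B2; the second hypothesis is the additivity `Main.baseCaseOne_of_triv` of MainAdd).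
-/
import Fermat.Agent.S55.GL.BaseFamily
import Fermat.Agent.S55.Main
import Fermat.Agent.S55.LevelShapiroIncl

set_option autoImplicit false

namespace Fermat.Agent.S55.GL.BaseCaseTriv

open CategoryTheory CategoryTheory.Limits Module groupCohomology Fermat.Agent.S55.Level
  Fermat.Agent.S55.Cone Fermat.Agent.S55.CF Fermat.Agent.S55.DualTwist
  Fermat.Agent.S55.LevelDuality Fermat.Agent.S55.Devissage Fermat.Agent.S55.Main
  Fermat.Agent.S55.GL.BaseCase Fermat.Agent.S55.GL.BaseFamily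

universe u

variable {k G : Type u} [Field k] [Group G] {𝒰 : LevelStructure G}

section Incl

variable {U U' : Subgroup G} (h : U' ≤ U) (A : Rep.{u} k G)

/-- The inclusion `coind_U^G res_U A ↪ coind_{U'}^G res_{U'} A` for `U' ≤ U` (a function which is
left-`U`-equivariant is left-`U'`-equivariant); this is `Level.coindIncl h (res_U A)`. -/
noncomputable def coindResIncl : coindRes U A ⟶ coindRes U' A :=
  coindIncl h (Rep.res U.subtype A)

theorem coindResIncl_eq : coindResIncl h A = coindIncl h (Rep.res U.subtype A) := rfl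

theorem coindResIncl_apply_coe (F : coindRes U A) (g : G) :
    ((coindResIncl h A).hom F).1 g = F.1 g := rfl

theorem coindResIncl_injective : Function.Injective (coindResIncl h A).hom :=
  coindIncl_injective h (Rep.res U.subtype A)

end Incl

section Base

variable (k G) in
/-- The trivial representation on `k`. -/
abbrev triv : Rep.{u} k G := Rep.trivial k G k

variable (D : LocalData 𝒰) (χ : G →* kˣ) [IsDiscrete 𝒰 (ofChar χ)]
  (tr : Hc D (ofChar χ) 3 →ₗ[k] k)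

/-- **ARITH-L**: the complete list of arithmetic inputs of the base case, for the base objects
`I_U = coind_U^G k`, `U ∈ 𝒰.sets` with `χ|U = 1` (think `U = Gal(ℚ_S/L)`, `L ∋ ζ_p`). -/
structure ArithL : Prop where
  /-- ARITH (c): a family in `P⁰(I_U)` orthogonal to `loc² H²(I_U')` has trivial boundary. -/
  K2 : ∀ U ∈ 𝒰.sets, (∀ u ∈ U, χ u = 1) → ∀ [IsDiscrete 𝒰 (coindRes U (triv k G))]
    [IsDiscrete 𝒰 ((coindRes U (triv k G)).dualTwist χ)],
    (twistPair (𝒰 := 𝒰) χ (coindRes U (triv k G))).K2 D tr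
  /-- ARITH (a), (b), (d) and local duality for the base objects. -/
  count : ∀ U ∈ 𝒰.sets, (∀ u ∈ U, χ u = 1) → ∀ [IsDiscrete 𝒰 (coindRes U (triv k G))]
    [IsDiscrete 𝒰 ((coindRes U (triv k G)).dualTwist χ)],
    ∃ s c, (twistPair (𝒰 := 𝒰) χ (coindRes U (triv k G))).Count D tr s c
  /-- Class killing in degree 1: a class of `H¹(I_U)` dies in `H¹(I_U')` for some `U' ≤ U`. -/
  kill1 : ∀ U ∈ 𝒰.sets, (∀ u ∈ U, χ u = 1) → ∀ [IsDiscrete 𝒰 (coindRes U (triv k G))]
    (x : levelCohomology 𝒰 (coindRes U (triv k G)) 1),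
    ∃ U' ∈ 𝒰.sets, ∃ h : U' ≤ U, ∀ [IsDiscrete 𝒰 (coindRes U' (triv k G))],
      (Hmap 𝒰 (coindResIncl h (triv k G)) 1).hom x = 0
  /-- Class killing in degree 2. -/
  kill2 : ∀ U ∈ 𝒰.sets, (∀ u ∈ U, χ u = 1) → ∀ [IsDiscrete 𝒰 (coindRes U (triv k G))]
    (x : levelCohomology 𝒰 (coindRes U (triv k G)) 2),
    ∃ U' ∈ 𝒰.sets, ∃ h : U' ≤ U, ∀ [IsDiscrete 𝒰 (coindRes U' (triv k G))],
      (Hmap 𝒰 (coindResIncl h (triv k G)) 2).hom x = 0

/-- The index type of the family of base objects. -/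
abbrev Lev (𝒰 : LevelStructure G) (χ : G →* kˣ) : Type u :=
  {U : Subgroup G // U ∈ 𝒰.sets ∧ ∀ u ∈ U, χ u = 1}

/-- The family of base objects. -/
noncomputable abbrev baseObj (L : Lev 𝒰 χ) : Rep.{u} k G := coindRes L.1 (triv k G)

instance isDiscrete_triv : IsDiscrete 𝒰 (triv k G) :=
  ⟨fun _ => by
    obtain ⟨U, hU⟩ := 𝒰.nonempty
    exact ⟨U, hU, fun _ _ => rfl⟩⟩

instance isDiscrete_baseObj (L : Lev 𝒰 χ) : IsDiscrete 𝒰 (baseObj χ L) :=
  isDiscrete_coindRes (𝒰 := 𝒰) (triv k G) L.2.1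

instance finiteDimensional_baseObj (L : Lev 𝒰 χ) : FiniteDimensional k (baseObj χ L) :=
  have := 𝒰.normal L.1 L.2.1
  have := 𝒰.finiteIndex L.1 L.2.1
  finite_coindRes (U := L.1) (triv k G)

instance isDiscrete_baseObj_dualTwist (L : Lev 𝒰 χ) :
    IsDiscrete 𝒰 ((baseObj χ L).dualTwist χ) :=
  isDiscrete_dualTwist 𝒰 χ (baseObj χ L)

end Base

section Main

variable (D : LocalData 𝒰) (χ : G →* kˣ) [IsDiscrete 𝒰 (ofChar χ)]
  (tr : Hc D (ofChar χ) 3 →ₗ[k] k)

/-- The transition maps of the family of base objects. -/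
noncomputable def baseIncl (L L' : Lev 𝒰 χ) (h : L'.1 ≤ L.1) : baseObj χ L ⟶ baseObj χ L' :=
  coindResIncl h (triv k G)

variable {D χ tr}

theorem ArithL.hK2 (H : ArithL D χ tr) (L : Lev 𝒰 χ) :
    (twistPair (𝒰 := 𝒰) χ (baseObj χ L)).K2 D tr :=
  H.K2 L.1 L.2.1 L.2.2

theorem ArithL.hcount (H : ArithL D χ tr) (L : Lev 𝒰 χ) :
    ∃ s c, (twistPair (𝒰 := 𝒰) χ (baseObj χ L)).Count D tr s c :=
  H.count L.1 L.2.1 L.2.2

theorem ArithL.hkill1 (H : ArithL D χ tr) (L : Lev 𝒰 χ)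
    (x : levelCohomology 𝒰 (baseObj χ L) 1) :
    ∃ (L' : Lev 𝒰 χ) (h : L'.1 ≤ L.1), (Hmap 𝒰 (baseIncl χ L L' h) 1).hom x = 0 := by
  obtain ⟨U', hU', h, hx⟩ := H.kill1 L.1 L.2.1 L.2.2 x
  have : IsDiscrete 𝒰 (coindRes U' (triv k G)) := isDiscrete_coindRes (𝒰 := 𝒰) (triv k G) hU'
  exact ⟨⟨U', hU', fun u hu => L.2.2 u (h hu)⟩, h, hx⟩

theorem ArithL.hkill2 (H : ArithL D χ tr) (L : Lev 𝒰 χ)
    (x : levelCohomology 𝒰 (baseObj χ L) 2) :
    ∃ (L' : Lev 𝒰 χ) (h : L'.1 ≤ L.1), (Hmap 𝒰 (baseIncl χ L L' h) 2).hom x = 0 := by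
  obtain ⟨U', hU', h, hx⟩ := H.kill2 L.1 L.2.1 L.2.2 x
  have : IsDiscrete 𝒰 (coindRes U' (triv k G)) := isDiscrete_coindRes (𝒰 := 𝒰) (triv k G) hU'
  exact ⟨⟨U', hU', fun u hu => L.2.2 u (h hu)⟩, h, hx⟩

/-- **STAGE A ⊢ `Main.BaseCaseOneTriv`**: under ARITH-L (only `K2` and `kill1` are used), `PhiX¹`
is injective on every `I_U = coind_U^G k`. -/
theorem baseCaseOneTriv_of_arithL [Nonempty D.ι] (H : ArithL D χ tr) :
    BaseCaseOneTriv D χ tr := by
  intro U hU _ _ hχ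
  exact phiX_one_injective_of_family D χ tr (fun L : Lev 𝒰 χ => baseObj χ L)
    (fun L' L => L'.1 ≤ L.1) (baseIncl χ)
    (fun _ _ h => coindResIncl_injective h (triv k G)) H.hK2 H.hkill1 ⟨U, hU, hχ⟩

/-- **GLO14 ⊢ `Main.BaseCaseTriv`**: under ARITH-L, and given the additivity step
`BaseCaseOneTriv → BaseCaseOne` (MainAdd), `PhiX¹` is bijective and `PhiX²` is injective on every
`I_U = coind_U^G k`. -/
theorem baseCaseTriv_of_arithL [Nonempty D.ι] (H : ArithL D χ tr)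
    (hadd : BaseCaseOneTriv D χ tr → BaseCaseOne D χ tr) : BaseCaseTriv D χ tr := by
  intro U hU _ _ hχ
  have h := baseCase_of_family D χ tr (fun L : Lev 𝒰 χ => baseObj χ L)
    (fun L' L => L'.1 ≤ L.1) (baseIncl χ)
    (fun _ _ h => coindResIncl_injective h (triv k G)) H.hK2 H.hcount H.hkill1 H.hkill2
    (fun _ Y _ _ _ => main_one D χ tr (hadd (baseCaseOneTriv_of_arithL H)) Y) ⟨U, hU, hχ⟩
  exact ⟨h.1, h.2.1⟩

/-- Maximal isotropy of the localisation image in degree 1 for the base objects (the existence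
theorem in exponent `p`), a by-product of the count. -/
theorem maxIso_of_arithL [Nonempty D.ι] (H : ArithL D χ tr)
    (hadd : BaseCaseOneTriv D χ tr → BaseCaseOne D χ tr) (L : Lev 𝒰 χ) :
    (twistPair (𝒰 := 𝒰) χ (baseObj χ L)).MaxIso D tr :=
  (baseCase_of_family D χ tr (fun L : Lev 𝒰 χ => baseObj χ L)
    (fun L' L => L'.1 ≤ L.1) (baseIncl χ)
    (fun _ _ h => coindResIncl_injective h (triv k G)) H.hK2 H.hcount H.hkill1 H.hkill2
    (fun _ Y _ _ _ => main_one D χ tr (hadd (baseCaseOneTriv_of_arithL H)) Y) L).2.2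

end Main

end Fermat.Agent.S55.GL.BaseCaseTriv
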