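/-
S55 / GLO13–GLO14 (helper28): ARITH (c) in the `K2` form of `GL/BaseCase.lean` from a codimension
one statement.

`K2` for a pair `(X, Y)` says: a family `w ∈ P⁰(X) = ∏_v H⁰_v(X)` orthogonal (for the local pairing
`iota0`) to the localisation of `H²(Y)` has trivial boundary.  The arithmetic input (helper14's
BrauerChase (c), transported by Mackey) is: *the localisation image of `H²(Y)` in `P²(Y)` contains
the kernel of ONE linear functional `f`*.  Together with the injectivity of `iota0` (local duality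
in degrees `(0,2)`) and the existence of ONE global invariant `x₀ ∈ H⁰(X)` with nonzero
localisation, this gives `K2`: the orthogonal complement of the localisation image is at most a
line, and it contains the nonzero vector `loc⁰ x₀` because reciprocity is formal on the cone.
-/
import Fermat.Agent.S55.GL.BaseCase
import Fermat.Agent.S55.LevelShapiro

set_option autoImplicit false

namespace Fermat.Agent.S55.GL.BaseK2

open CategoryTheory Module Fermat.Agent.S55.Level Fermat.Agent.S55.Cone Fermat.Agent.S55.CF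
  Fermat.Agent.S55.GL.BaseCase Fermat.Agent.S55.Devissage

universe u

section Abstract

variable {k : Type*} [Field k] {H0 P0 Hc1 H2' P2' : Type*}
  [AddCommGroup H0] [Module k H0] [AddCommGroup P0] [Module k P0]
  [AddCommGroup Hc1] [Module k Hc1] [AddCommGroup H2'] [Module k H2']
  [AddCommGroup P2'] [Module k P2']

/-- A linear functional vanishing on the kernel of `f` is a multiple of `f`. -/
theorem exists_smul_eq_of_ker_le (f g : P2' →ₗ[k] k)
    (h : ∀ z, f z = 0 → g z = 0) : ∃ c : k, g = c • f := by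
  by_cases hf : ∃ z₀, f z₀ ≠ 0
  · obtain ⟨z₀, hz₀⟩ := hf
    refine ⟨g z₀ / f z₀, LinearMap.ext fun z => ?_⟩
    have h1 : f (z - (f z / f z₀) • z₀) = 0 := by
      rw [map_sub, map_smul, smul_eq_mul, div_mul_cancel₀ _ hz₀, sub_self]
    have h2 := h _ h1
    rw [map_sub, map_smul, smul_eq_mul, sub_eq_zero] at h2
    rw [LinearMap.smul_apply, smul_eq_mul, h2]
    field_simp
  · have hf' : ∀ z, f z = 0 := fun z => by
      by_contra hz
      exact hf ⟨z, hz⟩
    refine ⟨0, LinearMap.ext fun z => ?_⟩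
    rw [zero_smul, LinearMap.zero_apply]
    exact h z (hf' z)

/-- **`K2` from codimension one** (abstract form).  `b0 : H⁰(X) → P⁰(X)`, `bd0 : P⁰(X) → Hc¹(X)`
with `bd0 ∘ b0 = 0`; `b2' : H²(Y) → P²(Y)`; `ι0 : P⁰(X) → P²(Y)^*` injective, with
`ι0 (b0 x) ⊥ range b2'` (reciprocity); the image of `b2'` contains the kernel of a functional `f`;
`b0 x₀ ≠ 0`.  Then `w ⊥ range b2'` implies `bd0 w = 0`. -/
theorem bd_eq_zero_of_codim_one (b0 : H0 →ₗ[k] P0) (bd0 : P0 →ₗ[k] Hc1)
    (hcomp : ∀ x, bd0 (b0 x) = 0) (b2' : H2' →ₗ[k] P2') (ι0 : P0 →ₗ[k] Dual k P2')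
    (hι0 : Function.Injective ι0) (hiso : ∀ x y, ι0 (b0 x) (b2' y) = 0)
    (f : P2' →ₗ[k] k) (hf : ∀ z, f z = 0 → z ∈ LinearMap.range b2')
    (x₀ : H0) (hx₀ : b0 x₀ ≠ 0)
    (w : P0) (hw : ∀ y, ι0 w (b2' y) = 0) : bd0 w = 0 := by
  obtain ⟨c, hc⟩ := exists_smul_eq_of_ker_le f (ι0 w) (fun z hz => by
    obtain ⟨y, rfl⟩ := hf z hz
    exact hw y)
  obtain ⟨c₀, hc₀⟩ := exists_smul_eq_of_ker_le f (ι0 (b0 x₀)) (fun z hz => by
    obtain ⟨y, rfl⟩ := hf z hz
    exact hiso x₀ y)
  have hc₀0 : c₀ ≠ 0 := by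
    rintro rfl
    rw [zero_smul] at hc₀
    exact hx₀ (hι0 (hc₀.trans (map_zero ι0).symm))
  have h1 : ι0 (w - (c / c₀) • b0 x₀) = 0 := by
    rw [map_sub, map_smul, hc, hc₀, smul_smul, div_mul_cancel₀ _ hc₀0, sub_self]
  have h2 : w = b0 ((c / c₀) • x₀) := by
    rw [map_smul]
    exact sub_eq_zero.1 (hι0 (h1.trans (map_zero ι0).symm))
  rw [h2, hcomp]

end Abstract

section Cone

variable {k G : Type u} [Field k] [Group G] {𝒰 : LevelStructure G} {C : Rep.{u} k G}
  (D : LocalData 𝒰) [IsDiscrete 𝒰 C] (tr : Hc D C 3 →ₗ[k] k)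

/-- The localisation of `H⁰(X)` is orthogonal to the localisation of `H²(Y)` (formal from the
cone: `∂ ∘ loc = 0` and the boundary compatibility of `Φ¹`). -/
theorem Pair.iota0_locH_locH (P : Pair 𝒰 C) (x : levelCohomology 𝒰 P.X 0)
    (y : levelCohomology 𝒰 P.Y 2) : P.iota0 D tr (locH D P.X 0 x) (locH D P.Y 2 y) = 0 := by
  have h := Phi_HcBd D P.φ P.hφ 0 2 2 rfl tr (locH D P.X 0 x) y
  rw [HcBd_locH, map_zero, LinearMap.zero_apply] at h
  exact h.symm

/-- **`K2` from codimension one** (cone form): if `iota0` is injective, the localisation image of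
`H²(Y)` contains the kernel of a linear functional on `P²(Y)`, and some class of `H⁰(X)` has a
nonzero localisation, then the pair satisfies `K2`. -/
theorem Pair.K2_of_codim_one (P : Pair 𝒰 C) (hι0 : Function.Injective (P.iota0 D tr))
    (f : (∀ v, levelCohomology (D.𝒱 v) (Rep.res (D.r v) P.Y) 2) →ₗ[k] k)
    (hf : ∀ z, f z = 0 → z ∈ LinearMap.range (locH D P.Y 2))
    (x₀ : levelCohomology 𝒰 P.X 0) (hx₀ : locH D P.X 0 x₀ ≠ 0) : P.K2 D tr :=
  fun w hw => bd_eq_zero_of_codim_one (locH D P.X 0) (HcBd D P.X 0) (HcBd_locH D P.X 0)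
    (locH D P.Y 2) (P.iota0 D tr) hι0 (Pair.iota0_locH_locH D tr P) f hf x₀ hx₀ w hw

omit [IsDiscrete 𝒰 C] in
/-- With at least one place, a nonzero class of `H⁰` has a nonzero localisation. -/
theorem locH_zero_ne_zero [Nonempty D.ι] (A : Rep.{u} k G) [IsDiscrete 𝒰 A]
    {x : levelCohomology 𝒰 A 0} (hx : x ≠ 0) : locH D A 0 x ≠ 0 := by
  obtain ⟨v⟩ := ‹Nonempty D.ι›
  intro h
  apply hx
  apply levelCohomologyMap_zero_injective (D.r v) (D.refines v) A
  rw [map_zero]
  exact congrFun h v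

/-- A nonzero invariant vector gives a nonzero class in `H⁰`. -/
theorem exists_H0_ne_zero (A : Rep.{u} k G) [IsDiscrete 𝒰 A] (a : A)
    (ha : ∀ g : G, A.ρ g a = a) (ha0 : a ≠ 0) : ∃ x : levelCohomology 𝒰 A 0, x ≠ 0 := by
  have hz : (fun _ : Fin 0 → G => a) ∈ levelCocycles 𝒰 A 0 :=
    (mem_levelCocycles_zero_iff 𝒰 A _).2 ha
  refine ⟨(levelπ 𝒰 A 0).hom ⟨_, hz⟩, fun h => ha0 ?_⟩
  have h0 := levelπ_zero_injective 𝒰 A (h.trans (map_zero _).symm)
  exact congrFun (congrArg Subtype.val h0) default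

/-- `H⁰(G, coind_U^G k) ≠ 0`: the constant function `1` is invariant. -/
theorem exists_H0_coindRes_triv_ne_zero (U : Subgroup G)
    [IsDiscrete 𝒰 (coindRes U (Rep.trivial k G k))] :
    ∃ x : levelCohomology 𝒰 (coindRes U (Rep.trivial k G k)) 0, x ≠ 0 := by
  refine exists_H0_ne_zero (coindRes U (Rep.trivial k G k))
    ⟨fun _ => (1 : k), fun _ _ => rfl⟩ (fun g => Subtype.ext (funext fun _ => rfl)) ?_
  intro h
  have := congrFun (congrArg Subtype.val h) 1
  exact one_ne_zero this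

end Cone

end Fermat.Agent.S55.GL.BaseK2
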