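/-
S55 / GLO13–GLO14 (helper28): module-level facts about the base objects of the global dévissage.

The base objects are `I_U A := coind_U^G res_U A` (`Devissage.coindRes U A`) for `U` a member of the
level structure acting trivially on the finite dimensional discrete `A`.  This file provides, for
`U' ≤ U`:

* `baseIncl h A : I_U A ⟶ I_{U'} A` (the same function with the weaker invariance; it is helper15's
  `Level.coindIncl`, restated with target literally `coindRes U' A`), injective;
* `inclSeq h A : 0 ⟶ I_U A ⟶ I_{U'} A ⟶ Q ⟶ 0`, short exact, `Q` discrete and finitely generated;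
* `exists_res_eq_zero`: a level class of positive degree dies on a small enough open subgroup;
* `exists_Hmap_baseIncl_eq_zero` (= `hkill` of the base case): every class of
  `Hⁿ⁺¹(G, I_U A)` dies in `Hⁿ⁺¹(G, I_{U'} A)` for a suitable `U' ≤ U` of the family
  (Shapiro + the previous item);
* `coindResDualTwistIso`: `I_U (A') ≅ (I_U A)'` for the twisted dual, and
  `nonempty_dualTwist_iso`: `(I_U A)' ≅ I_U A` when `U` acts trivially on `A` and on `k(χ)`
  (the "`ζ`-isomorphism" `I_L ≅ I_L'`).
-/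
import Fermat.Agent.S55.DevissageRep
import Fermat.Agent.S55.CoindDual
import Fermat.Agent.S55.LevelShapiroIncl
import Fermat.Agent.S55.LevelLayerMore
import Fermat.Agent.S55.CF.LESElem

set_option autoImplicit false

open CategoryTheory CategoryTheory.Limits

namespace Fermat.Agent.S55.GL.BaseObjects

open Fermat.Agent.S55.Level Fermat.Agent.S55.Devissage Fermat.Agent.S55.CF
  Fermat.Agent.S55.LevelLayer Fermat.Agent.S55.DualTwist Fermat.Agent.S55.CoindPairing

universe u

section Incl

variable {k G : Type u} [CommRing k] [Group G] {𝒰 : LevelStructure G}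
  {U U' : Subgroup G} (h : U' ≤ U) (A : Rep.{u} k G)

/-- The inclusion `coind_U^G res A ⟶ coind_{U'}^G res A` for `U' ≤ U`: the same function, with the
weaker invariance (helper15's `Level.coindIncl` for `B = res_U A`). -/
noncomputable def baseIncl : coindRes U A ⟶ coindRes U' A :=
  Level.coindIncl h (Rep.res U.subtype A)

lemma baseIncl_apply (f : coindRes U A) (x : G) : ((baseIncl h A).hom f).1 x = f.1 x := rfl

lemma baseIncl_injective : Function.Injective (baseIncl h A).hom :=
  Level.coindIncl_injective h (Rep.res U.subtype A)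

instance : Mono (baseIncl h A) := (Rep.mono_iff_injective _).2 (baseIncl_injective h A)

/-- The cokernel of `I_U A ⟶ I_{U'} A`. -/
noncomputable abbrev inclQuot : Rep.{u} k G := cokernel (baseIncl h A)

/-- The sequence `0 ⟶ I_U A ⟶ I_{U'} A ⟶ Q ⟶ 0`. -/
noncomputable def inclSeq : ShortComplex (Rep.{u} k G) :=
  ShortComplex.mk (baseIncl h A) (cokernel.π (baseIncl h A)) (cokernel.condition _)

@[simp] lemma inclSeq_X₁ : (inclSeq h A).X₁ = coindRes U A := rfl
@[simp] lemma inclSeq_X₂ : (inclSeq h A).X₂ = coindRes U' A := rfl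
@[simp] lemma inclSeq_X₃ : (inclSeq h A).X₃ = inclQuot h A := rfl
@[simp] lemma inclSeq_f : (inclSeq h A).f = baseIncl h A := rfl
@[simp] lemma inclSeq_g : (inclSeq h A).g = cokernel.π (baseIncl h A) := rfl

theorem inclSeq_shortExact : (inclSeq h A).ShortExact where
  exact := ShortComplex.exact_cokernel _
  mono_f := inferInstanceAs (Mono (baseIncl h A))
  epi_g := inferInstanceAs (Epi (cokernel.π (baseIncl h A)))

lemma inclQuotπ_surjective : Function.Surjective (cokernel.π (baseIncl h A)).hom :=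
  (Rep.epi_iff_surjective _).1 inferInstance

/-- The cokernel is discrete. -/
theorem isDiscrete_inclQuot (hU' : U' ∈ 𝒰.sets) [IsDiscrete 𝒰 A] :
    IsDiscrete 𝒰 (inclQuot h A) :=
  have := isDiscrete_coindRes (𝒰 := 𝒰) A hU'
  isDiscrete_of_surjective _ (inclQuotπ_surjective h A)

/-- The cokernel is finitely generated. -/
theorem finite_inclQuot [IsNoetherianRing k] [U'.Normal] [U'.FiniteIndex] [Module.Finite k A] :
    Module.Finite k (inclQuot h A) :=
  have := finite_coindRes (U := U') A
  Module.Finite.of_surjective (cokernel.π (baseIncl h A)).hom.toLinearMap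
    (inclQuotπ_surjective h A)

end Incl

section Vanish

variable {k G : Type u} [CommRing k] [Group G] (𝒰 : LevelStructure G) {U : Subgroup G}
  (hU : U ∈ 𝒰.sets)

/-- The restriction of a discrete representation to a subgroup is discrete for the restricted
level structure. -/
theorem isDiscrete_res_subtype (U : Subgroup G) (A : Rep.{u} k G) [IsDiscrete 𝒰 A] :
    IsDiscrete (𝒰.restrict U) (Rep.res U.subtype A) := ⟨fun a => by
  obtain ⟨V, hV, hfix⟩ := IsDiscrete.exists_fix (𝒰 := 𝒰) (A := A) a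
  exact ⟨_, 𝒰.mem_restrict_sets U hV, fun u hu => hfix (u : G) hu⟩⟩

include hU in
/-- **Positive-degree level classes die on a small enough open subgroup**: for
`x ∈ Hⁿ⁺¹(U, B)` there is a member `U' ≤ U` of the family with `res^U_{U'} x = 0`. -/
theorem exists_res_eq_zero (B : Rep.{u} k U) [IsDiscrete (𝒰.restrict U) B] (n : ℕ)
    (x : levelCohomology (𝒰.restrict U) B (n + 1)) :
    ∃ U' ∈ 𝒰.sets, ∃ h : U' ≤ U,
      ∀ [IsDiscrete (𝒰.restrict U') (Rep.res (Subgroup.inclusion h) B)],
        (levelCohomologyMap (Subgroup.inclusion h) (𝒰.restrict_refines_inclusion h)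
          (𝟙 (Rep.res (Subgroup.inclusion h) B)) (n + 1)).hom x = 0 := by
  have : IsOpenSub 𝒰 U := isOpenSub_of_mem 𝒰 hU
  obtain ⟨W₀, hW₀, hx⟩ := exists_levelInf_eq (𝒰.restrict U) B x
  obtain ⟨U', hU', hU'U, hle⟩ := IsOpenSub.exists_le_of_mem_restrict hW₀
  refine ⟨U', hU', hU'U, ?_⟩
  intro _
  have hW : U'.subgroupOf U ∈ (𝒰.restrict U).sets := 𝒰.mem_restrict_sets U hU'
  have : (U'.subgroupOf U).Normal := (𝒰.restrict U).normal _ hW
  obtain ⟨y, rfl⟩ := hx (U'.subgroupOf U) hW hle
  have hV : (⊤ : Subgroup U') ∈ (𝒰.restrict U').sets := by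
    have := 𝒰.mem_restrict_sets U' hU'
    rwa [Subgroup.subgroupOf_self] at this
  have hVU : (⊤ : Subgroup U') ≤ (U'.subgroupOf U).comap (Subgroup.inclusion hU'U) := by
    intro v _
    show ((Subgroup.inclusion hU'U v : U) : G) ∈ U'
    exact v.2
  rw [LevelLayer.levelInf_levelCohomologyMap_apply (Subgroup.inclusion hU'U)
    (𝒰.restrict_refines_inclusion hU'U) (𝟙 (Rep.res (Subgroup.inclusion hU'U) B)) hVU hW hV]
  have : Subsingleton (U' ⧸ (⊤ : Subgroup U')) := QuotientGroup.subsingleton_quotient_top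
  have hz : IsZero (groupCohomology
      ((Rep.res (Subgroup.inclusion hU'U) B).quotientToInvariants (⊤ : Subgroup U')) (n + 1)) :=
    isZero_groupCohomology_succ_of_subsingleton _ n
  rw [hz.eq_of_tgt ((LevelLayer.layerChange (Subgroup.inclusion hU'U)
    (𝟙 (Rep.res (Subgroup.inclusion hU'U) B)) hVU (n + 1))) 0]
  simp

include hU in
/-- **Class killing for the base objects** (`hkill`): every class of `Hⁿ⁺¹(G, I_U A)` dies in
`Hⁿ⁺¹(G, I_{U'} A)` for a suitable member `U' ≤ U` of the family. -/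
theorem exists_Hmap_baseIncl_eq_zero (A : Rep.{u} k G) [IsDiscrete 𝒰 A]
    [IsDiscrete 𝒰 (coindRes U A)] (n : ℕ) (x : levelCohomology 𝒰 (coindRes U A) (n + 1)) :
    ∃ U' ∈ 𝒰.sets, ∃ h : U' ≤ U, ∀ [IsDiscrete 𝒰 (coindRes U' A)],
      (Hmap 𝒰 (baseIncl h A) (n + 1)).hom x = 0 := by
  have : IsOpenSub 𝒰 U := isOpenSub_of_mem 𝒰 hU
  have hB : IsDiscrete (𝒰.restrict U) (Rep.res U.subtype A) :=
    isDiscrete_res_subtype 𝒰 U A
  obtain ⟨U', hU', h, hx⟩ := exists_res_eq_zero 𝒰 hU (Rep.res U.subtype A) n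
    ((levelSh 𝒰 U (Rep.res U.subtype A) (n + 1)).hom x)
  refine ⟨U', hU', h, ?_⟩
  intro _
  have : IsOpenSub 𝒰 U' := isOpenSub_of_mem 𝒰 hU'
  have hB' : IsDiscrete (𝒰.restrict U') (Rep.res (Subgroup.inclusion h) (Rep.res U.subtype A)) :=
    Level.isDiscrete_res_inclusion 𝒰 h (Rep.res U.subtype A)
  have h1 := Level.levelSh_coindIncl_apply 𝒰 h (Rep.res U.subtype A) (n + 1) x
  rw [hx] at h1
  exact (levelSh_bijective 𝒰 U' (n + 1)
    (Rep.res (Subgroup.inclusion h) (Rep.res U.subtype A))).1 (h1.trans (map_zero _).symm)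

end Vanish

section Dual

variable {k G : Type u} [Field k] [Group G] (χ : G →* kˣ) (U : Subgroup G) [U.FiniteIndex]
  (A : Rep.{u} k G) [FiniteDimensional k A]

/-- `I_U (A') ≅ (I_U A)'`: coinduction commutes with the twisted dual. -/
noncomputable def coindResDualTwistIso : coindRes U (A.dualTwist χ) ≅ (coindRes U A).dualTwist χ :=
  (Rep.coindFunctor k U.subtype).mapIso (resDualTwistIso χ A U.subtype) ≪≫
    coindDualTwistIso U χ (Rep.res U.subtype A)

/-- If `U` acts trivially on `A` and on `k(χ)`, any linear equivalence `A^* ≃ A` is an isomorphism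
`res_U A' ≅ res_U A`. -/
noncomputable def resDualTwistTrivIso (hχ : ∀ u ∈ U, χ u = 1)
    (hA : ∀ u ∈ U, ∀ a : A, A.ρ u a = a) (e : Module.Dual k A ≃ₗ[k] A) :
    Rep.res U.subtype (A.dualTwist χ) ≅ Rep.res U.subtype A :=
  Rep.mkIso (ρ := (A.ρ.dual.twist χ).comp U.subtype) (σ := A.ρ.comp U.subtype)
    (Representation.Equiv.mk e fun u => by
      refine LinearMap.ext fun f => ?_
      have h1 : ((A.ρ.dual.twist χ).comp U.subtype) u f = f := by
        refine LinearMap.ext fun a => ?_
        change (χ (u : G) : k) * f (A.ρ (u : G)⁻¹ a) = f a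
        rw [hχ u u.2, hA _ (U.inv_mem u.2), Units.val_one, one_mul]
      change e (((A.ρ.dual.twist χ).comp U.subtype) u f) = A.ρ (u : G) (e f)
      rw [h1, hA u u.2])

/-- **The `ζ`-isomorphism** `(I_U A)' ≅ I_U A`, attached to a linear equivalence `A^* ≃ A`, when `U`
acts trivially on `A` and on `k(χ)`. -/
noncomputable def dualTwistIsoOfEquiv (hχ : ∀ u ∈ U, χ u = 1)
    (hA : ∀ u ∈ U, ∀ a : A, A.ρ u a = a) (e : Module.Dual k A ≃ₗ[k] A) :
    (coindRes U A).dualTwist χ ≅ coindRes U A :=
  (coindResDualTwistIso χ U A).symm ≪≫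
    (Rep.coindFunctor k U.subtype).mapIso (resDualTwistTrivIso χ U A hχ hA e)

/-- `(I_U A)' ≅ I_U A` when `U` acts trivially on the finite dimensional `A` and on `k(χ)`. -/
theorem nonempty_dualTwist_iso (hχ : ∀ u ∈ U, χ u = 1) (hA : ∀ u ∈ U, ∀ a : A, A.ρ u a = a) :
    Nonempty ((coindRes U A).dualTwist χ ≅ coindRes U A) :=
  ⟨dualTwistIsoOfEquiv χ U A hχ hA (Module.Free.chooseBasis k A).toDualEquiv.symm⟩

/-- The `ζ`-isomorphism for the trivial representation `k`: `(I_U k)' ≅ I_U k` (`f ↦ f 1` on the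
coefficients). -/
noncomputable def trivDualTwistIso (hχ : ∀ u ∈ U, χ u = 1) :
    (coindRes U (Rep.trivial k G k)).dualTwist χ ≅ coindRes U (Rep.trivial k G k) :=
  dualTwistIsoOfEquiv χ U (Rep.trivial k G k) hχ (fun _ _ _ => rfl)
    (LinearMap.ringLmapEquivSelf k k k)

end Dual

end Fermat.Agent.S55.GL.BaseObjects
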