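/-
S55 / GLO14, part 4: CLASS KILLING.  Every class of level cohomology of positive degree dies on a
small enough member of the family; hence (Shapiro) every class of `H^{n+1}(G, coind_{U₀} B)` dies
in `H^{n+1}(G, coind_{U₁} B)` for some `U₁ ≤ U₀` in the family.  This gives the fields `kill1`,
`kill2` of `GL.BaseCaseTriv.ArithL`.

* `levelCohomologyMap_levelInf_eq_zero`: a class inflated from the layer `G ⧸ U` dies under
  `levelCohomologyMap f` to `(H, 𝒱)` as soon as some `V ∈ 𝒱.sets` with `f V ⊆ U` has `H ⧸ V`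
  trivial.
* `exists_res_inclusion_eq_zero`: every `y ∈ H^{n+1}(U₀, B)` dies in `H^{n+1}(U₁, B)` for some
  `U₁ ≤ U₀` in the family.
* `exists_coindIncl_eq_zero`: the same for `H^{n+1}(G, coind_{U₀} B) → H^{n+1}(G, coind_{U₁} B)`.
-/
import Fermat.Agent.S55.LevelLayerMore
import Fermat.Agent.S55.LevelShapiroIncl
import Fermat.Agent.S55.GL.BaseCaseTriv

set_option autoImplicit false

namespace Fermat.Agent.S55.GL.ClassKill

open CategoryTheory Fermat.Agent.S55.Level Fermat.Agent.S55.LevelLayer Fermat.Agent.S55.CF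
  Fermat.Agent.S55.Devissage

universe u

section Generic

variable {k G H : Type u} [CommRing k] [Group G] [Group H] {𝒰 : LevelStructure G}
  {𝒱 : LevelStructure H} {A : Rep.{u} k G} {B : Rep.{u} k H} [IsDiscrete 𝒰 A] [IsDiscrete 𝒱 B]
  (f : H →* G) (hf : 𝒱.Refines 𝒰 f) (φ : Rep.res f A ⟶ B)
  {U : Subgroup G} [U.Normal] {V : Subgroup H} [V.Normal] (hVU : V ≤ U.comap f)
  (hU : U ∈ 𝒰.sets) (hV : V ∈ 𝒱.sets)

include hVU hV in
/-- A class of positive degree inflated from the layer `G ⧸ U` dies under change of group to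
`(H, 𝒱)` if the layer `H ⧸ V` is trivial for some `V ∈ 𝒱.sets` with `f V ⊆ U`. -/
theorem levelCohomologyMap_levelInf_eq_zero [Subsingleton (H ⧸ V)] (n : ℕ)
    (y : groupCohomology (A.quotientToInvariants U) (n + 1)) :
    (levelCohomologyMap f hf φ (n + 1)).hom ((levelInf 𝒰 A hU (n + 1)).hom y) = 0 := by
  rw [levelInf_levelCohomologyMap_apply f hf φ hVU hU hV]
  have h0 : (layerChange f φ hVU (n + 1)).hom y = 0 :=
    (ModuleCat.isZero_iff_subsingleton.1
      (isZero_groupCohomology_succ_of_subsingleton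
        (B.quotientToInvariants V) n)).elim _ _
  rw [h0, map_zero]

end Generic

section Restrict

variable {k G : Type u} [CommRing k] [Group G] (𝒰 : LevelStructure G)

/-- The quotient of a subgroup by itself is trivial. -/
instance subsingleton_quotient_subgroupOf_self (W : Subgroup G) :
    Subsingleton (↥W ⧸ W.subgroupOf W) := by
  refine ⟨fun a b => ?_⟩
  induction a using QuotientGroup.induction_on with
  | H x =>
    induction b using QuotientGroup.induction_on with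
    | H y =>
      rw [QuotientGroup.eq]
      exact Subgroup.mem_subgroupOf.2 (x⁻¹ * y).2

variable (U₀ : Subgroup G) [IsOpenSub 𝒰 U₀] (B : Rep.{u} k U₀) [IsDiscrete (𝒰.restrict U₀) B]

/-- **Class killing on an open subgroup**: every class of positive degree of the level cohomology
of `U₀` dies on restriction to some member `U₁ ≤ U₀` of the family. -/
theorem exists_res_inclusion_eq_zero (n : ℕ) (y : levelCohomology (𝒰.restrict U₀) B (n + 1)) :
    ∃ U₁ ∈ 𝒰.sets, ∃ h : U₁ ≤ U₀,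
      ∀ [IsDiscrete (𝒰.restrict U₁) (Rep.res (Subgroup.inclusion h) B)],
        (levelCohomologyMap (Subgroup.inclusion h) (𝒰.restrict_refines_inclusion h)
          (𝟙 (Rep.res (Subgroup.inclusion h) B)) (n + 1)).hom y = 0 := by
  obtain ⟨V₀, hV₀, hy⟩ := exists_levelInf_eq (𝒰.restrict U₀) B y
  obtain ⟨W, hW, hWU₀, hWV₀⟩ := IsOpenSub.exists_le_of_mem_restrict (𝒰 := 𝒰) hV₀
  have hV : W.subgroupOf U₀ ∈ (𝒰.restrict U₀).sets := 𝒰.mem_restrict_sets U₀ hW
  have hVn : (W.subgroupOf U₀).Normal := (𝒰.restrict U₀).normal _ hV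
  obtain ⟨y₀, rfl⟩ := hy (W.subgroupOf U₀) hV hWV₀
  refine ⟨W, hW, hWU₀, ?_⟩
  intro _
  have hV₁ : W.subgroupOf W ∈ (𝒰.restrict W).sets := 𝒰.mem_restrict_sets W hW
  have hV₁n : (W.subgroupOf W).Normal := (𝒰.restrict W).normal _ hV₁
  exact levelCohomologyMap_levelInf_eq_zero (Subgroup.inclusion hWU₀)
    (𝒰.restrict_refines_inclusion hWU₀) (𝟙 _) (U := W.subgroupOf U₀) (V := W.subgroupOf W)
    (fun x _ => Subgroup.mem_subgroupOf.2 x.2) hV hV₁ n y₀

end Restrict

section Coind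

variable {k G : Type u} [CommRing k] [Group G] (𝒰 : LevelStructure G)
  (U₀ : Subgroup G) [IsOpenSub 𝒰 U₀] (B : Rep.{u} k U₀) [IsDiscrete (𝒰.restrict U₀) B]

/-- **Class killing for coinduced modules**: every class of positive degree of
`H(G, coind_{U₀} B)` dies in `H(G, coind_{U₁} B)` for some member `U₁ ≤ U₀` of the family. -/
theorem exists_coindIncl_eq_zero (n : ℕ)
    (x : levelCohomology 𝒰 (Rep.coind U₀.subtype B) (n + 1)) :
    ∃ U₁ ∈ 𝒰.sets, ∃ h : U₁ ≤ U₀,
      ∀ [IsDiscrete 𝒰 (Rep.coind U₁.subtype (Rep.res (Subgroup.inclusion h) B))],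
        (Hmap 𝒰 (coindIncl h B) (n + 1)).hom x = 0 := by
  obtain ⟨U₁, hU₁, h, hy⟩ :=
    exists_res_inclusion_eq_zero 𝒰 U₀ B n ((levelSh 𝒰 U₀ B (n + 1)).hom x)
  refine ⟨U₁, hU₁, h, ?_⟩
  intro _
  have : IsOpenSub 𝒰 U₁ := isOpenSub_of_mem 𝒰 hU₁
  have : IsDiscrete (𝒰.restrict U₁) (Rep.res (Subgroup.inclusion h) B) :=
    isDiscrete_res_inclusion 𝒰 h B
  apply (levelSh_bijective 𝒰 U₁ (n + 1) (Rep.res (Subgroup.inclusion h) B)).1
  rw [map_zero]
  exact (levelSh_coindIncl_apply 𝒰 h B (n + 1) x).trans hy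

end Coind

section CoindRes

open Fermat.Agent.S55.GL.BaseCaseTriv

variable {k G : Type u} [Field k] [Group G] {𝒰 : LevelStructure G}

/-- **Class killing for `coind_U^G res_U A`** in the shape of `ArithL.kill1`, `ArithL.kill2`. -/
theorem exists_coindResIncl_eq_zero {U : Subgroup G} (hU : U ∈ 𝒰.sets) (A : Rep.{u} k G)
    [IsDiscrete 𝒰 A] [IsDiscrete 𝒰 (coindRes U A)] (n : ℕ)
    (x : levelCohomology 𝒰 (coindRes U A) (n + 1)) :
    ∃ U' ∈ 𝒰.sets, ∃ h : U' ≤ U, ∀ [IsDiscrete 𝒰 (coindRes U' A)],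
      (Hmap 𝒰 (coindResIncl h A) (n + 1)).hom x = 0 := by
  have : IsOpenSub 𝒰 U := isOpenSub_of_mem 𝒰 hU
  have : IsDiscrete (𝒰.restrict U) (Rep.res U.subtype A) :=
    Cone.isDiscrete_res U.subtype (𝒰.restrict_refines U) A
  obtain ⟨U', hU', h, hx⟩ := exists_coindIncl_eq_zero 𝒰 U (Rep.res U.subtype A) n x
  exact ⟨U', hU', h, fun {inst} => @hx inst⟩

variable (D : Cone.LocalData 𝒰) (χ : G →* kˣ) [IsDiscrete 𝒰 (groupCohomology.ofChar χ)]
  (tr : Cone.Hc D (groupCohomology.ofChar χ) 3 →ₗ[k] k)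

/-- **`ArithL` from its two genuinely arithmetic fields**: class killing is automatic. -/
theorem arithL_of_K2_count
    (K2 : ∀ U ∈ 𝒰.sets, (∀ u ∈ U, χ u = 1) → ∀ [IsDiscrete 𝒰 (coindRes U (triv k G))]
      [IsDiscrete 𝒰 ((coindRes U (triv k G)).dualTwist χ)],
      (BaseFamily.twistPair (𝒰 := 𝒰) χ (coindRes U (triv k G))).K2 D tr)
    (count : ∀ U ∈ 𝒰.sets, (∀ u ∈ U, χ u = 1) → ∀ [IsDiscrete 𝒰 (coindRes U (triv k G))]
      [IsDiscrete 𝒰 ((coindRes U (triv k G)).dualTwist χ)],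
      ∃ s c, (BaseFamily.twistPair (𝒰 := 𝒰) χ (coindRes U (triv k G))).Count D tr s c) :
    ArithL D χ tr where
  K2 := K2
  count := count
  kill1 := fun _ hU _ _ x => exists_coindResIncl_eq_zero hU (triv k G) 0 x
  kill2 := fun _ hU _ _ x => exists_coindResIncl_eq_zero hU (triv k G) 1 x

end CoindRes

end Fermat.Agent.S55.GL.ClassKill
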