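/-
S55 / GLO15, part 2: ARITH-L from the arithmetic over `L`, abstract assembly.

`U ∈ 𝒰.sets` with `χ|U = 1` (think `U = Gal(ℚ_S/L)`, `L ∋ ζ_p`), `B := res_U k` the trivial
coefficients over `U`, `σ v i` representatives of the double cosets `U \ G / r_v(G_v)` (the places of
`L` above `v`).  The base pair is `P = twistPair χ I_U`, `I_U = coind_U B`, `I_U' ≅ I_U` (the
`ζ`-isomorphism `BaseObjects.trivDualTwistIso`).  Through this isomorphism, Shapiro and Mackey
(`ShapiroTransport`), the two genuinely arithmetic fields of `BaseCaseTriv.ArithL` become statements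
on the localisation map `locL : H²(U, B) → ∏_{v,i} H²(U_{v,i}, B)` of `U` itself:

* `K2_of_locL`: `P.K2` from an ADDITIVE map `s` on `∏_{v,i} H²(U_{v,i}, B)` (the sum of the local
  invariants) whose kernel consists of localisations of classes of `H²(U, B)` (ARITH-L (c)), the
  injectivity of `iota0`, and nothing else;
* `count_of_locL`: `P.Count s c` from `finrank ker (locL 2) ≤ c` (ARITH-L (b)), the count
  `finrank H¹(I_U) = s + c` (ARITH-L (a)), `finrank ∏_v H¹_v(I_U') = 2 s` (ARITH-L (d)) and local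
  duality for the base objects; the `ζ`-isomorphism supplies `hH'`, `hker`, `fdH1'`, and `fdH2'` is
  deduced from the finiteness of `ker (locL 2)`.
-/
import Fermat.Agent.S55.GL.BaseCaseTriv
import Fermat.Agent.S55.GL.ClassKill
import Fermat.Agent.S55.GL.BaseObjects
import Fermat.Agent.S55.GL.BaseK2
import Fermat.Agent.S55.ShapiroTransport
import Fermat.Agent.S55.BaseK2
import Fermat.Agent.S55.ConeFunct

set_option autoImplicit false

namespace Fermat.Agent.S55.GL.ArithLInst

open CategoryTheory Module groupCohomology Fermat.Agent.S55.Level Fermat.Agent.S55.Cone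
  Fermat.Agent.S55.CF Fermat.Agent.S55.DualTwist Fermat.Agent.S55.Devissage
  Fermat.Agent.S55.GL.BaseCase Fermat.Agent.S55.GL.BaseFamily Fermat.Agent.S55.GL.BaseCaseTriv
  Fermat.Agent.S55.ShapiroTransport

universe u

variable {k G : Type u} [Field k] [Group G] {𝒰 : LevelStructure G}

section Iso

variable (D : LocalData 𝒰) {A B C : Rep.{u} k G} [IsDiscrete 𝒰 A] [IsDiscrete 𝒰 B]
  [IsDiscrete 𝒰 C]

theorem locHMap_comp_apply (φ : A ⟶ B) (ψ : B ⟶ C) (n : ℕ)
    (w : ∀ v, levelCohomology (D.𝒱 v) (Rep.res (D.r v) A) n) :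
    locHMap D (φ ≫ ψ) n w = locHMap D ψ n (locHMap D φ n w) := by
  funext v
  rw [locHMap_apply, locHMap_apply, locHMap_apply, CategoryTheory.Functor.map_comp,
    Hmap_comp_apply]

theorem locHMap_id_apply (n : ℕ) (w : ∀ v, levelCohomology (D.𝒱 v) (Rep.res (D.r v) A) n) :
    locHMap D (𝟙 A) n w = w := by
  funext v
  rw [locHMap_apply, CategoryTheory.Functor.map_id, Hmap_id]
  rfl

/-- The linear equivalence on the products of the local cohomology groups induced by an
isomorphism of coefficients. -/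
noncomputable def locHMapEquiv (e : A ≅ B) (n : ℕ) :
    (∀ v, levelCohomology (D.𝒱 v) (Rep.res (D.r v) A) n) ≃ₗ[k]
      (∀ v, levelCohomology (D.𝒱 v) (Rep.res (D.r v) B) n) :=
  LinearEquiv.ofLinearMap (locHMap D e.hom n) (locHMap D e.inv n)
    (LinearMap.ext fun w => by
      rw [LinearMap.comp_apply, ← locHMap_comp_apply, e.inv_hom_id, locHMap_id_apply]
      rfl)
    (LinearMap.ext fun w => by
      rw [LinearMap.comp_apply, ← locHMap_comp_apply, e.hom_inv_id, locHMap_id_apply]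
      rfl)

theorem locHMapEquiv_apply (e : A ≅ B) (n : ℕ)
    (w : ∀ v, levelCohomology (D.𝒱 v) (Rep.res (D.r v) A) n) :
    locHMapEquiv D e n w = locHMap D e.hom n w := rfl

/-- Ranges of the localisation maps correspond under an isomorphism of coefficients. -/
theorem mem_range_locH_iff_of_iso (e : A ≅ B) (n : ℕ)
    (w : ∀ v, levelCohomology (D.𝒱 v) (Rep.res (D.r v) A) n) :
    w ∈ LinearMap.range (locH D A n) ↔ locHMap D e.hom n w ∈ LinearMap.range (locH D B n) := by
  constructor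
  · rintro ⟨x, rfl⟩
    exact ⟨(Hmap 𝒰 e.hom n).hom x, locH_Hmap D e.hom n x⟩
  · rintro ⟨y, hy⟩
    refine ⟨(Hmap 𝒰 e.inv n).hom y, ?_⟩
    rw [locH_Hmap, hy, ← locHMap_comp_apply, e.hom_inv_id, locHMap_id_apply]

/-- A linear map with finite dimensional kernel and finite dimensional codomain has a finite
dimensional domain. -/
theorem finiteDimensional_of_ker_of_codomain {V W : Type*} [AddCommGroup V] [Module k V]
    [AddCommGroup W] [Module k W] (f : V →ₗ[k] W) [FiniteDimensional k (LinearMap.ker f)]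
    [FiniteDimensional k W] : FiniteDimensional k V := by
  have : FiniteDimensional k (V ⧸ LinearMap.ker f) :=
    LinearEquiv.finiteDimensional (f.quotKerEquivRange).symm
  exact Module.Finite.of_submodule_quotient (LinearMap.ker f)

end Iso

section Base

variable (D : LocalData 𝒰) (χ : G →* kˣ) [IsDiscrete 𝒰 (ofChar χ)]
  (tr : Hc D (ofChar χ) 3 →ₗ[k] k) (U : Subgroup G) [IsOpenSub 𝒰 U] [U.FiniteIndex]
  (hχ : ∀ u ∈ U, χ u = 1)
  [IsDiscrete (𝒰.restrict U) (Rep.res U.subtype (triv k G))]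
  [IsDiscrete 𝒰 (coindRes U (triv k G))] [IsDiscrete 𝒰 ((coindRes U (triv k G)).dualTwist χ)]
  {J : D.ι → Type} (σ : ∀ v, J v → G) [∀ v, Finite (J v)]
  (hcov : ∀ v, ∀ x : G, ∃ i, ∃ u ∈ U, ∃ h : D.Gv v, x = u * σ v i * D.r v h)
  (hdisj : ∀ v, ∀ i j, ∀ u ∈ U, ∀ h : D.Gv v, σ v j = u * σ v i * D.r v h → i = j)

variable (k) in
/-- The trivial coefficients over `U`. -/
noncomputable abbrev trivU : Rep.{u} k U := Rep.res U.subtype (triv k G)

/-- The restriction of `I_U'` to a local group is discrete (explicit form of the instance). -/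
instance isDiscrete_res_dualTwist (v : D.ι) :
    IsDiscrete (D.𝒱 v) (Rep.res (D.r v) ((coindRes U (triv k G)).dualTwist χ)) :=
  D.isDiscrete_res ((coindRes U (triv k G)).dualTwist χ) v

/-- The restriction of `I_U` to a local group is discrete (explicit form of the instance). -/
instance isDiscrete_res_coindRes (v : D.ι) :
    IsDiscrete (D.𝒱 v) (Rep.res (D.r v) (coindRes U (triv k G))) :=
  D.isDiscrete_res (coindRes U (triv k G)) v

/-- The composite `P²(I_U') ≃ P²(I_U) ≃ ∏_{v,i} H²(U_{v,i}, k)`: the `ζ`-isomorphism followed by the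
Mackey decomposition. -/
noncomputable def mkY (n : ℕ) :
    (∀ v, levelCohomology (D.𝒱 v) (Rep.res (D.r v) ((coindRes U (triv k G)).dualTwist χ)) n)
      ≃ₗ[k] (∀ v, ∀ i : J v, HL D U (trivU k U) σ n v i) :=
  (locHMapEquiv D (BaseObjects.trivDualTwistIso χ U hχ) n).trans
    (mkEquiv D U (trivU k U) σ hcov hdisj n)

omit [IsDiscrete 𝒰 (ofChar χ)] in
include hcov hdisj in
/-- Ranges: a family of local classes of `I_U'` is global iff its image under `mkY` is the
localisation of a class of `Hⁿ(U, k)`. -/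
theorem mem_range_locH_dualTwist_iff (n : ℕ)
    (w : ∀ v, levelCohomology (D.𝒱 v)
      (Rep.res (D.r v) ((coindRes U (triv k G)).dualTwist χ)) n) :
    w ∈ LinearMap.range (locH D ((coindRes U (triv k G)).dualTwist χ) n) ↔
      mkY D χ U hχ σ hcov hdisj n w ∈ LinearMap.range (locL D U (trivU k U) σ n) := by
  rw [mem_range_locH_iff_of_iso D (BaseObjects.trivDualTwistIso χ U hχ) n w]
  exact mem_range_locH_iff D U (trivU k U) σ hcov hdisj n _

include hχ hcov hdisj in
/-- **ARITH-L (c) ⊢ `K2`**: if the kernel of an additive map `s` on `∏_{v,i} H²(U_{v,i}, k)` with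
values in a group whose `p`-torsion is cyclic consists of localisations of classes of `H²(U, k)`,
and `iota0` is injective, then the base pair `twistPair χ I_U` satisfies `K2`. -/
theorem K2_of_locL [Nonempty D.ι] (p : ℕ) [CharP k p]
    (hι0 : Function.Injective ((twistPair (𝒰 := 𝒰) χ (coindRes U (triv k G))).iota0 D tr))
    {Q : Type*} [AddCommGroup Q]
    (hQ : ∀ a b : Q, p • a = 0 → p • b = 0 → a ≠ 0 → ∃ m : ℕ, b = m • a)
    (s : (∀ v, ∀ i : J v, HL D U (trivU k U) σ 2 v i) →+ Q)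
    (hs : ∀ x, s x = 0 → x ∈ LinearMap.range (locL D U (trivU k U) σ 2)) :
    (twistPair (𝒰 := 𝒰) χ (coindRes U (triv k G))).K2 D tr := by
  intro w hw
  obtain ⟨e, he⟩ := BaseK2.exists_H0_coindRes_triv_ne_zero (k := k) (𝒰 := 𝒰) U
  have he' := BaseK2.locH_zero_ne_zero D (coindRes U (triv k G)) he
  have hp : ∀ x : (∀ v, levelCohomology (D.𝒱 v)
      (Rep.res (D.r v) ((coindRes U (triv k G)).dualTwist χ)) 2), p • x = 0 := by
    intro x
    rw [← Nat.cast_smul_eq_nsmul k, CharP.cast_eq_zero, zero_smul]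
  refine Fermat.Agent.S55.BaseK2.K2_of_additive D
    (evalPairing' χ (coindRes U (triv k G))) (evalPairing'_equivariant χ (coindRes U (triv k G)))
    tr p hp hQ (s.comp (mkY D χ U hχ σ hcov hdisj 2).toLinearMap.toAddMonoidHom) ?_ hι0 e he' w hw
  intro x hx
  exact (mem_range_locH_dualTwist_iff D χ U hχ σ hcov hdisj 2 x).2 (hs _ hx)

omit [IsDiscrete 𝒰 (ofChar χ)] in
include hχ hcov hdisj in
/-- `dim ∏_v Hⁿ_v(I_U') = dim ∏_{v,i} Hⁿ(U_{v,i}, k)`. -/
theorem finrank_P_dualTwist_eq (n : ℕ) :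
    finrank k (∀ v, levelCohomology (D.𝒱 v)
      (Rep.res (D.r v) ((coindRes U (triv k G)).dualTwist χ)) n) =
      finrank k (∀ v, ∀ i : J v, HL D U (trivU k U) σ n v i) :=
  (mkY D χ U hχ σ hcov hdisj n).finrank_eq

omit [IsDiscrete 𝒰 (ofChar χ)] in
include hχ hcov hdisj in
/-- `∏_v Hⁿ_v(I_U')` is finite dimensional iff `∏_{v,i} Hⁿ(U_{v,i}, k)` is. -/
theorem finiteDimensional_P_dualTwist (n : ℕ)
    [FiniteDimensional k (∀ v, ∀ i : J v, HL D U (trivU k U) σ n v i)] :
    FiniteDimensional k (∀ v, levelCohomology (D.𝒱 v)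
      (Rep.res (D.r v) ((coindRes U (triv k G)).dualTwist χ)) n) :=
  LinearEquiv.finiteDimensional (mkY D χ U hχ σ hcov hdisj n).symm

omit [IsDiscrete 𝒰 (ofChar χ)] in
/-- The kernel of the localisation map of `I_U'` in degree `n` is isomorphic to the kernel of the
localisation map of `U`. -/
noncomputable def kerY (n : ℕ) :
    LinearMap.ker (locH D ((coindRes U (triv k G)).dualTwist χ) n) ≃ₗ[k]
      LinearMap.ker (locL D U (trivU k U) σ n) :=
  ((HmapEquiv (𝒰 := 𝒰) (BaseObjects.trivDualTwistIso χ U hχ) n).ofSubmodules _ _ (by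
    apply le_antisymm
    · rintro _ ⟨x, hx, rfl⟩
      exact Hmap_mem_ker_locH D (BaseObjects.trivDualTwistIso χ U hχ).hom n hx
    · intro y hy
      refine ⟨(Hmap 𝒰 (BaseObjects.trivDualTwistIso χ U hχ).inv n).hom y,
        Hmap_mem_ker_locH D (BaseObjects.trivDualTwistIso χ U hχ).inv n hy, ?_⟩
      exact (HmapEquiv (𝒰 := 𝒰) (BaseObjects.trivDualTwistIso χ U hχ) n).apply_symm_apply y)).trans
    (kerEquiv D U (trivU k U) σ hcov hdisj n)

include hχ hcov hdisj in
/-- **ARITH-L (a), (b), (d) ⊢ `Count`**: the count for the base pair `twistPair χ I_U` from the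
count of `H¹(I_U)`, the count of `∏_v H¹_v(I_U')`, the bound `dim ker (locL 2) ≤ c` for the
localisation map of `U`, and local duality.  The `ζ`-isomorphism `I_U' ≅ I_U` supplies the other
fields. -/
theorem count_of_locL (s c : ℕ)
    (fdH1 : FiniteDimensional k (levelCohomology 𝒰 (coindRes U (triv k G)) 1))
    (hH : finrank k (levelCohomology 𝒰 (coindRes U (triv k G)) 1) = s + c)
    (fdP0 : FiniteDimensional k
      (∀ v, levelCohomology (D.𝒱 v) (Rep.res (D.r v) (coindRes U (triv k G))) 0))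
    (fdP1' : FiniteDimensional k (∀ v, levelCohomology (D.𝒱 v)
      (Rep.res (D.r v) ((coindRes U (triv k G)).dualTwist χ)) 1))
    (fdP2' : FiniteDimensional k (∀ v, levelCohomology (D.𝒱 v)
      (Rep.res (D.r v) ((coindRes U (triv k G)).dualTwist χ)) 2))
    (hP' : finrank k (∀ v, levelCohomology (D.𝒱 v)
      (Rep.res (D.r v) ((coindRes U (triv k G)).dualTwist χ)) 1) = 2 * s)
    (hι0 : Function.Bijective ((twistPair (𝒰 := 𝒰) χ (coindRes U (triv k G))).iota0 D tr))
    (hι1 : Function.Injective ((twistPair (𝒰 := 𝒰) χ (coindRes U (triv k G))).iota1 D tr))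
    (fdsha : FiniteDimensional k (LinearMap.ker (locL D U (trivU k U) σ 2)))
    (hsha : finrank k (LinearMap.ker (locL D U (trivU k U) σ 2)) ≤ c) :
    (twistPair (𝒰 := 𝒰) χ (coindRes U (triv k G))).Count D tr s c := by
  have e := BaseObjects.trivDualTwistIso χ U hχ
  have fdH1' : FiniteDimensional k
      (levelCohomology 𝒰 ((coindRes U (triv k G)).dualTwist χ) 1) :=
    LinearEquiv.finiteDimensional (HmapEquiv (𝒰 := 𝒰) e 1).symm
  have fdker : FiniteDimensional k
      (LinearMap.ker (locH D ((coindRes U (triv k G)).dualTwist χ) 2)) :=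
    LinearEquiv.finiteDimensional (kerY D χ U hχ σ hcov hdisj 2).symm
  have fdH2' : FiniteDimensional k
      (levelCohomology 𝒰 ((coindRes U (triv k G)).dualTwist χ) 2) :=
    finiteDimensional_of_ker_of_codomain (locH D ((coindRes U (triv k G)).dualTwist χ) 2)
  exact
    { fdH1 := fdH1
      fdH1' := fdH1'
      fdH2' := fdH2'
      fdP0 := fdP0
      fdP1' := fdP1'
      fdP2' := fdP2'
      hH := hH
      hH' := (finrank_levelCohomology_eq_of_iso (𝒰 := 𝒰) e 1).trans hH
      hP' := hP'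
      hker := (finrank_ker_locH_eq_of_iso D e 1).symm
      hsha2 := (kerY D χ U hχ σ hcov hdisj 2).finrank_eq.trans_le hsha
      hι0 := hι0
      hι1 := hι1 }

end Base

section Final

variable (D : LocalData 𝒰) (χ : G →* kˣ) [IsDiscrete 𝒰 (ofChar χ)]
  (tr : Hc D (ofChar χ) 3 →ₗ[k] k)

/-- The transported arithmetic input for one `U` (ARITH-L (a)–(d) + local duality for the base
objects, in the language of the localisation map `locL` of `U`). -/
def ArithU (p : ℕ) (U : Subgroup G) [IsOpenSub 𝒰 U] [U.FiniteIndex]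
    [IsDiscrete (𝒰.restrict U) (Rep.res U.subtype (triv k G))]
    [IsDiscrete 𝒰 (coindRes U (triv k G))] [IsDiscrete 𝒰 ((coindRes U (triv k G)).dualTwist χ)] :
    Prop :=
  ∃ (J : D.ι → Type) (_ : ∀ v, Finite (J v)) (σ : ∀ v, J v → G),
    (∀ v, ∀ x : G, ∃ i, ∃ u ∈ U, ∃ h : D.Gv v, x = u * σ v i * D.r v h) ∧
    (∀ v, ∀ i j, ∀ u ∈ U, ∀ h : D.Gv v, σ v j = u * σ v i * D.r v h → i = j) ∧
    Function.Bijective ((twistPair (𝒰 := 𝒰) χ (coindRes U (triv k G))).iota0 D tr) ∧
    Function.Injective ((twistPair (𝒰 := 𝒰) χ (coindRes U (triv k G))).iota1 D tr) ∧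
    FiniteDimensional k
      (∀ v, levelCohomology (D.𝒱 v) (Rep.res (D.r v) (coindRes U (triv k G))) 0) ∧
    FiniteDimensional k (∀ v, levelCohomology (D.𝒱 v)
      (Rep.res (D.r v) ((coindRes U (triv k G)).dualTwist χ)) 1) ∧
    FiniteDimensional k (∀ v, levelCohomology (D.𝒱 v)
      (Rep.res (D.r v) ((coindRes U (triv k G)).dualTwist χ)) 2) ∧
    (∃ (Q : Type) (_ : AddCommGroup Q)
      (s : (∀ v, ∀ i : J v, HL D U (trivU k U) σ 2 v i) →+ Q),
      (∀ a b : Q, p • a = 0 → p • b = 0 → a ≠ 0 → ∃ m : ℕ, b = m • a) ∧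
      ∀ x, s x = 0 → x ∈ LinearMap.range (locL D U (trivU k U) σ 2)) ∧
    ∃ s c : ℕ, FiniteDimensional k (levelCohomology 𝒰 (coindRes U (triv k G)) 1) ∧
      finrank k (levelCohomology 𝒰 (coindRes U (triv k G)) 1) = s + c ∧
      finrank k (∀ v, levelCohomology (D.𝒱 v)
        (Rep.res (D.r v) ((coindRes U (triv k G)).dualTwist χ)) 1) = 2 * s ∧
      FiniteDimensional k (LinearMap.ker (locL D U (trivU k U) σ 2)) ∧
      finrank k (LinearMap.ker (locL D U (trivU k U) σ 2)) ≤ c

/-- **ARITH-L from the arithmetic over the fields `L`**: if every good `U` satisfies `ArithU`, then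
`BaseCaseTriv.ArithL` holds. -/
theorem arithL_of_arithU [Nonempty D.ι] (p : ℕ) [CharP k p]
    (H : ∀ U, U ∈ 𝒰.sets → (∀ u ∈ U, χ u = 1) →
      ∀ [IsOpenSub 𝒰 U] [U.FiniteIndex]
        [IsDiscrete (𝒰.restrict U) (Rep.res U.subtype (triv k G))]
        [IsDiscrete 𝒰 (coindRes U (triv k G))]
        [IsDiscrete 𝒰 ((coindRes U (triv k G)).dualTwist χ)], ArithU D χ tr p U) :
    ArithL D χ tr := by
  apply ClassKill.arithL_of_K2_count
  · intro U hU hχ _ _
    have : IsOpenSub 𝒰 U := isOpenSub_of_mem 𝒰 hU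
    have : U.FiniteIndex := 𝒰.finiteIndex U hU
    have : IsDiscrete (𝒰.restrict U) (Rep.res U.subtype (triv k G)) :=
      BaseObjects.isDiscrete_res_subtype 𝒰 U (triv k G)
    obtain ⟨J, hJ, σ, hcov, hdisj, hι0, -, -, -, -, ⟨Q, hQi, s, hQ, hs⟩, -⟩ := H U hU hχ
    exact K2_of_locL D χ tr U hχ σ hcov hdisj p hι0.1 hQ s hs
  · intro U hU hχ _ _
    have : IsOpenSub 𝒰 U := isOpenSub_of_mem 𝒰 hU
    have : U.FiniteIndex := 𝒰.finiteIndex U hU
    have : IsDiscrete (𝒰.restrict U) (Rep.res U.subtype (triv k G)) :=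
      BaseObjects.isDiscrete_res_subtype 𝒰 U (triv k G)
    obtain ⟨J, hJ, σ, hcov, hdisj, hι0, hι1, fdP0, fdP1', fdP2', -, s, c, fdH1, hH, hP', fdsha,
      hsha⟩ := H U hU hχ
    exact ⟨s, c, count_of_locL D χ tr U hχ σ hcov hdisj s c fdH1 hH fdP0 fdP1' fdP2' hP' hι0 hι1
      fdsha hsha⟩

end Final

end Fermat.Agent.S55.GL.ArithLInst
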