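/-
S55 / GLO14 (helper28): local duality for the pairs `(X, X', evalPairing')` of the base case, in the
shape of the fields `hι0` (bijective), `hι1` (injective), `fdP0`, `fdP2'` of
`GL.BaseCase.Pair.Count`.

Input: injectivity of the local duality maps `Ψ` of `LevelDuality` at every place, for all finite
dimensional discrete coefficients (= helper22's `Ψ_injective_of_restrict` from `LocalBaseHyp₁`).
Surjectivity of the sums of local duality maps is right nondegeneracy (helper22's
`cupLoc_right_nondegenerate`); injectivity follows by a DIMENSION argument — no graded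
commutativity of the cup product is needed:
`Ψ (X_v) 2 0` and `Ψ (X'_v) 0 2` injective give
`dim H⁰_v(X) ≤ dim H²_v(X') ≤ dim H⁰_v(X'') = dim H⁰_v(X)`, and similarly in degree `(1,1)`.
-/
import Fermat.Agent.S55.LevelDualityCone
import Fermat.Agent.S55.GL.BaseFamily

set_option autoImplicit false
set_option linter.unusedSectionVars false

namespace Fermat.Agent.S55.GL.BaseLocalDuality

open Module groupCohomology Fermat.Agent.S55.Level Fermat.Agent.S55.Cone
  Fermat.Agent.S55.DualTwist Fermat.Agent.S55.LevelDuality Fermat.Agent.S55.GL.BaseCase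
  Fermat.Agent.S55.GL.BaseFamily

universe u

section LinearAlgebra

variable {k : Type*} [Field k] {P Q : Type*} [AddCommGroup P] [Module k P] [AddCommGroup Q]
  [Module k Q]

/-- A surjection `P → Q^*` with `dim P ≤ dim Q` (finite) is bijective. -/
theorem bijective_of_surjective_of_finrank_le [FiniteDimensional k P] [FiniteDimensional k Q]
    (ι : P →ₗ[k] Dual k Q) (hι : Function.Surjective ι) (h : finrank k P ≤ finrank k Q) :
    Function.Bijective ι := by
  have h1 : finrank k (Dual k Q) = finrank k Q := Subspace.dual_finrank_eq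
  have h2 : finrank k (Dual k Q) ≤ finrank k P :=
    LinearMap.finrank_le_finrank_of_surjective hι
  have h3 : finrank k P = finrank k (Dual k Q) := le_antisymm (h.trans h1.ge) h2
  exact ⟨(LinearMap.injective_iff_surjective_of_finrank_eq_finrank h3).2 hι, hι⟩

/-- An injection `P → Q^*` bounds the dimension. -/
theorem finrank_le_of_injective_dual [FiniteDimensional k Q] (f : P →ₗ[k] Dual k Q)
    (hf : Function.Injective f) : finrank k P ≤ finrank k Q := by
  have h1 : finrank k (Dual k Q) = finrank k Q := Subspace.dual_finrank_eq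
  exact (LinearMap.finrank_le_finrank_of_injective hf).trans h1.le

end LinearAlgebra

section Local

variable {k G : Type u} [Field k] [Group G] (𝒱 : LevelStructure G) (χ : G →* kˣ)
  [IsDiscrete 𝒱 (ofChar χ)] (t : levelCohomology 𝒱 (ofChar χ) 2 →ₗ[k] k)

/-- The hypothesis "one-sided local duality for all finite dimensional discrete coefficients". -/
def AllΨInjective : Prop :=
  ∀ (Y : Rep.{u} k G) [IsDiscrete 𝒱 Y] [FiniteDimensional k Y] [IsDiscrete 𝒱 (Y.dualTwist χ)],
    Function.Injective (Ψ 𝒱 χ t Y 2 0 rfl) ∧ Function.Injective (Ψ 𝒱 χ t Y 1 1 rfl) ∧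
      Function.Injective (Ψ 𝒱 χ t Y 0 2 rfl)

theorem allΨInjective_of_localBase
    (hloc : LocalBaseHyp₁ 𝒱 χ t (restrictFamily 𝒱) (restrictFamily_refines 𝒱)) :
    AllΨInjective 𝒱 χ t :=
  fun Y _ _ _ => Ψ_injective_of_restrict 𝒱 χ t hloc Y

end Local

section Cone

variable {k G : Type u} [Field k] [Group G] {𝒰 : LevelStructure G} (D : LocalData 𝒰)
  [DecidableEq D.ι] [Fintype D.ι] (χ : G →* kˣ) [IsDiscrete 𝒰 (ofChar χ)]
  (tr : Hc D (ofChar χ) 3 →ₗ[k] k)
  (X : Rep.{u} k G) [IsDiscrete 𝒰 X] [FiniteDimensional k X] [IsDiscrete 𝒰 (X.dualTwist χ)]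
  (hΨ : ∀ v, AllΨInjective (D.𝒱 v) (χ.comp (D.r v)) (invAt D tr v))

omit [DecidableEq D.ι] [Fintype D.ι] in
/-- `X'` is finite dimensional. -/
theorem finiteDimensional_dualTwist : FiniteDimensional k (X.dualTwist χ) :=
  inferInstanceAs (FiniteDimensional k (Module.Dual k X))

include hΨ in
/-- `H²(G_v, Y)` is finite dimensional for finite dimensional discrete `Y`. -/
theorem finiteDimensional_H2 (v : D.ι) (Y : Rep.{u} k (D.Gv v)) [IsDiscrete (D.𝒱 v) Y]
    [FiniteDimensional k Y] : FiniteDimensional k (levelCohomology (D.𝒱 v) Y 2) := by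
  have := isDiscrete_dualTwist (D.𝒱 v) (χ.comp (D.r v)) Y
  exact finiteDimensional_levelCohomology_two (D.𝒱 v) (χ.comp (D.r v)) (invAt D tr v) Y
    (hΨ v Y).2.2

include hΨ in
/-- `dim Hⁿ(G_v, Y) ≤ dim Hᵐ(G_v, Y')` for `m + n = 2`, when the right-hand side is finite
dimensional. -/
theorem finrank_le_finrank_dualTwist (v : D.ι) (Y : Rep.{u} k (D.Gv v)) [IsDiscrete (D.𝒱 v) Y]
    [FiniteDimensional k Y] [IsDiscrete (D.𝒱 v) (Y.dualTwist (χ.comp (D.r v)))]
    {m n : ℕ} (h : m + n = 2)
    (hinj : Function.Injective (Ψ (D.𝒱 v) (χ.comp (D.r v)) (invAt D tr v) Y m n h))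
    [FiniteDimensional k (levelCohomology (D.𝒱 v) (Y.dualTwist (χ.comp (D.r v))) m)] :
    finrank k (levelCohomology (D.𝒱 v) Y n) ≤
      finrank k (levelCohomology (D.𝒱 v) (Y.dualTwist (χ.comp (D.r v))) m) :=
  finrank_le_of_injective_dual _ hinj

omit [DecidableEq D.ι] [Fintype D.ι] in
/-- Restriction commutes with the twisted dual, on cohomology. -/
theorem finrank_res_dualTwist (v : D.ι) (n : ℕ)
    [IsDiscrete (D.𝒱 v) ((Rep.res (D.r v) X).dualTwist (χ.comp (D.r v)))] :
    finrank k (levelCohomology (D.𝒱 v) (Rep.res (D.r v) (X.dualTwist χ)) n) =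
      finrank k (levelCohomology (D.𝒱 v) ((Rep.res (D.r v) X).dualTwist (χ.comp (D.r v))) n) :=
  (LinearEquiv.ofBijective _
    (lmap_bijective_of_iso (D.𝒱 v) (resDualTwistIso χ X (D.r v)) n)).finrank_eq

include hΨ in
/-- `fdP2'`: `∏_v H²(G_v, X')` is finite dimensional. -/
theorem finiteDimensional_P2' :
    FiniteDimensional k (∀ v, levelCohomology (D.𝒱 v) (Rep.res (D.r v) (X.dualTwist χ)) 2) := by
  have hfdX' := finiteDimensional_dualTwist χ X
  have : ∀ v, FiniteDimensional k
      (levelCohomology (D.𝒱 v) (Rep.res (D.r v) (X.dualTwist χ)) 2) := fun v => by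
    have : FiniteDimensional k (Rep.res (D.r v) (X.dualTwist χ)) := hfdX'
    exact finiteDimensional_H2 D χ tr hΨ v _
  infer_instance

omit [DecidableEq D.ι] in
/-- `fdP0`: `∏_v H⁰(G_v, X)` is finite dimensional. -/
theorem finiteDimensional_P0 :
    FiniteDimensional k (∀ v, levelCohomology (D.𝒱 v) (Rep.res (D.r v) X) 0) := by
  have : ∀ v, FiniteDimensional k (levelCohomology (D.𝒱 v) (Rep.res (D.r v) X) 0) := fun v => by
    have : FiniteDimensional k (Rep.res (D.r v) X) := ‹FiniteDimensional k X›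
    exact finiteDimensional_levelCohomology_zero (D.𝒱 v) _
  infer_instance

include hΨ in
/-- The local duality map `∏ H⁰(G_v, X) → (∏ H²(G_v, X'))^*` of the pair `(X, X')` is
surjective. -/
theorem iota0_surjective : Function.Surjective ((twistPair (𝒰 := 𝒰) χ X).iota0 D tr) := by
  have hfdX' := finiteDimensional_dualTwist χ X
  refine locDual_surjective D (evalPairing' χ X) (evalPairing'_equivariant χ X) 0 2 2 rfl tr
    (fun v => ?_) (fun v b hb => ?_)
  · have : FiniteDimensional k (Rep.res (D.r v) (X.dualTwist χ)) := hfdX'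
    exact finiteDimensional_H2 D χ tr hΨ v _
  · have : FiniteDimensional k (Rep.res (D.r v) (X.dualTwist χ)) := hfdX'
    have := isDiscrete_dualTwist (D.𝒱 v) (χ.comp (D.r v)) (Rep.res (D.r v) (X.dualTwist χ))
    exact cupLoc_right_nondegenerate D χ tr (evalPairing' χ X) (evalPairing'_equivariant χ X)
      (fun a ha => evalPairing_right_nondegenerate χ X a ha)
      (fun f hf => evalPairing_left_nondegenerate χ X f hf) v rfl
      (hΨ v (Rep.res (D.r v) (X.dualTwist χ))).2.2 b hb

include hΨ in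
/-- `dim Hⁿ(G_v, X) ≤ dim Hᵐ(G_v, X')` for `(m, n) = (2, 0)` and `(1, 1)` (given finiteness of the
right-hand side). -/
theorem finrank_res_le (v : D.ι) {m n : ℕ} (h : m + n = 2)
    (hinj : ∀ (Y : Rep.{u} k (D.Gv v)) [IsDiscrete (D.𝒱 v) Y] [FiniteDimensional k Y]
      [IsDiscrete (D.𝒱 v) (Y.dualTwist (χ.comp (D.r v)))],
      Function.Injective (Ψ (D.𝒱 v) (χ.comp (D.r v)) (invAt D tr v) Y m n h))
    [FiniteDimensional k (levelCohomology (D.𝒱 v) (Rep.res (D.r v) (X.dualTwist χ)) m)] :
    finrank k (levelCohomology (D.𝒱 v) (Rep.res (D.r v) X) n) ≤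
      finrank k (levelCohomology (D.𝒱 v) (Rep.res (D.r v) (X.dualTwist χ)) m) := by
  have : FiniteDimensional k (Rep.res (D.r v) X) := ‹FiniteDimensional k X›
  have := isDiscrete_dualTwist (D.𝒱 v) (χ.comp (D.r v)) (Rep.res (D.r v) X)
  have e := LinearEquiv.ofBijective _
    (lmap_bijective_of_iso (D.𝒱 v) (resDualTwistIso χ X (D.r v)) m)
  have : FiniteDimensional k
      (levelCohomology (D.𝒱 v) ((Rep.res (D.r v) X).dualTwist (χ.comp (D.r v))) m) :=
    e.finiteDimensional
  rw [e.finrank_eq]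
  exact finrank_le_of_injective_dual _ (hinj (Rep.res (D.r v) X))

include hΨ in
/-- **`hι0`**: the local duality map `∏ H⁰(G_v, X) → (∏ H²(G_v, X'))^*` of the pair `(X, X')` is
bijective. -/
theorem iota0_bijective : Function.Bijective ((twistPair (𝒰 := 𝒰) χ X).iota0 D tr) := by
  have hfdX' := finiteDimensional_dualTwist χ X
  have h0 : ∀ v, FiniteDimensional k (levelCohomology (D.𝒱 v) (Rep.res (D.r v) X) 0) :=
    fun v => by
      have : FiniteDimensional k (Rep.res (D.r v) X) := ‹FiniteDimensional k X›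
      exact finiteDimensional_levelCohomology_zero (D.𝒱 v) _
  have h2 : ∀ v, FiniteDimensional k
      (levelCohomology (D.𝒱 v) (Rep.res (D.r v) (X.dualTwist χ)) 2) := fun v => by
    have : FiniteDimensional k (Rep.res (D.r v) (X.dualTwist χ)) := hfdX'
    exact finiteDimensional_H2 D χ tr hΨ v _
  change Function.Bijective
    (locDual D (evalPairing' χ X) (evalPairing'_equivariant χ X) 0 2 2 rfl tr)
  refine bijective_of_surjective_of_finrank_le _ (iota0_surjective D χ tr X hΨ) ?_
  rw [Module.finrank_pi_fintype, Module.finrank_pi_fintype]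
  exact Finset.sum_le_sum fun v _ =>
    finrank_res_le D χ tr X hΨ v (m := 2) (n := 0) rfl (fun Y _ _ _ => (hΨ v Y).1)

include hΨ in
/-- `H¹(G_v, X)` is finite dimensional as soon as `H¹(G_v, X')` is. -/
theorem finiteDimensional_H1 (v : D.ι)
    [FiniteDimensional k (levelCohomology (D.𝒱 v) (Rep.res (D.r v) (X.dualTwist χ)) 1)] :
    FiniteDimensional k (levelCohomology (D.𝒱 v) (Rep.res (D.r v) X) 1) := by
  have : FiniteDimensional k (Rep.res (D.r v) X) := ‹FiniteDimensional k X›
  have := isDiscrete_dualTwist (D.𝒱 v) (χ.comp (D.r v)) (Rep.res (D.r v) X)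
  have e := LinearEquiv.ofBijective _
    (lmap_bijective_of_iso (D.𝒱 v) (resDualTwistIso χ X (D.r v)) 1)
  have : FiniteDimensional k
      (levelCohomology (D.𝒱 v) ((Rep.res (D.r v) X).dualTwist (χ.comp (D.r v))) 1) :=
    e.finiteDimensional
  exact finiteDimensional_of_Ψ_injective (D.𝒱 v) (χ.comp (D.r v)) (invAt D tr v)
    (Rep.res (D.r v) X) (m := 1) (n := 1) rfl (hΨ v (Rep.res (D.r v) X)).2.1

include hΨ in
/-- **`hι1`**: the local duality map `∏ H¹(G_v, X) → (∏ H¹(G_v, X'))^*` of the pair `(X, X')` is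
bijective, if the `H¹(G_v, X')` are finite dimensional. -/
theorem iota1_bijective
    (hfd : ∀ v, FiniteDimensional k
      (levelCohomology (D.𝒱 v) (Rep.res (D.r v) (X.dualTwist χ)) 1)) :
    Function.Bijective ((twistPair (𝒰 := 𝒰) χ X).iota1 D tr) := by
  have hfdX' := finiteDimensional_dualTwist χ X
  have h1 : ∀ v, FiniteDimensional k (levelCohomology (D.𝒱 v) (Rep.res (D.r v) X) 1) :=
    fun v => finiteDimensional_H1 D χ tr X hΨ v
  have hsurj : Function.Surjective
      (locDual D (evalPairing' χ X) (evalPairing'_equivariant χ X) 1 1 2 rfl tr) :=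
    locDual_surjective_one_one D χ tr X hfd fun v => by
      intro _
      have : FiniteDimensional k (Rep.res (D.r v) (X.dualTwist χ)) := hfdX'
      exact (hΨ v (Rep.res (D.r v) (X.dualTwist χ))).2.1
  change Function.Bijective
    (locDual D (evalPairing' χ X) (evalPairing'_equivariant χ X) 1 1 2 rfl tr)
  refine bijective_of_surjective_of_finrank_le _ hsurj ?_
  rw [Module.finrank_pi_fintype, Module.finrank_pi_fintype]
  exact Finset.sum_le_sum fun v _ =>
    finrank_res_le D χ tr X hΨ v (m := 1) (n := 1) rfl (fun Y _ _ _ => (hΨ v Y).2.1)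

include hΨ in
/-- `fdP1`: `∏_v H¹(G_v, X)` is finite dimensional if the `H¹(G_v, X')` are. -/
theorem finiteDimensional_P1
    (hfd : ∀ v, FiniteDimensional k
      (levelCohomology (D.𝒱 v) (Rep.res (D.r v) (X.dualTwist χ)) 1)) :
    FiniteDimensional k (∀ v, levelCohomology (D.𝒱 v) (Rep.res (D.r v) X) 1) := by
  have h1 : ∀ v, FiniteDimensional k (levelCohomology (D.𝒱 v) (Rep.res (D.r v) X) 1) :=
    fun v => finiteDimensional_H1 D χ tr X hΨ v
  infer_instance

end Cone

section FromLocalBase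

variable {k G : Type u} [Field k] [Group G] {𝒰 : LevelStructure G} (D : LocalData 𝒰)
  [DecidableEq D.ι] [Fintype D.ι] (χ : G →* kˣ) [IsDiscrete 𝒰 (ofChar χ)]
  (tr : Hc D (ofChar χ) 3 →ₗ[k] k)
  (X : Rep.{u} k G) [IsDiscrete 𝒰 X] [FiniteDimensional k X] [IsDiscrete 𝒰 (X.dualTwist χ)]

/-- **Local duality for the pair `(X, X', evalPairing')`** from local duality for the coefficients
`k` over the level subgroups of the local groups (helper22's `LocalBaseHyp₁` at every place, for
the local invariants `invAt D tr v`): the fields `hι0`, `hι1`, `fdP0`, `fdP2'` of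
`Pair.Count`, and bijectivity of `iota1`. -/
theorem localDuality_of_localBase
    (hloc : ∀ v, LocalBaseHyp₁ (D.𝒱 v) (χ.comp (D.r v)) (invAt D tr v)
      (restrictFamily (D.𝒱 v)) (restrictFamily_refines (D.𝒱 v)))
    (hfd : ∀ v, FiniteDimensional k
      (levelCohomology (D.𝒱 v) (Rep.res (D.r v) (X.dualTwist χ)) 1)) :
    Function.Bijective ((twistPair (𝒰 := 𝒰) χ X).iota0 D tr) ∧
      Function.Bijective ((twistPair (𝒰 := 𝒰) χ X).iota1 D tr) ∧
      FiniteDimensional k (∀ v, levelCohomology (D.𝒱 v) (Rep.res (D.r v) X) 0) ∧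
      FiniteDimensional k (∀ v, levelCohomology (D.𝒱 v) (Rep.res (D.r v) (X.dualTwist χ)) 2) := by
  have hΨ : ∀ v, AllΨInjective (D.𝒱 v) (χ.comp (D.r v)) (invAt D tr v) :=
    fun v => allΨInjective_of_localBase (D.𝒱 v) (χ.comp (D.r v)) (invAt D tr v) (hloc v)
  exact ⟨iota0_bijective D χ tr X hΨ, iota1_bijective D χ tr X hΨ hfd,
    finiteDimensional_P0 D X, finiteDimensional_P2' D χ tr X hΨ⟩

end FromLocalBase

end Fermat.Agent.S55.GL.BaseLocalDuality
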