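import Mathlib
import Fermat.Agent.S55.GL.KummerCount
import Fermat.Agent.S55.LevelShapiro
import Fermat.Agent.S55.DevissageRep
import Fermat.Agent.S55.GL.PlacesPrimeUnits
import Fermat.Agent.S55.GL.PlacesDeg
import Fermat.Agent.S55.DualTwist

/-!
# S55 / GL4 part 5: ARITH-L (a) in dimension form

* `Level.levelH1EquivOfTrivial` : `H¹` of a discrete module with trivial action = level 1-cocycles;
  `Level.cocyclesEquivChars` : level 1-cocycles of `U` (restricted level) = `Level.levelChars 𝒰 U`.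
* `Kummer.levelCharsEquiv` : `Level.levelChars (globalLevel S) G_L (ℤ/p) ≃ levelChars L S μ_p`.
* `Kummer.card_primesAbove` : `#S_L = ∑_{q ∈ S} #(PlacesOver q L)`.
* `Kummer.cS L S p` (`= dim Cl_S(L)[p]`), `card_torsion_ClT`, `card_quotient_ClT`.
* **`Kummer.card_H1_coindRes`, `Kummer.finrank_H1_coindRes`** :
  `dim_{𝔽_p} H¹(G_S, Coind_{G_L}^{G_ℚ} 𝔽_p) = (#S_L + r₂(L)) + c_L` for `L` Galois over `ℚ`,
  unramified outside `S ∋ p`, containing `μ_p`, `p` odd.
-/

set_option autoImplicit false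
set_option linter.style.haveILetI false
set_option linter.unusedSectionVars false

open CategoryTheory groupCohomology

namespace Fermat.Agent.S55.Level

universe u

section TrivH1

variable {k H : Type u} [CommRing k] [Group H] (𝒱 : LevelStructure H) (A : Rep.{u} k H)
  [IsDiscrete 𝒱 A]

/-- for a trivial action, `levelH1π` is injective: there are no non-zero coboundaries. -/
theorem levelH1π_injective_of_trivial (htriv : ∀ h : H, ∀ a : A, A.ρ h a = a) :
    Function.Injective (levelH1π 𝒱 A) := by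
  rw [injective_iff_map_eq_zero]
  intro z hz
  rw [levelH1π_eq_zero_iff] at hz
  obtain ⟨a, ha⟩ := hz
  apply Subtype.ext
  rw [← ha]
  funext g
  rw [d₀₁_hom_apply, htriv, sub_self]
  rfl

/-- `H¹` of a trivial discrete module is the module of level 1-cocycles. -/
noncomputable def levelH1EquivOfTrivial (htriv : ∀ h : H, ∀ a : A, A.ρ h a = a) :
    levelCocycles₁ 𝒱 A ≃ₗ[k] levelCohomology 𝒱 A 1 :=
  LinearEquiv.ofBijective (levelH1π 𝒱 A)
    ⟨levelH1π_injective_of_trivial 𝒱 A htriv, levelH1π_surjective 𝒱 A⟩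

end TrivH1

section Chars

variable {k G : Type u} [CommRing k] [Group G] (𝒰 : LevelStructure G) (U : Subgroup G)
  (B : Rep.{u} k U)

theorem cocycle_one_eq_zero {z : U → B} (hz : z ∈ cocycles₁ B) : z 1 = 0 := by
  have h := (mem_cocycles₁_iff z).1 hz 1 1
  rw [mul_one, map_one, Module.End.one_apply] at h
  have := congrArg (fun x => x - z 1) h
  simpa using this.symm

/-- level 1-cocycles of `U` (for the restricted level structure) with values in a module with
trivial action are the level characters of `U`. -/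
def cocyclesEquivChars (htriv : ∀ u : U, ∀ b : B, B.ρ u b = b) :
    levelCocycles₁ (𝒰.restrict U) B ≃ ↥(levelChars 𝒰 U B.V) where
  toFun z := ⟨
    { toFun := fun u => Multiplicative.ofAdd (z.1 u)
      map_one' := by
        have hz := ((mem_levelCocycles₁_iff _ _ _).1 z.2).1
        rw [cocycle_one_eq_zero U B hz]
        rfl
      map_mul' := fun u v => by
        have hz := ((mem_levelCocycles₁_iff _ _ _).1 z.2).1
        have h := (mem_cocycles₁_iff z.1).1 hz u v
        rw [htriv] at h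
        rw [h, add_comm]
        rfl }, by
    obtain ⟨hz, V', ⟨V, hV, rfl⟩, h⟩ := (mem_levelCocycles₁_iff _ _ _).1 z.2
    refine ⟨V, hV, fun v hv => ?_⟩
    have h1 := h 1 v (Subgroup.mem_subgroupOf.2 hv)
    rw [one_mul, cocycle_one_eq_zero U B hz] at h1
    show Multiplicative.ofAdd (z.1 v) = 1
    rw [h1]
    rfl⟩
  invFun χ := ⟨fun u => Multiplicative.toAdd (χ.1 u), by
    rw [mem_levelCocycles₁_iff]
    constructor
    · rw [mem_cocycles₁_iff]
      intro g h
      rw [htriv, map_mul, toAdd_mul, add_comm]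
    · obtain ⟨V, hV, hχ⟩ := χ.2
      refine ⟨V.subgroupOf U, 𝒰.mem_restrict_sets U hV, fun g s hs => ?_⟩
      show Multiplicative.toAdd (χ.1 (g * s)) = Multiplicative.toAdd (χ.1 g)
      rw [map_mul, hχ s (Subgroup.mem_subgroupOf.1 hs), mul_one]⟩
  left_inv z := rfl
  right_inv χ := rfl

end Chars

section CoindTriv

variable {k G : Type} [CommRing k] [Group G] (𝒰 : LevelStructure G) (U : Subgroup G)

/-- the restriction to `U` of the trivial representation on `k` is discrete for every level. -/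
theorem isDiscrete_res_trivial (𝒱 : LevelStructure U) :
    IsDiscrete 𝒱 (Rep.res U.subtype (Rep.trivial k G k)) :=
  ⟨fun a => by
    obtain ⟨V, hV⟩ := 𝒱.nonempty
    exact ⟨V, hV, fun u _ => rfl⟩⟩

/-- **`H¹(𝒰, Coind_U^G k) ≃ level characters `U → k`** (level Shapiro + `H¹` of a trivial
module), for `U` a member of the level structure. -/
noncomputable def H1CoindTrivEquivChars (hU : U ∈ 𝒰.sets)
    [IsDiscrete 𝒰 (Devissage.coindRes U (Rep.trivial k G k))] :
    levelCohomology 𝒰 (Devissage.coindRes U (Rep.trivial k G k)) 1 ≃ ↥(levelChars 𝒰 U k) :=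
  haveI := isOpenSub_of_mem 𝒰 hU
  haveI := isDiscrete_res_trivial (k := k) (G := G) U (𝒰.restrict U)
  ((levelShIso 𝒰 U (Rep.res U.subtype (Rep.trivial k G k)) 1).toLinearEquiv.toEquiv).trans
    (((levelH1EquivOfTrivial (𝒰.restrict U) (Rep.res U.subtype (Rep.trivial k G k))
      (fun _ _ => rfl)).symm.toEquiv).trans
      (cocyclesEquivChars 𝒰 U (Rep.res U.subtype (Rep.trivial k G k)) (fun _ _ => rfl)))

end CoindTriv

end Fermat.Agent.S55.Level

open IntermediateField NumberField IsDedekindDomain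
open Fermat.Agent.S55.Level Fermat.Agent.S55.LevelGlobal
open Fermat.Agent.S55.GL.KummerUnram Fermat.Agent.S55.GL.QS Fermat.Agent.S55.GL.UnramBridge
open Fermat.Agent.S55.SUnit Fermat.Agent.S55.GL.ClassT
open Fermat.Agent.S55.GL.Places

namespace Fermat.Agent.S55.GL.Kummer

local notation "Qbar" => AlgebraicClosure ℚ
local notation "Γ" => (AlgebraicClosure ℚ ≃ₐ[ℚ] AlgebraicClosure ℚ)

local instance factPrime_kd (q : Nat.Primes) : Fact (q : ℕ).Prime := ⟨q.2⟩

variable {S : Finset Nat.Primes}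

section Places

variable (L : IntermediateField ℚ Qbar) [NumberField L]

theorem primesAbove_eq_primesOver (S : Finset Nat.Primes) :
    primesAbove L S = PlacesUnits.primesOver L S := by
  ext v
  rw [mem_primesAbove, PlacesUnits.mem_primesOver, IsOff]
  push Not
  rfl

/-- **`#S_L = ∑_{q ∈ S} #{places of L over q}`**. -/
theorem card_primesAbove (S : Finset Nat.Primes) :
    (primesAbove L S).card = ∑ q ∈ S, Nat.card (PlacesOver (q : ℕ) L) := by
  classical
  let f : (Σ q : S, {P : HeightOneSpectrum (𝓞 L) // (((q : Nat.Primes) : ℕ) : 𝓞 L) ∈ P.asIdeal}) →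
      {v : HeightOneSpectrum (𝓞 L) // v ∈ primesAbove L S} := fun x =>
    ⟨x.2.1, (mem_primesAbove L).2 (fun h => h x.1.1 x.1.2 x.2.2)⟩
  have hf : Function.Bijective f := by
    constructor
    · rintro ⟨⟨q, hq⟩, ⟨P, hP⟩⟩ ⟨⟨q', hq'⟩, ⟨P', hP'⟩⟩ h
      have hPP' : P = P' := congrArg Subtype.val h
      subst hPP'
      have hqq' : q = q' := Subtype.ext (PlacesUnits.eq_of_natCast_mem P q.2 q'.2 hP hP')
      subst hqq'
      rfl
    · rintro ⟨v, hv⟩
      have h1 := (mem_primesAbove L).1 hv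
      rw [IsOff] at h1
      push Not at h1
      obtain ⟨q, hqS, hq⟩ := h1
      exact ⟨⟨⟨q, hqS⟩, ⟨v, hq⟩⟩, rfl⟩
  have h1 : (primesAbove L S).card =
      Nat.card {v : HeightOneSpectrum (𝓞 L) // v ∈ primesAbove L S} := by
    rw [Nat.card_eq_fintype_card, Fintype.card_coe]
  haveI hfin : ∀ q : S, Finite {P : HeightOneSpectrum (𝓞 L) //
      (((q : Nat.Primes) : ℕ) : 𝓞 L) ∈ P.asIdeal} := fun q =>
    Set.finite_coe_iff.mpr (PlacesUnits.finite_primes_over L (q : Nat.Primes))
  rw [h1, ← Nat.card_congr (Equiv.ofBijective f hf), Nat.card_sigma, ← Finset.sum_coe_sort S]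
  refine Finset.sum_congr rfl fun q _ => ?_
  exact (Nat.card_congr (placesEquivPrimes ((q : Nat.Primes) : ℕ) L)).symm

theorem card_primesAbove' [FiniteDimensional ℚ L] (S : Finset Nat.Primes) :
    (primesAbove L S).card = ∑ q ∈ S, Fintype.card (PlacesOver (q : ℕ) L) := by
  rw [card_primesAbove]
  exact Finset.sum_congr rfl fun q _ => Nat.card_eq_fintype_card

end Places

end Fermat.Agent.S55.GL.Kummer

namespace Fermat.Agent.S55.GL.Kummer

local notation "Qbar" => AlgebraicClosure ℚ
local notation "Γ" => (AlgebraicClosure ℚ ≃ₐ[ℚ] AlgebraicClosure ℚ)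

local instance factPrime_kd' (q : Nat.Primes) : Fact (q : ℕ).Prime := ⟨q.2⟩

variable {S : Finset Nat.Primes}

section Torsion

/-- the `p`-torsion of a finite abelian group has `p`-power order. -/
theorem exists_card_eq_pow_of_zmodModule (V : Type*) [AddCommGroup V] [Finite V] (p : ℕ)
    [hpF : Fact p.Prime] [Module (ZMod p) V] : ∃ n : ℕ, Nat.card V = p ^ n := by
  haveI : Module.Finite (ZMod p) V := Module.Finite.of_finite
  refine ⟨Module.finrank (ZMod p) V, ?_⟩
  have h1 := Module.natCard_eq_pow_finrank (K := ZMod p) (V := V)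
  rwa [Nat.card_zmod] at h1

theorem exists_card_torsion_eq_pow (A : Type*) [AddCommGroup A] [Finite A] (p : ℕ)
    [hpF : Fact p.Prime] : ∃ n : ℕ, Nat.card {a : A // p • a = 0} = p ^ n := by
  letI : Module (ZMod p) (nsmulAddMonoidHom p : A →+ A).ker :=
    AddCommGroup.zmodModule (fun x => by
      apply Subtype.ext
      have := x.2
      rw [AddMonoidHom.mem_ker] at this
      exact this)
  obtain ⟨n, hn⟩ := exists_card_eq_pow_of_zmodModule (nsmulAddMonoidHom p : A →+ A).ker p
  refine ⟨n, ?_⟩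
  rw [← hn]
  exact Nat.card_congr (Equiv.subtypeEquivRight fun a =>
    (AddMonoidHom.mem_ker (f := (nsmulAddMonoidHom p : A →+ A)) (x := a)).symm)

end Torsion

section Count

variable (L : IntermediateField ℚ Qbar) [NumberField L]

/-- **`c_L = dim_{𝔽_p} Cl_S(L)[p] = dim_{𝔽_p} Cl_S(L)/p`**, with
`Cl_S(L) = ClassT.ClT L (primesAbove L S)`. -/
noncomputable def cS (S : Finset Nat.Primes) (p : ℕ) : ℕ :=
  Nat.log p (Nat.card {c : ClT L (primesAbove L S) // p • c = 0})

variable {p : ℕ} [hpF : Fact p.Prime]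

theorem card_torsion_ClT (S : Finset Nat.Primes) :
    Nat.card {c : ClT L (primesAbove L S) // p • c = 0} = p ^ cS L S p := by
  obtain ⟨n, hn⟩ := exists_card_torsion_eq_pow (ClT L (primesAbove L S)) p
  rw [cS, hn, Nat.log_pow hpF.out.one_lt]

theorem card_quotient_ClT (S : Finset Nat.Primes) :
    Nat.card (ClT L (primesAbove L S) ⧸
      (nsmulAddMonoidHom p : ClT L (primesAbove L S) →+ ClT L (primesAbove L S)).range) =
      p ^ cS L S p := by
  rw [← card_torsion_eq_card_quotient, card_torsion_ClT]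

/-- `Level.levelChars (globalLevel S) G_L (ℤ/p) ≃ levelChars L S μ_p` (choice of `ζ_p`). -/
noncomputable def levelCharsEquiv :
    ↥(Level.levelChars (globalLevel S) L.fixingSubgroup (ZMod p)) ≃
      ↥(levelChars L S (rootsOfUnity p Qbar)) where
  toFun χ := ⟨(muEquivZMod p).symm.toMonoidHom.comp χ.1, by
    obtain ⟨V, hV, h⟩ := χ.2
    refine ⟨V, hV, fun σ hσ => ?_⟩
    rw [MonoidHom.comp_apply, h σ hσ, map_one]⟩
  invFun ψ := ⟨(muEquivZMod p).toMonoidHom.comp ψ.1, by
    obtain ⟨V, hV, h⟩ := ψ.2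
    refine ⟨V, hV, fun σ hσ => ?_⟩
    rw [MonoidHom.comp_apply, h σ hσ, map_one]⟩
  left_inv χ := by
    apply Subtype.ext
    apply MonoidHom.ext
    intro σ
    simp
  right_inv ψ := by
    apply Subtype.ext
    apply MonoidHom.ext
    intro σ
    simp

variable (hpS : (⟨p, hpF.out⟩ : Nat.Primes) ∈ S) (hL : L.IsUnramifiedOutside S)
  (hnorm : Normal ℚ L) (hμp : ∀ ω : Qbar, ω ^ p = 1 → ω ∈ L)

include hpS hL hnorm hμp

/-- **ARITH-L (a), cardinality form**:
`#H¹(G_S, Coind_{G_L}^{G_ℚ} 𝔽_p) = p ^ (rank 𝓞_L^× + #S_L + 1 + c_L)`. -/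
theorem card_H1_coindRes
    [IsDiscrete (globalLevel S)
      (Devissage.coindRes L.fixingSubgroup (Rep.trivial (ZMod p) Γ (ZMod p)))] :
    Nat.card (levelCohomology (globalLevel S)
      (Devissage.coindRes L.fixingSubgroup (Rep.trivial (ZMod p) Γ (ZMod p))) 1) =
      p ^ (Units.rank L + (primesAbove L S).card + 1 + cS L S p) := by
  obtain ⟨ζ, hζ⟩ := exists_primitiveRoot_Qbar (p := p)
  have hζL : ζ ∈ L := hμp ζ hζ.pow_eq_one
  have hζ' : IsPrimitiveRoot (⟨ζ, hζL⟩ : L) p :=
    IsPrimitiveRoot.of_map_of_injective (f := algebraMap L Qbar) (by simpa using hζ)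
      (algebraMap L Qbar).injective
  have hU := fixingSubgroup_mem_globalLevel hL hnorm
  rw [Nat.card_congr (H1CoindTrivEquivChars (globalLevel S) L.fixingSubgroup hU),
    Nat.card_congr (levelCharsEquiv L), card_levelChars L hpF.out hpS hL hμp hζ',
    card_torsion_ClT, ← pow_add]

/-- **ARITH-L (a), rank form** (any `p`):
`dim_{𝔽_p} H¹(G_S, I_L) = (rank 𝓞_L^× + #S_L + 1) + c_L`. -/
theorem finrank_H1_coindRes_rank
    [IsDiscrete (globalLevel S)
      (Devissage.coindRes L.fixingSubgroup (Rep.trivial (ZMod p) Γ (ZMod p)))] :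
    Module.finrank (ZMod p) (levelCohomology (globalLevel S)
      (Devissage.coindRes L.fixingSubgroup (Rep.trivial (ZMod p) Γ (ZMod p))) 1) =
      (Units.rank L + (primesAbove L S).card + 1) + cS L S p := by
  have hcard := card_H1_coindRes L hpS hL hnorm hμp
  have hfin : Finite (levelCohomology (globalLevel S)
      (Devissage.coindRes L.fixingSubgroup (Rep.trivial (ZMod p) Γ (ZMod p))) 1) :=
    Nat.finite_of_card_ne_zero (by rw [hcard]; exact pow_ne_zero _ hpF.out.ne_zero)
  have h1 := Module.natCard_eq_pow_finrank (K := ZMod p) (V := levelCohomology (globalLevel S)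
      (Devissage.coindRes L.fixingSubgroup (Rep.trivial (ZMod p) Γ (ZMod p))) 1)
  rw [Nat.card_zmod, hcard] at h1
  exact (Nat.pow_right_injective hpF.out.two_le h1).symm

/-- finiteness of `H¹(G_S, I_L)`. -/
theorem finite_H1_coindRes
    [IsDiscrete (globalLevel S)
      (Devissage.coindRes L.fixingSubgroup (Rep.trivial (ZMod p) Γ (ZMod p)))] :
    Finite (levelCohomology (globalLevel S)
      (Devissage.coindRes L.fixingSubgroup (Rep.trivial (ZMod p) Γ (ZMod p))) 1) :=
  Nat.finite_of_card_ne_zero (by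
    rw [card_H1_coindRes L hpS hL hnorm hμp]; exact pow_ne_zero _ hpF.out.ne_zero)

omit hpS hL hnorm in
/-- for `p` odd and `μ_p ⊂ L`: `rank 𝓞_L^× + 1 = r₂(L)`. -/
theorem rank_add_one_eq_nrComplexPlaces (hp2 : 2 < p) :
    Units.rank L + 1 = InfinitePlace.nrComplexPlaces L := by
  obtain ⟨ζ, hζ⟩ := exists_primitiveRoot_Qbar (p := p)
  have hζL : ζ ∈ L := hμp ζ hζ.pow_eq_one
  have hζ' : IsPrimitiveRoot (⟨ζ, hζL⟩ : L) p :=
    IsPrimitiveRoot.of_map_of_injective (f := algebraMap L Qbar) (by simpa using hζ)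
      (algebraMap L Qbar).injective
  have : IsTotallyComplex L := Fermat.Agent.S55.SUnitPow.isTotallyComplex_of_isPrimitiveRoot hp2 hζ'
  have hr : Units.rank L = Fintype.card (InfinitePlace L) - 1 := rfl
  have hpos : 0 < Fintype.card (InfinitePlace L) := Fintype.card_pos
  have h3 := InfinitePlace.card_eq_nrRealPlaces_add_nrComplexPlaces (K := L)
  rw [IsTotallyComplex.nrRealPlaces_eq_zero, zero_add] at h3
  rw [hr, h3]
  have : 0 < InfinitePlace.nrComplexPlaces L := by rw [← h3]; exact hpos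
  omega

/-- **ARITH-L (a)**: `dim_{𝔽_p} H¹(G_S, I_L) = s_L + c_L`, `s_L = #S_L + r₂(L)`, for `p` odd. -/
theorem finrank_H1_coindRes (hp2 : 2 < p)
    [IsDiscrete (globalLevel S)
      (Devissage.coindRes L.fixingSubgroup (Rep.trivial (ZMod p) Γ (ZMod p)))] :
    Module.finrank (ZMod p) (levelCohomology (globalLevel S)
      (Devissage.coindRes L.fixingSubgroup (Rep.trivial (ZMod p) Γ (ZMod p))) 1) =
      (∑ q ∈ S, Nat.card (PlacesOver (q : ℕ) L) + InfinitePlace.nrComplexPlaces L) +
        cS L S p := by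
  rw [finrank_H1_coindRes_rank L hpS hL hnorm hμp, card_primesAbove,
    ← rank_add_one_eq_nrComplexPlaces L hμp hp2]
  omega

/-- the same with `Fintype.card` (shape of `LocalIndex.sum_local_exponents_of_isPrimitiveRoot`). -/
theorem finrank_H1_coindRes' (hp2 : 2 < p)
    [IsDiscrete (globalLevel S)
      (Devissage.coindRes L.fixingSubgroup (Rep.trivial (ZMod p) Γ (ZMod p)))] :
    Module.finrank (ZMod p) (levelCohomology (globalLevel S)
      (Devissage.coindRes L.fixingSubgroup (Rep.trivial (ZMod p) Γ (ZMod p))) 1) =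
      (∑ q ∈ S, Fintype.card (PlacesOver (q : ℕ) L) + InfinitePlace.nrComplexPlaces L) +
        cS L S p := by
  rw [finrank_H1_coindRes L hpS hL hnorm hμp hp2]
  congr 2
  exact Finset.sum_congr rfl fun q _ => Nat.card_eq_fintype_card

end Count

end Fermat.Agent.S55.GL.Kummer

namespace Fermat.Agent.S55.GL.Kummer

local notation "Qbar" => AlgebraicClosure ℚ
local notation "Γ" => (AlgebraicClosure ℚ ≃ₐ[ℚ] AlgebraicClosure ℚ)

open ExtCitation

variable {S : Finset Nat.Primes} {p : ℕ} [hpF : Fact p.Prime]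

/-- if the cyclotomic character is trivial on `G_L` then `μ_p ⊂ L`. -/
theorem forall_mem_of_cycloChar_eq_one (L : IntermediateField ℚ Qbar)
    (h : ∀ u ∈ L.fixingSubgroup, cycloChar p u = 1) : ∀ ω : Qbar, ω ^ p = 1 → ω ∈ L := by
  haveI := isGalois_Qbar'
  obtain ⟨ζ, hζ⟩ := exists_primitiveRoot_Qbar (p := p)
  have hζL : ζ ∈ L := by
    rw [← InfiniteGalois.fixedField_fixingSubgroup L, IntermediateField.mem_fixedField_iff]
    intro σ hσ
    exact (Fermat.Agent.S55.DualTwist.cycloChar_eq_one_iff p σ hζ).1 (h σ hσ)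
  intro ω hω
  have : NeZero p := ⟨hpF.out.ne_zero⟩
  obtain ⟨i, -, rfl⟩ := hζ.eq_pow_of_pow_eq_one hω
  exact pow_mem hζL i

/-- a member `U` of `globalLevel S` on which the cyclotomic character is trivial is `G_L` for a
good field `L`. -/
theorem exists_goodField_of_mem {U : Subgroup Γ} (hU : U ∈ (globalLevel S).sets)
    (hχ : ∀ u ∈ U, cycloChar p u = 1) :
    ∃ L : IntermediateField ℚ Qbar, L.fixingSubgroup = U ∧ L.IsUnramifiedOutside S ∧ Normal ℚ L ∧
      (∀ ω : Qbar, ω ^ p = 1 → ω ∈ L) := by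
  obtain ⟨L, hL, hnorm, rfl⟩ := exists_eq_fixingSubgroup hU
  exact ⟨L, rfl, hL, hnorm, forall_mem_of_cycloChar_eq_one L hχ⟩

end Fermat.Agent.S55.GL.Kummer
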