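import Mathlib
import Fermat.Agent.S55.GL.KummerDim
import Fermat.Agent.S55.GL.BaseCase
import Fermat.Agent.S55.GL.BaseObjects

/-!
# S55 / GL4 part 6: the four ARITH-L (a) fields of `Pair.Count`

For a good field `L` (`L/ℚ` Galois, unramified outside `S ∋ p`, `μ_p ⊂ L`, `p` odd),
`I_L := coindRes G_L 𝔽_p`, `χ := cycloChar p`:

* `sL L S := ∑_{q ∈ S} #(PlacesOver q L) + r₂(L)`, `cS L S p`;
* `count_fields` : `fdH1`, `hH`, `fdH1'`, `hH'` of `BaseCase.Pair.Count` for `twistPair χ I_L`.
-/

set_option autoImplicit false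
set_option linter.style.haveILetI false
set_option linter.unusedSectionVars false

open CategoryTheory groupCohomology
open IntermediateField NumberField IsDedekindDomain
open Fermat.Agent.S55.Level Fermat.Agent.S55.LevelGlobal
open Fermat.Agent.S55.GL.QS
open Fermat.Agent.S55.GL.Places
open Fermat.Agent.S55.DualTwist
open ExtCitation

namespace Fermat.Agent.S55.GL.Kummer

local notation "Qbar" => AlgebraicClosure ℚ
local notation "Γ" => (AlgebraicClosure ℚ ≃ₐ[ℚ] AlgebraicClosure ℚ)

local instance factPrime_cf (q : Nat.Primes) : Fact (q : ℕ).Prime := ⟨q.2⟩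

variable {S : Finset Nat.Primes} {p : ℕ} [hpF : Fact p.Prime]

/-- **`s_L = #S_L + r₂(L)`** in the shape of `LocalIndex.sum_local_exponents_of_isPrimitiveRoot`. -/
noncomputable def sL (L : IntermediateField ℚ Qbar) [NumberField L] (S : Finset Nat.Primes) : ℕ :=
  ∑ q ∈ S, Fintype.card (PlacesOver (q : ℕ) L) + InfinitePlace.nrComplexPlaces L

theorem sL_eq_card_primesAbove_add (L : IntermediateField ℚ Qbar) [NumberField L]
    (S : Finset Nat.Primes) :
    sL L S = (primesAbove L S).card + InfinitePlace.nrComplexPlaces L := by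
  rw [sL, card_primesAbove']

/-- if `μ_p ⊂ L` the cyclotomic character is trivial on `G_L`. -/
theorem cycloChar_eq_one_of_mem_fixingSubgroup (L : IntermediateField ℚ Qbar)
    (hμp : ∀ ω : Qbar, ω ^ p = 1 → ω ∈ L) : ∀ u ∈ L.fixingSubgroup, cycloChar p u = 1 := by
  intro u hu
  obtain ⟨ζ, hζ⟩ := exists_primitiveRoot_Qbar (p := p)
  rw [cycloChar_eq_one_iff p u hζ]
  exact (IntermediateField.mem_fixingSubgroup_iff L u).1 hu ζ (hμp ζ hζ.pow_eq_one)

section Fields

variable (L : IntermediateField ℚ Qbar) [NumberField L]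
  (hpS : (⟨p, hpF.out⟩ : Nat.Primes) ∈ S) (hL : L.IsUnramifiedOutside S)
  (hnorm : Normal ℚ L) (hμp : ∀ ω : Qbar, ω ^ p = 1 → ω ∈ L) (hp2 : 2 < p)

include hpS hL hnorm hμp hp2

/-- `hH` -/
theorem finrank_H1_eq_sL_add_cS
    [IsDiscrete (globalLevel S)
      (Devissage.coindRes L.fixingSubgroup (Rep.trivial (ZMod p) Γ (ZMod p)))] :
    Module.finrank (ZMod p) (levelCohomology (globalLevel S)
      (Devissage.coindRes L.fixingSubgroup (Rep.trivial (ZMod p) Γ (ZMod p))) 1) =
      sL L S + cS L S p :=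
  finrank_H1_coindRes' L hpS hL hnorm hμp hp2

/-- `fdH1` -/
theorem finiteDimensional_H1
    [IsDiscrete (globalLevel S)
      (Devissage.coindRes L.fixingSubgroup (Rep.trivial (ZMod p) Γ (ZMod p)))] :
    FiniteDimensional (ZMod p) (levelCohomology (globalLevel S)
      (Devissage.coindRes L.fixingSubgroup (Rep.trivial (ZMod p) Γ (ZMod p))) 1) := by
  haveI := finite_H1_coindRes L hpS hL hnorm hμp
  exact Module.Finite.of_finite

/-- the `ζ`-isomorphism on `H¹`. -/
noncomputable def H1DualTwistEquiv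
    [IsDiscrete (globalLevel S)
      (Devissage.coindRes L.fixingSubgroup (Rep.trivial (ZMod p) Γ (ZMod p)))]
    [IsDiscrete (globalLevel S)
      ((Devissage.coindRes L.fixingSubgroup (Rep.trivial (ZMod p) Γ (ZMod p))).dualTwist
        (cycloChar p))] (n : ℕ) :
    levelCohomology (globalLevel S)
      ((Devissage.coindRes L.fixingSubgroup (Rep.trivial (ZMod p) Γ (ZMod p))).dualTwist
        (cycloChar p)) n ≃ₗ[ZMod p]
    levelCohomology (globalLevel S)
      (Devissage.coindRes L.fixingSubgroup (Rep.trivial (ZMod p) Γ (ZMod p))) n :=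
  haveI : L.fixingSubgroup.FiniteIndex :=
    (globalLevel S).finiteIndex _ (fixingSubgroup_mem_globalLevel hL hnorm)
  BaseCase.HmapEquiv (BaseObjects.trivDualTwistIso (cycloChar p) L.fixingSubgroup
    (cycloChar_eq_one_of_mem_fixingSubgroup L hμp)) n

/-- `hH'` -/
theorem finrank_H1_dualTwist_eq_sL_add_cS
    [IsDiscrete (globalLevel S)
      (Devissage.coindRes L.fixingSubgroup (Rep.trivial (ZMod p) Γ (ZMod p)))]
    [IsDiscrete (globalLevel S)
      ((Devissage.coindRes L.fixingSubgroup (Rep.trivial (ZMod p) Γ (ZMod p))).dualTwist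
        (cycloChar p))] :
    Module.finrank (ZMod p) (levelCohomology (globalLevel S)
      ((Devissage.coindRes L.fixingSubgroup (Rep.trivial (ZMod p) Γ (ZMod p))).dualTwist
        (cycloChar p)) 1) = sL L S + cS L S p := by
  rw [(H1DualTwistEquiv L hL hnorm hμp 1).finrank_eq]
  exact finrank_H1_eq_sL_add_cS L hpS hL hnorm hμp hp2

/-- `fdH1'` -/
theorem finiteDimensional_H1_dualTwist
    [IsDiscrete (globalLevel S)
      (Devissage.coindRes L.fixingSubgroup (Rep.trivial (ZMod p) Γ (ZMod p)))]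
    [IsDiscrete (globalLevel S)
      ((Devissage.coindRes L.fixingSubgroup (Rep.trivial (ZMod p) Γ (ZMod p))).dualTwist
        (cycloChar p))] :
    FiniteDimensional (ZMod p) (levelCohomology (globalLevel S)
      ((Devissage.coindRes L.fixingSubgroup (Rep.trivial (ZMod p) Γ (ZMod p))).dualTwist
        (cycloChar p)) 1) := by
  haveI := finiteDimensional_H1 L hpS hL hnorm hμp hp2
  exact (H1DualTwistEquiv L hL hnorm hμp 1).symm.finiteDimensional

/-- **the four ARITH-L (a) fields** `fdH1`, `hH`, `fdH1'`, `hH'` of `BaseCase.Pair.Count`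
with `s := sL L S`, `c := cS L S p`. -/
theorem count_fields
    [IsDiscrete (globalLevel S)
      (Devissage.coindRes L.fixingSubgroup (Rep.trivial (ZMod p) Γ (ZMod p)))]
    [IsDiscrete (globalLevel S)
      ((Devissage.coindRes L.fixingSubgroup (Rep.trivial (ZMod p) Γ (ZMod p))).dualTwist
        (cycloChar p))] :
    FiniteDimensional (ZMod p) (levelCohomology (globalLevel S)
      (Devissage.coindRes L.fixingSubgroup (Rep.trivial (ZMod p) Γ (ZMod p))) 1) ∧
    FiniteDimensional (ZMod p) (levelCohomology (globalLevel S)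
      ((Devissage.coindRes L.fixingSubgroup (Rep.trivial (ZMod p) Γ (ZMod p))).dualTwist
        (cycloChar p)) 1) ∧
    Module.finrank (ZMod p) (levelCohomology (globalLevel S)
      (Devissage.coindRes L.fixingSubgroup (Rep.trivial (ZMod p) Γ (ZMod p))) 1) =
      sL L S + cS L S p ∧
    Module.finrank (ZMod p) (levelCohomology (globalLevel S)
      ((Devissage.coindRes L.fixingSubgroup (Rep.trivial (ZMod p) Γ (ZMod p))).dualTwist
        (cycloChar p)) 1) = sL L S + cS L S p :=
  ⟨finiteDimensional_H1 L hpS hL hnorm hμp hp2,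
    finiteDimensional_H1_dualTwist L hpS hL hnorm hμp hp2,
    finrank_H1_eq_sL_add_cS L hpS hL hnorm hμp hp2,
    finrank_H1_dualTwist_eq_sL_add_cS L hpS hL hnorm hμp hp2⟩

end Fields

end Fermat.Agent.S55.GL.Kummer
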