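/-
S55 / GLO14, ARITH-L (d) ASSEMBLY (board #722/#731): the count of the local terms
`dim_{𝔽_p} ∏_{q ∈ S} H¹(ℚ_q, I_L') = 2 s_L`, `s_L = #S_L + r₂(L)`, in the frozen types of
`Assembly.localData S`, in the shape of `BaseCase.Pair.Count.fdP1'` / `hP'`.

Chain: `ζ`-iso `I_L' ≅ I_L` (helper28 `BaseObjects.trivDualTwistIso`) → Mackey decomposition
`H¹(G_q, res coind_{G_L} 𝔽_p) ≃ ∏_{w | q} H¹(G_{q,w}, 𝔽_p)` (`Level.mackeyEquiv`, representatives
`placeRep q L w = (PlacesOver.rep q w)⁻¹` from helper2's `Places`) → `G_{q,w} = Gal(ℚ̄_q/L_w)` with the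
Krull level structure (helper27 `localLevel_eq_krullLevel`, `restrictIso`) → the local Kummer count
`dim H¹(Gal(ℚ̄_q/L_w), 𝔽_p) = 2 + [q = p]·[L_w : ℚ_q]` (helper24 `finrank_levelH1_local`) → the sum
formula (helper24 `LocalIndex.sum_local_exponents_of_isPrimitiveRoot`).

* abstract: `finrank_mackey`, `locEquivOfIso`, `finrank_loc`;
* one prime `q`: `placeRep`, `placeRep_cov`, `placeRep_disj`, `mackeySub_placeRep`,
  `finrank_H1_restrict`, `isOpenSub_fixingSubgroup`, `finrank_H1_prime_aux`;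
* global: `finrank_H1_localData`, ★ `finrank_P1_of_iso` (any `Y ≅ I_L`), ★★ `twistPair_count_P1`
  (`P.Y` for `P = twistPair χ I_L`), `twistPair_count_P1_X` (`P.X`).
-/
import Fermat.Agent.S55.GL.BaseCase
import Fermat.Agent.S55.GL.BaseObjects
import Fermat.Agent.S55.LevelMackey
import Fermat.Agent.S55.GL.Places
import Fermat.Agent.S55.GL.PlacesDeg
import Fermat.Agent.S55.GL.LocalIndex
import Fermat.Agent.S55.Local.KrullLocal
import Fermat.Agent.S55.GaloisLevelBC
import Fermat.Agent.S55.Local.KummerCount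
import Fermat.Agent.S55.Assembly
import Fermat.Agent.S55.GL.BaseFamily

set_option autoImplicit false
set_option linter.unusedSectionVars false

namespace Fermat.Agent.S55.GL.LocalCount

open CategoryTheory Module Fermat.Agent.S55.Level Fermat.Agent.S55.Cone Fermat.Agent.S55.CF
  Fermat.Agent.S55.GL.BaseCase Fermat.Agent.S55.GL.Places Fermat.Agent.S55.GaloisLevel
  Fermat.Agent.S55.Local.Hilbert Fermat.Agent.S55.Local.KummerCount

universe u

section Abstract

variable {k G : Type u} [Field k] [Group G] {𝒰 : LevelStructure G}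

/-- **Mackey count at one place**: if the local cohomology groups `Hⁿ(Gv_σ, B_σ)` at the
representatives `σ i` of the double cosets `U₀ \ G / r(Gv)` are finite dimensional of dimension
`d i`, then `Hⁿ(Gv, res_r coind_{U₀}^G B)` is finite dimensional of dimension `∑ i, d i`. -/
theorem finrank_mackey {Gv : Type u} [Group Gv] {𝒱 : LevelStructure Gv} (r : Gv →* G)
    (U₀ : Subgroup G) {ι : Type*} [Fintype ι] (σ : ι → G)
    (hcov : ∀ x : G, ∃ i, ∃ u ∈ U₀, ∃ h : Gv, x = u * σ i * r h)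
    (hdisj : ∀ i j, ∀ u ∈ U₀, ∀ h : Gv, σ j = u * σ i * r h → i = j)
    (B : Rep.{u} k U₀)
    [IsDiscrete 𝒱 (Rep.res r (Rep.coind U₀.subtype B))]
    [∀ i, IsOpenSub 𝒱 (mackeySub r U₀ (σ i))]
    [∀ i, IsDiscrete (𝒱.restrict (mackeySub r U₀ (σ i))) (Rep.res (mackeyHom r U₀ (σ i)) B)]
    (n : ℕ) (d : ι → ℕ)
    (hfd : ∀ i, FiniteDimensional k (levelCohomology (𝒱.restrict (mackeySub r U₀ (σ i)))
      (Rep.res (mackeyHom r U₀ (σ i)) B) n))
    (hd : ∀ i, finrank k (levelCohomology (𝒱.restrict (mackeySub r U₀ (σ i)))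
      (Rep.res (mackeyHom r U₀ (σ i)) B) n) = d i) :
    FiniteDimensional k (levelCohomology 𝒱 (Rep.res r (Rep.coind U₀.subtype B)) n) ∧
      finrank k (levelCohomology 𝒱 (Rep.res r (Rep.coind U₀.subtype B)) n) = ∑ i, d i := by
  have e := mackeyEquiv (𝒱 := 𝒱) r U₀ σ hcov hdisj B n
  have hfin : FiniteDimensional k (∀ i, levelCohomology (𝒱.restrict (mackeySub r U₀ (σ i)))
      (Rep.res (mackeyHom r U₀ (σ i)) B) n) := inferInstance
  refine ⟨Module.Finite.equiv e.symm, ?_⟩
  rw [e.finrank_eq, Module.finrank_pi_fintype]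
  exact Finset.sum_congr rfl fun i _ => hd i

variable (D : LocalData 𝒰)

/-- Isomorphic coefficients have isomorphic local cohomology at every place. -/
noncomputable def locEquivOfIso {A B : Rep.{u} k G} [IsDiscrete 𝒰 A] [IsDiscrete 𝒰 B] (e : A ≅ B)
    (n : ℕ) :
    (∀ v, levelCohomology (D.𝒱 v) (Rep.res (D.r v) A) n) ≃ₗ[k]
      (∀ v, levelCohomology (D.𝒱 v) (Rep.res (D.r v) B) n) :=
  LinearEquiv.piCongrRight fun v =>
    HmapEquiv (𝒰 := D.𝒱 v) ((Rep.resFunctor (D.r v)).mapIso e) n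

/-- **The count of the local terms**: if at every place `v` the local cohomology of the coefficient
module `A` is finite dimensional of dimension `d v`, then the product over the (finitely many)
places has dimension `∑ v, d v`. -/
theorem finrank_loc [Fintype D.ι] (A : Rep.{u} k G) [IsDiscrete 𝒰 A] (n : ℕ) (d : D.ι → ℕ)
    (hfd : ∀ v, FiniteDimensional k (levelCohomology (D.𝒱 v) (Rep.res (D.r v) A) n))
    (hd : ∀ v, finrank k (levelCohomology (D.𝒱 v) (Rep.res (D.r v) A) n) = d v) :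
    FiniteDimensional k (∀ v, levelCohomology (D.𝒱 v) (Rep.res (D.r v) A) n) ∧
      finrank k (∀ v, levelCohomology (D.𝒱 v) (Rep.res (D.r v) A) n) = ∑ v, d v := by
  refine ⟨inferInstance, ?_⟩
  rw [Module.finrank_pi_fintype]
  exact Finset.sum_congr rfl fun v _ => hd v

end Abstract

section Prime

variable (q : ℕ) [Fact q.Prime]

local notation "Qbar" => AlgebraicClosure ℚ
local notation "Γ" => (AlgebraicClosure ℚ ≃ₐ[ℚ] AlgebraicClosure ℚ)

/-- The representative of the double coset `G_L \ Γ / r(G_q)` attached to the place `w` of `L`. -/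
noncomputable def placeRep (L : IntermediateField ℚ Qbar) (w : PlacesOver q L) : Γ :=
  (PlacesOver.rep q w)⁻¹

theorem placeRep_cov (L : IntermediateField ℚ Qbar) [FiniteDimensional ℚ L] (x : Γ) :
    ∃ w : PlacesOver q L, ∃ u ∈ L.fixingSubgroup, ∃ h : PadicAlgCl q ≃ₐ[ℚ_[q]] PadicAlgCl q,
      x = u * placeRep q L w * localGaloisToGlobal q h := by
  obtain ⟨τ, g, hg, h⟩ := (samePlace_rep_placeOf q (K := L) x⁻¹).exists_eq_mul q
  refine ⟨placeOf q L x⁻¹, g⁻¹, inv_mem hg, τ⁻¹, ?_⟩
  generalize placeOf q L x⁻¹ = w at h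
  rw [placeRep, map_inv, ← inv_inv x, h]
  group

theorem placeRep_disj (L : IntermediateField ℚ Qbar) (w w' : PlacesOver q L)
    (u : Γ) (hu : u ∈ L.fixingSubgroup) (h : PadicAlgCl q ≃ₐ[ℚ_[q]] PadicAlgCl q)
    (hww' : placeRep q L w' = u * placeRep q L w * localGaloisToGlobal q h) : w = w' := by
  have h1 : PlacesOver.rep q w' = localGaloisToGlobal q h⁻¹ * PlacesOver.rep q w * u⁻¹ := by
    rw [placeRep, placeRep] at hww'
    rw [← inv_inv (PlacesOver.rep q w'), hww', map_inv]
    group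
  have h2 := samePlace_of_eq_mul q h⁻¹ (inv_mem hu) h1
  rw [← placeOf_rep q w, ← placeOf_rep q w', placeOf_eq_iff]
  exact h2

theorem mackeySub_placeRep (L : IntermediateField ℚ Qbar) (w : PlacesOver q L) :
    mackeySub (localGaloisToGlobal q) L.fixingSubgroup (placeRep q L w) =
      (PlacesOver.localField q w).fixingSubgroup := by
  rw [PlacesOver.localField, ← comap_conjLocal_fixingSubgroup]
  ext h
  rw [mem_mackeySub_iff, Subgroup.mem_comap, conjLocal_apply, placeRep, inv_inv]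

variable {p : ℕ} [Fact p.Prime]

/-- **One local place**: for `H = Gal(ℚ̄_q/E)`, `E/ℚ_q` finite containing `ζ_p`, the first level
cohomology of `H` (level structure induced from `Gal(ℚ̄_q/ℚ_q)`) with coefficients `𝔽_p` has
dimension `2 + [q = p]·[E : ℚ_q]`. -/
theorem finrank_H1_restrict (E : IntermediateField ℚ_[q] (PadicAlgCl q))
    [FiniteDimensional ℚ_[q] E] {H : Subgroup (PadicAlgCl q ≃ₐ[ℚ_[q]] PadicAlgCl q)}
    (hHE : H = E.fixingSubgroup) {ζ : E} (hζ : IsPrimitiveRoot ζ p) :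
    FiniteDimensional (ZMod p)
        (levelCohomology ((krullLevel ℚ_[q] (PadicAlgCl q)).restrict H)
          (Rep.trivial (ZMod p) H (ZMod p)) 1) ∧
      finrank (ZMod p) (levelCohomology ((krullLevel ℚ_[q] (PadicAlgCl q)).restrict H)
          (Rep.trivial (ZMod p) H (ZMod p)) 1) =
        2 + if q = p then finrank ℚ_[q] E else 0 := by
  have hroots := hroots_of_isAlgClosed (PadicAlgCl q) p (Fact.out : p.Prime).pos
  have : IsDiscrete ((krullLevel ℚ_[q] (PadicAlgCl q)).restrict H) (Rep.res H.subtype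
      (Rep.trivial (ZMod p) (PadicAlgCl q ≃ₐ[ℚ_[q]] PadicAlgCl q) (ZMod p))) :=
    isDiscrete_trivRep ((krullLevel ℚ_[q] (PadicAlgCl q)).restrict H) p
  have : IsDiscrete (krullLevel E (PadicAlgCl q))
      (Rep.res (AlgEquiv.restrictScalarsHom ℚ_[q] :
          Gal(PadicAlgCl q/E) →* Gal(PadicAlgCl q/ℚ_[q]))
        (Rep.trivial (ZMod p) (PadicAlgCl q ≃ₐ[ℚ_[q]] PadicAlgCl q) (ZMod p))) :=
    isDiscrete_trivRep (krullLevel E (PadicAlgCl q)) p
  have e : levelCohomology ((krullLevel ℚ_[q] (PadicAlgCl q)).restrict H)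
        (Rep.trivial (ZMod p) H (ZMod p)) 1 ≃ₗ[ZMod p]
      levelCohomology (krullLevel E (PadicAlgCl q)) (trivRep Gal(PadicAlgCl q/E) p) 1 :=
    (restrictIso hHE (Rep.trivial (ZMod p) (PadicAlgCl q ≃ₐ[ℚ_[q]] PadicAlgCl q) (ZMod p))
      1).toLinearEquiv
  have hfin := finite_levelH1_local E (PadicAlgCl q) q hζ hroots
  have hfd : FiniteDimensional (ZMod p)
      (levelCohomology (krullLevel E (PadicAlgCl q)) (trivRep Gal(PadicAlgCl q/E) p) 1) :=
    Module.Finite.of_finite
  refine ⟨Module.Finite.equiv e.symm, ?_⟩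
  rw [e.finrank_eq]
  exact finrank_levelH1_local E (PadicAlgCl q) q hζ hroots

/-- Finite subextensions give open subgroups of the Krull level structure. -/
theorem isOpenSub_fixingSubgroup (E : IntermediateField ℚ_[q] (PadicAlgCl q))
    [FiniteDimensional ℚ_[q] E] :
    IsOpenSub (krullLevel ℚ_[q] (PadicAlgCl q)) E.fixingSubgroup := by
  obtain ⟨E', hE'1, hE'2, hle⟩ := exists_fixingSubgroup_le
    (K := ℚ_[q]) (Ω := PadicAlgCl q) (U := E.fixingSubgroup) ⟨E, inferInstance, le_rfl⟩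
  exact ⟨⟨_, fixingSubgroup_mem_krullLevel E', hle⟩⟩

/-- **The local count at one prime `q`** (Mackey + the local Kummer count), for a level structure
`𝒱` equal to the Krull one. -/
theorem finrank_H1_prime_aux (L : IntermediateField ℚ Qbar) [FiniteDimensional ℚ L] {ζ : L}
    (hζ : IsPrimitiveRoot ζ p)
    (𝒱 : LevelStructure (PadicAlgCl q ≃ₐ[ℚ_[q]] PadicAlgCl q))
    (h𝒱 : 𝒱 = krullLevel ℚ_[q] (PadicAlgCl q))
    [IsDiscrete 𝒱 (Rep.res (localGaloisToGlobal q)
      (Devissage.coindRes L.fixingSubgroup (Rep.trivial (ZMod p) Γ (ZMod p))))] :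
    FiniteDimensional (ZMod p) (levelCohomology 𝒱 (Rep.res (localGaloisToGlobal q)
        (Devissage.coindRes L.fixingSubgroup (Rep.trivial (ZMod p) Γ (ZMod p)))) 1) ∧
      finrank (ZMod p) (levelCohomology 𝒱 (Rep.res (localGaloisToGlobal q)
        (Devissage.coindRes L.fixingSubgroup (Rep.trivial (ZMod p) Γ (ZMod p)))) 1) =
        ∑ w : PlacesOver q L,
          (2 + if q = p then finrank ℚ_[q] (PlacesOver.localField q w) else 0) := by
  subst h𝒱
  have hopen : ∀ w : PlacesOver q L, IsOpenSub (krullLevel ℚ_[q] (PadicAlgCl q))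
      (mackeySub (localGaloisToGlobal q) L.fixingSubgroup (placeRep q L w)) := fun w => by
    rw [mackeySub_placeRep]
    exact isOpenSub_fixingSubgroup q _
  have hdisc : ∀ w : PlacesOver q L, IsDiscrete ((krullLevel ℚ_[q] (PadicAlgCl q)).restrict
      (mackeySub (localGaloisToGlobal q) L.fixingSubgroup (placeRep q L w)))
      (Rep.res (mackeyHom (localGaloisToGlobal q) L.fixingSubgroup (placeRep q L w))
        (Rep.res L.fixingSubgroup.subtype (Rep.trivial (ZMod p) Γ (ZMod p)))) := fun w =>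
    isDiscrete_trivRep _ p
  exact finrank_mackey (localGaloisToGlobal q) L.fixingSubgroup (placeRep q L)
    (placeRep_cov q L) (placeRep_disj q L)
    (Rep.res L.fixingSubgroup.subtype (Rep.trivial (ZMod p) Γ (ZMod p))) 1 _
    (fun w => (finrank_H1_restrict q (PlacesOver.localField q w) (mackeySub_placeRep q L w)
      (LocalIndex.isPrimitiveRoot_embAt q L w hζ)).1)
    (fun w => (finrank_H1_restrict q (PlacesOver.localField q w) (mackeySub_placeRep q L w)
      (LocalIndex.isPrimitiveRoot_embAt q L w hζ)).2)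

end Prime

section Global

open ExtCitation NumberField Fermat.Agent.S55.Assembly

local notation "Qbar" => AlgebraicClosure ℚ
local notation "Γ" => (AlgebraicClosure ℚ ≃ₐ[ℚ] AlgebraicClosure ℚ)

local instance factPrime_lc (q : Nat.Primes) : Fact (q : ℕ).Prime := ⟨q.2⟩

variable (S : Finset Nat.Primes) {p : ℕ} [hpF : Fact p.Prime]

/-- **The local count at a prime `q ∈ S`**, in the frozen types of `Assembly.localData`, for any
coefficient module isomorphic to `I_L = coind_{G_L} 𝔽_p`. -/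
theorem finrank_H1_localData (L : IntermediateField ℚ Qbar) [FiniteDimensional ℚ L] {ζ : L}
    (hζ : IsPrimitiveRoot ζ p)
    [IsDiscrete (globalLevel S)
      (Devissage.coindRes L.fixingSubgroup (Rep.trivial (ZMod p) Γ (ZMod p)))]
    (Y : Rep (ZMod p) Γ) [IsDiscrete (globalLevel S) Y]
    (e : Y ≅ Devissage.coindRes L.fixingSubgroup (Rep.trivial (ZMod p) Γ (ZMod p)))
    (v : (localData S).ι) :
    FiniteDimensional (ZMod p)
        (levelCohomology ((localData S).𝒱 v) (Rep.res ((localData S).r v) Y) 1) ∧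
      finrank (ZMod p) (levelCohomology ((localData S).𝒱 v) (Rep.res ((localData S).r v) Y) 1) =
        ∑ w : PlacesOver (v.1 : ℕ) L,
          (2 + if (v.1 : ℕ) = p then
            finrank ℚ_[(v.1 : ℕ)] (PlacesOver.localField (v.1 : ℕ) w) else 0) := by
  have hI : IsDiscrete (localLevel (localGaloisToGlobal (v.1 : ℕ)))
      (Rep.res (localGaloisToGlobal (v.1 : ℕ))
        (Devissage.coindRes L.fixingSubgroup (Rep.trivial (ZMod p) Γ (ZMod p)))) :=
    LocalData.isDiscrete_res (localData S) _ v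
  have hI' : IsDiscrete ((localData S).𝒱 v) (Rep.res ((localData S).r v)
      (Devissage.coindRes L.fixingSubgroup (Rep.trivial (ZMod p) Γ (ZMod p)))) := hI
  have e' : levelCohomology ((localData S).𝒱 v) (Rep.res ((localData S).r v) Y) 1 ≃ₗ[ZMod p]
      levelCohomology ((localData S).𝒱 v) (Rep.res ((localData S).r v)
        (Devissage.coindRes L.fixingSubgroup (Rep.trivial (ZMod p) Γ (ZMod p)))) 1 :=
    HmapEquiv (𝒰 := (localData S).𝒱 v) ((Rep.resFunctor ((localData S).r v)).mapIso e) 1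
  have h : FiniteDimensional (ZMod p) (levelCohomology ((localData S).𝒱 v)
        (Rep.res ((localData S).r v)
          (Devissage.coindRes L.fixingSubgroup (Rep.trivial (ZMod p) Γ (ZMod p)))) 1) ∧
      finrank (ZMod p) (levelCohomology ((localData S).𝒱 v) (Rep.res ((localData S).r v)
        (Devissage.coindRes L.fixingSubgroup (Rep.trivial (ZMod p) Γ (ZMod p)))) 1) =
        ∑ w : PlacesOver (v.1 : ℕ) L,
          (2 + if (v.1 : ℕ) = p then
            finrank ℚ_[(v.1 : ℕ)] (PlacesOver.localField (v.1 : ℕ) w) else 0) :=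
    finrank_H1_prime_aux (v.1 : ℕ) L hζ (localLevel (localGaloisToGlobal (v.1 : ℕ)))
      (Local.KrullLocal.localLevel_eq_krullLevel (v.1 : ℕ))
  have := h.1
  exact ⟨Module.Finite.equiv e'.symm, (LinearEquiv.finrank_eq e').trans h.2⟩

/-- **ARITH-L (d)**: `dim_{𝔽_p} ∏_{q ∈ S} H¹(ℚ_q, Y) = 2 (#S_L + r₂(L))` for any coefficient module
`Y ≅ I_L = coind_{G_L} 𝔽_p` (`ζ_p ∈ L`, `p ∈ S` odd), in the frozen types of
`Assembly.localData`. -/
theorem finrank_P1_of_iso (L : IntermediateField ℚ Qbar) [NumberField L] (hp2 : 2 < p)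
    (hpS : (⟨p, hpF.out⟩ : Nat.Primes) ∈ S) {ζ : L} (hζ : IsPrimitiveRoot ζ p)
    [IsDiscrete (globalLevel S)
      (Devissage.coindRes L.fixingSubgroup (Rep.trivial (ZMod p) Γ (ZMod p)))]
    (Y : Rep (ZMod p) Γ) [IsDiscrete (globalLevel S) Y]
    (e : Y ≅ Devissage.coindRes L.fixingSubgroup (Rep.trivial (ZMod p) Γ (ZMod p))) :
    FiniteDimensional (ZMod p) (∀ v : (localData S).ι,
        levelCohomology ((localData S).𝒱 v) (Rep.res ((localData S).r v) Y) 1) ∧
      finrank (ZMod p) (∀ v : (localData S).ι,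
        levelCohomology ((localData S).𝒱 v) (Rep.res ((localData S).r v) Y) 1) =
        2 * (∑ q ∈ S, Fintype.card (PlacesOver (q : ℕ) L) +
          InfinitePlace.nrComplexPlaces L) := by
  let _ : Fintype (localData S).ι := Finset.Subtype.fintype S
  have h := finrank_loc (localData S) Y 1 _
    (fun v => (finrank_H1_localData S L hζ Y e v).1)
    (fun v => (finrank_H1_localData S L hζ Y e v).2)
  refine ⟨h.1, h.2.trans ?_⟩
  rw [← LocalIndex.sum_local_exponents_of_isPrimitiveRoot L S ⟨p, hpF.out⟩ hp2 hpS hζ]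
  exact Finset.sum_coe_sort S (fun q : Nat.Primes => ∑ w : PlacesOver (q : ℕ) L,
    (2 + if (q : ℕ) = p then finrank ℚ_[(q : ℕ)] (PlacesOver.localField (q : ℕ) w) else 0))

/-- A primitive `p`-th root of unity of `L` from `μ_p ⊂ L`. -/
theorem exists_isPrimitiveRoot_of_mem (L : IntermediateField ℚ Qbar)
    (hμp : ∀ ω : Qbar, ω ^ p = 1 → ω ∈ L) : ∃ ζ : L, IsPrimitiveRoot ζ p := by
  have : NeZero p := ⟨hpF.out.ne_zero⟩
  obtain ⟨ζ, hζ⟩ := HasEnoughRootsOfUnity.exists_primitiveRoot Qbar p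
  exact ⟨⟨ζ, hμp ζ hζ.pow_eq_one⟩, IsPrimitiveRoot.of_map_of_injective (f := algebraMap L Qbar)
    (by simpa using hζ) (algebraMap L Qbar).injective⟩

/-- **ARITH-L (d)** in the shape of `BaseCase.Pair.Count.fdP1'` / `hP'` for the pair
`P = twistPair χ I_L` (`χ` trivial on `G_L`): `dim_{𝔽_p} ∏_{q ∈ S} H¹(ℚ_q, I_L') = 2 s_L`,
`s_L = #S_L + r₂(L)`. -/
theorem twistPair_count_P1 (L : IntermediateField ℚ Qbar) [NumberField L] (hp2 : 2 < p)
    (hpS : (⟨p, hpF.out⟩ : Nat.Primes) ∈ S) (hμp : ∀ ω : Qbar, ω ^ p = 1 → ω ∈ L)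
    (χ : Γ →* (ZMod p)ˣ) (hχ : ∀ u ∈ L.fixingSubgroup, χ u = 1)
    [IsDiscrete (globalLevel S)
      (Devissage.coindRes L.fixingSubgroup (Rep.trivial (ZMod p) Γ (ZMod p)))]
    [IsDiscrete (globalLevel S)
      ((Devissage.coindRes L.fixingSubgroup (Rep.trivial (ZMod p) Γ (ZMod p))).dualTwist χ)] :
    FiniteDimensional (ZMod p) (∀ v : (localData S).ι,
        levelCohomology ((localData S).𝒱 v) (Rep.res ((localData S).r v)
          (BaseFamily.twistPair (𝒰 := globalLevel S) χ
            (Devissage.coindRes L.fixingSubgroup (Rep.trivial (ZMod p) Γ (ZMod p)))).Y) 1) ∧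
      finrank (ZMod p) (∀ v : (localData S).ι,
        levelCohomology ((localData S).𝒱 v) (Rep.res ((localData S).r v)
          (BaseFamily.twistPair (𝒰 := globalLevel S) χ
            (Devissage.coindRes L.fixingSubgroup (Rep.trivial (ZMod p) Γ (ZMod p)))).Y) 1) =
        2 * (∑ q ∈ S, Fintype.card (PlacesOver (q : ℕ) L) +
          InfinitePlace.nrComplexPlaces L) := by
  obtain ⟨ζ, hζ⟩ := exists_isPrimitiveRoot_of_mem L hμp
  have : L.fixingSubgroup.FiniteIndex := finiteIndex_fixingSubgroup L inferInstance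
  exact finrank_P1_of_iso S L hp2 hpS hζ _ (BaseObjects.trivDualTwistIso χ L.fixingSubgroup hχ)

/-- The same count for the first member `P.X = I_L` of the pair. -/
theorem twistPair_count_P1_X (L : IntermediateField ℚ Qbar) [NumberField L] (hp2 : 2 < p)
    (hpS : (⟨p, hpF.out⟩ : Nat.Primes) ∈ S) (hμp : ∀ ω : Qbar, ω ^ p = 1 → ω ∈ L)
    (χ : Γ →* (ZMod p)ˣ)
    [IsDiscrete (globalLevel S)
      (Devissage.coindRes L.fixingSubgroup (Rep.trivial (ZMod p) Γ (ZMod p)))]
    [IsDiscrete (globalLevel S)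
      ((Devissage.coindRes L.fixingSubgroup (Rep.trivial (ZMod p) Γ (ZMod p))).dualTwist χ)] :
    FiniteDimensional (ZMod p) (∀ v : (localData S).ι,
        levelCohomology ((localData S).𝒱 v) (Rep.res ((localData S).r v)
          (BaseFamily.twistPair (𝒰 := globalLevel S) χ
            (Devissage.coindRes L.fixingSubgroup (Rep.trivial (ZMod p) Γ (ZMod p)))).X) 1) ∧
      finrank (ZMod p) (∀ v : (localData S).ι,
        levelCohomology ((localData S).𝒱 v) (Rep.res ((localData S).r v)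
          (BaseFamily.twistPair (𝒰 := globalLevel S) χ
            (Devissage.coindRes L.fixingSubgroup (Rep.trivial (ZMod p) Γ (ZMod p)))).X) 1) =
        2 * (∑ q ∈ S, Fintype.card (PlacesOver (q : ℕ) L) +
          InfinitePlace.nrComplexPlaces L) := by
  obtain ⟨ζ, hζ⟩ := exists_isPrimitiveRoot_of_mem L hμp
  exact finrank_P1_of_iso S L hp2 hpS hζ _ (Iso.refl _)

/-- **Per-place finiteness** of `H¹(ℚ_q, I_L')` (the `hfd` of
`BaseLocalDuality.localDuality_of_localBase` / `LevelDuality.locDual_surjective_of_localBase` for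
`X = I_L`). -/
theorem hfd_dualTwist (L : IntermediateField ℚ Qbar) [FiniteDimensional ℚ L]
    (hμp : ∀ ω : Qbar, ω ^ p = 1 → ω ∈ L)
    (χ : Γ →* (ZMod p)ˣ) (hχ : ∀ u ∈ L.fixingSubgroup, χ u = 1)
    [IsDiscrete (globalLevel S)
      (Devissage.coindRes L.fixingSubgroup (Rep.trivial (ZMod p) Γ (ZMod p)))]
    [IsDiscrete (globalLevel S)
      ((Devissage.coindRes L.fixingSubgroup (Rep.trivial (ZMod p) Γ (ZMod p))).dualTwist χ)]
    (v : (localData S).ι) :
    FiniteDimensional (ZMod p) (@levelCohomology _ _ _ _ ((localData S).𝒱 v)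
      (Rep.res ((localData S).r v)
        ((Devissage.coindRes L.fixingSubgroup (Rep.trivial (ZMod p) Γ (ZMod p))).dualTwist χ))
      (LocalData.isDiscrete_res (localData S) _ v) 1) := by
  obtain ⟨ζ, hζ⟩ := exists_isPrimitiveRoot_of_mem L hμp
  have : L.fixingSubgroup.FiniteIndex := finiteIndex_fixingSubgroup L inferInstance
  exact (finrank_H1_localData S L hζ _ (BaseObjects.trivDualTwistIso χ L.fixingSubgroup hχ) v).1

/-- The same for `I_L` itself. -/
theorem hfd_coindRes (L : IntermediateField ℚ Qbar) [FiniteDimensional ℚ L]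
    (hμp : ∀ ω : Qbar, ω ^ p = 1 → ω ∈ L)
    [IsDiscrete (globalLevel S)
      (Devissage.coindRes L.fixingSubgroup (Rep.trivial (ZMod p) Γ (ZMod p)))]
    (v : (localData S).ι) :
    FiniteDimensional (ZMod p) (@levelCohomology _ _ _ _ ((localData S).𝒱 v)
      (Rep.res ((localData S).r v)
        (Devissage.coindRes L.fixingSubgroup (Rep.trivial (ZMod p) Γ (ZMod p))))
      (LocalData.isDiscrete_res (localData S) _ v) 1) := by
  obtain ⟨ζ, hζ⟩ := exists_isPrimitiveRoot_of_mem L hμp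
  exact (finrank_H1_localData S L hζ _ (Iso.refl _) v).1

end Global

end Fermat.Agent.S55.GL.LocalCount
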