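/-
S55 / GLO13–GLO15 (helper28): the CONCRETE assembly of `ArithLInst.ArithU`, `BaseCaseTriv.ArithL`
and `Main.BaseCase` for the frozen data `D = Assembly.localData S`, `χ = cycloChar p`.

For a good field `L` (`L/ℚ` Galois, unramified outside `S ∋ p`, `μ_p ⊂ L`, `p` odd) and
`U = G_L = L.fixingSubgroup`, all the fields of `ArithLInst.ArithU` except the two genuinely
arithmetic ones are on main:

* `hcov`, `hdisj`        : `LocalCount.placeRep_cov` / `placeRep_disj` (places of `L` over `q`),
* `hι0`, `hι1`, `fdP0`, `fdP2'` : `BaseLocalDuality.localDuality_of_localBase` (from `LocalBaseHyp₁`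
  at every place) + `LocalCount.hfd_dualTwist`,
* `fdP1'`, `hP'`         : `LocalCount.twistPair_count_P1`,
* `fdH1`, `hH`           : `Kummer.count_fields`.

The remaining input is the block `BrauerBlock S L` = ARITH-L (b′) + (c′) in the language of the
localisation map `locL` of `G_L` (indexed by `J v = PlacesOver v L`, `σ = placeRep`), which does
not involve the trace.  Then

* `arithU_of_blocks`   : `BrauerBlock S L → ArithU (localData S) (cycloChar p) tr p G_L`,
* `arithL_of_blocks`   : the same for all good `L` ⊢ `ArithL (localData S) (cycloChar p) tr`,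
* `baseCase_of_blocks` : ⊢ `Main.BaseCase (localData S) (cycloChar p) tr`.
-/
import Fermat.Agent.S55.GL.ArithLInst
import Fermat.Agent.S55.GL.BaseLocalDuality
import Fermat.Agent.S55.GL.KummerFields
import Fermat.Agent.S55.GL.LocalCount
import Fermat.Agent.S55.MainAdd
import Fermat.Agent.S55.MainTriv
import Fermat.Agent.S55.AssemblyMain

set_option autoImplicit false
set_option linter.unusedSectionVars false

namespace Fermat.Agent.S55.GL.ArithUInst

open CategoryTheory Module groupCohomology NumberField Fermat.Agent.S55.Level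
  Fermat.Agent.S55.LevelGlobal Fermat.Agent.S55.Cone
  Fermat.Agent.S55.CF Fermat.Agent.S55.DualTwist Fermat.Agent.S55.Devissage
  Fermat.Agent.S55.LevelDuality Fermat.Agent.S55.Assembly
  Fermat.Agent.S55.GL.BaseCase Fermat.Agent.S55.GL.BaseFamily Fermat.Agent.S55.GL.BaseCaseTriv
  Fermat.Agent.S55.ShapiroTransport Fermat.Agent.S55.GL.ArithLInst
  Fermat.Agent.S55.GL.Places Fermat.Agent.S55.GL.LocalCount Fermat.Agent.S55.GL.Kummer
  ExtCitation

local notation "Qbar" => AlgebraicClosure ℚ
local notation "Γ" => (AlgebraicClosure ℚ ≃ₐ[ℚ] AlgebraicClosure ℚ)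

/-- Primes as `Fact`s (local to this file). -/
local instance factPrime_AU (q : Nat.Primes) : Fact (q : ℕ).Prime := ⟨q.2⟩

variable (S : Finset Nat.Primes) {p : ℕ} [hpF : Fact p.Prime]

section Block

variable (L : IntermediateField ℚ Qbar) [NumberField L]
  [IsOpenSub (globalLevel S) L.fixingSubgroup]
  [IsDiscrete ((globalLevel S).restrict L.fixingSubgroup) (trivU (ZMod p) L.fixingSubgroup)]

/-- The index family of the places of `L` above the places of `localData S`. -/
abbrev PlaceIdx (v : (localData S).ι) : Type := PlacesOver ((v.1 : Nat.Primes) : ℕ) L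

/-- The representatives of the double cosets `G_L \ Γ / r_q(G_q)`: `LocalCount.placeRep`. -/
noncomputable abbrev placeσ (v : (localData S).ι) (w : PlaceIdx S L v) : Γ :=
  placeRep ((v.1 : Nat.Primes) : ℕ) L w

variable (p) in
/-- **The arithmetic block over `L`** = ARITH-L (c′) + (b′): an additive map `s` on
`∏_{w | S} H²(L_w, 𝔽_p)` with values in a group with cyclic `p`-torsion whose kernel consists of
global classes, and the bound `dim ker (H²(G_{L,S}, 𝔽_p) → ∏_{w | S} H²(L_w, 𝔽_p)) ≤ c_S(L)`. -/
def BrauerBlock : Prop :=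
  (∃ (Q : Type) (_ : AddCommGroup Q)
      (s : (∀ v, ∀ i : PlaceIdx S L v, HL (localData S) L.fixingSubgroup
        (trivU (ZMod p) L.fixingSubgroup) (placeσ S L) 2 v i) →+ Q),
      (∀ a b : Q, p • a = 0 → p • b = 0 → a ≠ 0 → ∃ m : ℕ, b = m • a) ∧
      ∀ x, s x = 0 → x ∈ LinearMap.range (locL (localData S) L.fixingSubgroup
        (trivU (ZMod p) L.fixingSubgroup) (placeσ S L) 2)) ∧
    FiniteDimensional (ZMod p) (LinearMap.ker (locL (localData S) L.fixingSubgroup
      (trivU (ZMod p) L.fixingSubgroup) (placeσ S L) 2)) ∧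
    finrank (ZMod p) (LinearMap.ker (locL (localData S) L.fixingSubgroup
      (trivU (ZMod p) L.fixingSubgroup) (placeσ S L) 2)) ≤ cS L S p

end Block

section Assembly

variable [IsDiscrete (globalLevel S) (ofChar (cycloChar p))]
  (tr : Hc (localData S) (ofChar (cycloChar p)) 3 →ₗ[ZMod p] ZMod p)

/-- **`ArithU` for `U = G_L`, `L` a good field**, from local duality at the places of `S` and the
arithmetic block over `L`. -/
theorem arithU_of_blocks (hp2 : 2 < p) (hpS : (⟨p, hpF.out⟩ : Nat.Primes) ∈ S)
    (L : IntermediateField ℚ Qbar) [NumberField L]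
    (hL : L.IsUnramifiedOutside S) (hnorm : Normal ℚ L)
    (hμp : ∀ ω : Qbar, ω ^ p = 1 → ω ∈ L)
    [IsOpenSub (globalLevel S) L.fixingSubgroup] [L.fixingSubgroup.FiniteIndex]
    [IsDiscrete ((globalLevel S).restrict L.fixingSubgroup)
      (Rep.res L.fixingSubgroup.subtype (triv (ZMod p) Γ))]
    [IsDiscrete (globalLevel S) (coindRes L.fixingSubgroup (triv (ZMod p) Γ))]
    [IsDiscrete (globalLevel S)
      ((coindRes L.fixingSubgroup (triv (ZMod p) Γ)).dualTwist (cycloChar p))]
    (hloc : ∀ v, LocalBaseHyp₁ ((localData S).𝒱 v) ((cycloChar p).comp ((localData S).r v))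
      (invAt (localData S) tr v) (restrictFamily ((localData S).𝒱 v))
      (restrictFamily_refines ((localData S).𝒱 v)))
    (hB : BrauerBlock S p L) :
    ArithU (localData S) (cycloChar p) tr p L.fixingSubgroup := by
  have hχ : ∀ u ∈ L.fixingSubgroup, cycloChar p u = 1 :=
    cycloChar_eq_one_of_mem_fixingSubgroup L hμp
  have hmem : L.fixingSubgroup ∈ (globalLevel S).sets := fixingSubgroup_mem_globalLevel hL hnorm
  have : L.fixingSubgroup.Normal := (globalLevel S).normal _ hmem
  have : FiniteDimensional (ZMod p) (coindRes L.fixingSubgroup (triv (ZMod p) Γ)) :=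
    finite_coindRes (U := L.fixingSubgroup) (triv (ZMod p) Γ)
  obtain ⟨hι0, hι1, fdP0, fdP2'⟩ :=
    BaseLocalDuality.localDuality_of_localBase (localData S) (cycloChar p) tr
      (coindRes L.fixingSubgroup (triv (ZMod p) Γ)) hloc
      (fun v => hfd_dualTwist S L hμp (cycloChar p) hχ v)
  obtain ⟨fdP1', hP'⟩ := twistPair_count_P1 S L hp2 hpS hμp (cycloChar p) hχ
  obtain ⟨fdH1, -, hH, -⟩ := count_fields L hpS hL hnorm hμp hp2
  obtain ⟨hc', fdsha, hsha⟩ := hB
  refine ⟨PlaceIdx S L, fun v => inferInstance, placeσ S L, ?_, ?_, hι0, hι1.1, fdP0, fdP1', fdP2',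
    hc', sL L S, cS L S p, fdH1, hH, hP', fdsha, hsha⟩
  · intro v x
    exact placeRep_cov ((v.1 : Nat.Primes) : ℕ) L x
  · intro v i j u hu h hij
    exact placeRep_disj ((v.1 : Nat.Primes) : ℕ) L i j u hu h hij

variable (p) in
/-- The arithmetic block over every good field `L` (`L/ℚ` finite Galois, unramified outside `S`,
`μ_p ⊂ L`). -/
def AllBrauerBlocks : Prop :=
  ∀ (L : IntermediateField ℚ Qbar) [NumberField L], L.IsUnramifiedOutside S → Normal ℚ L →
    (∀ ω : Qbar, ω ^ p = 1 → ω ∈ L) →
    ∀ [IsOpenSub (globalLevel S) L.fixingSubgroup]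
      [IsDiscrete ((globalLevel S).restrict L.fixingSubgroup)
        (trivU (ZMod p) L.fixingSubgroup)], BrauerBlock S p L

/-- **ARITH-L for the frozen data** from local duality at the places of `S` (`LocalBaseHyp₁` for the
local invariants attached to `tr`) and the arithmetic blocks over the good fields. -/
theorem arithL_of_blocks (hp2 : 2 < p) (hpS : (⟨p, hpF.out⟩ : Nat.Primes) ∈ S)
    (hloc : ∀ v, LocalBaseHyp₁ ((localData S).𝒱 v) ((cycloChar p).comp ((localData S).r v))
      (invAt (localData S) tr v) (restrictFamily ((localData S).𝒱 v))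
      (restrictFamily_refines ((localData S).𝒱 v)))
    (hB : AllBrauerBlocks S p) :
    ArithL (localData S) (cycloChar p) tr := by
  haveI : Nonempty (localData S).ι := ⟨⟨_, hpS⟩⟩
  haveI : CharP (ZMod p) p := ZMod.charP p
  refine arithL_of_arithU (localData S) (cycloChar p) tr p ?_
  intro U hU hχ _ _ _ _ _
  obtain ⟨L, rfl, hL, hnorm, hμp⟩ := exists_goodField_of_mem hU hχ
  have hfd : FiniteDimensional ℚ L := hL.1
  have : NumberField L := { to_charZero := inferInstance, to_finiteDimensional := hfd }
  exact arithU_of_blocks S tr hp2 hpS L hL hnorm hμp hloc (hB L hL hnorm hμp)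

/-- **The base case for the trivial coefficients** for the frozen data. -/
theorem baseCaseTriv_of_blocks (hp2 : 2 < p) (hpS : (⟨p, hpF.out⟩ : Nat.Primes) ∈ S)
    (hloc : ∀ v, LocalBaseHyp₁ ((localData S).𝒱 v) ((cycloChar p).comp ((localData S).r v))
      (invAt (localData S) tr v) (restrictFamily ((localData S).𝒱 v))
      (restrictFamily_refines ((localData S).𝒱 v)))
    (hB : AllBrauerBlocks S p) :
    Main.BaseCaseTriv (localData S) (cycloChar p) tr := by
  haveI : Nonempty (localData S).ι := ⟨⟨_, hpS⟩⟩
  exact baseCaseTriv_of_arithL (arithL_of_blocks S tr hp2 hpS hloc hB)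
    (Main.baseCaseOne_of_triv (localData S) (cycloChar p) tr)

/-- **`Main.BaseCase` for the frozen data** (the `hbase` conjunct of `TraceGlue.result_of_inv`)
from local duality at the places of `S` and the arithmetic blocks over the good fields. -/
theorem baseCase_of_blocks (hp2 : 2 < p) (hpS : (⟨p, hpF.out⟩ : Nat.Primes) ∈ S)
    (hloc : ∀ v, LocalBaseHyp₁ ((localData S).𝒱 v) ((cycloChar p).comp ((localData S).r v))
      (invAt (localData S) tr v) (restrictFamily ((localData S).𝒱 v))
      (restrictFamily_refines ((localData S).𝒱 v)))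
    (hB : AllBrauerBlocks S p) :
    Main.BaseCase (localData S) (cycloChar p) tr :=
  Main.baseCase_of_triv (localData S) (cycloChar p) tr
    (baseCaseTriv_of_blocks S tr hp2 hpS hloc hB)

end Assembly

end Fermat.Agent.S55.GL.ArithUInst
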