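/-
S55 / GLO15, part 3: the local data of the arithmetic over `L`.

`brauerData L S : LocalData ((globalLevel S).restrict G_L)`: the family of the local Galois groups
`Gal(Ω_q/L_w)` (helper14's `BrauerLocal.Gloc`), `w` running through the places of `L` above `S`
(pairs `(q, w)`, `q ∈ S`, `w : PlacesOver q L`, at the chosen representative `w.rep`), with the
decomposition maps `BrauerLocal.decompHom` and the Krull level structures.  Its localisation map
`Cone.locH (brauerData L S) A n` is, componentwise, `levelCohomologyMap (decompHom …) … (𝟙 _) n`: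
for `A = resL L μ_p` this is the family `locμ` of ARITH-L (b), (c) (`CF/BrauerChase`).
-/
import Fermat.Agent.S55.GL.BrauerLocal
import Fermat.Agent.S55.ConeLevel

set_option autoImplicit false

namespace Fermat.Agent.S55.GL.BrauerData

open CategoryTheory Fermat.Agent.S55.Level Fermat.Agent.S55.Cone Fermat.Agent.S55.GaloisLevel
  Fermat.Agent.S55.GL.Places Fermat.Agent.S55.GL.BrauerLocal

local notation "Qbar" => AlgebraicClosure ℚ
local notation "Γ" => (AlgebraicClosure ℚ ≃ₐ[ℚ] AlgebraicClosure ℚ)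

/-- Primes as `Fact`s (local to this file). -/
local instance factPrime_BD (q : Nat.Primes) : Fact (q : ℕ).Prime := ⟨q.2⟩

variable (L : IntermediateField ℚ Qbar) (S : Finset Nat.Primes)

/-- The places of `L` above `S`: pairs `(q, w)` with `q ∈ S` and `w` a place of `L` over `q`. -/
abbrev PlaceS : Type := Σ q : ↥S, PlacesOver ((q : Nat.Primes) : ℕ) L

/-- **The local data of `G_{L,S}`** at the places of `L` above `S`. -/
noncomputable def brauerData : LocalData ((globalLevel S).restrict L.fixingSubgroup) where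
  ι := PlaceS L S
  Gv w := Gloc ((w.1 : Nat.Primes) : ℕ) L (PlacesOver.rep ((w.1 : Nat.Primes) : ℕ) w.2)
  r w := decompHom ((w.1 : Nat.Primes) : ℕ) L (PlacesOver.rep ((w.1 : Nat.Primes) : ℕ) w.2)
  𝒱 w := krullLevel
    (localFieldAt ((w.1 : Nat.Primes) : ℕ) L (PlacesOver.rep ((w.1 : Nat.Primes) : ℕ) w.2))
    (PadicAlgCl ((w.1 : Nat.Primes) : ℕ))
  refines w := refines_decompHom ((w.1 : Nat.Primes) : ℕ) L
    (PlacesOver.rep ((w.1 : Nat.Primes) : ℕ) w.2) (globalLevel S)
    (fun _ hU => isKrullOpen_of_mem_globalLevel S hU)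

/-- The finite place of `L` (helper14's `FinPlace`) underlying an element of `PlaceS`. -/
def PlaceS.toFinPlace (w : PlaceS L S) : FinPlace L := ⟨w.1, w.2⟩

theorem PlaceS.toFinPlace_prime (w : PlaceS L S) : (PlaceS.toFinPlace L S w).prime = w.1 := rfl

theorem PlaceS.toFinPlace_rep (w : PlaceS L S) :
    (PlaceS.toFinPlace L S w).rep = PlacesOver.rep ((w.1 : Nat.Primes) : ℕ) w.2 := rfl

theorem PlaceS.toFinPlace_injective : Function.Injective (PlaceS.toFinPlace L S) := by
  rintro ⟨⟨q, hq⟩, w⟩ ⟨⟨q', hq'⟩, w'⟩ h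
  have h1 : q = q' := congrArg Sigma.fst h
  subst h1
  have h2 : w = w' := eq_of_heq (Sigma.mk.inj h).2
  subst h2
  rfl

theorem PlaceS.toFinPlace_mem [FiniteDimensional ℚ L] (w : PlaceS L S) :
    PlaceS.toFinPlace L S w ∈ placesAbove L S :=
  (mem_placesAbove L S _).2 w.1.2

/-- `PlaceS L S` is the set `placesAbove L S` of helper14. -/
noncomputable def placeSEquiv [FiniteDimensional ℚ L] :
    PlaceS L S ≃ {v : FinPlace L // v ∈ placesAbove L S} where
  toFun w := ⟨PlaceS.toFinPlace L S w, PlaceS.toFinPlace_mem L S w⟩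
  invFun v := ⟨⟨v.1.1, (mem_placesAbove L S v.1).1 v.2⟩, v.1.2⟩
  left_inv _ := rfl
  right_inv _ := rfl

theorem brauerData_r (w : PlaceS L S) :
    (brauerData L S).r w =
      decompHom ((w.1 : Nat.Primes) : ℕ) L (PlacesOver.rep ((w.1 : Nat.Primes) : ℕ) w.2) := rfl

theorem brauerData_𝒱 (w : PlaceS L S) :
    (brauerData L S).𝒱 w = krullLevel
      (localFieldAt ((w.1 : Nat.Primes) : ℕ) L (PlacesOver.rep ((w.1 : Nat.Primes) : ℕ) w.2))
      (PadicAlgCl ((w.1 : Nat.Primes) : ℕ)) := rfl

instance finite_placeS [FiniteDimensional ℚ L] : Finite (PlaceS L S) := by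
  have : Finite {v : FinPlace L // v ∈ placesAbove L S} := Finite.of_fintype _
  exact Finite.of_equiv _ (placeSEquiv L S).symm

/-- The index set of `brauerData` is finite. -/
noncomputable instance fintype_ι [FiniteDimensional ℚ L] : Fintype (brauerData L S).ι :=
  Fintype.ofFinite (PlaceS L S)

/-- The representatives of the double cosets `G_L \ Γ / r_q(G_q)` matching `brauerData`: since
`decompHom q L σ τ = σ⁻¹ r(τ) σ` while `mackeyHom r U σ' h = σ' r(h) σ'⁻¹`, the place `w` corresponds
to `σ' = (w.rep)⁻¹`. -/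
noncomputable def mackeyRep (q : ↥S) (w : PlacesOver ((q : Nat.Primes) : ℕ) L) : Γ :=
  (PlacesOver.rep ((q : Nat.Primes) : ℕ) w)⁻¹

end Fermat.Agent.S55.GL.BrauerData
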