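/-
S55 / GLO15 (T2) LOCAL MATCH (helper25 #768 (3), taken over from helper15 with his GO #790):
the local groups `HL` of `ShapiroTransport` (cohomology of the Mackey subgroups of `G_q` with the
induced level structure) are the Galois cohomology groups of the local fields `L_σ = ℚ_q(ι σ L)`
in helper14's `BrauerLocal` model, compatibly with the localisation maps.

CONVENTION: Mackey's conjugation is `h ↦ σ' r(h) σ'⁻¹`, helper14's `decompHom q L σ` is
`τ ↦ σ⁻¹ r(τ) σ`; so the Mackey representative attached to the place `(q, σ)` is `σ' = σ⁻¹`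
(= helper15's `placeRep q L w = (PlacesOver.rep q w)⁻¹`).

* generic (`q : ℕ`, `σ : Γ`): `mackeySub_inv_eq` (the Mackey subgroup at `σ⁻¹` is
  `Gal(Ω_q/L_σ)`), `matchEquiv : Gloc q L σ ≃* mackeySub r G_L σ⁻¹`, `mackeyHom_matchEquiv`
  (`= decompHom`, by `rfl`), `refines_matchEquiv(_symm)`;
  ★ `matchIso q L σ 𝒱 h𝒱 B n` (any `k`, any `B : Rep k G_L`, all `n`; `h𝒱 : 𝒱 = krullLevel …`),
  `matchLinearEquiv`; ★ `locMackey_comp_matchIso_hom` / `locMackey_matchIso_apply`:
  `(restriction along mackeyHom) ≫ matchIso = restriction along decompHom`.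
* frozen types (`D = Assembly.localData S`, representatives `σ v i := (ρ v i)⁻¹`):
  ★★ `matchHL S L B ρ n v i : HL D G_L B _ n v i ≃ₗ[k] Hⁿ(krullLevel L_{ρ v i} Ω_q, res decompHom B)`,
  ★★ `matchHL_locLAt` : `matchHL (locLAt … x) = (levelCohomologyMap (decompHom …) (refines_decompHom …) 𝟙 n) x`;
  `isDiscrete_res_decompHom`.
* per-place count (trivial coefficients, `ζ_p ∈ L`): `finrank_HL_one_trivial`, `finite_HL_one_trivial`.
-/
import Mathlib
import Fermat.Agent.S55.ShapiroTransport
import Fermat.Agent.S55.GL.BrauerLocal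
import Fermat.Agent.S55.GaloisLevelBC
import Fermat.Agent.S55.Local.KrullLocal
import Fermat.Agent.S55.Assembly
import Fermat.Agent.S55.Local.KummerCount

set_option autoImplicit false
set_option linter.unusedSectionVars false
set_option linter.style.haveILetI false

open CategoryTheory ExtCitation

namespace Fermat.Agent.S55.GL.LocalMatch

open Fermat.Agent.S55.Level Fermat.Agent.S55.GaloisLevel Fermat.Agent.S55.GL.Places
  Fermat.Agent.S55.LevelTransport Fermat.Agent.S55.GL.BrauerLocal

local notation "Qbar" => AlgebraicClosure ℚ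
local notation "Γ" => (AlgebraicClosure ℚ ≃ₐ[ℚ] AlgebraicClosure ℚ)

section Generic

variable (q : ℕ) [Fact q.Prime] (L : IntermediateField ℚ Qbar) (σ : Γ)

/-- **(i)** The Mackey subgroup of `G_q` at `σ⁻¹` is the Galois group of the local field
`L_σ = ℚ_q(ι σ L)`. -/
theorem mackeySub_inv_eq :
    mackeySub (localGaloisToGlobal q) L.fixingSubgroup σ⁻¹ =
      (localFieldAt q L σ).fixingSubgroup := by
  rw [← comap_conjLocal_fixingSubgroup]
  rfl

/-- `Gal(Ω_q/L_σ) ≃* G_{q,σ⁻¹}` (helper27's `openEquiv`, inverted). -/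
noncomputable def matchEquiv :
    Gloc q L σ ≃* mackeySub (localGaloisToGlobal q) L.fixingSubgroup σ⁻¹ :=
  (openEquiv (mackeySub_inv_eq q L σ)).symm

lemma coe_matchEquiv (τ : Gloc q L σ) :
    ((matchEquiv q L σ τ : mackeySub (localGaloisToGlobal q) L.fixingSubgroup σ⁻¹) :
      Gal(PadicAlgCl q/ℚ_[q])) = glocToAbs q L σ τ := rfl

/-- Mackey's conjugation map on `G_{q,σ⁻¹}` is helper14's decomposition map. -/
lemma mackeyHom_matchEquiv (τ : Gloc q L σ) :
    mackeyHom (localGaloisToGlobal q) L.fixingSubgroup σ⁻¹ (matchEquiv q L σ τ) =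
      decompHom q L σ τ := rfl

lemma mackeyHom_comp_matchEquiv :
    (mackeyHom (localGaloisToGlobal q) L.fixingSubgroup σ⁻¹).comp
      (matchEquiv q L σ).toMonoidHom = decompHom q L σ := rfl

variable (𝒱 : LevelStructure Gal(PadicAlgCl q/ℚ_[q]))
  (h𝒱 : 𝒱 = krullLevel ℚ_[q] (PadicAlgCl q))

include h𝒱 in
theorem refines_matchEquiv :
    (krullLevel (localFieldAt q L σ) (PadicAlgCl q)).Refines
      (𝒱.restrict (mackeySub (localGaloisToGlobal q) L.fixingSubgroup σ⁻¹))
      (matchEquiv q L σ).toMonoidHom := by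
  subst h𝒱
  exact refines_openEquiv_symm (mackeySub_inv_eq q L σ)

include h𝒱 in
theorem refines_matchEquiv_symm [FiniteDimensional ℚ L] :
    (𝒱.restrict (mackeySub (localGaloisToGlobal q) L.fixingSubgroup σ⁻¹)).Refines
      (krullLevel (localFieldAt q L σ) (PadicAlgCl q))
      (matchEquiv q L σ).symm.toMonoidHom := by
  subst h𝒱
  exact refines_openEquiv (mackeySub_inv_eq q L σ)

section Iso

variable {k : Type} [CommRing k] (B : Rep.{0} k ↥L.fixingSubgroup)

/-- The comparison morphism of coefficient modules (identity on the underlying module). -/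
noncomputable def matchHom :
    Rep.res (matchEquiv q L σ).toMonoidHom
        (Rep.res (mackeyHom (localGaloisToGlobal q) L.fixingSubgroup σ⁻¹) B) ⟶
      Rep.res (decompHom q L σ) B :=
  Rep.ofHom ⟨LinearMap.id, fun _ => rfl⟩

/-- The inverse comparison morphism. -/
noncomputable def matchHomInv :
    Rep.res (matchEquiv q L σ).symm.toMonoidHom (Rep.res (decompHom q L σ) B) ⟶
      Rep.res (mackeyHom (localGaloisToGlobal q) L.fixingSubgroup σ⁻¹) B :=
  Rep.ofHom ⟨LinearMap.id, fun h => by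
    ext b
    show B.ρ (decompHom q L σ ((matchEquiv q L σ).symm h)) b =
      B.ρ (mackeyHom (localGaloisToGlobal q) L.fixingSubgroup σ⁻¹ h) b
    rw [← mackeyHom_matchEquiv, MulEquiv.apply_symm_apply]⟩

variable [FiniteDimensional ℚ L]
  [hB₁ : IsDiscrete (𝒱.restrict (mackeySub (localGaloisToGlobal q) L.fixingSubgroup σ⁻¹))
    (Rep.res (mackeyHom (localGaloisToGlobal q) L.fixingSubgroup σ⁻¹) B)]
  [hB₂ : IsDiscrete (krullLevel (localFieldAt q L σ) (PadicAlgCl q)) (Rep.res (decompHom q L σ) B)]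

/-- **(ii) LOCAL MATCH**: the cohomology of the Mackey subgroup `G_{q,σ⁻¹} ≤ G_q` (induced level
structure) with coefficients `B` pulled back along Mackey's conjugation map is the Galois
cohomology of the local field `L_σ` with coefficients `B` pulled back along the decomposition
map. -/
noncomputable def matchIso (n : ℕ) :
    levelCohomology (𝒱.restrict (mackeySub (localGaloisToGlobal q) L.fixingSubgroup σ⁻¹))
        (Rep.res (mackeyHom (localGaloisToGlobal q) L.fixingSubgroup σ⁻¹) B) n ≅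
      levelCohomology (krullLevel (localFieldAt q L σ) (PadicAlgCl q))
        (Rep.res (decompHom q L σ) B) n :=
  levelCohomologyIsoOfEquiv (matchEquiv q L σ) (refines_matchEquiv q L σ 𝒱 h𝒱)
    (refines_matchEquiv_symm q L σ 𝒱 h𝒱) (matchHom q L σ B) (matchHomInv q L σ B)
    (fun _ => rfl) (fun _ => rfl) n

lemma matchIso_hom (n : ℕ) :
    (matchIso q L σ 𝒱 h𝒱 B n).hom =
      levelCohomologyMap (matchEquiv q L σ).toMonoidHom (refines_matchEquiv q L σ 𝒱 h𝒱)
        (matchHom q L σ B) n := rfl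

/-- The linear equivalence underlying `matchIso`. -/
noncomputable def matchLinearEquiv (n : ℕ) :
    levelCohomology (𝒱.restrict (mackeySub (localGaloisToGlobal q) L.fixingSubgroup σ⁻¹))
        (Rep.res (mackeyHom (localGaloisToGlobal q) L.fixingSubgroup σ⁻¹) B) n ≃ₗ[k]
      levelCohomology (krullLevel (localFieldAt q L σ) (PadicAlgCl q))
        (Rep.res (decompHom q L σ) B) n :=
  (matchIso q L σ 𝒱 h𝒱 B n).toLinearEquiv

lemma matchLinearEquiv_apply (n : ℕ) (x) :
    matchLinearEquiv q L σ 𝒱 h𝒱 B n x = (matchIso q L σ 𝒱 h𝒱 B n).hom.hom x := rfl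

variable (𝒰 : LevelStructure Γ) (h𝒰 : ∀ U ∈ 𝒰.sets, IsKrullOpen ℚ Qbar U)
  (hr : 𝒱.Refines 𝒰 (localGaloisToGlobal q)) [IsDiscrete (𝒰.restrict L.fixingSubgroup) B]

/-- **(iii)** Under `matchIso`, the localisation map of `G_L` at `σ⁻¹` in the Mackey form is the
localisation map at the place `(q, σ)` in helper14's form (restriction along `decompHom`). -/
theorem locMackey_comp_matchIso_hom (n : ℕ) :
    levelCohomologyMap (mackeyHom (localGaloisToGlobal q) L.fixingSubgroup σ⁻¹)
        (mackeyHom_refines (localGaloisToGlobal q) hr L.fixingSubgroup σ⁻¹)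
        (𝟙 (Rep.res (mackeyHom (localGaloisToGlobal q) L.fixingSubgroup σ⁻¹) B)) n ≫
      (matchIso q L σ 𝒱 h𝒱 B n).hom =
    levelCohomologyMap (decompHom q L σ) (refines_decompHom q L σ 𝒰 h𝒰)
      (𝟙 (Rep.res (decompHom q L σ) B)) n := by
  rw [matchIso_hom, ← levelCohomologyMap_comp]
  exact levelCohomologyMap_congr (mackeyHom_comp_matchEquiv q L σ) _ _ _ _ (fun _ => rfl) n

theorem locMackey_matchIso_apply (n : ℕ)
    (x : levelCohomology (𝒰.restrict L.fixingSubgroup) B n) :
    (matchIso q L σ 𝒱 h𝒱 B n).hom.hom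
      ((levelCohomologyMap (mackeyHom (localGaloisToGlobal q) L.fixingSubgroup σ⁻¹)
        (mackeyHom_refines (localGaloisToGlobal q) hr L.fixingSubgroup σ⁻¹)
        (𝟙 (Rep.res (mackeyHom (localGaloisToGlobal q) L.fixingSubgroup σ⁻¹) B)) n).hom x) =
    (levelCohomologyMap (decompHom q L σ) (refines_decompHom q L σ 𝒰 h𝒰)
      (𝟙 (Rep.res (decompHom q L σ) B)) n).hom x := by
  rw [← locMackey_comp_matchIso_hom q L σ 𝒱 h𝒱 B 𝒰 h𝒰 hr n]
  rfl

end Iso

end Generic

section Frozen

open Fermat.Agent.S55.ShapiroTransport Fermat.Agent.S55.Assembly Fermat.Agent.S55.Cone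

variable (S : Finset Nat.Primes) (L : IntermediateField ℚ Qbar) [FiniteDimensional ℚ L]
  [IsOpenSub (globalLevel S) L.fixingSubgroup] {k : Type} [CommRing k]
  (B : Rep.{0} k ↥L.fixingSubgroup) [IsDiscrete ((globalLevel S).restrict L.fixingSubgroup) B]
  {J : (localData S).ι → Type} (ρ : ∀ v, J v → Γ)

local instance factPrime_LM (v : (localData S).ι) : Fact ((v.1 : ℕ)).Prime := ⟨v.1.2⟩

include S in
/-- Discreteness of the coefficients pulled back along the decomposition map. -/
theorem isDiscrete_res_decompHom (q : ℕ) [Fact q.Prime] (σ : Γ) :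
    IsDiscrete (krullLevel (localFieldAt q L σ) (PadicAlgCl q)) (Rep.res (decompHom q L σ) B) :=
  isDiscrete_res_level (decompHom q L σ)
    (refines_decompHom q L σ (globalLevel S) (fun _ hU => isKrullOpen_of_mem_globalLevel S hU)) B

/-- **LOCAL MATCH in the frozen types of `Assembly.localData` / `ShapiroTransport.HL`**: for the
family of Mackey representatives `σ v i := (ρ v i)⁻¹`, the local group `HL … n v i` of `G_L` at
the place `(v, i)` is the Galois cohomology of the local field `L_{ρ v i} = ℚ_q(ι (ρ v i) L)`. -/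
noncomputable def matchHL (n : ℕ) (v : (localData S).ι) (i : J v) :
    haveI := isDiscrete_res_decompHom S L B (v.1 : ℕ) (ρ v i)
    HL (localData S) L.fixingSubgroup B (fun v i => (ρ v i)⁻¹) n v i ≃ₗ[k]
      levelCohomology (krullLevel (localFieldAt (v.1 : ℕ) L (ρ v i)) (PadicAlgCl (v.1 : ℕ)))
        (Rep.res (decompHom (v.1 : ℕ) L (ρ v i)) B) n :=
  matchLinearEquiv (v.1 : ℕ) L (ρ v i) ((localData S).𝒱 v)
    (Fermat.Agent.S55.Local.KrullLocal.localLevel_primeLocalToGlobal_eq v.1) B n
    (hB₁ := isDiscrete_mackeyRep ((localData S).r v) ((localData S).refines v) L.fixingSubgroup B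
      (ρ v i)⁻¹)
    (hB₂ := isDiscrete_res_decompHom S L B (v.1 : ℕ) (ρ v i))

/-- **Compatibility with the localisation maps**: `matchHL ∘ locLAt = ` restriction along
`decompHom` (helper14's `resAt` pattern with the identity coefficient map). -/
theorem matchHL_locLAt (n : ℕ) (v : (localData S).ι) (i : J v)
    (x : levelCohomology ((globalLevel S).restrict L.fixingSubgroup) B n) :
    haveI := isDiscrete_res_decompHom S L B (v.1 : ℕ) (ρ v i)
    matchHL S L B ρ n v i (locLAt (localData S) L.fixingSubgroup B (fun v i => (ρ v i)⁻¹) n v i x) =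
      (levelCohomologyMap (decompHom (v.1 : ℕ) L (ρ v i))
        (refines_decompHom (v.1 : ℕ) L (ρ v i) (globalLevel S)
          (fun _ hU => isKrullOpen_of_mem_globalLevel S hU))
        (𝟙 (Rep.res (decompHom (v.1 : ℕ) L (ρ v i)) B)) n).hom x :=
  locMackey_matchIso_apply (v.1 : ℕ) L (ρ v i) ((localData S).𝒱 v)
    (Fermat.Agent.S55.Local.KrullLocal.localLevel_primeLocalToGlobal_eq v.1) B (globalLevel S)
    (fun _ hU => isKrullOpen_of_mem_globalLevel S hU) ((localData S).refines v) n x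
    (hB₁ := isDiscrete_mackeyRep ((localData S).r v) ((localData S).refines v) L.fixingSubgroup B
      (ρ v i)⁻¹)
    (hB₂ := isDiscrete_res_decompHom S L B (v.1 : ℕ) (ρ v i))

section Count

open Fermat.Agent.S55.Local.Hilbert Fermat.Agent.S55.Local.KummerCount

variable {p : ℕ} [Fact p.Prime]
  [IsDiscrete ((globalLevel S).restrict L.fixingSubgroup)
    (Rep.res L.fixingSubgroup.subtype (Rep.trivial (ZMod p) Γ (ZMod p)))]

/-- **Per-place count for ARITH-L (d)**: for trivial coefficients `𝔽_p` and `ζ_p ∈ L`, the local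
`H¹` of `G_L` at the place `(v, i)` has dimension `2 + [q = p]·[L_{ρ v i} : ℚ_q]`
(= the summand of `LocalIndex.sum_local_exponents`). -/
theorem finrank_HL_one_trivial {ζ : L} (hζ : IsPrimitiveRoot ζ p) (v : (localData S).ι) (i : J v) :
    Module.finrank (ZMod p)
      (HL (localData S) L.fixingSubgroup
        (Rep.res L.fixingSubgroup.subtype (Rep.trivial (ZMod p) Γ (ZMod p)))
        (fun v i => (ρ v i)⁻¹) 1 v i) =
      2 + if (v.1 : ℕ) = p then Module.finrank ℚ_[(v.1 : ℕ)] (localFieldAt (v.1 : ℕ) L (ρ v i))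
        else 0 := by
  have hζ' : IsPrimitiveRoot (embAt (v.1 : ℕ) L (ρ v i) ζ) p :=
    hζ.map_of_injective (embAt (v.1 : ℕ) L (ρ v i)).injective
  have hroots : ∀ x : PadicAlgCl (v.1 : ℕ), ∃ y, y ^ p = x :=
    hroots_of_isAlgClosed _ p (Fact.out : p.Prime).pos
  rw [(matchHL S L (Rep.res L.fixingSubgroup.subtype (Rep.trivial (ZMod p) Γ (ZMod p))) ρ 1 v
    i).finrank_eq]
  exact finrank_levelH1_local (localFieldAt (v.1 : ℕ) L (ρ v i)) (PadicAlgCl (v.1 : ℕ)) (v.1 : ℕ)
    hζ' hroots

/-- The local `H¹` of `G_L` at the place `(v, i)` is finite (trivial coefficients, `ζ_p ∈ L`). -/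
theorem finite_HL_one_trivial {ζ : L} (hζ : IsPrimitiveRoot ζ p) (v : (localData S).ι) (i : J v) :
    Finite (HL (localData S) L.fixingSubgroup
        (Rep.res L.fixingSubgroup.subtype (Rep.trivial (ZMod p) Γ (ZMod p)))
        (fun v i => (ρ v i)⁻¹) 1 v i) := by
  have hζ' : IsPrimitiveRoot (embAt (v.1 : ℕ) L (ρ v i) ζ) p :=
    hζ.map_of_injective (embAt (v.1 : ℕ) L (ρ v i)).injective
  have hroots : ∀ x : PadicAlgCl (v.1 : ℕ), ∃ y, y ^ p = x :=
    hroots_of_isAlgClosed _ p (Fact.out : p.Prime).pos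
  have h := finite_levelH1_local (localFieldAt (v.1 : ℕ) L (ρ v i)) (PadicAlgCl (v.1 : ℕ))
    (v.1 : ℕ) hζ' hroots
  exact @Finite.of_equiv _ _ h
    (matchHL S L (Rep.res L.fixingSubgroup.subtype (Rep.trivial (ZMod p) Γ (ZMod p))) ρ 1 v
      i).symm.toEquiv

end Count

end Frozen

end Fermat.Agent.S55.GL.LocalMatch
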