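/-
S55 / GLO15, part 4: the matching of the Mackey family of `localData S` over `G_L` (representatives
`sigma S L` = helper15's `placeRep`) with `brauerData L S` (a `LocalDataMatch.Match`).
-/
import Fermat.Agent.S55.GL.BrauerData
import Fermat.Agent.S55.GL.LocalMatch
import Fermat.Agent.S55.GL.LocalCount
import Fermat.Agent.S55.LocalDataMatch

set_option autoImplicit false

namespace Fermat.Agent.S55.GL.MackeyBrauerMatch

open CategoryTheory Fermat.Agent.S55.Level Fermat.Agent.S55.Cone Fermat.Agent.S55.GaloisLevel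
  Fermat.Agent.S55.GL.Places Fermat.Agent.S55.GL.BrauerLocal Fermat.Agent.S55.GL.BrauerData
  Fermat.Agent.S55.GL.LocalMatch Fermat.Agent.S55.GL.LocalCount Fermat.Agent.S55.LocalDataMatch
  Fermat.Agent.S55.Assembly Fermat.Agent.S55.ShapiroTransport

local notation "Qbar" => AlgebraicClosure ℚ
local notation "Γ" => (AlgebraicClosure ℚ ≃ₐ[ℚ] AlgebraicClosure ℚ)

/-- Primes as `Fact`s (local to this file). -/
local instance factPrime_MBM (q : Nat.Primes) : Fact (q : ℕ).Prime := ⟨q.2⟩

variable (S : Finset Nat.Primes) (L : IntermediateField ℚ Qbar)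

/-- The Mackey representatives of the places of `L` above `S` (helper15's `placeRep`). -/
noncomputable def sigma (v : (localData S).ι) (w : PlacesOver ((v.1 : Nat.Primes) : ℕ) L) : Γ :=
  placeRep ((v.1 : Nat.Primes) : ℕ) L w

theorem sigma_cov [FiniteDimensional ℚ L] (v : (localData S).ι) (x : Γ) :
    ∃ w, ∃ u ∈ L.fixingSubgroup, ∃ h : (localData S).Gv v,
      x = u * sigma S L v w * (localData S).r v h :=
  placeRep_cov ((v.1 : Nat.Primes) : ℕ) L x

theorem sigma_disj (v : (localData S).ι) (w w' : PlacesOver ((v.1 : Nat.Primes) : ℕ) L)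
    (u : Γ) (hu : u ∈ L.fixingSubgroup) (h : (localData S).Gv v)
    (hww' : sigma S L v w' = u * sigma S L v w * (localData S).r v h) : w = w' :=
  placeRep_disj ((v.1 : Nat.Primes) : ℕ) L w w' u hu h hww'

variable [FiniteDimensional ℚ L]

/-- **LOCAL MATCH**: the Mackey family of `localData S` over `G_L` is `brauerData L S`. -/
noncomputable def localMatch :
    Match (mackeyData (localData S) L.fixingSubgroup (sigma S L)) (brauerData L S) where
  e := Equiv.refl _
  g w := (matchEquiv ((w.1.1 : Nat.Primes) : ℕ) L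
    (PlacesOver.rep ((w.1.1 : Nat.Primes) : ℕ) w.2)).symm
  hr w h := by
    have h1 := mackeyHom_matchEquiv ((w.1.1 : Nat.Primes) : ℕ) L
      (PlacesOver.rep ((w.1.1 : Nat.Primes) : ℕ) w.2)
      ((matchEquiv ((w.1.1 : Nat.Primes) : ℕ) L
        (PlacesOver.rep ((w.1.1 : Nat.Primes) : ℕ) w.2)).symm h)
    have h2 : matchEquiv ((w.1.1 : Nat.Primes) : ℕ) L
        (PlacesOver.rep ((w.1.1 : Nat.Primes) : ℕ) w.2)
        ((matchEquiv ((w.1.1 : Nat.Primes) : ℕ) L
          (PlacesOver.rep ((w.1.1 : Nat.Primes) : ℕ) w.2)).symm h) = h :=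
      MulEquiv.apply_symm_apply _ h
    exact h1.symm.trans (congrArg (mackeyHom (localGaloisToGlobal ((w.1.1 : Nat.Primes) : ℕ))
      L.fixingSubgroup (PlacesOver.rep ((w.1.1 : Nat.Primes) : ℕ) w.2)⁻¹) h2)
  href w := refines_matchEquiv_symm ((w.1.1 : Nat.Primes) : ℕ) L
    (PlacesOver.rep ((w.1.1 : Nat.Primes) : ℕ) w.2) ((localData S).𝒱 w.1)
    (Fermat.Agent.S55.Local.KrullLocal.localLevel_primeLocalToGlobal_eq w.1.1)
  href' w := refines_matchEquiv ((w.1.1 : Nat.Primes) : ℕ) L
    (PlacesOver.rep ((w.1.1 : Nat.Primes) : ℕ) w.2) ((localData S).𝒱 w.1)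
    (Fermat.Agent.S55.Local.KrullLocal.localLevel_primeLocalToGlobal_eq w.1.1)

end Fermat.Agent.S55.GL.MackeyBrauerMatch
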