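/-
S55 / GLO15 (T1) (board #768 (3), #803): COEFFICIENTS `ZMod p` ↔ `μ_p` over `G_{L,S}`, `ζ_p ∈ L`.

helper14's ARITH-L (b), (c) (`GL/BrauerInst.lean`) are statements on `H²(G_{L,S}, μ_p)` with
`μ_p = resL L (muP S p) : Rep ℤ G_L`; the base case consumes them on `H²(G_{L,S}, ZMod p)` (trivial
`ZMod p`-linear coefficients).  For `ζ ∈ L` a primitive `p`-th root of unity:

* `muOf`, `muAddEquiv : ZMod p ≃+ muP S p` (`a ↦ ζ^a`), ★ `muTrivIso : toIntRep (trivial ZMod p rep of
  G_L) ≅ resL L (muP S p)`, `muTrivIsoLoc v` (its restriction along `decompHom` at a finite place);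
* generic: `Hmap_comp_levelCohomologyMap_id`, `HmapAddEquiv`, `levelCohomologyMap_id_intEquiv_symm`,
  `exists_eq_nsmul_of_ptorsion` (the `p`-torsion of `ℝ/ℤ` is cyclic);
* ★ `HEquiv n : Hⁿ(G_{L,S}, ZMod p) ≃+ Hⁿ(G_{L,S}, μ_p)`, `HEquivLoc v n : Hⁿ(L_v, ZMod p) ≃+
  Hⁿ(L_v, μ_p)`, `resZ v p n` (restriction along `decompHom` on `ZMod p`-coefficients),
  ★ `locAt_HEquiv` / `locμ_HEquiv : locμ v (HEquiv 2 c) = HEquivLoc v 2 (resZ v p 2 c)`;
* ★ ARITH-L (b), (c) on `ZMod p`-coefficients from `H : BrauerInput p S L F`: `kerResZ`,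
  `kerResZEquiv`, `finite_kerLocμ`, `card_kerResZ_le`, `sumInv`, `exists_resZ_eq_iff`,
  `nsmul_sumInv`.
-/
import Fermat.Agent.S55.GL.BrauerInst
import Fermat.Agent.S55.LevelScalars

set_option autoImplicit false
set_option linter.unusedSectionVars false

open CategoryTheory IntermediateField

namespace Fermat.Agent.S55.GL.MuTriv

open Fermat.Agent.S55.Level Fermat.Agent.S55.GaloisLevel Fermat.Agent.S55.GL.Places
  Fermat.Agent.S55.LevelTransport Fermat.Agent.S55.GL.BrauerLocal Fermat.Agent.S55.GL.QSMod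
  Fermat.Agent.S55.CF Fermat.Agent.S55.CFAbs Fermat.Agent.S55.LevelScalars
  Fermat.Agent.S55.GL.BrauerInst

local notation "Qbar" => AlgebraicClosure ℚ
local notation "Γ" => (AlgebraicClosure ℚ ≃ₐ[ℚ] AlgebraicClosure ℚ)

section Zeta

variable (S : Finset Nat.Primes) {p : ℕ} (hp : p.Prime) (hpS : (⟨p, hp⟩ : Nat.Primes) ∈ S)
  {ζ : Qbar} (hζ : IsPrimitiveRoot ζ p)

include hζ in
lemma zeta_pow_val_pow (a : ZMod p) : (ζ ^ a.val) ^ p = 1 := by
  rw [← pow_mul, mul_comm, pow_mul, hζ.pow_eq_one, one_pow]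

/-- The element `ζ^a` of `μ_p`. -/
noncomputable def muOf (a : ZMod p) : muP S p :=
  Classical.choose (muP.exists_val_eq S hp hpS (zeta_pow_val_pow hζ a))

lemma val_muOf (a : ZMod p) : muP.val S p (muOf S hp hpS hζ a) = ζ ^ a.val :=
  Classical.choose_spec (muP.exists_val_eq S hp hpS (zeta_pow_val_pow hζ a))

lemma muOf_add (a b : ZMod p) :
    muOf S hp hpS hζ (a + b) = muOf S hp hpS hζ a + muOf S hp hpS hζ b := by
  have : NeZero p := ⟨hp.ne_zero⟩
  apply muP.val_injective S p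
  rw [muP.val_add, val_muOf, val_muOf, val_muOf, ZMod.val_add, ← pow_add,
    ← pow_eq_pow_mod _ hζ.pow_eq_one]

lemma muOf_injective : Function.Injective (muOf S hp hpS hζ) := by
  have : NeZero p := ⟨hp.ne_zero⟩
  intro a b h
  have h1 := congrArg (muP.val S p) h
  rw [val_muOf, val_muOf] at h1
  exact ZMod.val_injective p (hζ.pow_inj (ZMod.val_lt a) (ZMod.val_lt b) h1)

lemma muOf_surjective : Function.Surjective (muOf S hp hpS hζ) := by
  have : NeZero p := ⟨hp.ne_zero⟩
  intro z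
  obtain ⟨i, hi, hiz⟩ := hζ.eq_pow_of_pow_eq_one (muP.val_pow S p z)
  refine ⟨(i : ZMod p), ?_⟩
  apply muP.val_injective S p
  rw [val_muOf, ZMod.val_natCast, ← pow_eq_pow_mod _ hζ.pow_eq_one, hiz]

lemma muOf_ρ (L : IntermediateField ℚ Qbar) (hζL : ζ ∈ L) (g : Γ) (hg : g ∈ L.fixingSubgroup)
    (a : ZMod p) : (muP S p).ρ g (muOf S hp hpS hζ a) = muOf S hp hpS hζ a := by
  apply muP.val_injective S p
  rw [muP.val_ρ, val_muOf, map_pow,
    (IntermediateField.mem_fixingSubgroup_iff L g).1 hg ζ hζL]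

/-- `a ↦ ζ^a` as an additive equivalence `ZMod p ≃+ μ_p`. -/
noncomputable def muAddEquiv : ZMod p ≃+ muP S p :=
  AddEquiv.ofBijective (AddMonoidHom.mk' (muOf S hp hpS hζ) (muOf_add S hp hpS hζ))
    ⟨muOf_injective S hp hpS hζ, muOf_surjective S hp hpS hζ⟩

lemma muAddEquiv_apply (a : ZMod p) : muAddEquiv S hp hpS hζ a = muOf S hp hpS hζ a := rfl

/-- **The `ζ`-isomorphism over `G_L`** (`ζ_p ∈ L`): the trivial representation `ZMod p` of `G_L`,
with integer scalars, is `μ_p` restricted to `G_L`. -/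
noncomputable def muTrivIso (L : IntermediateField ℚ Qbar) (hζL : ζ ∈ L) :
    toIntRep (Rep.trivial (ZMod p) ↥L.fixingSubgroup (ZMod p)) ≅ resL L (muP S p) :=
  Rep.mkIso (Representation.Equiv.mk (muAddEquiv S hp hpS hζ).toIntLinearEquiv fun g => by
    refine LinearMap.ext fun a => ?_
    exact (muOf_ρ S hp hpS hζ L hζL g g.2 a).symm)

lemma muTrivIso_hom_apply (L : IntermediateField ℚ Qbar) (hζL : ζ ∈ L) (a : ZMod p) :
    (muTrivIso S hp hpS hζ L hζL).hom.hom a = muOf S hp hpS hζ a := rfl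

/-- The `ζ`-isomorphism with the trivial coefficients written as
`ArithLInst.trivU (ZMod p) G_L = Rep.res G_L.subtype (Rep.trivial (ZMod p) Γ (ZMod p))`. -/
noncomputable def muTrivIsoU (L : IntermediateField ℚ Qbar) (hζL : ζ ∈ L) :
    toIntRep (Rep.res L.fixingSubgroup.subtype (Rep.trivial (ZMod p) Γ (ZMod p))) ≅
      resL L (muP S p) :=
  muTrivIso S hp hpS hζ L hζL

lemma muTrivIsoU_hom_apply (L : IntermediateField ℚ Qbar) (hζL : ζ ∈ L) (a : ZMod p) :
    (muTrivIsoU S hp hpS hζ L hζL).hom.hom a = muOf S hp hpS hζ a := rfl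

include hp hpS in
/-- Existence form: for `μ_p ⊂ L` (hypothesis shape of `KummerDim`). -/
theorem nonempty_muTrivIsoU (L : IntermediateField ℚ Qbar)
    (hμp : ∀ ω : Qbar, ω ^ p = 1 → ω ∈ L) :
    Nonempty (toIntRep (Rep.res L.fixingSubgroup.subtype (Rep.trivial (ZMod p) Γ (ZMod p))) ≅
      resL L (muP S p)) := by
  have : NeZero p := ⟨hp.ne_zero⟩
  obtain ⟨ζ, hζ⟩ := HasEnoughRootsOfUnity.exists_primitiveRoot Qbar p
  exact ⟨muTrivIsoU S hp hpS hζ L (hμp ζ hζ.pow_eq_one)⟩

end Zeta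

section Generic

universe u

variable {k G H : Type u} [CommRing k] [Group G] [Group H] {𝒰 : LevelStructure G}
  {𝒱 : LevelStructure H} {A B : Rep.{u} k G} [IsDiscrete 𝒰 A] [IsDiscrete 𝒰 B]

/-- Change of group (with identity coefficient maps) commutes with change of coefficients. -/
theorem Hmap_comp_levelCohomologyMap_id (f : H →* G) (hf : 𝒱.Refines 𝒰 f)
    [IsDiscrete 𝒱 (Rep.res f A)] [IsDiscrete 𝒱 (Rep.res f B)] (φ : A ⟶ B) (n : ℕ) :
    Hmap 𝒰 φ n ≫ levelCohomologyMap f hf (𝟙 (Rep.res f B)) n =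
      levelCohomologyMap f hf (𝟙 (Rep.res f A)) n ≫ Hmap 𝒱 ((Rep.resFunctor f).map φ) n := by
  have h1 := levelCohomologyMap_comp (A := A) (B := B) (C := Rep.res f B)
    (MonoidHom.id G) f 𝒰.refines_id hf φ (𝟙 (Rep.res f B)) n
  have h2 := levelCohomologyMap_comp (A := A) (B := Rep.res f A) (C := Rep.res f B)
    f (MonoidHom.id H) hf 𝒱.refines_id (𝟙 (Rep.res f A)) ((Rep.resFunctor f).map φ) n
  refine h1.symm.trans (Eq.trans ?_ h2)
  exact levelCohomologyMap_congr ((MonoidHom.id_comp f).trans (MonoidHom.comp_id f).symm) _ _ _ _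
    (fun _ => rfl) n

/-- The additive equivalence on level cohomology induced by an isomorphism of coefficients. -/
noncomputable def HmapAddEquiv (𝒰 : LevelStructure G) {A B : Rep.{u} k G} [IsDiscrete 𝒰 A]
    [IsDiscrete 𝒰 B] (e : A ≅ B) (n : ℕ) :
    levelCohomology 𝒰 A n ≃+ levelCohomology 𝒰 B n where
  toFun := (Hmap 𝒰 e.hom n).hom
  invFun := (Hmap 𝒰 e.inv n).hom
  left_inv x := by
    rw [← Hmap_comp_apply, e.hom_inv_id, Hmap_id]
    rfl
  right_inv x := by
    rw [← Hmap_comp_apply, e.inv_hom_id, Hmap_id]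
    rfl
  map_add' := map_add _

lemma HmapAddEquiv_apply (𝒰 : LevelStructure G) {A B : Rep.{u} k G} [IsDiscrete 𝒰 A]
    [IsDiscrete 𝒰 B] (e : A ≅ B) (n : ℕ) (x : levelCohomology 𝒰 A n) :
    HmapAddEquiv 𝒰 e n x = (Hmap 𝒰 e.hom n).hom x := rfl

end Generic

section Circle

/-- The `p`-torsion of `ℝ/ℤ` is cyclic: every `p`-torsion element is a multiple of any nonzero
one (the hypothesis `hQ` on the target of the sum of the local invariants). -/
theorem exists_eq_nsmul_of_ptorsion {p : ℕ} (hp : p.Prime) (a b : UnitAddCircle)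
    (ha : p • a = 0) (hb : p • b = 0) (ha0 : a ≠ 0) : ∃ m : ℕ, b = m • a := by
  have : Fact p.Prime := ⟨hp⟩
  obtain ⟨α, rfl⟩ := exists_toAddCircle_eq a ha
  obtain ⟨β, rfl⟩ := exists_toAddCircle_eq b hb
  have hα : α ≠ 0 := by
    rintro rfl
    exact ha0 (map_zero _)
  refine ⟨(β * α⁻¹).val, ?_⟩
  rw [← map_nsmul, nsmul_eq_mul, ZMod.natCast_val, ZMod.cast_id, inv_mul_cancel_right₀ hα]

end Circle

section GenericInt

variable {k G H : Type} [CommRing k] [Group G] [Group H] {𝒰 : LevelStructure G}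
  {𝒱 : LevelStructure H}

/-- The comparison of scalars commutes with restriction along a group homomorphism. -/
theorem levelCohomologyMap_id_intEquiv_symm (f : H →* G) (hf : 𝒱.Refines 𝒰 f) (A : Rep.{0} k G)
    [IsDiscrete 𝒰 A] [IsDiscrete 𝒱 (Rep.res f A)] [IsDiscrete 𝒱 (Rep.res f (toIntRep A))] (n : ℕ)
    (c : levelCohomology 𝒰 A n) :
    (levelCohomologyMap f hf (𝟙 (Rep.res f (toIntRep A))) n).hom
        ((levelCohomologyIntEquiv A 𝒰 n).symm c) =
      (levelCohomologyIntEquiv (Rep.res f A) 𝒱 n).symm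
        ((levelCohomologyMap f hf (𝟙 (Rep.res f A)) n).hom c) := by
  have h2 := levelCohomologyIntEquiv_map (𝒰 := 𝒰) (𝒱 := 𝒱) (A := A) (B := Rep.res f A) f hf
    (𝟙 (Rep.res f A)) n ((levelCohomologyIntEquiv A 𝒰 n).symm c)
  rw [AddEquiv.apply_symm_apply] at h2
  exact (AddEquiv.eq_symm_apply (levelCohomologyIntEquiv (Rep.res f A) 𝒱 n)).2 h2

end GenericInt

section Concrete

local instance isGaloisQbar_MT : IsGalois ℚ Qbar := Fermat.Agent.S55.Level.isGalois_Qbar
local instance factPrime_MT (q : Nat.Primes) : Fact (q : ℕ).Prime := ⟨q.2⟩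

/-- Trivial representations are discrete for every level structure. -/
theorem isDiscrete_trivial (k : Type) [CommRing k] {G : Type} [Group G] (𝒰 : LevelStructure G) :
    IsDiscrete 𝒰 (Rep.trivial k G k) :=
  ⟨fun _ => by
    obtain ⟨U, hU⟩ := 𝒰.nonempty
    exact ⟨U, hU, fun _ _ => rfl⟩⟩

local instance isDiscrete_trivial_MT (k : Type) [CommRing k] {G : Type} [Group G]
    (𝒰 : LevelStructure G) : IsDiscrete 𝒰 (Rep.trivial k G k) := isDiscrete_trivial k 𝒰

variable (S : Finset Nat.Primes) {p : ℕ} (hp : p.Prime) (hpS : (⟨p, hp⟩ : Nat.Primes) ∈ S)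
  {ζ : Qbar} (hζ : IsPrimitiveRoot ζ p) (L : IntermediateField ℚ Qbar) (hζL : ζ ∈ L)

/-- **Global comparison**: `Hⁿ(G_{L,S}, ZMod p) ≃+ Hⁿ(G_{L,S}, μ_p)` for `ζ_p ∈ L`. -/
noncomputable def HEquiv (n : ℕ) :
    levelCohomology (levelLS S L) (Rep.trivial (ZMod p) ↥L.fixingSubgroup (ZMod p)) n ≃+
      levelCohomology (levelLS S L) (resL L (muP S p)) n :=
  (levelCohomologyIntEquiv (Rep.trivial (ZMod p) ↥L.fixingSubgroup (ZMod p))
    (levelLS S L) n).symm.trans (HmapAddEquiv (levelLS S L) (muTrivIso S hp hpS hζ L hζL) n)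

variable (v : FinPlace L)

/-- The `ζ`-isomorphism over the local Galois group at a finite place: the restriction of the
global one along `decompHom`. -/
noncomputable def muTrivIsoLoc :
    toIntRep (Rep.trivial (ZMod p) (Gloc (v.prime : ℕ) L v.rep) (ZMod p)) ≅ muv p S L v :=
  (Rep.resFunctor (decompHom (v.prime : ℕ) L v.rep)).mapIso (muTrivIso S hp hpS hζ L hζL)

/-- **Local comparison**: `Hⁿ(L_v, ZMod p) ≃+ Hⁿ(L_v, μ_p)`. -/
noncomputable def HEquivLoc (n : ℕ) :
    levelCohomology (levelv L v) (Rep.trivial (ZMod p) (Gloc (v.prime : ℕ) L v.rep) (ZMod p)) n ≃+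
      levelCohomology (levelv L v) (muv p S L v) n :=
  (levelCohomologyIntEquiv (Rep.trivial (ZMod p) (Gloc (v.prime : ℕ) L v.rep) (ZMod p))
    (levelv L v) n).symm.trans
    (HmapAddEquiv (levelv L v) (muTrivIsoLoc S hp hpS hζ L hζL v) n)

/-- The restriction map `Hⁿ(G_{L,S}, ZMod p) → Hⁿ(L_v, ZMod p)` along `decompHom`. -/
noncomputable def resZ (p : ℕ) (n : ℕ) :
    levelCohomology (levelLS S L) (Rep.trivial (ZMod p) ↥L.fixingSubgroup (ZMod p)) n →+
      levelCohomology (levelv L v)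
        (Rep.trivial (ZMod p) (Gloc (v.prime : ℕ) L v.rep) (ZMod p)) n :=
  (levelCohomologyMap (decompHom (v.prime : ℕ) L v.rep)
    (refines_decompHom (v.prime : ℕ) L v.rep (globalLevel S) (open_globalLevel S))
    (𝟙 (Rep.trivial (ZMod p) (Gloc (v.prime : ℕ) L v.rep) (ZMod p))) n).hom.toAddMonoidHom

/-- **Naturality**: under the `ζ`-isomorphisms, the localisation map of `μ_p` (`BrauerInst.locAt`,
`BrauerInst.locμ`) is the plain restriction map along `decompHom` on `ZMod p`-coefficients. -/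
theorem locAt_HEquiv (n : ℕ)
    (c : levelCohomology (levelLS S L) (Rep.trivial (ZMod p) ↥L.fixingSubgroup (ZMod p)) n) :
    (locAt (v.prime : ℕ) L v.rep (muP S p) (globalLevel S) (open_globalLevel S) n).hom
        (HEquiv S hp hpS hζ L hζL n c) =
      HEquivLoc S hp hpS hζ L hζL v n (resZ S L v p n c) := by
  have hf := refines_decompHom (v.prime : ℕ) L v.rep (globalLevel S) (open_globalLevel S)
  have hI : IsDiscrete (levelv L v) (Rep.res (decompHom (v.prime : ℕ) L v.rep)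
      (toIntRep (Rep.trivial (ZMod p) ↥L.fixingSubgroup (ZMod p)))) :=
    isDiscrete_toIntRep (levelv L v) (Rep.trivial (ZMod p) (Gloc (v.prime : ℕ) L v.rep) (ZMod p))
  have hI' : IsDiscrete (levelv L v) (Rep.res (decompHom (v.prime : ℕ) L v.rep)
      (Rep.trivial (ZMod p) ↥L.fixingSubgroup (ZMod p))) :=
    isDiscrete_trivial (ZMod p) (levelv L v)
  -- step 1: commute the coefficient isomorphism with the change of group
  have h1 := congrArg (fun ψ => ψ.hom ((levelCohomologyIntEquiv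
      (Rep.trivial (ZMod p) ↥L.fixingSubgroup (ZMod p)) (levelLS S L) n).symm c))
    (Hmap_comp_levelCohomologyMap_id (𝒰 := levelLS S L) (𝒱 := levelv L v)
      (A := toIntRep (Rep.trivial (ZMod p) ↥L.fixingSubgroup (ZMod p)))
      (B := resL L (muP S p)) (decompHom (v.prime : ℕ) L v.rep) hf
      (muTrivIso S hp hpS hζ L hζL).hom n)
  -- step 2: the comparison of scalars commutes with the change of group
  have h3 := levelCohomologyMap_id_intEquiv_symm (𝒰 := levelLS S L) (𝒱 := levelv L v)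
    (decompHom (v.prime : ℕ) L v.rep) hf (Rep.trivial (ZMod p) ↥L.fixingSubgroup (ZMod p)) n c
  exact h1.trans (congrArg _ h3)

/-- The same for `BrauerInst.locμ` (degree 2). -/
theorem locμ_HEquiv
    (c : levelCohomology (levelLS S L) (Rep.trivial (ZMod p) ↥L.fixingSubgroup (ZMod p)) 2) :
    locμ p S L v (HEquiv S hp hpS hζ L hζL 2 c) =
      HEquivLoc S hp hpS hζ L hζL v 2 (resZ S L v p 2 c) :=
  locAt_HEquiv S hp hpS hζ L hζL v 2 c

/-! ### ARITH-L (b), (c) on `ZMod p`-coefficients -/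

/-- The kernel of the restriction maps `H²(G_{L,S}, ZMod p) → H²(L_v, ZMod p)`, `v | S`. -/
def kerResZ (p : ℕ) [FiniteDimensional ℚ L] : AddSubgroup
    (levelCohomology (levelLS S L) (Rep.trivial (ZMod p) ↥L.fixingSubgroup (ZMod p)) 2) where
  carrier := {c | ∀ v, v ∈ placesAbove L S → resZ S L v p 2 c = 0}
  zero_mem' := fun v _ => map_zero _
  add_mem' := fun ha hb v hv => by rw [map_add, ha v hv, hb v hv, add_zero]
  neg_mem' := fun ha v hv => by rw [map_neg, ha v hv, neg_zero]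

lemma mem_kerResZ [FiniteDimensional ℚ L]
    (c : levelCohomology (levelLS S L) (Rep.trivial (ZMod p) ↥L.fixingSubgroup (ZMod p)) 2) :
    c ∈ kerResZ S L p ↔ ∀ v, v ∈ placesAbove L S → resZ S L v p 2 c = 0 := Iff.rfl

/-- The `ζ`-isomorphism identifies the kernel of the restriction maps on `ZMod p`-coefficients
with the kernel `Ш²_S(L, μ_p)` of `BrauerCore.kerLocμ`. -/
noncomputable def kerResZEquiv [FiniteDimensional ℚ L] :
    kerResZ S L p ≃ BrauerCore.kerLocμ (S := placesAbove L S) (locμ p S L) where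
  toFun c := ⟨HEquiv S hp hpS hζ L hζL 2 c.1, fun v hv => by
    rw [locμ_HEquiv, c.2 v hv, map_zero]⟩
  invFun c := ⟨(HEquiv S hp hpS hζ L hζL 2).symm c.1, fun v hv => by
    apply (HEquivLoc S hp hpS hζ L hζL v 2).injective
    rw [← locμ_HEquiv, AddEquiv.apply_symm_apply, map_zero]
    exact c.2 v hv⟩
  left_inv c := Subtype.ext (AddEquiv.symm_apply_apply _ _)
  right_inv c := Subtype.ext (AddEquiv.apply_symm_apply _ _)

variable (F : ∀ v : FinPlace L,
  Formation (levelv L v) (unitsRep (Kv L v) (PadicAlgCl (v.prime : ℕ))))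

include hp hpS in
/-- `Ш²_S(L, μ_p)` is finite as soon as `H¹(G_{L,S}, E_S)` embeds into a finite group. -/
theorem finite_kerLocμ [FiniteDimensional ℚ L] (H : BrauerInput p S L F) {C : Type*}
    [AddCommGroup C] [Finite C]
    (φ : levelCohomology (levelLS S L) (resL L (ESUnits S)) 1 →+ C)
    (hφ : Function.Injective φ) :
    Finite (BrauerCore.kerLocμ (S := placesAbove L S) (locμ p S L)) := by
  have hfin : Finite (levelCohomology (levelLS S L) (resL L (ESUnits S)) 1) :=
    Finite.of_injective φ hφ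
  have hsub : (BrauerCore.kerLocμ (S := placesAbove L S) (locμ p S L) : Set _) ⊆
      Set.range (kummerδ (levelLS S L) (kummerL_shortExact p S L hp hpS) 1).hom := by
    intro c hc
    obtain ⟨a, ha⟩ := (H.locμ_eq_zero_iff hp hpS c).1 hc
    exact ⟨a, ha⟩
  exact ((Set.finite_range _).subset hsub).to_subtype

include hp hpS hζ hζL in
/-- **ARITH-L (b) on `ZMod p`-coefficients**: the kernel of the restriction maps
`H²(G_{L,S}, ZMod p) → ∏_{v | S} H²(L_v, ZMod p)` is finite with at most `|C / pC|` elements, if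
`H¹(G_{L,S}, E_S)` embeds into the finite abelian group `C` (`C = Cl_S(L)`). -/
theorem card_kerResZ_le [FiniteDimensional ℚ L] (H : BrauerInput p S L F) {C : Type*}
    [AddCommGroup C] [Finite C]
    (φ : levelCohomology (levelLS S L) (resL L (ESUnits S)) 1 →+ C)
    (hφ : Function.Injective φ) :
    Finite (kerResZ S L p) ∧
      Nat.card (kerResZ S L p) ≤ Nat.card (C ⧸ (nsmulAddMonoidHom p : C →+ C).range) := by
  have := finite_kerLocμ S hp hpS L F H φ hφ
  refine ⟨Finite.of_equiv _ (kerResZEquiv S hp hpS hζ L hζL).symm, ?_⟩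
  rw [Nat.card_congr (kerResZEquiv S hp hpS hζ L hζL)]
  exact H.card_sha2_le hp hpS φ hφ

/-- The sum of the local invariants on `∏_v H²(L_v, ZMod p)`. -/
noncomputable def sumInv [FiniteDimensional ℚ L] :
    (∀ v : FinPlace L, levelCohomology (levelv L v)
      (Rep.trivial (ZMod p) (Gloc (v.prime : ℕ) L v.rep) (ZMod p)) 2) →+ UnitAddCircle :=
  ∑ v ∈ placesAbove L S, (((F v).inv.comp (kappa p S L v)).comp
    (HEquivLoc S hp hpS hζ L hζL v 2).toAddMonoidHom).comp (Pi.evalAddMonoidHom _ v)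

lemma sumInv_apply [FiniteDimensional ℚ L] (x : ∀ v : FinPlace L, levelCohomology (levelv L v)
      (Rep.trivial (ZMod p) (Gloc (v.prime : ℕ) L v.rep) (ZMod p)) 2) :
    sumInv S hp hpS hζ L hζL F x =
      ∑ v ∈ placesAbove L S,
        (F v).inv (kappa p S L v (HEquivLoc S hp hpS hζ L hζL v 2 (x v))) := by
  simp [sumInv]

/-- **ARITH-L (c) on `ZMod p`-coefficients**: a family of local classes `x v ∈ H²(L_v, ZMod p)` is
the restriction of a class of `H²(G_{L,S}, ZMod p)` at all places above `S` iff the sum of its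
local invariants vanishes. -/
theorem exists_resZ_eq_iff [FiniteDimensional ℚ L] (H : BrauerInput p S L F)
    (x : ∀ v : FinPlace L, levelCohomology (levelv L v)
      (Rep.trivial (ZMod p) (Gloc (v.prime : ℕ) L v.rep) (ZMod p)) 2) :
    (∃ c, ∀ v, v ∈ placesAbove L S → resZ S L v p 2 c = x v) ↔
      sumInv S hp hpS hζ L hζL F x = 0 := by
  rw [sumInv_apply, ← H.exists_locμ_eq_iff hp hpS
    (fun v => HEquivLoc S hp hpS hζ L hζL v 2 (x v))]
  constructor
  · rintro ⟨c, hc⟩
    exact ⟨HEquiv S hp hpS hζ L hζL 2 c, fun v hv => by rw [locμ_HEquiv, hc v hv]⟩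
  · rintro ⟨c, hc⟩
    refine ⟨(HEquiv S hp hpS hζ L hζL 2).symm c, fun v hv => ?_⟩
    apply (HEquivLoc S hp hpS hζ L hζL v 2).injective
    rw [← locμ_HEquiv, AddEquiv.apply_symm_apply]
    exact hc v hv

/-- The sum of the local invariants takes values in the `p`-torsion. -/
theorem nsmul_sumInv [FiniteDimensional ℚ L] (x : ∀ v : FinPlace L, levelCohomology (levelv L v)
      (Rep.trivial (ZMod p) (Gloc (v.prime : ℕ) L v.rep) (ZMod p)) 2) :
    p • sumInv S hp hpS hζ L hζL F x = 0 := by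
  rw [sumInv_apply, Finset.smul_sum]
  refine Finset.sum_eq_zero fun v _ => ?_
  rw [← map_nsmul, ← map_nsmul, nsmul_H2μv p S L v hp hpS, map_zero, map_zero]

end Concrete

end Fermat.Agent.S55.GL.MuTriv
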