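/-
S55 / GLO15, part 5 (T3): ARITH-L (b′), (c′) in the language of `ShapiroTransport.locL`.

From helper14's `BrauerInput` and helper15's `MuTriv` (ARITH-L (b), (c) on `ZMod p`-coefficients over
the places of `L` above `S`), transported through `MackeyBrauerMatch.localMatch` (the Mackey family
of `localData S` over `G_L` is `brauerData L S`):
* `exists_additive_locL` (c′): an additive map `s` on `∏_{v,i} HL²` into the circle with
  `ker s ⊆ range (locL … 2)`;
* `finrank_ker_locL_le` (b′): `dim ker (locL … 2) ≤ c` if `H¹(G_{L,S}, E_S) ↪ C`, `|C/pC| ≤ p^c`.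
-/
import Fermat.Agent.S55.GL.MackeyBrauerMatch
import Fermat.Agent.S55.GL.MuTriv
import Fermat.Agent.S55.GL.ArithLInst

set_option autoImplicit false

namespace Fermat.Agent.S55.GL.ArithT3c

open CategoryTheory Fermat.Agent.S55.Level Fermat.Agent.S55.Cone Fermat.Agent.S55.GaloisLevel
  Fermat.Agent.S55.GL.Places Fermat.Agent.S55.GL.BrauerLocal Fermat.Agent.S55.GL.BrauerData
  Fermat.Agent.S55.GL.BrauerInst Fermat.Agent.S55.GL.MuTriv
  Fermat.Agent.S55.GL.MackeyBrauerMatch Fermat.Agent.S55.GL.ArithLInst
  Fermat.Agent.S55.LocalDataMatch Fermat.Agent.S55.Assembly Fermat.Agent.S55.ShapiroTransport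
  Fermat.Agent.S55.CFAbs Fermat.Agent.S55.GL.QSMod Fermat.Agent.S55.CF Fermat.Agent.S55.LevelScalars

local notation "Qbar" => AlgebraicClosure ℚ
local notation "Γ" => (AlgebraicClosure ℚ ≃ₐ[ℚ] AlgebraicClosure ℚ)

local instance isGaloisQbar_T3c : IsGalois ℚ Qbar := Fermat.Agent.S55.Level.isGalois_Qbar
local instance factPrime_T3c (q : Nat.Primes) : Fact (q : ℕ).Prime := ⟨q.2⟩
local instance isDiscrete_trivial_T3c (k : Type) [CommRing k] {G : Type} [Group G]
    (𝒰 : LevelStructure G) : IsDiscrete 𝒰 (Rep.trivial k G k) := isDiscrete_trivial k 𝒰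

variable (S : Finset Nat.Primes) {p : ℕ} [hpF : Fact p.Prime]
  (L : IntermediateField ℚ Qbar)
  [IsDiscrete ((globalLevel S).restrict L.fixingSubgroup) (trivU (ZMod p) L.fixingSubgroup)]

/-- Explicit instance (the discrimination tree does not see through `Rep.res ∘ Rep.res`). -/
local instance isDiscrete_brauerData_trivU_T3c (w : (brauerData L S).ι) :
    IsDiscrete ((brauerData L S).𝒱 w)
      (Rep.res ((brauerData L S).r w) (trivU (ZMod p) L.fixingSubgroup)) :=
  LocalData.isDiscrete_res _ _ w

/-- The index of `brauerData L S` given by a finite place of `L` above `S`. -/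
def mkW (v : FinPlace L) (h : v.1 ∈ S) : (brauerData L S).ι := ⟨⟨v.1, h⟩, v.2⟩

/-- The identification (definitional) of the local cohomology group of `brauerData L S` at a place
above `S` with helper15's `H²(L_v, ZMod p)`. -/
noncomputable def toHZ (v : FinPlace L) (h : v.1 ∈ S) :
    levelCohomology ((brauerData L S).𝒱 (mkW S L v h))
      (Rep.res ((brauerData L S).r (mkW S L v h)) (trivU (ZMod p) L.fixingSubgroup)) 2 →+
    levelCohomology (levelv L v)
      (Rep.trivial (ZMod p) (Gloc (v.prime : ℕ) L v.rep) (ZMod p)) 2 :=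
  AddMonoidHom.id _

/-- Extension by zero of a family of local classes indexed by the places above `S` to all finite
places of `L`. -/
noncomputable def extZero :
    (∀ w : (brauerData L S).ι, levelCohomology ((brauerData L S).𝒱 w)
      (Rep.res ((brauerData L S).r w) (trivU (ZMod p) L.fixingSubgroup)) 2) →+
    (∀ v : FinPlace L, levelCohomology (levelv L v)
      (Rep.trivial (ZMod p) (Gloc (v.prime : ℕ) L v.rep) (ZMod p)) 2) where
  toFun y := fun v => if h : v.1 ∈ S then toHZ S L v h (y (mkW S L v h)) else 0
  map_zero' := by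
    funext v
    by_cases h : v.1 ∈ S
    · show (if h : v.1 ∈ S then toHZ S L v h _ else 0) = _
      rw [dif_pos h]
      exact map_zero (toHZ S L v h)
    · show (if h : v.1 ∈ S then toHZ S L v h _ else 0) = _
      rw [dif_neg h]
      rfl
  map_add' y y' := by
    funext v
    by_cases h : v.1 ∈ S
    · show (if h : v.1 ∈ S then toHZ S L v h _ else 0) =
        (if h : v.1 ∈ S then toHZ S L v h _ else 0) + (if h : v.1 ∈ S then toHZ S L v h _ else 0)
      rw [dif_pos h, dif_pos h, dif_pos h]
      exact map_add (toHZ S L v h) _ _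
    · show (if h : v.1 ∈ S then toHZ S L v h _ else 0) =
        (if h : v.1 ∈ S then toHZ S L v h _ else 0) + (if h : v.1 ∈ S then toHZ S L v h _ else 0)
      rw [dif_neg h, dif_neg h, dif_neg h, add_zero]

theorem extZero_apply (y : ∀ w : (brauerData L S).ι, levelCohomology ((brauerData L S).𝒱 w)
      (Rep.res ((brauerData L S).r w) (trivU (ZMod p) L.fixingSubgroup)) 2) (w : PlaceS L S) :
    extZero S L y (PlaceS.toFinPlace L S w) = y w := by
  show (if h : w.1.1 ∈ S then toHZ S L ⟨w.1.1, w.2⟩ h (y (mkW S L ⟨w.1.1, w.2⟩ h)) else 0) = y w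
  rw [dif_pos w.1.2]
  rfl

/-- The component of the localisation map of `brauerData L S` at a place above `S` is helper15's
restriction map `resZ`. -/
theorem locH_brauerData_apply
    (c : levelCohomology ((globalLevel S).restrict L.fixingSubgroup)
      (trivU (ZMod p) L.fixingSubgroup) 2) (w : PlaceS L S) :
    locH (brauerData L S) (trivU (ZMod p) L.fixingSubgroup) 2 c w =
      resZ S L (PlaceS.toFinPlace L S w) p 2 c := rfl

section Main

variable (hpS : (⟨p, hpF.out⟩ : Nat.Primes) ∈ S) {ζ : Qbar} (hζ : IsPrimitiveRoot ζ p)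
  (hζL : ζ ∈ L) [FiniteDimensional ℚ L]
  (F : ∀ v : FinPlace L, Formation (levelv L v) (unitsRep (Kv L v) (PadicAlgCl (v.prime : ℕ))))

/-- The sum of the local invariants on the local classes of `brauerData L S`. -/
noncomputable def sumInvS :
    (∀ w : (brauerData L S).ι, levelCohomology ((brauerData L S).𝒱 w)
      (Rep.res ((brauerData L S).r w) (trivU (ZMod p) L.fixingSubgroup)) 2) →+ UnitAddCircle :=
  (sumInv S hpF.out hpS hζ L hζL F).comp (extZero S L)

/-- **ARITH-L (c) for `brauerData L S`**: a family of local classes with vanishing sum of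
invariants is in the image of the localisation map. -/
theorem exists_locH_brauerData_eq (H : BrauerInput p S L F)
    (y : ∀ w : (brauerData L S).ι, levelCohomology ((brauerData L S).𝒱 w)
      (Rep.res ((brauerData L S).r w) (trivU (ZMod p) L.fixingSubgroup)) 2)
    (hy : sumInvS S L hpS hζ hζL F y = 0) :
    ∃ c, locH (brauerData L S) (trivU (ZMod p) L.fixingSubgroup) 2 c = y := by
  obtain ⟨c, hc⟩ := (exists_resZ_eq_iff S hpF.out hpS hζ L hζL F H (extZero S L y)).2 hy
  let c' : levelCohomology ((globalLevel S).restrict L.fixingSubgroup)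
    (trivU (ZMod p) L.fixingSubgroup) 2 := c
  refine ⟨c', funext fun w => ?_⟩
  have h1 := locH_brauerData_apply S L c' w
  have h2 := hc _ (PlaceS.toFinPlace_mem L S w)
  have h3 := extZero_apply S L y w
  exact h1.trans (h2.trans h3)

/-- Explicit instance for the Mackey family (same reason as above). -/
local instance isDiscrete_mackeyData_trivU_T3c
    (w : (mackeyData (localData S) L.fixingSubgroup (sigma S L)).ι) :
    IsDiscrete ((mackeyData (localData S) L.fixingSubgroup (sigma S L)).𝒱 w)
      (Rep.res ((mackeyData (localData S) L.fixingSubgroup (sigma S L)).r w)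
        (trivU (ZMod p) L.fixingSubgroup)) :=
  LocalData.isDiscrete_res _ _ w

include hpS hζ hζL in
/-- **T3 (c′)**: ARITH-L (c) in the form consumed by `ArithLInst.ArithU` / `K2_of_locL`: an
additive map on `∏_{v,i} HL²` into the circle whose kernel lies in the range of `locL`. -/
theorem exists_additive_locL (H : BrauerInput p S L F) :
    ∃ (Q : Type) (_ : AddCommGroup Q)
      (s : (∀ v, ∀ i : PlacesOver (((v : (localData S).ι).1 : Nat.Primes) : ℕ) L,
        HL (localData S) L.fixingSubgroup (trivU (ZMod p) L.fixingSubgroup) (sigma S L) 2 v i)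
          →+ Q),
      (∀ a b : Q, p • a = 0 → p • b = 0 → a ≠ 0 → ∃ m : ℕ, b = m • a) ∧
      ∀ x, s x = 0 → x ∈ LinearMap.range
        (locL (localData S) L.fixingSubgroup (trivU (ZMod p) L.fixingSubgroup) (sigma S L) 2) := by
  let M := localMatch S L
  let A := trivU (ZMod p) L.fixingSubgroup
  let e1 := curryEquiv (localData S) L.fixingSubgroup (sigma S L) A 2
  let e2 := M.prodEquiv A 2
  refine ⟨UnitAddCircle, inferInstance,
    ((sumInvS S L hpS hζ hζL F).comp e2.symm.toLinearMap.toAddMonoidHom).comp
      e1.symm.toLinearMap.toAddMonoidHom,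
    fun a b ha hb ha0 => exists_eq_nsmul_of_ptorsion hpF.out a b ha hb ha0, fun x hx => ?_⟩
  obtain ⟨c, hc⟩ := exists_locH_brauerData_eq S L hpS hζ hζL F H (e2.symm (e1.symm x)) hx
  refine ⟨c, ?_⟩
  have h1 : e2 (locH (brauerData L S) A 2 c) =
      locH (mackeyData (localData S) L.fixingSubgroup (sigma S L)) A 2 c :=
    M.prodEquiv_locH A 2 c
  have h2 : e1 (locH (mackeyData (localData S) L.fixingSubgroup (sigma S L)) A 2 c) =
      locL (localData S) L.fixingSubgroup A (sigma S L) 2 c :=
    curryEquiv_locH (localData S) L.fixingSubgroup (sigma S L) A 2 c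
  rw [← h2, ← h1, hc, LinearEquiv.apply_symm_apply, LinearEquiv.apply_symm_apply]

omit hpF in
/-- A finite `ZMod p`-vector space with at most `p ^ c` elements has dimension at most `c`. -/
theorem finrank_le_of_card_le [Fact p.Prime] {V : Type*} [AddCommGroup V] [Module (ZMod p) V]
    [Finite V] (c : ℕ) (h : Nat.card V ≤ p ^ c) :
    FiniteDimensional (ZMod p) V ∧ Module.finrank (ZMod p) V ≤ c := by
  have hfd : FiniteDimensional (ZMod p) V := Module.Finite.of_finite
  refine ⟨hfd, ?_⟩
  have h1 : Nat.card V = p ^ Module.finrank (ZMod p) V := by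
    rw [Module.natCard_eq_pow_finrank (K := ZMod p) (V := V), Nat.card_zmod]
  rw [h1] at h
  exact (Nat.pow_le_pow_iff_right (Fact.out : p.Prime).one_lt).1 h

omit [FiniteDimensional ℚ ↥L] in
/-- The kernel of `locL` is the kernel of the localisation map of `brauerData L S`. -/
theorem locL_eq_zero_iff (x : levelCohomology ((globalLevel S).restrict L.fixingSubgroup)
      (trivU (ZMod p) L.fixingSubgroup) 2) [FiniteDimensional ℚ L] :
    locL (localData S) L.fixingSubgroup (trivU (ZMod p) L.fixingSubgroup) (sigma S L) 2 x = 0 ↔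
      locH (brauerData L S) (trivU (ZMod p) L.fixingSubgroup) 2 x = 0 := by
  let M := localMatch S L
  let A := trivU (ZMod p) L.fixingSubgroup
  let e1 := curryEquiv (localData S) L.fixingSubgroup (sigma S L) A 2
  let e2 := M.prodEquiv A 2
  have h1 : e2 (locH (brauerData L S) A 2 x) =
      locH (mackeyData (localData S) L.fixingSubgroup (sigma S L)) A 2 x :=
    M.prodEquiv_locH A 2 x
  have h2 : e1 (locH (mackeyData (localData S) L.fixingSubgroup (sigma S L)) A 2 x) =
      locL (localData S) L.fixingSubgroup A (sigma S L) 2 x :=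
    curryEquiv_locH (localData S) L.fixingSubgroup (sigma S L) A 2 x
  rw [← h2, ← h1, LinearEquiv.map_eq_zero_iff, LinearEquiv.map_eq_zero_iff]

/-- The kernel of the localisation map of `brauerData L S` is helper15's `kerResZ`. -/
theorem locH_brauerData_eq_zero_iff (x : levelCohomology ((globalLevel S).restrict L.fixingSubgroup)
      (trivU (ZMod p) L.fixingSubgroup) 2) :
    locH (brauerData L S) (trivU (ZMod p) L.fixingSubgroup) 2 x = 0 ↔
      (x : levelCohomology (levelLS S L)
        (Rep.trivial (ZMod p) ↥L.fixingSubgroup (ZMod p)) 2) ∈ kerResZ S L p := by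
  constructor
  · intro h v hv
    have h1 := locH_brauerData_apply S L x (mkW S L v ((mem_placesAbove L S v).1 hv))
    have h2 := congrFun h (mkW S L v ((mem_placesAbove L S v).1 hv))
    exact h1.symm.trans h2
  · intro h
    funext w
    exact (locH_brauerData_apply S L x w).trans (h _ (PlaceS.toFinPlace_mem L S w))

include hpS hζ hζL in
/-- **T3 (b′)**: the kernel of `locL` in degree 2 is finite-dimensional of dimension at most `c`, as
soon as `H¹(G_{L,S}, E_S)` embeds into a finite abelian group `C` with `|C / pC| ≤ p ^ c`. -/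
theorem finrank_ker_locL_le (H : BrauerInput p S L F) {C : Type*} [AddCommGroup C] [Finite C]
    (φ : levelCohomology (levelLS S L) (resL L (ESUnits S)) 1 →+ C)
    (hφ : Function.Injective φ) (c : ℕ)
    (hc : Nat.card (C ⧸ (nsmulAddMonoidHom p : C →+ C).range) ≤ p ^ c) :
    FiniteDimensional (ZMod p) (LinearMap.ker (locL (localData S) L.fixingSubgroup
      (trivU (ZMod p) L.fixingSubgroup) (sigma S L) 2)) ∧
    Module.finrank (ZMod p) (LinearMap.ker (locL (localData S) L.fixingSubgroup
      (trivU (ZMod p) L.fixingSubgroup) (sigma S L) 2)) ≤ c := by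
  obtain ⟨hfin, hcard⟩ := card_kerResZ_le S hpF.out hpS hζ L hζL F H φ hφ
  let f : LinearMap.ker (locL (localData S) L.fixingSubgroup
      (trivU (ZMod p) L.fixingSubgroup) (sigma S L) 2) → kerResZ S L p :=
    fun x => ⟨x.1, (locH_brauerData_eq_zero_iff S L x.1).1
      ((locL_eq_zero_iff S L x.1).1 (LinearMap.mem_ker.1 x.2))⟩
  have hf : Function.Injective f := fun x y h =>
    Subtype.ext (show x.1 = y.1 from congrArg (fun z : kerResZ S L p => z.1) h)
  have : Finite (LinearMap.ker (locL (localData S) L.fixingSubgroup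
      (trivU (ZMod p) L.fixingSubgroup) (sigma S L) 2)) := Finite.of_injective f hf
  exact finrank_le_of_card_le c ((Nat.card_le_card_of_injective f hf).trans (hcard.trans hc))

end Main

end Fermat.Agent.S55.GL.ArithT3c
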