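/-
S55 / GLO15, part 6 (T3, final): the arithmetic blocks `ArithUInst.AllBrauerBlocks S p` from
helper14's `BrauerInput` over every good field `L` and an injection of `H¹(G_{L,S}, E_S)` into the
`S`-class group of `L`.
-/
import Fermat.Agent.S55.GL.ArithT3c
import Fermat.Agent.S55.GL.ArithUInst

set_option autoImplicit false

namespace Fermat.Agent.S55.GL.ArithT3

open CategoryTheory Fermat.Agent.S55.Level Fermat.Agent.S55.Cone Fermat.Agent.S55.GaloisLevel
  Fermat.Agent.S55.GL.Places Fermat.Agent.S55.GL.BrauerLocal Fermat.Agent.S55.GL.BrauerData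
  Fermat.Agent.S55.GL.BrauerInst Fermat.Agent.S55.GL.MuTriv
  Fermat.Agent.S55.GL.MackeyBrauerMatch Fermat.Agent.S55.GL.ArithLInst
  Fermat.Agent.S55.GL.ArithT3c Fermat.Agent.S55.GL.ArithUInst
  Fermat.Agent.S55.Assembly Fermat.Agent.S55.ShapiroTransport
  Fermat.Agent.S55.CFAbs Fermat.Agent.S55.GL.QSMod Fermat.Agent.S55.CF
  Fermat.Agent.S55.GL.Kummer Fermat.Agent.S55.GL.ClassT

local notation "Qbar" => AlgebraicClosure ℚ
local notation "Γ" => (AlgebraicClosure ℚ ≃ₐ[ℚ] AlgebraicClosure ℚ)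

local instance isGaloisQbar_T3 : IsGalois ℚ Qbar := Fermat.Agent.S55.Level.isGalois_Qbar
local instance factPrime_T3 (q : Nat.Primes) : Fact (q : ℕ).Prime := ⟨q.2⟩

variable (S : Finset Nat.Primes) {p : ℕ} [hpF : Fact p.Prime]

/-- **The arithmetic block over one good field** from `BrauerInput` and an injection of
`H¹(G_{L,S}, E_S)` into a finite abelian group `C` with `|C / pC| ≤ p ^ c_S(L)`. -/
theorem brauerBlock_of_input (hpS : (⟨p, hpF.out⟩ : Nat.Primes) ∈ S)
    (L : IntermediateField ℚ Qbar) [NumberField L]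
    (hμp : ∀ ω : Qbar, ω ^ p = 1 → ω ∈ L)
    [IsOpenSub (globalLevel S) L.fixingSubgroup]
    [IsDiscrete ((globalLevel S).restrict L.fixingSubgroup) (trivU (ZMod p) L.fixingSubgroup)]
    (F : ∀ v : FinPlace L, Formation (levelv L v) (unitsRep (Kv L v) (PadicAlgCl (v.prime : ℕ))))
    (H : BrauerInput p S L F) {C : Type*} [AddCommGroup C] [Finite C]
    (φ : levelCohomology (levelLS S L) (resL L (ESUnits S)) 1 →+ C)
    (hφ : Function.Injective φ)
    (hc : Nat.card (C ⧸ (nsmulAddMonoidHom p : C →+ C).range) ≤ p ^ cS L S p) :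
    BrauerBlock S p L := by
  obtain ⟨ζ, hζ⟩ := Fermat.Agent.S55.DualTwist.exists_primitiveRoot p
  have hζL : ζ ∈ L := hμp ζ hζ.pow_eq_one
  exact ⟨exists_additive_locL S L hpS hζ hζL F H,
    finrank_ker_locL_le S L hpS hζ hζL F H φ hφ (cS L S p) hc⟩

/-- **T3**: `AllBrauerBlocks S p` from the arithmetic inputs over every good field `L`:
`BrauerInput p S L F` (for some family of local class formations `F`) and an injection of
`H¹(G_{L,S}, E_S)` into the `S`-class group `Cl_S(L)`. -/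
theorem allBrauerBlocks_of_inputs (hpS : (⟨p, hpF.out⟩ : Nat.Primes) ∈ S)
    (hIn : ∀ (L : IntermediateField ℚ Qbar) [NumberField L], L.IsUnramifiedOutside S →
      Normal ℚ L → (∀ ω : Qbar, ω ^ p = 1 → ω ∈ L) →
      ∃ F : ∀ v : FinPlace L,
        Formation (levelv L v) (unitsRep (Kv L v) (PadicAlgCl (v.prime : ℕ))),
        BrauerInput p S L F)
    (hφ : ∀ (L : IntermediateField ℚ Qbar) [NumberField L], L.IsUnramifiedOutside S →
      Normal ℚ L → (∀ ω : Qbar, ω ^ p = 1 → ω ∈ L) →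
      ∃ φ : levelCohomology (levelLS S L) (resL L (ESUnits S)) 1 →+ ClT L (primesAbove L S),
        Function.Injective φ) :
    AllBrauerBlocks S p := by
  intro L _ hL hnorm hμp _ _
  obtain ⟨F, H⟩ := hIn L hL hnorm hμp
  obtain ⟨φ, hφ'⟩ := hφ L hL hnorm hμp
  exact brauerBlock_of_input S hpS L hμp F H φ hφ' (card_quotient_ClT L S).le

end Fermat.Agent.S55.GL.ArithT3
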