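import Mathlib
import Fermat.Agent.S55.GL.KummerCount
import Fermat.Agent.S14.GalDivisors
import Fermat.Agent.S55.GL.PlacesPrimeUnits

/-!
# S55 / GL4 part 7: Galois action on divisors off `S`, extension of divisors, capitulation

Namespace `Fermat.Agent.S55.GL.ClassTGalois`.  `F, F' : IntermediateField ℚ ℚ̄` number fields,
`T_F = Kummer.primesAbove F S`, `XS F S = {v // v ∉ T_F}`, `DivT F T_F = XS F S →₀ ℤ` (GL/ClassT).

* (a) `gsmul F σ v` (`σ ∈ Γ` acting on the primes of a normal `F` through `σ|_F`), `permX F S σ`,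
  `galMulAction F S` (not an instance), **`galRep F S : Representation ℤ Γ (DivT F T_F)`**,
  `galRep_apply_permX`, `galRep_single`, `galRep_of_mem_fixingSubgroup`.
* (b) `unitsGal F σ`, **`divT_unitsGal`** : `div (σ x) = σ • div x`.
* (c) for `h : F ≤ F'`: `intIncl h`, `below h w`, `below_placeBelow`, `below_trans`,
  `below_surjective`, `ordAt_placeBelow_eq_iff` (`q` is a uniformiser off `S`),
  **`ordAt_unitsIncl`** (`e = 1` off `S`), **`extDiv h S`**, `extDiv_apply`, **`extDiv_divT`**,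
  `extDiv_injective`, `extDiv_comp`, `below_gsmul`, **`extDiv_galRep`**, `unitsIncl_unitsGal`.
* (d) **`exists_capitulation`** : every divisor of `F` off `S` becomes principal, up to a multiple
  prime to `p`, in a finite Galois `S`-unramified extension (`S ∋ p`).
-/

set_option autoImplicit false
set_option linter.style.haveILetI false
set_option linter.unusedSectionVars false

open IntermediateField NumberField IsDedekindDomain
open Fermat.Agent.S55.SUnit Fermat.Agent.S55.GL.ClassT Fermat.Agent.S55.GL.Kummer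
open Fermat.Agent.S55.GL.UnramBridge Fermat.Agent.S55.GL.QS
open Fermat.Agent.S14.GalDiv

namespace Fermat.Agent.S55.GL.ClassTGalois

local notation "Qbar" => AlgebraicClosure ℚ
local notation "Γ" => (AlgebraicClosure ℚ ≃ₐ[ℚ] AlgebraicClosure ℚ)

local instance isGalois_of_normal_ctg (F : IntermediateField ℚ Qbar) [Normal ℚ F] :
    IsGalois ℚ F := {}

section Action

variable (F : IntermediateField ℚ Qbar) [NumberField F] [Normal ℚ F]

/-- the action of `σ ∈ Γ` on the primes of `F` (through `σ|_F`). -/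
noncomputable def gsmul (σ : Γ) (v : HeightOneSpectrum (𝓞 F)) : HeightOneSpectrum (𝓞 F) :=
  (AlgEquiv.restrictNormalHom F σ) • v

theorem gsmul_one (v : HeightOneSpectrum (𝓞 F)) : gsmul F 1 v = v := by
  rw [gsmul, map_one, one_smul]

theorem gsmul_mul (σ τ : Γ) (v : HeightOneSpectrum (𝓞 F)) :
    gsmul F (σ * τ) v = gsmul F σ (gsmul F τ v) := by
  rw [gsmul, map_mul, mul_smul]
  rfl

/-- `σ|_F` on `F`. -/
theorem coe_restrictNormalHom (σ : Γ) (x : F) :
    ((AlgEquiv.restrictNormalHom F σ x : F) : Qbar) = σ (x : Qbar) :=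
  AlgEquiv.restrictNormal_commutes σ F x

theorem gsmul_of_mem_fixingSubgroup {σ : Γ} (hσ : σ ∈ F.fixingSubgroup)
    (v : HeightOneSpectrum (𝓞 F)) : gsmul F σ v = v := by
  have h1 : AlgEquiv.restrictNormalHom F σ = 1 := by
    apply AlgEquiv.ext
    intro x
    apply Subtype.ext
    rw [coe_restrictNormalHom F σ x]
    exact (IntermediateField.mem_fixingSubgroup_iff F σ).1 hσ x x.2
  rw [gsmul, h1, one_smul]

theorem valuation_gsmul (σ : Γ) (v : HeightOneSpectrum (𝓞 F)) (x : F) :
    (gsmul F σ v).valuation F (AlgEquiv.restrictNormalHom F σ x) = v.valuation F x :=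
  valuation_smul (AlgEquiv.restrictNormalHom F σ) v x

/-- `(q : 𝓞 F) ∈ σ • v ↔ (q : 𝓞 F) ∈ v`. -/
theorem natCast_mem_gsmul_iff (σ : Γ) (v : HeightOneSpectrum (𝓞 F)) (q : ℕ) :
    (q : 𝓞 F) ∈ (gsmul F σ v).asIdeal ↔ (q : 𝓞 F) ∈ v.asIdeal := by
  rw [gsmul, mem_smul_asIdeal_iff]
  have h1 : (AlgEquiv.restrictNormalHom F σ)⁻¹ • ((q : 𝓞 F)) = ((q : 𝓞 F)) :=
    map_natCast (MulSemiringAction.toRingHom (F ≃ₐ[ℚ] F) (𝓞 F)
      (AlgEquiv.restrictNormalHom F σ)⁻¹) q
  rw [h1]

theorem gsmul_mem_primesAbove_iff (S : Finset Nat.Primes) (σ : Γ)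
    (v : HeightOneSpectrum (𝓞 F)) : gsmul F σ v ∈ primesAbove F S ↔ v ∈ primesAbove F S := by
  rw [mem_primesAbove, mem_primesAbove, IsOff, IsOff]
  simp only [natCast_mem_gsmul_iff]

end Action


section Rep

variable (F : IntermediateField ℚ Qbar) [NumberField F] [Normal ℚ F] (S : Finset Nat.Primes)

/-- the primes of `F` off `S`. -/
abbrev XS := {v : HeightOneSpectrum (𝓞 F) // v ∉ primesAbove F S}

/-- `σ ∈ Γ` permutes the primes of `F` off `S`. -/
noncomputable def permX (σ : Γ) : Equiv.Perm (XS F S) where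
  toFun v := ⟨gsmul F σ v.1, fun h => v.2 ((gsmul_mem_primesAbove_iff F S σ v.1).1 h)⟩
  invFun v := ⟨gsmul F σ⁻¹ v.1, fun h => v.2 ((gsmul_mem_primesAbove_iff F S σ⁻¹ v.1).1 h)⟩
  left_inv v := Subtype.ext (by
    show gsmul F σ⁻¹ (gsmul F σ v.1) = v.1
    rw [← gsmul_mul, inv_mul_cancel, gsmul_one])
  right_inv v := Subtype.ext (by
    show gsmul F σ (gsmul F σ⁻¹ v.1) = v.1
    rw [← gsmul_mul, mul_inv_cancel, gsmul_one])

@[simp] theorem coe_permX (σ : Γ) (v : XS F S) : ((permX F S σ v : XS F S) : _) = gsmul F σ v.1 :=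
  rfl

@[simp] theorem coe_permX_symm (σ : Γ) (v : XS F S) :
    (((permX F S σ).symm v : XS F S) : _) = gsmul F σ⁻¹ v.1 := rfl

theorem permX_one : permX F S 1 = 1 := by
  ext v
  rw [coe_permX, gsmul_one]
  rfl

theorem permX_mul (σ τ : Γ) : permX F S (σ * τ) = permX F S σ * permX F S τ := by
  ext v
  rw [coe_permX, gsmul_mul]
  rfl

theorem permX_of_mem_fixingSubgroup {σ : Γ} (hσ : σ ∈ F.fixingSubgroup) : permX F S σ = 1 := by
  ext v
  rw [coe_permX, gsmul_of_mem_fixingSubgroup F hσ]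
  rfl

/-- the action of `Γ` on the primes of `F` off `S` (not an instance). -/
noncomputable abbrev galMulAction : MulAction Γ (XS F S) where
  smul σ v := permX F S σ v
  one_smul v := by
    show permX F S 1 v = v
    rw [permX_one]; rfl
  mul_smul σ τ v := by
    show permX F S (σ * τ) v = permX F S σ (permX F S τ v)
    rw [permX_mul]; rfl

/-- **the permutation representation of `Γ` on the divisors of `F` off `S`.** -/
noncomputable def galRep : Representation ℤ Γ (DivT F (primesAbove F S)) where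
  toFun σ := (Finsupp.domLCongr (permX F S σ)).toLinearMap
  map_one' := by
    rw [permX_one]
    ext D v
    simp [Finsupp.domLCongr_apply]
  map_mul' σ τ := by
    rw [permX_mul]
    ext D v
    simp [Finsupp.domLCongr_apply]

theorem galRep_apply_apply (σ : Γ) (D : DivT F (primesAbove F S)) (v : XS F S) :
    galRep F S σ D v = D ((permX F S σ).symm v) := rfl

theorem galRep_apply_permX (σ : Γ) (D : DivT F (primesAbove F S)) (v : XS F S) :
    galRep F S σ D (permX F S σ v) = D v := by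
  rw [galRep_apply_apply, Equiv.symm_apply_apply]

theorem galRep_single (σ : Γ) (v : XS F S) (n : ℤ) :
    galRep F S σ (Finsupp.single v n) = Finsupp.single (permX F S σ v) n := by
  show Finsupp.domLCongr (permX F S σ) (Finsupp.single v n) = _
  rw [Finsupp.domLCongr_single]

theorem galRep_of_mem_fixingSubgroup {σ : Γ} (hσ : σ ∈ F.fixingSubgroup) :
    galRep F S σ = 1 := by
  apply LinearMap.ext
  intro D
  ext v
  rw [galRep_apply_apply, permX_of_mem_fixingSubgroup F S hσ]
  rfl

/-- `σ|_F` on units. -/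
noncomputable def unitsGal (σ : Γ) : (↥F)ˣ →* (↥F)ˣ :=
  Units.map ((AlgEquiv.restrictNormalHom F σ : F ≃ₐ[ℚ] F) : F →* F)

theorem coe_unitsGal (σ : Γ) (x : (↥F)ˣ) :
    (((unitsGal F σ x : (↥F)ˣ) : F) : Qbar) = σ ((x : F) : Qbar) :=
  coe_restrictNormalHom F σ (x : F)

/-- **`div (σ x) = σ • div x`**. -/
theorem divT_unitsGal (σ : Γ) (x : (↥F)ˣ) :
    divT (primesAbove F S) (Additive.ofMul (unitsGal F σ x)) =
      galRep F S σ (divT (primesAbove F S) (Additive.ofMul x)) := by
  ext w
  rw [galRep_apply_apply, divT_apply, divT_apply, ordAt_apply, ordAt_apply, coe_permX_symm]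
  congr 2
  have h := valuation_gsmul F σ⁻¹ w.1 (AlgEquiv.restrictNormalHom F σ (x : F))
  have h2 : AlgEquiv.restrictNormalHom F σ⁻¹ (AlgEquiv.restrictNormalHom F σ (x : F)) = (x : F) := by
    rw [← AlgEquiv.mul_apply, ← map_mul, inv_mul_cancel, map_one]
    rfl
  rw [h2] at h
  exact h.symm

end Rep

section Below

variable {F F' : IntermediateField ℚ Qbar} [NumberField F] [NumberField F'] (h : F ≤ F')

/-- the inclusion `𝓞 F → 𝓞 F'`. -/
noncomputable def intIncl : 𝓞 F →+* 𝓞 F' :=
  RingOfIntegers.mapRingHom (IntermediateField.inclusion h : F →+* F')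

theorem coe_intIncl (x : 𝓞 F) : (((intIncl h x : 𝓞 F') : F') : Qbar) = ((x : F) : Qbar) := rfl

/-- the prime of `F` below a prime of `F'`. -/
noncomputable def below (w : HeightOneSpectrum (𝓞 F')) : HeightOneSpectrum (𝓞 F) where
  asIdeal := w.asIdeal.comap (intIncl h)
  isPrime := Ideal.comap_isPrime _ _
  ne_bot := by
    obtain ⟨q, hq⟩ := PlacesUnits.exists_natCast_mem w
    intro hbot
    have h1 : ((q : ℕ) : 𝓞 F) ∈ w.asIdeal.comap (intIncl h) := by
      rw [Ideal.mem_comap, map_natCast]; exact hq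
    rw [hbot, Ideal.mem_bot] at h1
    exact (by exact_mod_cast q.2.ne_zero : ((q : ℕ) : 𝓞 F) ≠ 0) h1

theorem mem_below_iff (w : HeightOneSpectrum (𝓞 F')) (x : 𝓞 F) :
    x ∈ (below h w).asIdeal ↔ intIncl h x ∈ w.asIdeal := Iff.rfl

theorem natCast_mem_below_iff (w : HeightOneSpectrum (𝓞 F')) (q : ℕ) :
    (q : 𝓞 F) ∈ (below h w).asIdeal ↔ (q : 𝓞 F') ∈ w.asIdeal := by
  rw [mem_below_iff, map_natCast]

theorem below_mem_primesAbove_iff (S : Finset Nat.Primes) (w : HeightOneSpectrum (𝓞 F')) :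
    below h w ∈ primesAbove F S ↔ w ∈ primesAbove F' S := by
  rw [mem_primesAbove, mem_primesAbove, IsOff, IsOff]
  simp only [natCast_mem_below_iff]

theorem below_placeBelow (A : ValuationSubring Qbar) {q : ℕ} (hq : q ≠ 0)
    (hA : A.LiesOverPrime q) : below h (placeBelow F' A hq hA) = placeBelow F A hq hA := by
  apply HeightOneSpectrum.ext
  ext x
  rw [mem_below_iff, placeBelow_asIdeal, placeBelow_asIdeal, mem_primeBelow, mem_primeBelow,
    coe_intIncl]

theorem below_trans {F'' : IntermediateField ℚ Qbar} [NumberField F''] (h' : F' ≤ F'')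
    (w : HeightOneSpectrum (𝓞 F'')) : below h (below h' w) = below (h.trans h') w := by
  apply HeightOneSpectrum.ext
  ext x
  rw [mem_below_iff, mem_below_iff, mem_below_iff]
  rfl

theorem below_surjective : Function.Surjective (below h) := by
  intro v
  obtain ⟨q, hq, A, hA, rfl⟩ := exists_placeBelow_eq F v
  exact ⟨placeBelow F' A hq.ne_zero hA, below_placeBelow h A hq.ne_zero hA⟩

/-- the fibres of `below` are finite. -/
theorem finite_below_fibre (v : HeightOneSpectrum (𝓞 F)) :
    {w : HeightOneSpectrum (𝓞 F') | below h w = v}.Finite := by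
  obtain ⟨q, hq⟩ := PlacesUnits.exists_natCast_mem v
  refine (PlacesUnits.finite_primes_over F' q).subset ?_
  rintro w rfl
  exact (natCast_mem_below_iff h w q).1 hq

end Below

section Ord

variable {S : Finset Nat.Primes} {F : IntermediateField ℚ Qbar} [NumberField F]

/-- at a place `A` over `q ∉ S`, `q` is a uniformiser of the `S`-unramified field `F`:
`ord_v x = n ↔ |x|_A = |q|_A ^ n`. -/
theorem ordAt_placeBelow_eq_iff (hF : F.IsUnramifiedOutside S) {q : Nat.Primes} (hq : q ∉ S)
    (A : ValuationSubring Qbar) (hA : A.LiesOverPrime (q : ℕ)) (x : (↥F)ˣ) (n : ℤ) :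
    ordAt (placeBelow F A q.2.ne_zero hA) (Additive.ofMul x) = n ↔
      A.valuation (((x : F) : Qbar)) = A.valuation (((q : ℕ) : Qbar)) ^ n := by
  have hv : IsOff S (placeBelow F A q.2.ne_zero hA) := isOff_placeBelow hA hq
  have he := ramificationIdx_eq_one_of_isUnramifiedOutside hF _ hv
  have hq1 : (placeBelow F A q.2.ne_zero hA).valuation F ((q : ℕ) : F) = WithZero.exp (-1 : ℤ) := by
    rw [valuation_natCast F A q.2 hA]
    rw [placeBelow_asIdeal] at he
    rw [he, pow_one]
  rw [valuation_eq_zpow_iff A q.2 hA (x : F) n, hq1, valuation_eq_exp_neg_ordAt, ← WithZero.exp_zsmul]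
  constructor
  · intro h
    rw [h]
    congr 1
    simp
  · intro h
    have := WithZero.exp_injective h
    simp only [smul_eq_mul, mul_neg, mul_one, neg_inj] at this
    exact this

theorem valuation_eq_zpow_ordAt (hF : F.IsUnramifiedOutside S) {q : Nat.Primes} (hq : q ∉ S)
    (A : ValuationSubring Qbar) (hA : A.LiesOverPrime (q : ℕ)) (x : (↥F)ˣ) :
    A.valuation (((x : F) : Qbar)) = A.valuation (((q : ℕ) : Qbar)) ^
      (ordAt (placeBelow F A q.2.ne_zero hA) (Additive.ofMul x)) :=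
  (ordAt_placeBelow_eq_iff hF hq A hA x _).1 rfl

end Ord

section ExtDiv

variable {S : Finset Nat.Primes} {F F' : IntermediateField ℚ Qbar} [NumberField F] [NumberField F']
  (h : F ≤ F')

/-- inclusion of units `Fˣ → F'ˣ`. -/
noncomputable def unitsIncl : (↥F)ˣ →* (↥F')ˣ :=
  Units.map ((IntermediateField.inclusion h : F →+* F') : F →* F')

theorem coe_unitsIncl (x : (↥F)ˣ) : (((unitsIncl h x : (↥F')ˣ) : F') : Qbar) = ((x : F) : Qbar) := rfl

/-- **`ord_w(x) = ord_v(x)`** for `x ∈ F`, `w | v` off `S`, `F'` unramified outside `S`. -/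
theorem ordAt_unitsIncl (hF' : F'.IsUnramifiedOutside S) (w : HeightOneSpectrum (𝓞 F'))
    (hw : w ∉ primesAbove F' S) (x : (↥F)ˣ) :
    ordAt w (Additive.ofMul (unitsIncl h x)) = ordAt (below h w) (Additive.ofMul x) := by
  have hF : F.IsUnramifiedOutside S := hF'.of_le h
  obtain ⟨q, hq, A, hA, rfl⟩ := exists_placeBelow_eq F' w
  have hoff : IsOff S (placeBelow F' A hq.ne_zero hA) := (not_mem_primesAbove F').1 hw
  have hqS : (⟨q, hq⟩ : Nat.Primes) ∉ S := not_mem_of_isOff_placeBelow (q := ⟨q, hq⟩) hA hoff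
  rw [below_placeBelow]
  rw [ordAt_placeBelow_eq_iff hF' (q := ⟨q, hq⟩) hqS A hA, coe_unitsIncl]
  exact valuation_eq_zpow_ordAt hF (q := ⟨q, hq⟩) hqS A hA x

/-- the map on primes off `S`. -/
noncomputable def belowX (S : Finset Nat.Primes) (w : XS F' S) : XS F S :=
  ⟨below h w.1, fun hmem => w.2 ((below_mem_primesAbove_iff h S w.1).1 hmem)⟩

/-- **extension of divisors** `Div_S(F) → Div_S(F')`, `(ext D)(w) = D(w ∩ F)` (no ramification
off `S`). -/
noncomputable def extDiv (S : Finset Nat.Primes) :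
    DivT F (primesAbove F S) →+ DivT F' (primesAbove F' S) where
  toFun D := Finsupp.ofSupportFinite (fun w => D (belowX h S w)) (by
    have h1 : (Function.support fun w : XS F' S => D (belowX h S w)) ⊆
        ⋃ v ∈ D.support, {w : XS F' S | below h w.1 = v.1} := by
      intro w hw
      simp only [Set.mem_iUnion, Set.mem_ofPred_eq, exists_prop]
      exact ⟨belowX h S w, Finsupp.mem_support_iff.2 hw, rfl⟩
    refine Set.Finite.subset (Set.Finite.biUnion D.support.finite_toSet fun v _ => ?_) h1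
    exact ((finite_below_fibre h v.1).preimage (Subtype.val_injective.injOn)).subset
      (fun w hw => hw))
  map_zero' := by
    ext w
    simp [Finsupp.ofSupportFinite_coe]
  map_add' D D' := by
    ext w
    simp [Finsupp.ofSupportFinite_coe]

@[simp] theorem extDiv_apply (D : DivT F (primesAbove F S)) (w : XS F' S) :
    extDiv h S D w = D (belowX h S w) := rfl

/-- **`ext (div x) = div x`**. -/
theorem extDiv_divT (hF' : F'.IsUnramifiedOutside S) (x : (↥F)ˣ) :
    extDiv h S (divT (primesAbove F S) (Additive.ofMul x)) =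
      divT (primesAbove F' S) (Additive.ofMul (unitsIncl h x)) := by
  ext w
  rw [extDiv_apply, divT_apply, divT_apply]
  exact (ordAt_unitsIncl h hF' w.1 w.2 x).symm

theorem extDiv_injective : Function.Injective (extDiv h S) := by
  rw [injective_iff_map_eq_zero]
  intro D hD
  ext v
  obtain ⟨w, hw⟩ := below_surjective h v.1
  have hwS : w ∉ primesAbove F' S := fun hmem =>
    v.2 (by rw [← hw]; exact (below_mem_primesAbove_iff h S w).2 hmem)
  have := DFunLike.congr_fun hD ⟨w, hwS⟩
  rw [extDiv_apply] at this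
  have hv : belowX h S ⟨w, hwS⟩ = v := Subtype.ext hw
  rw [hv] at this
  exact this

theorem extDiv_comp {F'' : IntermediateField ℚ Qbar} [NumberField F''] (h' : F' ≤ F'')
    (D : DivT F (primesAbove F S)) :
    extDiv h' S (extDiv h S D) = extDiv (h.trans h') S D := by
  ext w
  rw [extDiv_apply, extDiv_apply, extDiv_apply]
  have : belowX h S (belowX h' S w) = belowX (h.trans h') S w :=
    Subtype.ext (below_trans h h' w.1)
  rw [this]

end ExtDiv

section Equivariant

variable {S : Finset Nat.Primes} {F F' : IntermediateField ℚ Qbar} [NumberField F] [NumberField F']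
  [Normal ℚ F] [Normal ℚ F'] (h : F ≤ F')

theorem coe_smul_int (F : IntermediateField ℚ Qbar) [NumberField F] [Normal ℚ F] (σ : Γ)
    (x : 𝓞 F) : ((((AlgEquiv.restrictNormalHom F σ) • x : 𝓞 F) : F) : Qbar) = σ ((x : F) : Qbar) :=
  coe_restrictNormalHom F σ (x : F)

theorem below_gsmul (σ : Γ) (w : HeightOneSpectrum (𝓞 F')) :
    below h (gsmul F' σ w) = gsmul F σ (below h w) := by
  apply HeightOneSpectrum.ext
  ext x
  rw [mem_below_iff, gsmul, gsmul, mem_smul_asIdeal_iff, mem_smul_asIdeal_iff, mem_below_iff]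
  have hx : (AlgEquiv.restrictNormalHom F' σ)⁻¹ • intIncl h x =
      intIncl h ((AlgEquiv.restrictNormalHom F σ)⁻¹ • x) := by
    apply RingOfIntegers.coe_injective
    apply Subtype.ext
    rw [← map_inv, ← map_inv, coe_smul_int, coe_intIncl, coe_intIncl, coe_smul_int]
  rw [hx]

/-- **`extDiv` is `Γ`-equivariant.** -/
theorem extDiv_galRep (σ : Γ) (D : DivT F (primesAbove F S)) :
    extDiv h S (galRep F S σ D) = galRep F' S σ (extDiv h S D) := by
  ext w
  rw [extDiv_apply, galRep_apply_apply, galRep_apply_apply, extDiv_apply]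
  congr 1
  apply Subtype.ext
  show gsmul F σ⁻¹ (below h w.1) = below h (gsmul F' σ⁻¹ w.1)
  rw [below_gsmul]

/-- `unitsIncl` is `Γ`-equivariant. -/
theorem unitsIncl_unitsGal (σ : Γ) (x : (↥F)ˣ) :
    unitsIncl h (unitsGal F σ x) = unitsGal F' σ (unitsIncl h x) := by
  apply Units.ext
  apply Subtype.ext
  rw [coe_unitsIncl, coe_unitsGal, coe_unitsGal, coe_unitsIncl]

end Equivariant

section Capitulation

variable {S : Finset Nat.Primes} {p : ℕ} [hpF : Fact p.Prime]

/-- **Capitulation up to prime-to-`p` multiples**: for every divisor `D` of `F` off `S` there are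
a finite Galois `S`-unramified `F' ⊇ F`, `m` prime to `p` and `β ∈ F'^×` with
`ext (m • D) = div β` in `F'`. -/
theorem exists_capitulation (hpS : (⟨p, hpF.out⟩ : Nat.Primes) ∈ S)
    (F : IntermediateField ℚ Qbar) [NumberField F] (hF : F.IsUnramifiedOutside S)
    (D : DivT F (primesAbove F S)) :
    ∃ (F' : IntermediateField ℚ Qbar) (h : F ≤ F') (_ : NumberField F'),
      F'.IsUnramifiedOutside S ∧ Normal ℚ F' ∧ ∃ m : ℕ, m.Coprime p ∧ ∃ β : (↥F')ˣ,
        extDiv h S (m • D) = divT (primesAbove F' S) (Additive.ofMul β) := by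
  have hp := hpF.out
  obtain ⟨n, m, hm, hnm⟩ := Nat.exists_eq_pow_mul_and_not_dvd (classNumber_ne_zero F) p hp.ne_one
  -- `h_F • D` is principal
  have h0 : clOf (primesAbove F S) (classNumber F • D) = 0 := by
    rw [map_nsmul]
    exact classNumber_nsmul_eq_zero _ _
  obtain ⟨x, hx⟩ := (clOf_eq_zero_iff _ _).1 h0
  set α : (↥F)ˣ := Additive.toMul x with hα
  have hxα : x = Additive.ofMul α := rfl
  rw [hxα] at hx
  have hα0 : ((α : F) : Qbar) ≠ 0 := by
    have : (α : F) ≠ 0 := α.ne_zero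
    exact fun h => this (Subtype.ext h)
  -- a `p^n`-th root of `α`
  obtain ⟨β₀, hβ₀⟩ := IsAlgClosed.exists_pow_nat_eq ((α : F) : Qbar) (pow_pos hp.pos n)
  have hβ₀0 : β₀ ≠ 0 := by
    rintro rfl
    rw [zero_pow (pow_pos hp.pos n).ne'] at hβ₀
    exact hα0 hβ₀.symm
  -- `F(β₀)` is unramified outside `S`
  have hF₁ : (F ⊔ ℚ⟮β₀⟯).IsUnramifiedOutside S := by
    rw [isUnramifiedOutside_sup_adjoin_root_iff_dvd hp hpS hF (a := (α : F)) α.ne_zero n hβ₀]
    intro v hv
    have hv' : v ∉ primesAbove F S := (not_mem_primesAbove F).2 hv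
    have h1 := DFunLike.congr_fun hx ⟨v, hv'⟩
    rw [divT_apply, ordAt_apply, Finsupp.smul_apply, hnm, nsmul_eq_mul] at h1
    have h2 : WithZero.log (v.valuation F (α : F)) = -(((p ^ n * m : ℕ) : ℤ) * D ⟨v, hv'⟩) := by
      rw [← h1, neg_neg]
    rw [h2]
    refine (dvd_neg).mpr (Dvd.dvd.mul_right ?_ _)
    push_cast
    exact dvd_mul_right _ _
  obtain ⟨F', hle, hF', hgal⟩ := Fermat.Agent.S55.GL.KummerUnram.exists_isGalois_isUnramifiedOutside hF₁
  have h : F ≤ F' := le_sup_left.trans hle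
  haveI hNF : NumberField F' := numberField_of_finiteDimensional F' hF'.1
  have hβF' : β₀ ∈ F' :=
    hle ((le_sup_right : ℚ⟮β₀⟯ ≤ F ⊔ ℚ⟮β₀⟯) (mem_adjoin_simple_self ℚ β₀))
  refine ⟨F', h, hNF, hF', hgal.to_normal, m, ?_, ?_⟩
  · exact (Nat.Coprime.symm ((Nat.Prime.coprime_iff_not_dvd hp).2 hm))
  · let β : (↥F')ˣ := Units.mk0 ⟨β₀, hβF'⟩ (fun h0 => hβ₀0 (congrArg Subtype.val h0))
    refine ⟨β, ?_⟩
    have hβpow : β ^ (p ^ n) = unitsIncl h α := by
      apply Units.ext
      apply Subtype.ext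
      rw [coe_unitsIncl]
      show (((β : F') ^ (p ^ n) : F') : Qbar) = _
      push_cast
      exact hβ₀
    apply nsmul_divT_injective (primesAbove F' S) (pow_pos hp.pos n).ne'
    rw [← map_nsmul, ← map_nsmul, ← ofMul_pow, hβpow, ← extDiv_divT h hF', hx, hnm, mul_nsmul']

end Capitulation

end Fermat.Agent.S55.GL.ClassTGalois
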