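import Mathlib
import Fermat.Agent.S55.GL.ClassTGalois

/-!
# S55 / GL4 part 8: invariant divisors come from below

Namespace `Fermat.Agent.S55.GL.ClassTGalois` (continuation of `GL/ClassTGalois.lean`).
`h : F ≤ F'` number fields in `ℚ̄`, `F'` normal over `ℚ`.

* `exists_gsmul_eq_of_below_eq` : `G_F` acts transitively on the primes of `F'` above a prime of `F`.
* `below_gsmul_of_mem_fixingSubgroup`, `galRep_extDiv_of_mem_fixingSubgroup`.
* **`exists_extDiv_eq_of_invariant`**, `mem_range_extDiv_iff` : a divisor of `F'` off `S` is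
  `G_F`-invariant iff it is the extension of a divisor of `F` off `S`.
* `extCl h hF' : Cl_S(F) →+ Cl_S(F')`, `extCl_clOf`.
-/

set_option autoImplicit false
set_option linter.style.haveILetI false
set_option linter.unusedSectionVars false

open IntermediateField NumberField IsDedekindDomain
open Fermat.Agent.S55.SUnit Fermat.Agent.S55.GL.ClassT Fermat.Agent.S55.GL.Kummer
open Fermat.Agent.S55.GL.UnramBridge Fermat.Agent.S55.GL.QS
open Fermat.Agent.S14.GalDiv

namespace Fermat.Agent.S55.GL.ClassTGalois

local notation "Qbar" => AlgebraicClosure ℚ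
local notation "Γ" => (AlgebraicClosure ℚ ≃ₐ[ℚ] AlgebraicClosure ℚ)

local instance isGalois_of_normal_cti (F : IntermediateField ℚ Qbar) [Normal ℚ F] :
    IsGalois ℚ F := {}

section Trans

variable {F F' : IntermediateField ℚ Qbar} [NumberField F] [NumberField F'] [Normal ℚ F']
  (h : F ≤ F')

/-- **`G_F` acts transitively on the primes of `F'` above a prime of `F`.** -/
theorem exists_gsmul_eq_of_below_eq {w w' : HeightOneSpectrum (𝓞 F')}
    (hww' : below h w = below h w') : ∃ σ ∈ F.fixingSubgroup, gsmul F' σ w = w' := by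
  letI alg : Algebra F F' := (IntermediateField.inclusion h).toRingHom.toAlgebra
  haveI : IsScalarTower ℚ F F' := IsScalarTower.of_algebraMap_eq (fun x => rfl)
  haveI : IsScalarTower F F' Qbar := IsScalarTower.of_algebraMap_eq (fun x => rfl)
  haveI : IsGalois F F' := IsGalois.tower_top_of_isGalois ℚ F F'
  have hu : underK F w = underK F w' := by
    apply HeightOneSpectrum.ext
    exact congrArg HeightOneSpectrum.asIdeal hww'
  obtain ⟨τ, hτ⟩ := exists_smul_eq_of_underK_eq F hu
  let τ₀ : F' ≃ₐ[ℚ] F' := τ.restrictScalars ℚ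
  let σ : Γ := τ₀.liftNormal Qbar
  have hσ : ∀ y : F', σ (y : Qbar) = ((τ y : F') : Qbar) := fun y =>
    AlgEquiv.liftNormal_commutes τ₀ Qbar y
  refine ⟨σ, ?_, ?_⟩
  · rw [IntermediateField.mem_fixingSubgroup_iff]
    intro x hx
    have h1 := hσ (algebraMap F F' ⟨x, hx⟩)
    rw [τ.commutes] at h1
    exact h1
  · have hres : AlgEquiv.restrictNormalHom F' σ = τ₀ := AlgEquiv.restrict_liftNormal Qbar τ₀
    rw [gsmul, hres, ← hτ]
    apply HeightOneSpectrum.ext
    ext x
    rw [mem_smul_asIdeal_iff, mem_smul_asIdeal_iff]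
    rfl

/-- elements of `G_F` do not move the prime below. -/
theorem below_gsmul_of_mem_fixingSubgroup {σ : Γ} (hσ : σ ∈ F.fixingSubgroup)
    (w : HeightOneSpectrum (𝓞 F')) : below h (gsmul F' σ w) = below h w := by
  apply HeightOneSpectrum.ext
  ext x
  rw [mem_below_iff, mem_below_iff, gsmul, mem_smul_asIdeal_iff]
  have hx : (AlgEquiv.restrictNormalHom F' σ)⁻¹ • intIncl h x = intIncl h x := by
    apply RingOfIntegers.coe_injective
    apply Subtype.ext
    rw [← map_inv, coe_smul_int, coe_intIncl]
    exact (IntermediateField.mem_fixingSubgroup_iff F σ⁻¹).1 (inv_mem hσ) _ (x : F).2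
  rw [hx]

variable (S : Finset Nat.Primes)

/-- divisors in the image of `extDiv` are `G_F`-invariant. -/
theorem galRep_extDiv_of_mem_fixingSubgroup {σ : Γ} (hσ : σ ∈ F.fixingSubgroup)
    (D : DivT F (primesAbove F S)) : galRep F' S σ (extDiv h S D) = extDiv h S D := by
  ext w
  rw [galRep_apply_apply, extDiv_apply, extDiv_apply]
  congr 1
  apply Subtype.ext
  show below h (gsmul F' σ⁻¹ w.1) = below h w.1
  exact below_gsmul_of_mem_fixingSubgroup h (inv_mem hσ) w.1

/-- **`G_F`-invariant divisors of `F'` off `S` come from `F`** (no ramification off `S`). -/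
theorem exists_extDiv_eq_of_invariant (D' : DivT F' (primesAbove F' S))
    (hD' : ∀ σ ∈ F.fixingSubgroup, galRep F' S σ D' = D') :
    ∃ D : DivT F (primesAbove F S), extDiv h S D = D' := by
  classical
  -- a prime of `F'` above each prime of `F`
  have hex : ∀ v : XS F S, ∃ w : XS F' S, belowX h S w = v := by
    intro v
    obtain ⟨w, hw⟩ := below_surjective h v.1
    have hwS : w ∉ primesAbove F' S := fun hmem =>
      v.2 (by rw [← hw]; exact (below_mem_primesAbove_iff h S w).2 hmem)
    exact ⟨⟨w, hwS⟩, Subtype.ext hw⟩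
  choose wOf hwOf using hex
  -- `D'` is constant on the fibres of `below`
  have hconst : ∀ w w' : XS F' S, belowX h S w = belowX h S w' → D' w = D' w' := by
    intro w w' hww'
    obtain ⟨σ, hσ, hσw⟩ := exists_gsmul_eq_of_below_eq h (congrArg Subtype.val hww')
    have h1 : permX F' S σ w = w' := Subtype.ext hσw
    rw [← h1]
    have h2 := galRep_apply_permX F' S σ D' w
    rw [hD' σ hσ] at h2
    exact h2.symm
  let D : DivT F (primesAbove F S) := Finsupp.ofSupportFinite (fun v => D' (wOf v)) (by
    refine Set.Finite.subset (D'.support.image (belowX h S)).finite_toSet ?_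
    intro v hv
    rw [Finset.mem_coe, Finset.mem_image]
    exact ⟨wOf v, Finsupp.mem_support_iff.2 hv, hwOf v⟩)
  refine ⟨D, ?_⟩
  ext w
  rw [extDiv_apply]
  show D' (wOf (belowX h S w)) = D' w
  exact hconst _ _ (hwOf _)

theorem mem_range_extDiv_iff (D' : DivT F' (primesAbove F' S)) :
    D' ∈ (extDiv h S).range ↔ ∀ σ ∈ F.fixingSubgroup, galRep F' S σ D' = D' := by
  constructor
  · rintro ⟨D, rfl⟩ σ hσ
    exact galRep_extDiv_of_mem_fixingSubgroup h S hσ D
  · intro hD'
    obtain ⟨D, hD⟩ := exists_extDiv_eq_of_invariant h S D' hD'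
    exact ⟨D, hD⟩

end Trans

section ExtCl

variable {S : Finset Nat.Primes} {F F' : IntermediateField ℚ Qbar} [NumberField F] [NumberField F']
  (h : F ≤ F') (hF' : F'.IsUnramifiedOutside S)

/-- the map `Cl_S(F) → Cl_S(F')` induced by extension of divisors. -/
noncomputable def extCl : ClT F (primesAbove F S) →+ ClT F' (primesAbove F' S) :=
  QuotientAddGroup.map _ _ (extDiv h S) (by
    rintro _ ⟨x, rfl⟩
    rw [AddSubgroup.mem_comap]
    have hx : x = Additive.ofMul (Additive.toMul x) := rfl
    rw [hx, extDiv_divT h hF']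
    exact ⟨_, rfl⟩)

theorem extCl_clOf (D : DivT F (primesAbove F S)) :
    extCl h hF' (clOf (primesAbove F S) D) = clOf (primesAbove F' S) (extDiv h S D) := rfl

end ExtCl

end Fermat.Agent.S55.GL.ClassTGalois
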