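/-
S55 / GLO12b STEP 2 (helper4): the INTERFACE between the number-field side (divisors off `S`,
Galois action, extension of divisors, capitulation: helper17) and the cohomological side
(`CF/IdealLevel.lean`: `IdealLayers` for `G_{L,S}`; `GL/IdealInst.lean`).
-/
import Fermat.Agent.S55.GL.KummerUnram

set_option autoImplicit false

open IntermediateField

namespace Fermat.Agent.S55.GL.DivPackage

open Fermat.Agent.S55.GL.KummerUnram

local notation "Qbar" => AlgebraicClosure ℚ
local notation "Γ" => (AlgebraicClosure ℚ ≃ₐ[ℚ] AlgebraicClosure ℚ)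

/-- A finite normal extension of `ℚ` inside `ℚ̄`, unramified outside `S`. -/
structure GField (S : Finset Nat.Primes) where
  /-- the field -/
  F : IntermediateField ℚ Qbar
  unram : F.IsUnramifiedOutside S
  normal : Normal ℚ F

/-- **The number-field side of the ideal-class chases, as an interface.**  For every finite normal
`S`-unramified `F ⊆ ℚ̄`: a set `X F` of primes of `F` off `S` with an action of `Γ = Gal(ℚ̄/ℚ)`
(through `Gal(F/ℚ)`), the divisor map `dv F : Fˣ → ℤ[X F]` (equivariant, with kernel the `S`-units),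
extension of divisors along `F ⊆ F'` (equivariant, transitive, compatible with `dv`), and
capitulation up to integers prime to `p`. -/
structure DivPack (S : Finset Nat.Primes) (p : ℕ) where
  /-- the primes of `F` off `S` -/
  X : GField S → Type
  /-- the Galois action on the primes -/
  [act : ∀ F, MulAction Γ (X F)]
  triv : ∀ (F : GField S) (σ : Γ), σ ∈ F.F.fixingSubgroup → ∀ x : X F, σ • x = x
  /-- the divisor (off `S`) of an element of `Fˣ` -/
  dv : ∀ F : GField S, Additive (↥F.F)ˣ →+ (X F →₀ ℤ)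
  dv_smul : ∀ (F : GField S) (σ : Γ) (x y : (↥F.F)ˣ),
    ((y : ↥F.F) : Qbar) = σ ((x : ↥F.F) : Qbar) →
      dv F (Additive.ofMul y) = Finsupp.mapDomain (fun v => σ • v) (dv F (Additive.ofMul x))
  dv_eq_zero_iff : ∀ (F : GField S) (x : (↥F.F)ˣ),
    dv F (Additive.ofMul x) = 0 ↔ IsSUnit S ((x : ↥F.F) : Qbar)
  /-- extension of divisors -/
  ext : ∀ {F F' : GField S}, F.F ≤ F'.F → (X F →₀ ℤ) →+ (X F' →₀ ℤ)
  ext_smul : ∀ {F F' : GField S} (h : F.F ≤ F'.F) (σ : Γ) (D : X F →₀ ℤ),
    ext h (Finsupp.mapDomain (fun v => σ • v) D) = Finsupp.mapDomain (fun v => σ • v) (ext h D)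
  ext_dv : ∀ {F F' : GField S} (h : F.F ≤ F'.F) (x : (↥F.F)ˣ) (y : (↥F'.F)ˣ),
    ((y : ↥F'.F) : Qbar) = ((x : ↥F.F) : Qbar) →
      ext h (dv F (Additive.ofMul x)) = dv F' (Additive.ofMul y)
  ext_comp : ∀ {F F' F'' : GField S} (h : F.F ≤ F'.F) (h' : F'.F ≤ F''.F) (D : X F →₀ ℤ),
    ext h' (ext h D) = ext (h.trans h') D
  cap : ∀ (F : GField S) (D : X F →₀ ℤ), ∃ (F' : GField S) (h : F.F ≤ F'.F) (m : ℕ),
    m.Coprime p ∧ ∃ β : (↥F'.F)ˣ, ext h (m • D) = dv F' (Additive.ofMul β)

attribute [instance] DivPack.act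

end Fermat.Agent.S55.GL.DivPackage
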