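import Mathlib
import Fermat.Agent.S55.GL.ClassTInv
import Fermat.Agent.S55.GL.DivPackage

/-!
# S55 / GL4 part 9: the instance of helper4's `DivPack`

`divPack S hpS : DivPackage.DivPack S p` — the number-field side of the ideal-class chases
(divisors off `S` with Galois action, extension of divisors, capitulation), from
`GL/ClassT.lean`, `GL/ClassTGalois.lean`.
-/

set_option autoImplicit false
set_option linter.style.haveILetI false
set_option linter.unusedSectionVars false

open IntermediateField NumberField IsDedekindDomain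
open Fermat.Agent.S55.SUnit Fermat.Agent.S55.GL.ClassT Fermat.Agent.S55.GL.Kummer
open Fermat.Agent.S55.GL.UnramBridge Fermat.Agent.S55.GL.QS Fermat.Agent.S55.GL.KummerUnram
open Fermat.Agent.S55.GL.ClassTGalois Fermat.Agent.S55.GL.DivPackage

namespace Fermat.Agent.S55.GL.DivPackInst

local notation "Qbar" => AlgebraicClosure ℚ
local notation "Γ" => (AlgebraicClosure ℚ ≃ₐ[ℚ] AlgebraicClosure ℚ)

variable {S : Finset Nat.Primes}

/-- `T`-units for `T` = primes above `S` are the `S`-units of `KummerUnram`. -/
theorem mem_TUnit_primesAbove_iff (F : IntermediateField ℚ Qbar) [NumberField F] (x : (↥F)ˣ) :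
    x ∈ TUnit F (primesAbove F S) ↔ IsSUnit S ((x : F) : Qbar) := by
  rw [mem_TUnit_iff]
  constructor
  · intro h q hq A hA
    rw [valuation_eq_one_iff F A q.2.ne_zero hA]
    exact h _ ((not_mem_primesAbove F).2 (isOff_placeBelow hA hq))
  · intro h v hv
    obtain ⟨q, hq, A, hA, rfl⟩ := exists_placeBelow_eq F v
    have hoff := (not_mem_primesAbove F).1 hv
    have hqS : (⟨q, hq⟩ : Nat.Primes) ∉ S := not_mem_of_isOff_placeBelow (q := ⟨q, hq⟩) hA hoff
    rw [← valuation_eq_one_iff F A hq.ne_zero hA]
    exact h ⟨q, hq⟩ hqS A hA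

/-- `galRep` is `mapDomain` along the permutation. -/
theorem galRep_eq_mapDomain (F : IntermediateField ℚ Qbar) [NumberField F] [Normal ℚ F]
    (S : Finset Nat.Primes) (σ : Γ) (D : DivT F (primesAbove F S)) :
    galRep F S σ D = Finsupp.mapDomain (permX F S σ) D := by
  show Finsupp.domLCongr (permX F S σ) D = _
  rw [Finsupp.domLCongr_apply, Finsupp.domCongr_apply, Finsupp.equivMapDomain_eq_mapDomain]

local instance numberField_gfield (F : GField S) : NumberField F.F :=
  numberField_of_finiteDimensional F.F F.unram.1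

local instance normal_gfield (F : GField S) : Normal ℚ F.F := F.normal

/-- **helper4's `DivPack`, inhabited.** -/
noncomputable def divPack (S : Finset Nat.Primes) {p : ℕ} [hpF : Fact p.Prime]
    (hpS : (⟨p, hpF.out⟩ : Nat.Primes) ∈ S) : DivPack S p where
  X F := XS F.F S
  act F := galMulAction F.F S
  triv F σ hσ x := by
    show permX F.F S σ x = x
    rw [permX_of_mem_fixingSubgroup F.F S hσ]
    rfl
  dv F := divT (primesAbove F.F S)
  dv_smul F σ x y hxy := by
    have hy : y = unitsGal F.F σ x := by
      apply Units.ext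
      apply Subtype.ext
      rw [hxy, coe_unitsGal]
    rw [hy, divT_unitsGal, galRep_eq_mapDomain]
    rfl
  dv_eq_zero_iff F x := by
    rw [divT_ofMul_eq_zero_iff, mem_TUnit_primesAbove_iff]
  ext {F F'} h := extDiv h S
  ext_smul {F F'} h σ D := by
    have h1 := extDiv_galRep (S := S) h σ D
    rw [galRep_eq_mapDomain, galRep_eq_mapDomain] at h1
    exact h1
  ext_dv {F F'} h x y hxy := by
    have hy : y = unitsIncl h x := by
      apply Units.ext
      apply Subtype.ext
      rw [hxy, coe_unitsIncl]
    rw [hy]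
    exact extDiv_divT h F'.unram x
  ext_comp {F F' F''} h h' D := extDiv_comp h h' D
  cap F D := by
    obtain ⟨F', h, _, hF', hnorm, m, hm, β, hβ⟩ := exists_capitulation hpS F.F F.unram D
    exact ⟨⟨F', hF', hnorm⟩, h, m, hm, β, hβ⟩

section Extra

variable (S) {p : ℕ} [hpF : Fact p.Prime] (hpS : (⟨p, hpF.out⟩ : Nat.Primes) ∈ S)

@[simp] theorem divPack_X (F : GField S) : (divPack S hpS).X F = XS F.F S := rfl

theorem divPack_dv (F : GField S) : (divPack S hpS).dv F = divT (primesAbove F.F S) := rfl

theorem divPack_ext {F F' : GField S} (h : F.F ≤ F'.F) : (divPack S hpS).ext h = extDiv h S := rfl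

/-- extension of divisors is injective. -/
theorem divPack_ext_injective {F F' : GField S} (h : F.F ≤ F'.F) :
    Function.Injective ((divPack S hpS).ext h) :=
  extDiv_injective h

/-- **`G_F`-invariant divisors of `F'` come from `F`.** -/
theorem divPack_exists_ext_eq_of_invariant {F F' : GField S} (h : F.F ≤ F'.F)
    (D' : (divPack S hpS).X F' →₀ ℤ)
    (hD' : ∀ σ ∈ F.F.fixingSubgroup, Finsupp.mapDomain (fun v => σ • v) D' = D') :
    ∃ D : (divPack S hpS).X F →₀ ℤ, (divPack S hpS).ext h D = D' := by
  have key : ∀ D'' : DivT F'.F (primesAbove F'.F S),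
      (∀ σ ∈ F.F.fixingSubgroup, Finsupp.mapDomain (permX F'.F S σ) D'' = D'') →
      ∃ D : DivT F.F (primesAbove F.F S), extDiv h S D = D'' := by
    intro D'' hD''
    refine exists_extDiv_eq_of_invariant h S D'' (fun σ hσ => ?_)
    rw [galRep_eq_mapDomain]
    exact hD'' σ hσ
  exact key D' hD'

end Extra

end Fermat.Agent.S55.GL.DivPackInst
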