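/-
S55 / GLO12b STEP 3a (helper4): the cofinal family of layers of `G_{L,S} = Gal(ℚ̄/L)` with the
level structure `(globalLevel S).restrict L.fixingSubgroup`, indexed by the finite normal
`S`-unramified extensions `F ⊇ L` of `ℚ` inside `ℚ̄` (`GoodField S L`), and the elements of the
layer `(Q_Sˣ)^{U_F} = Fˣ`.
-/
import Fermat.Agent.S55.CF.IdealLevel
import Fermat.Agent.S55.GC.PermH1
import Fermat.Agent.S55.GL.QSUnits
import Fermat.Agent.S55.GL.BrauerLocal
import Fermat.Agent.S55.GL.DivPackage

set_option autoImplicit false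

open CategoryTheory IntermediateField

namespace Fermat.Agent.S55.GL.IdealInst

open Fermat.Agent.S55.Level Fermat.Agent.S55.LevelLayer Fermat.Agent.S55.GL.QSMod
  Fermat.Agent.S55.GL.KummerUnram Fermat.Agent.S55.LevelGlobal

local notation "Qbar" => AlgebraicClosure ℚ
local notation "Γ" => (AlgebraicClosure ℚ ≃ₐ[ℚ] AlgebraicClosure ℚ)

variable (S : Finset Nat.Primes) (L : IntermediateField ℚ Qbar)

/-- The index family of layers: finite normal extensions of `ℚ` inside `ℚ̄`, unramified outside
`S`, containing `L`. -/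
structure GoodField where
  /-- the field -/
  F : IntermediateField ℚ Qbar
  unram : F.IsUnramifiedOutside S
  normal : Normal ℚ F
  le : L ≤ F

variable {S L}

/-- The layer subgroup `Gal(ℚ̄/F) ∩ G_L = Gal(ℚ̄/F)` of `G_L`. -/
noncomputable def GoodField.U (a : GoodField S L) : Subgroup ↥L.fixingSubgroup :=
  a.F.fixingSubgroup.subgroupOf L.fixingSubgroup

lemma GoodField.mem_U_iff (a : GoodField S L) (g : ↥L.fixingSubgroup) :
    g ∈ a.U ↔ (g : Γ) ∈ a.F.fixingSubgroup := Iff.rfl

instance GoodField.normal_fixingSubgroup (a : GoodField S L) : a.F.fixingSubgroup.Normal :=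
  LevelGlobal.normal_fixingSubgroup a.normal

instance GoodField.normal_U (a : GoodField S L) : a.U.Normal :=
  Subgroup.normal_subgroupOf

lemma GoodField.fixingSubgroup_mem (a : GoodField S L) :
    a.F.fixingSubgroup ∈ (globalLevel S).sets :=
  fixingSubgroup_mem_globalLevel a.unram a.normal

lemma GoodField.U_mem (a : GoodField S L) :
    a.U ∈ ((globalLevel S).restrict L.fixingSubgroup).sets :=
  (globalLevel S).mem_restrict_sets L.fixingSubgroup a.fixingSubgroup_mem

/-- The family of good fields is cofinal in the level structure of `G_{L,S}`. -/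
lemma GoodField.cofinal (hL : L.IsUnramifiedOutside S)
    (U : Subgroup ↥L.fixingSubgroup) (hU : U ∈ ((globalLevel S).restrict L.fixingSubgroup).sets) :
    ∃ a : GoodField S L, a.U ≤ U := by
  obtain ⟨U', ⟨_, F', hF', hle⟩, rfl⟩ := hU
  have h1 : (F' ⊔ L).IsUnramifiedOutside S := hF'.sup hL
  refine ⟨⟨IntermediateField.normalClosure ℚ ↥(F' ⊔ L) Qbar, isUnramifiedOutside_normalClosure h1,
    normalClosure.normal ℚ _ Qbar, le_sup_right.trans (IntermediateField.le_normalClosure _)⟩, ?_⟩
  intro g hg
  apply hle
  have h2 : F' ≤ IntermediateField.normalClosure ℚ ↥(F' ⊔ L) Qbar :=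
    le_sup_left.trans (IntermediateField.le_normalClosure _)
  exact IntermediateField.fixingSubgroup_antitone h2 hg

lemma GoodField.U_le_iff (a b : GoodField S L) : b.U ≤ a.U ↔ a.F ≤ b.F := by
  constructor
  · intro h
    have h1 : b.F.fixingSubgroup ≤ a.F.fixingSubgroup := by
      intro g hg
      have hgL : g ∈ L.fixingSubgroup := IntermediateField.fixingSubgroup_antitone b.le hg
      exact h (show (⟨g, hgL⟩ : ↥L.fixingSubgroup) ∈ b.U from hg)
    have := isGalois_Qbar
    have h2 := IntermediateField.fixedField_antitone h1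
    rwa [InfiniteGalois.fixedField_fixingSubgroup, InfiniteGalois.fixedField_fixingSubgroup] at h2
  · intro h g hg
    exact IntermediateField.fixingSubgroup_antitone h hg

/-- The underlying `GField`. -/
abbrev GoodField.toGField (a : GoodField S L) : DivPackage.GField S := ⟨a.F, a.unram, a.normal⟩

@[simp] lemma GoodField.toGField_F (a : GoodField S L) : a.toGField.F = a.F := rfl

end Fermat.Agent.S55.GL.IdealInst
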