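/-
S55 / GLO12b STEP 3c (helper4): the system of ideal layers of `G_{L,S}` (`CF/IdealLevel.IdealLayers`)
for `E_S ⟶ Q_Sˣ` restricted to `G_L`, from a divisor package `DivPack S p`:

* `GoodField.unitOf`, `ofUnit`: `(Q_Sˣ)^{U_F} = Fˣ`;
* `idealRep P a`: the permutation module `ℤ[X_F]` over `G_L ⧸ U_F`; `dvHom`, `extHom`;
* `idealLayers P : IdealLayers p (fun a => a.U) (iS S L)`;
* `isPTrivElt_of_Hmap_eq_zero` = (U3) of `BrauerInput` (`unit_ker` with helper17's package);
* `exists_Hmap_eq_nsmul` = the ideal half of (U2); `exists_levelInf_eq`.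
-/
import Fermat.Agent.S55.GL.IdealField
import Fermat.Agent.S55.GL.DivPackInst

set_option autoImplicit false

open CategoryTheory IntermediateField

namespace Fermat.Agent.S55.GL.IdealInst

open Fermat.Agent.S55.Level Fermat.Agent.S55.LevelLayer Fermat.Agent.S55.GL.QSMod
  Fermat.Agent.S55.GL.KummerUnram Fermat.Agent.S55.LevelGlobal Fermat.Agent.S55.GL.DivPackage

local notation "Qbar" => AlgebraicClosure ℚ
local notation "Γ" => (AlgebraicClosure ℚ ≃ₐ[ℚ] AlgebraicClosure ℚ)

variable (S : Finset Nat.Primes) (L : IntermediateField ℚ Qbar)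

/-- `Q_Sˣ` as a module over `G_L`. -/
noncomputable abbrev MS : Rep.{0} ℤ ↥L.fixingSubgroup := BrauerLocal.resL L (QSUnits S)

/-- `E_S` as a module over `G_L`. -/
noncomputable abbrev ES : Rep.{0} ℤ ↥L.fixingSubgroup := BrauerLocal.resL L (ESUnits S)

/-- The inclusion `E_S ⟶ Q_Sˣ` over `G_L`. -/
noncomputable abbrev iS : ES S L ⟶ MS S L :=
  (Rep.resFunctor L.fixingSubgroup.subtype).map (ESUnitsι S)

variable {S L}

/-- The elements of the layer `(Q_Sˣ)^{U_F}` lie in `F`. -/
lemma GoodField.val_mem (a : GoodField S L) (m : ((MS S L).quotientToInvariants a.U).V) :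
    QSUnits.val S (m.1 : (QSUnits S).V) ∈ a.F := by
  have := isGalois_Qbar
  rw [← InfiniteGalois.fixedField_fixingSubgroup a.F, IntermediateField.mem_fixedField_iff]
  intro σ hσ
  have hσL : σ ∈ L.fixingSubgroup := IntermediateField.fixingSubgroup_antitone a.le hσ
  have h1 := m.2 ⟨⟨σ, hσL⟩, hσ⟩
  have h2 : (QSUnits S).ρ σ (m.1 : (QSUnits S).V) = m.1 := h1
  rw [← QSUnits.val_ρ, h2]

/-- The unit of `F` underlying an element of the layer `(Q_Sˣ)^{U_F}`. -/
noncomputable def GoodField.unitOf (a : GoodField S L)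
    (m : ((MS S L).quotientToInvariants a.U).V) : (↥a.F)ˣ :=
  Units.mk0 ⟨QSUnits.val S (m.1 : (QSUnits S).V), a.val_mem m⟩ fun h =>
    QSUnits.val_ne_zero S (m.1 : (QSUnits S).V) (congrArg Subtype.val h)

@[simp] lemma GoodField.coe_unitOf (a : GoodField S L)
    (m : ((MS S L).quotientToInvariants a.U).V) :
    (((a.unitOf m : (↥a.F)ˣ) : ↥a.F) : Qbar) = QSUnits.val S (m.1 : (QSUnits S).V) := rfl

/-- `m ↦ unitOf m` as an additive map. -/
noncomputable def GoodField.unitHom (a : GoodField S L) :
    ((MS S L).quotientToInvariants a.U).V →+ Additive (↥a.F)ˣ where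
  toFun m := Additive.ofMul (a.unitOf m)
  map_zero' := by
    apply Additive.toMul.injective
    apply Units.ext
    apply Subtype.ext
    exact QSUnits.val_zero S
  map_add' m m' := by
    apply Additive.toMul.injective
    apply Units.ext
    apply Subtype.ext
    exact QSUnits.val_add S _ _


/-- The element of the layer `(Q_Sˣ)^{U_F}` attached to a unit of `F`. -/
noncomputable def GoodField.ofUnit (a : GoodField S L) (β : (↥a.F)ˣ) :
    ((MS S L).quotientToInvariants a.U).V :=
  ⟨(QSUnits.mk S ((β : ↥a.F) : Qbar) (fun h => β.ne_zero (Subtype.ext h)) a.unram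
      (β : ↥a.F).2 : (QSUnits S).V), by
    rintro ⟨⟨σ, hσL⟩, hσ⟩
    apply QSUnits.val_injective S
    show QSUnits.val S ((QSUnits S).ρ σ _) = _
    rw [QSUnits.val_ρ, QSUnits.val_mk]
    exact (IntermediateField.mem_fixingSubgroup_iff a.F σ).1 hσ _ (β : ↥a.F).2⟩

@[simp] lemma GoodField.unitOf_ofUnit (a : GoodField S L) (β : (↥a.F)ˣ) :
    a.unitOf (a.ofUnit β) = β := by
  apply Units.ext
  apply Subtype.ext
  rfl

/-- The Galois action on the units of the layer. -/
lemma GoodField.coe_unitOf_ρ (a : GoodField S L) (g : ↥L.fixingSubgroup)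
    (m : ((MS S L).quotientToInvariants a.U).V) :
    (((a.unitOf (((MS S L).quotientToInvariants a.U).ρ (g : ↥L.fixingSubgroup ⧸ a.U) m) :
      (↥a.F)ˣ) : ↥a.F) : Qbar) = (g : Γ) (((a.unitOf m : (↥a.F)ˣ) : ↥a.F) : Qbar) := by
  rw [GoodField.coe_unitOf, GoodField.coe_unitOf, ← QSUnits.val_ρ]
  rfl

section Pack

variable {p : ℕ} (P : DivPack S p)

/-- The action of the layer group `G_L ⧸ U_F` on the primes of `F` off `S`. -/
noncomputable def permHom (a : GoodField S L) :
    (↥L.fixingSubgroup ⧸ a.U) →* Equiv.Perm (P.X a.toGField) :=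
  QuotientGroup.lift a.U
    ((MulAction.toPermHom Γ (P.X a.toGField)).comp L.fixingSubgroup.subtype) (by
      intro g hg
      ext x
      exact P.triv a.toGField (g : Γ) hg x)

@[simp] lemma permHom_mk (a : GoodField S L) (g : ↥L.fixingSubgroup) (x : P.X a.toGField) :
    permHom P a (g : ↥L.fixingSubgroup ⧸ a.U) x = (g : Γ) • x := rfl

/-- The permutation representation of the layer group on the divisors of `F` off `S`. -/
noncomputable def idealRho (a : GoodField S L) :
    Representation ℤ (↥L.fixingSubgroup ⧸ a.U) (P.X a.toGField →₀ ℤ) where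
  toFun q := Finsupp.lmapDomain ℤ ℤ (permHom P a q)
  map_one' := by
    rw [map_one]
    exact Finsupp.lmapDomain_id ℤ ℤ
  map_mul' q q' := by
    rw [map_mul]
    exact Finsupp.lmapDomain_comp ℤ ℤ (permHom P a q') (permHom P a q)

lemma idealRho_apply (a : GoodField S L) (q : ↥L.fixingSubgroup ⧸ a.U)
    (D : P.X a.toGField →₀ ℤ) :
    idealRho P a q D = Finsupp.mapDomain (permHom P a q) D := rfl

/-- The module of divisors of the layer `F`. -/
noncomputable def idealRep (a : GoodField S L) : Rep.{0} ℤ (↥L.fixingSubgroup ⧸ a.U) :=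
  Rep.of (idealRho P a)

end Pack


section Pack2

variable {p : ℕ} (P : DivPack S p)

/-- The divisor map of the layer `F`. -/
noncomputable def dvHom (a : GoodField S L) :
    (MS S L).quotientToInvariants a.U ⟶ idealRep P a :=
  Rep.ofHom ⟨((P.dv a.toGField).comp a.unitHom).toIntLinearMap, fun q =>
    QuotientGroup.induction_on q fun g => by
      refine LinearMap.ext fun m => ?_
      exact P.dv_smul a.toGField (g : Γ) (a.unitOf m) _ (a.coe_unitOf_ρ g m)⟩

lemma dvHom_apply (a : GoodField S L) (m : ((MS S L).quotientToInvariants a.U).V) :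
    (dvHom P a).hom m = P.dv a.toGField (Additive.ofMul (a.unitOf m)) := rfl

end Pack2


section Pack3

variable {p : ℕ} (P : DivPack S p)

lemma GoodField.le_of_U_le {a b : GoodField S L} (h : b.U ≤ a.U) : a.F ≤ b.F :=
  (GoodField.U_le_iff a b).1 h

/-- Extension of divisors between layers. -/
noncomputable def extHom {a b : GoodField S L} (h : b.U ≤ a.U) :
    Rep.res (quotMap h) (idealRep P a) ⟶ idealRep P b :=
  Rep.ofHom ⟨(P.ext (F := a.toGField) (F' := b.toGField)
      (GoodField.le_of_U_le h)).toIntLinearMap, fun q =>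
    QuotientGroup.induction_on q fun g => by
      refine LinearMap.ext fun D => ?_
      exact P.ext_smul (F := a.toGField) (F' := b.toGField) (GoodField.le_of_U_le h) (g : Γ) D⟩

lemma extHom_apply {a b : GoodField S L} (h : b.U ≤ a.U) (D : P.X a.toGField →₀ ℤ) :
    (extHom P h).hom D =
      P.ext (F := a.toGField) (F' := b.toGField) (GoodField.le_of_U_le h) D := rfl

end Pack3


section Layers

open Fermat.Agent.S55.CF.IdealLevel

variable {p : ℕ} (P : DivPack S p)

lemma dvHom_eq_zero_iff (a : GoodField S L) (m : ((MS S L).quotientToInvariants a.U).V) :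
    (dvHom P a).hom m = 0 ↔
      ∃ e : ((ES S L).quotientToInvariants a.U).V, (layerMap (iS S L) (U := a.U)).hom e = m := by
  rw [dvHom_apply]
  refine (P.dv_eq_zero_iff a.toGField (a.unitOf m)).trans ?_
  rw [GoodField.coe_unitOf]
  constructor
  · intro hm
    refine ⟨⟨((⟨(m.1 : (QSUnits S).V), hm⟩ : sUnitSubmodule S) : (ESUnits S).V), ?_⟩, ?_⟩
    · intro g
      apply Subtype.ext
      exact m.2 g
    · apply Subtype.ext
      rfl
  · rintro ⟨e, rfl⟩
    exact ESUnits.isSUnit_val S (e.1 : (ESUnits S).V)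

lemma isZero_H1_idealRep (a : GoodField S L) :
    Limits.IsZero (groupCohomology (idealRep P a) 1) := by
  let _ : MulAction (↥L.fixingSubgroup ⧸ a.U) (P.X a.toGField) :=
    MulAction.compHom _ (permHom P a)
  have : a.U.FiniteIndex := ((globalLevel S).restrict L.fixingSubgroup).finiteIndex a.U a.U_mem
  have : Finite (↥L.fixingSubgroup ⧸ a.U) := Subgroup.finite_quotient_of_finiteIndex
  refine Fermat.Agent.S55.GC.PermH1.isZero_H1_of_perm (idealRep P a)
    (AddEquiv.refl (P.X a.toGField →₀ ℤ)) ?_
  intro g (D : P.X a.toGField →₀ ℤ) x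
  show (Finsupp.mapDomain (permHom P a g) D) (permHom P a g x) = D x
  exact Finsupp.mapDomain_apply (permHom P a g).injective D x

/-- **The system of ideal layers of `G_{L,S}`** attached to a divisor package. -/
noncomputable def idealLayers :
    IdealLayers p (fun a : GoodField S L => a.U) (iS S L) where
  I a := idealRep P a
  dv a := dvHom P a
  ext h := extHom P h
  hker a m := dvHom_eq_zero_iff P a m
  ext_dv {a b} h := by
    ext m
    exact P.ext_dv (F := a.toGField) (F' := b.toGField) (GoodField.le_of_U_le h) (a.unitOf m)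
      (b.unitOf ((layerIncl (MS S L) h).hom m)) rfl
  ext_comp {a b c} h h' D :=
    P.ext_comp (F := a.toGField) (F' := b.toGField) (F'' := c.toGField)
      (GoodField.le_of_U_le h) (GoodField.le_of_U_le h') D
  hH1 a := isZero_H1_idealRep P a
  hcap a D := by
    obtain ⟨F', h, m, hm, β, hβ⟩ := P.cap a.toGField D
    let b : GoodField S L := ⟨F'.F, F'.unram, F'.normal, a.le.trans h⟩
    have hba : b.U ≤ a.U := (GoodField.U_le_iff a b).2 h
    refine ⟨b, hba, m, hm, b.ofUnit β, ?_⟩
    rw [dvHom_apply, GoodField.unitOf_ofUnit]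
    exact hβ

end Layers


section Final

open Fermat.Agent.S55.CF Fermat.Agent.S55.CF.IdealLevel

variable {p : ℕ} (P : DivPack S p) (hL : L.IsUnramifiedOutside S)

lemma iS_injective : Function.Injective (iS S L).hom := fun _ _ h => Subtype.ext h

include P hL in
/-- **(U3) over `G_{L,S}`**: the kernel of `H²(G_{L,S}, E_S) → H²(G_{L,S}, Q_Sˣ)` is torsion prime
to `p`. -/
theorem isPTrivElt_of_Hmap_eq_zero
    (e : levelCohomology ((globalLevel S).restrict L.fixingSubgroup) (ES S L) 2)
    (he : (Hmap ((globalLevel S).restrict L.fixingSubgroup) (iS S L) 2).hom e = 0) :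
    IsPTrivElt p e :=
  (idealLayers P).isPTrivElt_of_Hmap_eq_zero ((globalLevel S).restrict L.fixingSubgroup)
    (fun a => a.U_mem) (GoodField.cofinal hL) iS_injective e he

include hL in
/-- **Ideal half of (U2) over `G_{L,S}`**: a class of `H²(G_{L,S}, Q_Sˣ)` represented on a layer
`F` by a class whose divisor vanishes in `H²(Gal(F/L), Div_S(F))` is, up to an integer prime to
`p`, in the image of `H²(G_{L,S}, E_S)`. -/
theorem exists_Hmap_eq_nsmul (a : GoodField S L)
    (y : groupCohomology ((MS S L).quotientToInvariants a.U) 2)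
    (hy : (groupCohomology.map (MonoidHom.id (↥L.fixingSubgroup ⧸ a.U)) (dvHom P a) 2).hom y = 0) :
    ∃ m : ℕ, m.Coprime p ∧
      ∃ e : levelCohomology ((globalLevel S).restrict L.fixingSubgroup) (ES S L) 2,
        (Hmap ((globalLevel S).restrict L.fixingSubgroup) (iS S L) 2).hom e =
          m • (levelInf ((globalLevel S).restrict L.fixingSubgroup) (MS S L) a.U_mem 2).hom y :=
  (idealLayers P).exists_Hmap_eq_nsmul ((globalLevel S).restrict L.fixingSubgroup)
    (fun a => a.U_mem) (GoodField.cofinal hL) iS_injective a y hy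

include hL in
/-- Every class of `Hⁿ(G_{L,S}, A)` is inflated from a layer `F`. -/
theorem exists_levelInf_eq (A : Rep.{0} ℤ ↥L.fixingSubgroup)
    [IsDiscrete ((globalLevel S).restrict L.fixingSubgroup) A] {n : ℕ}
    (x : levelCohomology ((globalLevel S).restrict L.fixingSubgroup) A n) :
    ∃ (a : GoodField S L) (y : groupCohomology (A.quotientToInvariants a.U) n),
      (levelInf ((globalLevel S).restrict L.fixingSubgroup) A a.U_mem n).hom y = x :=
  exists_levelInf_eq_family ((globalLevel S).restrict L.fixingSubgroup) (fun a : GoodField S L => a.U)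
    (fun a => a.U_mem) (GoodField.cofinal hL) x

end Final


section Concrete

open Fermat.Agent.S55.CF

variable {p : ℕ} [hpF : Fact p.Prime]

/-- **(U3) of `BrauerInput`, unconditionally** (`L` unramified outside `S`, `p ∈ S`). -/
theorem unit_ker (hpS : (⟨p, hpF.out⟩ : Nat.Primes) ∈ S) (hL : L.IsUnramifiedOutside S)
    (e : levelCohomology ((globalLevel S).restrict L.fixingSubgroup) (ES S L) 2)
    (he : (Hmap ((globalLevel S).restrict L.fixingSubgroup) (iS S L) 2).hom e = 0) :
    IsPTrivElt p e :=
  isPTrivElt_of_Hmap_eq_zero (DivPackInst.divPack S hpS) hL e he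

end Concrete

end Fermat.Agent.S55.GL.IdealInst
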