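/-
S55 (T4), block GLO2 (Places), part 5 (= PL5): global unramifiedness ⇒ local unramifiedness.
For `F` unramified outside `S` (prelude sense), `q ∉ S` and any `σ`, the local field
`ℚ_q(ι σ F)` is unramified over `ℚ_q` in the sense of `Local/UnramField` (helper1):
its value group is `q ^ ℤ`.
-/
import Mathlib
import Fermat.Agent.S55.GL.PlacesComplete
import Fermat.Agent.S55.LocalInt
import Fermat.Agent.S55.GL.UnramBridge

set_option autoImplicit false
set_option linter.style.haveILetI false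

namespace Fermat.Agent.S55.GL.PlacesUnram

open IntermediateField Fermat.Agent.S55.LocalDict Fermat.Agent.S55.GL.Places
  Fermat.Agent.S55.GL.PlacesComplete Fermat.Agent.S55.LocalInt Fermat.Agent.S55.Local.Unram
open scoped Pointwise

local notation "Qbar" => AlgebraicClosure ℚ
local notation "Γ" => (AlgebraicClosure ℚ ≃ₐ[ℚ] AlgebraicClosure ℚ)

section ValSubring

variable (q : ℕ) [Fact q.Prime]

/-- The valuation subring `{x | ‖ι_q (σ x)‖ ≤ 1}` of `Qbar`. -/
noncomputable def valSubringAt (σ : Γ) : ValuationSubring Qbar :=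
  (padicPlace q).comap ((σ : Qbar →ₐ[ℚ] Qbar) : Qbar →+* Qbar)

theorem mem_valSubringAt {σ : Γ} {x : Qbar} :
    x ∈ valSubringAt q σ ↔ ‖padicEmbedding q (σ x)‖ ≤ 1 := by
  rw [valSubringAt, ValuationSubring.mem_comap]
  exact (mem_padicPlace_iff q).trans NNReal.coe_le_coe.symm

theorem valSubringAt_one : valSubringAt q 1 = padicPlace q := by
  ext x
  rw [mem_valSubringAt]
  exact ((mem_padicPlace_iff q).trans NNReal.coe_le_coe.symm).symm

theorem valuation_valSubringAt_eq_one_iff {σ : Γ} {x : Qbar} (hx : x ≠ 0) :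
    (valSubringAt q σ).valuation x = 1 ↔ ‖padicEmbedding q (σ x)‖ = 1 := by
  have h1 : (valSubringAt q σ).valuation x = 1 ↔
      (valSubringAt q σ).valuation x ≤ 1 ∧ (valSubringAt q σ).valuation x⁻¹ ≤ 1 := by
    rw [map_inv₀]
    have hv0 : (valSubringAt q σ).valuation x ≠ 0 := (map_ne_zero _).mpr hx
    constructor
    · intro h
      rw [h]
      simp
    · rintro ⟨h1, h2⟩
      refine le_antisymm h1 ?_
      rwa [inv_le_one₀ (zero_lt_iff.mpr hv0)] at h2
  rw [h1, ValuationSubring.valuation_le_one_iff, ValuationSubring.valuation_le_one_iff,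
    mem_valSubringAt, mem_valSubringAt, map_inv₀, map_inv₀, norm_inv]
  have hpos : 0 < ‖padicEmbedding q (σ x)‖ := by
    rw [norm_pos_iff]
    exact (map_ne_zero _).mpr ((map_ne_zero _).mpr hx)
  constructor
  · rintro ⟨h1, h2⟩
    refine le_antisymm h1 ?_
    rwa [inv_le_one₀ hpos] at h2
  · intro h
    rw [h]
    simp

theorem norm_padicEmbedding_natCast (σ : Γ) :
    ‖padicEmbedding q (σ ((q : ℕ) : Qbar))‖ = (q : ℝ)⁻¹ := by
  rw [map_natCast, map_natCast]
  exact norm_natCast_self q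

theorem liesOverPrime_valSubringAt (σ : Γ) : (valSubringAt q σ).LiesOverPrime q := by
  have hq0 : (0 : ℝ) < q := by exact_mod_cast (Fact.out : q.Prime).pos
  have hq1 : (1 : ℝ) < q := by exact_mod_cast (Fact.out : q.Prime).one_lt
  unfold ValuationSubring.LiesOverPrime
  rw [ValuationSubring.mem_nonunits_iff]
  refine lt_of_le_of_ne ?_ ?_
  · rw [ValuationSubring.valuation_le_one_iff, mem_valSubringAt, norm_padicEmbedding_natCast]
    exact (inv_lt_one_of_one_lt₀ hq1).le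
  · have hqQ : ((q : ℕ) : Qbar) ≠ 0 := by exact_mod_cast (Fact.out : q.Prime).ne_zero
    rw [Ne, valuation_valSubringAt_eq_one_iff q hqQ, norm_padicEmbedding_natCast]
    exact (inv_lt_one_of_one_lt₀ hq1).ne

end ValSubring

section Main

variable {S : Finset Nat.Primes}

/-- **Value group off `S`**: for `F` unramified outside `S`, `q ∉ S`, every nonzero `x ∈ F` has
`‖ι_q (σ x)‖ ∈ q ^ ℤ`. -/
theorem exists_norm_eq_zpow_of_isUnramifiedOutside {F : IntermediateField ℚ Qbar}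
    (hF : F.IsUnramifiedOutside S) {q : Nat.Primes} (hq : q ∉ S) (σ : Γ)
    {x : Qbar} (hx : x ∈ F) (hx0 : x ≠ 0) :
    haveI : Fact (q : ℕ).Prime := ⟨q.2⟩
    ∃ n : ℤ, ‖padicEmbedding (q : ℕ) (σ x)‖ = ((q : ℕ) : ℝ) ^ n := by
  haveI : Fact (q : ℕ).Prime := ⟨q.2⟩
  have hq0 : (0 : ℝ) < (q : ℕ) := by exact_mod_cast q.2.pos
  have hqQ : (((q : ℕ) : ℕ) : Qbar) ≠ 0 := by exact_mod_cast q.2.ne_zero
  obtain ⟨n, hn⟩ := UnramBridge.exists_valuation_eq_zpow_of_isUnramifiedOutside hF hq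
    (liesOverPrime_valSubringAt (q : ℕ) σ) hx hx0
  refine ⟨-n, ?_⟩
  have hy0 : x / (((q : ℕ) : ℕ) : Qbar) ^ n ≠ 0 := div_ne_zero hx0 (zpow_ne_zero _ hqQ)
  have h1 : (valSubringAt (q : ℕ) σ).valuation (x / (((q : ℕ) : ℕ) : Qbar) ^ n) = 1 := by
    rw [map_div₀, map_zpow₀, hn]
    exact div_self (zpow_ne_zero _ ((map_ne_zero _).mpr hqQ))
  rw [valuation_valSubringAt_eq_one_iff (q : ℕ) hy0, map_div₀, map_div₀, map_zpow₀, map_zpow₀,
    norm_div, norm_zpow, norm_padicEmbedding_natCast, div_eq_one_iff_eq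
      (zpow_ne_zero _ (inv_ne_zero hq0.ne'))] at h1
  rw [h1, inv_zpow', ]

/-- **Global ⇒ local unramifiedness**: for `F` unramified outside `S` and `q ∉ S`, every local
field `ℚ_q(ι σ F)` is unramified over `ℚ_q` (in the sense of `Local/UnramField`). -/
theorem isUnramifiedIn_localFieldAt {F : IntermediateField ℚ Qbar}
    (hF : F.IsUnramifiedOutside S) {q : Nat.Primes} (hq : q ∉ S) (σ : Γ) :
    haveI : Fact (q : ℕ).Prime := ⟨q.2⟩
    IsUnramifiedIn ℤ_[(q : ℕ)] (localFieldAt (q : ℕ) F σ) := by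
  haveI : Fact (q : ℕ).Prime := ⟨q.2⟩
  haveI : FiniteDimensional ℚ F := hF.1
  haveI : FiniteDimensional ℚ_[(q : ℕ)] (localFieldAt (q : ℕ) F σ) := by
    unfold localFieldAt
    infer_instance
  rw [isUnramifiedIn_iff_forall_norm_eq_zpow]
  intro y hy0
  have hy0' : (y : PadicAlgCl (q : ℕ)) ≠ 0 := by exact_mod_cast hy0
  obtain ⟨x, hx, hx0, hnorm⟩ := exists_norm_eq (q : ℕ) F σ y.2 hy0'
  obtain ⟨n, hn⟩ := exists_norm_eq_zpow_of_isUnramifiedOutside hF hq σ hx hx0
  exact ⟨n, hnorm.symm.trans hn⟩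

/-- Same statement for `localField q F = ℚ_q(ι F)`. -/
theorem isUnramifiedIn_localField {F : IntermediateField ℚ Qbar}
    (hF : F.IsUnramifiedOutside S) {q : Nat.Primes} (hq : q ∉ S) :
    haveI : Fact (q : ℕ).Prime := ⟨q.2⟩
    IsUnramifiedIn ℤ_[(q : ℕ)] (localField (q : ℕ) F) := by
  haveI : Fact (q : ℕ).Prime := ⟨q.2⟩
  have := isUnramifiedIn_localFieldAt hF hq 1
  rwa [localFieldAt_one] at this

end Main

end Fermat.Agent.S55.GL.PlacesUnram
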