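/-
S55 / GLO12b STEP 4 (helper4): detection of `dv_* y = 0` in `H²(Gal(F/L), Div_S(F))` on the
decomposition groups.

* `stab P a x`: the stabiliser of the prime `x` of the layer `F` in `G_L ⧸ U_F`;
* `ordStab P a x : res (stab) ((Q_Sˣ)^{U_F}) ⟶ ℤ`, `m ↦ ord_x (unitOf m)`;
* `map_dvHom_eq_zero_of_stab`: `(dv)_* y = 0` as soon as `(ord_x)_* (res y) = 0` in `H²(stab x, ℤ)`
  for one `x` in each `G_L`-orbit (abstract input: `GC/PermH2.eq_zero_of_forall_evStab`);
* `exists_Hmap_eq_nsmul_of_stab`: the resulting form of (U2) of `BrauerInput`.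
-/
import Fermat.Agent.S55.GL.IdealInst
import Fermat.Agent.S55.GC.PermH2

set_option autoImplicit false

open CategoryTheory IntermediateField

namespace Fermat.Agent.S55.GL.IdealDetect

open Fermat.Agent.S55.Level Fermat.Agent.S55.LevelLayer Fermat.Agent.S55.GL.QSMod
  Fermat.Agent.S55.GL.KummerUnram Fermat.Agent.S55.LevelGlobal Fermat.Agent.S55.GL.DivPackage
  Fermat.Agent.S55.GL.IdealInst Fermat.Agent.S55.GC

local notation "Qbar" => AlgebraicClosure ℚ
local notation "Γ" => (AlgebraicClosure ℚ ≃ₐ[ℚ] AlgebraicClosure ℚ)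

variable {S : Finset Nat.Primes} {L : IntermediateField ℚ Qbar} {p : ℕ} (P : DivPack S p)

/-- The action of the layer group `G_L ⧸ U_F` on the primes of `F` off `S` (not an instance). -/
@[reducible] noncomputable def layerAction (a : GoodField S L) :
    MulAction (↥L.fixingSubgroup ⧸ a.U) (P.X a.toGField) :=
  MulAction.compHom _ (permHom P a)

/-- The stabiliser (decomposition group) of a prime of the layer `F` in `G_L ⧸ U_F`. -/
noncomputable def stab (a : GoodField S L) (x : P.X a.toGField) :
    Subgroup (↥L.fixingSubgroup ⧸ a.U) :=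
  letI := layerAction P a
  MulAction.stabilizer (↥L.fixingSubgroup ⧸ a.U) x

lemma mem_stab_iff (a : GoodField S L) (x : P.X a.toGField) (q : ↥L.fixingSubgroup ⧸ a.U) :
    q ∈ stab P a x ↔ permHom P a q x = x := Iff.rfl

lemma mk_mem_stab_iff (a : GoodField S L) (x : P.X a.toGField) (g : ↥L.fixingSubgroup) :
    (g : ↥L.fixingSubgroup ⧸ a.U) ∈ stab P a x ↔ (g : Γ) • x = x := Iff.rfl

lemma idealRep_apply_smul (a : GoodField S L) (q : ↥L.fixingSubgroup ⧸ a.U)
    (D : P.X a.toGField →₀ ℤ) (x : P.X a.toGField) :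
    idealRho P a q D (permHom P a q x) = D x :=
  Finsupp.mapDomain_apply (permHom P a q).injective D x

/-- `ord_x` on the layer `(Q_Sˣ)^{U_F} = Fˣ`, as a morphism over the stabiliser of `x`. -/
noncomputable def ordStab (a : GoodField S L) (x : P.X a.toGField) :
    Rep.res (stab P a x).subtype ((MS S L).quotientToInvariants a.U) ⟶
      Rep.trivial ℤ ↥(stab P a x) ℤ :=
  letI := layerAction P a
  (Rep.resFunctor (stab P a x).subtype).map (dvHom P a) ≫
    PermH2.evStab (idealRep P a) (AddEquiv.refl (P.X a.toGField →₀ ℤ))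
      (fun q D y => idealRep_apply_smul P a q D y) x

lemma ordStab_apply (a : GoodField S L) (x : P.X a.toGField)
    (m : ((MS S L).quotientToInvariants a.U).V) :
    (ordStab P a x).hom m = P.dv a.toGField (Additive.ofMul (a.unitOf m)) x := rfl

/-- **The divisor of a layer class vanishes in `H²` if its components at the stabilisers vanish**
(one prime in each `G_L`-orbit of primes of `F` off `S` suffices). -/
theorem map_dvHom_eq_zero_of_stab (a : GoodField S L)
    (y : groupCohomology ((MS S L).quotientToInvariants a.U) 2) (R : Set (P.X a.toGField))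
    (hR : ∀ x, ∃ g : ↥L.fixingSubgroup, (g : Γ) • x ∈ R)
    (hcomp : ∀ x ∈ R,
      (groupCohomology.map (stab P a x).subtype (ordStab P a x) 2).hom y = 0) :
    (groupCohomology.map (MonoidHom.id (↥L.fixingSubgroup ⧸ a.U)) (dvHom P a) 2).hom y = 0 := by
  let _ := layerAction P a
  have : a.U.FiniteIndex := ((globalLevel S).restrict L.fixingSubgroup).finiteIndex a.U a.U_mem
  have : Finite (↥L.fixingSubgroup ⧸ a.U) := Subgroup.finite_quotient_of_finiteIndex
  refine PermH2.eq_zero_of_forall_evStab (idealRep P a) (AddEquiv.refl (P.X a.toGField →₀ ℤ))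
    (fun q D y => idealRep_apply_smul P a q D y) _ R (fun x => ?_) (fun x hx => ?_)
  · obtain ⟨g, hg⟩ := hR x
    exact ⟨(g : ↥L.fixingSubgroup ⧸ a.U), hg⟩
  · have h1 := groupCohomology.map_comp (A := (MS S L).quotientToInvariants a.U)
      (B := idealRep P a) (C := Rep.trivial ℤ ↥(stab P a x) ℤ)
      (MonoidHom.id (↥L.fixingSubgroup ⧸ a.U))
      (stab P a x).subtype (dvHom P a)
      (PermH2.evStab (idealRep P a) (AddEquiv.refl (P.X a.toGField →₀ ℤ))
        (fun q D y => idealRep_apply_smul P a q D y) x) 2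
    have h2 := congrArg (fun t => t.hom y) h1
    refine h2.symm.trans ?_
    exact hcomp x hx

/-- **(U2) over `G_{L,S}`, reduced to the local components**: a class of `H²(G_{L,S}, Q_Sˣ)`
represented on a layer `F` by a class `y` whose components
`(ord_x)_* (res_{Stab x} y) ∈ H²(Stab x, ℤ)` vanish (one prime `x` of `F` off `S` in each
`G_L`-orbit) is, up to an integer prime to `p`, in the image of `H²(G_{L,S}, E_S)`. -/
theorem exists_Hmap_eq_nsmul_of_stab (hL : L.IsUnramifiedOutside S) (a : GoodField S L)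
    (y : groupCohomology ((MS S L).quotientToInvariants a.U) 2) (R : Set (P.X a.toGField))
    (hR : ∀ x, ∃ g : ↥L.fixingSubgroup, (g : Γ) • x ∈ R)
    (hcomp : ∀ x ∈ R,
      (groupCohomology.map (stab P a x).subtype (ordStab P a x) 2).hom y = 0) :
    ∃ m : ℕ, m.Coprime p ∧
      ∃ e : levelCohomology ((globalLevel S).restrict L.fixingSubgroup) (ES S L) 2,
        (Fermat.Agent.S55.CF.Hmap ((globalLevel S).restrict L.fixingSubgroup) (iS S L) 2).hom e =
          m • (levelInf ((globalLevel S).restrict L.fixingSubgroup) (MS S L) a.U_mem 2).hom y :=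
  exists_Hmap_eq_nsmul P hL a y (map_dvHom_eq_zero_of_stab P a y R hR hcomp)

end Fermat.Agent.S55.GL.IdealDetect
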