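import Mathlib
import Fermat.Agent.S55.GL.DivPackInst

/-!
# S55 / GL4 part 10: the divisor (off `S`, read in `L`) of an element of `ℚ̄`

Namespace `Fermat.Agent.S55.GL.DivOf`.  `L : IntermediateField ℚ ℚ̄` a number field, `S` a finite set
of primes, `T_L := primesAbove L S`.

* `placeX L S hq A hA : XS L S` : the prime of `L` below a place `A` of `ℚ̄` over `q ∉ S`.
* `HasDiv L S β D` : `|β|_A = |q|_A ^ D(A ∩ L)` for every place `A` of `ℚ̄` over a prime `q ∉ S`
  ("`D` is the divisor of `β` off `S`, read in `L`"; no auxiliary field in the statement).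
* `hasDiv_one`, `HasDiv.mul`, `HasDiv.inv`, `HasDiv.div`, `HasDiv.pow`, `HasDiv.unique`,
  `hasDiv_coe` (`x ∈ Lˣ` has divisor `divT x`), `hasDiv_zero_iff` (`↔ IsSUnit S β`),
  `HasDiv.ne_zero`.
* **`exists_hasDiv`** : if `L` and `ℚ(β)` are unramified outside `S`, `β ≠ 0`, and `σβ/β` is an
  `S`-unit for all `σ ∈ G_L`, then `β` has a divisor in `L`.
* `HasDiv.smul` (`L` normal): `HasDiv β D → HasDiv (σ β) (galRep L S σ D)`.
* `HasDiv.extDiv` : `HasDiv L S β D → HasDiv L' S β (extDiv h S D)` for `L ≤ L'`.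
* `clOf_eq_zero_iff_of_hasDiv` : `clOf D = 0 ↔ ∃ x ∈ Lˣ, IsSUnit S (β / x)`.
-/

set_option autoImplicit false
set_option linter.style.haveILetI false
set_option linter.unusedSectionVars false

open IntermediateField NumberField IsDedekindDomain
open Fermat.Agent.S55.SUnit Fermat.Agent.S55.GL.ClassT Fermat.Agent.S55.GL.Kummer
open Fermat.Agent.S55.GL.UnramBridge Fermat.Agent.S55.GL.QS Fermat.Agent.S55.GL.KummerUnram
open Fermat.Agent.S55.GL.ClassTGalois Fermat.Agent.S55.GL.DivPackInst

namespace Fermat.Agent.S55.GL.DivOf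

local notation "Qbar" => AlgebraicClosure ℚ
local notation "Γ" => (AlgebraicClosure ℚ ≃ₐ[ℚ] AlgebraicClosure ℚ)

local instance isGalois_of_normal_dof (F : IntermediateField ℚ Qbar) [Normal ℚ F] :
    IsGalois ℚ F := {}

section Basic

variable (L : IntermediateField ℚ Qbar) [NumberField L] (S : Finset Nat.Primes)

/-- the prime of `L` below a place `A` of `ℚ̄` over `q ∉ S`, as a prime off `S`. -/
noncomputable def placeX {q : Nat.Primes} (hq : q ∉ S) (A : ValuationSubring Qbar)
    (hA : A.LiesOverPrime (q : ℕ)) : XS L S :=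
  ⟨placeBelow L A q.2.ne_zero hA, (not_mem_primesAbove L).2 (isOff_placeBelow hA hq)⟩

theorem coe_placeX {q : Nat.Primes} (hq : q ∉ S) (A : ValuationSubring Qbar)
    (hA : A.LiesOverPrime (q : ℕ)) :
    (placeX L S hq A hA : HeightOneSpectrum (𝓞 L)) = placeBelow L A q.2.ne_zero hA := rfl

/-- every prime of `L` off `S` is of the form `placeX`. -/
theorem exists_placeX_eq (v : XS L S) :
    ∃ (q : Nat.Primes) (hq : q ∉ S) (A : ValuationSubring Qbar) (hA : A.LiesOverPrime (q : ℕ)),
      placeX L S hq A hA = v := by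
  obtain ⟨q, hq, A, hA, hv⟩ := exists_placeBelow_eq L v.1
  have hoff : IsOff S (placeBelow L A hq.ne_zero hA) := by
    rw [hv]
    exact (not_mem_primesAbove L).1 v.2
  have hqS : (⟨q, hq⟩ : Nat.Primes) ∉ S := not_mem_of_isOff_placeBelow (q := ⟨q, hq⟩) hA hoff
  exact ⟨⟨q, hq⟩, hqS, A, hA, Subtype.ext hv⟩

/-- **`D` is the divisor of `β` off `S`, read in `L`.** -/
def HasDiv (β : Qbar) (D : DivT L (primesAbove L S)) : Prop :=
  ∀ (q : Nat.Primes) (hq : q ∉ S) (A : ValuationSubring Qbar) (hA : A.LiesOverPrime (q : ℕ)),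
    A.valuation β = A.valuation (((q : ℕ) : Qbar)) ^ D (placeX L S hq A hA)

variable {L S}

theorem valuation_natCast_ne_zero (A : ValuationSubring Qbar) (q : Nat.Primes) :
    A.valuation (((q : ℕ) : Qbar)) ≠ 0 :=
  (map_ne_zero _).mpr (by exact_mod_cast q.2.ne_zero)

theorem valuation_natCast_lt_one {A : ValuationSubring Qbar} {q : Nat.Primes}
    (hA : A.LiesOverPrime (q : ℕ)) : A.valuation (((q : ℕ) : Qbar)) < 1 :=
  A.mem_nonunits_iff.1 hA

theorem zpow_valuation_natCast_injective {A : ValuationSubring Qbar} {q : Nat.Primes}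
    (hA : A.LiesOverPrime (q : ℕ)) {m n : ℤ}
    (h : A.valuation (((q : ℕ) : Qbar)) ^ m = A.valuation (((q : ℕ) : Qbar)) ^ n) : m = n :=
  zpow_right_injective₀ (zero_lt_iff.2 (valuation_natCast_ne_zero A q))
    (valuation_natCast_lt_one hA).ne h

theorem hasDiv_one : HasDiv L S 1 0 := fun _ _ A _ => by
  rw [map_one, Finsupp.zero_apply, zpow_zero]

theorem HasDiv.mul {β β' : Qbar} {D D' : DivT L (primesAbove L S)} (h : HasDiv L S β D)
    (h' : HasDiv L S β' D') : HasDiv L S (β * β') (D + D') := fun q hq A hA => by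
  rw [map_mul, h q hq A hA, h' q hq A hA, Finsupp.add_apply,
    zpow_add₀ (valuation_natCast_ne_zero A q)]

theorem HasDiv.inv {β : Qbar} {D : DivT L (primesAbove L S)} (h : HasDiv L S β D) :
    HasDiv L S β⁻¹ (-D) := fun q hq A hA => by
  rw [map_inv₀, h q hq A hA, Finsupp.neg_apply, zpow_neg]

theorem HasDiv.div {β β' : Qbar} {D D' : DivT L (primesAbove L S)} (h : HasDiv L S β D)
    (h' : HasDiv L S β' D') : HasDiv L S (β / β') (D - D') := by
  rw [div_eq_mul_inv, sub_eq_add_neg]
  exact h.mul h'.inv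

theorem HasDiv.pow {β : Qbar} {D : DivT L (primesAbove L S)} (h : HasDiv L S β D) (n : ℕ) :
    HasDiv L S (β ^ n) (n • D) := fun q hq A hA => by
  rw [map_pow, h q hq A hA, Finsupp.smul_apply, ← zpow_natCast, ← zpow_mul, nsmul_eq_mul,
    mul_comm]

theorem HasDiv.ne_zero {β : Qbar} {D : DivT L (primesAbove L S)} (h : HasDiv L S β D)
    {q : Nat.Primes} (hq : q ∉ S) {A : ValuationSubring Qbar} (hA : A.LiesOverPrime (q : ℕ)) :
    β ≠ 0 := by
  rintro rfl
  have h1 := h q hq A hA
  rw [map_zero] at h1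
  exact zpow_ne_zero _ (valuation_natCast_ne_zero A q) h1.symm

/-- **uniqueness of the divisor.** -/
theorem HasDiv.unique {β : Qbar} {D D' : DivT L (primesAbove L S)} (h : HasDiv L S β D)
    (h' : HasDiv L S β D') : D = D' := by
  ext v
  obtain ⟨q, hq, A, hA, rfl⟩ := exists_placeX_eq L S v
  exact zpow_valuation_natCast_injective hA ((h q hq A hA).symm.trans (h' q hq A hA))

theorem HasDiv.congr {β : Qbar} {D D' : DivT L (primesAbove L S)} (h : HasDiv L S β D)
    (hD : D = D') : HasDiv L S β D' := hD ▸ h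

/-- an element of `Lˣ` has its divisor. -/
theorem hasDiv_coe (hL : L.IsUnramifiedOutside S) (x : (↥L)ˣ) :
    HasDiv L S (((x : L) : Qbar)) (divT (primesAbove L S) (Additive.ofMul x)) :=
  fun _ hq A hA => valuation_eq_zpow_ordAt hL hq A hA x

/-- divisor `0` ⇔ `S`-unit. -/
theorem hasDiv_zero_iff {β : Qbar} : HasDiv L S β 0 ↔ IsSUnit S β := by
  constructor
  · intro h q hq A hA
    rw [h q hq A hA, Finsupp.zero_apply, zpow_zero]
  · intro h q hq A hA
    rw [h q hq A hA, Finsupp.zero_apply, zpow_zero]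

theorem HasDiv.of_isSUnit_div {β β' : Qbar} {D : DivT L (primesAbove L S)} (h : HasDiv L S β D)
    (hu : IsSUnit S (β' / β)) (hβ : β ≠ 0) : HasDiv L S β' D := by
  have h1 := (hasDiv_zero_iff (L := L)).2 hu
  have h2 := h.mul h1
  rw [mul_div_cancel₀ _ hβ, add_zero] at h2
  exact h2

/-- two elements with the same divisor differ by an `S`-unit. -/
theorem HasDiv.isSUnit_div {β β' : Qbar} {D : DivT L (primesAbove L S)} (h : HasDiv L S β D)
    (h' : HasDiv L S β' D) : IsSUnit S (β' / β) := by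
  have := h'.div h
  rw [sub_self] at this
  exact hasDiv_zero_iff.1 this

end Basic

section Ext

variable {S : Finset Nat.Primes} {L L' : IntermediateField ℚ Qbar} [NumberField L] [NumberField L']
  (h : L ≤ L')

theorem belowX_placeX {q : Nat.Primes} (hq : q ∉ S) (A : ValuationSubring Qbar)
    (hA : A.LiesOverPrime (q : ℕ)) : belowX h S (placeX L' S hq A hA) = placeX L S hq A hA :=
  Subtype.ext (below_placeBelow h A q.2.ne_zero hA)

theorem extDiv_placeX (D : DivT L (primesAbove L S)) {q : Nat.Primes} (hq : q ∉ S)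
    (A : ValuationSubring Qbar) (hA : A.LiesOverPrime (q : ℕ)) :
    extDiv h S D (placeX L' S hq A hA) = D (placeX L S hq A hA) := by
  rw [extDiv_apply, belowX_placeX]

/-- the divisor read in a bigger field is the extension of the divisor. -/
theorem hasDiv_extDiv_iff {β : Qbar} {D : DivT L (primesAbove L S)} :
    HasDiv L' S β (extDiv h S D) ↔ HasDiv L S β D := by
  constructor
  · intro hD q hq A hA
    rw [hD q hq A hA, extDiv_placeX]
  · intro hD q hq A hA
    rw [hD q hq A hA, extDiv_placeX]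

theorem HasDiv.extDiv {β : Qbar} {D : DivT L (primesAbove L S)} (hD : HasDiv L S β D) :
    HasDiv L' S β (extDiv h S D) := (hasDiv_extDiv_iff h).2 hD

end Ext

section Exists

variable {S : Finset Nat.Primes} {L : IntermediateField ℚ Qbar} [NumberField L]

/-- **Existence of the divisor in `L`**: if `L` and `ℚ(β)` are unramified outside `S`, `β ≠ 0`, and
`σ β / β` is an `S`-unit for every `σ ∈ G_L`, then the divisor of `β` off `S` is (the extension of)
a divisor of `L`. -/
theorem exists_hasDiv (hL : L.IsUnramifiedOutside S) {β : Qbar} (hβ0 : β ≠ 0)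
    (hβ : (ℚ⟮β⟯).IsUnramifiedOutside S)
    (hinv : ∀ σ ∈ L.fixingSubgroup, IsSUnit S (σ β / β)) :
    ∃ D : DivT L (primesAbove L S), HasDiv L S β D := by
  obtain ⟨F', hle, hF', hgal⟩ := exists_isGalois_isUnramifiedOutside (hL.sup hβ)
  haveI : NumberField F' := numberField_of_finiteDimensional F' hF'.1
  haveI : Normal ℚ F' := hgal.to_normal
  have h : L ≤ F' := le_sup_left.trans hle
  have hβF' : β ∈ F' := hle ((le_sup_right : ℚ⟮β⟯ ≤ L ⊔ ℚ⟮β⟯) (mem_adjoin_simple_self ℚ β))
  have hb0 : (⟨β, hβF'⟩ : F') ≠ 0 := fun h0 => hβ0 (congrArg Subtype.val h0)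
  let b : (↥F')ˣ := Units.mk0 ⟨β, hβF'⟩ hb0
  have hbD : HasDiv F' S β (divT (primesAbove F' S) (Additive.ofMul b)) := hasDiv_coe hF' b
  -- invariance
  have hinv' : ∀ σ ∈ L.fixingSubgroup,
      galRep F' S σ (divT (primesAbove F' S) (Additive.ofMul b)) =
        divT (primesAbove F' S) (Additive.ofMul b) := by
    intro σ hσ
    rw [← divT_unitsGal]
    have hu : unitsGal F' σ b / b ∈ TUnit F' (primesAbove F' S) := by
      rw [mem_TUnit_primesAbove_iff]
      have h1 : ((((unitsGal F' σ b / b : (↥F')ˣ) : F')) : Qbar) = σ β / β := by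
        rw [Units.val_div_eq_div_val]
        push_cast
        rw [coe_unitsGal]
        rfl
      rw [h1]
      exact hinv σ hσ
    have h2 := (divT_ofMul_eq_zero_iff (primesAbove F' S) _).2 hu
    rw [ofMul_div, map_sub, sub_eq_zero] at h2
    exact h2
  obtain ⟨D, hD⟩ := exists_extDiv_eq_of_invariant h S _ hinv'
  refine ⟨D, (hasDiv_extDiv_iff h).1 ?_⟩
  rw [hD]
  exact hbD

/-- `clOf D = 0` iff `β` is, up to an `S`-unit, an element of `Lˣ`. -/
theorem clOf_eq_zero_iff_of_hasDiv (hL : L.IsUnramifiedOutside S) {β : Qbar}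
    {D : DivT L (primesAbove L S)} (hD : HasDiv L S β D) :
    clOf (primesAbove L S) D = 0 ↔ ∃ x : (↥L)ˣ, IsSUnit S (β / ((x : L) : Qbar)) := by
  rw [clOf_eq_zero_iff]
  constructor
  · rintro ⟨x, hx⟩
    refine ⟨Additive.toMul x, ?_⟩
    have h1 := hasDiv_coe hL (Additive.toMul x)
    have h2 : HasDiv L S (((Additive.toMul x : (↥L)ˣ) : L) : Qbar) D := by
      rw [← hx]
      exact h1
    exact h2.isSUnit_div hD
  · rintro ⟨x, hx⟩
    refine ⟨Additive.ofMul x, ?_⟩
    have h1 := hasDiv_coe hL x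
    have hx0 : (((x : L) : Qbar)) ≠ 0 := by
      have : (x : L) ≠ 0 := x.ne_zero
      simp
    exact (h1.of_isSUnit_div hx hx0).unique hD

end Exists

section Smul

open scoped Pointwise

variable {S : Finset Nat.Primes} {L : IntermediateField ℚ Qbar} [NumberField L] [Normal ℚ L]

/-- transport of "valuation one" along `σ`. -/
theorem valuation_apply_eq_one_of_smul (A : ValuationSubring Qbar) (σ : Γ) {x : Qbar}
    (h1 : (σ⁻¹ • A).valuation x = 1) : A.valuation (σ x) = 1 := by
  have hmem : x ∈ σ⁻¹ • A := mem_of_valuation_eq_one _ h1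
  have hnon : x ∉ (σ⁻¹ • A).nonunits := not_mem_nonunits_of_valuation_eq_one _ h1
  apply valuation_eq_one_of_mem_of_not_mem_nonunits
  · have := (mem_smul_iff A σ⁻¹ x).mp hmem
    simpa [AlgEquiv.aut_inv] using this
  · intro h
    apply hnon
    rw [mem_nonunits_smul_iff]
    simpa [AlgEquiv.aut_inv] using h

/-- the prime of `L` below the conjugate place `σ⁻¹ A` is the conjugate prime. -/
theorem placeBelow_inv_smul (A : ValuationSubring Qbar) (σ : Γ) {q : ℕ} (hq : q ≠ 0)
    (hA : A.LiesOverPrime q) (hB : (σ⁻¹ • A).LiesOverPrime q) :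
    placeBelow L (σ⁻¹ • A) hq hB = gsmul L σ⁻¹ (placeBelow L A hq hA) := by
  apply HeightOneSpectrum.ext
  ext x
  rw [gsmul, Fermat.Agent.S14.GalDiv.mem_smul_asIdeal_iff, placeBelow_asIdeal, placeBelow_asIdeal,
    mem_primeBelow, mem_primeBelow, mem_nonunits_smul_iff, ← map_inv, coe_smul_int]
  simp [AlgEquiv.aut_inv]

/-- **Galois equivariance of the divisor** (`L` normal over `ℚ`). -/
theorem HasDiv.smul {β : Qbar} {D : DivT L (primesAbove L S)} (hD : HasDiv L S β D) (σ : Γ) :
    HasDiv L S (σ β) (galRep L S σ D) := by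
  intro q hq A hA
  have hB : (σ⁻¹ • A).LiesOverPrime (q : ℕ) := (liesOverPrime_smul_iff A σ⁻¹ _).mpr hA
  have h1 := hD q hq (σ⁻¹ • A) hB
  have hidx : (permX L S σ).symm (placeX L S hq A hA) = placeX L S hq (σ⁻¹ • A) hB := by
    apply Subtype.ext
    rw [coe_permX_symm, coe_placeX, coe_placeX, placeBelow_inv_smul A σ q.2.ne_zero hA hB]
  rw [galRep_apply_apply, hidx]
  set n : ℤ := D (placeX L S hq (σ⁻¹ • A) hB) with hn
  have hq0 : (((q : ℕ) : Qbar)) ≠ 0 := by exact_mod_cast q.2.ne_zero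
  have h2 : (σ⁻¹ • A).valuation (β / ((q : ℕ) : Qbar) ^ n) = 1 := by
    rw [map_div₀, map_zpow₀, h1]
    exact div_self (zpow_ne_zero _ (valuation_natCast_ne_zero _ q))
  have h3 := valuation_apply_eq_one_of_smul A σ h2
  rw [map_div₀, map_zpow₀, map_natCast, map_div₀, map_zpow₀,
    div_eq_one_iff_eq (zpow_ne_zero _ (valuation_natCast_ne_zero A q))] at h3
  exact h3

end Smul

end Fermat.Agent.S55.GL.DivOf
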