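import Mathlib
import Fermat.Agent.S55.GL.DivOfElement
import Fermat.Agent.S55.GL.PlacesPrime
import Fermat.Agent.S55.GL.BrauerLocal

/-!
# S55 / GL4 part 12: orbit representatives of the primes of a layer `F ⊇ L`

Namespace `Fermat.Agent.S55.GL.OrbitReps`.  `L ≤ F` number fields in `ℚ̄`, `F` normal over `ℚ`.
Places of `L` in helper2's model (`PlacesOver q L`, `FinPlace L`, representative `v.rep : Γ`),
primes of `F` in helper11's dictionary (`Places.primeAt q F σ`).

* `primeAt_mul` : `primeAt q F (σ * g) = gsmul F g⁻¹ (primeAt q F σ)`.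
* `primeAt_localGaloisToGlobal_mul` : `primeAt q F (r(τ) * σ) = primeAt q F σ`.
* `gsmul_primeAt_eq_iff` : the stabiliser of `primeAt q F σ`:
  `gsmul F g (primeAt q F σ) = primeAt q F σ ↔ ∃ τ, ∃ h ∈ G_F, g⁻¹ = conjLocal q σ τ * h`.
* **`exists_gsmul_eq_primeAt_rep`** : every prime of `F` over `q` is `G_L`-conjugate to
  `primeAt q F (rep w)` for a place `w` of `L` over `q`.
* `repX L F S v hv : XS F S` (the prime of `F` at `v.rep`, `v : FinPlace L` off `S`),
  `repSet L F S : Set (XS F S)`, **`exists_smul_mem_repSet`** (helper4's `hR`, for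
  `galMulAction F S` = the action of `divPack`).
-/

set_option autoImplicit false
set_option linter.style.haveILetI false
set_option linter.unusedSectionVars false

open IntermediateField NumberField IsDedekindDomain
open Fermat.Agent.S55.SUnit Fermat.Agent.S55.GL.ClassT Fermat.Agent.S55.GL.Kummer
open Fermat.Agent.S55.GL.UnramBridge Fermat.Agent.S55.GL.QS Fermat.Agent.S55.GL.KummerUnram
open Fermat.Agent.S55.GL.ClassTGalois Fermat.Agent.S55.GL.DivOf
open Fermat.Agent.S55.GL.Places Fermat.Agent.S55.GL.BrauerLocal Fermat.Agent.S55.LocalDict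
open scoped Pointwise

namespace Fermat.Agent.S55.GL.OrbitReps

local notation "Qbar" => AlgebraicClosure ℚ
local notation "Γ" => (AlgebraicClosure ℚ ≃ₐ[ℚ] AlgebraicClosure ℚ)

local instance factPrime_or (q : Nat.Primes) : Fact (q : ℕ).Prime := ⟨q.2⟩

section Prime

variable (q : ℕ) [Fact q.Prime] (F : IntermediateField ℚ Qbar) [NumberField F]

theorem placeBelow_congr {A B : ValuationSubring Qbar} (hAB : A = B) {n : ℕ} (hn : n ≠ 0)
    (hA : A.LiesOverPrime n) (hB : B.LiesOverPrime n) :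
    placeBelow F A hn hA = placeBelow F B hn hB := by
  subst hAB
  rfl

/-- the local Galois group does not move the prime. -/
theorem primeAt_localGaloisToGlobal_mul (τ : PadicAlgCl q ≃ₐ[ℚ_[q]] PadicAlgCl q) (σ : Γ) :
    primeAt q F (localGaloisToGlobal q τ * σ) = primeAt q F σ := by
  rw [primeAt_eq_iff]
  intro x _
  exact absAt_localGaloisToGlobal_mul q τ σ x

variable [Normal ℚ F]

/-- **equivariance of `primeAt`.** -/
theorem primeAt_mul (σ g : Γ) : primeAt q F (σ * g) = gsmul F g⁻¹ (primeAt q F σ) := by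
  have hq : q ≠ 0 := (Fact.out : q.Prime).ne_zero
  have h1 : primeAt q F (σ * g) =
      placeBelow F (g⁻¹ • placeSub q σ) hq
        ((liesOverPrime_smul_iff (placeSub q σ) g⁻¹ q).2 (liesOverPrime_placeSub q σ)) :=
    placeBelow_congr F (placeSub_mul q σ g) hq _ _
  rw [h1]
  exact placeBelow_inv_smul (placeSub q σ) g hq (liesOverPrime_placeSub q σ) _

theorem gsmul_primeAt (σ g : Γ) : gsmul F g (primeAt q F σ) = primeAt q F (σ * g⁻¹) := by
  rw [primeAt_mul, inv_inv]

/-- **the stabiliser of `primeAt q F σ`** is `(σ⁻¹ D_q σ) · G_F`. -/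
theorem gsmul_primeAt_eq_iff (σ g : Γ) :
    gsmul F g (primeAt q F σ) = primeAt q F σ ↔
      ∃ τ : PadicAlgCl q ≃ₐ[ℚ_[q]] PadicAlgCl q, ∃ h ∈ F.fixingSubgroup,
        g⁻¹ = conjLocal q σ τ * h := by
  rw [gsmul_primeAt, primeAt_eq_iff, samePlace_mul_iff]

end Prime

section Orbit

variable (L F : IntermediateField ℚ Qbar) [NumberField L] [NumberField F] [Normal ℚ F]

/-- **every prime of `F` over `q` is `G_L`-conjugate to the prime cut out by the chosen
representative of a place of `L` over `q`.** -/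
theorem exists_gsmul_eq_primeAt_rep (q : ℕ) [Fact q.Prime] (x : HeightOneSpectrum (𝓞 F))
    (hx : (q : 𝓞 F) ∈ x.asIdeal) :
    ∃ g ∈ L.fixingSubgroup, ∃ w : PlacesOver q L,
      gsmul F g x = primeAt q F (PlacesOver.rep q w) := by
  obtain ⟨σ, rfl⟩ := exists_primeAt_eq q F x hx
  set w : PlacesOver q L := placeOf q L σ with hw
  have hs : SamePlace q L σ (PlacesOver.rep q w) := (samePlace_rep_placeOf q σ).symm
  obtain ⟨τ, g, hg, hρ⟩ := hs.exists_eq_mul q
  refine ⟨g⁻¹, inv_mem hg, w, ?_⟩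
  rw [hρ, primeAt_mul, primeAt_localGaloisToGlobal_mul]

variable (S : Finset Nat.Primes)

/-- the prime of `F` (off `S`) cut out by the representative of a finite place `v` of `L` with
`v.prime ∉ S`. -/
noncomputable def repX (v : FinPlace L) (hv : v.prime ∉ S) : XS F S :=
  ⟨primeAt (v.prime : ℕ) F v.rep, by
    rw [not_mem_primesAbove]
    exact isOff_placeBelow (liesOverPrime_placeSub (v.prime : ℕ) v.rep) hv⟩

theorem coe_repX (v : FinPlace L) (hv : v.prime ∉ S) :
    (repX L F S v hv : HeightOneSpectrum (𝓞 F)) = primeAt (v.prime : ℕ) F v.rep := rfl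

/-- the set of orbit representatives. -/
def repSet : Set (XS F S) := {x | ∃ (v : FinPlace L) (hv : v.prime ∉ S), x = repX L F S v hv}

theorem repX_mem_repSet (v : FinPlace L) (hv : v.prime ∉ S) : repX L F S v hv ∈ repSet L F S :=
  ⟨v, hv, rfl⟩

/-- **helper4's `hR`**: every prime of `F` off `S` is `G_L`-conjugate to a representative. -/
theorem exists_permX_mem_repSet (x : XS F S) :
    ∃ g : ↥L.fixingSubgroup, permX F S (g : Γ) x ∈ repSet L F S := by
  obtain ⟨q, hq, A, hA, hx⟩ := exists_placeX_eq F S x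
  have hqx : ((q : ℕ) : 𝓞 F) ∈ x.1.asIdeal := by
    rw [← hx, coe_placeX]
    exact natCast_mem_primeBelow F A hA
  obtain ⟨g, hg, w, hgw⟩ := exists_gsmul_eq_primeAt_rep L F (q : ℕ) x.1 hqx
  refine ⟨⟨g, hg⟩, ⟨q, w⟩, hq, ?_⟩
  apply Subtype.ext
  exact hgw

/-- the same for the `MulAction` `galMulAction F S` (the action used by `divPack`). -/
theorem exists_smul_mem_repSet (x : XS F S) :
    ∃ g : ↥L.fixingSubgroup,
      (galMulAction F S).toSMul.smul (g : Γ) x ∈ repSet L F S :=
  exists_permX_mem_repSet L F S x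

end Orbit

section Ord

variable {S : Finset Nat.Primes} {F : IntermediateField ℚ Qbar} [NumberField F]

/-- off `S`, the ramification index (helper11's `Places.ramIdx`) of an `S`-unramified field is `1`. -/
theorem ramIdx_eq_one (hF : F.IsUnramifiedOutside S) {q : Nat.Primes} (hq : q ∉ S) (σ : Γ) :
    Places.ramIdx (q : ℕ) F σ = 1 := by
  rw [Places.ramIdx, primeAt,
    ordAt_placeBelow_eq_iff hF hq (placeSub (q : ℕ) σ) (liesOverPrime_placeSub (q : ℕ) σ), zpow_one]
  congr 1

/-- **the absolute value at `(q, σ)` of an element of an `S`-unramified field, `q ∉ S`**: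
`‖ι_q (σ x)‖ = q ^ (- ord_w x)`, `w = primeAt q F σ`. -/
theorem absOn_eq_zpow_ordAt (hF : F.IsUnramifiedOutside S) {q : Nat.Primes} (hq : q ∉ S) (σ : Γ)
    (x : (↥F)ˣ) :
    absOn (q : ℕ) F σ (x : F) =
      (((q : ℕ) : ℝ)⁻¹) ^ (ordAt (primeAt (q : ℕ) F σ) (Additive.ofMul x)) := by
  have h := absOn_zpow_ramIdx (q : ℕ) F σ x
  rw [ramIdx_eq_one hF hq, zpow_one] at h
  exact h

theorem norm_padicEmbedding_eq_zpow_ordAt (hF : F.IsUnramifiedOutside S) {q : Nat.Primes}
    (hq : q ∉ S) (σ : Γ) (x : (↥F)ˣ) :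
    ‖padicEmbedding (q : ℕ) (σ ((x : F) : Qbar))‖ =
      (((q : ℕ) : ℝ)⁻¹) ^ (ordAt (primeAt (q : ℕ) F σ) (Additive.ofMul x)) :=
  absOn_eq_zpow_ordAt hF hq σ x

end Ord

section Pack

open Fermat.Agent.S55.GL.DivPackage Fermat.Agent.S55.GL.DivPackInst

variable (L : IntermediateField ℚ Qbar) [NumberField L] (S : Finset Nat.Primes)

local instance numberField_gfield_or (F : GField S) : NumberField F.F :=
  numberField_of_finiteDimensional F.F F.unram.1

local instance normal_gfield_or (F : GField S) : Normal ℚ F.F := F.normal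

/-- the orbit representatives inside `(divPack S hpS).X F`. -/
def packRepSet {p : ℕ} [hpF : Fact p.Prime] (hpS : (⟨p, hpF.out⟩ : Nat.Primes) ∈ S)
    (F : GField S) : Set ((divPack S hpS).X F) := repSet L F.F S

theorem mem_packRepSet_iff {p : ℕ} [hpF : Fact p.Prime] (hpS : (⟨p, hpF.out⟩ : Nat.Primes) ∈ S)
    (F : GField S) (x : (divPack S hpS).X F) :
    x ∈ packRepSet L S hpS F ↔ ∃ (v : FinPlace L) (hv : v.prime ∉ S), x = repX L F.F S v hv :=
  Iff.rfl

/-- **helper4's `hR` in the typing of `divPack`.** -/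
theorem exists_smul_mem_packRepSet {p : ℕ} [hpF : Fact p.Prime]
    (hpS : (⟨p, hpF.out⟩ : Nat.Primes) ∈ S) (F : GField S) (x : (divPack S hpS).X F) :
    ∃ g : ↥L.fixingSubgroup, (g : Γ) • x ∈ packRepSet L S hpS F :=
  exists_permX_mem_repSet L F.F S x

end Pack

end Fermat.Agent.S55.GL.OrbitReps
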