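import Mathlib
import Fermat.Agent.S55.GL.OrbitReps
import Fermat.Agent.S55.GL.IdealDetect
import Fermat.Agent.S55.CFAbs

/-!
# S55 / GLO12c (U2, local half), part 1: the decomposition group of a layer prime is the local layer

Namespace `Fermat.Agent.S55.GL.StabLocal`.  `a : GoodField S L` (a finite normal `S`-unramified
`F ⊇ L`), `v : FinPlace L` with `v.prime ∉ S`, `q = v.prime`, `σ = v.rep`,
`x = repX L a.F S v hv` (the prime of `F` cut out by `σ`), `P = divPack S hpS`.

* `Vloc a v : Subgroup (Gloc q L σ)` := `a.U.comap (decompHom q L σ)` (normal, Krull open: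
  `Vloc_mem`), `mem_Vloc_iff`.
* `theta a v : Gloc ⧸ Vloc →* G_L ⧸ a.U` (`= CFAbs.layerHom (decompHom) le_rfl`), `theta_mk`,
  `theta_injective`, `theta_mem_stab`, `exists_theta_eq_of_mem_stab`.
* **`thetaEquiv hpS a v hv : Gloc ⧸ Vloc ≃* ↥(stab (divPack S hpS) a (repX L a.F S v hv))`**,
  `coe_thetaEquiv`.
-/

set_option autoImplicit false
set_option linter.style.haveILetI false
set_option linter.unusedSectionVars false

open IntermediateField NumberField IsDedekindDomain
open Fermat.Agent.S55.GL.ClassTGalois Fermat.Agent.S55.GL.DivOf Fermat.Agent.S55.GL.OrbitReps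
open Fermat.Agent.S55.GL.Places Fermat.Agent.S55.GL.BrauerLocal Fermat.Agent.S55.LocalDict
open Fermat.Agent.S55.GL.IdealInst Fermat.Agent.S55.GL.IdealDetect
open Fermat.Agent.S55.GL.DivPackage Fermat.Agent.S55.GL.DivPackInst
open Fermat.Agent.S55.Level Fermat.Agent.S55.GaloisLevel Fermat.Agent.S55.CFAbs

namespace Fermat.Agent.S55.GL.StabLocal

local notation "Qbar" => AlgebraicClosure ℚ
local notation "Γ" => (AlgebraicClosure ℚ ≃ₐ[ℚ] AlgebraicClosure ℚ)

local instance factPrime_sl (q : Nat.Primes) : Fact (q : ℕ).Prime := ⟨q.2⟩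

local instance numberField_gfield_sl {S : Finset Nat.Primes} (F : GField S) : NumberField F.F :=
  Fermat.Agent.S55.GL.QS.numberField_of_finiteDimensional F.F F.unram.1

local instance normal_gfield_sl {S : Finset Nat.Primes} (F : GField S) : Normal ℚ F.F := F.normal

variable {S : Finset Nat.Primes} {L : IntermediateField ℚ Qbar}

local instance numberField_goodField_sl (a : GoodField S L) : NumberField a.F :=
  Fermat.Agent.S55.GL.QS.numberField_of_finiteDimensional a.F a.unram.1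

local instance normal_goodField_sl (a : GoodField S L) : Normal ℚ a.F := a.normal

section Group

variable (a : GoodField S L) (v : FinPlace L)

/-- the local layer subgroup `decompHom⁻¹(U_F) = Gal(Ω_q / F_w)`. -/
noncomputable def Vloc : Subgroup (Gloc (v.prime : ℕ) L v.rep) :=
  a.U.comap (decompHom (v.prime : ℕ) L v.rep)

theorem mem_Vloc_iff (τ : Gloc (v.prime : ℕ) L v.rep) :
    τ ∈ Vloc a v ↔ ((decompHom (v.prime : ℕ) L v.rep τ : ↥L.fixingSubgroup) : Γ) ∈
      a.F.fixingSubgroup := Iff.rfl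

instance normal_Vloc : (Vloc a v).Normal :=
  Subgroup.Normal.comap a.normal_U _

theorem Vloc_mem :
    Vloc a v ∈ (krullLevel (localFieldAt (v.prime : ℕ) L v.rep) (PadicAlgCl (v.prime : ℕ))).sets :=
  ⟨normal_Vloc a v, isKrullOpen_comap_decompHom (v.prime : ℕ) L v.rep
    (isKrullOpen_of_mem_globalLevel S a.fixingSubgroup_mem)⟩

theorem Vloc_le : Vloc a v ≤ a.U.comap (decompHom (v.prime : ℕ) L v.rep) := le_rfl

/-- the map of layers `Gloc ⧸ Vloc →* G_L ⧸ U_F`. -/
noncomputable def theta : Gloc (v.prime : ℕ) L v.rep ⧸ Vloc a v →* ↥L.fixingSubgroup ⧸ a.U :=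
  layerHom (decompHom (v.prime : ℕ) L v.rep) (Vloc_le a v)

@[simp] theorem theta_mk (τ : Gloc (v.prime : ℕ) L v.rep) :
    theta a v (τ : Gloc (v.prime : ℕ) L v.rep ⧸ Vloc a v) =
      ((decompHom (v.prime : ℕ) L v.rep τ : ↥L.fixingSubgroup) : ↥L.fixingSubgroup ⧸ a.U) := rfl

theorem theta_injective : Function.Injective (theta a v) := by
  rw [injective_iff_map_eq_one]
  intro t
  refine QuotientGroup.induction_on t fun τ h => ?_
  rw [theta_mk, QuotientGroup.eq_one_iff] at h
  exact (QuotientGroup.eq_one_iff τ).2 h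

end Group

section Stab

variable [NumberField L] {p : ℕ} [hpF : Fact p.Prime] (hpS : (⟨p, hpF.out⟩ : Nat.Primes) ∈ S)
  (a : GoodField S L) (v : FinPlace L) (hv : v.prime ∉ S)

/-- the prime of the layer `F` cut out by `v.rep` (a point of `(divPack S hpS).X a.toGField`). -/
noncomputable def layerPrime : XS a.F S := repX L a.F S v hv

theorem layerPrime_mem : layerPrime a v hv ∈ packRepSet L S hpS a.toGField :=
  ⟨v, hv, rfl⟩

theorem coe_layerPrime :
    (layerPrime a v hv).1 = primeAt (v.prime : ℕ) a.F v.rep := rfl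

/-- the action of `Γ` on `(divPack S hpS).X` is `permX`. -/
theorem smul_eq_iff (g : Γ) (x : (divPack S hpS).X a.toGField) :
    g • x = x ↔ gsmul a.F g (x : XS a.F S).1 = (x : XS a.F S).1 := by
  constructor
  · intro h
    exact congrArg Subtype.val h
  · intro h
    exact Subtype.ext h

/-- elements of the local Galois group fix the prime. -/
theorem theta_mem_stab (t : Gloc (v.prime : ℕ) L v.rep ⧸ Vloc a v) :
    theta a v t ∈ stab (divPack S hpS) a (layerPrime a v hv) := by
  refine QuotientGroup.induction_on t fun τ => ?_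
  rw [theta_mk, mk_mem_stab_iff, smul_eq_iff hpS a, coe_layerPrime, gsmul_primeAt_eq_iff]
  refine ⟨(glocToAbs (v.prime : ℕ) L v.rep τ)⁻¹, 1, one_mem _, ?_⟩
  rw [mul_one, map_inv, coe_decompHom]

/-- every element of the stabiliser comes from the local Galois group. -/
theorem exists_theta_eq_of_mem_stab (s : ↥L.fixingSubgroup ⧸ a.U)
    (hs : s ∈ stab (divPack S hpS) a (layerPrime a v hv)) :
    ∃ t : Gloc (v.prime : ℕ) L v.rep ⧸ Vloc a v, theta a v t = s := by
  revert hs
  refine QuotientGroup.induction_on s fun g hg => ?_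
  rw [mk_mem_stab_iff, smul_eq_iff hpS a, coe_layerPrime, gsmul_primeAt_eq_iff] at hg
  obtain ⟨τ₀, h, hh, hgh⟩ := hg
  have hhL : h ∈ L.fixingSubgroup := IntermediateField.fixingSubgroup_antitone a.le hh
  -- `conjLocal τ₀ = g⁻¹ h⁻¹ ∈ G_L`
  have hc : conjLocal (v.prime : ℕ) v.rep τ₀ = (g : Γ)⁻¹ * h⁻¹ := by
    rw [hgh]
    group
  have hcL : conjLocal (v.prime : ℕ) v.rep τ₀ ∈ L.fixingSubgroup := by
    rw [hc]
    exact mul_mem (inv_mem g.2) (inv_mem hhL)
  have hτ₀ : τ₀ ∈ (localFieldAt (v.prime : ℕ) L v.rep).fixingSubgroup := by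
    rw [← comap_conjLocal_fixingSubgroup]
    exact hcL
  -- lift `τ₀` to the local Galois group
  let τ : Gloc (v.prime : ℕ) L v.rep :=
    IntermediateField.fixingSubgroupEquiv (localFieldAt (v.prime : ℕ) L v.rep) ⟨τ₀, hτ₀⟩
  have hτ : glocToAbs (v.prime : ℕ) L v.rep τ = τ₀ := by
    ext y
    rfl
  refine ⟨((τ⁻¹ : Gloc (v.prime : ℕ) L v.rep) : Gloc (v.prime : ℕ) L v.rep ⧸ Vloc a v), ?_⟩
  rw [theta_mk, map_inv, QuotientGroup.mk_inv, inv_eq_iff_eq_inv, ← QuotientGroup.mk_inv,
    QuotientGroup.eq]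
  -- `(decompHom τ)⁻¹ * g⁻¹ ∈ U_F`
  show (((decompHom (v.prime : ℕ) L v.rep τ)⁻¹ * g⁻¹ : ↥L.fixingSubgroup) : Γ) ∈ a.F.fixingSubgroup
  have h1 : (((decompHom (v.prime : ℕ) L v.rep τ)⁻¹ * g⁻¹ : ↥L.fixingSubgroup) : Γ) =
      (conjLocal (v.prime : ℕ) v.rep τ₀)⁻¹ * (g : Γ)⁻¹ := by
    push_cast
    rw [coe_decompHom, hτ]
  rw [h1, hc]
  have h2 : ((g : Γ)⁻¹ * h⁻¹)⁻¹ * (g : Γ)⁻¹ = h * ((g : Γ) * (g : Γ)⁻¹) := by group
  rw [h2, mul_inv_cancel, mul_one]
  exact hh

/-- **the decomposition group of the layer prime is the local layer group.** -/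
noncomputable def thetaEquiv :
    (Gloc (v.prime : ℕ) L v.rep ⧸ Vloc a v) ≃*
      ↥(stab (divPack S hpS) a (layerPrime a v hv)) :=
  MulEquiv.ofBijective
    ((theta a v).codRestrict (stab (divPack S hpS) a (layerPrime a v hv))
      (theta_mem_stab hpS a v hv))
    ⟨fun t t' h => theta_injective a v (congrArg Subtype.val h), fun s => by
      obtain ⟨t, ht⟩ := exists_theta_eq_of_mem_stab hpS a v hv s.1 s.2
      exact ⟨t, Subtype.ext ht⟩⟩

theorem coe_thetaEquiv (t : Gloc (v.prime : ℕ) L v.rep ⧸ Vloc a v) :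
    ((thetaEquiv hpS a v hv t : ↥(stab (divPack S hpS) a (layerPrime a v hv))) :
      ↥L.fixingSubgroup ⧸ a.U) = theta a v t := rfl

theorem subtype_comp_thetaEquiv :
    (stab (divPack S hpS) a (layerPrime a v hv)).subtype.comp
      (thetaEquiv hpS a v hv).toMonoidHom = theta a v := rfl

end Stab

end Fermat.Agent.S55.GL.StabLocal
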