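import Mathlib
import Fermat.Agent.S55.GL.StabLocal
import Fermat.Agent.S55.GL.PlacesUnram

/-!
# S55 / GLO12c (U2, local half), part 2: the `ℤ`-valued valuation on the local layer

Namespace `Fermat.Agent.S55.GL.StabLocal` (continuation of `GL/StabLocal.lean`).
`a : GoodField S L`, `v : FinPlace L` with `hv : v.prime ∉ S`, `q = v.prime`, `σ = v.rep`,
`K_v = localFieldAt q L σ`, `Ω = PadicAlgCl q`, `V = Vloc a v`.

* `normOrd q u : ℤ` (`u : Ω`): the `n` with `‖u‖ = q⁻ⁿ` (`0` if there is none); `normOrd_eq`,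
  `normOrd_mul`, `normOrd_one`, `normOrd_algEquiv`.
* `mem_localFieldAt_of_invariant` : `(Ωˣ)^V ⊆ ℚ_q(ι σ F)`; `exists_norm_eq_of_invariant` (`q ∉ S`):
  the `V`-invariant units have norm in `q ^ ℤ`.
* **`ordLoc a v hv : (unitsRep K_v Ω).quotientToInvariants V ⟶ Rep.trivial ℤ (Gloc ⧸ V) ℤ`**,
  `ordLoc_apply`.
* **`ordLoc_layerBCHom`** : `ordLoc ((layerBCHom decompHom coeffLoc) m) = ordStab x m`, i.e.
  `ordLoc ∘ embLoc = ord_x` on the global layer `(Q_Sˣ)^{U_F} = Fˣ`.
-/

set_option autoImplicit false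
set_option linter.style.haveILetI false
set_option linter.unusedSectionVars false

open IntermediateField NumberField IsDedekindDomain
open Fermat.Agent.S55.SUnit Fermat.Agent.S55.GL.ClassT
open Fermat.Agent.S55.GL.ClassTGalois Fermat.Agent.S55.GL.DivOf Fermat.Agent.S55.GL.OrbitReps
open Fermat.Agent.S55.GL.Places Fermat.Agent.S55.GL.BrauerLocal Fermat.Agent.S55.LocalDict
open Fermat.Agent.S55.GL.IdealInst Fermat.Agent.S55.GL.IdealDetect
open Fermat.Agent.S55.GL.DivPackage Fermat.Agent.S55.GL.DivPackInst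
open Fermat.Agent.S55.Level Fermat.Agent.S55.GaloisLevel Fermat.Agent.S55.CFAbs
open Fermat.Agent.S55.GL.QSMod Fermat.Agent.S55.GL.PlacesUnram Fermat.Agent.S55.LocalInt
open Fermat.Agent.S55.Local.Unram

namespace Fermat.Agent.S55.GL.StabLocal

local notation "Qbar" => AlgebraicClosure ℚ
local notation "Γ" => (AlgebraicClosure ℚ ≃ₐ[ℚ] AlgebraicClosure ℚ)

local instance factPrime_ol (q : Nat.Primes) : Fact (q : ℕ).Prime := ⟨q.2⟩

section NormOrd

variable (q : ℕ) [Fact q.Prime]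

theorem inv_zpow_injective : Function.Injective fun n : ℤ => ((q : ℝ)⁻¹) ^ n := by
  have hq1 : (1 : ℝ) < q := by exact_mod_cast (Fact.out : q.Prime).one_lt
  have hq0 : (0 : ℝ) < q := by linarith
  exact zpow_right_injective₀ (inv_pos.2 hq0) (inv_lt_one_of_one_lt₀ hq1).ne

/-- the exponent `n` with `‖u‖ = q⁻ⁿ` (and `0` if there is none). -/
noncomputable def normOrd (u : PadicAlgCl q) : ℤ :=
  open Classical in
  if h : ∃ n : ℤ, ‖u‖ = ((q : ℝ)⁻¹) ^ n then Classical.choose h else 0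

theorem normOrd_eq {u : PadicAlgCl q} {n : ℤ} (h : ‖u‖ = ((q : ℝ)⁻¹) ^ n) : normOrd q u = n := by
  have hex : ∃ n : ℤ, ‖u‖ = ((q : ℝ)⁻¹) ^ n := ⟨n, h⟩
  rw [normOrd, dif_pos hex]
  exact inv_zpow_injective q ((Classical.choose_spec hex).symm.trans h)

theorem norm_eq_zpow_normOrd {u : PadicAlgCl q} (h : ∃ n : ℤ, ‖u‖ = ((q : ℝ)⁻¹) ^ n) :
    ‖u‖ = ((q : ℝ)⁻¹) ^ (normOrd q u) := by
  obtain ⟨n, hn⟩ := h
  rw [normOrd_eq q hn, hn]

theorem normOrd_one : normOrd q (1 : PadicAlgCl q) = 0 :=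
  normOrd_eq q (by rw [norm_one, zpow_zero])

theorem normOrd_mul {u u' : PadicAlgCl q} (h : ∃ n : ℤ, ‖u‖ = ((q : ℝ)⁻¹) ^ n)
    (h' : ∃ n : ℤ, ‖u'‖ = ((q : ℝ)⁻¹) ^ n) :
    normOrd q (u * u') = normOrd q u + normOrd q u' := by
  obtain ⟨n, hn⟩ := h
  obtain ⟨n', hn'⟩ := h'
  have hq0 : ((q : ℝ)⁻¹) ≠ 0 := by
    apply inv_ne_zero
    exact_mod_cast (Fact.out : q.Prime).ne_zero
  rw [normOrd_eq q hn, normOrd_eq q hn']
  apply normOrd_eq
  rw [norm_mul, hn, hn', zpow_add₀ hq0]

theorem normOrd_algEquiv (τ : PadicAlgCl q ≃ₐ[ℚ_[q]] PadicAlgCl q) (u : PadicAlgCl q) :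
    normOrd q (τ u) = normOrd q u := by
  have h : ‖τ u‖ = ‖u‖ := (isometry_algEquiv q τ).norm_map_of_map_zero (map_zero τ) u
  unfold normOrd
  rw [h]

end NormOrd

variable {S : Finset Nat.Primes} {L : IntermediateField ℚ Qbar}

local instance numberField_goodField_ol (a : GoodField S L) : NumberField a.F :=
  Fermat.Agent.S55.GL.QS.numberField_of_finiteDimensional a.F a.unram.1

local instance normal_goodField_ol (a : GoodField S L) : Normal ℚ a.F := a.normal

section Invariants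

variable (a : GoodField S L) (v : FinPlace L)

/-- a `Vloc`-invariant unit of `Ω_q` lies in the local field `ℚ_q(ι σ F)` of the layer. -/
theorem mem_localFieldAt_of_invariant
    (u : (unitsRep (localFieldAt (v.prime : ℕ) L v.rep) (PadicAlgCl (v.prime : ℕ))).V)
    (hu : u ∈ Representation.invariants
      ((unitsRep (localFieldAt (v.prime : ℕ) L v.rep) (PadicAlgCl (v.prime : ℕ))).ρ.comp
        (Vloc a v).subtype)) :
    ((Additive.toMul (u : Additive (PadicAlgCl (v.prime : ℕ))ˣ) : (PadicAlgCl (v.prime : ℕ))ˣ) :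
      PadicAlgCl (v.prime : ℕ)) ∈ localFieldAt (v.prime : ℕ) a.F v.rep := by
  have hu' := (mem_invariants_unitsRep_iff (Vloc a v) u).1 hu
  rw [IntermediateField.mem_fixedField_iff] at hu'
  rw [← InfiniteGalois.fixedField_fixingSubgroup (localFieldAt (v.prime : ℕ) a.F v.rep),
    IntermediateField.mem_fixedField_iff]
  intro τa hτa
  have hle : localFieldAt (v.prime : ℕ) L v.rep ≤ localFieldAt (v.prime : ℕ) a.F v.rep :=
    localFieldAt_mono (v.prime : ℕ) a.le v.rep
  have hfix : τa ∈ (localFieldAt (v.prime : ℕ) L v.rep).fixingSubgroup :=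
    IntermediateField.fixingSubgroup_antitone hle hτa
  let τ : Gloc (v.prime : ℕ) L v.rep :=
    IntermediateField.fixingSubgroupEquiv (localFieldAt (v.prime : ℕ) L v.rep) ⟨τa, hfix⟩
  have hτ : τ ∈ Vloc a v := by
    rw [mem_Vloc_iff, coe_decompHom, ← Subgroup.mem_comap, comap_conjLocal_fixingSubgroup]
    exact hτa
  exact hu' τ hτ

variable (hv : v.prime ∉ S)

include hv in
/-- off `S`, the `Vloc`-invariant units of `Ω_q` have norm in `q ^ ℤ`. -/
theorem exists_norm_eq_of_invariant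
    (u : (unitsRep (localFieldAt (v.prime : ℕ) L v.rep) (PadicAlgCl (v.prime : ℕ))).V)
    (hu : u ∈ Representation.invariants
      ((unitsRep (localFieldAt (v.prime : ℕ) L v.rep) (PadicAlgCl (v.prime : ℕ))).ρ.comp
        (Vloc a v).subtype)) :
    ∃ n : ℤ, ‖((Additive.toMul (u : Additive (PadicAlgCl (v.prime : ℕ))ˣ) :
      (PadicAlgCl (v.prime : ℕ))ˣ) : PadicAlgCl (v.prime : ℕ))‖ =
        ((((v.prime : ℕ) : ℝ))⁻¹) ^ n := by
  have hmem := mem_localFieldAt_of_invariant a v u hu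
  have hunr := isUnramifiedIn_localFieldAt a.unram hv v.rep
  haveI : FiniteDimensional ℚ a.F := a.unram.1
  haveI : FiniteDimensional ℚ_[(v.prime : ℕ)] (localFieldAt (v.prime : ℕ) a.F v.rep) := by
    unfold localFieldAt
    infer_instance
  rw [isUnramifiedIn_iff_forall_norm_eq_zpow] at hunr
  have hne : (⟨_, hmem⟩ : localFieldAt (v.prime : ℕ) a.F v.rep) ≠ 0 := by
    intro h0
    exact (Additive.toMul (u : Additive (PadicAlgCl (v.prime : ℕ))ˣ)).ne_zero
      (congrArg Subtype.val h0)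
  obtain ⟨n, hn⟩ := hunr ⟨_, hmem⟩ hne
  refine ⟨-n, ?_⟩
  rw [inv_zpow', neg_neg]
  exact hn

end Invariants

section OrdLoc

variable (a : GoodField S L) (v : FinPlace L) (hv : v.prime ∉ S)

/-- the underlying element of `Ω_q` of an element of the local layer module. -/
noncomputable def layerVal
    (u : ((unitsRep (localFieldAt (v.prime : ℕ) L v.rep)
      (PadicAlgCl (v.prime : ℕ))).quotientToInvariants (Vloc a v)).V) : PadicAlgCl (v.prime : ℕ) :=
  ((Additive.toMul ((u : (unitsRep (localFieldAt (v.prime : ℕ) L v.rep)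
    (PadicAlgCl (v.prime : ℕ))).V) : Additive (PadicAlgCl (v.prime : ℕ))ˣ) :
      (PadicAlgCl (v.prime : ℕ))ˣ) : PadicAlgCl (v.prime : ℕ))

theorem layerVal_add (u u' : ((unitsRep (localFieldAt (v.prime : ℕ) L v.rep)
      (PadicAlgCl (v.prime : ℕ))).quotientToInvariants (Vloc a v)).V) :
    layerVal a v (u + u') = layerVal a v u * layerVal a v u' := rfl

theorem layerVal_zero : layerVal a v 0 = 1 := rfl

theorem layerVal_ρ_mk (τ : Gloc (v.prime : ℕ) L v.rep)
    (u : ((unitsRep (localFieldAt (v.prime : ℕ) L v.rep)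
      (PadicAlgCl (v.prime : ℕ))).quotientToInvariants (Vloc a v)).V) :
    layerVal a v (((unitsRep (localFieldAt (v.prime : ℕ) L v.rep)
      (PadicAlgCl (v.prime : ℕ))).quotientToInvariants (Vloc a v)).ρ
        (τ : Gloc (v.prime : ℕ) L v.rep ⧸ Vloc a v) u) = τ (layerVal a v u) := rfl

include hv in
theorem exists_norm_layerVal
    (u : ((unitsRep (localFieldAt (v.prime : ℕ) L v.rep)
      (PadicAlgCl (v.prime : ℕ))).quotientToInvariants (Vloc a v)).V) :
    ∃ n : ℤ, ‖layerVal a v u‖ = ((((v.prime : ℕ) : ℝ))⁻¹) ^ n :=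
  exists_norm_eq_of_invariant a v hv u.1 u.2

/-- the valuation, as an additive map on the local layer module. -/
noncomputable def ordLocAdd :
    ((unitsRep (localFieldAt (v.prime : ℕ) L v.rep)
      (PadicAlgCl (v.prime : ℕ))).quotientToInvariants (Vloc a v)).V →+ ℤ where
  toFun u := normOrd (v.prime : ℕ) (layerVal a v u)
  map_zero' := by
    rw [layerVal_zero]
    exact normOrd_one (v.prime : ℕ)
  map_add' u u' := by
    rw [layerVal_add]
    exact normOrd_mul (v.prime : ℕ) (exists_norm_layerVal a v hv u) (exists_norm_layerVal a v hv u')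

/-- **the `ℤ`-valued valuation on the local layer** `(Ω_qˣ)^V = F_wˣ`, as a morphism to the trivial
module `ℤ` over the local layer group `Gloc ⧸ V`. -/
noncomputable def ordLoc :
    (unitsRep (localFieldAt (v.prime : ℕ) L v.rep)
      (PadicAlgCl (v.prime : ℕ))).quotientToInvariants (Vloc a v) ⟶
      Rep.trivial ℤ (Gloc (v.prime : ℕ) L v.rep ⧸ Vloc a v) ℤ :=
  CategoryTheory.ConcreteCategory.ofHom (C := Rep.{0} ℤ (Gloc (v.prime : ℕ) L v.rep ⧸ Vloc a v))
    (X := (unitsRep (localFieldAt (v.prime : ℕ) L v.rep)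
      (PadicAlgCl (v.prime : ℕ))).quotientToInvariants (Vloc a v))
    (Y := Rep.trivial ℤ (Gloc (v.prime : ℕ) L v.rep ⧸ Vloc a v) ℤ)
    ⟨(ordLocAdd a v hv).toIntLinearMap, fun g => by
      refine LinearMap.ext fun u => ?_
      revert u
      refine QuotientGroup.induction_on g fun τ u => ?_
      show normOrd (v.prime : ℕ) (layerVal a v _) = normOrd (v.prime : ℕ) (layerVal a v u)
      rw [layerVal_ρ_mk]
      exact normOrd_algEquiv (v.prime : ℕ) (glocToAbs (v.prime : ℕ) L v.rep τ) _⟩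

theorem ordLoc_apply
    (u : ((unitsRep (localFieldAt (v.prime : ℕ) L v.rep)
      (PadicAlgCl (v.prime : ℕ))).quotientToInvariants (Vloc a v)).V) :
    (ordLoc a v hv).hom u = normOrd (v.prime : ℕ) (layerVal a v u) := rfl

end OrdLoc

section Compat

variable [NumberField L] {p : ℕ} [hpF : Fact p.Prime] (hpS : (⟨p, hpF.out⟩ : Nat.Primes) ∈ S)
  (a : GoodField S L) (v : FinPlace L) (hv : v.prime ∉ S)

/-- the underlying element of `Ω_q` of the image of a global layer element is `ι_q (σ x)`. -/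
theorem layerVal_layerBCHom (m : ((MS S L).quotientToInvariants a.U).V) :
    layerVal a v ((layerBCHom (decompHom (v.prime : ℕ) L v.rep)
      (coeffLoc (v.prime : ℕ) L v.rep (QSUnitsι S)) (Vloc_le a v)).hom m) =
      padicEmbedding (v.prime : ℕ) (v.rep (((a.unitOf m : (↥a.F)ˣ) : ↥a.F) : Qbar)) := rfl

/-- **`ordLoc ∘ embLoc = ord_x`** on the global layer `(Q_Sˣ)^{U_F} = Fˣ`, `x` the prime of `F` cut
out by `v.rep`. -/
theorem ordLoc_layerBCHom (m : ((MS S L).quotientToInvariants a.U).V) :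
    (ordLoc a v hv).hom ((layerBCHom (decompHom (v.prime : ℕ) L v.rep)
      (coeffLoc (v.prime : ℕ) L v.rep (QSUnitsι S)) (Vloc_le a v)).hom m) =
      (ordStab (divPack S hpS) a (layerPrime a v hv)).hom m := by
  rw [ordLoc_apply, layerVal_layerBCHom, ordStab_apply]
  apply normOrd_eq
  rw [norm_padicEmbedding_eq_zpow_ordAt a.unram hv v.rep (a.unitOf m)]
  rfl

end Compat

end Fermat.Agent.S55.GL.StabLocal
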