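import Mathlib
import Fermat.Agent.S55.GL.OrdLocal

/-!
# S55 / GLO12c (U2, local half), part 3: the local component of a layer class

Namespace `Fermat.Agent.S55.GL.StabLocal` (continuation of `GL/StabLocal.lean`, `GL/OrdLocal.lean`).
`a : GoodField S L`, `v : FinPlace L`, `hv : v.prime ∉ S`, `x = layerPrime a v hv`,
`P = divPack S hpS`.

* `trivTransport θ n : Hⁿ(St, ℤ) ⟶ Hⁿ(H, ℤ)` for `θ : H ≃* St` (an isomorphism:
  `trivTransport_injective`).
* `map_ordStab_trivTransport` : `(ord_x)_* ∘ res_{Stab x}` followed by the transport along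
  `thetaEquiv` is `(ordLoc)_* ∘ layerBC`.
* **`map_ordStab_eq_zero_of_layerBC`** : if the base change `layerBC (decompHom) (coeffLoc) y` of a
  layer class `y ∈ H²(G_L ⧸ U_F, Fˣ)` to the local layer vanishes, then the component
  `(ord_x)_* (res_{Stab x} y) ∈ H²(Stab x, ℤ)` vanishes (= `hcomp` of
  `IdealDetect.exists_Hmap_eq_nsmul_of_stab` at `x`).
-/

set_option autoImplicit false
set_option linter.style.haveILetI false
set_option linter.unusedSectionVars false

open CategoryTheory IntermediateField
open Fermat.Agent.S55.GL.ClassTGalois Fermat.Agent.S55.GL.OrbitReps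
open Fermat.Agent.S55.GL.Places Fermat.Agent.S55.GL.BrauerLocal
open Fermat.Agent.S55.GL.IdealInst Fermat.Agent.S55.GL.IdealDetect
open Fermat.Agent.S55.GL.DivPackage Fermat.Agent.S55.GL.DivPackInst
open Fermat.Agent.S55.Level Fermat.Agent.S55.GaloisLevel Fermat.Agent.S55.CFAbs
open Fermat.Agent.S55.GL.QSMod

namespace Fermat.Agent.S55.GL.StabLocal

local notation "Qbar" => AlgebraicClosure ℚ
local notation "Γ" => (AlgebraicClosure ℚ ≃ₐ[ℚ] AlgebraicClosure ℚ)

local instance factPrime_sc (q : Nat.Primes) : Fact (q : ℕ).Prime := ⟨q.2⟩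

section Transport

variable {H St : Type} [Group H] [Group St]

/-- transport of the cohomology of the trivial module `ℤ` along a group isomorphism. -/
noncomputable def trivTransport (θ : H ≃* St) (n : ℕ) :
    groupCohomology (Rep.trivial ℤ St ℤ) n ≅ groupCohomology (Rep.trivial ℤ H ℤ) n :=
  (groupCohomology.mapIso (A := Rep.trivial ℤ St ℤ) (B := Rep.trivial ℤ H ℤ) θ
    (LinearEquiv.refl ℤ ℤ) (fun _ => rfl) n).symm

theorem trivTransport_injective (θ : H ≃* St) (n : ℕ) :
    Function.Injective (trivTransport θ n).hom.hom :=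
  (ModuleCat.mono_iff_injective _).1 inferInstance

end Transport

variable {S : Finset Nat.Primes} {L : IntermediateField ℚ Qbar}

local instance numberField_goodField_sc (a : GoodField S L) : NumberField a.F :=
  Fermat.Agent.S55.GL.QS.numberField_of_finiteDimensional a.F a.unram.1

local instance normal_goodField_sc (a : GoodField S L) : Normal ℚ a.F := a.normal

section Comp

variable [NumberField L] {p : ℕ} [hpF : Fact p.Prime] (hpS : (⟨p, hpF.out⟩ : Nat.Primes) ∈ S)
  (a : GoodField S L) (v : FinPlace L) (hv : v.prime ∉ S)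

/-- `(ord_x)_* ∘ res_{Stab x}`, transported to the local layer group, is `(ordLoc)_* ∘ layerBC`. -/
theorem map_ordStab_trivTransport :
    groupCohomology.map (stab (divPack S hpS) a (layerPrime a v hv)).subtype
        (ordStab (divPack S hpS) a (layerPrime a v hv)) 2 ≫
      (trivTransport (thetaEquiv hpS a v hv) 2).hom =
    layerBC (decompHom (v.prime : ℕ) L v.rep) (coeffLoc (v.prime : ℕ) L v.rep (QSUnitsι S))
        (Vloc_le a v) 2 ≫
      groupCohomology.map (MonoidHom.id (Gloc (v.prime : ℕ) L v.rep ⧸ Vloc a v))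
        (ordLoc a v hv) 2 := by
  unfold trivTransport layerBC
  rw [Iso.symm_hom, groupCohomology.mapIso_inv, ← groupCohomology.map_comp,
    ← groupCohomology.map_comp]
  refine groupCohomology.map_congr (subtype_comp_thetaEquiv hpS a v hv) ?_ 2
  ext m
  exact (ordLoc_layerBCHom hpS a v hv m).symm

/-- **the local component of a layer class vanishes if its base change to the local layer does.** -/
theorem map_ordStab_eq_zero_of_layerBC
    (y : groupCohomology ((MS S L).quotientToInvariants a.U) 2)
    (hy : (layerBC (decompHom (v.prime : ℕ) L v.rep)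
      (coeffLoc (v.prime : ℕ) L v.rep (QSUnitsι S)) (Vloc_le a v) 2).hom y = 0) :
    (groupCohomology.map (stab (divPack S hpS) a (layerPrime a v hv)).subtype
      (ordStab (divPack S hpS) a (layerPrime a v hv)) 2).hom y = 0 := by
  apply trivTransport_injective (thetaEquiv hpS a v hv) 2
  rw [map_zero]
  have h := congrArg (fun t => t.hom y) (map_ordStab_trivTransport hpS a v hv)
  simp only [ModuleCat.hom_comp, LinearMap.comp_apply] at h
  rw [h, hy, map_zero]

end Comp

end Fermat.Agent.S55.GL.StabLocal
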