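/-
S55 / GLO12b STEP 5 (helper4): **(U2) of `BrauerInput`, unconditionally** — a class of
`H²(G_{L,S}, Q_Sˣ)` which is locally trivial at all places of `L` off `S` comes, up to an
integer prime to `p`, from `H²(G_{L,S}, E_S)` (`L` a number field unramified outside `S`, `p ∈ S`).

* `levelInf_unitsRep_injective`: local inflation is injective on `H²` (Hilbert 90 on layers);
* `layerBC_eq_zero`: a layer class dying in `Br(L_v)` dies on the local layer `Gal(F_w/L_v)`;
* `unit_lift`: (U2), from `IdealDetect.exists_Hmap_eq_nsmul_of_stab` (ideal half, helper4),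
  `OrbitReps` (orbit representatives, helper17) and `StabComp.map_ordStab_eq_zero_of_layerBC`
  (decomposition groups and valuations, helper17).
-/
import Fermat.Agent.S55.Local.InvariantLevel
import Fermat.Agent.S55.GL.StabComp
import Fermat.Agent.S55.GL.BrauerInst

set_option autoImplicit false

open CategoryTheory IntermediateField

namespace Fermat.Agent.S55.GL.UnitLift

open Fermat.Agent.S55.Level Fermat.Agent.S55.LevelLayer Fermat.Agent.S55.GaloisLevel
  Fermat.Agent.S55.CFAbs Fermat.Agent.S55.GL.Places Fermat.Agent.S55.GL.BrauerLocal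
  Fermat.Agent.S55.GL.QSMod
  Fermat.Agent.S55.GL.KummerUnram Fermat.Agent.S55.LevelGlobal Fermat.Agent.S55.GL.DivPackage
  Fermat.Agent.S55.GL.IdealInst Fermat.Agent.S55.GL.IdealDetect Fermat.Agent.S55.GL.BrauerInst
  Fermat.Agent.S55.GL.StabLocal Fermat.Agent.S55.GL.OrbitReps Fermat.Agent.S55.GL.DivPackInst

local notation "Qbar" => AlgebraicClosure ℚ
local notation "Γ" => (AlgebraicClosure ℚ ≃ₐ[ℚ] AlgebraicClosure ℚ)

local instance factPrime_ul (q : Nat.Primes) : Fact (q : ℕ).Prime := ⟨q.2⟩
local instance isGaloisQbar_ul : IsGalois ℚ Qbar := Fermat.Agent.S55.Level.isGalois_Qbar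

section LocalInj

variable (K Ω : Type) [Field K] [Field Ω] [Algebra K Ω] [IsGalois K Ω]

/-- **Inflation from a layer of the unit module of a Galois extension is injective on `H²`**
(Hilbert 90 on the layers). -/
theorem levelInf_unitsRep_injective (U : Subgroup Gal(Ω/K)) [U.Normal]
    (hU : U ∈ (krullLevel K Ω).sets) :
    Function.Injective (levelInf (krullLevel K Ω) (unitsRep K Ω) hU 2).hom := by
  intro y y' h
  have h0 : (levelInf (krullLevel K Ω) (unitsRep K Ω) hU 2).hom (y - y') = 0 := by
    rw [map_sub, h, sub_self]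
  obtain ⟨V₀, hV₀, hV₀U, hall⟩ :=
    exists_infLayer_eq_zero (krullLevel K Ω) (unitsRep K Ω) hU (y - y') h0
  have := (krullLevel K Ω).normal V₀ hV₀
  have h1 := hall V₀ hV₀ le_rfl hV₀U
  have h2 := infLayer_injective (unitsRep K Ω) hV₀U
    (Fermat.Agent.S55.Local.InvariantLevel.h1_layer U V₀ hV₀) (h1.trans (map_zero _).symm)
  exact sub_eq_zero.1 h2

end LocalInj

section Comp

variable {S : Finset Nat.Primes} {L : IntermediateField ℚ Qbar} (a : GoodField S L)
  (v : FinPlace L)

/-- A layer class which dies in `Br(L_v)` dies on the local layer. -/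
theorem layerBC_eq_zero (y : groupCohomology ((MS S L).quotientToInvariants a.U) 2)
    (hy : resQ S L v ((levelInf (levelLS S L) (MS S L) a.U_mem 2).hom y) = 0) :
    (layerBC (decompHom (v.prime : ℕ) L v.rep)
      (coeffLoc (v.prime : ℕ) L v.rep (QSUnitsι S)) (Vloc_le a v) 2).hom y = 0 := by
  have h1 := levelCohomologyMap_levelInf_apply (decompHom (v.prime : ℕ) L v.rep)
    (coeffLoc (v.prime : ℕ) L v.rep (QSUnitsι S)) (Vloc_le a v)
    (refines_decompHom (v.prime : ℕ) L v.rep (globalLevel S) (open_globalLevel S))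
    a.U_mem (Vloc_mem a v) 2 y
  have h2 : (levelInf (levelv L v) (unitsRep (Kv L v) (PadicAlgCl (v.prime : ℕ)))
      (Vloc_mem a v) 2).hom ((layerBC (decompHom (v.prime : ℕ) L v.rep)
      (coeffLoc (v.prime : ℕ) L v.rep (QSUnitsι S)) (Vloc_le a v) 2).hom y) = 0 :=
    h1.symm.trans hy
  have := normal_Vloc a v
  exact levelInf_unitsRep_injective _ _ _ (Vloc_mem a v) (h2.trans (map_zero _).symm)

end Comp

section Final

open Fermat.Agent.S55.CF

variable {S : Finset Nat.Primes} {L : IntermediateField ℚ Qbar} {p : ℕ} [hpF : Fact p.Prime]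

/-- **(U2) of `BrauerInput`, unconditionally** (`L` a number field unramified outside `S`,
`p ∈ S`): a class of `H²(G_{L,S}, Q_Sˣ)` which is locally trivial at every place of `L` off `S`
is, up to an integer prime to `p`, the image of a class of `H²(G_{L,S}, E_S)`. -/
theorem unit_lift (hpS : (⟨p, hpF.out⟩ : Nat.Primes) ∈ S) (hL : L.IsUnramifiedOutside S)
    (y : levelCohomology (levelLS S L) (resL L (QSUnits S)) 2)
    (hy : ∀ v : FinPlace L, v.prime ∉ S → resQ S L v y = 0) :
    ∃ (m : ℕ) (e : levelCohomology (levelLS S L) (resL L (ESUnits S)) 2),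
      m.Coprime p ∧ (Hmap (levelLS S L) (fL S L) 2).hom e = m • y := by
  have : NumberField L := QS.numberField_of_finiteDimensional L hL.1
  obtain ⟨a, ya, rfl⟩ := IdealInst.exists_levelInf_eq hL (MS S L) y
  obtain ⟨m, hm, e, he⟩ := exists_Hmap_eq_nsmul_of_stab (divPack S hpS) hL a ya
    (packRepSet L S hpS a.toGField) (exists_smul_mem_packRepSet L S hpS a.toGField) (by
      intro x hx
      obtain ⟨v, hv, rfl⟩ := (mem_packRepSet_iff L S hpS a.toGField x).1 hx
      exact map_ordStab_eq_zero_of_layerBC hpS a v hv ya (layerBC_eq_zero a v ya (hy v hv)))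
  exact ⟨m, e, hm, he⟩

/-- `unit_lift` in the exact shape of the field `BrauerInput.unit_lift`. -/
theorem unit_lift_brauerInput (hpS : (⟨p, hpF.out⟩ : Nat.Primes) ∈ S)
    (hL : L.IsUnramifiedOutside S) :
    ∀ y : levelCohomology (levelLS S L) (resL L (QSUnits S)) 2, IsPPrim p y →
      (∀ v : FinPlace L, v.prime ∉ S → resQ S L v y = 0) →
      ∃ (m : ℕ) (e : levelCohomology (levelLS S L) (resL L (ESUnits S)) 2),
        m.Coprime p ∧ (Hmap (levelLS S L) (fL S L) 2).hom e = m • y :=
  fun y _ hy => unit_lift hpS hL y hy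

end Final

end Fermat.Agent.S55.GL.UnitLift
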