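/-
S55 / GLO11–GLO12c ([UNR], (U1), (fin)): a class of `H²(G_L, A)` which is inflated from a finite
layer where it is represented by a cocycle with values which are UNITS at the place `(q, σ)`, and
such that the layer is UNRAMIFIED at `(q, σ)`, is locally trivial at `(q, σ)`.

Typing: helper14's `BrauerLocal` (`resAt q L σ j 𝒰 h𝒰 2`), generic layers (`levelInf`).
(helper5)
-/
import Mathlib
import Fermat.Agent.S55.GL.BrauerLocal
import Fermat.Agent.S55.GL.BrauerInst
import Fermat.Agent.S55.GL.PlacesUnram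
import Fermat.Agent.S55.GL.PlacesDVR
import Fermat.Agent.S55.Local.UnitCocycle
import Fermat.Agent.S55.Local.UnramBC
import Fermat.Agent.S55.CFAbs
import Fermat.Agent.S55.LevelLayer

set_option autoImplicit false
set_option linter.unusedSectionVars false
set_option linter.style.haveILetI false

open CategoryTheory groupCohomology IntermediateField IsLocalRing

namespace Fermat.Agent.S55.GL.UnramLocalZero

open Fermat.Agent.S55.Level Fermat.Agent.S55.GaloisLevel Fermat.Agent.S55.GL.Places
  Fermat.Agent.S55.LevelTransport Fermat.Agent.S55.GL.BrauerLocal Fermat.Agent.S55.CFAbs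
  Fermat.Agent.S55.Local.Unram Fermat.Agent.S55.Local.UnitCocycle Fermat.Agent.S55.LocalDict
  Fermat.Agent.S55.LocalInt Fermat.Agent.S55.GL.PlacesDVR Fermat.Agent.S55.LevelLayer

local notation "Qbar" => AlgebraicClosure ℚ
local notation "Γ" => (AlgebraicClosure ℚ ≃ₐ[ℚ] AlgebraicClosure ℚ)

local instance isGaloisQbar_ULZ : IsGalois ℚ Qbar := Fermat.Agent.S55.Level.isGalois_Qbar

section Core

variable (q : ℕ) [Fact q.Prime] (L : IntermediateField ℚ Qbar) [FiniteDimensional ℚ L] (σ : Γ)
  {A : Rep.{0} ℤ Γ} (j : A ⟶ unitsRep ℚ Qbar) (𝒰 : LevelStructure Γ) [IsDiscrete 𝒰 A]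
  (h𝒰 : ∀ U ∈ 𝒰.sets, IsKrullOpen ℚ Qbar U)

/-- The element of `ℚ̄` underlying (the image under `j` of) an element of `A`. -/
noncomputable def valA (a : A.V) : Qbar :=
  ((Additive.toMul (show Additive Qbarˣ from j.hom a) : Qbarˣ) : Qbar)

/-- Elements of norm one of `Ω_q` are integral over the ring of integers of `K_v`. -/
theorem isIntegral_of_norm_eq_one (E : IntermediateField ℚ_[q] (PadicAlgCl q)) (x : PadicAlgCl q)
    (hx : ‖x‖ = 1) :
    IsIntegral (integralClosure ℤ_[q] E) x ∧ IsIntegral (integralClosure ℤ_[q] E) x⁻¹ := by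
  have h1 : IsIntegral ℤ_[q] x := (isIntegral_padicInt_iff_norm_le_one q x).2 hx.le
  have h2 : IsIntegral ℤ_[q] x⁻¹ := by
    rw [isIntegral_padicInt_iff_norm_le_one, norm_inv, hx, inv_one]
  exact ⟨h1.tower_top, h2.tower_top⟩

/-- **Core**: a class inflated from a layer `G_L ⧸ U'` where it is represented by a cocycle whose
values are units at `(q, σ)`, such that the local extension cut out by `U'` at `(q, σ)` is
unramified over `K_v = localFieldAt q L σ`, is locally trivial at `(q, σ)`. -/
theorem resAt_levelInf_eq_zero_of_unit_valued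
    {U' : Subgroup ↥L.fixingSubgroup} [U'.Normal]
    (hU' : U' ∈ (𝒰.restrict L.fixingSubgroup).sets)
    (c : cocycles₂ ((resL L A).quotientToInvariants U'))
    (hunit : ∀ g g' : ↥L.fixingSubgroup ⧸ U',
      ‖embLoc q σ (valA j ((c : (↥L.fixingSubgroup ⧸ U') × (↥L.fixingSubgroup ⧸ U') → _)
        (g, g')).1)‖ = 1)
    {E : IntermediateField (localFieldAt q L σ) (PadicAlgCl q)}
    (hE : IsUnramifiedIn (integralClosure ℤ_[q] (localFieldAt q L σ)) E)
    (hEU : E.fixingSubgroup ≤ U'.comap (decompHom q L σ)) :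
    (resAt q L σ j 𝒰 h𝒰 2).hom
      ((levelInf (𝒰.restrict L.fixingSubgroup) (resL L A) hU' 2).hom
        (H2π ((resL L A).quotientToInvariants U') c)) = 0 := by
  have hVopen : IsKrullOpen (localFieldAt q L σ) (PadicAlgCl q)
      (U'.comap (decompHom q L σ)) := by
    obtain ⟨U, hU, hUeq⟩ := hU'
    rw [hUeq]
    exact isKrullOpen_comap_decompHom q L σ (h𝒰 U hU)
  have hVmem : U'.comap (decompHom q L σ) ∈
      (krullLevel (localFieldAt q L σ) (PadicAlgCl q)).sets :=
    (mem_krullLevel_iff _).2 ⟨inferInstance, hVopen⟩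
  have h1 := levelCohomologyMap_levelInf_apply (decompHom q L σ) (coeffLoc q L σ j)
    (le_refl (U'.comap (decompHom q L σ))) (refines_decompHom q L σ 𝒰 h𝒰) hU' hVmem 2
    (H2π ((resL L A).quotientToInvariants U') c)
  refine h1.trans ?_
  have h2 := congrArg (fun F => F.hom c)
    (H2π_comp_map (A := (resL L A).quotientToInvariants U')
      (B := (unitsRep (localFieldAt q L σ) (PadicAlgCl q)).quotientToInvariants
        (U'.comap (decompHom q L σ)))
      (layerHom (decompHom q L σ) (le_refl (U'.comap (decompHom q L σ))))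
      (layerBCHom (decompHom q L σ) (coeffLoc q L σ j)
        (le_refl (U'.comap (decompHom q L σ)))))
  have h3 : (layerBC (decompHom q L σ) (coeffLoc q L σ j)
      (le_refl (U'.comap (decompHom q L σ))) 2).hom
        (H2π ((resL L A).quotientToInvariants U') c) =
      H2π _ (mapCocycles₂ (layerHom (decompHom q L σ) (le_refl (U'.comap (decompHom q L σ))))
        (layerBCHom (decompHom q L σ) (coeffLoc q L σ j)
          (le_refl (U'.comap (decompHom q L σ)))) c) := h2
  rw [h3]
  have h4 := layer_H2π_eq_zero_of_unit_valued' hVopen hE hEU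
    (mapCocycles₂ (layerHom (decompHom q L σ) (le_refl (U'.comap (decompHom q L σ))))
        (layerBCHom (decompHom q L σ) (coeffLoc q L σ j)
          (le_refl (U'.comap (decompHom q L σ)))) c) ?_
  · rw [h4, map_zero]
  · intro τ τ'
    exact isIntegral_of_norm_eq_one q (localFieldAt q L σ) _
      (hunit (layerHom (decompHom q L σ) (le_refl (U'.comap (decompHom q L σ))) τ)
        (layerHom (decompHom q L σ) (le_refl (U'.comap (decompHom q L σ))) τ'))

/-- **Module form**: if all elements of `A` are units at `(q, σ)` and all layers of `𝒰` are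
unramified at `(q, σ)` (over `K_v`), then `H²(G_L, A) → Br(K_v)` is zero. -/
theorem resAt_eq_zero_of_units
    (hunitA : ∀ a : A.V, ‖embLoc q σ (valA j a)‖ = 1)
    (hunr : ∀ U ∈ 𝒰.sets, ∃ E : IntermediateField (localFieldAt q L σ) (PadicAlgCl q),
      IsUnramifiedIn (integralClosure ℤ_[q] (localFieldAt q L σ)) E ∧
        E.fixingSubgroup ≤ (U.subgroupOf L.fixingSubgroup).comap (decompHom q L σ))
    (y : levelCohomology (𝒰.restrict L.fixingSubgroup) (resL L A) 2) :
    (resAt q L σ j 𝒰 h𝒰 2).hom y = 0 := by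
  obtain ⟨U₀, hU₀, h⟩ := exists_levelInf_eq (𝒰.restrict L.fixingSubgroup) (resL L A) y
  haveI : U₀.Normal := (𝒰.restrict L.fixingSubgroup).normal U₀ hU₀
  obtain ⟨y', rfl⟩ := h U₀ hU₀ le_rfl
  obtain ⟨c, rfl⟩ := Fermat.Agent.S55.GC.CyclicH2.H2π_surjective
    ((resL L A).quotientToInvariants U₀) y'
  obtain ⟨U, hU, hUeq⟩ := id hU₀
  obtain ⟨E, hE, hEU⟩ := hunr U hU
  rw [← hUeq] at hEU
  exact resAt_levelInf_eq_zero_of_unit_valued q L σ j 𝒰 h𝒰 hU₀ c (fun g g' => hunitA _) hE hEU

end Core

/-! ### From global to local unramifiedness -/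

section Unramified

variable (q : ℕ) [Fact q.Prime]

/-- **Base change of unramified extensions of `ℚ_q`** (statement; = the first half of helper16's
`InvariantInst.BaseChangeStatement ℤ_[q]`, proved in helper1's `Local/UnramBC`): for `E₀/ℚ_q`
finite and `M/ℚ_q` unramified, `E₀ M / E₀` is unramified. -/
def UnramBaseChange : Prop :=
  ∀ (E₀ : IntermediateField ℚ_[q] (PadicAlgCl q)) [FiniteDimensional ℚ_[q] E₀]
    (M : IntermediateField ℚ_[q] (PadicAlgCl q)), IsUnramifiedIn ℤ_[q] M →
    IsUnramifiedIn (integralClosure ℤ_[q] E₀)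
      (IntermediateField.extendScalars (le_sup_left : E₀ ≤ E₀ ⊔ M))

/-- Base change of unramified extensions of `ℚ_q` holds (helper1's `UnramBC`). -/
theorem unramBaseChange : UnramBaseChange q := fun _ _ _ h => h.extendScalars_sup

variable (L : IntermediateField ℚ Qbar) [FiniteDimensional ℚ L] (σ : Γ)

/-- If `U ⊇ G_F` and `E ⊇ ι σ F`, then the fixing subgroup of `E` in `Gal(Ω_q/K_v)` is mapped
into `U ∩ G_L` by the decomposition map. -/
theorem fixingSubgroup_le_comap_decompHom (F : IntermediateField ℚ Qbar) {U : Subgroup Γ}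
    (hFU : F.fixingSubgroup ≤ U)
    (E : IntermediateField (localFieldAt q L σ) (PadicAlgCl q))
    (hE : ∀ x ∈ F, embLoc q σ x ∈ E) :
    E.fixingSubgroup ≤ (U.subgroupOf L.fixingSubgroup).comap (decompHom q L σ) := by
  intro τ hτ
  rw [Subgroup.mem_comap, Subgroup.mem_subgroupOf]
  apply hFU
  rw [IntermediateField.mem_fixingSubgroup_iff]
  intro x hx
  apply (embLoc q σ).injective
  rw [embLoc_apply, embLoc_apply, padicEmbedding_decompHom q L σ τ x]
  exact (IntermediateField.mem_fixingSubgroup_iff E τ).1 hτ _ (hE x hx)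

/-- **Local unramifiedness of the layers**: if `U ⊇ G_F` with `F_w = ℚ_q(ι σ F)` unramified over
`ℚ_q`, then the layer of `U ∩ G_L` is unramified over `K_v` at `(q, σ)`. -/
theorem exists_isUnramifiedIn_of_localFieldAt
    (F : IntermediateField ℚ Qbar) {U : Subgroup Γ} (hFU : F.fixingSubgroup ≤ U)
    (hF : IsUnramifiedIn ℤ_[q] (localFieldAt q F σ)) :
    ∃ E : IntermediateField (localFieldAt q L σ) (PadicAlgCl q),
      IsUnramifiedIn (integralClosure ℤ_[q] (localFieldAt q L σ)) E ∧
        E.fixingSubgroup ≤ (U.subgroupOf L.fixingSubgroup).comap (decompHom q L σ) := by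
  refine ⟨_, unramBaseChange q (localFieldAt q L σ) (localFieldAt q F σ) hF,
    fixingSubgroup_le_comap_decompHom q L σ F hFU _ fun x hx => ?_⟩
  rw [IntermediateField.mem_extendScalars]
  exact (le_sup_right : localFieldAt q F σ ≤ localFieldAt q L σ ⊔ localFieldAt q F σ)
    (padicEmbedding_apply_mem_localFieldAt q σ hx)

end Unramified

/-! ### (U1): classes of `H²(G_{L,S}, E_S)` are locally trivial off `S` -/

section U1

open Fermat.Agent.S55.GL.QSMod Fermat.Agent.S55.GL.BrauerInst Fermat.Agent.S55.GL.KummerUnram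
  Fermat.Agent.S55.GL.PlacesUnram Fermat.Agent.S55.CF

local instance factPrime_ULZ (q : Nat.Primes) : Fact (q : ℕ).Prime := ⟨q.2⟩

variable (S : Finset Nat.Primes) (L : IntermediateField ℚ Qbar) [FiniteDimensional ℚ L]

/-- `S`-units are units at every place over a prime outside `S`. -/
theorem norm_embLoc_eq_one_of_isSUnit {x : Qbar} (hx : IsSUnit S x) (hx0 : x ≠ 0)
    {q : Nat.Primes} (hq : q ∉ S) (σ : Γ) : ‖embLoc (q : ℕ) σ x‖ = 1 :=
  (valuation_valSubringAt_eq_one_iff (q : ℕ) hx0).1
    (hx q hq _ (liesOverPrime_valSubringAt (q : ℕ) σ))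

/-- The layers of `G_{L,S}` are unramified at the places outside `S`. -/
theorem exists_isUnramifiedIn_of_mem_globalLevel {q : Nat.Primes} (hq : q ∉ S) (σ : Γ) {U : Subgroup Γ} (hU : U ∈ (globalLevel S).sets) :
    ∃ E : IntermediateField (localFieldAt (q : ℕ) L σ) (PadicAlgCl (q : ℕ)),
      IsUnramifiedIn (integralClosure ℤ_[(q : ℕ)] (localFieldAt (q : ℕ) L σ)) E ∧
        E.fixingSubgroup ≤ (U.subgroupOf L.fixingSubgroup).comap (decompHom (q : ℕ) L σ) := by
  obtain ⟨_, F, hF, hFU⟩ := hU
  exact exists_isUnramifiedIn_of_localFieldAt (q : ℕ) L σ F hFU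
    (isUnramifiedIn_localFieldAt hF hq σ)

/-- **(U1), general place**: `H²(G_{L,S}, E_S) → Br(L_{(q,σ)})` is zero for `q ∉ S`. -/
theorem resAt_ESUnits_eq_zero {q : Nat.Primes} (hq : q ∉ S) (σ : Γ) (e : levelCohomology (levelLS S L) (resL L (ESUnits S)) 2) :
    (resAt (q : ℕ) L σ (ESUnitsι S ≫ QSUnitsι S) (globalLevel S) (open_globalLevel S) 2).hom e =
      0 :=
  resAt_eq_zero_of_units (q : ℕ) L σ (ESUnitsι S ≫ QSUnitsι S) (globalLevel S)
    (open_globalLevel S)
    (fun a => norm_embLoc_eq_one_of_isSUnit S (ESUnits.isSUnit_val S a)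
      (QbarUnits.val_ne_zero _) hq σ)
    (fun _ hU => exists_isUnramifiedIn_of_mem_globalLevel S L hq σ hU) e

/-- **(U1) = `BrauerInput.unit_res`** (no `p`-primary hypothesis needed). -/
theorem unit_res (v : FinPlace L) (hv : v.prime ∉ S) (e : levelCohomology (levelLS S L) (resL L (ESUnits S)) 2) :
    resQ S L v ((Hmap (levelLS S L) (fL S L) 2).hom e) = 0 := by
  have h := Hmap_resAt (v.prime : ℕ) L v.rep (globalLevel S) (open_globalLevel S)
    (ESUnitsι S) (QSUnitsι S) 2
  have h' := congrArg (fun ψ => ψ.hom e) h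
  exact h'.trans (resAt_ESUnits_eq_zero S L hv v.rep e)

/-- The field `unit_res` of `BrauerInst.BrauerInput`, verbatim. -/
theorem unit_res_brauerInput (p : ℕ) :
    ∀ v : FinPlace L, v.prime ∉ S →
      ∀ e : levelCohomology (levelLS S L) (resL L (ESUnits S)) 2, IsPPrim p e →
        resQ S L v ((Hmap (levelLS S L) (fL S L) 2).hom e) = 0 :=
  fun v hv e _ => unit_res S L v hv e

end U1

end Fermat.Agent.S55.GL.UnramLocalZero
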