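/-
S55 — THE FINAL PLUG.  The frozen S55 conclusion from the four remaining arithmetic inputs, stated
as named `Prop`s for the unconditional local class formations `PadicCFT.cftPlace`:

* `RecipField p S`  : reciprocity (R) `BrauerInput.recip` for every finite `L ⊆ ℚ̄` (incl. `ℚ = ⊥`);
* `HasseField p S`  : the Hasse principle (HS) `BrauerInput.hasse` for the good fields `L`;
* `ExistField p S`  : existence (EX) `BrauerInput.exist` for the good fields `L`;
* `PhiField p S`    : an injection `H¹(G_{L,S}, E_S) ↪ Cl_S(L)` for the good fields `L`.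

(The unit fields (U1), (U2), (U3) are theorems: helper5 `UnramLocalZero.unit_res_brauerInput`,
helper4/helper17 `UnitLift.unit_lift_brauerInput`, helper4 `IdealInst.unit_ker`; local class field
theory is helper26/helper16/helper1's `PadicCFT`.)
-/
import Fermat.Agent.S55.GL.ArithT3
import Fermat.Agent.S55.GL.UnitLift
import Fermat.Agent.S55.GL.UnramLocalZero
import Fermat.Agent.S55.GL.IdealInst
import Fermat.Agent.S55.Local.PadicCFT
import Fermat.Agent.S55.FinalAssembly

set_option autoImplicit false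

namespace Fermat.Agent.S55.GL.BrauerAll

open CategoryTheory Module groupCohomology ExtCitation
  Fermat.Agent.S55.Level Fermat.Agent.S55.GaloisLevel
  Fermat.Agent.S55.GL.Places Fermat.Agent.S55.GL.BrauerLocal
  Fermat.Agent.S55.GL.BrauerInst Fermat.Agent.S55.GL.ArithUInst
  Fermat.Agent.S55.CFAbs Fermat.Agent.S55.GL.QSMod Fermat.Agent.S55.CF
  Fermat.Agent.S55.GL.Kummer Fermat.Agent.S55.GL.ClassT
  Fermat.Agent.S55.Local.PadicCFT Fermat.Agent.S55.Local.PadicFormation

local notation "Qbar" => AlgebraicClosure ℚ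
local notation "Γ" => (AlgebraicClosure ℚ ≃ₐ[ℚ] AlgebraicClosure ℚ)

local instance isGaloisQbar_BA : IsGalois ℚ Qbar := Fermat.Agent.S55.Level.isGalois_Qbar
local instance factPrime_BA (q : Nat.Primes) : Fact (q : ℕ).Prime := ⟨q.2⟩

variable (p : ℕ) (S : Finset Nat.Primes)

/-- **(R)** reciprocity for the `p`-primary classes of `H²(G_{L,S}, ℚ_S^×)`, every finite `L`. -/
def RecipField : Prop :=
  ∀ (L : IntermediateField ℚ Qbar) [FiniteDimensional ℚ L]
    (y : levelCohomology (levelLS S L) (resL L (QSUnits S)) 2), IsPPrim p y →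
    ∃ T : Finset (FinPlace L), (∀ v, v ∉ T → resQ S L v y = 0) ∧
      ∑ v ∈ T, (cftPlace L v).inv (resQ S L v y) = 0

/-- **(HS)** the Hasse principle for the `p`-primary classes of `H²(G_{L,S}, ℚ_S^×)`, `L` good. -/
def HasseField : Prop :=
  ∀ (L : IntermediateField ℚ Qbar) [NumberField L], L.IsUnramifiedOutside S → Normal ℚ L →
    (∀ ω : Qbar, ω ^ p = 1 → ω ∈ L) →
    ∀ y : levelCohomology (levelLS S L) (resL L (QSUnits S)) 2, IsPPrim p y →
      (∀ v, resQ S L v y = 0) → y = 0

/-- **(EX)** existence of `p`-primary classes with prescribed local components, `L` good. -/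
def ExistField : Prop :=
  ∀ (L : IntermediateField ℚ Qbar) [NumberField L], L.IsUnramifiedOutside S → Normal ℚ L →
    (∀ ω : Qbar, ω ^ p = 1 → ω ∈ L) →
    ∀ (T : Finset (FinPlace L)) (x : ∀ v, BrT L v), (∀ v, v ∉ T → x v = 0) →
      (∀ v, IsPPrim p (x v)) → ∑ v ∈ T, (cftPlace L v).inv (x v) = 0 →
      ∃ y : levelCohomology (levelLS S L) (resL L (QSUnits S)) 2, IsPPrim p y ∧
        ∀ v, resQ S L v y = x v

/-- **(φ)** `H¹(G_{L,S}, E_S)` embeds into the `S`-class group, `L` good. -/
def PhiField : Prop :=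
  ∀ (L : IntermediateField ℚ Qbar) [NumberField L], L.IsUnramifiedOutside S → Normal ℚ L →
    (∀ ω : Qbar, ω ^ p = 1 → ω ∈ L) →
    ∃ φ : levelCohomology (levelLS S L) (resL L (ESUnits S)) 1 →+ ClT L (primesAbove L S),
      Function.Injective φ

variable {p S} [hpF : Fact p.Prime]

/-- **`BrauerInput` for the good fields**, for the unconditional local class formations. -/
theorem brauerInput_cft (hpS : (⟨p, hpF.out⟩ : Nat.Primes) ∈ S)
    (hR : RecipField p S) (hH : HasseField p S) (hE : ExistField p S)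
    (L : IntermediateField ℚ Qbar) [NumberField L] (hL : L.IsUnramifiedOutside S)
    (hnorm : Normal ℚ L) (hμp : ∀ ω : Qbar, ω ^ p = 1 → ω ∈ L) :
    BrauerInput p S L (cftPlace L) where
  recip := hR L
  hasse := hH L hL hnorm hμp
  exist := hE L hL hnorm hμp
  unit_res := Fermat.Agent.S55.GL.UnramLocalZero.unit_res_brauerInput S L p
  unit_lift := Fermat.Agent.S55.GL.UnitLift.unit_lift_brauerInput hpS hL
  unit_ker := fun e _ he => Fermat.Agent.S55.GL.IdealInst.unit_ker hpS hL e he

/-- **T3 from the four inputs.** -/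
theorem allBrauerBlocks (hpS : (⟨p, hpF.out⟩ : Nat.Primes) ∈ S)
    (hR : RecipField p S) (hH : HasseField p S) (hE : ExistField p S) (hφ : PhiField p S) :
    AllBrauerBlocks S p :=
  Fermat.Agent.S55.GL.ArithT3.allBrauerBlocks_of_inputs S hpS
    (fun L _ hL hnorm hμp => ⟨cftPlace L, brauerInput_cft hpS hR hH hE L hL hnorm hμp⟩)
    (fun L _ hL hnorm hμp => hφ L hL hnorm hμp)

/-- **THE FROZEN S55 from the four remaining arithmetic inputs.** -/
theorem result_of_fields (hp2 : p ≠ 2) (hpS : pPrime p ∈ S)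
    (M : Rep (ZMod p) Γ) [FiniteDimensional (ZMod p) M]
    (hsm : ∀ m : M, ∃ F : IntermediateField ℚ Qbar, FiniteDimensional ℚ F ∧
      ∀ s ∈ F.fixingSubgroup, M.ρ s m = m)
    (hMur : ∀ q : Nat.Primes, q ∉ S → ∀ A : ValuationSubring Qbar,
      A.LiesOverPrime (q : ℕ) → ∀ g ∈ A.inertiaSubgroupIn ℚ, M.ρ g = 1)
    (hR : RecipField p S) (hH : HasseField p S) (hE : ExistField p S) (hφ : PhiField p S) :
    ∃ B : sha₁ S (M.dualTwist (cycloChar p)) →ₗ[ZMod p] sha₂ S M →ₗ[ZMod p] ZMod p,
      (∀ y, (∀ x, B y x = 0) → y = 0) ∧ (∀ x, (∀ y, B y x = 0) → x = 0) :=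
  Fermat.Agent.S55.FinalAssembly.result_of_padic S (fun q => padicInput (q : ℕ)) hp2 hpS M hsm hMur
    (fun y hy => hR ⊥ y hy)
    (Fermat.Agent.S55.GL.UnramLocalZero.unit_res_brauerInput S ⊥ p)
    (allBrauerBlocks hpS hR hH hE hφ)

end Fermat.Agent.S55.GL.BrauerAll
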