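/-
S55 (T4), block GLO3 (helper3): the semi-local structure of the idèles.

`L/ℚ` finite Galois inside `ℚ̄`, `G = Gal(L/ℚ)`, `T` a finite set of primes, `H ≤ G` ANY subgroup
(`H = Gal(L/K)` for `K = L^H`).  The places of `K` over `q ∈ T` are the double cosets
`D_q \ G / H` (`D_q` = image of `resLoc q L`); for a representative `g` the decomposition group of
the place in `H` is `decomp = {h ∈ H | g h g⁻¹ ∈ D_q}` (acting on `L_q^×` through `D_q`), and

  `semiLocal_J : Hⁿ(H, J_{L,T}) → ∏_{(q, D_q g H)} Hⁿ(decomp, L_q^×)`   is bijective (all `n`),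

the maps being "restrict to the decomposition group, then evaluate at `(q, g)`"
(helper6's `SemiLocal.loc`).
-/
import Mathlib
import Fermat.Agent.S55.GL.Ideles

set_option autoImplicit false
set_option linter.style.haveILetI false

namespace Fermat.Agent.S55.GL.IdeleSemiLocal

open IntermediateField CategoryTheory
open Fermat.Agent.S55.LocalDict Fermat.Agent.S55.GL.LocalFieldAt Fermat.Agent.S55.GL.CoindFun
  Fermat.Agent.S55.GL.Ideles

local notation "Qbar" => AlgebraicClosure ℚ

/-- primes as `Fact`s -/
local instance factPrime_isl (q : Nat.Primes) : Fact (q : ℕ).Prime := ⟨q.2⟩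

variable (L : IntermediateField ℚ Qbar) [Normal ℚ L] (T : Finset Nat.Primes)

/-- the family of restriction maps `resLoc q L`, `q ∈ T` -/
noncomputable abbrev resFamily (q : T) :
    (localField ((q : Nat.Primes) : ℕ) L ≃ₐ[ℚ_[((q : Nat.Primes) : ℕ)]]
      localField ((q : Nat.Primes) : ℕ) L) →* (L ≃ₐ[ℚ] L) :=
  resLoc ((q : Nat.Primes) : ℕ) L

theorem resFamily_injective (q : T) : Function.Injective (resFamily L T q) :=
  resLoc_injective _ L

/-- `J_{L,T}` is the product of coinduced modules of `CoindFun`. -/
theorem J_eq_prodRep :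
    J L T = prodRep (Ω := fun q : T => (localField ((q : Nat.Primes) : ℕ) L)ˣ)
      (resFamily L T) := rfl

variable (H : Subgroup (L ≃ₐ[ℚ] L))

/-- The decomposition group in `H` of the place `x ↦ |ι_q (g x)|` of `L`. -/
noncomputable abbrev decomp (q : T) (g : L ≃ₐ[ℚ] L) : Subgroup H :=
  stab (resFamily L T) H q g

/-- `L_q^×` as a representation of the decomposition group. -/
noncomputable abbrev localRep (q : T) (g : L ≃ₐ[ℚ] L) : Rep ℤ (decomp L T H q g) :=
  repB (Ω := fun q : T => (localField ((q : Nat.Primes) : ℕ) L)ˣ) (resFamily L T)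
    (resFamily_injective L T) H q g

/-- The localisation morphism: evaluate an idèle at `(q, g)`. -/
noncomputable abbrev locHom (q : T) (g : L ≃ₐ[ℚ] L) :
    Rep.res (decomp L T H q g).subtype (Rep.res H.subtype (J L T)) ⟶ localRep L T H q g :=
  evalHom (Ω := fun q : T => (localField ((q : Nat.Primes) : ℕ) L)ˣ) (resFamily L T)
    (resFamily_injective L T) H q g

/-- The places of `L^H` over `T`: pairs `(q, D_q g H)`. -/
abbrev PlaceIdx : Type := Idx (resFamily L T) H

open Fermat.Agent.S55.GC.SemiLocal in
/-- **Semi-local decomposition of the idèle cohomology**, for every subgroup `H ≤ Gal(L/ℚ)`. -/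
theorem semiLocal_J [FiniteDimensional ℚ L] (n : ℕ) :
    Function.Bijective (fun (x : groupCohomology (Rep.res H.subtype (J L T)) n)
      (j : PlaceIdx L T H) =>
        (loc (locHom L T H j.1 (rep (resFamily L T) H j)) n).hom x) :=
  semiLocal (Ω := fun q : T => (localField ((q : Nat.Primes) : ℕ) L)ˣ) (resFamily L T)
    (resFamily_injective L T) H n

end Fermat.Agent.S55.GL.IdeleSemiLocal
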