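/-
S55 block GLO11 (EX) / (HS) / (R): the LOCAL DICTIONARY between helper3's finite-level idèle model
(`GL/Ideles`, `GL/CoindFun`, `GL/IdeleSemiLocal`) and helper14's level model (`GL/BrauerLocal`).

`E/ℚ` finite normal inside `ℚ̄`, `K ≤ E`, `H = galE K E = Gal(E/K) ≤ Gal(E/ℚ)`, `q ∈ T` a prime and
`σ ∈ Γ` (the place `x ↦ ‖ι_q (σ x)‖` of `K`), `g = σ|_E`.

* helper3: decomposition group `stab (resFamily E T) H q g ≤ H` acting on `(E_q)ˣ`,
  `E_q = localField q E`, through `toD`;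
* helper14: `Gloc q K σ = Gal(Ω_q/K_σ)` acting on `Ω_qˣ`, layer subgroup
  `Uloc = decompHom⁻¹(G_E)`.

`theta : Gloc ⧸ Uloc →* stab` (`τ ↦ (decompHom τ)|_E`) and `lam : (E_q)ˣ → (Ω_qˣ)^{Uloc}` are
bijective, hence `T2 = groupCohomology.map theta lam n : Hⁿ(stab, (E_q)ˣ) → Hⁿ(Gloc ⧸ Uloc,
(Ω_qˣ)^{Uloc})` is bijective.
-/
import Fermat.Agent.S55.GL.BrauerLocal
import Fermat.Agent.S55.GL.IdeleSemiLocal

set_option autoImplicit false
set_option linter.style.haveILetI false
set_option linter.unusedSectionVars false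

universe u

open CategoryTheory IntermediateField groupCohomology

namespace Fermat.Agent.S55.GL.BrauerDict

open Fermat.Agent.S55.Level Fermat.Agent.S55.GaloisLevel Fermat.Agent.S55.GL.Places
  Fermat.Agent.S55.GL.BrauerLocal Fermat.Agent.S55.LocalDict Fermat.Agent.S55.GL.LocalFieldAt
  Fermat.Agent.S55.GL.CoindFun Fermat.Agent.S55.GL.Ideles Fermat.Agent.S55.GL.IdeleSemiLocal

local notation "Qbar" => AlgebraicClosure ℚ
local notation "Γ" => (AlgebraicClosure ℚ ≃ₐ[ℚ] AlgebraicClosure ℚ)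

/-- primes as `Fact`s -/
local instance factPrime_bd (q : Nat.Primes) : Fact (q : ℕ).Prime := ⟨q.2⟩

local instance isGaloisQbar_bd : IsGalois ℚ Qbar := Fermat.Agent.S55.Level.isGalois_Qbar

/-! ### A general lemma -/

/-- `groupCohomology.map f φ n` is bijective when `f` and `φ` are. -/
theorem map_bijective_of_bijective {k G H : Type u} [CommRing k] [Group G] [Group H]
    {A : Rep.{u} k H} {B : Rep.{u} k G} (f : G →* H) (φ : Rep.res f A ⟶ B)
    (hf : Function.Bijective f) (hφ : Function.Bijective φ.hom) (n : ℕ) :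
    Function.Bijective (groupCohomology.map f φ n).hom := by
  let e : G ≃* H := MulEquiv.ofBijective f hf
  let e₀ : A.V ≃ₗ[k] B.V := LinearEquiv.ofBijective φ.hom.toLinearMap hφ
  have he : ∀ g, (e₀.symm : B.V →ₗ[k] A.V) ∘ₗ B.ρ g =
      A.ρ (e g) ∘ₗ (e₀.symm : B.V →ₗ[k] A.V) := by
    intro g
    refine LinearMap.ext fun b => ?_
    obtain ⟨a, rfl⟩ := e₀.surjective b
    simp only [LinearMap.comp_apply, LinearEquiv.coe_coe, LinearEquiv.symm_apply_apply]
    apply e₀.injective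
    rw [LinearEquiv.apply_symm_apply]
    exact (Rep.hom_comm_apply φ g a).symm
  have h1 : groupCohomology.map f φ n = (mapIso e e₀.symm he n).inv := by
    rw [mapIso_inv]
    exact map_congr rfl (LinearMap.ext fun a => rfl) n
  rw [h1]
  exact (ConcreteCategory.isIso_iff_bijective _).1 inferInstance

/-! ### The global finite layer -/

section Global

variable (K E : IntermediateField ℚ Qbar) [Normal ℚ E]

/-- Restriction `Γ → Gal(E/ℚ)`. -/
noncomputable abbrev resE : Γ →* (E ≃ₐ[ℚ] E) := AlgEquiv.restrictNormalHom E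

theorem coe_resE (g : Γ) (x : E) : ((resE E g x : E) : Qbar) = g (x : Qbar) :=
  AlgEquiv.restrictNormal_commutes g E x

theorem resE_eq_one_iff (g : Γ) : resE E g = 1 ↔ g ∈ E.fixingSubgroup := by
  rw [IntermediateField.mem_fixingSubgroup_iff]
  constructor
  · intro h x hx
    have := coe_resE E g ⟨x, hx⟩
    rw [h] at this
    exact this.symm
  · intro h
    ext x
    rw [coe_resE]
    exact h _ x.2

/-- `Gal(E/K)` as a subgroup of `Gal(E/ℚ)`: the automorphisms fixing `K ∩ E` pointwise. -/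
def galE : Subgroup (E ≃ₐ[ℚ] E) where
  carrier := {h | ∀ x : E, (x : Qbar) ∈ K → h x = x}
  one_mem' := fun _ _ => rfl
  mul_mem' := fun {a b} ha hb x hx => by
    rw [AlgEquiv.mul_apply, hb x hx, ha x hx]
  inv_mem' := fun {a} ha x hx => by
    have := ha x hx
    conv_lhs => rw [← this]
    exact a.symm_apply_apply x

variable {K E} in
theorem mem_galE {h : E ≃ₐ[ℚ] E} : h ∈ galE K E ↔ ∀ x : E, (x : Qbar) ∈ K → h x = x := Iff.rfl

theorem resE_mem_galE {g : Γ} (hg : g ∈ K.fixingSubgroup) : resE E g ∈ galE K E := by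
  intro x hx
  apply Subtype.ext
  rw [coe_resE]
  exact (IntermediateField.mem_fixingSubgroup_iff K g).1 hg _ hx

/-- Restriction `G_K → Gal(E/K)`. -/
noncomputable def resKE : ↥K.fixingSubgroup →* ↥(galE K E) :=
  ((resE E).comp K.fixingSubgroup.subtype).codRestrict (galE K E)
    fun g => resE_mem_galE K E g.2

theorem coe_resKE (g : ↥K.fixingSubgroup) :
    ((resKE K E g : ↥(galE K E)) : E ≃ₐ[ℚ] E) = resE E (g : Γ) := rfl

end Global

/-! ### The local layer -/

section Local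

variable (q : Nat.Primes) (K E : IntermediateField ℚ Qbar) [Normal ℚ E] (σ : Γ)

theorem normal_fixingSubgroup_E : E.fixingSubgroup.Normal := by
  have h1 : @Normal ℚ E _ _ E.algebra' := ‹Normal ℚ E›
  have : @IsGalois ℚ _ E _ E.algebra' := ⟨⟩
  exact inferInstance

/-- The layer subgroup `G_E ∩ G_K` of `G_K`. -/
noncomputable def Uglob : Subgroup ↥K.fixingSubgroup := E.fixingSubgroup.subgroupOf K.fixingSubgroup

instance normal_Uglob : (Uglob K E).Normal :=
  haveI := normal_fixingSubgroup_E E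
  Subgroup.normal_subgroupOf

theorem mem_Uglob {g : ↥K.fixingSubgroup} : g ∈ Uglob K E ↔ (g : Γ) ∈ E.fixingSubgroup :=
  Subgroup.mem_subgroupOf

/-- The layer subgroup of the local Galois group: `decompHom⁻¹(G_E)`. -/
noncomputable def Uloc : Subgroup (Gloc (q : ℕ) K σ) := (Uglob K E).comap (decompHom (q : ℕ) K σ)

instance normal_Uloc : (Uloc q K E σ).Normal := (normal_Uglob K E).comap _

theorem mem_Uloc {τ : Gloc (q : ℕ) K σ} :
    τ ∈ Uloc q K E σ ↔ ((decompHom (q : ℕ) K σ τ : ↥K.fixingSubgroup) : Γ) ∈ E.fixingSubgroup :=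
  Iff.rfl

/-- `σ E = E` for `E/ℚ` normal. -/
theorem map_eq_of_normal (g : Γ) : E.map (g : Qbar →ₐ[ℚ] Qbar) = E :=
  (IntermediateField.normal_iff_forall_map_eq'.mp ‹Normal ℚ E›) g

/-- For `E/ℚ` normal the local field at `(q, σ)` does not depend on `σ`. -/
theorem localFieldAt_eq_localField : localFieldAt (q : ℕ) E σ = localField (q : ℕ) E := by
  rw [localFieldAt, map_eq_of_normal]

/-- `τ ∈ Uloc` iff `τ` fixes `E_q = ℚ_q(ι E)` pointwise. -/
theorem mem_Uloc_iff {τ : Gloc (q : ℕ) K σ} :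
    τ ∈ Uloc q K E σ ↔ ∀ y ∈ localField (q : ℕ) E, τ y = y := by
  rw [mem_Uloc, coe_decompHom, ← Subgroup.mem_comap, comap_conjLocal_fixingSubgroup,
    localFieldAt_eq_localField, IntermediateField.mem_fixingSubgroup_iff]
  rfl

end Local

/-! ### The decomposition groups: `Gloc ⧸ Uloc ≃ stab` -/

section Theta

variable (q : Nat.Primes) (K E : IntermediateField ℚ Qbar) [Normal ℚ E] (σ : Γ)
  (T : Finset Nat.Primes) (hq : q ∈ T)

/-- The restriction of `τ ∈ Gal(Ω_q/K_σ)` to `E_q`. -/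
noncomputable def resEq : Gloc (q : ℕ) K σ →*
    (localField (q : ℕ) E ≃ₐ[ℚ_[(q : ℕ)]] localField (q : ℕ) E) :=
  (AlgEquiv.restrictNormalHom (localField (q : ℕ) E)).comp (glocToAbs (q : ℕ) K σ)

theorem coe_resEq (τ : Gloc (q : ℕ) K σ) (y : localField (q : ℕ) E) :
    ((resEq q K E σ τ y : localField (q : ℕ) E) : PadicAlgCl (q : ℕ)) = τ (y : PadicAlgCl (q : ℕ)) :=
  AlgEquiv.restrictNormal_commutes (glocToAbs (q : ℕ) K σ τ) (localField (q : ℕ) E) y

/-- `g (decompHom τ)|_E g⁻¹ = resLoc (τ|_{E_q})`, `g = σ|_E`. -/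
theorem conj_resKE_decompHom (τ : Gloc (q : ℕ) K σ) :
    resE E σ * ((resKE K E (decompHom (q : ℕ) K σ τ) : ↥(galE K E)) : E ≃ₐ[ℚ] E) * (resE E σ)⁻¹ =
      resLoc (q : ℕ) E (resEq q K E σ τ) := by
  rw [coe_resKE, coe_decompHom, conjLocal_apply, resEq, MonoidHom.comp_apply,
    resLoc_restrictNormalHom, ← map_inv, ← map_mul, ← map_mul]
  congr 1
  group

/-- `τ ↦ (decompHom τ)|_E`, with values in the decomposition group of helper3's model. -/
noncomputable def theta₀ : Gloc (q : ℕ) K σ →*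
    ↥(stab (resFamily E T) (galE K E) ⟨q, hq⟩ (resE E σ)) :=
  ((resKE K E).comp (decompHom (q : ℕ) K σ)).codRestrict _ fun τ =>
    ⟨resEq q K E σ τ, (conj_resKE_decompHom q K E σ τ).symm⟩

theorem coe_theta₀ (τ : Gloc (q : ℕ) K σ) :
    ((theta₀ q K E σ T hq τ : ↥(galE K E)) : E ≃ₐ[ℚ] E) =
      resE E ((decompHom (q : ℕ) K σ τ : ↥K.fixingSubgroup) : Γ) := rfl

theorem theta₀_eq_one_iff (τ : Gloc (q : ℕ) K σ) :
    theta₀ q K E σ T hq τ = 1 ↔ τ ∈ Uloc q K E σ := by
  rw [mem_Uloc, ← resE_eq_one_iff, ← coe_theta₀ q K E σ T hq τ]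
  constructor
  · intro h; rw [h]; rfl
  · intro h
    apply Subtype.ext
    apply Subtype.ext
    exact h

/-- `toD (theta₀ τ) = τ|_{E_q}`. -/
theorem toD_theta₀ (τ : Gloc (q : ℕ) K σ) :
    toD (resFamily E T) (resFamily_injective E T) (galE K E) ⟨q, hq⟩ (resE E σ)
      (theta₀ q K E σ T hq τ) = resEq q K E σ τ := by
  apply resFamily_injective E T ⟨q, hq⟩
  rw [map_toD]
  exact conj_resKE_decompHom q K E σ τ

/-- `Gloc ⧸ Uloc →* stab`. -/
noncomputable def theta : Gloc (q : ℕ) K σ ⧸ Uloc q K E σ →*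
    ↥(stab (resFamily E T) (galE K E) ⟨q, hq⟩ (resE E σ)) :=
  QuotientGroup.lift (Uloc q K E σ) (theta₀ q K E σ T hq)
    fun τ hτ => (theta₀_eq_one_iff q K E σ T hq τ).2 hτ

@[simp] theorem theta_mk (τ : Gloc (q : ℕ) K σ) :
    theta q K E σ T hq (τ : Gloc (q : ℕ) K σ ⧸ Uloc q K E σ) = theta₀ q K E σ T hq τ := rfl

theorem theta_injective : Function.Injective (theta q K E σ T hq) := by
  rw [injective_iff_map_eq_one]
  intro x hx
  induction x using QuotientGroup.induction_on with | H τ =>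
  rw [theta_mk, theta₀_eq_one_iff] at hx
  exact (QuotientGroup.eq_one_iff τ).2 hx

theorem resE_conjLocal (τa : PadicAlgCl (q : ℕ) ≃ₐ[ℚ_[(q : ℕ)]] PadicAlgCl (q : ℕ)) :
    resE E (conjLocal (q : ℕ) σ τa) = (resE E σ)⁻¹ *
      resLoc (q : ℕ) E (AlgEquiv.restrictNormalHom (localField (q : ℕ) E) τa) * resE E σ := by
  rw [conjLocal_apply, resLoc_restrictNormalHom, map_mul, map_mul, map_inv]

theorem theta_surjective (hKE : K ≤ E) : Function.Surjective (theta q K E σ T hq) := by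
  intro s
  obtain ⟨d, hd⟩ := (mem_stab.1 s.2 : resE E σ * (((s : ↥(galE K E)) : E ≃ₐ[ℚ] E)) * (resE E σ)⁻¹ ∈
    (resFamily E T ⟨q, hq⟩).range)
  obtain ⟨τa, hτa⟩ := AlgEquiv.restrictNormalHom_surjective (F := ℚ_[(q : ℕ)])
    (K₁ := localField (q : ℕ) E) (PadicAlgCl (q : ℕ)) d
  have hres : resE E (conjLocal (q : ℕ) σ τa) = ((s : ↥(galE K E)) : E ≃ₐ[ℚ] E) := by
    rw [resE_conjLocal, hτa]
    have hd' : resLoc (q : ℕ) E d =
        resE E σ * (((s : ↥(galE K E)) : E ≃ₐ[ℚ] E)) * (resE E σ)⁻¹ := hd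
    rw [hd']
    group
  have hfix : τa ∈ (localFieldAt (q : ℕ) K σ).fixingSubgroup := by
    rw [← comap_conjLocal_fixingSubgroup, Subgroup.mem_comap,
      IntermediateField.mem_fixingSubgroup_iff]
    intro x hx
    have h1 := coe_resE E (conjLocal (q : ℕ) σ τa) ⟨x, hKE hx⟩
    rw [hres, (s : ↥(galE K E)).2 ⟨x, hKE hx⟩ hx] at h1
    exact h1.symm
  refine ⟨((IntermediateField.fixingSubgroupEquiv (localFieldAt (q : ℕ) K σ) ⟨τa, hfix⟩ :
    Gloc (q : ℕ) K σ) : Gloc (q : ℕ) K σ ⧸ Uloc q K E σ), ?_⟩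
  rw [theta_mk]
  apply Subtype.ext
  apply Subtype.ext
  rw [coe_theta₀, coe_decompHom, ← hres]
  rfl

theorem theta_bijective (hKE : K ≤ E) : Function.Bijective (theta q K E σ T hq) :=
  ⟨theta_injective q K E σ T hq, theta_surjective q K E σ T hq hKE⟩

end Theta

/-! ### The local modules: `(E_q)ˣ ≃ (Ω_qˣ)^{Uloc}` -/

section Lam

variable (q : Nat.Primes) (K E : IntermediateField ℚ Qbar) [Normal ℚ E] (σ : Γ)
  (T : Finset Nat.Primes) (hq : q ∈ T)

/-- The inclusion `(E_q)ˣ → Ω_qˣ`, additively. -/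
noncomputable def lamAdd :
    Additive (localField (q : ℕ) E)ˣ →+ Additive (PadicAlgCl (q : ℕ))ˣ :=
  MonoidHom.toAdditive (Units.map
    ((algebraMap (localField (q : ℕ) E) (PadicAlgCl (q : ℕ)) : _ →+* _) : _ →* _))

theorem lamAdd_apply (y : Additive (localField (q : ℕ) E)ˣ) :
    ((Additive.toMul (lamAdd q E y) : (PadicAlgCl (q : ℕ))ˣ) : PadicAlgCl (q : ℕ)) =
      (((Additive.toMul y : (localField (q : ℕ) E)ˣ) : localField (q : ℕ) E) :
        PadicAlgCl (q : ℕ)) := rfl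

theorem lamAdd_injective : Function.Injective (lamAdd q E) := by
  intro x y hxy
  apply Additive.toMul.injective
  apply Units.ext
  apply Subtype.ext
  exact congrArg (fun b : Additive (PadicAlgCl (q : ℕ))ˣ =>
    ((Additive.toMul b : (PadicAlgCl (q : ℕ))ˣ) : PadicAlgCl (q : ℕ))) hxy

theorem lamAdd_mem (y : Additive (localField (q : ℕ) E)ˣ) :
    (lamAdd q E y : (unitsRep (localFieldAt (q : ℕ) K σ) (PadicAlgCl (q : ℕ))).V) ∈
      Representation.invariants ((unitsRep (localFieldAt (q : ℕ) K σ) (PadicAlgCl (q : ℕ))).ρ.comp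
        (Uloc q K E σ).subtype) := by
  refine (mem_invariants_unitsRep_iff (Uloc q K E σ) _).2 ?_
  rw [IntermediateField.mem_fixedField_iff]
  intro τ hτ
  exact (mem_Uloc_iff q K E σ).1 hτ _ (Additive.toMul y : (localField (q : ℕ) E)ˣ).1.2

/-- An `Uloc`-invariant unit of `Ω_q` lies in `E_q`. -/
theorem mem_localField_of_invariant (hKE : K ≤ E)
    (a : (unitsRep (localFieldAt (q : ℕ) K σ) (PadicAlgCl (q : ℕ))).V)
    (ha : a ∈ Representation.invariants
      ((unitsRep (localFieldAt (q : ℕ) K σ) (PadicAlgCl (q : ℕ))).ρ.comp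
        (Uloc q K E σ).subtype)) :
    ((Additive.toMul (a : Additive (PadicAlgCl (q : ℕ))ˣ) : (PadicAlgCl (q : ℕ))ˣ) :
      PadicAlgCl (q : ℕ)) ∈ localField (q : ℕ) E := by
  have ha' := (mem_invariants_unitsRep_iff (Uloc q K E σ) a).1 ha
  rw [IntermediateField.mem_fixedField_iff] at ha'
  rw [← InfiniteGalois.fixedField_fixingSubgroup (localField (q : ℕ) E),
    IntermediateField.mem_fixedField_iff]
  intro τa hτa
  -- `τa` fixes `K_σ ≤ E_q`, hence comes from `Gloc`
  have hle : localFieldAt (q : ℕ) K σ ≤ localField (q : ℕ) E := by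
    rw [← localFieldAt_eq_localField q E σ]
    exact localFieldAt_mono (q : ℕ) hKE σ
  have hfix : τa ∈ (localFieldAt (q : ℕ) K σ).fixingSubgroup :=
    IntermediateField.fixingSubgroup_antitone hle hτa
  let τ : Gloc (q : ℕ) K σ :=
    IntermediateField.fixingSubgroupEquiv (localFieldAt (q : ℕ) K σ) ⟨τa, hfix⟩
  have hτ : τ ∈ Uloc q K E σ := by
    rw [mem_Uloc_iff]
    intro y hy
    exact (IntermediateField.mem_fixingSubgroup_iff _ τa).1 hτa y hy
  exact ha' τ hτ

/-- helper3's local module `(E_q)ˣ` (as a representation of the decomposition group `stab`). -/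
noncomputable abbrev locRepB : Rep ℤ ↥(stab (resFamily E T) (galE K E) ⟨q, hq⟩ (resE E σ)) :=
  repB (Ω := fun q : T => (localField ((q : Nat.Primes) : ℕ) E)ˣ) (resFamily E T)
    (resFamily_injective E T) (galE K E) ⟨q, hq⟩ (resE E σ)

/-- helper14's local layer module `(Ω_qˣ)^{Uloc}`. -/
noncomputable abbrev locLayer : Rep ℤ (Gloc (q : ℕ) K σ ⧸ Uloc q K E σ) :=
  (unitsRep (localFieldAt (q : ℕ) K σ) (PadicAlgCl (q : ℕ))).quotientToInvariants (Uloc q K E σ)

/-- The comparison of the local modules `(E_q)ˣ → (Ω_qˣ)^{Uloc}`, equivariant along `theta`. -/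
noncomputable def lam :
    Rep.res (theta q K E σ T hq) (locRepB q K E σ T hq) ⟶ locLayer q K E σ :=
  Rep.ofHom ⟨LinearMap.codRestrict _ (lamAdd q E).toIntLinearMap (lamAdd_mem q K E σ),
    fun x => QuotientGroup.induction_on x fun τ => by
      refine LinearMap.ext fun (y : Additive (localField (q : ℕ) E)ˣ) => ?_
      apply Subtype.ext
      apply Additive.toMul.injective
      apply Units.ext
      show ((toD (resFamily E T) (resFamily_injective E T) (galE K E) ⟨q, hq⟩ (resE E σ)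
        (theta₀ q K E σ T hq τ) ((Additive.toMul y : (localField (q : ℕ) E)ˣ) :
          localField (q : ℕ) E) : localField (q : ℕ) E) : PadicAlgCl (q : ℕ)) =
        τ (((Additive.toMul y : (localField (q : ℕ) E)ˣ) : localField (q : ℕ) E) :
          PadicAlgCl (q : ℕ))
      rw [toD_theta₀, coe_resEq]⟩

theorem lam_apply_coe (y : Additive (localField (q : ℕ) E)ˣ) :
    (((lam q K E σ T hq).hom y : (locLayer q K E σ).V) :
      (unitsRep (localFieldAt (q : ℕ) K σ) (PadicAlgCl (q : ℕ))).V) = lamAdd q E y := rfl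

theorem lam_bijective (hKE : K ≤ E) : Function.Bijective (lam q K E σ T hq).hom := by
  constructor
  · intro x y hxy
    exact lamAdd_injective q E (congrArg Subtype.val hxy)
  · rintro ⟨a, ha⟩
    have h1 := mem_localField_of_invariant q K E σ hKE a ha
    have h2 : (((Additive.toMul (a : Additive (PadicAlgCl (q : ℕ))ˣ) : (PadicAlgCl (q : ℕ))ˣ)⁻¹ :
        (PadicAlgCl (q : ℕ))ˣ) : PadicAlgCl (q : ℕ)) ∈ localField (q : ℕ) E := by
      rw [Units.val_inv_eq_inv_val]
      exact inv_mem h1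
    refine ⟨Additive.ofMul ⟨⟨_, h1⟩, ⟨_, h2⟩, ?_, ?_⟩, ?_⟩
    · apply Subtype.ext
      simp
    · apply Subtype.ext
      simp
    · apply Subtype.ext
      apply Additive.toMul.injective
      apply Units.ext
      rfl

/-- **(T2)** The comparison of the local layers
`Hⁿ(stab, (E_q)ˣ) → Hⁿ(Gloc ⧸ Uloc, (Ω_qˣ)^{Uloc})`. -/
noncomputable def T2 (n : ℕ) :
    groupCohomology (locRepB q K E σ T hq) n ⟶ groupCohomology (locLayer q K E σ) n :=
  groupCohomology.map (theta q K E σ T hq) (lam q K E σ T hq) n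

theorem T2_bijective (hKE : K ≤ E) (n : ℕ) : Function.Bijective (T2 q K E σ T hq n).hom :=
  map_bijective_of_bijective _ _ (theta_bijective q K E σ T hq hKE) (lam_bijective q K E σ T hq hKE) n

end Lam

end Fermat.Agent.S55.GL.BrauerDict
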