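/-
S55 block GLO11 (EX) / (HS) / (R): the GLOBAL DICTIONARY between helper3's finite-level model and
helper14's level model, and the compatibility of localisations.

`E/ℚ` finite normal inside `ℚ̄` with `G_E ∈ 𝒰` (`𝒰` a level structure of open subgroups of `Γ`,
e.g. `globalLevel S`), `A = smoothPart 𝒰 ℚ̄ˣ` (e.g. `QSUnits S`), `K ≤ E`, `H = galE K E`.

* `rhoE : G_K ⧸ (G_E ∩ G_K) →* H` (restriction to `E`), `kap : Eˣ → (res_{G_K} A)^{G_E ∩ G_K}`;
* **(T1)** `T1 = groupCohomology.map rhoE kap n : Hⁿ(H, Eˣ) → Hⁿ(G_K ⧸ U, (res A)^U)`;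
* **(T3)** `layerBC (decompHom) (coeffLoc) (T1 x) = T2 (loc_{(q, σ|_E)} (diag_* x))`: localising
  (helper14's `resAt`, at the layer) the inflation of a finite-level class `x ∈ Hⁿ(H, Eˣ)` is the
  same as localising `x` in helper3's idèle model (evaluate the diagonal idèle at `(q, σ|_E)`).
-/
import Fermat.Agent.S55.GL.BrauerDictLocal
import Fermat.Agent.S55.CFAbs

set_option autoImplicit false
set_option linter.style.haveILetI false
set_option linter.unusedSectionVars false

open CategoryTheory IntermediateField groupCohomology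

namespace Fermat.Agent.S55.GL.BrauerDict

open Fermat.Agent.S55.Level Fermat.Agent.S55.GaloisLevel Fermat.Agent.S55.GL.Places
  Fermat.Agent.S55.GL.BrauerLocal Fermat.Agent.S55.LocalDict Fermat.Agent.S55.GL.LocalFieldAt
  Fermat.Agent.S55.GL.CoindFun Fermat.Agent.S55.GL.Ideles Fermat.Agent.S55.GL.IdeleSemiLocal
  Fermat.Agent.S55.SmoothPart Fermat.Agent.S55.CFAbs Fermat.Agent.S55.LevelLayer

local notation "Qbar" => AlgebraicClosure ℚ
local notation "Γ" => (AlgebraicClosure ℚ ≃ₐ[ℚ] AlgebraicClosure ℚ)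

/-- primes as `Fact`s -/
local instance factPrime_bdg (q : Nat.Primes) : Fact (q : ℕ).Prime := ⟨q.2⟩

local instance isGaloisQbar_bdg : IsGalois ℚ Qbar := Fermat.Agent.S55.Level.isGalois_Qbar

section Global

variable (K E : IntermediateField ℚ Qbar) [Normal ℚ E] (𝒰 : LevelStructure Γ)
  (hE : E.fixingSubgroup ∈ 𝒰.sets)

/-- `G_K ⧸ (G_E ∩ G_K) →* Gal(E/K)`, restriction to `E`. -/
noncomputable def rhoE : ↥K.fixingSubgroup ⧸ Uglob K E →* ↥(galE K E) :=
  QuotientGroup.lift (Uglob K E) (resKE K E) fun g hg => by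
    apply Subtype.ext
    rw [coe_resKE]
    exact (resE_eq_one_iff E _).2 ((mem_Uglob K E).1 hg)

@[simp] theorem rhoE_mk (g : ↥K.fixingSubgroup) :
    rhoE K E (g : ↥K.fixingSubgroup ⧸ Uglob K E) = resKE K E g := rfl

/-- The global coefficient module `ℚ_S^× = smoothPart 𝒰 ℚ̄ˣ`. -/
noncomputable abbrev Asm : Rep.{0} ℤ Γ := smoothPart 𝒰 (unitsRep ℚ Qbar)

/-- `Eˣ → ℚ̄ˣ`, additively. -/
noncomputable def kapAdd₀ : Additive Eˣ →+ Additive Qbarˣ :=
  MonoidHom.toAdditive (Units.map ((algebraMap E Qbar : _ →+* _) : _ →* _))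

theorem kapAdd₀_apply (x : Additive Eˣ) :
    ((Additive.toMul (kapAdd₀ E x) : Qbarˣ) : Qbar) = (((Additive.toMul x : Eˣ) : E) : Qbar) := rfl

include hE in
theorem kapAdd₀_mem (x : Additive Eˣ) :
    (kapAdd₀ E x : (unitsRep ℚ Qbar).V) ∈ smoothSubmodule 𝒰 (unitsRep ℚ Qbar) := by
  refine ⟨E.fixingSubgroup, hE, fun u hu => ?_⟩
  apply Additive.toMul.injective
  apply Units.ext
  exact (IntermediateField.mem_fixingSubgroup_iff E u).1 hu _ (Additive.toMul x : Eˣ).1.2

/-- `Eˣ → smoothPart 𝒰 ℚ̄ˣ`, `ℤ`-linear. -/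
noncomputable def kapLin : Additive Eˣ →ₗ[ℤ] (Asm 𝒰).V :=
  LinearMap.codRestrict (smoothSubmodule 𝒰 (unitsRep ℚ Qbar)) (kapAdd₀ E).toIntLinearMap
    (kapAdd₀_mem E 𝒰 hE)

theorem smoothPartι_kapLin (x : Additive Eˣ) :
    (smoothPartι 𝒰 (unitsRep ℚ Qbar)).hom (kapLin E 𝒰 hE x) = kapAdd₀ E x := rfl

/-- helper14's global layer module `(res_{G_K} A)^{G_E ∩ G_K}`. -/
noncomputable abbrev globLayer : Rep ℤ (↥K.fixingSubgroup ⧸ Uglob K E) :=
  (resL K (Asm 𝒰)).quotientToInvariants (Uglob K E)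

/-- helper3's global module `Eˣ` restricted to `H = Gal(E/K)`. -/
noncomputable abbrev unitsH : Rep ℤ ↥(galE K E) := Rep.res (galE K E).subtype (Ideles.unitsRep E)

include hE in
theorem kapLin_mem (x : Additive Eˣ) :
    (kapLin E 𝒰 hE x : (resL K (Asm 𝒰)).V) ∈
      Representation.invariants ((resL K (Asm 𝒰)).ρ.comp (Uglob K E).subtype) := by
  rw [Representation.mem_invariants]
  intro u
  apply Subtype.ext
  apply Additive.toMul.injective
  apply Units.ext
  exact (IntermediateField.mem_fixingSubgroup_iff E _).1 ((mem_Uglob K E).1 u.2) _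
    (Additive.toMul x : Eˣ).1.2

/-- The comparison of the global modules `Eˣ → (res_{G_K} A)^{G_E ∩ G_K}`, equivariant along
`rhoE`. -/
noncomputable def kap : Rep.res (rhoE K E) (unitsH K E) ⟶ globLayer K E 𝒰 :=
  Rep.ofHom ⟨LinearMap.codRestrict _ (kapLin E 𝒰 hE) (kapLin_mem K E 𝒰 hE),
    fun x => QuotientGroup.induction_on x fun g => by
      refine LinearMap.ext fun (y : Additive Eˣ) => ?_
      apply Subtype.ext
      apply Subtype.ext
      apply Additive.toMul.injective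
      apply Units.ext
      exact coe_resE E (g : Γ) ((Additive.toMul y : Eˣ) : E)⟩

theorem kap_apply_coe (y : Additive Eˣ) :
    (((kap K E 𝒰 hE).hom y : (globLayer K E 𝒰).V) : (resL K (Asm 𝒰)).V) = kapLin E 𝒰 hE y := rfl

/-- **(T1)** Inflation of finite-level classes to the layer of helper14's model:
`Hⁿ(Gal(E/K), Eˣ) → Hⁿ(G_K ⧸ (G_E ∩ G_K), (res A)^{G_E ∩ G_K})`. -/
noncomputable def T1 (n : ℕ) :
    groupCohomology (unitsH K E) n ⟶ groupCohomology (globLayer K E 𝒰) n :=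
  groupCohomology.map (rhoE K E) (kap K E 𝒰 hE) n

end Global

/-! ### (T3): localisation commutes with the dictionary -/

section T3

open Fermat.Agent.S55.GC.SemiLocal

variable (q : Nat.Primes) (K E : IntermediateField ℚ Qbar) [Normal ℚ E] (σ : Γ)
  (T : Finset Nat.Primes) (hq : q ∈ T) (𝒰 : LevelStructure Γ)
  (hE : E.fixingSubgroup ∈ 𝒰.sets)

/-- helper14's coefficient map at the place `(q, σ)` of `K`, for `A = smoothPart 𝒰 ℚ̄ˣ`. -/
noncomputable abbrev coeffAsm :
    Rep.res (decompHom (q : ℕ) K σ) (resL K (Asm 𝒰)) ⟶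
      unitsRep (localFieldAt (q : ℕ) K σ) (PadicAlgCl (q : ℕ)) :=
  coeffLoc (q : ℕ) K σ (smoothPartι 𝒰 (unitsRep ℚ Qbar))

theorem rhoE_comp_layerHom :
    (rhoE K E).comp (layerHom (U := Uglob K E) (V := Uloc q K E σ) (decompHom (q : ℕ) K σ)
        (le_refl _)) =
      (((MonoidHom.id ↥(galE K E)).comp
        (stab (resFamily E T) (galE K E) ⟨q, hq⟩ (resE E σ)).subtype).comp
          (theta q K E σ T hq)) :=
  MonoidHom.ext fun x => QuotientGroup.induction_on x fun _ => rfl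

/-- **(T3)** Localising (in helper14's model, at the layer `G_K ⧸ (G_E ∩ G_K)`) the inflation of a
finite-level class `x ∈ Hⁿ(Gal(E/K), Eˣ)` is the same as localising `x` in helper3's idèle model
(evaluate the diagonal idèle at `(q, σ|_E)`) and transporting by `T2`. -/
theorem T3 (n : ℕ) :
    T1 K E 𝒰 hE n ≫ layerBC (U := Uglob K E) (V := Uloc q K E σ) (decompHom (q : ℕ) K σ)
        (coeffAsm q K σ 𝒰) (le_refl _) n =
      groupCohomology.map (MonoidHom.id ↥(galE K E))
          ((Rep.resFunctor (galE K E).subtype).map (diagRep E T)) n ≫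
        loc (locHom E T (galE K E) ⟨q, hq⟩ (resE E σ)) n ≫ T2 q K E σ T hq n := by
  unfold T1 T2 layerBC
  rw [← map_comp, ← map_comp, ← map_comp]
  refine map_congr (rhoE_comp_layerHom q K E σ T hq) ?_ n
  refine LinearMap.ext fun (y : Additive Eˣ) => ?_
  apply Subtype.ext
  apply Additive.toMul.injective
  apply Units.ext
  show padicEmbedding (q : ℕ) (σ (((Additive.toMul y : Eˣ) : E) : Qbar)) =
    padicEmbedding (q : ℕ) (((resE E σ ((Additive.toMul y : Eˣ) : E) : E)) : Qbar)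
  rw [coe_resE]

theorem T3_apply (n : ℕ) (x : groupCohomology (unitsH K E) n) :
    (layerBC (U := Uglob K E) (V := Uloc q K E σ) (decompHom (q : ℕ) K σ)
        (coeffAsm q K σ 𝒰) (le_refl _) n).hom ((T1 K E 𝒰 hE n).hom x) =
      (T2 q K E σ T hq n).hom ((loc (locHom E T (galE K E) ⟨q, hq⟩ (resE E σ)) n).hom
        ((groupCohomology.map (MonoidHom.id ↥(galE K E))
          ((Rep.resFunctor (galE K E).subtype).map (diagRep E T)) n).hom x)) := by
  have h := T3 q K E σ T hq 𝒰 hE n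
  exact congrArg (fun ψ => ψ.hom x) h

end T3

end Fermat.Agent.S55.GL.BrauerDict
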