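/-
S55 block GLO11 (EX), LEVEL FORM from the finite-level existence theorem — abstract version.

`𝒰` a level structure on `G`, `A` a discrete `G`-module (think `G = G_{L,S}` or `G_L`,
`A = ℚ_S^×`); a family of "places" `v : V` with local groups `Gv v`, level structures `𝒱 v`,
local modules `N v`, decomposition maps `r v : Gv v →* G` (refining), coefficient maps
`φ v : res (r v) A ⟶ N v` and local class formations `F v` (giving `inv_v := (F v).inv`).
The localisation is `res_v := levelCohomologyMap (r v) (hr v) (φ v) 2`.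

`ExistsAtLayer r φ F U hmem` is the finite-level existence statement at the layer `G ⧸ U`: every
family of classes `y v ∈ H²(Gv v ⧸ U_v, (N v)^{U_v})`, `U_v := U.comap (r v)`, almost all zero and
with sum of invariants zero, is the family of localisations of a class of `H²(G ⧸ U, A^U)`.

`exists_of_layers` : if for every finite set of places `F'` and every `n` there is a layer `U` of
`p`-power index whose local indices `[Gv v : U_v]`, `v ∈ F'`, are divisible by `p ^ n`, and at which
finite-level existence holds, then (EX) holds in level form: every family `x v` of `p`-primary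
classes of `levelCohomology (𝒱 v) (N v) 2`, almost all zero, with `∑ inv_v (x v) = 0`, is the family
of localisations of a `p`-primary class of `levelCohomology 𝒰 A 2`.  This is exactly the field
`exist` of `CF.BrauerHyp` (helper14).
-/
import Fermat.Agent.S55.CFAbs
import Fermat.Agent.S55.CF.PElem
import Fermat.Agent.S55.GC.Cores

set_option autoImplicit false
set_option linter.unusedSectionVars false
set_option linter.style.haveILetI false

universe u

open CategoryTheory groupCohomology Rep

namespace Fermat.Agent.S55.GL.BrauerExistLevel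

open Fermat.Agent.S55.Level Fermat.Agent.S55.LevelLayer Fermat.Agent.S55.CFAbs
  Fermat.Agent.S55.CF

variable {k G : Type u} [CommRing k] [Group G] {𝒰 : LevelStructure G} {A : Rep.{u} k G}
  [IsDiscrete 𝒰 A] {V : Type*} {Gv : V → Type u} [∀ v, Group (Gv v)]
  {𝒱 : ∀ v, LevelStructure (Gv v)} {N : ∀ v, Rep.{u} k (Gv v)} [∀ v, IsDiscrete (𝒱 v) (N v)]
  (r : ∀ v, Gv v →* G) (hr : ∀ v, (𝒱 v).Refines 𝒰 (r v)) (φ : ∀ v, Rep.res (r v) A ⟶ N v)
  (F : ∀ v, Formation (𝒱 v) (N v))

/-- Finite-level existence at the layer `G ⧸ U`. -/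
def ExistsAtLayer (U : Subgroup G) [U.Normal] (hmem : ∀ v, U.comap (r v) ∈ (𝒱 v).sets) : Prop :=
  ∀ (F' : Finset V)
    (y : ∀ v, groupCohomology ((N v).quotientToInvariants (U.comap (r v))) 2),
    (∀ v, v ∉ F' → y v = 0) →
    ∑ v ∈ F', (F v).inv ((levelInf (𝒱 v) (N v) (hmem v) 2).hom (y v)) = 0 →
    ∃ β : groupCohomology (A.quotientToInvariants U) 2,
      ∀ v, (layerBC (r v) (φ v) (le_refl (U.comap (r v))) 2).hom β = y v

/-- A class of a layer of `p`-power index is `p`-primary. -/
theorem isPPrim_levelInf {p : ℕ} {U : Subgroup G} [U.Normal] (hU : U ∈ 𝒰.sets) {j : ℕ}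
    (hj : U.index = p ^ j) (β : groupCohomology (A.quotientToInvariants U) 2) :
    IsPPrim p ((levelInf 𝒰 A hU 2).hom β) := by
  haveI := 𝒰.finiteIndex U hU
  haveI : Finite (G ⧸ U) := Subgroup.finite_quotient_of_finiteIndex
  refine ⟨j, ?_⟩
  have h := Fermat.Agent.S55.GC.Cores.card_nsmul_eq_zero (A.quotientToInvariants U) 1 β
  rw [← Subgroup.index_eq_card, hj] at h
  rw [← map_nsmul, h, map_zero]

/-- **(EX), level form, abstract.** -/
theorem exists_of_layers (p : ℕ)
    (hlayer : ∀ (F' : Finset V) (n : ℕ), ∃ (U : Subgroup G) (_ : U.Normal) (_ : U ∈ 𝒰.sets)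
      (hmem : ∀ v, U.comap (r v) ∈ (𝒱 v).sets), (∃ j : ℕ, U.index = p ^ j) ∧
      (∀ v ∈ F', p ^ n ∣ (U.comap (r v)).index) ∧ ExistsAtLayer r φ F U hmem)
    (F' : Finset V) (x : ∀ v, levelCohomology (𝒱 v) (N v) 2) (hsupp : ∀ v, v ∉ F' → x v = 0)
    (hp : ∀ v, IsPPrim p (x v)) (hsum : ∑ v ∈ F', (F v).inv (x v) = 0) :
    ∃ y : levelCohomology 𝒰 A 2, IsPPrim p y ∧
      ∀ v, (levelCohomologyMap (r v) (hr v) (φ v) 2).hom y = x v := by
  classical
  -- a common exponent
  choose e he using hp
  set n := F'.sup e with hn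
  have hn' : ∀ v ∈ F', p ^ n • x v = 0 := by
    intro v hv
    have hle : e v ≤ n := Finset.le_sup hv
    obtain ⟨c, hc⟩ := Nat.exists_eq_add_of_le hle
    rw [hc, pow_add, mul_nsmul, he v, smul_zero]
  obtain ⟨U, hUn, hU, hmem, ⟨j, hj⟩, hdvd, hex⟩ := hlayer F' n
  -- the local classes come from the layer
  have hloc : ∀ v, ∃ y : groupCohomology ((N v).quotientToInvariants (U.comap (r v))) 2,
      (levelInf (𝒱 v) (N v) (hmem v) 2).hom y = x v ∧ (v ∉ F' → y = 0) := by
    intro v
    by_cases hv : v ∈ F'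
    · obtain ⟨c, hc⟩ := hdvd v hv
      have h0 : (U.comap (r v)).index • (F v).inv (x v) = 0 := by
        rw [hc, mul_nsmul, ← map_nsmul, hn' v hv, map_zero, smul_zero]
      obtain ⟨y, hy⟩ := (F v).exists_levelInf_eq_of_index_nsmul_inv _ (hmem v) (x v) h0
      exact ⟨y, hy, fun h => absurd hv h⟩
    · exact ⟨0, by rw [map_zero, hsupp v hv], fun _ => rfl⟩
  choose y hy hy0 using hloc
  have hsum' : ∑ v ∈ F', (F v).inv ((levelInf (𝒱 v) (N v) (hmem v) 2).hom (y v)) = 0 := by
    rw [← hsum]
    exact Finset.sum_congr rfl fun v _ => by rw [hy v]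
  obtain ⟨β, hβ⟩ := hex F' y hy0 hsum'
  refine ⟨(levelInf 𝒰 A hU 2).hom β, isPPrim_levelInf hU hj β, fun v => ?_⟩
  rw [levelCohomologyMap_levelInf_apply (r v) (φ v) (le_refl _) (hr v) hU (hmem v) 2 β, hβ v, hy v]

end Fermat.Agent.S55.GL.BrauerExistLevel
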