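/-
S55 / GLO11 = (EX) (helper5), part 1: the abstract cyclic core of the existence theorem for
Brauer classes with prescribed local components.

`G` a finite cyclic group, `0 → X₁ → X₂ → X₃ → 0` short exact in `Rep k G`
(think `X₁ = Eˣ`, `X₂ = J_E`, `X₃ = C_E` for a cyclic layer `E/L`, `G = Gal(E/L)`), with
* `H¹(G, X₁) = 0` (Hilbert 90),
* `|H²(G, X₃)| ∣ |G|` (second inequality, GLO8),
* `s : H²(G, X₂) →+ T` (`= Σ_v inv_v`) killing the image of `H²(G, X₁)` (reciprocity, GLO9c),
* a class `y₀ ∈ H²(G, X₂)` such that `s y₀` has order divisible by `|G|` (a place with full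
  decomposition group).
Then `ker s = im (H²(G, X₁) → H²(G, X₂))` (`exists_map_f_eq_of_sum_eq_zero`), `H²(G, X₃)` is
cyclic of order `|G|` generated by the image of `y₀`, and `s` induces an injection
`H²(G, X₃) → T` (`exists_invC`).

Ingredients: the long exact cohomology sequence and the periodicity `H³ ≅ H¹` of the cohomology
of a finite cyclic group (Mathlib, `Rep.FiniteCyclicGroup.groupCohomologyIsoOdd`).
Mathlib only.
-/
import Mathlib

set_option autoImplicit false

universe u

open CategoryTheory groupCohomology Rep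

namespace Fermat.Agent.S55.GL.BrauerExistAbs

/-! ### Finite groups generated by an element of maximal order -/

section Generator

/-- In a finite additive group whose order divides `n`, an element `v` with
`m • v = 0 → n ∣ m` generates, and the order is `n`. -/
theorem card_eq_and_generates' {X : Type*} [AddCommGroup X] [Finite X] {n : ℕ}
    (hcard : Nat.card X ∣ n) (v : X) (hv : ∀ m : ℕ, m • v = 0 → n ∣ m) :
    Nat.card X = n ∧ (∀ m : ℕ, m • v = 0 ↔ n ∣ m) ∧ ∀ x : X, ∃ m : ℕ, x = m • v := by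
  have hpos : 0 < Nat.card X := Nat.card_pos
  have h1 : n ∣ Nat.card X := hv _ (card_nsmul_eq_zero' (G := X) (x := v))
  have hcardn : Nat.card X = n := Nat.dvd_antisymm hcard h1
  have hiff : ∀ m : ℕ, m • v = 0 ↔ n ∣ m := by
    intro m
    refine ⟨hv m, ?_⟩
    rintro ⟨c, rfl⟩
    rw [mul_comm, mul_nsmul, ← hcardn, card_nsmul_eq_zero']
  have hord : addOrderOf v = n := by
    apply Nat.dvd_antisymm
    · exact addOrderOf_dvd_of_nsmul_eq_zero ((hiff n).2 dvd_rfl)
    · exact hv _ (addOrderOf_nsmul_eq_zero v)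
  have htop : AddSubgroup.zmultiples v = ⊤ := by
    apply AddSubgroup.eq_top_of_card_eq
    rw [Nat.card_zmultiples, hord, hcardn]
  refine ⟨hcardn, hiff, fun x => ?_⟩
  have hx : x ∈ AddSubgroup.zmultiples v := htop ▸ AddSubgroup.mem_top x
  obtain ⟨z, rfl⟩ := AddSubgroup.mem_zmultiples_iff.1 hx
  have hn0 : n ≠ 0 := by
    rintro rfl
    exact hpos.ne' (Nat.eq_zero_of_zero_dvd h1)
  refine ⟨(z % (n : ℤ)).toNat, ?_⟩
  have h3 : 0 ≤ z % (n : ℤ) := Int.emod_nonneg z (by exact_mod_cast hn0)
  have h4 : ((z % (n : ℤ)).toNat : ℤ) = z % n := Int.toNat_of_nonneg h3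
  rw [← natCast_zsmul, h4]
  have h5 : z = z % n + n * (z / n) := (Int.emod_add_mul_ediv z n).symm
  conv_lhs => rw [h5]
  rw [add_zsmul, mul_zsmul', natCast_zsmul, (hiff n).2 dvd_rfl, zsmul_zero, add_zero]

end Generator

/-! ### The long exact sequence, elementwise -/

section LES

variable {k G : Type u} [CommRing k] [Group G] {X : ShortComplex (Rep.{u} k G)}

/-- `Hⁱ(G, X₂) → Hⁱ(G, X₃)` is surjective when `Hⁱ⁺¹(G, X₁) = 0`. -/
theorem surjective_map_g_of_isZero (hX : X.ShortExact) (i : ℕ)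
    (h : Limits.IsZero (groupCohomology X.X₁ (i + 1))) :
    Function.Surjective (groupCohomology.map (MonoidHom.id G) X.g i) := by
  have hex := mapShortComplex₃_exact hX (rfl : i + 1 = i + 1)
  have : Epi (groupCohomology.map (MonoidHom.id G) X.g i) := hex.epi_f (h.eq_of_tgt _ _)
  exact (ModuleCat.epi_iff_surjective _).mp this

/-- Exactness of `Hⁱ(G, X₁) → Hⁱ(G, X₂) → Hⁱ(G, X₃)`, elementwise. -/
theorem exists_map_f_eq_of_map_g_eq_zero (hX : X.ShortExact) (i : ℕ)
    (y : groupCohomology X.X₂ i)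
    (hy : groupCohomology.map (MonoidHom.id G) X.g i y = 0) :
    ∃ x : groupCohomology X.X₁ i, groupCohomology.map (MonoidHom.id G) X.f i x = y :=
  ((ShortComplex.ShortExact.moduleCat_exact_iff_function_exact _).mp
    (mapShortComplex₂_exact hX i) y).mp hy

theorem map_g_map_f_apply (i : ℕ) (x : groupCohomology X.X₁ i) :
    groupCohomology.map (MonoidHom.id G) X.g i
      (groupCohomology.map (MonoidHom.id G) X.f i x) = 0 := by
  have h := (mapShortComplex₂ X i).zero
  exact congrArg (fun φ => ModuleCat.Hom.hom φ x) h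

end LES

/-! ### Periodicity for finite cyclic groups -/

section Cyclic

variable {k G : Type u} [CommRing k] [Group G] [Finite G]

/-- For a finite cyclic group, `H¹(G, A) = 0` implies `Hⁱ(G, A) = 0` for all odd `i`. -/
theorem isZero_odd_of_isZero_one (A : Rep.{u} k G) (g : G) (hg : ∀ x, x ∈ Subgroup.zpowers g)
    (h : Limits.IsZero (groupCohomology A 1)) (i : ℕ) (hi : Odd i) :
    Limits.IsZero (groupCohomology A i) := by
  have : IsCyclic G := ⟨⟨g, hg⟩⟩
  let _ : CommGroup G := IsCyclic.commGroup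
  let _ : Fintype G := Fintype.ofFinite G
  exact h.of_iso ((FiniteCyclicGroup.groupCohomologyIsoOdd A g hg i hi) ≪≫
    (FiniteCyclicGroup.groupCohomologyIsoOdd A g hg 1 (by decide)).symm)

/-- For a finite cyclic group, `H²(G, A) = 0` implies `Hⁱ(G, A) = 0` for all even `i > 0`. -/
theorem isZero_even_of_isZero_two (A : Rep.{u} k G) (g : G) (hg : ∀ x, x ∈ Subgroup.zpowers g)
    (h : Limits.IsZero (groupCohomology A 2)) (i : ℕ) [NeZero i] (hi : Even i) :
    Limits.IsZero (groupCohomology A i) := by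
  have : IsCyclic G := ⟨⟨g, hg⟩⟩
  let _ : CommGroup G := IsCyclic.commGroup
  let _ : Fintype G := Fintype.ofFinite G
  exact h.of_iso ((FiniteCyclicGroup.groupCohomologyIsoEven A g hg i hi) ≪≫
    (FiniteCyclicGroup.groupCohomologyIsoEven A g hg 2 (by decide)).symm)

end Cyclic

/-! ### The abstract existence theorem -/

section Main

variable {k G : Type u} [CommRing k] [Group G] [Finite G] {X : ShortComplex (Rep.{u} k G)}

/-- `H²(G, X₂) → H²(G, X₃)` is surjective for `G` finite cyclic with `H¹(G, X₁) = 0`. -/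
theorem surjective_map_g_two (hX : X.ShortExact) (g : G) (hg : ∀ x, x ∈ Subgroup.zpowers g)
    (h90 : Limits.IsZero (groupCohomology X.X₁ 1)) :
    Function.Surjective (groupCohomology.map (MonoidHom.id G) X.g 2) :=
  surjective_map_g_of_isZero hX 2 (isZero_odd_of_isZero_one X.X₁ g hg h90 3 (by decide))

variable (hX : X.ShortExact) (g : G) (hg : ∀ x, x ∈ Subgroup.zpowers g)
  (h90 : Limits.IsZero (groupCohomology X.X₁ 1))
  [Finite (groupCohomology X.X₃ 2)]
  (hcard : Nat.card (groupCohomology X.X₃ 2) ∣ Nat.card G)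
  {T : Type*} [AddCommGroup T] (s : groupCohomology X.X₂ 2 →+ T)
  (hrec : ∀ x : groupCohomology X.X₁ 2,
    s (groupCohomology.map (MonoidHom.id G) X.f 2 x) = 0)
  (y₀ : groupCohomology X.X₂ 2) (hy₀ : ∀ m : ℕ, m • s y₀ = 0 → Nat.card G ∣ m)

omit [Finite G] [Finite (groupCohomology X.X₃ 2)] in
include hX hrec hy₀ in
/-- The image of `y₀` in `H²(G, X₃)` has order divisible by `|G|`. -/
theorem dvd_of_nsmul_map_g_eq_zero (m : ℕ)
    (hm : m • groupCohomology.map (MonoidHom.id G) X.g 2 y₀ = 0) : Nat.card G ∣ m := by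
  apply hy₀
  rw [← map_nsmul] at hm
  obtain ⟨x, hx⟩ := exists_map_f_eq_of_map_g_eq_zero hX 2 (m • y₀) hm
  rw [← map_nsmul, ← hx, hrec]

omit [Finite G] in
include hX hcard hrec hy₀ in
/-- **Abstract (EX)**: a class of `H²(G, X₂)` killed by `s` comes from `H²(G, X₁)`.
(Neither Hilbert 90 nor cyclicity of `G` is needed for this direction.) -/
theorem exists_map_f_eq_of_sum_eq_zero (y : groupCohomology X.X₂ 2) (hy : s y = 0) :
    ∃ x : groupCohomology X.X₁ 2, groupCohomology.map (MonoidHom.id G) X.f 2 x = y := by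
  obtain ⟨-, hiff, hgen⟩ := card_eq_and_generates' hcard
    (groupCohomology.map (MonoidHom.id G) X.g 2 y₀) (dvd_of_nsmul_map_g_eq_zero hX s hrec y₀ hy₀)
  obtain ⟨m, hm⟩ := hgen (groupCohomology.map (MonoidHom.id G) X.g 2 y)
  -- `y - m • y₀` dies in `H²(X₃)`
  have h1 : groupCohomology.map (MonoidHom.id G) X.g 2 (y - m • y₀) = 0 := by
    rw [map_sub, map_nsmul, hm, sub_self]
  obtain ⟨x, hx⟩ := exists_map_f_eq_of_map_g_eq_zero hX 2 _ h1
  have h2 : s (y - m • y₀) = 0 := by rw [← hx, hrec]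
  have h3 : m • s y₀ = 0 := by
    rw [map_sub, hy, zero_sub, neg_eq_zero, map_nsmul] at h2
    exact h2
  have h4 : groupCohomology.map (MonoidHom.id G) X.g 2 y = 0 := by
    rw [hm]
    exact (hiff m).2 (hy₀ m h3)
  exact exists_map_f_eq_of_map_g_eq_zero hX 2 y h4

omit [Finite G] in
include hX hcard hrec hy₀ in
/-- `ker s = im (H²(G, X₁) → H²(G, X₂))`. -/
theorem sum_eq_zero_iff (y : groupCohomology X.X₂ 2) :
    s y = 0 ↔ ∃ x : groupCohomology X.X₁ 2,
      groupCohomology.map (MonoidHom.id G) X.f 2 x = y :=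
  ⟨exists_map_f_eq_of_sum_eq_zero hX hcard s hrec y₀ hy₀ y, by
    rintro ⟨x, rfl⟩; exact hrec x⟩

include hX hg h90 hcard hrec hy₀ in
/-- The global invariant of the cyclic layer: `s` descends to an INJECTIVE map on `H²(G, X₃)`,
which has order exactly `|G|` and is generated by the image of `y₀`. -/
theorem exists_invC :
    Nat.card (groupCohomology X.X₃ 2) = Nat.card G ∧
    ∃ invC : groupCohomology X.X₃ 2 →+ T, Function.Injective invC ∧
      (∀ y : groupCohomology X.X₂ 2,
        invC (groupCohomology.map (MonoidHom.id G) X.g 2 y) = s y) ∧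
      ∀ c : groupCohomology X.X₃ 2, ∃ m : ℕ,
        c = m • groupCohomology.map (MonoidHom.id G) X.g 2 y₀ := by
  obtain ⟨hc, -, hgen⟩ := card_eq_and_generates' hcard
    (groupCohomology.map (MonoidHom.id G) X.g 2 y₀) (dvd_of_nsmul_map_g_eq_zero hX s hrec y₀ hy₀)
  have hsurj := surjective_map_g_two hX g hg h90
  let π : groupCohomology X.X₂ 2 →+ groupCohomology X.X₃ 2 :=
    (groupCohomology.map (MonoidHom.id G) X.g 2).hom.toAddMonoidHom
  have hπ : Function.Surjective π := hsurj
  have hker : π.ker ≤ s.ker := by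
    intro y hy
    obtain ⟨x, rfl⟩ := exists_map_f_eq_of_map_g_eq_zero hX 2 y hy
    exact hrec x
  -- descend `s` along the surjection `π`
  let e := QuotientAddGroup.quotientKerEquivOfSurjective π hπ
  let invC : groupCohomology X.X₃ 2 →+ T :=
    (QuotientAddGroup.lift π.ker s hker).comp e.symm.toAddMonoidHom
  have hinv : ∀ y, invC (π y) = s y := by
    intro y
    have : e.symm (π y) = (y : groupCohomology X.X₂ 2 ⧸ π.ker) := by
      rw [AddEquiv.symm_apply_eq]
      rfl
    change QuotientAddGroup.lift π.ker s hker (e.symm (π y)) = s y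
    rw [this]
    rfl
  refine ⟨hc, invC, ?_, hinv, hgen⟩
  rw [injective_iff_map_eq_zero]
  intro c hc0
  obtain ⟨y, rfl⟩ := hπ c
  rw [hinv] at hc0
  obtain ⟨x, rfl⟩ := exists_map_f_eq_of_sum_eq_zero hX hcard s hrec y₀ hy₀ y hc0
  exact map_g_map_f_apply 2 x

end Main

end Fermat.Agent.S55.GL.BrauerExistAbs
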