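/-
S55 block GLO11 (EX): the semi-local decomposition and the finite-level existence theorem at an
ARBITRARY family of representatives of the double cosets (abstract setting of helper3's
`GL/CoindFun.lean`, helper5's `GL/BrauerExistSemiLocal.lean`).

`G` a finite group, `φ i : D i →* G` injective (`i ∈ I` finite), `Ω i` a `D i`-module, `H ≤ G`.
Instead of the chosen representatives `rep φ H j = Quotient.out` of the double cosets
`φ i (D i) \ G / H` we allow any family `pt i : Jf i → G` of base points which is a system of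
representatives (`IsRepFamily`): every `g` is `φ i d * pt i c * h`, and `c` is determined by the
double coset.  (Application: `Jf q = PlacesOver q K`, `pt q w = (PlacesOver.rep w)|_E`, so that the
localisations are taken at helper14's representatives `FinPlace.rep`.)

* `semiLocalOf` : `Hⁿ(H, ∏ i, coindFun (φ i)) → ∏_{(i,c)} Hⁿ(stab_{i, pt i c}, Ω i)` is bijective;
* `exists_global_classOf` : helper5's `exists_global_class` at the representatives `pt`.
-/
import Mathlib
import Fermat.Agent.S55.GL.CoindFun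
import Fermat.Agent.S55.GL.BrauerExistAbs

set_option autoImplicit false
set_option linter.style.haveILetI false
set_option linter.unusedSectionVars false

open CategoryTheory groupCohomology

namespace Fermat.Agent.S55.GL.BrauerExistRep

open Fermat.Agent.S55.GL.CoindFun Fermat.Agent.S55.GC.SemiLocal
  Fermat.Agent.S55.GL.BrauerExistAbs

variable {G : Type} [Group G] {I : Type} {D : I → Type} {Ω : I → Type}
  [∀ i, Group (D i)] [∀ i, CommGroup (Ω i)] [∀ i, MulDistribMulAction (D i) (Ω i)]
  (φ : ∀ i, D i →* G) (hφ : ∀ i, Function.Injective (φ i)) (H : Subgroup G)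
  {Jf : I → Type} (pt : ∀ i, Jf i → G)

/-- `pt i : Jf i → G` is a system of representatives of the double cosets `φ i (D i) \ G / H`. -/
structure IsRepFamily : Prop where
  cover : ∀ (i : I) (g : G), ∃ (c : Jf i) (d : D i) (h : H), g = φ i d * pt i c * (h : G)
  disjoint : ∀ (i : I) (c c' : Jf i) (h : H) (d : D i),
    pt i c' * (h : G) = φ i d * pt i c → c' = c

/-- The index set: pairs `(i, c)`. -/
abbrev IdxOf (Jf : I → Type) : Type := Σ i : I, Jf i

/-- The localisation map at the "place" `j = (i, c)` (base point `pt i c`). -/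
noncomputable abbrev locAtOf (j : IdxOf Jf) (n : ℕ) :
    groupCohomology (Rep.res H.subtype (prodRep (Ω := Ω) φ)) n ⟶
      groupCohomology (repB (Ω := Ω) φ hφ H j.1 (pt j.1 j.2)) n :=
  loc (evalHom (Ω := Ω) φ hφ H j.1 (pt j.1 j.2)) n

variable {φ H pt}

/-- **Semi-local decomposition at an arbitrary system of representatives.** -/
theorem semiLocalOf [Finite G] [Finite I] [∀ i, Finite (Jf i)] (hpt : IsRepFamily φ H pt)
    (n : ℕ) :
    Function.Bijective (fun (x : groupCohomology (Rep.res H.subtype (prodRep (Ω := Ω) φ)) n)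
      (j : IdxOf Jf) => (locAtOf φ hφ H pt j n).hom x) := by
  haveI : Finite (IdxOf Jf) := inferInstanceAs (Finite (Σ i : I, Jf i))
  refine semiLocal_bijective
    (fun j : IdxOf Jf => evalHom (Ω := Ω) φ hφ H j.1 (pt j.1 j.2)) ?_ ?_ n
  · -- separation
    intro a ha
    have key : ∀ (i : I) (g : G), (Additive.toMul a i).1 g = 1 := by
      intro i g
      obtain ⟨c, d, h, hg⟩ := hpt.cover i g
      have h1 := ha ⟨i, c⟩ h
      have h2 : (Additive.toMul a i).1 (pt i c * (h : G)) = 1 := h1
      rw [hg, mul_assoc, (Additive.toMul a i).2, h2, smul_one]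
    have h1 : Additive.toMul (show Additive (ProdCoind (Ω := Ω) φ) from a) = 1 := by
      funext i
      exact Subtype.ext (funext fun g => key i g)
    exact congrArg Additive.ofMul h1
  · -- single components
    rintro ⟨i, x⟩ b
    refine ⟨Additive.ofMul (singleAt φ hφ i (pt i x) (Additive.toMul b)), ?_, ?_, ?_⟩
    · show Additive.ofMul ((singleAt φ hφ i (pt i x) (Additive.toMul b) i).1 (pt i x)) = b
      rw [singleAt_same, single_apply_self]
      rfl
    · intro h hh
      show Additive.ofMul ((singleAt φ hφ i (pt i x) (Additive.toMul b) i).1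
        (pt i x * (h : G))) = 0
      rw [singleAt_same, single_apply_of_not_exists]
      · rfl
      · rintro ⟨d, hd⟩
        exact hh (mem_stab_iff_exists.mpr ⟨d, hd⟩)
    · rintro ⟨i', y⟩ hne h
      show Additive.ofMul ((singleAt φ hφ i (pt i x) (Additive.toMul b) i').1
        (pt i' y * (h : G))) = 0
      by_cases hi : i = i'
      · subst hi
        rw [singleAt_same, single_apply_of_not_exists]
        · rfl
        · rintro ⟨d, hd⟩
          apply hne
          rw [hpt.disjoint i x y h d hd]
      · rw [singleAt_ne φ hφ i _ _ hi]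
        rfl

variable [Finite G] [Finite I] [∀ i, Finite (Jf i)]

instance finite_idxOf : Finite (IdxOf Jf) := inferInstanceAs (Finite (Σ i : I, Jf i))

variable {T : Type*} [AddCommGroup T]
  (invLoc : ∀ j : IdxOf Jf, groupCohomology (repB (Ω := Ω) φ hφ H j.1 (pt j.1 j.2)) 2 →+ T)

/-- The sum of the local invariants, on `H²(H, J)`. -/
noncomputable def sumInvOf :
    groupCohomology (Rep.res H.subtype (prodRep (Ω := Ω) φ)) 2 →+ T :=
  letI : Fintype (IdxOf Jf) := Fintype.ofFinite _
  ∑ j : IdxOf Jf, (invLoc j).comp (locAtOf φ hφ H pt j 2).hom.toAddMonoidHom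

theorem sumInvOf_apply [Fintype (IdxOf Jf)]
    (y : groupCohomology (Rep.res H.subtype (prodRep (Ω := Ω) φ)) 2) :
    sumInvOf hφ invLoc y = ∑ j : IdxOf Jf, invLoc j ((locAtOf φ hφ H pt j 2).hom y) := by
  unfold sumInvOf
  rw [AddMonoidHom.finsetSum_apply]
  refine Finset.sum_congr ?_ fun j _ => rfl
  ext j
  simp

/-- A class of `H²(H, J)` with prescribed localisations. -/
theorem exists_locAtOf_eq (hpt : IsRepFamily φ H pt)
    (x : ∀ j : IdxOf Jf, groupCohomology (repB (Ω := Ω) φ hφ H j.1 (pt j.1 j.2)) 2) :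
    ∃ y : groupCohomology (Rep.res H.subtype (prodRep (Ω := Ω) φ)) 2,
      ∀ j, (locAtOf φ hφ H pt j 2).hom y = x j := by
  obtain ⟨y, hy⟩ := (semiLocalOf (Ω := Ω) hφ hpt 2).2 x
  exact ⟨y, fun j => congrFun hy j⟩

variable {E C : Rep ℤ H} (f : E ⟶ Rep.res H.subtype (prodRep (Ω := Ω) φ))
  (g : Rep.res H.subtype (prodRep (Ω := Ω) φ) ⟶ C) (w : f ≫ g = 0)
  (hX : (ShortComplex.mk f g w).ShortExact)
  [Finite (groupCohomology C 2)] (hcard : Nat.card (groupCohomology C 2) ∣ Nat.card H)
  (hrec : ∀ x : groupCohomology E 2,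
    sumInvOf hφ invLoc (groupCohomology.map (MonoidHom.id H) f 2 x) = 0)
  (j₀ : IdxOf Jf) (y₀ : groupCohomology (repB (Ω := Ω) φ hφ H j₀.1 (pt j₀.1 j₀.2)) 2)
  (hy₀ : ∀ m : ℕ, m • invLoc j₀ y₀ = 0 → Nat.card H ∣ m)

include hX hcard hrec hy₀ in
/-- **(EX), semi-local form, at an arbitrary system of representatives**: a family of local
classes whose invariants sum to zero is the family of localisations of a global class. -/
theorem exists_global_classOf (hpt : IsRepFamily φ H pt)
    (x : ∀ j : IdxOf Jf, groupCohomology (repB (Ω := Ω) φ hφ H j.1 (pt j.1 j.2)) 2)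
    (hx : (letI : Fintype (IdxOf Jf) := Fintype.ofFinite _;
      ∑ j : IdxOf Jf, invLoc j (x j)) = 0) :
    ∃ β : groupCohomology E 2, ∀ j : IdxOf Jf,
      (locAtOf φ hφ H pt j 2).hom (groupCohomology.map (MonoidHom.id H) f 2 β) = x j := by
  classical
  letI : Fintype (IdxOf Jf) := Fintype.ofFinite _
  -- the global class `Y₀` supported at `j₀`
  obtain ⟨Y₀, hY₀⟩ := exists_locAtOf_eq hφ hpt (Pi.single j₀ y₀)
  have hsY₀ : sumInvOf hφ invLoc Y₀ = invLoc j₀ y₀ := by
    rw [sumInvOf_apply]
    rw [Finset.sum_eq_single j₀]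
    · rw [hY₀, Pi.single_eq_same]
    · intro j _ hj
      rw [hY₀, Pi.single_eq_of_ne hj, map_zero]
    · intro h; exact absurd (Finset.mem_univ _) h
  obtain ⟨y, hy⟩ := exists_locAtOf_eq hφ hpt x
  have hsy : sumInvOf hφ invLoc y = 0 := by
    rw [sumInvOf_apply]
    rw [← hx]
    exact Finset.sum_congr rfl fun j _ => by rw [hy]
  obtain ⟨β, hβ⟩ := exists_map_f_eq_of_sum_eq_zero (X := ShortComplex.mk f g w) hX hcard
    (sumInvOf hφ invLoc) hrec Y₀ (by rw [hsY₀]; exact hy₀) y hsy
  exact ⟨β, fun j => by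
    have : groupCohomology.map (MonoidHom.id H) f 2 β = y := hβ
    rw [this, hy]⟩

end Fermat.Agent.S55.GL.BrauerExistRep
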