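/-
S55 / GLO8 = CF1 (helper7), part 2: how the cyclic prime-degree layers are supplied, and the
abstract Hasse principle.

* `layer_of_hIdx` : for a finite cyclic group `Q = ⟨g⟩` and `B : Rep k Q`, the two index statements
  `[ker N : im (σ - 1)] = 1` and `[ker (σ - 1) : im N] ∣ p` of the Herbrand calculus
  (`S14/Herbrand*`, helper29; output shape of `GL/FirstIneqAbstract.classGroup_H1_trivial_of_le`)
  give `H¹(Q, B) = 0` and `|H²(Q, B)| ∣ p` (through helper14's `GC/HerbrandBridge`).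
* `layerHyp_of_iso` : `LayerHyp p A` from, for each layer `(H, N)`, an isomorphic pair `(Q, B)`
  (`e : H ⧸ N ≃* Q`, `e₁ : A^N ≃ₗ B` equivariant) satisfying `H¹ = 0`, `|H²| ∣ p`.
* `mono_map_of_isZero`, `injective_map_of_isZero` : for `0 → X₁ → X₂ → X₃ → 0` short exact in
  `Rep k G` with `Hⁱ(G, X₃) = 0`, the map `Hⁱ⁺¹(G, X₁) → Hⁱ⁺¹(G, X₂)` is injective
  (abstract **Hasse principle**: `X = (Lˣ → J_L → C_L)`, `i = 1`).
* `eq_zero_of_pPrimary_of_map_eq_zero` : the `p`-primary version (only `Hⁱ(G, X₃)(p) = 0` needed).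
-/
import Mathlib
import Fermat.Agent.S55.GL.CFDevissage
import Fermat.Agent.S55.GC.HerbrandBridge

set_option autoImplicit false

universe u

open CategoryTheory groupCohomology Rep Fermat.Agent.S14.Herbrand
  Fermat.Agent.S55.GC.HerbrandBridge

namespace Fermat.Agent.S55.GL.CF1

variable {k : Type u} [CommRing k]

section CyclicLayer

/-- A finite cyclic group `Q = ⟨g⟩`, `B : Rep k Q`, `σ = B.ρ g`, `n = |Q|`:
`|H¹(Q, B)| = [ker N : im (σ - 1)]` and `|H²(Q, B)| = [ker (σ - 1) : im N]`. -/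
theorem card_H1_H2_eq_hIdx {Q : Type u} [Group Q] [Fintype Q] (B : Rep.{u} k Q) (g : Q)
    (hg : ∀ x, x ∈ Subgroup.zpowers g) :
    Nat.card (groupCohomology B 1) =
        hIdx (nrm (sigma B g) (Fintype.card Q)) (dlt (sigma B g)) ∧
      Nat.card (groupCohomology B 2) =
        hIdx (dlt (sigma B g)) (nrm (sigma B g) (Fintype.card Q)) := by
  have : IsCyclic Q := ⟨⟨g, hg⟩⟩
  let _ : CommGroup Q := IsCyclic.commGroup
  exact ⟨card_groupCohomology_odd_eq_hIdx B g hg 1 (by decide),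
    card_groupCohomology_even_eq_hIdx B g hg 2 (by decide)⟩

/-- The cyclic layer from the Herbrand calculus: `[ker N : im (σ - 1)] = 1` and
`[ker (σ - 1) : im N] ∣ p` give `H¹ = 0` and `|H²| ∣ p`. -/
theorem layer_of_hIdx {Q : Type u} [Group Q] [Fintype Q] (B : Rep.{u} k Q) (g : Q)
    (hg : ∀ x, x ∈ Subgroup.zpowers g) {p : ℕ}
    (h1 : hIdx (nrm (sigma B g) (Fintype.card Q)) (dlt (sigma B g)) = 1)
    (h2 : hIdx (dlt (sigma B g)) (nrm (sigma B g) (Fintype.card Q)) ∣ p) :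
    Limits.IsZero (groupCohomology B 1) ∧ Nat.card (groupCohomology B 2) ∣ p := by
  obtain ⟨e1, e2⟩ := card_H1_H2_eq_hIdx B g hg
  refine ⟨?_, e2 ▸ h2⟩
  rw [ModuleCat.isZero_iff_subsingleton]
  exact (Nat.card_eq_one_iff_unique.mp (e1.trans h1)).1

end CyclicLayer

section Supply

variable {G : Type u} [Group G]

/-- `LayerHyp p A` from isomorphic pairs: for each `H ≤ G`, `N ◁ H` of index `p`, a group `Q`
with `e : H ⧸ N ≃* Q`, a `Q`-module `B` with an equivariant `e₁ : A^N ≃ₗ B`, such that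
`H¹(Q, B) = 0` and `|H²(Q, B)| ∣ p`. -/
theorem layerHyp_of_iso (p : ℕ) (A : Rep.{u} k G)
    (h : ∀ (H : Subgroup G) (N : Subgroup H) [N.Normal], N.index = p →
      ∃ (Q : Type u) (_ : Group Q) (B : Rep.{u} k Q) (e : H ⧸ N ≃* Q)
        (e₁ : ((res H.subtype A).quotientToInvariants N).V ≃ₗ[k] B.V),
        (∀ q, e₁.toLinearMap ∘ₗ ((res H.subtype A).quotientToInvariants N).ρ q =
          B.ρ (e q) ∘ₗ e₁.toLinearMap) ∧
        Limits.IsZero (groupCohomology B 1) ∧ Nat.card (groupCohomology B 2) ∣ p) :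
    LayerHyp p A := by
  intro H N _ hN
  obtain ⟨Q, _, B, e, e₁, he, h1, h2⟩ := h H N hN
  have i1 := groupCohomology.mapIso e e₁ he 1
  have i2 := (groupCohomology.mapIso e e₁ he 2).toLinearEquiv
  refine ⟨h1.of_iso i1, ?_⟩
  rw [Nat.card_congr i2.toEquiv]
  exact h2

end Supply

section Hasse

variable {G : Type u} [Group G] {X : ShortComplex (Rep.{u} k G)}

/-- **Abstract Hasse principle**: `0 → X₁ → X₂ → X₃ → 0` short exact, `Hⁱ(G, X₃) = 0`
⇒ `Hⁱ⁺¹(G, X₁) → Hⁱ⁺¹(G, X₂)` is a monomorphism. -/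
theorem mono_map_of_isZero (hX : X.ShortExact) (i : ℕ)
    (h : Limits.IsZero (groupCohomology X.X₃ i)) :
    Mono (groupCohomology.map (MonoidHom.id G) X.f (i + 1)) :=
  (mapShortComplex₁_exact hX (rfl : i + 1 = i + 1)).mono_g (h.eq_of_src _ _)

theorem injective_map_of_isZero (hX : X.ShortExact) (i : ℕ)
    (h : Limits.IsZero (groupCohomology X.X₃ i)) :
    Function.Injective (groupCohomology.map (MonoidHom.id G) X.f (i + 1)) :=
  (ModuleCat.mono_iff_injective _).mp (mono_map_of_isZero hX i h)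

/-- `p`-primary Hasse principle: `G` finite, `Hⁱ⁺¹(G, X₃)(p) = 0`; then a `p`-primary class of
`Hⁱ⁺²(G, X₁)` dying in `Hⁱ⁺²(G, X₂)` is zero. -/
theorem eq_zero_of_pPrimary_of_map_eq_zero [Finite G] (hX : X.ShortExact) (p : ℕ)
    [hp : Fact p.Prime] (i : ℕ) (h : pPrimary p (groupCohomology X.X₃ (i + 1)) = ⊥)
    (x : groupCohomology X.X₁ (i + 2)) (hx : x ∈ pPrimary p (groupCohomology X.X₁ (i + 2)))
    (h0 : groupCohomology.map (MonoidHom.id G) X.f (i + 2) x = 0) : x = 0 := by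
  -- `x = δ y`
  have hex := mapShortComplex₁_exact hX (rfl : (i + 1) + 1 = i + 2)
  obtain ⟨y, hy⟩ : ∃ y : groupCohomology X.X₃ (i + 1), δ hX (i + 1) (i + 2) rfl y = x :=
    ((ShortComplex.ShortExact.moduleCat_exact_iff_function_exact _).mp hex x).mp h0
  obtain ⟨j, hj⟩ := hx
  have hG0 : Nat.card G ≠ 0 := Nat.card_pos.ne'
  obtain ⟨a, m, hm, hGm⟩ := Nat.exists_eq_pow_mul_and_not_dvd hG0 p hp.out.ne_one
  have hcard : Nat.card G • y = 0 := Fermat.Agent.S55.GC.Cores.card_nsmul_eq_zero X.X₃ i y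
  have hmy : m • y = 0 := by
    have hmem : m • y ∈ pPrimary p (groupCohomology X.X₃ (i + 1)) :=
      ⟨a, by rw [← mul_smul, ← hGm, hcard]⟩
    rw [h] at hmem
    exact (AddSubgroup.mem_bot).mp hmem
  have hmx : m • x = 0 := by
    rw [← hy, ← map_nsmul, hmy, map_zero]
  have hcop : Nat.Coprime (p ^ j) m :=
    Nat.Coprime.pow_left j ((Nat.Prime.coprime_iff_not_dvd hp.out).mpr hm)
  exact Fermat.Agent.S55.GC.Cores.eq_zero_of_coprime_nsmul hcop hj hmx

/-- **CF1, `p`-part**: `G` finite, `LayerHyp p A` ⇒ `H¹(G, A)(p) = 0`, `H²(G, A)(p)` finite of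
order dividing the `p`-part of `|G|`. -/
theorem cf1_pPrimary [Finite G] (p : ℕ) [hp : Fact p.Prime] (A : Rep.{u} k G)
    (hA : LayerHyp p A) :
    pPrimary p (groupCohomology A 1) = ⊥ ∧ Finite (pPrimary p (groupCohomology A 2)) ∧
      Nat.card (pPrimary p (groupCohomology A 2)) ∣ p ^ (Nat.card G).factorization p :=
  ⟨pPrimary_H1_eq_bot_of_sylow p A (hA.cycLayers hp.out.ne_zero),
    pPrimary_H2_card_dvd_of_sylow p A (hA.cycLayers hp.out.ne_zero)⟩

/-- **Hasse principle, `p`-part**: `0 → X₁ → X₂ → X₃ → 0` short exact in `Rep k G`, `G` finite,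
`X₃` satisfying the cyclic layer hypothesis at `p` (e.g. `X₃ = C_L`): a `p`-primary class of
`H²(G, X₁)` which dies in `H²(G, X₂)` is zero. -/
theorem hasse_pPrimary [Finite G] (hX : X.ShortExact) (p : ℕ) [hp : Fact p.Prime]
    (hC : LayerHyp p X.X₃) (x : groupCohomology X.X₁ 2)
    (hx : x ∈ pPrimary p (groupCohomology X.X₁ 2))
    (h0 : groupCohomology.map (MonoidHom.id G) X.f 2 x = 0) : x = 0 :=
  eq_zero_of_pPrimary_of_map_eq_zero hX p 0 (cf1_pPrimary p X.X₃ hC).1 x hx h0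

/-- **Hasse principle**, all primes. -/
theorem hasse [Finite G] (hX : X.ShortExact) (hC : ∀ p : ℕ, p.Prime → LayerHyp p X.X₃) :
    Function.Injective (groupCohomology.map (MonoidHom.id G) X.f 2) :=
  injective_map_of_isZero hX 1 (devissage_sub X.X₃ hC).1

end Hasse

end Fermat.Agent.S55.GL.CF1
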