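import Fermat.Agent.S14.HerbrandInduced

set_option autoImplicit false

/-!
# S55 / GLO6 (abstract core): the Herbrand quotient of the idele class group

`0 → E → J → C → 0` an exact sequence of modules over a cyclic group `⟨σ⟩` of order dividing `n`
(`E` = `T`-units, `J` = `T`-ideles, `C` = the idele class group in the finite-product model).
Everything is in the cast-free index calculus of `S14/Herbrand*.lean`:
`h⁰(M) := hIdx (dlt σ) (nrm σ n) = [M^σ : N M]`, `h¹(M) := hIdx (nrm σ n) (dlt σ) = [ker N : (σ-1)M]`.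

* `classGroup_herbrand`: from `h⁰(J) = a ≠ 0`, `h¹(J) = 1` (semi-local + local class field
  theory + Hilbert 90) and `h¹(E) · a = n · h⁰(E)` with `h⁰(E) ≠ 0` (Herbrand quotient of the
  `T`-units) get `h⁰(C) = n · h¹(C)` and both are nonzero (= finite).
* `classGroup_first_inequality`: hence `n ∣ h⁰(C)`, `n ≤ h⁰(C) = [C^σ : N C]`.
* `classGroup_of_H1_trivial`: if moreover `h¹(C) = 1` then `h⁰(C) = n`.
* `hIdx_pi_pi`: `h(∏_v J_v) = ∏_v h(J_v)` for `σ = piEnd σ_v` in `dlt`/`nrm` form.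
-/

namespace Fermat.Agent.S55.GL.FirstIneq

open Fermat.Agent.S14.Herbrand Function

section Intertwine

variable {M N : Type*} [AddCommGroup M] [AddCommGroup N]

lemma dlt_hom (φ : M →+ N) {a : AddMonoid.End M} {b : AddMonoid.End N}
    (hab : ∀ x, b (φ x) = φ (a x)) (x : M) : dlt b (φ x) = φ (dlt a x) := by
  rw [dlt_apply, dlt_apply, map_sub, hab]

lemma nrm_hom (φ : M →+ N) {a : AddMonoid.End M} {b : AddMonoid.End N}
    (hab : ∀ x, b (φ x) = φ (a x)) (n : ℕ) (x : M) : nrm b n (φ x) = φ (nrm a n x) := by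
  rw [nrm_apply, nrm_apply, map_sum]
  exact Finset.sum_congr rfl fun r _ => pow_intertwine φ hab r x

end Intertwine

section Abstract

variable {E J C : Type*} [AddCommGroup E] [AddCommGroup J] [AddCommGroup C]
  {σE : AddMonoid.End E} {σJ : AddMonoid.End J} {σC : AddMonoid.End C} {n a : ℕ}

/-- **Herbrand quotient of the class group** (abstract form of `h(C_L) = n`). -/
theorem classGroup_herbrand (ι : E →+ J) (π : J →+ C) (hι : Injective ι) (hπ : Surjective π)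
    (hex : ι.range = π.ker)
    (hισ : ∀ x, σJ (ι x) = ι (σE x)) (hπσ : ∀ x, σC (π x) = π (σJ x))
    (hσJ : σJ ^ n = 1) (hn : n ≠ 0)
    (hJ0 : hIdx (dlt σJ) (nrm σJ n) = a) (hJ1 : hIdx (nrm σJ n) (dlt σJ) = 1) (ha : a ≠ 0)
    (hE : hIdx (nrm σE n) (dlt σE) * a = n * hIdx (dlt σE) (nrm σE n))
    (hE0 : hIdx (dlt σE) (nrm σE n) ≠ 0) :
    hIdx (dlt σC) (nrm σC n) = n * hIdx (nrm σC n) (dlt σC) ∧
      hIdx (dlt σC) (nrm σC n) ≠ 0 ∧ hIdx (nrm σC n) (dlt σC) ≠ 0 := by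
  have hdι := dlt_hom ι hισ
  have hnι := nrm_hom ι hισ n
  have hdπ := dlt_hom π hπσ
  have hnπ := nrm_hom π hπσ n
  have hdn := dlt_nrm hσJ
  have hnd := nrm_dlt hσJ
  have hE1 : hIdx (nrm σE n) (dlt σE) ≠ 0 := by
    intro h0
    rw [h0, zero_mul] at hE
    exact (Nat.mul_ne_zero hn hE0) hE.symm
  have hJ0' : hIdx (dlt σJ) (nrm σJ n) ≠ 0 := hJ0 ▸ ha
  have hJ1' : hIdx (nrm σJ n) (dlt σJ) ≠ 0 := by rw [hJ1]; exact one_ne_zero
  have key := herbrand_exact (f' := dlt σE) (g' := nrm σE n) (f := dlt σJ) (g := nrm σJ n)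
    (f'' := dlt σC) (g'' := nrm σC n) ι π hι hπ hex hdι hnι
    (fun x => (hdπ x)) (fun x => (hnπ x)) hdn hnd
  have hC0 : hIdx (dlt σC) (nrm σC n) ≠ 0 :=
    hIdx_quot_ne_zero_of_exact (f' := dlt σE) (g' := nrm σE n) (f := dlt σJ) (g := nrm σJ n)
      (f'' := dlt σC) (g'' := nrm σC n) ι π hι hπ hex hdι hnι hdπ hnπ hdn hnd hJ0' hJ1' hE0 hE1
  have hC1 : hIdx (nrm σC n) (dlt σC) ≠ 0 :=
    hIdx_quot_ne_zero_of_exact (f' := nrm σE n) (g' := dlt σE) (f := nrm σJ n) (g := dlt σJ)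
      (f'' := nrm σC n) (g'' := dlt σC) ι π hι hπ hex hnι hdι hnπ hdπ hnd hdn hJ1' hJ0' hE1 hE0
  refine ⟨?_, hC0, hC1⟩
  rw [hJ0, hJ1, one_mul] at key
  -- key : a * h¹(E) * h¹(C) = h⁰(E) * h⁰(C)
  have h2 : hIdx (dlt σE) (nrm σE n) * hIdx (dlt σC) (nrm σC n) =
      hIdx (dlt σE) (nrm σE n) * (n * hIdx (nrm σC n) (dlt σC)) := by
    rw [← key, mul_comm a, hE]
    ring
  exact Nat.eq_of_mul_eq_mul_left (Nat.pos_of_ne_zero hE0) h2

/-- **First inequality**, abstract idele-class form: `n ∣ [C^σ : N C]`, which is finite. -/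
theorem classGroup_first_inequality (ι : E →+ J) (π : J →+ C) (hι : Injective ι)
    (hπ : Surjective π) (hex : ι.range = π.ker)
    (hισ : ∀ x, σJ (ι x) = ι (σE x)) (hπσ : ∀ x, σC (π x) = π (σJ x))
    (hσJ : σJ ^ n = 1) (hn : n ≠ 0)
    (hJ0 : hIdx (dlt σJ) (nrm σJ n) = a) (hJ1 : hIdx (nrm σJ n) (dlt σJ) = 1) (ha : a ≠ 0)
    (hE : hIdx (nrm σE n) (dlt σE) * a = n * hIdx (dlt σE) (nrm σE n))
    (hE0 : hIdx (dlt σE) (nrm σE n) ≠ 0) :
    n ∣ hIdx (dlt σC) (nrm σC n) ∧ n ≤ hIdx (dlt σC) (nrm σC n) := by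
  obtain ⟨h1, h2, -⟩ := classGroup_herbrand ι π hι hπ hex hισ hπσ hσJ hn hJ0 hJ1 ha hE hE0
  have hd : n ∣ hIdx (dlt σC) (nrm σC n) := ⟨_, h1⟩
  exact ⟨hd, Nat.le_of_dvd (Nat.pos_of_ne_zero h2) hd⟩

/-- If moreover `H¹(C) = 0` (second inequality), then `[C^σ : N C] = n` exactly. -/
theorem classGroup_of_H1_trivial (ι : E →+ J) (π : J →+ C) (hι : Injective ι)
    (hπ : Surjective π) (hex : ι.range = π.ker)
    (hισ : ∀ x, σJ (ι x) = ι (σE x)) (hπσ : ∀ x, σC (π x) = π (σJ x))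
    (hσJ : σJ ^ n = 1) (hn : n ≠ 0)
    (hJ0 : hIdx (dlt σJ) (nrm σJ n) = a) (hJ1 : hIdx (nrm σJ n) (dlt σJ) = 1) (ha : a ≠ 0)
    (hE : hIdx (nrm σE n) (dlt σE) * a = n * hIdx (dlt σE) (nrm σE n))
    (hE0 : hIdx (dlt σE) (nrm σE n) ≠ 0) (hC1 : hIdx (nrm σC n) (dlt σC) = 1) :
    hIdx (dlt σC) (nrm σC n) = n := by
  obtain ⟨h1, -, -⟩ := classGroup_herbrand ι π hι hπ hex hισ hπσ hσJ hn hJ0 hJ1 ha hE hE0
  rw [h1, hC1, mul_one]

/-- Conversely the second inequality `[C^σ : N C] ≤ n` forces `H¹(C) = 0` (in index form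
`[ker N : (σ-1)C] = 1`). -/
theorem classGroup_H1_trivial_of_le (ι : E →+ J) (π : J →+ C) (hι : Injective ι)
    (hπ : Surjective π) (hex : ι.range = π.ker)
    (hισ : ∀ x, σJ (ι x) = ι (σE x)) (hπσ : ∀ x, σC (π x) = π (σJ x))
    (hσJ : σJ ^ n = 1) (hn : n ≠ 0)
    (hJ0 : hIdx (dlt σJ) (nrm σJ n) = a) (hJ1 : hIdx (nrm σJ n) (dlt σJ) = 1) (ha : a ≠ 0)
    (hE : hIdx (nrm σE n) (dlt σE) * a = n * hIdx (dlt σE) (nrm σE n))
    (hE0 : hIdx (dlt σE) (nrm σE n) ≠ 0) (hle : hIdx (dlt σC) (nrm σC n) ≤ n) :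
    hIdx (nrm σC n) (dlt σC) = 1 ∧ hIdx (dlt σC) (nrm σC n) = n := by
  obtain ⟨h1, -, h3⟩ := classGroup_herbrand ι π hι hπ hex hισ hπσ hσJ hn hJ0 hJ1 ha hE hE0
  have h4 : hIdx (nrm σC n) (dlt σC) = 1 := by
    rcases Nat.lt_or_ge 1 (hIdx (nrm σC n) (dlt σC)) with h | h
    · exfalso
      have : n * 2 ≤ n * hIdx (nrm σC n) (dlt σC) := Nat.mul_le_mul_left n h
      have hn' : 0 < n := Nat.pos_of_ne_zero hn
      omega
    · have := Nat.pos_of_ne_zero h3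
      omega
  exact ⟨h4, by rw [h1, h4, mul_one]⟩

end Abstract

section PiCalculus

variable {V : Type*} [Fintype V] {N : V → Type*} [∀ v, AddCommGroup (N v)]

omit [Fintype V] in
lemma piEnd_pow_apply (σ : ∀ v, AddMonoid.End (N v)) (r : ℕ) (m : ∀ v, N v) (v : V) :
    (((show AddMonoid.End (∀ v, N v) from piEnd σ) ^ r) m) v = ((σ v) ^ r) (m v) := by
  induction r generalizing m with
  | zero => rfl
  | succ r ih =>
    rw [pow_succ, pow_succ]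
    show ((((show AddMonoid.End (∀ v, N v) from piEnd σ) ^ r)) (piEnd σ m)) v = _
    rw [ih]
    rfl

omit [Fintype V] in
lemma piEnd_pow (σ : ∀ v, AddMonoid.End (N v)) (r : ℕ) :
    ((show AddMonoid.End (∀ v, N v) from piEnd σ) ^ r) =
      (show AddMonoid.End (∀ v, N v) from piEnd fun v => ((σ v) ^ r : AddMonoid.End (N v))) := by
  ext m v
  exact piEnd_pow_apply σ r m v

omit [Fintype V] in
lemma dlt_piEnd (σ : ∀ v, AddMonoid.End (N v)) :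
    dlt (show AddMonoid.End (∀ v, N v) from piEnd σ) = piEnd fun v => dlt (σ v) := by
  ext m v
  rfl

lemma nrm_piEnd (σ : ∀ v, AddMonoid.End (N v)) (n : ℕ) :
    nrm (show AddMonoid.End (∀ v, N v) from piEnd σ) n = piEnd fun v => nrm (σ v) n := by
  ext m v
  rw [nrm_apply, piEnd_apply, nrm_apply, Finset.sum_apply]
  exact Finset.sum_congr rfl fun r _ => piEnd_pow_apply σ r m v

/-- `h(∏_v J_v) = ∏_v h(J_v)` in `dlt`/`nrm` form. -/
theorem hIdx_pi_pi (σ : ∀ v, AddMonoid.End (N v)) (n : ℕ) :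
    hIdx (dlt (show AddMonoid.End (∀ v, N v) from piEnd σ))
        (nrm (show AddMonoid.End (∀ v, N v) from piEnd σ) n) =
        ∏ v, hIdx (dlt (σ v)) (nrm (σ v) n) ∧
      hIdx (nrm (show AddMonoid.End (∀ v, N v) from piEnd σ) n)
        (dlt (show AddMonoid.End (∀ v, N v) from piEnd σ)) =
        ∏ v, hIdx (nrm (σ v) n) (dlt (σ v)) := by
  rw [dlt_piEnd, nrm_piEnd]
  exact ⟨hIdx_pi _ _, hIdx_pi _ _⟩

end PiCalculus

section Ideles

variable {V : Type*} [Fintype V] {X : V → Type*} [∀ v, Fintype (X v)] [∀ v, DecidableEq (X v)]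
  {A : ∀ v, X v → Type*} [∀ v w, AddCommGroup (A v w)]

/-- **Herbrand indices of the `T`-ideles** `J = ∏_{v ∈ T} ∏_{w ∣ v} A_w` for a cyclic group `⟨σ⟩` of
order dividing `n`: for each `v`, `σ` permutes the `g_v` places above `v` transitively
(`n = g_v k_v`) and `σ^{g_v}` acts on the component at the chosen place `w₀ v` through `τ_v`
(a generator of the decomposition group, of order dividing `k_v`).  Then
`h⁰(J) = ∏_v h⁰(A_{w₀ v})` and `h¹(J) = ∏_v h¹(A_{w₀ v})`. -/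
theorem hIdx_ideles (σ : ∀ v, AddMonoid.End (∀ w, A v w)) (s : ∀ v, Equiv.Perm (X v))
    (w₀ : ∀ v, X v) (g k : V → ℕ) (n : ℕ) (hgk : ∀ v, g v * k v = n)
    (hg : ∀ v, 0 < g v) (hk : ∀ v, 0 < k v) (hσ : ∀ v, σ v ^ n = 1)
    (hσs : ∀ v w, σ v * projAt w = projAt (s v w) * σ v)
    (hcyc : ∀ v w, ∃ i < g v, ((s v) ^ i) (w₀ v) = w)
    (hinj : ∀ v, ∀ i < g v, ∀ j < g v, ((s v) ^ i) (w₀ v) = ((s v) ^ j) (w₀ v) → i = j)
    (hsg : ∀ v, ((s v) ^ g v) (w₀ v) = w₀ v)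
    (τ : ∀ v, AddMonoid.End (A v (w₀ v)))
    (hτ : ∀ v (a : A v (w₀ v)), (σ v ^ g v) (Pi.single (w₀ v) a) = Pi.single (w₀ v) (τ v a)) :
    hIdx (dlt (show AddMonoid.End (∀ v, ∀ w, A v w) from piEnd σ))
        (nrm (show AddMonoid.End (∀ v, ∀ w, A v w) from piEnd σ) n) =
        ∏ v, hIdx (dlt (τ v)) (nrm (τ v) (k v)) ∧
      hIdx (nrm (show AddMonoid.End (∀ v, ∀ w, A v w) from piEnd σ) n)
        (dlt (show AddMonoid.End (∀ v, ∀ w, A v w) from piEnd σ)) =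
        ∏ v, hIdx (nrm (τ v) (k v)) (dlt (τ v)) := by
  have hv : ∀ v, hIdx (dlt (σ v)) (nrm (σ v) n) = hIdx (dlt (τ v)) (nrm (τ v) (k v)) ∧
      hIdx (nrm (σ v) n) (dlt (σ v)) = hIdx (nrm (τ v) (k v)) (dlt (τ v)) := by
    intro v
    have hσ' : σ v ^ (g v * k v) = 1 := by rw [hgk v]; exact hσ v
    have := hIdx_pi_transitive (σ v) (s v) (w₀ v) (hg v) (hk v) hσ' (hσs v) (hcyc v) (hinj v)
      (hsg v) (τ v) (hτ v)
    rw [hgk v] at this
    exact this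
  obtain ⟨h0, h1⟩ := hIdx_pi_pi σ n
  rw [h0, h1]
  exact ⟨Finset.prod_congr rfl fun v _ => (hv v).1, Finset.prod_congr rfl fun v _ => (hv v).2⟩

/-- **GLO6, abstract idele form.**  `J = ∏_{v ∈ T} ∏_{w ∣ v} A_w` as in `hIdx_ideles`, with the
local inputs `h⁰(A_{w₀ v}) = k_v`, `h¹(A_{w₀ v}) = 1` (local class field theory + Hilbert 90), a
`σ`-stable subgroup `ι : E ↪ J` (the `T`-units) with `h¹(E) · ∏_v k_v = n · h⁰(E) ≠ 0`, and the
quotient `π : J ↠ C` with kernel `E`.  Then `h⁰(C) = n · h¹(C)`, both finite. -/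
theorem classGroup_herbrand_ideles {E C : Type*} [AddCommGroup E] [AddCommGroup C]
    {σE : AddMonoid.End E} {σC : AddMonoid.End C}
    (σ : ∀ v, AddMonoid.End (∀ w, A v w)) (s : ∀ v, Equiv.Perm (X v))
    (w₀ : ∀ v, X v) (g k : V → ℕ) (n : ℕ) (hn : n ≠ 0) (hgk : ∀ v, g v * k v = n)
    (hσ : ∀ v, σ v ^ n = 1)
    (hσs : ∀ v w, σ v * projAt w = projAt (s v w) * σ v)
    (hcyc : ∀ v w, ∃ i < g v, ((s v) ^ i) (w₀ v) = w)
    (hinj : ∀ v, ∀ i < g v, ∀ j < g v, ((s v) ^ i) (w₀ v) = ((s v) ^ j) (w₀ v) → i = j)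
    (hsg : ∀ v, ((s v) ^ g v) (w₀ v) = w₀ v)
    (τ : ∀ v, AddMonoid.End (A v (w₀ v)))
    (hτ : ∀ v (a : A v (w₀ v)), (σ v ^ g v) (Pi.single (w₀ v) a) = Pi.single (w₀ v) (τ v a))
    (hloc0 : ∀ v, hIdx (dlt (τ v)) (nrm (τ v) (k v)) = k v)
    (hloc1 : ∀ v, hIdx (nrm (τ v) (k v)) (dlt (τ v)) = 1)
    (ι : E →+ ∀ v, ∀ w, A v w) (π : (∀ v, ∀ w, A v w) →+ C)
    (hι : Injective ι) (hπ : Surjective π) (hex : ι.range = π.ker)
    (hισ : ∀ x, piEnd σ (ι x) = ι (σE x)) (hπσ : ∀ x, σC (π x) = π (piEnd σ x))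
    (hE : hIdx (nrm σE n) (dlt σE) * ∏ v, k v = n * hIdx (dlt σE) (nrm σE n))
    (hE0 : hIdx (dlt σE) (nrm σE n) ≠ 0) :
    hIdx (dlt σC) (nrm σC n) = n * hIdx (nrm σC n) (dlt σC) ∧
      hIdx (dlt σC) (nrm σC n) ≠ 0 ∧ hIdx (nrm σC n) (dlt σC) ≠ 0 := by
  have hg : ∀ v, 0 < g v := fun v => Nat.pos_of_ne_zero fun h0 => hn (by rw [← hgk v, h0, zero_mul])
  have hk : ∀ v, 0 < k v := fun v => Nat.pos_of_ne_zero fun h0 => hn (by rw [← hgk v, h0, mul_zero])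
  obtain ⟨hJ0, hJ1⟩ := hIdx_ideles σ s w₀ g k n hgk hg hk hσ hσs hcyc hinj hsg τ hτ
  have hJ0' : hIdx (dlt (show AddMonoid.End (∀ v, ∀ w, A v w) from piEnd σ))
      (nrm (show AddMonoid.End (∀ v, ∀ w, A v w) from piEnd σ) n) = ∏ v, k v := by
    rw [hJ0]
    exact Finset.prod_congr rfl fun v _ => hloc0 v
  have hJ1' : hIdx (nrm (show AddMonoid.End (∀ v, ∀ w, A v w) from piEnd σ) n)
      (dlt (show AddMonoid.End (∀ v, ∀ w, A v w) from piEnd σ)) = 1 := by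
    rw [hJ1]
    exact Finset.prod_eq_one fun v _ => hloc1 v
  have hσJ : (show AddMonoid.End (∀ v, ∀ w, A v w) from piEnd σ) ^ n = 1 := by
    rw [piEnd_pow]
    refine AddMonoidHom.ext fun m => funext fun v => ?_
    show ((σ v) ^ n) (m v) = m v
    rw [hσ v]
    rfl
  have ha : (∏ v, k v) ≠ 0 := Finset.prod_ne_zero_iff.mpr fun v _ => (hk v).ne'
  exact classGroup_herbrand (σJ := (show AddMonoid.End (∀ v, ∀ w, A v w) from piEnd σ))
    ι π hι hπ hex hισ hπσ hσJ hn hJ0' hJ1' ha hE hE0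

end Ideles

end Fermat.Agent.S55.GL.FirstIneq
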