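/-
S55 / GLO8 = CF1 (helper7), part 3: the layer sequence and the cyclic layer from Herbrand data.

For a short exact sequence `X = (0 → E → J → C → 0)` in `Rep k G` (idèle classes), a subgroup
`H ≤ G` and `N ◁ H`:
* `layerSC X H N` : the sequence `E^N → J^N → C^N` of `H ⧸ N`-modules
  (`= InvShift.invSC N (res H X)`); its third term IS the layer module
  `(res H.subtype X.X₃).quotientToInvariants N` of `LayerHyp` (`layerSC_X₃`, `rfl`);
* `layerSC_shortExact` : it is short exact when `H¹(N, E) = 0`;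
* `layer_of_shortExact` : `Q = ⟨g⟩` finite cyclic of order `n`, `Y` short exact in `Rep k Q`, with
  Herbrand data `h⁰(J) = a ≠ 0`, `h¹(J) = 1`, `h¹(E) * a = n * h⁰(E)`, `h⁰(E) ≠ 0`
  (first inequality, GLO6) and `h⁰(C) ≤ n` (second inequality, GLO7)
  ⇒ `H¹(Q, C) = 0` and `|H²(Q, C)| ∣ n`   (`h⁰ = [ker (σ-1) : im N]`, `h¹ = [ker N : im (σ-1)]`);
* `layerHyp_of_herbrand` : all this for every layer of prime index `p` ⇒ `LayerHyp p X.X₃`.
* `LayerHyp.of_le`, `pgroup_of_layerHyp` : consumer forms: `LayerHyp p (res G₀ A)` ⇒ for every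
  `p`-subgroup `H ≤ G₀` (a subgroup of `G`): `H¹(H, A) = 0`, `|H²(H, A)| ∣ |H|`.
-/
import Mathlib
import Fermat.Agent.S55.GL.CFLayer
import Fermat.Agent.S55.GL.FirstIneqAbstract
import Fermat.Agent.S55.GC.InvShift

set_option autoImplicit false

universe u

open CategoryTheory groupCohomology Rep Fermat.Agent.S14.Herbrand
  Fermat.Agent.S55.GC.HerbrandBridge Fermat.Agent.S55.GC

namespace Fermat.Agent.S55.GL.CF1

variable {k : Type u} [CommRing k]

section LayerSC

variable {G : Type u} [Group G] (X : ShortComplex (Rep.{u} k G)) (H : Subgroup G)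
  (N : Subgroup H) [N.Normal]

/-- The layer sequence `X₁^N → X₂^N → X₃^N` of `H ⧸ N`-modules. -/
noncomputable def layerSC : ShortComplex (Rep.{u} k (H ⧸ N)) :=
  invSC N (X.map (resFunctor H.subtype))

lemma layerSC_X₃ :
    (layerSC X H N).X₃ = (res H.subtype X.X₃).quotientToInvariants N := rfl

lemma layerSC_X₂ :
    (layerSC X H N).X₂ = (res H.subtype X.X₂).quotientToInvariants N := rfl

lemma layerSC_X₁ :
    (layerSC X H N).X₁ = (res H.subtype X.X₁).quotientToInvariants N := rfl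

variable {X} in
/-- The layer sequence is short exact when `H¹(N, X₁) = 0`. -/
theorem layerSC_shortExact (hX : X.ShortExact)
    (h1 : Limits.IsZero (groupCohomology (res N.subtype (res H.subtype X.X₁)) 1)) :
    (layerSC X H N).ShortExact :=
  invSC_shortExact ((shortExact_res H.subtype).2 hX) h1

end LayerSC

section CyclicLayer

variable {Q : Type u} [Group Q] [Fintype Q] (Y : ShortComplex (Rep.{u} k Q))

omit [Fintype Q] in
lemma sigma_pow_eq_one (A : Rep.{u} k Q) (g : Q) {n : ℕ} (hn : g ^ n = 1) : sigma A g ^ n = 1 := by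
  refine AddMonoidHom.ext fun x => ?_
  have h := sigma_pow_apply A g n x
  rw [hn, map_one] at h
  exact h

/-- **The cyclic layer from Herbrand data**: `Q = ⟨g⟩` finite cyclic of order `n`,
`0 → E → J → C → 0` short exact in `Rep k Q`, `h⁰(J) = a ≠ 0`, `h¹(J) = 1`,
`h¹(E) * a = n * h⁰(E)`, `h⁰(E) ≠ 0`, and `h⁰(C) ≤ n`.  Then `H¹(Q, C) = 0`, `|H²(Q, C)| ∣ n`. -/
theorem layer_of_shortExact (hY : Y.ShortExact) (g : Q) (hg : ∀ x, x ∈ Subgroup.zpowers g) {a : ℕ}
    (hJ0 : hIdx (dlt (sigma Y.X₂ g)) (nrm (sigma Y.X₂ g) (Fintype.card Q)) = a)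
    (hJ1 : hIdx (nrm (sigma Y.X₂ g) (Fintype.card Q)) (dlt (sigma Y.X₂ g)) = 1) (ha : a ≠ 0)
    (hE : hIdx (nrm (sigma Y.X₁ g) (Fintype.card Q)) (dlt (sigma Y.X₁ g)) * a =
      Fintype.card Q * hIdx (dlt (sigma Y.X₁ g)) (nrm (sigma Y.X₁ g) (Fintype.card Q)))
    (hE0 : hIdx (dlt (sigma Y.X₁ g)) (nrm (sigma Y.X₁ g) (Fintype.card Q)) ≠ 0)
    (hle : hIdx (dlt (sigma Y.X₃ g)) (nrm (sigma Y.X₃ g) (Fintype.card Q)) ≤ Fintype.card Q) :
    Limits.IsZero (groupCohomology Y.X₃ 1) ∧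
      Nat.card (groupCohomology Y.X₃ 2) ∣ Fintype.card Q := by
  have hinj : Function.Injective Y.f.hom := (Rep.mono_iff_injective _).1 hY.mono_f
  have hsurj : Function.Surjective Y.g.hom := (Rep.epi_iff_surjective _).1 hY.epi_g
  have hex := (rep_exact_iff Y).1 hY.exact
  have hzero : ∀ x, Y.g.hom (Y.f.hom x) = 0 := fun x => by
    have := congrArg (fun φ : Y.X₁ ⟶ Y.X₃ => φ.hom x) Y.zero
    exact this
  have hgn : g ^ Fintype.card Q = 1 := pow_card_eq_one
  have hn : Fintype.card Q ≠ 0 := Fintype.card_ne_zero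
  obtain ⟨h1, h2⟩ := Fermat.Agent.S55.GL.FirstIneq.classGroup_H1_trivial_of_le
    (σE := sigma Y.X₁ g) (σJ := sigma Y.X₂ g) (σC := sigma Y.X₃ g)
    (Y.f.hom.toLinearMap.toAddMonoidHom) (Y.g.hom.toLinearMap.toAddMonoidHom) hinj hsurj
    (by
      ext x
      constructor
      · rintro ⟨y, rfl⟩
        exact hzero y
      · intro hx
        obtain ⟨y, hy⟩ := hex x hx
        exact ⟨y, hy⟩)
    (fun x => (hom_comm_apply Y.f g x).symm) (fun x => (hom_comm_apply Y.g g x).symm)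
    (sigma_pow_eq_one Y.X₂ g hgn) hn hJ0 hJ1 ha hE hE0 hle
  exact layer_of_hIdx Y.X₃ g hg h1 (dvd_of_eq h2)

end CyclicLayer

section Assemble

variable {G : Type u} [Group G]

/-- **`LayerHyp` from Herbrand data on every layer**: `X = (0 → E → J → C → 0)` short exact in
`Rep k G`; for every `H ≤ G`, `N ◁ H` of index `p`: `H¹(N, E) = 0`, and for a generator `g` of
`H ⧸ N` acting on the layer sequence `E^N → J^N → C^N`: `h⁰(J^N) = a ≠ 0`, `h¹(J^N) = 1`,
`h¹(E^N) * a = p * h⁰(E^N)`, `h⁰(E^N) ≠ 0` (GLO6) and `h⁰(C^N) ≤ p` (GLO7).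
Then `LayerHyp p C`. -/
theorem layerHyp_of_herbrand (X : ShortComplex (Rep.{u} k G)) (hX : X.ShortExact) (p : ℕ)
    (hp : p ≠ 0)
    (h : ∀ (H : Subgroup G) (N : Subgroup H) [N.Normal], N.index = p →
      Limits.IsZero (groupCohomology (res N.subtype (res H.subtype X.X₁)) 1) ∧
      ∃ (g : H ⧸ N) (a : ℕ), (∀ x, x ∈ Subgroup.zpowers g) ∧ a ≠ 0 ∧
        hIdx (dlt (sigma (layerSC X H N).X₂ g)) (nrm (sigma (layerSC X H N).X₂ g) p) = a ∧
        hIdx (nrm (sigma (layerSC X H N).X₂ g) p) (dlt (sigma (layerSC X H N).X₂ g)) = 1 ∧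
        hIdx (nrm (sigma (layerSC X H N).X₁ g) p) (dlt (sigma (layerSC X H N).X₁ g)) * a =
          p * hIdx (dlt (sigma (layerSC X H N).X₁ g)) (nrm (sigma (layerSC X H N).X₁ g) p) ∧
        hIdx (dlt (sigma (layerSC X H N).X₁ g)) (nrm (sigma (layerSC X H N).X₁ g) p) ≠ 0 ∧
        hIdx (dlt (sigma (layerSC X H N).X₃ g)) (nrm (sigma (layerSC X H N).X₃ g) p) ≤ p) :
    LayerHyp p X.X₃ := by
  intro H N _ hN
  obtain ⟨h1, g, a, hg, ha, hJ0, hJ1, hE, hE0, hle⟩ := h H N hN
  clear h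
  have hfin : Finite (H ⧸ N) := by
    apply Nat.finite_of_card_ne_zero
    rw [← Subgroup.index_eq_card, hN]
    exact hp
  let _ : Fintype (H ⧸ N) := Fintype.ofFinite _
  have hcard : Fintype.card (H ⧸ N) = p := by
    rw [← Nat.card_eq_fintype_card, ← Subgroup.index_eq_card, hN]
  subst hcard
  exact layer_of_shortExact (layerSC X H N) (layerSC_shortExact H N hX h1) g hg hJ0 hJ1 ha hE hE0
    hle

end Assemble

section Consumers

variable {G : Type u} [Group G]

/-- `LayerHyp` passes to smaller subgroups (as subgroups of the ambient group). -/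
theorem LayerHyp.of_le {p : ℕ} (hp : p ≠ 0) {A : Rep.{u} k G} {G₀ : Subgroup G}
    (hA : LayerHyp p (res G₀.subtype A)) {H : Subgroup G} (hH : H ≤ G₀) :
    LayerHyp p (res H.subtype A) := by
  have h1 : CycLayers p (res H.subtype A) :=
    (hA.cycLayers hp).res (Subgroup.inclusion hH) (Subgroup.inclusion_injective hH)
  intro H' N _ hN
  obtain ⟨a, -, c⟩ := h1.cycLayersSub H' N hN
  exact ⟨a, c⟩

/-- **CF1 for `p`-subgroups**: if `A` satisfies the cyclic layer hypothesis at `p` over `G₀ ≤ G`,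
then for every `p`-subgroup `H ≤ G₀`: `H¹(H, A) = 0`, `H²(H, A)` is finite of order dividing
`|H|`. -/
theorem pgroup_of_layerHyp [Finite G] (p : ℕ) [hp : Fact p.Prime] {A : Rep.{u} k G}
    {G₀ : Subgroup G} (hA : LayerHyp p (res G₀.subtype A)) {H : Subgroup G} (hH : H ≤ G₀)
    {n : ℕ} (hn : Nat.card H = p ^ n) :
    Limits.IsZero (groupCohomology (res H.subtype A) 1) ∧
      Finite (groupCohomology (res H.subtype A) 2) ∧
      Nat.card (groupCohomology (res H.subtype A) 2) ∣ Nat.card H := by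
  have h1 : CycLayers p (res H.subtype A) :=
    (hA.cycLayers hp.out.ne_zero).res (Subgroup.inclusion hH) (Subgroup.inclusion_injective hH)
  have := pgroup_devissage p n H hn (res H.subtype A) h1
  rw [hn]
  exact this

end Consumers

end Fermat.Agent.S55.GL.CF1
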