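/-
S55 / GLO8 support (helper7): Hilbert 90 for `T`-units, model-independent (pure Dedekind-domain
statements on helper11's `SUnit.TUnit`, `SUnitClass.IsClTrivial`, `SUnitStable.primesAbove` and
helper16's `GalDiv`).

* `finite_valuation_ne_one` : `x ∈ Kˣ` is a unit at almost all primes.
* `exists_isClTrivial_family` : one finite set `T` of primes of the base field with
  `Cl_{T_M}(M) = 0` for all fields `M` of a finite family of extensions (all the layers of a finite
  Galois extension), stable under enlarging `T`.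
* `exists_tunit_coboundary` : **`H¹(Gal(L/K), E_{L,T}) = 0`** for `L/K` Galois, `S` a finite set of
  primes of `K` with `Cl_S(K) = 0`, `T = primesAbove L S`, `L/K` unramified outside `T`: every
  1-cocycle with values in the `T`-units is the coboundary of a `T`-unit (Hilbert 90 + descent of
  invariant divisors).  This is the hypothesis needed for `(C_{L,T})^N = J^N / E^N`
  (layers of the idele class group; helper4's `InvShift.invSC_shortExact`).
* `exists_tunit_coboundary_subgroup` : the same for a subgroup `N ≤ Gal(L/F)` (`K = L^N`), with the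
  unramifiedness hypothesis stated for the big group `Gal(L/F)`.
* `isZero_H1_of_forall_coboundary` : `H¹(G, A) = 0` if every 1-cocycle is a coboundary.
-/
import Mathlib
import Fermat.Agent.S14.GalDivisors
import Fermat.Agent.S55.SUnit
import Fermat.Agent.S55.SUnitGalois
import Fermat.Agent.S55.SUnitClass
import Fermat.Agent.S55.SUnitStable

set_option autoImplicit false

universe u

open CategoryTheory groupCohomology
open NumberField IsDedekindDomain HeightOneSpectrum IntermediateField
open Fermat.Agent.S14.GalDiv Fermat.Agent.S55.SUnit Fermat.Agent.S55.SUnitGalois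
open Fermat.Agent.S55.SUnitClass Fermat.Agent.S55.SUnitStable

namespace Fermat.Agent.S55.GL.TClass

section Finiteness

variable {K : Type*} [Field K] [NumberField K]

/-- Only finitely many primes see a given `x ∈ Kˣ`. -/
theorem finite_valuation_ne_one (x : Kˣ) :
    {v : HeightOneSpectrum (𝓞 K) | v.valuation K (x : K) ≠ 1}.Finite := by
  have h1 := HeightOneSpectrum.Support.finite (𝓞 K) (x : K)
  have h2 := HeightOneSpectrum.Support.finite (𝓞 K) ((x⁻¹ : Kˣ) : K)
  refine (h1.union h2).subset ?_
  intro v hv
  rcases lt_or_gt_of_ne hv with h | h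
  · right
    show 1 < v.valuation K ((x⁻¹ : Kˣ) : K)
    rw [Units.val_inv_eq_inv_val, map_inv₀]
    exact (one_lt_inv₀ (by simp [zero_lt_iff])).mpr h
  · left
    exact h

/-- Family version of `exists_finset_isClTrivial`: one finite set `T₀` of primes of the base
field `K` such that `Cl_{T_M}(M) = 0` for every `T ⊇ T₀` and all fields `M` of a finite family of
extensions of `K` (e.g. all intermediate fields of a finite Galois extension). -/
theorem exists_isClTrivial_family {ι : Type*} [Finite ι] (M : ι → Type*)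
    [∀ i, Field (M i)] [∀ i, NumberField (M i)] [∀ i, Algebra K (M i)]
    [∀ i, DecidableEq (HeightOneSpectrum (𝓞 (M i)))]
    (T₁ : Finset (HeightOneSpectrum (𝓞 K))) :
    ∃ T₀ : Finset (HeightOneSpectrum (𝓞 K)), T₁ ⊆ T₀ ∧
      ∀ T, T₀ ⊆ T → ∀ i, IsClTrivial (primesAbove (M i) T) := by
  classical
  have := Fintype.ofFinite ι
  choose Si hSi using fun i => exists_finset_isClTrivial (M i)
  refine ⟨T₁ ∪ Finset.univ.biUnion (fun i => (Si i).image (underK K)),
    Finset.subset_union_left, fun T hT i => hSi i _ fun u hu => ?_⟩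
  rw [mem_primesAbove]
  apply hT
  rw [Finset.mem_union]
  right
  rw [Finset.mem_biUnion]
  exact ⟨i, Finset.mem_univ _, Finset.mem_image_of_mem _ hu⟩

end Finiteness

section Hilbert90

variable (K : Type*) {L : Type*} [Field K] [Field L] [NumberField K] [NumberField L] [Algebra K L]
  [IsGalois K L]

omit [NumberField K] [NumberField L] [IsGalois K L] in
lemma smul_units_algebraMap (σ : L ≃ₐ[K] L) (y : Kˣ) :
    σ • (Units.map (algebraMap K L : K →* L) y) = Units.map (algebraMap K L : K →* L) y := by
  ext
  rw [AlgEquiv.smul_units_def]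
  exact σ.commutes _

/-- **Hilbert 90 for `T`-units**: `L/K` Galois, `S` a finite set of primes of `K` with
`Cl_S(K) = 0`, `T` the set of primes of `L` above `S`, `L/K` unramified outside `T`.  Then every
1-cocycle of `Gal(L/K)` with values in the `T`-units of `L` is the coboundary of a `T`-unit:
`H¹(Gal(L/K), E_{L,T}) = 0`. -/
theorem exists_tunit_coboundary [DecidableEq (HeightOneSpectrum (𝓞 L))]
    (S : Finset (HeightOneSpectrum (𝓞 K))) (hcl : IsClTrivial S)
    (hunr : ∀ w : HeightOneSpectrum (𝓞 L), w ∉ primesAbove L S →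
      w.asIdeal.inertia (L ≃ₐ[K] L) = ⊥)
    (f : (L ≃ₐ[K] L) → Lˣ) (hf : groupCohomology.IsMulCocycle₁ f)
    (hfT : ∀ σ, f σ ∈ TUnit L (primesAbove L S)) :
    ∃ u : Lˣ, u ∈ TUnit L (primesAbove L S) ∧ ∀ σ : L ≃ₐ[K] L, σ • u / u = f σ := by
  classical
  have : FiniteDimensional K L := Module.Finite.of_restrictScalars_finite ℚ K L
  obtain ⟨x, hx⟩ := groupCohomology.isMulCoboundary₁_of_isMulCocycle₁_of_aut_to_units f hf
  have hstab : ∀ (σ : L ≃ₐ[K] L) (w : HeightOneSpectrum (𝓞 L)),
      σ • w ∈ primesAbove L S ↔ w ∈ primesAbove L S := by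
    intro σ w
    rw [mem_primesAbove, mem_primesAbove, underK_smul]
  -- the valuations of `x` outside `T` are constant on Galois orbits
  have hconst : ∀ (w : HeightOneSpectrum (𝓞 L)), w ∉ primesAbove L S → ∀ σ : L ≃ₐ[K] L,
      (σ • w).valuation L (x : L) = w.valuation L (x : L) := by
    intro w hw σ
    have hσw : σ • w ∉ primesAbove L S := fun h => hw ((hstab σ w).mp h)
    have h1 := mem_TUnit_iff.mp (hfT σ) (σ • w) hσw
    rw [← hx σ, Units.val_div_eq_div_val, map_div₀, AlgEquiv.smul_units_def, Units.coe_map] at h1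
    have h2 := valuation_smul σ w (x : L)
    have hne : (σ • w).valuation L (x : L) ≠ 0 := by simp
    rw [div_eq_one_iff_eq hne] at h1
    rw [← h1]
    exact h2
  -- the divisor of `x` outside `T` descends to `K`
  let a : HeightOneSpectrum (𝓞 K) → ℤ := fun v =>
    ordAt (underK_surjective K (L := L) v).choose (Additive.ofMul x)
  have ha : ∀ w : HeightOneSpectrum (𝓞 L), w ∉ primesAbove L S →
      w.valuation L (x : L) = WithZero.exp (-(a (underK K w))) := by
    intro w hw
    have hspec := (underK_surjective K (L := L) (underK K w)).choose_spec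
    obtain ⟨σ, hσ⟩ := exists_smul_eq_of_underK_eq K hspec.symm
    rw [← valuation_eq_exp_neg_ordAt, ← hσ, hconst w hw σ]
  let d : HeightOneSpectrum (𝓞 K) →₀ ℤ :=
    Finsupp.onFinset ((finite_valuation_ne_one x).toFinset.image (underK K)) a (by
      intro v hv
      refine Finset.mem_image.mpr ⟨(underK_surjective K (L := L) v).choose, ?_,
        (underK_surjective K (L := L) v).choose_spec⟩
      rw [Set.Finite.mem_toFinset]
      show (underK_surjective K (L := L) v).choose.valuation L (x : L) ≠ 1
      intro h1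
      exact hv ((ordAt_eq_zero_iff _ x).mpr h1))
  obtain ⟨y, hy⟩ := hcl.exists_ordAt_eq d
  refine ⟨x / Units.map (algebraMap K L : K →* L) y, ?_, ?_⟩
  · rw [mem_TUnit_iff]
    intro w hw
    have hv₀ : underK K w ∉ S := fun h => hw (mem_primesAbove.mpr h)
    rw [Units.val_div_eq_div_val, map_div₀, Units.coe_map]
    show w.valuation L (x : L) / w.valuation L (algebraMap K L (y : K)) = 1
    rw [valuation_algebraMap_of_inertia_eq_bot w (hunr w hw),
      valuation_eq_exp_neg_ordAt (underK K w) y, hy _ hv₀, ha w hw]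
    exact div_self (by simp)
  · intro σ
    rw [smul_div', smul_units_algebraMap, div_div_div_cancel_right, hx σ]

end Hilbert90

section Generic

/-- `H¹(G, A) = 0` as soon as every 1-cocycle is a 1-coboundary (elementwise form). -/
theorem isZero_H1_of_forall_coboundary {k G : Type u} [CommRing k] [Group G] (A : Rep.{u} k G)
    (h : ∀ f : G → A.V, (∀ g h : G, f (g * h) = A.ρ g (f h) + f g) →
      ∃ a : A.V, ∀ g : G, A.ρ g a - a = f g) :
    Limits.IsZero (groupCohomology A 1) := by
  rw [ModuleCat.isZero_iff_subsingleton]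
  refine ⟨fun x y => ?_⟩
  suffices hz : ∀ z : H1 A, z = 0 by rw [hz x, hz y]
  intro z
  induction z using H1_induction_on with
  | h c =>
    rw [H1π_eq_zero_iff]
    obtain ⟨a, ha⟩ := h c ((mem_cocycles₁_iff c).mp c.2)
    exact ⟨a, funext ha⟩

end Generic

section Subgroup

variable (F : Type*) {L : Type*} [Field F] [Field L] [NumberField F] [NumberField L] [Algebra F L]
  [IsGalois F L]

/-- **Hilbert 90 for `T`-units, subgroup form**: `N ≤ Gal(L/F)`, `K = L^N`, `S` a finite set of
primes of `K` with `Cl_S(K) = 0`, `T` the primes of `L` above `S`, all primes of `L` outside `T`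
unramified over `F`.  Every crossed homomorphism `N → E_{L,T}` is principal. -/
theorem exists_tunit_coboundary_subgroup [DecidableEq (HeightOneSpectrum (𝓞 L))]
    (N : Subgroup (L ≃ₐ[F] L))
    (S : Finset (HeightOneSpectrum (𝓞 (fixedField N)))) (hcl : IsClTrivial S)
    (hunr : ∀ w : HeightOneSpectrum (𝓞 L), w ∉ primesAbove L S →
      w.asIdeal.inertia (L ≃ₐ[F] L) = ⊥)
    (f : N → Lˣ) (hf : ∀ n m : N, f (n * m) = (n : L ≃ₐ[F] L) • f m * f n)
    (hfT : ∀ n, f n ∈ TUnit L (primesAbove L S)) :
    ∃ u : Lˣ, u ∈ TUnit L (primesAbove L S) ∧ ∀ n : N, (n : L ≃ₐ[F] L) • u / u = f n := by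
  have : FiniteDimensional F L := Module.Finite.of_restrictScalars_finite ℚ F L
  let e : N ≃* (L ≃ₐ[fixedField N] L) :=
    (MulEquiv.subgroupCongr (fixingSubgroup_fixedField N).symm).trans
      (fixingSubgroupEquiv (fixedField N))
  have he : ∀ (n : N) (x : L), e n x = (n : L ≃ₐ[F] L) x := fun n x => rfl
  have hesmul : ∀ (n : N) (y : Lˣ), e n • y = (n : L ≃ₐ[F] L) • y := by
    intro n y
    ext
    rw [AlgEquiv.smul_units_def, AlgEquiv.smul_units_def]
    rfl
  -- inertia in the subgroup
  have hunr' : ∀ w : HeightOneSpectrum (𝓞 L), w ∉ primesAbove L S →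
      w.asIdeal.inertia (L ≃ₐ[fixedField N] L) = ⊥ := by
    intro w hw
    rw [eq_bot_iff]
    intro σ hσ
    obtain ⟨n, rfl⟩ := e.surjective σ
    have h1 : (n : L ≃ₐ[F] L) ∈ w.asIdeal.inertia (L ≃ₐ[F] L) := by
      intro x
      exact hσ x
    rw [hunr w hw, Subgroup.mem_bot] at h1
    rw [Subgroup.mem_bot]
    have : n = 1 := Subtype.ext h1
    rw [this, map_one]
  obtain ⟨u, hu, hu'⟩ := exists_tunit_coboundary (fixedField N) S hcl hunr'
    (fun σ => f (e.symm σ)) (by
      intro σ τ
      show f (e.symm (σ * τ)) = σ • f (e.symm τ) * f (e.symm σ)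
      rw [map_mul, hf, ← hesmul, e.apply_symm_apply]) (fun σ => hfT _)
  refine ⟨u, hu, fun n => ?_⟩
  have := hu' (e n)
  rw [e.symm_apply_apply, hesmul] at this
  exact this

end Subgroup

end Fermat.Agent.S55.GL.TClass
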