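import Mathlib
import Fermat.Agent.S55.GL.TClass
import Fermat.Agent.S55.GL.Ideles

set_option autoImplicit false

universe u

open CategoryTheory groupCohomology
open NumberField IsDedekindDomain HeightOneSpectrum IntermediateField
open Fermat.Agent.S14.GalDiv Fermat.Agent.S55.SUnit Fermat.Agent.S55.SUnitGalois
open Fermat.Agent.S55.SUnitClass Fermat.Agent.S55.SUnitStable
open Fermat.Agent.S55.GL.TClass

namespace Fermat.Agent.S55.GL.IdeleLayer

local notation "Qbar" => AlgebraicClosure ℚ

variable (L : IntermediateField ℚ Qbar) [Normal ℚ L] [NumberField L] [IsGalois ℚ L]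
  (T : Finset Nat.Primes)

/-- **`H¹(N, E_{L,T}) = 0`** in helper3's idèle model, for a subgroup `N ≤ Gal(L/ℚ)` with fixed
field `K = L^N`: if `S` is a finite set of primes of `K` with `Cl_S(K) = 0`, such that the
`T`-units of `Ideles` are the `S_L`-units in the Dedekind sense (`hdict`; dictionary PL2) and `L/ℚ`
is unramified at the primes of `L` outside `S_L`. -/
theorem isZero_H1_res_E [DecidableEq (HeightOneSpectrum (𝓞 L))] (N : Subgroup (L ≃ₐ[ℚ] L))
    (S : Finset (HeightOneSpectrum (𝓞 (fixedField N)))) (hcl : IsClTrivial S)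
    (hdict : ∀ x : Lˣ, x ∈ Ideles.tUnits L T ↔ x ∈ TUnit L (primesAbove L S))
    (hunr : ∀ w : HeightOneSpectrum (𝓞 L), w ∉ primesAbove L S →
      w.asIdeal.inertia (L ≃ₐ[ℚ] L) = ⊥) :
    Limits.IsZero (groupCohomology (Rep.res N.subtype (Ideles.E L T)) 1) := by
  apply isZero_H1_of_forall_coboundary
  intro f hf
  obtain ⟨u, hu, hu'⟩ := exists_tunit_coboundary_subgroup ℚ N S hcl hunr
    (fun n => Additive.toMul ((f n).1 : Additive Lˣ)) (by
      intro n m
      have := congrArg (fun z : (Ideles.E L T).V => Additive.toMul (z.1 : Additive Lˣ)) (hf n m)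
      exact this) (fun n => (hdict _).mp (f n).2)
  refine ⟨⟨Additive.ofMul u, (hdict u).mpr hu⟩, fun n => ?_⟩
  apply Subtype.ext
  exact congrArg Additive.ofMul (hu' n)

end Fermat.Agent.S55.GL.IdeleLayer
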