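/-
S55 / GLO8 = CF1 (helper7), part 4: the idèle class group of helper3's model.

`L/ℚ` finite Galois inside `ℚ̄`, `G = Gal(L/ℚ)`, `T` a finite set of rational primes,
`E_{L,T} → J_{L,T} → C_{L,T}` helper3's `Ideles.seq L T`.

* `primesAbove_image_primesOver`, `exists_finset_isClTrivial_image` : bookkeeping between helper11's
  `primesOver L T` (primes over rational primes in `T`) and `primesAbove` (primes over primes of a
  subfield `K ≤ L`), and `Cl_T(K) = 0` for `T` large.
* `exists_finset_isZero_H1_E` : **`∃ T₀ ⊇ T₁, ∀ T ⊇ T₀, ∀ N ≤ G, H¹(N, E_{L,T}) = 0`**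
  (`L/ℚ` unramified outside `T₁`);  `isZero_H1_res_res_E` : the same in the shape
  `res N.subtype (res H.subtype E)` consumed by `CF1.layerSC_shortExact`.
* `hasse_factor` : abstract Hasse principle through a factorisation `X₁ ⟶ U ⟶ X₂`.
* `exists_finset_mem_tUnits`, `incE`, `exists_cocycle_E`, `exists_lift_E` : every class of
  `H²(H, Lˣ)` comes from `H²(H, E_{L,T})` for `T` large.
* `hasse_aux`, **`hasse_units_pPrimary`** : **Hasse principle, `p`-part, finite level**: if
  `C_{L,T}` satisfies `CF1.LayerHyp p` over `H` for all large `T`, a `p`-primary class of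
  `H²(H, Lˣ)` whose localisations (helper3's `IdeleSemiLocal.locHom`, all `T`, `q ∈ T`, `g ∈ G`)
  vanish is zero.
-/
import Mathlib
import Fermat.Agent.S55.GL.IdeleLayer
import Fermat.Agent.S55.GL.PlacesPrimeUnits
import Fermat.Agent.S55.GL.IdeleSemiLocal
import Fermat.Agent.S55.GL.CFLayerSeq
import Fermat.Agent.S55.GC.DimShift

set_option autoImplicit false
set_option linter.unusedSectionVars false

open CategoryTheory groupCohomology
open NumberField IsDedekindDomain HeightOneSpectrum IntermediateField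
open Fermat.Agent.S14.GalDiv Fermat.Agent.S55.SUnit Fermat.Agent.S55.SUnitGalois
open Fermat.Agent.S55.SUnitClass Fermat.Agent.S55.SUnitStable
open Fermat.Agent.S55.GL.PlacesUnits Fermat.Agent.S55.GL.Ideles

namespace Fermat.Agent.S55.GL.CFIdele

local notation "Qbar" => AlgebraicClosure ℚ

section ClassTrivial

open scoped Classical

variable (L : IntermediateField ℚ Qbar) [NumberField L]
  (K : IntermediateField ℚ L)

/-- The primes of `L` above the primes of `K` below the primes of `L` over `T` are the primes of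
`L` over `T`. -/
theorem primesAbove_image_primesOver (T : Finset Nat.Primes) :
    primesAbove L ((primesOver L T).image (underK K)) = primesOver L T := by
  ext w
  rw [mem_primesAbove, Finset.mem_image]
  constructor
  · rintro ⟨w', hw', h⟩
    obtain ⟨q, hq, hqw'⟩ := mem_primesOver.mp hw'
    refine mem_primesOver.mpr ⟨q, hq, ?_⟩
    have h1 : (((q : ℕ) : 𝓞 K)) ∈ (underK K w').asIdeal := by
      rw [underK_asIdeal, Ideal.under_def, Ideal.mem_comap, map_natCast]
      exact hqw'
    rw [h, underK_asIdeal, Ideal.under_def, Ideal.mem_comap, map_natCast] at h1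
    exact h1
  · intro hw
    exact ⟨w, hw, rfl⟩

/-- For `T` large, `Cl` of `K` away from the primes below `T` is trivial. -/
theorem exists_finset_isClTrivial_image :
    ∃ T₀ : Finset Nat.Primes, ∀ T : Finset Nat.Primes, T₀ ⊆ T →
      IsClTrivial ((primesOver L T).image (underK K)) := by
  obtain ⟨S₀, hS₀⟩ := exists_finset_isClTrivial K
  have h1 : ∀ v : HeightOneSpectrum (𝓞 K), ∃ w : HeightOneSpectrum (𝓞 L), underK K w = v :=
    fun v => underK_surjective K (L := L) v
  choose w hw using h1
  have h2 : ∀ v : HeightOneSpectrum (𝓞 K), ∃ q : Nat.Primes, ((q : ℕ) : 𝓞 L) ∈ (w v).asIdeal :=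
    fun v => exists_natCast_mem (w v)
  choose q hq using h2
  refine ⟨S₀.image q, fun T hT => hS₀ _ ?_⟩
  intro v hv
  refine Finset.mem_image.mpr ⟨w v, mem_primesOver.mpr ⟨q v, hT (Finset.mem_image_of_mem q hv), hq v⟩, hw v⟩

end ClassTrivial


section H1E

open scoped Classical

variable (L : IntermediateField ℚ Qbar) [Normal ℚ L] [NumberField L] [IsGalois ℚ L]

/-- **`H¹(N, E_{L,T}) = 0` for all subgroups `N ≤ Gal(L/ℚ)` simultaneously, `T` large**
(`L/ℚ` unramified outside `T₁`). -/
theorem exists_finset_isZero_H1_E (T₁ : Finset Nat.Primes)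
    (hunr : ∀ w : HeightOneSpectrum (𝓞 L), w ∉ primesOver L T₁ →
      w.asIdeal.inertia (L ≃ₐ[ℚ] L) = ⊥) :
    ∃ T₀ : Finset Nat.Primes, T₁ ⊆ T₀ ∧ ∀ T : Finset Nat.Primes, T₀ ⊆ T →
      ∀ N : Subgroup (L ≃ₐ[ℚ] L),
        Limits.IsZero (groupCohomology (Rep.res N.subtype (E L T)) 1) := by
  have h1 : ∀ N : Subgroup (L ≃ₐ[ℚ] L), ∃ T₀ : Finset Nat.Primes, ∀ T : Finset Nat.Primes,
      T₀ ⊆ T → IsClTrivial ((primesOver L T).image (underK (fixedField N))) :=
    fun N => exists_finset_isClTrivial_image L (fixedField N)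
  choose T₀ hT₀ using h1
  have : Fintype (Subgroup (L ≃ₐ[ℚ] L)) := Fintype.ofFinite _
  refine ⟨T₁ ∪ Finset.univ.biUnion T₀, Finset.subset_union_left, fun T hT N => ?_⟩
  have hN : T₀ N ⊆ T := fun q hq =>
    hT (Finset.mem_union_right _ (Finset.mem_biUnion.mpr ⟨N, Finset.mem_univ _, hq⟩))
  have hT₁ : T₁ ⊆ T := fun q hq => hT (Finset.mem_union_left _ hq)
  refine IdeleLayer.isZero_H1_res_E L T N ((primesOver L T).image (underK (fixedField N)))
    (hT₀ N T hN) ?_ ?_
  · intro x
    rw [tUnits_eq_TUnit, primesAbove_image_primesOver]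
  · intro w hw
    rw [primesAbove_image_primesOver] at hw
    exact hunr w (fun h => hw (primesOver_mono L hT₁ h))

/-- The same for a subgroup `N` of a subgroup `H` (the shape of `layerSC_shortExact`). -/
theorem isZero_H1_res_res_E {T : Finset Nat.Primes}
    (h : ∀ N : Subgroup (L ≃ₐ[ℚ] L),
      Limits.IsZero (groupCohomology (Rep.res N.subtype (E L T)) 1))
    (H : Subgroup (L ≃ₐ[ℚ] L)) (N : Subgroup H) :
    Limits.IsZero (groupCohomology (Rep.res N.subtype (Rep.res H.subtype (E L T))) 1) := by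
  have := (Fermat.Agent.S55.GC.isZero_groupCohomology_res_mulEquiv_iff
    (N.equivMapOfInjective H.subtype H.subtype_injective)
    (Rep.res (N.map H.subtype).subtype (E L T)) 1).2 (h (N.map H.subtype))
  exact this

end H1E


section Abstract

universe u

variable {k G : Type u} [CommRing k] [Group G]

/-- Abstract Hasse principle through a factorisation `X₁ ⟶ U ⟶ X₂` of `X.f`: a `p`-primary class
of `H²(G, U)` coming from `H²(G, X₁)` and dying in `H²(G, X₂)` is zero. -/
theorem hasse_factor [Finite G] (X : ShortComplex (Rep.{u} k G)) (hX : X.ShortExact) (p : ℕ)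
    [Fact p.Prime] (hC : CF1.LayerHyp p X.X₃) {U : Rep.{u} k G} (i : X.X₁ ⟶ U) (d : U ⟶ X.X₂)
    (hid : i ≫ d = X.f) (z : groupCohomology X.X₁ 2)
    (hx : (groupCohomology.map (MonoidHom.id G) i 2).hom z ∈
      CF1.pPrimary p (groupCohomology U 2))
    (h0 : (groupCohomology.map (MonoidHom.id G) d 2).hom
      ((groupCohomology.map (MonoidHom.id G) i 2).hom z) = 0) :
    (groupCohomology.map (MonoidHom.id G) i 2).hom z = 0 := by
  have hp : p.Prime := Fact.out
  have hG0 : Nat.card G ≠ 0 := Nat.card_pos.ne'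
  obtain ⟨a, m, hm, hGm⟩ := Nat.exists_eq_pow_mul_and_not_dvd hG0 p hp.ne_one
  have hyp : m • z ∈ CF1.pPrimary p (groupCohomology X.X₁ 2) := by
    refine ⟨a, ?_⟩
    rw [← mul_smul, ← hGm]
    exact Fermat.Agent.S55.GC.Cores.card_nsmul_eq_zero X.X₁ 1 _
  have hcomp : (groupCohomology.map (MonoidHom.id G) X.f 2).hom z =
      (groupCohomology.map (MonoidHom.id G) d 2).hom
        ((groupCohomology.map (MonoidHom.id G) i 2).hom z) := by
    rw [← hid, groupCohomology.map_id_comp]
    rfl
  have hJ : (groupCohomology.map (MonoidHom.id G) X.f 2).hom (m • z) = 0 := by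
    rw [map_nsmul, hcomp, h0, smul_zero]
  have h1 : m • z = 0 := CF1.hasse_pPrimary hX p hC (m • z) hyp hJ
  have hmx : m • (groupCohomology.map (MonoidHom.id G) i 2).hom z = 0 := by
    rw [← map_nsmul, h1, map_zero]
  obtain ⟨j, hj⟩ := hx
  have hcop : Nat.Coprime (p ^ j) m :=
    Nat.Coprime.pow_left j ((Nat.Prime.coprime_iff_not_dvd hp).mpr hm)
  exact Fermat.Agent.S55.GC.Cores.eq_zero_of_coprime_nsmul hcop hj hmx

end Abstract

section Hasse

open scoped Classical

variable (L : IntermediateField ℚ Qbar) [Normal ℚ L] [NumberField L]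

/-- Every element of `Lˣ` is a `T`-unit for some finite `T`. -/
theorem exists_finset_mem_tUnits (x : Lˣ) : ∃ T : Finset Nat.Primes, x ∈ tUnits L T := by
  have h2 : ∀ P : HeightOneSpectrum (𝓞 L), ∃ q : Nat.Primes, ((q : ℕ) : 𝓞 L) ∈ P.asIdeal :=
    fun P => exists_natCast_mem P
  choose q hq using h2
  refine ⟨(TClass.finite_valuation_ne_one x).toFinset.image q, ?_⟩
  rw [mem_tUnits_iff]
  intro P hP
  by_contra hne
  apply hP
  refine mem_primesOver.mpr ⟨q P, Finset.mem_image_of_mem q ?_, hq P⟩
  rw [Set.Finite.mem_toFinset]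
  exact hne

variable (T : Finset Nat.Primes)

/-- The inclusion `E_{L,T} ⟶ Lˣ`. -/
noncomputable def incE : E L T ⟶ unitsRep L :=
  Rep.subtype (unitsRep L) (tUnitsSubmodule L T) (tUnitsSubmodule_le_comap L T)

theorem iE_eq : iE L T = incE L T ≫ diagRep L T := rfl

variable (H : Subgroup (L ≃ₐ[ℚ] L))

/-- A 2-cocycle of `H` with values in `Lˣ`, all of whose values are `T`-units, as a cocycle with
values in `E_{L,T}`. -/
theorem exists_cocycle_E (f : cocycles₂ (Rep.res H.subtype (unitsRep L)))
    (hf : ∀ a : H × H, Additive.toMul (show Additive Lˣ from f a) ∈ tUnits L T) :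
    ∃ fT : cocycles₂ (Rep.res H.subtype (E L T)),
      (groupCohomology.map (MonoidHom.id H) ((Rep.resFunctor H.subtype).map (incE L T)) 2).hom
        (H2π _ fT) = H2π _ f := by
  have hmem : ∀ a : H × H, (show Additive Lˣ from f a) ∈
      (show Submodule ℤ (Additive Lˣ) from tUnitsSubmodule L T) := fun a => hf a
  let fT : H × H → (Rep.res H.subtype (E L T)) := fun a => ⟨f a, hmem a⟩
  have hfT : fT ∈ cocycles₂ (Rep.res H.subtype (E L T)) := by
    rw [mem_cocycles₂_iff]
    intro g h j
    apply Subtype.ext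
    exact (mem_cocycles₂_iff (A := Rep.res H.subtype (unitsRep L)) f).1 f.2 g h j
  refine ⟨⟨fT, hfT⟩, ?_⟩
  rw [H2π_comp_map_apply]
  congr 1



/-- Auxiliary form of the Hasse principle: a class coming from `H²(H, E_{L,T})`. -/
theorem hasse_aux [IsGalois ℚ L] (p : ℕ) [Fact p.Prime] (hTne : T.Nonempty)
    (hC : CF1.LayerHyp p (Rep.res H.subtype (C L T)))
    (z : groupCohomology (Rep.res H.subtype (E L T)) 2)
    (hx : (groupCohomology.map (MonoidHom.id H) ((Rep.resFunctor H.subtype).map (incE L T)) 2).hom z ∈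
      CF1.pPrimary p (groupCohomology (Rep.res H.subtype (unitsRep L)) 2))
    (hloc : ∀ (q : T) (g : L ≃ₐ[ℚ] L),
      (groupCohomology.map (IdeleSemiLocal.decomp L T H q g).subtype
          (IdeleSemiLocal.locHom L T H q g) 2).hom
        ((groupCohomology.map (MonoidHom.id H)
          ((Rep.resFunctor H.subtype).map (diagRep L T)) 2).hom
          ((groupCohomology.map (MonoidHom.id H)
            ((Rep.resFunctor H.subtype).map (incE L T)) 2).hom z)) = 0) :
    (groupCohomology.map (MonoidHom.id H) ((Rep.resFunctor H.subtype).map (incE L T)) 2).hom z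
      = 0 := by
  have hX : ((seq L T).map (Rep.resFunctor H.subtype)).ShortExact :=
    (Rep.shortExact_res H.subtype).2 (seq_shortExact L T hTne)
  refine hasse_factor ((seq L T).map (Rep.resFunctor H.subtype)) hX p hC
    ((Rep.resFunctor H.subtype).map (incE L T)) ((Rep.resFunctor H.subtype).map (diagRep L T))
    ?_ z hx ?_
  · rfl
  · apply (IdeleSemiLocal.semiLocal_J L T H 2).1
    funext j
    exact (hloc j.1 _).trans (map_zero _).symm

/-- Every class of `H²(H, Lˣ)` comes from `H²(H, E_{L,T})` for `T` large. -/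
theorem exists_lift_E (T₀ : Finset Nat.Primes)
    (x : groupCohomology (Rep.res H.subtype (unitsRep L)) 2) :
    ∃ T : Finset Nat.Primes, T₀ ⊆ T ∧ T.Nonempty ∧
      ∃ z : groupCohomology (Rep.res H.subtype (E L T)) 2,
        (groupCohomology.map (MonoidHom.id H)
          ((Rep.resFunctor H.subtype).map (incE L T)) 2).hom z = x := by
  induction x using H2_induction_on with
  | h f =>
  have h1 : ∀ a : H × H, ∃ T : Finset Nat.Primes,
      Additive.toMul (show Additive Lˣ from f a) ∈ tUnits L T :=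
    fun a => exists_finset_mem_tUnits L _
  choose Ta hTa using h1
  have : Fintype (H × H) := Fintype.ofFinite _
  refine ⟨T₀ ∪ Finset.univ.biUnion Ta ∪ {⟨2, Nat.prime_two⟩},
    fun q hq => Finset.mem_union_left _ (Finset.mem_union_left _ hq),
    ⟨⟨2, Nat.prime_two⟩, Finset.mem_union_right _ (Finset.mem_singleton_self _)⟩, ?_⟩
  have hf : ∀ a : H × H, Additive.toMul (show Additive Lˣ from f a) ∈
      tUnits L (T₀ ∪ Finset.univ.biUnion Ta ∪ {⟨2, Nat.prime_two⟩}) := fun a =>
    tUnits_mono (fun q hq => Finset.mem_union_left _ (Finset.mem_union_right _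
      (Finset.mem_biUnion.mpr ⟨a, Finset.mem_univ _, hq⟩))) (hTa a)
  obtain ⟨fT, hfT⟩ := exists_cocycle_E L _ H f hf
  exact ⟨H2π _ fT, hfT⟩

/-- **Hasse principle for `H²(H, Lˣ)`, `p`-part** (finite level, helper3's idèle model):
`H ≤ Gal(L/ℚ)`; if the idèle class groups `C_{L,T}` (`T` large) satisfy the cyclic layer hypothesis
at `p` over `H`, then a `p`-primary class of `H²(H, Lˣ)` all of whose localisations vanish is
zero. -/
theorem hasse_units_pPrimary [IsGalois ℚ L] (p : ℕ) [Fact p.Prime] (T₀ : Finset Nat.Primes)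
    (hC : ∀ T : Finset Nat.Primes, T₀ ⊆ T → CF1.LayerHyp p (Rep.res H.subtype (C L T)))
    (x : groupCohomology (Rep.res H.subtype (unitsRep L)) 2)
    (hx : x ∈ CF1.pPrimary p (groupCohomology (Rep.res H.subtype (unitsRep L)) 2))
    (hloc : ∀ (T : Finset Nat.Primes) (q : T) (g : L ≃ₐ[ℚ] L),
      (groupCohomology.map (IdeleSemiLocal.decomp L T H q g).subtype
          (IdeleSemiLocal.locHom L T H q g) 2).hom
        ((groupCohomology.map (MonoidHom.id H)
          ((Rep.resFunctor H.subtype).map (diagRep L T)) 2).hom x) = 0) :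
    x = 0 := by
  obtain ⟨T, hT₀, hTne, z, rfl⟩ := exists_lift_E L H T₀ x
  exact hasse_aux L T H p hTne (hC T hT₀) z hx (hloc T)

end Hasse

end Fermat.Agent.S55.GL.CFIdele
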