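/-
S55 block GLO11 (EX): finite-level existence at a layer `E/K`, in helper14's level model.

`K ⊆ E ⊆ ℚ̄`, `E/ℚ` finite normal, `H = galE K E = Gal(E/K)`; `𝒰` a level structure of open
subgroups of `Γ` with `G_E ∈ 𝒰`, `A = smoothPart 𝒰 ℚ̄ˣ`.  We show `ExistsAtLayer` (of
`GL/BrauerExistLevel.lean`) at the layer `U = G_E ∩ G_K` of `G_K`, for the places
`v : FinPlace K` of helper14's `GL/BrauerLocal.lean`, from
* (CF) `|H²(H, C_{E,T})| ∣ |H|` for `T` large (helper7, `CFFinal.exists_finset_pgroup_C`),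
* (R) reciprocity in level form (`BrauerHyp.recip` shape),
* (UNR) classes of `T`-units are locally trivial outside `T`,
* a place of `K` with full local degree (`FullDecompPlaces`),
* the local class formations `F v` (LOC5).
-/
import Fermat.Agent.S55.GL.BrauerDictGlobal
import Fermat.Agent.S55.GL.BrauerExistRep
import Fermat.Agent.S55.GL.BrauerExistLevel
import Fermat.Agent.S55.GL.PlacesDecomp
import Fermat.Agent.S55.GL.CFIdele

set_option autoImplicit false
set_option linter.style.haveILetI false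
set_option linter.unusedSectionVars false

open CategoryTheory IntermediateField groupCohomology

namespace Fermat.Agent.S55.GL.BrauerExistPlaces

open Fermat.Agent.S55.Level Fermat.Agent.S55.GaloisLevel Fermat.Agent.S55.GL.Places
  Fermat.Agent.S55.GL.BrauerLocal Fermat.Agent.S55.LocalDict Fermat.Agent.S55.GL.LocalFieldAt
  Fermat.Agent.S55.GL.CoindFun Fermat.Agent.S55.GL.Ideles Fermat.Agent.S55.GL.IdeleSemiLocal
  Fermat.Agent.S55.SmoothPart Fermat.Agent.S55.CFAbs Fermat.Agent.S55.LevelLayer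
  Fermat.Agent.S55.GL.BrauerDict Fermat.Agent.S55.GL.BrauerExistRep
  Fermat.Agent.S55.GL.BrauerExistLevel Fermat.Agent.S55.GL.CFIdele Fermat.Agent.S55.CF

local notation "Qbar" => AlgebraicClosure ℚ
local notation "Γ" => (AlgebraicClosure ℚ ≃ₐ[ℚ] AlgebraicClosure ℚ)

/-- primes as `Fact`s -/
local instance factPrime_bep (q : Nat.Primes) : Fact (q : ℕ).Prime := ⟨q.2⟩

local instance isGaloisQbar_bep : IsGalois ℚ Qbar := Fermat.Agent.S55.Level.isGalois_Qbar

/-! ### The representatives `(PlacesOver.rep w)|_E` -/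

section Rep

variable (K E : IntermediateField ℚ Qbar) [Normal ℚ E] (T : Finset Nat.Primes)

/-- The base points: `(PlacesOver.rep w)|_E` for `w` a place of `K` over `q ∈ T`. -/
noncomputable def ptPlaces (q : T) (w : PlacesOver ((q : Nat.Primes) : ℕ) K) : E ≃ₐ[ℚ] E :=
  resE E (PlacesOver.rep ((q : Nat.Primes) : ℕ) w)

theorem resE_surjective : Function.Surjective (resE E) :=
  AlgEquiv.restrictNormalHom_surjective Qbar

theorem resKE_surjective (hKE : K ≤ E) : Function.Surjective (resKE K E) := by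
  intro h
  obtain ⟨g, hg⟩ := resE_surjective E (h : E ≃ₐ[ℚ] E)
  have hgK : g ∈ K.fixingSubgroup := by
    rw [IntermediateField.mem_fixingSubgroup_iff]
    intro x hx
    have h1 := coe_resE E g ⟨x, hKE hx⟩
    rw [hg, h.2 ⟨x, hKE hx⟩ hx] at h1
    exact h1.symm
  exact ⟨⟨g, hgK⟩, Subtype.ext hg⟩

theorem resE_localGaloisToGlobal (q : Nat.Primes)
    (τ : PadicAlgCl (q : ℕ) ≃ₐ[ℚ_[(q : ℕ)]] PadicAlgCl (q : ℕ)) :
    resE E (localGaloisToGlobal (q : ℕ) τ) =
      resLoc (q : ℕ) E (AlgEquiv.restrictNormalHom (localField (q : ℕ) E) τ) :=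
  (resLoc_restrictNormalHom (q : ℕ) E τ).symm

/-- The `(PlacesOver.rep w)|_E` form a system of representatives of the double cosets
`D_q \ Gal(E/ℚ) / Gal(E/K)`. -/
theorem isRepFamily_places [FiniteDimensional ℚ K] (hKE : K ≤ E) :
    IsRepFamily (resFamily E T) (galE K E) (ptPlaces K E T) where
  cover := by
    intro q g
    obtain ⟨γ, rfl⟩ := resE_surjective E g
    have hs := samePlace_rep_placeOf ((q : Nat.Primes) : ℕ) (K := K) γ
    obtain ⟨τ, k, hk, hγ⟩ := hs.exists_eq_mul ((q : Nat.Primes) : ℕ)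
    refine ⟨placeOf ((q : Nat.Primes) : ℕ) K γ,
      AlgEquiv.restrictNormalHom (localField ((q : Nat.Primes) : ℕ) E) τ,
      ⟨resE E k, resE_mem_galE K E hk⟩, ?_⟩
    show resE E γ = resLoc ((q : Nat.Primes) : ℕ) E _ * resE E _ * resE E k
    rw [← resE_localGaloisToGlobal, ← map_mul, ← map_mul, ← hγ]
  disjoint := by
    intro q c c' h d hd
    obtain ⟨k, rfl⟩ := resKE_surjective K E hKE h
    obtain ⟨τ, rfl⟩ := AlgEquiv.restrictNormalHom_surjective (F := ℚ_[((q : Nat.Primes) : ℕ)])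
      (K₁ := localField ((q : Nat.Primes) : ℕ) E) (PadicAlgCl ((q : Nat.Primes) : ℕ)) d
    have hd' : resE E (PlacesOver.rep ((q : Nat.Primes) : ℕ) c' * (k : Γ)) =
        resE E (localGaloisToGlobal ((q : Nat.Primes) : ℕ) τ *
          PlacesOver.rep ((q : Nat.Primes) : ℕ) c) := by
      rw [map_mul, map_mul, resE_localGaloisToGlobal]
      exact hd
    have hs : SamePlace ((q : Nat.Primes) : ℕ) K (PlacesOver.rep ((q : Nat.Primes) : ℕ) c')
        (PlacesOver.rep ((q : Nat.Primes) : ℕ) c) := by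
      intro x hx
      have h1 : (PlacesOver.rep ((q : Nat.Primes) : ℕ) c' * (k : Γ)) x =
          (localGaloisToGlobal ((q : Nat.Primes) : ℕ) τ *
            PlacesOver.rep ((q : Nat.Primes) : ℕ) c) x := by
        have a := coe_resE E (PlacesOver.rep ((q : Nat.Primes) : ℕ) c' * (k : Γ)) ⟨x, hKE hx⟩
        have b := coe_resE E (localGaloisToGlobal ((q : Nat.Primes) : ℕ) τ *
            PlacesOver.rep ((q : Nat.Primes) : ℕ) c) ⟨x, hKE hx⟩
        rw [hd'] at a
        exact a.symm.trans b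
      have h2 : (k : Γ) x = x := (IntermediateField.mem_fixingSubgroup_iff K _).1 k.2 x hx
      have h3 : absAt ((q : Nat.Primes) : ℕ) (PlacesOver.rep ((q : Nat.Primes) : ℕ) c' * (k : Γ)) x =
          absAt ((q : Nat.Primes) : ℕ) (localGaloisToGlobal ((q : Nat.Primes) : ℕ) τ *
            PlacesOver.rep ((q : Nat.Primes) : ℕ) c) x := by
        rw [absAt_apply, absAt_apply, h1]
      rw [absAt_mul, h2, absAt_localGaloisToGlobal_mul] at h3
      exact h3
    rw [← placeOf_rep ((q : Nat.Primes) : ℕ) c', ← placeOf_rep ((q : Nat.Primes) : ℕ) c]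
    exact (placeOf_eq_iff ((q : Nat.Primes) : ℕ)).2 hs

end Rep

/-! ### Indices -/

section Index

variable (q : Nat.Primes) (K E : IntermediateField ℚ Qbar) [Normal ℚ E] (σ : Γ)

/-- `rhoE : G_K ⧸ (G_E ∩ G_K) → Gal(E/K)` is bijective. -/
theorem rhoE_bijective (hKE : K ≤ E) : Function.Bijective (rhoE K E) := by
  constructor
  · rw [injective_iff_map_eq_one]
    intro x hx
    induction x using QuotientGroup.induction_on with | H g =>
    rw [rhoE_mk] at hx
    have h1 : resE E (g : Γ) = 1 := by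
      rw [← coe_resKE, hx]; rfl
    exact (QuotientGroup.eq_one_iff g).2 ((mem_Uglob K E).2 ((resE_eq_one_iff E _).1 h1))
  · intro h
    obtain ⟨g, rfl⟩ := resKE_surjective K E hKE h
    exact ⟨(g : ↥K.fixingSubgroup ⧸ Uglob K E), rfl⟩

/-- `|Gal(E/K)| = [G_K : G_E ∩ G_K]`. -/
theorem card_galE (hKE : K ≤ E) :
    Nat.card ↥(galE K E) = E.fixingSubgroup.relIndex K.fixingSubgroup := by
  rw [← Nat.card_congr (Equiv.ofBijective _ (rhoE_bijective K E hKE))]
  exact (Subgroup.index_eq_card (Uglob K E)).symm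

theorem index_Uglob : (Uglob K E).index = E.fixingSubgroup.relIndex K.fixingSubgroup := rfl

/-- The index of the local layer subgroup is the local degree. -/
theorem index_Uloc [FiniteDimensional ℚ K] [FiniteDimensional ℚ E] (hKE : K ≤ E) :
    (Uloc q K E σ).index = localDeg (q : ℕ) K E σ := by
  rw [localDeg_eq_relIndex (q : ℕ) hKE σ, localFieldAt_eq_localField q E σ]
  let e : Gloc (q : ℕ) K σ ≃* ↥(localFieldAt (q : ℕ) K σ).fixingSubgroup :=
    (IntermediateField.fixingSubgroupEquiv (localFieldAt (q : ℕ) K σ)).symm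
  have h1 : Uloc q K E σ = ((localField (q : ℕ) E).fixingSubgroup.subgroupOf
      (localFieldAt (q : ℕ) K σ).fixingSubgroup).comap e.toMonoidHom := by
    ext τ
    rw [mem_Uloc_iff, Subgroup.mem_comap, Subgroup.mem_subgroupOf,
      IntermediateField.mem_fixingSubgroup_iff]
    rfl
  rw [h1, Subgroup.index_comap_of_surjective _ e.surjective]
  rfl

/-- For `E/ℚ` normal the local degree of `E/K` only depends on the place of `K`. -/
theorem localDeg_eq_of_samePlace_base [FiniteDimensional ℚ K] {σ σ' : Γ}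
    (h : SamePlace (q : ℕ) K σ σ') : localDeg (q : ℕ) K E σ' = localDeg (q : ℕ) K E σ := by
  obtain ⟨τ, g, hg, rfl⟩ := h.exists_eq_mul (q : ℕ)
  have hE : E.map (g : Qbar →ₐ[ℚ] Qbar) = E := map_eq_of_normal E g
  have hK : K.map (g : Qbar →ₐ[ℚ] Qbar) = K := fixingSubgroup_le_stabField K hg
  rw [localDeg, localDeg, localFieldAt_mul_of_map_eq (q : ℕ) _ g hE,
    localFieldAt_mul_of_map_eq (q : ℕ) _ g hK,
    localFieldAt_localGaloisToGlobal_mul, localFieldAt_localGaloisToGlobal_mul,
    IntermediateField.relfinrank_map_map]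

end Index

/-! ### The places of `K` over `T` as an index set -/

section Idx

variable (K : IntermediateField ℚ Qbar) (T : Finset Nat.Primes)

/-- The family of index sets: the places of `K` over `q ∈ T`. -/
abbrev JfP (q : T) : Type := PlacesOver ((q : Nat.Primes) : ℕ) K

/-- The finite place of `K` attached to an index `(q, w)`. -/
def vOf (j : IdxOf (JfP K T)) : FinPlace K := ⟨(j.1 : Nat.Primes), j.2⟩

theorem vOf_injective : Function.Injective (vOf K T) := by
  rintro ⟨⟨q, hq⟩, w⟩ ⟨⟨q', hq'⟩, w'⟩ h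
  have h1 : q = q' := congrArg Sigma.fst h
  subst h1
  have h2 : w = w' := eq_of_heq (Sigma.mk.inj h).2
  subst h2
  rfl

theorem sum_vOf {M : Type*} [AddCommMonoid M] [Fintype (IdxOf (JfP K T))] [DecidableEq (FinPlace K)]
    (g : FinPlace K → M) (F' : Finset (FinPlace K)) (hF' : ∀ v ∈ F', v.prime ∈ T)
    (hg : ∀ v, v ∉ F' → g v = 0) :
    ∑ j : IdxOf (JfP K T), g (vOf K T j) = ∑ v ∈ F', g v := by
  rw [← Finset.sum_image (s := Finset.univ) (g := vOf K T) (f := g)
    (fun a _ b _ h => vOf_injective K T h)]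
  symm
  refine Finset.sum_subset ?_ fun v _ hv => hg v hv
  intro v hv
  exact Finset.mem_image.2 ⟨⟨⟨v.1, hF' v hv⟩, v.2⟩, Finset.mem_univ _, rfl⟩

end Idx

/-! ### The main theorem -/

section Main

variable (K E : IntermediateField ℚ Qbar) [Normal ℚ E] (𝒰 : LevelStructure Γ)

/-- The local Galois group at the place `v` (at its chosen representative). -/
abbrev GvP (v : FinPlace K) : Type := Gloc (v.prime : ℕ) K v.rep

/-- The local level structure. -/
noncomputable abbrev levP (v : FinPlace K) : LevelStructure (GvP K v) :=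
  krullLevel (localFieldAt (v.prime : ℕ) K v.rep) (PadicAlgCl (v.prime : ℕ))

/-- The local module `Ω_vˣ`. -/
noncomputable abbrev NP (v : FinPlace K) : Rep ℤ (GvP K v) :=
  unitsRep (localFieldAt (v.prime : ℕ) K v.rep) (PadicAlgCl (v.prime : ℕ))

/-- The decomposition map. -/
noncomputable abbrev rP (v : FinPlace K) : GvP K v →* ↥K.fixingSubgroup :=
  decompHom (v.prime : ℕ) K v.rep

/-- The coefficient map. -/
noncomputable abbrev phiP (v : FinPlace K) : Rep.res (rP K v) (resL K (Asm 𝒰)) ⟶ NP K v :=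
  coeffAsm v.prime K v.rep 𝒰

theorem hmemP [FiniteDimensional ℚ E] (v : FinPlace K) :
    (Uglob K E).comap (rP K v) ∈ (levP K v).sets :=
  ⟨normal_Uloc v.prime K E v.rep,
    isKrullOpen_comap_decompHom (v.prime : ℕ) K v.rep ⟨E, inferInstance, le_rfl⟩⟩

end Main

section Layer

variable (K E : IntermediateField ℚ Qbar) [FiniteDimensional ℚ K] [Normal ℚ E]
  [FiniteDimensional ℚ E] (𝒰 : LevelStructure Γ)
  (h𝒰 : ∀ U ∈ 𝒰.sets, IsKrullOpen ℚ Qbar U) (hE : E.fixingSubgroup ∈ 𝒰.sets)

/-- The class of `H²(G_K ⧸ U, A^U)` attached to a class of `T`-units of `E`. -/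
noncomputable def betaOf (T : Finset Nat.Primes)
    (x : groupCohomology (Rep.res (galE K E).subtype (Ideles.E E T)) 2) :
    groupCohomology (globLayer K E 𝒰) 2 :=
  (T1 K E 𝒰 hE 2).hom ((groupCohomology.map (MonoidHom.id ↥(galE K E))
    ((Rep.resFunctor (galE K E).subtype).map (incE E T)) 2).hom x)

theorem map_iE_apply (T : Finset Nat.Primes)
    (x : groupCohomology (Rep.res (galE K E).subtype (Ideles.E E T)) 2) :
    (groupCohomology.map (MonoidHom.id ↥(galE K E))
        ((Rep.resFunctor (galE K E).subtype).map (iE E T)) 2).hom x =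
      (groupCohomology.map (MonoidHom.id ↥(galE K E))
        ((Rep.resFunctor (galE K E).subtype).map (diagRep E T)) 2).hom
        ((groupCohomology.map (MonoidHom.id ↥(galE K E))
          ((Rep.resFunctor (galE K E).subtype).map (incE E T)) 2).hom x) := by
  have h1 : (Rep.resFunctor (galE K E).subtype).map (iE E T) =
      (Rep.resFunctor (galE K E).subtype).map (incE E T) ≫
        (Rep.resFunctor (galE K E).subtype).map (diagRep E T) := by
    rw [← Functor.map_comp]
    rfl
  rw [h1, map_id_comp]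
  rfl

/-- (T3) for classes of `T`-units: localising in helper3's model and transporting by `T2` is
localising `betaOf` at the layer in helper14's model. -/
theorem T2_loc_iE (q : Nat.Primes) (σ : Γ) (T : Finset Nat.Primes) (hq : q ∈ T)
    (x : groupCohomology (Rep.res (galE K E).subtype (Ideles.E E T)) 2) :
    (T2 q K E σ T hq 2).hom
      ((Fermat.Agent.S55.GC.SemiLocal.loc (locHom E T (galE K E) ⟨q, hq⟩ (resE E σ)) 2).hom
        ((groupCohomology.map (MonoidHom.id ↥(galE K E))
          ((Rep.resFunctor (galE K E).subtype).map (iE E T)) 2).hom x)) =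
      (layerBC (U := Uglob K E) (V := Uloc q K E σ) (decompHom (q : ℕ) K σ)
        (coeffAsm q K σ 𝒰) (le_refl _) 2).hom (betaOf K E 𝒰 hE T x) := by
  have h2 := T3_apply q K E σ T hq 𝒰 hE 2 ((groupCohomology.map (MonoidHom.id ↥(galE K E))
    ((Rep.resFunctor (galE K E).subtype).map (incE E T)) 2).hom x)
  exact (congrArg (fun z => (T2 q K E σ T hq 2).hom
    ((Fermat.Agent.S55.GC.SemiLocal.loc (locHom E T (galE K E) ⟨q, hq⟩ (resE E σ)) 2).hom z))
    (map_iE_apply K E T x)).trans h2.symm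

variable (T : Finset Nat.Primes)

/-- The family of local modules `(E_q)ˣ`. -/
abbrev OmP (q : T) : Type := (localField ((q : Nat.Primes) : ℕ) E)ˣ

/-- helper3's local module at the index `j = (q, w)` (base point `(rep w)|_E`). -/
noncomputable abbrev repBP (j : IdxOf (JfP K T)) :
    Rep ℤ ↥(stab (resFamily E T) (galE K E) j.1 (ptPlaces K E T j.1 j.2)) :=
  repB (Ω := OmP E T) (resFamily E T) (resFamily_injective E T) (galE K E) j.1
    (ptPlaces K E T j.1 j.2)

/-- helper14's local layer module at the place `v`. -/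
noncomputable abbrev layP (v : FinPlace K) : Rep ℤ (GvP K v ⧸ (Uglob K E).comap (rP K v)) :=
  (NP K v).quotientToInvariants ((Uglob K E).comap (rP K v))

/-- `T2` at the index `j`. -/
noncomputable def T2P (j : IdxOf (JfP K T)) :
    groupCohomology (repBP K E T j) 2 ⟶ groupCohomology (layP K E (vOf K T j)) 2 :=
  T2 (j.1 : Nat.Primes) K E (vOf K T j).rep T j.1.2 2

theorem T2P_bijective (hKE : K ≤ E) (j : IdxOf (JfP K T)) :
    Function.Bijective (T2P K E T j).hom :=
  T2_bijective (j.1 : Nat.Primes) K E (vOf K T j).rep T j.1.2 hKE 2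

/-- Inflation from the local layer at `v`. -/
noncomputable def infP (v : FinPlace K) :
    groupCohomology (layP K E v) 2 ⟶ levelCohomology (levP K v) (NP K v) 2 :=
  levelInf (levP K v) (NP K v) (hmemP K E v) 2

/-- Localisation at the layer. -/
noncomputable def bcP (v : FinPlace K) :
    groupCohomology (globLayer K E 𝒰) 2 ⟶ groupCohomology (layP K E v) 2 :=
  layerBC (rP K v) (phiP K 𝒰 v) (le_refl ((Uglob K E).comap (rP K v))) 2

theorem T2P_locAtOf (j : IdxOf (JfP K T))
    (x : groupCohomology (Rep.res (galE K E).subtype (Ideles.E E T)) 2) :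
    (T2P K E T j).hom
      ((locAtOf (Ω := OmP E T) (resFamily E T) (resFamily_injective E T) (galE K E)
        (ptPlaces K E T) j 2).hom
        ((groupCohomology.map (MonoidHom.id ↥(galE K E))
          ((Rep.resFunctor (galE K E).subtype).map (iE E T)) 2).hom x)) =
      (bcP K E 𝒰 (vOf K T j)).hom (betaOf K E 𝒰 hE T x) :=
  T2_loc_iE K E 𝒰 hE (j.1 : Nat.Primes) (vOf K T j).rep T j.1.2 x

variable (F : ∀ v : FinPlace K, Formation (levP K v) (NP K v))

/-- The local invariant at the index `j`, on helper3's local cohomology group. -/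
noncomputable def invLocP (j : IdxOf (JfP K T)) :
    groupCohomology (repBP K E T j) 2 →+ UnitAddCircle :=
  ((F (vOf K T j)).inv.comp (infP K E (vOf K T j)).hom.toAddMonoidHom).comp
    (T2P K E T j).hom.toAddMonoidHom

theorem invLocP_apply (j : IdxOf (JfP K T)) (z : groupCohomology (repBP K E T j) 2) :
    invLocP K E T F j z =
      (F (vOf K T j)).inv ((infP K E (vOf K T j)).hom ((T2P K E T j).hom z)) := rfl

/-- Localisation (helper14's `resP`) of an inflated class. -/
theorem resP_levelInf (hUg : Uglob K E ∈ (𝒰.restrict K.fixingSubgroup).sets)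
    (β : groupCohomology (globLayer K E 𝒰) 2) (v : FinPlace K) :
    (resP K (smoothPartι 𝒰 (unitsRep ℚ Qbar)) 𝒰 h𝒰 v 2).hom
        ((levelInf (𝒰.restrict K.fixingSubgroup) (resL K (Asm 𝒰)) hUg 2).hom β) =
      (infP K E v).hom ((bcP K E 𝒰 v).hom β) :=
  levelCohomologyMap_levelInf_apply (rP K v) (phiP K 𝒰 v) (le_refl _)
    (refines_decompHom (v.prime : ℕ) K v.rep 𝒰 h𝒰) hUg (hmemP K E v) 2 β

/-- **(EX) at the layer `E/K`, helper14's level model**: finite-level existence, from (CF), (R),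
(UNR), a place with full local degree and the local class formations. -/
theorem existsAtLayer_places (hKE : K ≤ E) (p : ℕ)
    (hidx : ∃ j : ℕ, E.fixingSubgroup.relIndex K.fixingSubgroup = p ^ j)
    (hfull : ∃ (q₀ : Nat.Primes) (σ₀ : Γ),
      localDeg (q₀ : ℕ) K E σ₀ = E.fixingSubgroup.relIndex K.fixingSubgroup)
    (hcf : ∃ T₀ : Finset Nat.Primes, ∀ T : Finset Nat.Primes, T₀ ⊆ T →
      Finite (groupCohomology (Rep.res (galE K E).subtype (C E T)) 2) ∧
      Nat.card (groupCohomology (Rep.res (galE K E).subtype (C E T)) 2) ∣ Nat.card ↥(galE K E))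
    (hunr : ∃ T₁ : Finset Nat.Primes, ∀ T : Finset Nat.Primes, T₁ ⊆ T →
      ∀ (x : groupCohomology (Rep.res (galE K E).subtype (Ideles.E E T)) 2) (v : FinPlace K),
        v.prime ∉ T → (bcP K E 𝒰 v).hom (betaOf K E 𝒰 hE T x) = 0)
    (hrecip : ∀ Y : levelCohomology (𝒰.restrict K.fixingSubgroup) (resL K (Asm 𝒰)) 2,
      IsPPrim p Y → ∃ F'' : Finset (FinPlace K),
        (∀ v, v ∉ F'' →
          (resP K (smoothPartι 𝒰 (unitsRep ℚ Qbar)) 𝒰 h𝒰 v 2).hom Y = 0) ∧
        ∑ v ∈ F'', (F v).inv ((resP K (smoothPartι 𝒰 (unitsRep ℚ Qbar)) 𝒰 h𝒰 v 2).hom Y) = 0) :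
    ExistsAtLayer (rP K) (phiP K 𝒰) F (Uglob K E) (hmemP K E) := by
  intro F' y hy0 hsum
  classical
  obtain ⟨T₀, hT₀⟩ := hcf
  obtain ⟨T₁, hT₁⟩ := hunr
  obtain ⟨q₀, σ₀, hfull⟩ := hfull
  obtain ⟨jp, hjp⟩ := hidx
  -- the finite set of primes
  obtain ⟨T, hT₀T, hT₁T, hF'T, hq₀T⟩ : ∃ T : Finset Nat.Primes, T₀ ⊆ T ∧ T₁ ⊆ T ∧
      (∀ v ∈ F', v.prime ∈ T) ∧ q₀ ∈ T :=
    ⟨T₀ ∪ T₁ ∪ F'.image FinPlace.prime ∪ {q₀},
      fun q hq => Finset.mem_union_left _ (Finset.mem_union_left _ (Finset.mem_union_left _ hq)),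
      fun q hq => Finset.mem_union_left _ (Finset.mem_union_left _ (Finset.mem_union_right _ hq)),
      fun v hv => Finset.mem_union_left _ (Finset.mem_union_right _
        (Finset.mem_image_of_mem _ hv)),
      Finset.mem_union_right _ (Finset.mem_singleton_self _)⟩
  have hTne : T.Nonempty := ⟨q₀, hq₀T⟩
  obtain ⟨hfin, hcard⟩ := hT₀ T hT₀T
  haveI := hfin
  haveI : Finite (E ≃ₐ[ℚ] E) := inferInstance
  have hpt := isRepFamily_places K E T hKE
  letI : Fintype (IdxOf (JfP K T)) := Fintype.ofFinite _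
  have hUg : Uglob K E ∈ (𝒰.restrict K.fixingSubgroup).sets := 𝒰.mem_restrict_sets _ hE
  -- the local classes in helper3's model
  have hx : ∀ j : IdxOf (JfP K T), ∃ xj : groupCohomology (repBP K E T j) 2,
      (T2P K E T j).hom xj = y (vOf K T j) := fun j =>
    (T2P_bijective K E T hKE j).2 (y (vOf K T j))
  choose x hx using hx
  -- the short exact sequence
  have hX : ((seq E T).map (Rep.resFunctor (galE K E).subtype)).ShortExact :=
    (Rep.shortExact_res (galE K E).subtype).2 (seq_shortExact E T hTne)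
  -- reciprocity for the classes of `T`-units
  have hrec : ∀ x' : groupCohomology (Rep.res (galE K E).subtype (Ideles.E E T)) 2,
      sumInvOf (Ω := OmP E T) (φ := resFamily E T) (H := galE K E) (pt := ptPlaces K E T)
        (resFamily_injective E T) (invLocP K E T F)
        (groupCohomology.map (MonoidHom.id ↥(galE K E))
          ((Rep.resFunctor (galE K E).subtype).map (iE E T)) 2 x') = 0 := by
    intro x'
    rw [sumInvOf_apply]
    obtain ⟨β₀, hβ₀⟩ : ∃ β₀, β₀ = betaOf K E 𝒰 hE T x' := ⟨_, rfl⟩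
    obtain ⟨Y, hY⟩ : ∃ Y, Y =
        (levelInf (𝒰.restrict K.fixingSubgroup) (resL K (Asm 𝒰)) hUg 2).hom β₀ := ⟨_, rfl⟩
    have hYp : IsPPrim p Y := hY ▸ isPPrim_levelInf hUg ((index_Uglob K E).trans hjp) β₀
    obtain ⟨F'', hoff, hsum''⟩ := hrecip Y hYp
    obtain ⟨g, hg⟩ : ∃ g : FinPlace K → UnitAddCircle, ∀ v, g v =
        (F v).inv ((resP K (smoothPartι 𝒰 (unitsRep ℚ Qbar)) 𝒰 h𝒰 v 2).hom Y) := ⟨_, fun _ => rfl⟩
    have hg' : ∀ v, g v = (F v).inv ((infP K E v).hom ((bcP K E 𝒰 v).hom β₀)) := by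
      intro v
      rw [hg, hY, resP_levelInf K E 𝒰 h𝒰 hUg β₀ v]
    have hterm : ∀ j : IdxOf (JfP K T), invLocP K E T F j
        ((locAtOf (Ω := OmP E T) (resFamily E T) (resFamily_injective E T) (galE K E)
          (ptPlaces K E T) j 2).hom
          (groupCohomology.map (MonoidHom.id ↥(galE K E))
            ((Rep.resFunctor (galE K E).subtype).map (iE E T)) 2 x')) = g (vOf K T j) := by
      intro j
      rw [invLocP_apply, hg', hβ₀]
      exact congrArg (fun z => (F (vOf K T j)).inv ((infP K E (vOf K T j)).hom z))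
        (T2P_locAtOf K E 𝒰 hE T j x')
    rw [Finset.sum_congr rfl fun j _ => hterm j]
    have hgT : ∀ v : FinPlace K, v.prime ∉ T → g v = 0 := by
      intro v hv
      rw [hg', hβ₀, hT₁ T hT₁T x' v hv, map_zero, map_zero]
    rw [sum_vOf K T g (F''.filter fun v => v.prime ∈ T)
      (fun v hv => (Finset.mem_filter.1 hv).2) ?_]
    · rw [Finset.sum_filter_of_ne]
      · rw [← hsum'']
        exact Finset.sum_congr rfl fun v _ => hg v
      · intro v _ hv
        by_contra hvT
        exact hv (hgT v hvT)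
    · intro v hv
      by_cases hvT : v.prime ∈ T
      · have hvF : v ∉ F'' := fun h => hv (Finset.mem_filter.2 ⟨h, hvT⟩)
        rw [hg, hoff v hvF, map_zero]
      · exact hgT v hvT
  -- the sum of the local invariants
  have hxsum : ∑ j : IdxOf (JfP K T), invLocP K E T F j (x j) = 0 := by
    obtain ⟨g, hg⟩ : ∃ g : FinPlace K → UnitAddCircle, ∀ v, g v =
        (F v).inv ((levelInf (levP K v) (NP K v) (hmemP K E v) 2).hom (y v)) := ⟨_, fun _ => rfl⟩
    have hterm : ∀ j : IdxOf (JfP K T), invLocP K E T F j (x j) = g (vOf K T j) := by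
      intro j
      rw [invLocP_apply, hx j, hg]
      rfl
    rw [Finset.sum_congr rfl fun j _ => hterm j, sum_vOf K T g F' hF'T ?_]
    · rw [← hsum]
      exact Finset.sum_congr rfl fun v _ => hg v
    · intro v hv
      rw [hg, hy0 v hv, map_zero, map_zero]
  -- the place with full local degree
  obtain ⟨j₀, hj₀⟩ : ∃ j₀ : IdxOf (JfP K T),
      ((Uglob K E).comap (rP K (vOf K T j₀))).index = Nat.card ↥(galE K E) := by
    refine ⟨⟨⟨q₀, hq₀T⟩, placeOf (q₀ : ℕ) K σ₀⟩, ?_⟩
    have h1 : SamePlace (q₀ : ℕ) K (PlacesOver.rep (q₀ : ℕ) (placeOf (q₀ : ℕ) K σ₀)) σ₀ :=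
      samePlace_rep_placeOf (q₀ : ℕ) σ₀
    have h2 := localDeg_eq_of_samePlace_base q₀ K E h1
    rw [card_galE K E hKE, ← hfull, h2]
    exact index_Uloc q₀ K E _ hKE
  obtain ⟨u, hu, -, -, -⟩ := (F (vOf K T j₀)).exists_fundamental_class
    ((Uglob K E).comap (rP K (vOf K T j₀))) (hmemP K E (vOf K T j₀))
  obtain ⟨y₀, hy₀⟩ := (T2P_bijective K E T hKE j₀).2 u
  have hy₀' : ∀ m : ℕ, m • invLocP K E T F j₀ y₀ = 0 → Nat.card ↥(galE K E) ∣ m := by
    intro m hm
    rw [invLocP_apply, hy₀] at hm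
    have h3 : (infP K E (vOf K T j₀)).hom u = (levelInf (levP K (vOf K T j₀))
        (NP K (vOf K T j₀)) (hmemP K E (vOf K T j₀)) 2).hom u := rfl
    rw [h3, hu, hj₀] at hm
    exact (nsmul_oneOver_eq_zero_iff Nat.card_pos.ne' m).1 hm
  -- the global class
  obtain ⟨β', hβ'⟩ := exists_global_classOf (Ω := OmP E T) (φ := resFamily E T)
    (H := galE K E) (pt := ptPlaces K E T) (resFamily_injective E T) (invLocP K E T F)
    ((Rep.resFunctor (galE K E).subtype).map (iE E T))
    ((Rep.resFunctor (galE K E).subtype).map (pC E T))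
    ((seq E T).map (Rep.resFunctor (galE K E).subtype)).zero hX hcard hrec j₀ y₀ hy₀' hpt x hxsum
  refine ⟨betaOf K E 𝒰 hE T β', fun v => ?_⟩
  by_cases hv : v.prime ∈ T
  · have h4 := T2P_locAtOf K E 𝒰 hE T ⟨⟨v.prime, hv⟩, v.2⟩ β'
    have h5 := hβ' ⟨⟨v.prime, hv⟩, v.2⟩
    exact h4.symm.trans ((congrArg (T2P K E T ⟨⟨v.prime, hv⟩, v.2⟩).hom h5).trans
      (hx ⟨⟨v.prime, hv⟩, v.2⟩))
  · have hvF : v ∉ F' := fun h => hv (hF'T v h)
    rw [hy0 v hvF]
    exact hT₁ T hT₁T β' v hv

end Layer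

end Fermat.Agent.S55.GL.BrauerExistPlaces
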