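/-
S55 / GLO11 = (EX) (helper5), part 4: the inputs `hunr` and `hE` of helper20's
`BrauerExistPlaces.existsAtLayer_places` for the level structure `𝒰 = globalLevel S`.

* `layerBC_H2π_eq_zero_of_unit_valued` : the LAYER form of `UnramLocalZero`'s core: a class of the
  layer `H²(G_L ⧸ U', A^{U'})` represented by a cocycle whose values are units at `(q, σ)`, the
  layer being unramified at `(q, σ)`, has trivial localisation `layerBC …` at the local layer.
* `bcP_betaOf_eq_zero` / `hunr_globalLevel` : classes of `T`-units of `E` are locally trivial at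
  the layer, at the places of `K` outside `T ⊇ S` (`hunr` of `existsAtLayer_places`, verbatim, with
  `T₁ := S`).
* `sup_adjoin_mem_globalLevel` : `G_E ∈ globalLevel S` for `E = K ⊔ ℚ⟮ζ⟯`, `ζ` a `p`-power root of
  unity, `p ∈ S`, `K` unramified outside `S`.
-/
import Fermat.Agent.S55.GL.BrauerExistPlaces
import Fermat.Agent.S55.GL.UnramLocalZero
import Fermat.Agent.S55.GL.KummerUnram

set_option autoImplicit false
set_option linter.style.haveILetI false
set_option linter.unusedSectionVars false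

open CategoryTheory IntermediateField groupCohomology

namespace Fermat.Agent.S55.GL.BrauerExistUnr

open Fermat.Agent.S55.Level Fermat.Agent.S55.GaloisLevel Fermat.Agent.S55.GL.Places
  Fermat.Agent.S55.GL.BrauerLocal Fermat.Agent.S55.LocalDict Fermat.Agent.S55.GL.LocalFieldAt
  Fermat.Agent.S55.GL.CoindFun Fermat.Agent.S55.GL.Ideles Fermat.Agent.S55.GL.IdeleSemiLocal
  Fermat.Agent.S55.SmoothPart Fermat.Agent.S55.CFAbs Fermat.Agent.S55.LevelLayer
  Fermat.Agent.S55.GL.BrauerDict Fermat.Agent.S55.GL.BrauerExistPlaces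
  Fermat.Agent.S55.GL.CFIdele Fermat.Agent.S55.GL.UnramLocalZero
  Fermat.Agent.S55.Local.Unram Fermat.Agent.S55.Local.UnitCocycle Fermat.Agent.S55.LocalInt
  Fermat.Agent.S55.GL.PlacesDVR Fermat.Agent.S55.LevelTransport

local notation "Qbar" => AlgebraicClosure ℚ
local notation "Γ" => (AlgebraicClosure ℚ ≃ₐ[ℚ] AlgebraicClosure ℚ)

/-- primes as `Fact`s -/
local instance factPrime_beu (q : Nat.Primes) : Fact (q : ℕ).Prime := ⟨q.2⟩

local instance isGaloisQbar_beu : IsGalois ℚ Qbar := Fermat.Agent.S55.Level.isGalois_Qbar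

/-! ### The layer form of the core of `UnramLocalZero` -/

section Core

variable (q : ℕ) [Fact q.Prime] (L : IntermediateField ℚ Qbar) [FiniteDimensional ℚ L] (σ : Γ)
  {A : Rep.{0} ℤ Γ} (j : A ⟶ unitsRep ℚ Qbar) (𝒰 : LevelStructure Γ) [IsDiscrete 𝒰 A]
  (h𝒰 : ∀ U ∈ 𝒰.sets, IsKrullOpen ℚ Qbar U)

include h𝒰 in
/-- **Core, layer form**: a class of the layer `G_L ⧸ U'` represented by a cocycle whose values
are units at `(q, σ)`, such that the local extension cut out by `U'` at `(q, σ)` is unramified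
over `K_v = localFieldAt q L σ`, has trivial localisation at the local layer. -/
theorem layerBC_H2π_eq_zero_of_unit_valued
    {U' : Subgroup ↥L.fixingSubgroup} [U'.Normal]
    (hU' : U' ∈ (𝒰.restrict L.fixingSubgroup).sets)
    (c : cocycles₂ ((resL L A).quotientToInvariants U'))
    (hunit : ∀ g g' : ↥L.fixingSubgroup ⧸ U',
      ‖embLoc q σ (valA j ((c : (↥L.fixingSubgroup ⧸ U') × (↥L.fixingSubgroup ⧸ U') → _)
        (g, g')).1)‖ = 1)
    {E : IntermediateField (localFieldAt q L σ) (PadicAlgCl q)}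
    (hE : IsUnramifiedIn (integralClosure ℤ_[q] (localFieldAt q L σ)) E)
    (hEU : E.fixingSubgroup ≤ U'.comap (decompHom q L σ)) :
    (layerBC (decompHom q L σ) (coeffLoc q L σ j)
      (le_refl (U'.comap (decompHom q L σ))) 2).hom
        (H2π ((resL L A).quotientToInvariants U') c) = 0 := by
  have hVopen : IsKrullOpen (localFieldAt q L σ) (PadicAlgCl q)
      (U'.comap (decompHom q L σ)) := by
    obtain ⟨U, hU, hUeq⟩ := hU'
    rw [hUeq]
    exact isKrullOpen_comap_decompHom q L σ (h𝒰 U hU)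
  have h2 := congrArg (fun F => F.hom c)
    (H2π_comp_map (A := (resL L A).quotientToInvariants U')
      (B := (unitsRep (localFieldAt q L σ) (PadicAlgCl q)).quotientToInvariants
        (U'.comap (decompHom q L σ)))
      (layerHom (decompHom q L σ) (le_refl (U'.comap (decompHom q L σ))))
      (layerBCHom (decompHom q L σ) (coeffLoc q L σ j)
        (le_refl (U'.comap (decompHom q L σ)))))
  have h3 : (layerBC (decompHom q L σ) (coeffLoc q L σ j)
      (le_refl (U'.comap (decompHom q L σ))) 2).hom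
        (H2π ((resL L A).quotientToInvariants U') c) =
      H2π _ (mapCocycles₂ (layerHom (decompHom q L σ) (le_refl (U'.comap (decompHom q L σ))))
        (layerBCHom (decompHom q L σ) (coeffLoc q L σ j)
          (le_refl (U'.comap (decompHom q L σ)))) c) := h2
  rw [h3]
  refine layer_H2π_eq_zero_of_unit_valued' hVopen hE hEU
    (mapCocycles₂ (layerHom (decompHom q L σ) (le_refl (U'.comap (decompHom q L σ))))
        (layerBCHom (decompHom q L σ) (coeffLoc q L σ j)
          (le_refl (U'.comap (decompHom q L σ)))) c) ?_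
  intro τ τ'
  exact isIntegral_of_norm_eq_one q (localFieldAt q L σ) _
    (hunit (layerHom (decompHom q L σ) (le_refl (U'.comap (decompHom q L σ))) τ)
      (layerHom (decompHom q L σ) (le_refl (U'.comap (decompHom q L σ))) τ'))

end Core

/-! ### `hunr` for `𝒰 = globalLevel S` -/

section Hunr

variable (S T : Finset Nat.Primes) (K E : IntermediateField ℚ Qbar) [FiniteDimensional ℚ K]
  [Normal ℚ E] [FiniteDimensional ℚ E] (hE : E.fixingSubgroup ∈ (globalLevel S).sets)

/-- `T`-units are units at the places `(q, σ)`, `q ∉ T`. -/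
theorem norm_embLoc_tUnit' {q : Nat.Primes} (hq : q ∉ T) (σ : Γ)
    (t : (Ideles.E E T).V) :
    ‖embLoc (q : ℕ) σ ((((Additive.toMul (t.1 : Additive Eˣ) : Eˣ) : E) : Qbar))‖ = 1 := by
  have h := t.2 q hq (resE E σ)
  rw [coe_resE] at h
  rw [embLoc_apply]
  exact h

include hE in
/-- **[UNR] at the layer**: the class of the layer `G_K ⧸ (G_E ∩ G_K)` attached to a class of
`T`-units of `E` is locally trivial at the places of `K` off `T ⊇ S`. -/
theorem bcP_betaOf_eq_zero (hST : S ⊆ T)
    (x : groupCohomology (Rep.res (galE K E).subtype (Ideles.E E T)) 2) (v : FinPlace K)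
    (hv : v.prime ∉ T) :
    (bcP K E (globalLevel S) v).hom (betaOf K E (globalLevel S) hE T x) = 0 := by
  obtain ⟨c, rfl⟩ := Fermat.Agent.S55.GC.CyclicH2.H2π_surjective _ x
  have h1 := congrArg (fun F => F.hom c)
    (H2π_comp_map (A := Rep.res (galE K E).subtype (Ideles.E E T)) (B := unitsH K E)
      (MonoidHom.id ↥(galE K E)) ((Rep.resFunctor (galE K E).subtype).map (incE E T)))
  have h2 := congrArg (fun F => F.hom (mapCocycles₂ (MonoidHom.id ↥(galE K E))
      ((Rep.resFunctor (galE K E).subtype).map (incE E T)) c))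
    (H2π_comp_map (A := unitsH K E) (B := globLayer K E (globalLevel S))
      (rhoE K E) (kap K E (globalLevel S) hE))
  have h3 : betaOf K E (globalLevel S) hE T
        (H2π (Rep.res (galE K E).subtype (Ideles.E E T)) c) =
      H2π (globLayer K E (globalLevel S))
        (mapCocycles₂ (rhoE K E) (kap K E (globalLevel S) hE)
          (mapCocycles₂ (MonoidHom.id ↥(galE K E))
            ((Rep.resFunctor (galE K E).subtype).map (incE E T)) c)) :=
    (congrArg (T1 K E (globalLevel S) hE 2).hom h1).trans h2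
  obtain ⟨E', hE', hEU⟩ := exists_isUnramifiedIn_of_mem_globalLevel S K
    (fun h => hv (hST h)) v.rep hE
  rw [h3]
  refine layerBC_H2π_eq_zero_of_unit_valued (U' := Uglob K E) (v.prime : ℕ) K v.rep
    (smoothPartι (globalLevel S) (unitsRep ℚ Qbar)) (globalLevel S)
    (Fermat.Agent.S55.GL.BrauerInst.open_globalLevel S)
    ((globalLevel S).mem_restrict_sets _ hE) _ (fun g g' => ?_) hE' hEU
  exact norm_embLoc_tUnit' T E hv v.rep _

include hE in
/-- **`hunr` of `BrauerExistPlaces.existsAtLayer_places` for `𝒰 = globalLevel S`**, verbatim. -/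
theorem hunr_globalLevel :
    ∃ T₁ : Finset Nat.Primes, ∀ T : Finset Nat.Primes, T₁ ⊆ T →
      ∀ (x : groupCohomology (Rep.res (galE K E).subtype (Ideles.E E T)) 2) (v : FinPlace K),
        v.prime ∉ T → (bcP K E (globalLevel S) v).hom (betaOf K E (globalLevel S) hE T x) = 0 :=
  ⟨S, fun T hST x v hv => bcP_betaOf_eq_zero S T K E hE hST x v hv⟩

end Hunr

/-! ### `G_E ∈ globalLevel S` for the cyclotomic layers -/

section Cyclo

open Fermat.Agent.S55.GL.KummerUnram

variable {S : Finset Nat.Primes} {p : ℕ}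

/-- `K ⊔ ℚ⟮ζ⟯` is unramified outside `S ∋ p` for `K` unramified outside `S` and `ζ` a `p`-power
root of unity. -/
theorem isUnramifiedOutside_sup_adjoin_rootOfUnity (hp : p.Prime)
    (hpS : (⟨p, hp⟩ : Nat.Primes) ∈ S) {K : IntermediateField ℚ Qbar}
    (hK : K.IsUnramifiedOutside S) (k : ℕ) {ζ : Qbar} (hζ : ζ ^ (p ^ k) = 1) :
    (K ⊔ ℚ⟮ζ⟯).IsUnramifiedOutside S :=
  isUnramifiedOutside_sup_adjoin_root hp hpS hK (a := 1) (α := ζ) (one_mem _) k hζ
    (fun q _ A _ => ⟨1, one_mem _, one_ne_zero, by simp⟩)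

/-- **`G_E ∈ globalLevel S`** for `E = K ⊔ ℚ⟮ζ⟯` normal over `ℚ`. -/
theorem sup_adjoin_mem_globalLevel (hp : p.Prime)
    (hpS : (⟨p, hp⟩ : Nat.Primes) ∈ S) {K : IntermediateField ℚ Qbar}
    (hK : K.IsUnramifiedOutside S) (k : ℕ) {ζ : Qbar} (hζ : ζ ^ (p ^ k) = 1)
    [Normal ℚ ↥(K ⊔ ℚ⟮ζ⟯)] : (K ⊔ ℚ⟮ζ⟯).fixingSubgroup ∈ (globalLevel S).sets :=
  ⟨normal_fixingSubgroup_E (K ⊔ ℚ⟮ζ⟯), K ⊔ ℚ⟮ζ⟯,
    isUnramifiedOutside_sup_adjoin_rootOfUnity hp hpS hK k hζ, le_rfl⟩

/-- Any normal `E/ℚ` unramified outside `S` has `G_E ∈ globalLevel S`. -/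
theorem mem_globalLevel_of_isUnramifiedOutside {E : IntermediateField ℚ Qbar} [Normal ℚ E]
    (hE : E.IsUnramifiedOutside S) : E.fixingSubgroup ∈ (globalLevel S).sets :=
  ⟨normal_fixingSubgroup_E E, E, hE, le_rfl⟩

end Cyclo

end Fermat.Agent.S55.GL.BrauerExistUnr
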