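/-
S55 (T4), block GL2 / GLO3 part 3 (helper3): invariants of coinduced function modules in degree `0`
and norms, abstractly (no fields).

`φ : D →* G`, `Ω` a commutative group with `D`-action, `M = coindFun φ` (functions `f : G → Ω` with
`f (φ d * g) = d • f g`, `G` acting by right translation).  For a subgroup `H ≤ G`:

* `fixedSub S ≤ X` : fixed points of a subgroup `S` (any `MulDistribMulAction`);
* `relNorm S S' x = ∏_{y ∈ S/S'} y • x` : the relative norm (for `x` fixed by `S'`);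
  `relNorm_eq_finprod_of_rep`, `relNorm_mem_fixedSub`, `relNorm_eq_prod_range_pow` (cyclic case);
* `deltaAt φ H g = φ⁻¹(g H g⁻¹) ≤ D` : the decomposition group of the place `φ(D) g H` of `L^H`;
* `coindInv φ H ≤ coindFun φ` : the right-`H`-invariant functions (`= M^H`);
* `ofBase` : the function with prescribed values at a set of base points in distinct double cosets;
* `invEquiv φ H : coindInv φ H ≃* ∏_{c ∈ φ(D)\G/H} Ω^{Δ_c}`, `f ↦ (f (rep c))_c`;
* `exists_relNorm_eq` : for `N ≤ H` of finite index, an `H`-invariant `f` whose values at the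
  representatives are local norms (`f (rep c) = relNorm Δ_c^H Δ_c^N b_c`) is a global norm
  `f = relNorm H N f'`, `f' ∈ M^N`.
-/
import Mathlib
import Fermat.Agent.S55.GL.CoindFun

set_option autoImplicit false
set_option linter.style.haveILetI false

namespace Fermat.Agent.S55.GL.CoindInv

open Fermat.Agent.S55.GL.CoindFun

section RelNorm

variable {Γ X : Type*} [Group Γ] [CommGroup X] [MulDistribMulAction Γ X]

/-- The fixed points of a subgroup `S ≤ Γ` in `X`. -/
def fixedSub (S : Subgroup Γ) : Subgroup X where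
  carrier := {x | ∀ s ∈ S, s • x = x}
  one_mem' := fun s _ => smul_one s
  mul_mem' := fun {a b} ha hb s hs => by rw [smul_mul', ha s hs, hb s hs]
  inv_mem' := fun {a} ha s hs => by rw [smul_inv', ha s hs]

theorem mem_fixedSub {S : Subgroup Γ} {x : X} : x ∈ fixedSub (X := X) S ↔ ∀ s ∈ S, s • x = x :=
  Iff.rfl

theorem fixedSub_anti {S S' : Subgroup Γ} (h : S' ≤ S) : fixedSub (X := X) S ≤ fixedSub S' :=
  fun _ hx s hs => hx s (h hs)

/-- The relative norm `x ↦ ∏_{y ∈ S/S'} y • x` (meaningful for `x` fixed by `S'`). -/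
noncomputable def relNorm (S S' : Subgroup Γ) (x : X) : X :=
  ∏ᶠ y : S ⧸ S'.subgroupOf S, (((Quotient.out y : S) : Γ) • x)

/-- The relative norm can be computed with any system of representatives. -/
theorem relNorm_eq_finprod_of_rep (S S' : Subgroup Γ) {x : X} (hx : x ∈ fixedSub S')
    (r : S ⧸ S'.subgroupOf S → S) (hr : ∀ y, (QuotientGroup.mk (r y) : S ⧸ S'.subgroupOf S) = y) :
    relNorm S S' x = ∏ᶠ y : S ⧸ S'.subgroupOf S, (((r y : S) : Γ) • x) := by
  unfold relNorm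
  refine finprod_congr fun y => ?_
  have h1 : (QuotientGroup.mk (Quotient.out y) : S ⧸ S'.subgroupOf S) = QuotientGroup.mk (r y) := by
    rw [hr]; exact Quotient.out_eq' y
  rw [QuotientGroup.eq, Subgroup.mem_subgroupOf] at h1
  have h2 := hx _ h1
  have h3 : ((r y : S) : Γ) = ((Quotient.out y : S) : Γ) * (((Quotient.out y)⁻¹ * r y : S) : Γ) := by
    push_cast
    rw [mul_inv_cancel_left]
  rw [h3, mul_smul, h2]

/-- The relative norm of an `S'`-fixed element is `S`-fixed. -/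
theorem relNorm_mem_fixedSub (S S' : Subgroup Γ) [Finite (S ⧸ S'.subgroupOf S)] {x : X}
    (hx : x ∈ fixedSub S') : relNorm S S' x ∈ fixedSub S := by
  intro s hs
  let s' : S := ⟨s, hs⟩
  -- another system of representatives
  have key := relNorm_eq_finprod_of_rep S S' hx
    (fun y => s' * Quotient.out (s'⁻¹ • y)) (fun y => by
      show ((s' * Quotient.out (s'⁻¹ • y) : S) : S ⧸ S'.subgroupOf S) = y
      have h1 : ((s' * Quotient.out (s'⁻¹ • y) : S) : S ⧸ S'.subgroupOf S) =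
          s' • ((Quotient.out (s'⁻¹ • y) : S) : S ⧸ S'.subgroupOf S) := rfl
      rw [h1, QuotientGroup.out_eq', smul_inv_smul])
  show s • relNorm S S' x = relNorm S S' x
  conv_rhs => rw [key]
  unfold relNorm
  have hsm : s • (∏ᶠ y : S ⧸ S'.subgroupOf S, (((Quotient.out y : S) : Γ) • x)) =
      ∏ᶠ y : S ⧸ S'.subgroupOf S, s • (((Quotient.out y : S) : Γ) • x) := by
    exact map_finprod (MulDistribMulAction.toMonoidHom X s) (Set.toFinite _)
  rw [hsm]
  refine finprod_eq_of_bijective (fun y => s' • y) (MulAction.bijective s') fun y => ?_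
  show s • ((Quotient.out y : S) : Γ) • x = ((s' * Quotient.out (s'⁻¹ • s' • y) : S) : Γ) • x
  rw [inv_smul_smul]
  push_cast
  rw [mul_smul]

/-- The relative norm as a finite product over any system of representatives indexed by a
`Fintype`. -/
theorem relNorm_eq_prod_of_bijective (S S' : Subgroup Γ) {x : X} (hx : x ∈ fixedSub S')
    {ι : Type*} [Fintype ι] (r : ι → S)
    (hr : Function.Bijective (fun i => (QuotientGroup.mk (r i) : S ⧸ S'.subgroupOf S))) :
    relNorm S S' x = ∏ i, ((r i : S) : Γ) • x := by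
  let e : ι ≃ S ⧸ S'.subgroupOf S := Equiv.ofBijective _ hr
  rw [relNorm_eq_finprod_of_rep S S' hx (fun y => r (e.symm y)) (fun y => e.apply_symm_apply y),
    ← finprod_eq_prod_of_fintype]
  exact finprod_comp_equiv e.symm (f := fun i => ((r i : S) : Γ) • x)

/-- The cyclic case: if `1, σ, …, σ^{n-1}` represent `S/S'` then the relative norm is
`∏_{i<n} σ^i • x`. -/
theorem relNorm_eq_prod_range_pow (S S' : Subgroup Γ) {x : X} (hx : x ∈ fixedSub S')
    (σ : Γ) (hσ : σ ∈ S) (n : ℕ)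
    (hr : Function.Bijective
      (fun i : Fin n => (QuotientGroup.mk (⟨σ, hσ⟩ ^ (i : ℕ) : S) : S ⧸ S'.subgroupOf S))) :
    relNorm S S' x = ∏ i ∈ Finset.range n, σ ^ i • x := by
  rw [relNorm_eq_prod_of_bijective S S' hx (fun i : Fin n => (⟨σ, hσ⟩ ^ (i : ℕ) : S)) hr,
    ← Fin.prod_univ_eq_prod_range (fun i => σ ^ i • x) n]
  rfl

end RelNorm

section Coind

variable {G D Ω : Type*} [Group G] [Group D] [CommGroup Ω] [MulDistribMulAction D Ω]
  (φ : D →* G)

/-- `Δ_g^H = φ⁻¹(g H g⁻¹)`: the decomposition group of the place `φ(D) g H`. -/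
def deltaAt (H : Subgroup G) (g : G) : Subgroup D where
  carrier := {d | g⁻¹ * φ d * g ∈ H}
  one_mem' := by
    show g⁻¹ * φ 1 * g ∈ H
    rw [map_one, mul_one, inv_mul_cancel]
    exact H.one_mem
  mul_mem' := fun {a b} ha hb => by
    have h : g⁻¹ * φ (a * b) * g = (g⁻¹ * φ a * g) * (g⁻¹ * φ b * g) := by
      rw [map_mul]; group
    show g⁻¹ * φ (a * b) * g ∈ H
    rw [h]
    exact H.mul_mem ha hb
  inv_mem' := fun {a} ha => by
    have h : g⁻¹ * φ a⁻¹ * g = (g⁻¹ * φ a * g)⁻¹ := by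
      rw [map_inv]; group
    show g⁻¹ * φ a⁻¹ * g ∈ H
    rw [h]
    exact H.inv_mem ha

variable {φ} in
theorem mem_deltaAt {H : Subgroup G} {g : G} {d : D} :
    d ∈ deltaAt φ H g ↔ g⁻¹ * φ d * g ∈ H := Iff.rfl

theorem deltaAt_mono {N H : Subgroup G} (h : N ≤ H) (g : G) : deltaAt φ N g ≤ deltaAt φ H g :=
  fun _ hd => h hd

/-- The right-`H`-invariant coinduced functions, i.e. the `H`-invariants of `coindFun φ`. -/
def coindInv (H : Subgroup G) : Subgroup (coindFun (Ω := Ω) φ) where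
  carrier := {f | ∀ h ∈ H, ∀ g, f.1 (g * h) = f.1 g}
  one_mem' := fun _ _ _ => rfl
  mul_mem' := fun {a b} ha hb h hh g => by
    show a.1 (g * h) * b.1 (g * h) = a.1 g * b.1 g
    rw [ha h hh g, hb h hh g]
  inv_mem' := fun {a} ha h hh g => by
    show (a.1 (g * h))⁻¹ = (a.1 g)⁻¹
    rw [ha h hh g]

variable {φ} in
theorem mem_coindInv {H : Subgroup G} {f : coindFun (Ω := Ω) φ} :
    f ∈ coindInv φ H ↔ ∀ h ∈ H, ∀ g, f.1 (g * h) = f.1 g := Iff.rfl

variable {φ} in
theorem mem_coindInv_iff_smul {H : Subgroup G} {f : coindFun (Ω := Ω) φ} :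
    f ∈ coindInv φ H ↔ ∀ h ∈ H, h • f = f := by
  constructor
  · intro hf h hh
    exact Subtype.ext (funext fun g => hf h hh g)
  · intro hf h hh g
    have := hf h hh
    exact congrFun (congrArg Subtype.val this) g

theorem coindInv_eq_fixedSub (H : Subgroup G) :
    coindInv (Ω := Ω) φ H = fixedSub (X := coindFun (Ω := Ω) φ) H := by
  ext f
  exact mem_coindInv_iff_smul

theorem coindInv_anti {N H : Subgroup G} (h : N ≤ H) : coindInv (Ω := Ω) φ H ≤ coindInv φ N :=
  fun _ hf n hn g => hf n (h hn) g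

variable {φ} in
/-- The value at `g` of an `H`-invariant function is fixed by `Δ_g^H`. -/
theorem apply_mem_fixedSub {H : Subgroup G} {f : coindFun (Ω := Ω) φ} (hf : f ∈ coindInv φ H)
    (g : G) : f.1 g ∈ fixedSub (X := Ω) (deltaAt φ H g) := by
  intro d hd
  rw [← f.2 d g]
  have h : φ d * g = g * (g⁻¹ * φ d * g) := by group
  rw [h]
  exact hf _ hd g

section OfBase

variable (N : Subgroup G) (𝒢 : Set G) (b : G → Ω)

open scoped Classical in
/-- The function with value `d • b g` at `φ d * g * n` (`g ∈ 𝒢`, `n ∈ N`) and `1` elsewhere. -/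
noncomputable def ofBaseFun : G → Ω :=
  fun x => if h : ∃ g ∈ 𝒢, ∃ d : D, ∃ n ∈ N, x = φ d * g * n then
    h.choose_spec.2.choose • b h.choose else 1

variable {φ N 𝒢 b}

theorem ofBaseFun_of_not {x : G} (h : ¬ ∃ g ∈ 𝒢, ∃ d : D, ∃ n ∈ N, x = φ d * g * n) :
    ofBaseFun φ N 𝒢 b x = 1 := by
  unfold ofBaseFun
  exact dif_neg h

variable (h𝒢 : ∀ g ∈ 𝒢, ∀ g' ∈ 𝒢, (∃ d : D, ∃ n ∈ N, g' = φ d * g * n) → g' = g)
  (hb : ∀ g ∈ 𝒢, b g ∈ fixedSub (X := Ω) (deltaAt φ N g))

include h𝒢 hb in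
theorem smul_eq_of_mul_eq {g g₀ : G} (hg : g ∈ 𝒢) (hg₀ : g₀ ∈ 𝒢) {d d₀ : D} {n n₀ : G}
    (hn : n ∈ N) (hn₀ : n₀ ∈ N) (heq : φ d * g * n = φ d₀ * g₀ * n₀) : d₀ • b g₀ = d • b g := by
  -- `g₀ = g`
  have hgg : g₀ = g := by
    refine h𝒢 g hg g₀ hg₀ ⟨d₀⁻¹ * d, n * n₀⁻¹, N.mul_mem hn (N.inv_mem hn₀), ?_⟩
    have : g₀ = (φ d₀)⁻¹ * (φ d₀ * g₀ * n₀) * n₀⁻¹ := by group
    rw [this, ← heq, map_mul, map_inv]
    group
  subst hgg
  -- `d₀⁻¹ d ∈ Δ_g^N`
  have hmem : d₀⁻¹ * d ∈ deltaAt φ N g₀ := by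
    show g₀⁻¹ * φ (d₀⁻¹ * d) * g₀ ∈ N
    have : g₀⁻¹ * φ (d₀⁻¹ * d) * g₀ = n₀ * n⁻¹ := by
      rw [map_mul, map_inv]
      have h1 : φ d * g₀ = φ d₀ * g₀ * n₀ * n⁻¹ := by rw [← heq]; group
      calc g₀⁻¹ * ((φ d₀)⁻¹ * φ d) * g₀ = g₀⁻¹ * (φ d₀)⁻¹ * (φ d * g₀) := by group
        _ = g₀⁻¹ * (φ d₀)⁻¹ * (φ d₀ * g₀ * n₀ * n⁻¹) := by rw [h1]
        _ = n₀ * n⁻¹ := by group
    rw [this]
    exact N.mul_mem hn₀ (N.inv_mem hn)
  have := hb g₀ hg _ hmem
  rw [mul_smul] at this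
  calc d₀ • b g₀ = d₀ • d₀⁻¹ • d • b g₀ := by rw [this]
    _ = d • b g₀ := by rw [smul_inv_smul]

include h𝒢 hb in
theorem ofBaseFun_apply {g : G} (hg : g ∈ 𝒢) (d : D) {n : G} (hn : n ∈ N) :
    ofBaseFun φ N 𝒢 b (φ d * g * n) = d • b g := by
  have h : ∃ g' ∈ 𝒢, ∃ d' : D, ∃ n' ∈ N, φ d * g * n = φ d' * g' * n' := ⟨g, hg, d, n, hn, rfl⟩
  have e : ofBaseFun φ N 𝒢 b (φ d * g * n) = h.choose_spec.2.choose • b h.choose := by
    unfold ofBaseFun
    exact dif_pos h
  rw [e]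
  obtain ⟨n₀, hn₀, heq⟩ := h.choose_spec.2.choose_spec
  exact smul_eq_of_mul_eq h𝒢 hb hg h.choose_spec.1 hn hn₀ heq

include h𝒢 hb in
theorem ofBaseFun_mem : ofBaseFun φ N 𝒢 b ∈ coindFun (Ω := Ω) φ := by
  intro d x
  by_cases h : ∃ g ∈ 𝒢, ∃ d' : D, ∃ n ∈ N, x = φ d' * g * n
  · obtain ⟨g, hg, d', n, hn, rfl⟩ := h
    have : φ d * (φ d' * g * n) = φ (d * d') * g * n := by rw [map_mul]; group
    rw [this, ofBaseFun_apply h𝒢 hb hg _ hn, ofBaseFun_apply h𝒢 hb hg _ hn, mul_smul]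
  · have h' : ¬ ∃ g ∈ 𝒢, ∃ d' : D, ∃ n ∈ N, φ d * x = φ d' * g * n := by
      rintro ⟨g, hg, d', n, hn, he⟩
      refine h ⟨g, hg, d⁻¹ * d', n, hn, ?_⟩
      have : x = (φ d)⁻¹ * (φ d * x) := by group
      rw [this, he, map_mul, map_inv]
      group
    rw [ofBaseFun_of_not h, ofBaseFun_of_not h', smul_one]

/-- The `N`-invariant coinduced function with prescribed values at the base points `𝒢` (lying in
distinct double cosets `φ(D) g N`), and `1` on the other double cosets. -/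
noncomputable def ofBase : coindFun (Ω := Ω) φ := ⟨ofBaseFun φ N 𝒢 b, ofBaseFun_mem h𝒢 hb⟩

theorem ofBase_apply {g : G} (hg : g ∈ 𝒢) (d : D) {n : G} (hn : n ∈ N) :
    (ofBase h𝒢 hb).1 (φ d * g * n) = d • b g := ofBaseFun_apply h𝒢 hb hg d hn

theorem ofBase_apply_self {g : G} (hg : g ∈ 𝒢) : (ofBase h𝒢 hb).1 g = b g := by
  have := ofBase_apply h𝒢 hb hg 1 N.one_mem
  rwa [map_one, one_mul, mul_one, one_smul] at this

theorem ofBase_apply_of_not {x : G} (h : ¬ ∃ g ∈ 𝒢, ∃ d : D, ∃ n ∈ N, x = φ d * g * n) :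
    (ofBase h𝒢 hb).1 x = 1 := ofBaseFun_of_not h

theorem ofBase_mem_coindInv : ofBase h𝒢 hb ∈ coindInv φ N := by
  intro n hn x
  by_cases h : ∃ g ∈ 𝒢, ∃ d' : D, ∃ n ∈ N, x = φ d' * g * n
  · obtain ⟨g, hg, d', n', hn', rfl⟩ := h
    rw [mul_assoc, ofBase_apply h𝒢 hb hg _ (N.mul_mem hn' hn), ofBase_apply h𝒢 hb hg _ hn']
  · have h' : ¬ ∃ g ∈ 𝒢, ∃ d' : D, ∃ n' ∈ N, x * n = φ d' * g * n' := by
      rintro ⟨g, hg, d', n', hn', he⟩
      refine h ⟨g, hg, d', n' * n⁻¹, N.mul_mem hn' (N.inv_mem hn), ?_⟩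
      have : x = x * n * n⁻¹ := by group
      rw [this, he]
      group
    rw [ofBase_apply_of_not h𝒢 hb h, ofBase_apply_of_not h𝒢 hb h']

end OfBase

section InvEquiv

variable (H : Subgroup G)

/-- The chosen representative of a double coset `φ(D) g H`. -/
noncomputable def dcRep (c : DoubleCoset.Quotient (φ.range : Set G) (H : Set G)) : G :=
  Quotient.out c

theorem mk_dcRep (c : DoubleCoset.Quotient (φ.range : Set G) (H : Set G)) :
    DoubleCoset.mk φ.range H (dcRep φ H c) = c := DoubleCoset.out_eq' _ _ c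

theorem exists_eq_mul_dcRep (x : G) :
    ∃ d : D, ∃ h ∈ H, x = φ d * dcRep φ H (DoubleCoset.mk φ.range H x) * h := by
  obtain ⟨a, k, ⟨d, rfl⟩, hk, he⟩ := DoubleCoset.mk_out_eq_mul φ.range H x
  refine ⟨d⁻¹, k⁻¹, H.inv_mem hk, ?_⟩
  unfold dcRep
  rw [he, map_inv]
  group

theorem dcRep_base : ∀ g ∈ Set.range (dcRep φ H), ∀ g' ∈ Set.range (dcRep φ H),
    (∃ d : D, ∃ n ∈ H, g' = φ d * g * n) → g' = g := by
  rintro _ ⟨c, rfl⟩ _ ⟨c', rfl⟩ ⟨d, n, hn, he⟩
  have : DoubleCoset.mk φ.range H (dcRep φ H c) = DoubleCoset.mk φ.range H (dcRep φ H c') :=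
    (DoubleCoset.eq φ.range H _ _).2 ⟨φ d, ⟨d, rfl⟩, n, hn, he⟩
  rw [mk_dcRep, mk_dcRep] at this
  rw [this]

variable {φ H} in
/-- Two `H`-invariant functions agreeing on the representatives are equal. -/
theorem ext_of_dcRep {f f' : coindFun (Ω := Ω) φ} (hf : f ∈ coindInv φ H)
    (hf' : f' ∈ coindInv φ H) (h : ∀ c, f.1 (dcRep φ H c) = f'.1 (dcRep φ H c)) : f = f' := by
  apply Subtype.ext
  funext x
  obtain ⟨d, k, hk, he⟩ := exists_eq_mul_dcRep φ H x
  rw [he, hf k hk, hf' k hk, f.2, f'.2, h]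

theorem ofValues_aux
    (β : ∀ c : DoubleCoset.Quotient (φ.range : Set G) (H : Set G),
      fixedSub (X := Ω) (deltaAt φ H (dcRep φ H c))) :
    ∀ g ∈ Set.range (dcRep φ H),
      (fun g => ((β (DoubleCoset.mk φ.range H g)).1 : Ω)) g ∈
        fixedSub (X := Ω) (deltaAt φ H g) := by
  rintro _ ⟨c, rfl⟩
  show ((β (DoubleCoset.mk φ.range H (dcRep φ H c))).1 : Ω) ∈ _
  rw [mk_dcRep]
  exact (β c).2

/-- The `H`-invariant function with prescribed values at the representatives. -/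
noncomputable def ofValues
    (β : ∀ c : DoubleCoset.Quotient (φ.range : Set G) (H : Set G),
      fixedSub (X := Ω) (deltaAt φ H (dcRep φ H c))) : coindInv (Ω := Ω) φ H :=
  ⟨ofBase (dcRep_base φ H) (ofValues_aux φ H β),
    ofBase_mem_coindInv (dcRep_base φ H) (ofValues_aux φ H β)⟩

theorem ofValues_apply_dcRep
    (β : ∀ c : DoubleCoset.Quotient (φ.range : Set G) (H : Set G),
      fixedSub (X := Ω) (deltaAt φ H (dcRep φ H c)))
    (c : DoubleCoset.Quotient (φ.range : Set G) (H : Set G)) :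
    (ofValues φ H β).1.1 (dcRep φ H c) = (β c : Ω) := by
  have h := ofBase_apply_self (dcRep_base φ H) (ofValues_aux φ H β) ⟨c, rfl⟩
  rw [mk_dcRep] at h
  exact h

/-- **Degree `0` semi-local decomposition**: `M^H ≃ ∏_{c ∈ φ(D)\G/H} Ω^{Δ_c}`,
`f ↦ (f (dcRep c))_c`. -/
noncomputable def invEquiv :
    coindInv (Ω := Ω) φ H ≃*
      ∀ c : DoubleCoset.Quotient (φ.range : Set G) (H : Set G),
        fixedSub (X := Ω) (deltaAt φ H (dcRep φ H c)) where
  toFun f := fun c => ⟨f.1.1 (dcRep φ H c), apply_mem_fixedSub f.2 _⟩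
  invFun β := ofValues φ H β
  left_inv f := by
    apply Subtype.ext
    refine ext_of_dcRep (ofValues φ H _).2 f.2 fun c => ?_
    rw [ofValues_apply_dcRep]
  right_inv β := by
    funext c
    apply Subtype.ext
    exact ofValues_apply_dcRep φ H β c
  map_mul' f f' := rfl

@[simp] theorem invEquiv_apply_coe (f : coindInv (Ω := Ω) φ H)
    (c : DoubleCoset.Quotient (φ.range : Set G) (H : Set G)) :
    ((invEquiv φ H f c : fixedSub (X := Ω) (deltaAt φ H (dcRep φ H c))) : Ω) =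
      f.1.1 (dcRep φ H c) := rfl

theorem invEquiv_symm_apply_dcRep
    (β : ∀ c : DoubleCoset.Quotient (φ.range : Set G) (H : Set G),
      fixedSub (X := Ω) (deltaAt φ H (dcRep φ H c)))
    (c : DoubleCoset.Quotient (φ.range : Set G) (H : Set G)) :
    ((invEquiv φ H).symm β).1.1 (dcRep φ H c) = (β c : Ω) := by
  have := congrFun ((invEquiv φ H).apply_symm_apply β) c
  exact congrArg Subtype.val this

end InvEquiv

section Norm

variable (N H : Subgroup G)

/-- Conjugation `Δ_g^H → H`, `d ↦ g⁻¹ φ(d) g`. -/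
def conjHom (g : G) : deltaAt φ H g →* H where
  toFun d := ⟨g⁻¹ * φ d * g, d.2⟩
  map_one' := by
    apply Subtype.ext
    show g⁻¹ * φ ((1 : deltaAt φ H g) : D) * g = 1
    rw [Subgroup.coe_one, map_one, mul_one, inv_mul_cancel]
  map_mul' a b := by
    apply Subtype.ext
    show g⁻¹ * φ ((a * b : deltaAt φ H g) : D) * g = (g⁻¹ * φ a * g) * (g⁻¹ * φ b * g)
    rw [Subgroup.coe_mul, map_mul]
    group

@[simp] theorem coe_conjHom (g : G) (d : deltaAt φ H g) :
    ((conjHom φ H g d : H) : G) = g⁻¹ * φ d * g := rfl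

theorem conjHom_mem_iff (g : G) (d : deltaAt φ H g) :
    conjHom φ H g d ∈ N.subgroupOf H ↔ d ∈ (deltaAt φ N g).subgroupOf (deltaAt φ H g) := Iff.rfl

/-- The map `Δ_g^H / Δ_g^N → H / N` induced by conjugation. -/
def conjQuot (g : G) :
    deltaAt φ H g ⧸ (deltaAt φ N g).subgroupOf (deltaAt φ H g) → H ⧸ N.subgroupOf H :=
  Quotient.map' (conjHom φ H g) (by
    intro a b hab
    rw [QuotientGroup.leftRel_apply] at hab ⊢
    rw [← map_inv, ← map_mul]
    exact (conjHom_mem_iff φ N H g _).2 hab)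

theorem conjQuot_mk (g : G) (d : deltaAt φ H g) :
    conjQuot φ N H g (QuotientGroup.mk d) = QuotientGroup.mk (conjHom φ H g d) := rfl

theorem conjQuot_injective (g : G) : Function.Injective (conjQuot φ N H g) := by
  intro a b
  induction a using QuotientGroup.induction_on with
  | H a =>
    induction b using QuotientGroup.induction_on with
    | H b =>
      intro h
      rw [conjQuot_mk, conjQuot_mk, QuotientGroup.eq, ← map_inv, ← map_mul] at h
      exact QuotientGroup.eq.2 ((conjHom_mem_iff φ N H g _).1 h)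

instance finite_deltaAt_quot [Finite (H ⧸ N.subgroupOf H)] (g : G) :
    Finite (deltaAt φ H g ⧸ (deltaAt φ N g).subgroupOf (deltaAt φ H g)) :=
  Finite.of_injective _ (conjQuot_injective φ N H g)

/-- evaluation at a point, as a monoid homomorphism -/
def evalHomAt (g : G) : coindFun (Ω := Ω) φ →* Ω where
  toFun f := f.1 g
  map_one' := rfl
  map_mul' _ _ := rfl

theorem relNorm_apply [Finite (H ⧸ N.subgroupOf H)] (f' : coindFun (Ω := Ω) φ) (g : G) :
    (relNorm (X := coindFun (Ω := Ω) φ) H N f').1 g =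
      ∏ᶠ y : H ⧸ N.subgroupOf H, f'.1 (g * ((Quotient.out y : H) : G)) := by
  unfold relNorm
  exact map_finprod (evalHomAt φ g) (Set.toFinite _)

/-- **Local norms are global norms.**  For `N ≤ H` of finite index, an `H`-invariant function
whose values at the representatives `dcRep c` of `φ(D)\G/H` are relative norms
`relNorm Δ_c^H Δ_c^N b_c` of `Δ_c^N`-fixed elements is the relative norm `relNorm H N f'` of an
`N`-invariant function. -/
theorem exists_relNorm_eq (hNH : N ≤ H) [Finite (H ⧸ N.subgroupOf H)]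
    {f : coindFun (Ω := Ω) φ} (hf : f ∈ coindInv φ H)
    (hloc : ∀ c : DoubleCoset.Quotient (φ.range : Set G) (H : Set G),
      ∃ b ∈ fixedSub (X := Ω) (deltaAt φ N (dcRep φ H c)),
        f.1 (dcRep φ H c) = relNorm (deltaAt φ H (dcRep φ H c)) (deltaAt φ N (dcRep φ H c)) b) :
    ∃ f' ∈ coindInv (Ω := Ω) φ N, f = relNorm (X := coindFun (Ω := Ω) φ) H N f' := by
  choose b hb hfb using hloc
  -- base points and values
  have h𝒢 : ∀ g ∈ Set.range (dcRep φ H), ∀ g' ∈ Set.range (dcRep φ H),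
      (∃ d : D, ∃ n ∈ N, g' = φ d * g * n) → g' = g := by
    rintro g hg g' hg' ⟨d, n, hn, he⟩
    exact dcRep_base φ H g hg g' hg' ⟨d, n, hNH hn, he⟩
  have hb' : ∀ g ∈ Set.range (dcRep φ H),
      (fun g => b (DoubleCoset.mk φ.range H g)) g ∈ fixedSub (X := Ω) (deltaAt φ N g) := by
    rintro _ ⟨c, rfl⟩
    show b (DoubleCoset.mk φ.range H (dcRep φ H c)) ∈ _
    rw [mk_dcRep]
    exact hb c
  refine ⟨ofBase h𝒢 hb', ofBase_mem_coindInv h𝒢 hb', ?_⟩
  set f' := ofBase h𝒢 hb' with hf'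
  have hf'N : f' ∈ coindInv φ N := ofBase_mem_coindInv h𝒢 hb'
  have hnorm : relNorm (X := coindFun (Ω := Ω) φ) H N f' ∈ coindInv φ H := by
    rw [coindInv_eq_fixedSub]
    apply relNorm_mem_fixedSub
    rw [← coindInv_eq_fixedSub]
    exact hf'N
  refine ext_of_dcRep hf hnorm fun c => ?_
  set g := dcRep φ H c with hg
  have hgmem : g ∈ Set.range (dcRep φ H) := ⟨c, rfl⟩
  have hbg : b (DoubleCoset.mk φ.range H g) = b c := by
    show b (DoubleCoset.mk φ.range H (dcRep φ H c)) = b c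
    rw [mk_dcRep]
  rw [hfb c, relNorm_apply]
  -- the function on `H / N`
  set F : H ⧸ N.subgroupOf H → Ω := fun y => f'.1 (g * ((Quotient.out y : H) : G)) with hF
  -- `F` on the image of `Δ^H / Δ^N`
  have hFimg : ∀ z : deltaAt φ H g ⧸ (deltaAt φ N g).subgroupOf (deltaAt φ H g),
      F (conjQuot φ N H g z) = ((Quotient.out z : deltaAt φ H g) : D) • b c := by
    intro z
    set d : deltaAt φ H g := Quotient.out z with hd
    have hz : conjQuot φ N H g z = QuotientGroup.mk (conjHom φ H g d) := by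
      rw [← conjQuot_mk, hd, QuotientGroup.out_eq']
    -- `out (ψ z) = ψ d * n`
    have h1 : (QuotientGroup.mk (Quotient.out (conjQuot φ N H g z)) : H ⧸ N.subgroupOf H) =
        QuotientGroup.mk (conjHom φ H g d) := by
      rw [QuotientGroup.out_eq', hz]
    rw [QuotientGroup.eq] at h1
    have h1' : (conjHom φ H g d)⁻¹ * Quotient.out (conjQuot φ N H g z) ∈ N.subgroupOf H :=
      (N.subgroupOf H).inv_mem_iff.1 (by simpa using h1)
    rw [Subgroup.mem_subgroupOf] at h1'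
    set n : G := (((conjHom φ H g d)⁻¹ * Quotient.out (conjQuot φ N H g z) : H) : G) with hn
    have h2 : g * ((Quotient.out (conjQuot φ N H g z) : H) : G) = φ d * g * n := by
      rw [hn]
      push_cast
      rw [coe_conjHom]
      group
    show f'.1 (g * ((Quotient.out (conjQuot φ N H g z) : H) : G)) = _
    rw [h2, hf', ofBase_apply h𝒢 hb' hgmem _ h1', hbg]
  -- `F = 1` off the image
  have hFoff : ∀ y ∈ Function.mulSupport F, y ∈ Set.range (conjQuot φ N H g) := by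
    intro y hy
    by_contra hcon
    apply hy
    show f'.1 (g * ((Quotient.out y : H) : G)) = 1
    rw [hf']
    apply ofBase_apply_of_not
    rintro ⟨g', hg', d, n, hn, he⟩
    -- `g' = g`
    have hgg : g' = g := by
      refine dcRep_base φ H g hgmem g' hg' ⟨d⁻¹, ((Quotient.out y : H) : G) * n⁻¹,
        H.mul_mem (Quotient.out y).2 (H.inv_mem (hNH hn)), ?_⟩
      have : g' = (φ d)⁻¹ * (φ d * g' * n) * n⁻¹ := by group
      rw [this, ← he, map_inv]
      group
    rw [hgg] at he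
    -- `d ∈ Δ^H`
    have hd : g⁻¹ * φ d * g = ((Quotient.out y : H) : G) * n⁻¹ := by
      have : φ d * g = g * ((Quotient.out y : H) : G) * n⁻¹ := by rw [he]; group
      calc g⁻¹ * φ d * g = g⁻¹ * (φ d * g) := by group
        _ = g⁻¹ * (g * ((Quotient.out y : H) : G) * n⁻¹) := by rw [this]
        _ = ((Quotient.out y : H) : G) * n⁻¹ := by group
    have hdH : d ∈ deltaAt φ H g := by
      show g⁻¹ * φ d * g ∈ H
      rw [hd]
      exact H.mul_mem (Quotient.out y).2 (H.inv_mem (hNH hn))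
    apply hcon
    refine ⟨QuotientGroup.mk ⟨d, hdH⟩, ?_⟩
    rw [conjQuot_mk, ← QuotientGroup.out_eq' y, QuotientGroup.eq, Subgroup.mem_subgroupOf]
    have : (((conjHom φ H g ⟨d, hdH⟩)⁻¹ * Quotient.out y : H) : G) = n := by
      push_cast
      rw [coe_conjHom]
      show (g⁻¹ * φ d * g)⁻¹ * _ = n
      rw [hd]
      group
    rw [this]
    exact hn
  rw [← finprod_mem_univ, finprod_mem_inter_mulSupport_eq' F Set.univ
    (Set.range (conjQuot φ N H g)) (fun y hy => ⟨fun _ => hFoff y hy, fun _ => Set.mem_univ _⟩),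
    finprod_mem_range (conjQuot_injective φ N H g)]
  unfold relNorm
  exact (finprod_congr hFimg).symm

end Norm

end Coind

end Fermat.Agent.S55.GL.CoindInv
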