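/-
S55 (T4), block GL2 / GLO3 part 4 (helper3): `CoindInv` with an ARBITRARY system of representatives
of the double cosets `φ(D) \ G / H` (instead of `Quotient.out`), so that the local fields at the
places can be taken at prescribed representatives (e.g. helper2's `σ_v`).

* `IsRepSystem φ H r` : `r c` lies in the double coset `c`;
* `invEquivOf hr : coindInv φ H ≃* ∏_c Ω^{Δ_{r c}}`, `f ↦ (f (r c))_c`;
* `exists_relNorm_eq_of hr` : local norms at the `r c` are global norms.
-/
import Mathlib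
import Fermat.Agent.S55.GL.CoindInv

set_option autoImplicit false
set_option linter.style.haveILetI false

namespace Fermat.Agent.S55.GL.CoindInv

open Fermat.Agent.S55.GL.CoindFun

variable {G D Ω : Type*} [Group G] [Group D] [CommGroup Ω] [MulDistribMulAction D Ω]
  (φ : D →* G) (H : Subgroup G)

/-- `r` is a system of representatives of the double cosets `φ(D) \\ G / H`. -/
def IsRepSystem (r : DoubleCoset.Quotient (φ.range : Set G) (H : Set G) → G) : Prop :=
  ∀ c, DoubleCoset.mk φ.range H (r c) = c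

theorem isRepSystem_dcRep : IsRepSystem φ H (dcRep φ H) := mk_dcRep φ H

variable {φ H} {r : DoubleCoset.Quotient (φ.range : Set G) (H : Set G) → G}

theorem IsRepSystem.exists_eq_mul (hr : IsRepSystem φ H r) (x : G) :
    ∃ d : D, ∃ h ∈ H, x = φ d * r (DoubleCoset.mk φ.range H x) * h := by
  have h1 := hr (DoubleCoset.mk φ.range H x)
  obtain ⟨a, ⟨d, rfl⟩, k, hk, he⟩ := (DoubleCoset.eq φ.range H _ _).1 h1
  exact ⟨d, k, hk, he⟩

theorem IsRepSystem.base (hr : IsRepSystem φ H r) : ∀ g ∈ Set.range r, ∀ g' ∈ Set.range r,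
    (∃ d : D, ∃ n ∈ H, g' = φ d * g * n) → g' = g := by
  rintro _ ⟨c, rfl⟩ _ ⟨c', rfl⟩ ⟨d, n, hn, he⟩
  have : DoubleCoset.mk φ.range H (r c) = DoubleCoset.mk φ.range H (r c') :=
    (DoubleCoset.eq φ.range H _ _).2 ⟨φ d, ⟨d, rfl⟩, n, hn, he⟩
  rw [hr, hr] at this
  rw [this]

/-- Two `H`-invariant functions agreeing on the representatives are equal. -/
theorem IsRepSystem.ext (hr : IsRepSystem φ H r) {f f' : coindFun (Ω := Ω) φ}
    (hf : f ∈ coindInv φ H) (hf' : f' ∈ coindInv φ H) (h : ∀ c, f.1 (r c) = f'.1 (r c)) :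
    f = f' := by
  apply Subtype.ext
  funext x
  obtain ⟨d, k, hk, he⟩ := hr.exists_eq_mul x
  rw [he, hf k hk, hf' k hk, f.2, f'.2, h]

theorem IsRepSystem.ofValues_aux (hr : IsRepSystem φ H r)
    (β : ∀ c : DoubleCoset.Quotient (φ.range : Set G) (H : Set G),
      fixedSub (X := Ω) (deltaAt φ H (r c))) :
    ∀ g ∈ Set.range r,
      (fun g => ((β (DoubleCoset.mk φ.range H g)).1 : Ω)) g ∈
        fixedSub (X := Ω) (deltaAt φ H g) := by
  rintro _ ⟨c, rfl⟩
  show ((β (DoubleCoset.mk φ.range H (r c))).1 : Ω) ∈ _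
  rw [hr]
  exact (β c).2

/-- The `H`-invariant function with prescribed values at the representatives. -/
noncomputable def ofValuesOf (hr : IsRepSystem φ H r)
    (β : ∀ c : DoubleCoset.Quotient (φ.range : Set G) (H : Set G),
      fixedSub (X := Ω) (deltaAt φ H (r c))) : coindInv (Ω := Ω) φ H :=
  ⟨ofBase hr.base (hr.ofValues_aux β), ofBase_mem_coindInv hr.base (hr.ofValues_aux β)⟩

theorem ofValuesOf_apply (hr : IsRepSystem φ H r)
    (β : ∀ c : DoubleCoset.Quotient (φ.range : Set G) (H : Set G),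
      fixedSub (X := Ω) (deltaAt φ H (r c)))
    (c : DoubleCoset.Quotient (φ.range : Set G) (H : Set G)) :
    (ofValuesOf hr β).1.1 (r c) = (β c : Ω) := by
  have h := ofBase_apply_self hr.base (hr.ofValues_aux β) ⟨c, rfl⟩
  rw [hr] at h
  exact h

/-- **Degree `0` semi-local decomposition** at an arbitrary system of representatives:
`M^H ≃ ∏_c Ω^{Δ_{r c}}`, `f ↦ (f (r c))_c`. -/
noncomputable def invEquivOf (hr : IsRepSystem φ H r) :
    coindInv (Ω := Ω) φ H ≃*
      ∀ c : DoubleCoset.Quotient (φ.range : Set G) (H : Set G),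
        fixedSub (X := Ω) (deltaAt φ H (r c)) where
  toFun f := fun c => ⟨f.1.1 (r c), apply_mem_fixedSub f.2 _⟩
  invFun β := ofValuesOf hr β
  left_inv f := by
    apply Subtype.ext
    refine hr.ext (ofValuesOf hr _).2 f.2 fun c => ?_
    rw [ofValuesOf_apply]
  right_inv β := by
    funext c
    apply Subtype.ext
    exact ofValuesOf_apply hr β c
  map_mul' f f' := rfl

@[simp] theorem invEquivOf_apply_coe (hr : IsRepSystem φ H r) (f : coindInv (Ω := Ω) φ H)
    (c : DoubleCoset.Quotient (φ.range : Set G) (H : Set G)) :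
    ((invEquivOf hr f c : fixedSub (X := Ω) (deltaAt φ H (r c))) : Ω) = f.1.1 (r c) := rfl

theorem invEquivOf_symm_apply (hr : IsRepSystem φ H r)
    (β : ∀ c : DoubleCoset.Quotient (φ.range : Set G) (H : Set G),
      fixedSub (X := Ω) (deltaAt φ H (r c)))
    (c : DoubleCoset.Quotient (φ.range : Set G) (H : Set G)) :
    ((invEquivOf hr).symm β).1.1 (r c) = (β c : Ω) :=
  ofValuesOf_apply hr β c

/-- **Local norms are global norms**, at an arbitrary system of representatives. -/
theorem exists_relNorm_eq_of (hr : IsRepSystem φ H r) (N : Subgroup G) (hNH : N ≤ H)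
    [Finite (H ⧸ N.subgroupOf H)]
    {f : coindFun (Ω := Ω) φ} (hf : f ∈ coindInv φ H)
    (hloc : ∀ c : DoubleCoset.Quotient (φ.range : Set G) (H : Set G),
      ∃ b ∈ fixedSub (X := Ω) (deltaAt φ N (r c)),
        f.1 (r c) = relNorm (deltaAt φ H (r c)) (deltaAt φ N (r c)) b) :
    ∃ f' ∈ coindInv (Ω := Ω) φ N, f = relNorm (X := coindFun (Ω := Ω) φ) H N f' := by
  choose b hb hfb using hloc
  -- base points and values
  have h𝒢 : ∀ g ∈ Set.range r, ∀ g' ∈ Set.range r,
      (∃ d : D, ∃ n ∈ N, g' = φ d * g * n) → g' = g := by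
    rintro g hg g' hg' ⟨d, n, hn, he⟩
    exact hr.base g hg g' hg' ⟨d, n, hNH hn, he⟩
  have hb' : ∀ g ∈ Set.range r,
      (fun g => b (DoubleCoset.mk φ.range H g)) g ∈ fixedSub (X := Ω) (deltaAt φ N g) := by
    rintro _ ⟨c, rfl⟩
    show b (DoubleCoset.mk φ.range H (r c)) ∈ _
    rw [hr]
    exact hb c
  refine ⟨ofBase h𝒢 hb', ofBase_mem_coindInv h𝒢 hb', ?_⟩
  set f' := ofBase h𝒢 hb' with hf'
  have hf'N : f' ∈ coindInv φ N := ofBase_mem_coindInv h𝒢 hb'
  have hnorm : relNorm (X := coindFun (Ω := Ω) φ) H N f' ∈ coindInv φ H := by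
    rw [coindInv_eq_fixedSub]
    apply relNorm_mem_fixedSub
    rw [← coindInv_eq_fixedSub]
    exact hf'N
  refine hr.ext hf hnorm fun c => ?_
  set g := r c with hg
  have hgmem : g ∈ Set.range r := ⟨c, rfl⟩
  have hbg : b (DoubleCoset.mk φ.range H g) = b c := by
    show b (DoubleCoset.mk φ.range H (r c)) = b c
    rw [hr]
  rw [hfb c, relNorm_apply]
  -- the function on `H / N`
  set F : H ⧸ N.subgroupOf H → Ω := fun y => f'.1 (g * ((Quotient.out y : H) : G)) with hF
  -- `F` on the image of `Δ^H / Δ^N`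
  have hFimg : ∀ z : deltaAt φ H g ⧸ (deltaAt φ N g).subgroupOf (deltaAt φ H g),
      F (conjQuot φ N H g z) = ((Quotient.out z : deltaAt φ H g) : D) • b c := by
    intro z
    set d : deltaAt φ H g := Quotient.out z with hd
    have hz : conjQuot φ N H g z = QuotientGroup.mk (conjHom φ H g d) := by
      rw [← conjQuot_mk, hd, QuotientGroup.out_eq']
    have h1 : (QuotientGroup.mk (Quotient.out (conjQuot φ N H g z)) : H ⧸ N.subgroupOf H) =
        QuotientGroup.mk (conjHom φ H g d) := by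
      rw [QuotientGroup.out_eq', hz]
    rw [QuotientGroup.eq] at h1
    have h1' : (conjHom φ H g d)⁻¹ * Quotient.out (conjQuot φ N H g z) ∈ N.subgroupOf H :=
      (N.subgroupOf H).inv_mem_iff.1 (by simpa using h1)
    rw [Subgroup.mem_subgroupOf] at h1'
    set n : G := (((conjHom φ H g d)⁻¹ * Quotient.out (conjQuot φ N H g z) : H) : G) with hn
    have h2 : g * ((Quotient.out (conjQuot φ N H g z) : H) : G) = φ d * g * n := by
      rw [hn]
      push_cast
      rw [coe_conjHom]
      group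
    show f'.1 (g * ((Quotient.out (conjQuot φ N H g z) : H) : G)) = _
    rw [h2, hf', ofBase_apply h𝒢 hb' hgmem _ h1', hbg]
  -- `F = 1` off the image
  have hFoff : ∀ y ∈ Function.mulSupport F, y ∈ Set.range (conjQuot φ N H g) := by
    intro y hy
    by_contra hcon
    apply hy
    show f'.1 (g * ((Quotient.out y : H) : G)) = 1
    rw [hf']
    apply ofBase_apply_of_not
    rintro ⟨g', hg', d, n, hn, he⟩
    have hgg : g' = g := by
      refine hr.base g hgmem g' hg' ⟨d⁻¹, ((Quotient.out y : H) : G) * n⁻¹,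
        H.mul_mem (Quotient.out y).2 (H.inv_mem (hNH hn)), ?_⟩
      have : g' = (φ d)⁻¹ * (φ d * g' * n) * n⁻¹ := by group
      rw [this, ← he, map_inv]
      group
    rw [hgg] at he
    have hd : g⁻¹ * φ d * g = ((Quotient.out y : H) : G) * n⁻¹ := by
      have : φ d * g = g * ((Quotient.out y : H) : G) * n⁻¹ := by rw [he]; group
      calc g⁻¹ * φ d * g = g⁻¹ * (φ d * g) := by group
        _ = g⁻¹ * (g * ((Quotient.out y : H) : G) * n⁻¹) := by rw [this]
        _ = ((Quotient.out y : H) : G) * n⁻¹ := by group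
    have hdH : d ∈ deltaAt φ H g := by
      show g⁻¹ * φ d * g ∈ H
      rw [hd]
      exact H.mul_mem (Quotient.out y).2 (H.inv_mem (hNH hn))
    apply hcon
    refine ⟨QuotientGroup.mk ⟨d, hdH⟩, ?_⟩
    rw [conjQuot_mk, ← QuotientGroup.out_eq' y, QuotientGroup.eq, Subgroup.mem_subgroupOf]
    have : (((conjHom φ H g ⟨d, hdH⟩)⁻¹ * Quotient.out y : H) : G) = n := by
      push_cast
      rw [coe_conjHom]
      show (g⁻¹ * φ d * g)⁻¹ * _ = n
      rw [hd]
      group
    rw [this]
    exact hn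
  rw [← finprod_mem_univ, finprod_mem_inter_mulSupport_eq' F Set.univ
    (Set.range (conjQuot φ N H g)) (fun y hy => ⟨fun _ => hFoff y hy, fun _ => Set.mem_univ _⟩),
    finprod_mem_range (conjQuot_injective φ N H g)]
  unfold relNorm
  exact (finprod_congr hFimg).symm

end Fermat.Agent.S55.GL.CoindInv
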