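/-
S55 (T4), block GL2 / GLO3 part 4 (helper3): dictionary between the double cosets of the coinduced
idèle model and helper2's places.

`L/ℚ` finite Galois inside `ℚ̄`, `G = Gal(L/ℚ)`, `S ≤ G`, `F = fixedLift L S` the fixed field of
`S` as a subfield of `ℚ̄`.  `resΓ L : Γ →* G` the restriction.

* `samePlace_iff_mk_eq` : `σ, σ' ∈ Γ` define the same place of `F` over `q` iff their restrictions
  to `L` lie in the same double coset `D_q \ G / S` (`D_q = range (resLoc q L)`);
* `placeEquiv q L S : D_q \ G / S ≃ PlacesOver q F`;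
* `mem_fixedSub_deltaAt_iff` : the fixed field of the decomposition group `Δ_g^S` in `L_q` is
  `ℚ_q(ι σ F)` = helper2's `localFieldAt q F σ` (`σ|_L = g`).
-/
import Mathlib
import Fermat.Agent.S55.GL.Ideles
import Fermat.Agent.S55.GL.CoindInv
import Fermat.Agent.S55.GL.PlacesDecomp

set_option autoImplicit false
set_option linter.style.haveILetI false

namespace Fermat.Agent.S55.GL.IdelePlaces

open IntermediateField
open Fermat.Agent.S55.LocalDict Fermat.Agent.S55.GL.LocalFieldAt Fermat.Agent.S55.GL.CoindFun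
  Fermat.Agent.S55.GL.CoindInv Fermat.Agent.S55.GL.Places

local notation "Qbar" => AlgebraicClosure ℚ
local notation "Γ" => (AlgebraicClosure ℚ ≃ₐ[ℚ] AlgebraicClosure ℚ)

local instance isAlgebraicQbar_ip : Algebra.IsAlgebraic ℚ Qbar :=
  AlgebraicClosure.isAlgebraic ℚ
local instance isAlgClosureQbar_ip : IsAlgClosure ℚ Qbar :=
  ⟨inferInstance, inferInstance⟩
local instance normalQbar_ip : Normal ℚ Qbar :=
  IsAlgClosure.normal ℚ Qbar

variable (q : ℕ) [Fact q.Prime] (L : IntermediateField ℚ Qbar) [Normal ℚ L]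

/-- The restriction `Gal(ℚ̄/ℚ) → Gal(L/ℚ)`. -/
noncomputable def resΓ : Γ →* (L ≃ₐ[ℚ] L) := AlgEquiv.restrictNormalHom L

theorem coe_resΓ (σ : Γ) (x : L) : ((resΓ L σ x : L) : Qbar) = σ (x : Qbar) :=
  AlgEquiv.restrictNormal_commutes σ L x

theorem resΓ_surjective : Function.Surjective (resΓ L) :=
  AlgEquiv.restrictNormalHom_surjective Qbar

theorem resΓ_eq_one_iff (σ : Γ) : resΓ L σ = 1 ↔ σ ∈ L.fixingSubgroup := by
  rw [IntermediateField.mem_fixingSubgroup_iff]
  constructor
  · intro h x hx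
    have := coe_resΓ L σ ⟨x, hx⟩
    rw [h] at this
    exact this.symm
  · intro h
    ext x
    rw [coe_resΓ]
    exact h x x.2

/-- The fixed field of `S ≤ Gal(L/ℚ)`, as a subfield of `ℚ̄`. -/
def fixedLift (S : Subgroup (L ≃ₐ[ℚ] L)) : IntermediateField ℚ Qbar where
  carrier := {x | ∃ hx : x ∈ L, ∀ s ∈ S, s ⟨x, hx⟩ = ⟨x, hx⟩}
  mul_mem' := by
    rintro a b ⟨ha, ha'⟩ ⟨hb, hb'⟩
    refine ⟨mul_mem ha hb, fun s hs => ?_⟩
    have : (⟨a * b, mul_mem ha hb⟩ : L) = ⟨a, ha⟩ * ⟨b, hb⟩ := rfl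
    rw [this, map_mul, ha' s hs, hb' s hs]
  add_mem' := by
    rintro a b ⟨ha, ha'⟩ ⟨hb, hb'⟩
    refine ⟨add_mem ha hb, fun s hs => ?_⟩
    have : (⟨a + b, add_mem ha hb⟩ : L) = ⟨a, ha⟩ + ⟨b, hb⟩ := rfl
    rw [this, map_add, ha' s hs, hb' s hs]
  algebraMap_mem' := by
    intro r
    refine ⟨L.algebraMap_mem r, fun s _ => ?_⟩
    have : (⟨algebraMap ℚ Qbar r, L.algebraMap_mem r⟩ : L) = algebraMap ℚ L r := rfl
    rw [this, AlgEquiv.commutes]
  inv_mem' := by
    rintro a ⟨ha, ha'⟩
    refine ⟨inv_mem ha, fun s hs => ?_⟩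
    have : (⟨a⁻¹, inv_mem ha⟩ : L) = (⟨a, ha⟩ : L)⁻¹ := rfl
    rw [this, map_inv₀, ha' s hs]

variable {L} in
theorem mem_fixedLift {S : Subgroup (L ≃ₐ[ℚ] L)} {x : Qbar} :
    x ∈ fixedLift L S ↔ ∃ hx : x ∈ L, ∀ s ∈ S, s ⟨x, hx⟩ = ⟨x, hx⟩ := Iff.rfl

theorem fixedLift_le (S : Subgroup (L ≃ₐ[ℚ] L)) : fixedLift L S ≤ L := fun _ hx => hx.1

variable {L} in
theorem coe_mem_fixedLift_iff {S : Subgroup (L ≃ₐ[ℚ] L)} (x : L) :
    (x : Qbar) ∈ fixedLift L S ↔ ∀ s ∈ S, s x = x :=
  ⟨fun h => h.2, fun h => ⟨x.2, h⟩⟩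

variable {L} in
/-- Galois correspondence: an automorphism fixing the fixed field of `S` lies in `S`. -/
theorem mem_of_forall_fixedLift [FiniteDimensional ℚ L] {S : Subgroup (L ≃ₐ[ℚ] L)}
    {s' : L ≃ₐ[ℚ] L} (h : ∀ x : L, (x : Qbar) ∈ fixedLift L S → s' x = x) : s' ∈ S := by
  have h1 : s' ∈ (IntermediateField.fixedField S).fixingSubgroup := by
    rw [IntermediateField.mem_fixingSubgroup_iff]
    intro x hx
    apply h x
    rw [coe_mem_fixedLift_iff]
    intro s hs
    exact hx ⟨s, hs⟩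
  rwa [IntermediateField.fixingSubgroup_fixedField] at h1

instance finiteDimensional_fixedLift [FiniteDimensional ℚ L] (S : Subgroup (L ≃ₐ[ℚ] L)) :
    FiniteDimensional ℚ (fixedLift L S) :=
  FiniteDimensional.of_injective (IntermediateField.inclusion (fixedLift_le L S)).toLinearMap
    (IntermediateField.inclusion (fixedLift_le L S)).injective

/-- An element of `Γ` whose restriction to `L` lies in `S` fixes `fixedLift L S`. -/
theorem mem_fixingSubgroup_fixedLift {S : Subgroup (L ≃ₐ[ℚ] L)} {g : Γ} (hg : resΓ L g ∈ S) :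
    g ∈ (fixedLift L S).fixingSubgroup := by
  rw [IntermediateField.mem_fixingSubgroup_iff]
  rintro x ⟨hx, hx'⟩
  have := coe_resΓ L g ⟨x, hx⟩
  rw [hx' _ hg] at this
  exact this.symm

/-- An element of `Γ` fixing `fixedLift L S` restricts to an element of `S`. -/
theorem resΓ_mem_of_mem_fixingSubgroup [FiniteDimensional ℚ L] {S : Subgroup (L ≃ₐ[ℚ] L)} {g : Γ}
    (hg : g ∈ (fixedLift L S).fixingSubgroup) : resΓ L g ∈ S := by
  apply mem_of_forall_fixedLift
  intro x hx
  apply Subtype.ext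
  rw [coe_resΓ]
  exact (IntermediateField.mem_fixingSubgroup_iff _ _).1 hg x hx

/-- `resΓ` of a local automorphism is `resLoc` of its restriction to `L_q`. -/
theorem resΓ_localGaloisToGlobal (τ : PadicAlgCl q ≃ₐ[ℚ_[q]] PadicAlgCl q) :
    resΓ L (localGaloisToGlobal q τ) =
      resLoc q L (AlgEquiv.restrictNormalHom (localField q L) τ) :=
  (resLoc_restrictNormalHom q L τ).symm

/-- **Places of `L^S` over `q` are the double cosets `D_q \ G / S`.** -/
theorem samePlace_iff_mk_eq [FiniteDimensional ℚ L] (S : Subgroup (L ≃ₐ[ℚ] L)) (σ σ' : Γ) :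
    SamePlace q (fixedLift L S) σ σ' ↔
      DoubleCoset.mk (resLoc q L).range S (resΓ L σ) =
        DoubleCoset.mk (resLoc q L).range S (resΓ L σ') := by
  rw [samePlace_iff_exists_eq_mul, DoubleCoset.eq]
  constructor
  · rintro ⟨τ, g, hg, rfl⟩
    refine ⟨resΓ L (localGaloisToGlobal q τ), ?_, resΓ L g,
      resΓ_mem_of_mem_fixingSubgroup L hg, ?_⟩
    · rw [resΓ_localGaloisToGlobal]
      exact ⟨_, rfl⟩
    · rw [map_mul, map_mul]
  · rintro ⟨_, ⟨d, rfl⟩, s, hs, he⟩
    obtain ⟨τ, rfl⟩ := AlgEquiv.restrictNormalHom_surjective (F := ℚ_[q])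
      (K₁ := localField q L) (PadicAlgCl q) d
    obtain ⟨g, rfl⟩ := resΓ_surjective L s
    rw [← resΓ_localGaloisToGlobal, ← map_mul, ← map_mul] at he
    -- the discrepancy lies in `Gal(ℚ̄/L)`
    set ρ : Γ := localGaloisToGlobal q τ * σ * g with hρ
    have hk : resΓ L (ρ⁻¹ * σ') = 1 := by
      rw [map_mul, map_inv, he, inv_mul_cancel]
    rw [resΓ_eq_one_iff] at hk
    refine ⟨τ, g * (ρ⁻¹ * σ'), ?_, ?_⟩
    · refine Subgroup.mul_mem _ (mem_fixingSubgroup_fixedLift L hs) ?_
      exact IntermediateField.fixingSubgroup_antitone (fixedLift_le L S) hk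
    · rw [← mul_assoc, ← hρ, mul_inv_cancel_left]

/-- A chosen lift to `Γ` of an element of `Gal(L/ℚ)`. -/
noncomputable def liftΓ (g : L ≃ₐ[ℚ] L) : Γ := (resΓ_surjective L g).choose

@[simp] theorem resΓ_liftΓ (g : L ≃ₐ[ℚ] L) : resΓ L (liftΓ L g) = g :=
  (resΓ_surjective L g).choose_spec

/-- **The places of `L^S` over `q` are the double cosets `D_q \ G / S`**: `c ↦` the place
`x ↦ ‖ι (g x)‖`, `g` the representative `dcRep c`. -/
noncomputable def placeEquiv [FiniteDimensional ℚ L] (S : Subgroup (L ≃ₐ[ℚ] L)) :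
    DoubleCoset.Quotient ((resLoc q L).range : Set (L ≃ₐ[ℚ] L)) (S : Set (L ≃ₐ[ℚ] L)) ≃
      PlacesOver q (fixedLift L S) :=
  Equiv.ofBijective
    (fun c => placeOf q (fixedLift L S) (liftΓ L (dcRep (resLoc q L) S c)))
    ⟨fun c c' h => by
      have h1 := (samePlace_iff_mk_eq q L S _ _).1 ((placeOf_eq_iff q).1 h)
      rw [resΓ_liftΓ, resΓ_liftΓ, mk_dcRep, mk_dcRep] at h1
      exact h1,
    fun w => by
      obtain ⟨σ, rfl⟩ := placeOf_surjective q (fixedLift L S) w
      refine ⟨DoubleCoset.mk (resLoc q L).range S (resΓ L σ), ?_⟩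
      apply (placeOf_eq_iff q).2
      rw [samePlace_iff_mk_eq, resΓ_liftΓ, mk_dcRep]⟩

theorem placeEquiv_apply [FiniteDimensional ℚ L] (S : Subgroup (L ≃ₐ[ℚ] L))
    (c : DoubleCoset.Quotient ((resLoc q L).range : Set (L ≃ₐ[ℚ] L)) (S : Set (L ≃ₐ[ℚ] L))) :
    placeEquiv q L S c = placeOf q (fixedLift L S) (liftΓ L (dcRep (resLoc q L) S c)) := rfl

/-- The place of `σ` corresponds to the double coset of `σ|_L`. -/
theorem placeEquiv_mk [FiniteDimensional ℚ L] (S : Subgroup (L ≃ₐ[ℚ] L)) (σ : Γ) :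
    placeEquiv q L S (DoubleCoset.mk (resLoc q L).range S (resΓ L σ)) =
      placeOf q (fixedLift L S) σ := by
  rw [placeEquiv_apply]
  apply (placeOf_eq_iff q).2
  rw [samePlace_iff_mk_eq, resΓ_liftΓ, mk_dcRep]

/-! ### The local field at a place: fixed field of the decomposition group -/

section LocalField

variable {L}

theorem localFieldAt_fixedLift_le (S : Subgroup (L ≃ₐ[ℚ] L)) (σ : Γ) :
    localFieldAt q (fixedLift L S) σ ≤ localField q L := by
  rw [localFieldAt, localField_le_iff]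
  intro y hy
  obtain ⟨x, hx, rfl⟩ := (IntermediateField.mem_map _).1 hy
  have h := coe_resΓ L σ ⟨x, hx.1⟩
  show padicEmbedding q (σ x) ∈ localField q L
  rw [← h]
  exact padicEmbedding_mem_localField q (Subtype.mem _)

/-- `d ∈ Δ_g^S` iff `d` fixes `ι (g x)` for all `x ∈ L^S`. -/
theorem mem_deltaAt_iff_forall [FiniteDimensional ℚ L] (S : Subgroup (L ≃ₐ[ℚ] L))
    (g : L ≃ₐ[ℚ] L) (d : localField q L ≃ₐ[ℚ_[q]] localField q L) :
    d ∈ deltaAt (resLoc q L) S g ↔
      ∀ x : L, (x : Qbar) ∈ fixedLift L S → d (emb q L (g x)) = emb q L (g x) := by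
  rw [mem_deltaAt]
  constructor
  · intro h x hx
    have h1 : (g⁻¹ * resLoc q L d * g) x = x := (coe_mem_fixedLift_iff x).1 hx _ h
    have h2 : resLoc q L d (g x) = g x := by
      have := congrArg g h1
      simpa [AlgEquiv.mul_apply] using this
    rw [← emb_resLoc, h2]
  · intro h
    apply mem_of_forall_fixedLift
    intro x hx
    have h1 := h x hx
    rw [← emb_resLoc] at h1
    have h2 : resLoc q L d (g x) = g x := emb_injective q L h1
    show g⁻¹ (resLoc q L d (g x)) = x
    rw [h2]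
    exact g.symm_apply_apply x

/-- The decomposition group `Δ_g^S` is the group of automorphisms of `L_q` fixing `ℚ_q(ι σ L^S)`
(`σ|_L = g`). -/
theorem deltaAt_eq_fixingSubgroup [FiniteDimensional ℚ L] (S : Subgroup (L ≃ₐ[ℚ] L)) (σ : Γ) :
    deltaAt (resLoc q L) S (resΓ L σ) =
      (IntermediateField.restrict (localFieldAt_fixedLift_le q S σ)).fixingSubgroup := by
  ext d
  rw [mem_deltaAt_iff_forall, IntermediateField.mem_fixingSubgroup_iff]
  constructor
  · intro h
    have key : ∀ y ∈ localFieldAt q (fixedLift L S) σ, ∀ hy : y ∈ localField q L,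
        d ⟨y, hy⟩ = ⟨y, hy⟩ := by
      intro y hy
      rw [localFieldAt, localField] at hy
      induction hy using IntermediateField.adjoin_induction with
      | mem y hy =>
        obtain ⟨z, hz, rfl⟩ := hy
        obtain ⟨x, hx, rfl⟩ := (IntermediateField.mem_map _).1 hz
        intro hy'
        have h1 := h ⟨x, hx.1⟩ hx
        have h2 : (emb q L (resΓ L σ ⟨x, hx.1⟩) : localField q L) =
            ⟨padicEmbedding q (σ x), hy'⟩ := by
          apply Subtype.ext
          rw [coe_emb, coe_resΓ]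
        rw [h2] at h1
        exact h1
      | algebraMap a =>
        intro hy'
        exact d.commutes a
      | add x y hx hy ihx ihy =>
        intro hxy
        have hx' : x ∈ localField q L := localFieldAt_fixedLift_le q S σ (by
          rw [localFieldAt, localField]; exact hx)
        have hy' : y ∈ localField q L := localFieldAt_fixedLift_le q S σ (by
          rw [localFieldAt, localField]; exact hy)
        have : (⟨x + y, hxy⟩ : localField q L) = ⟨x, hx'⟩ + ⟨y, hy'⟩ := rfl
        rw [this, map_add, ihx hx', ihy hy']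
      | inv x hx ihx =>
        intro hx''
        have hx' : x ∈ localField q L := localFieldAt_fixedLift_le q S σ (by
          rw [localFieldAt, localField]; exact hx)
        have : (⟨x⁻¹, hx''⟩ : localField q L) = (⟨x, hx'⟩ : localField q L)⁻¹ := rfl
        rw [this, map_inv₀, ihx hx']
      | mul x y hx hy ihx ihy =>
        intro hxy
        have hx' : x ∈ localField q L := localFieldAt_fixedLift_le q S σ (by
          rw [localFieldAt, localField]; exact hx)
        have hy' : y ∈ localField q L := localFieldAt_fixedLift_le q S σ (by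
          rw [localFieldAt, localField]; exact hy)
        have : (⟨x * y, hxy⟩ : localField q L) = ⟨x, hx'⟩ * ⟨y, hy'⟩ := rfl
        rw [this, map_mul, ihx hx', ihy hy']
    intro y hy
    exact key y.1 ((IntermediateField.mem_restrict _ y).1 hy) y.2
  · intro h x hx
    apply h
    rw [IntermediateField.mem_restrict, coe_emb, coe_resΓ]
    rw [localFieldAt]
    exact padicEmbedding_mem_localField q ((IntermediateField.mem_map _).2 ⟨x, hx, rfl⟩)

instance isGalois_localField_ip [FiniteDimensional ℚ L] : IsGalois ℚ_[q] (localField q L) := ⟨⟩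

/-- **The local field at a place** (`c1`): the fixed points of the decomposition group `Δ_g^S`
in `L_q^×` are the units of `ℚ_q(ι σ L^S)` = helper2's `localFieldAt q (L^S) σ` (`σ|_L = g`). -/
theorem mem_fixedSub_deltaAt_iff [FiniteDimensional ℚ L] (S : Subgroup (L ≃ₐ[ℚ] L)) (σ : Γ)
    (b : (localField q L)ˣ) :
    b ∈ fixedSub (X := (localField q L)ˣ) (deltaAt (resLoc q L) S (resΓ L σ)) ↔
      (((b : localField q L)) : PadicAlgCl q) ∈ localFieldAt q (fixedLift L S) σ := by
  rw [deltaAt_eq_fixingSubgroup,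
    ← IntermediateField.mem_restrict (localFieldAt_fixedLift_le q S σ) (b : localField q L)]
  have h1 : ∀ y : localField q L,
      y ∈ IntermediateField.restrict (localFieldAt_fixedLift_le q S σ) ↔
        y ∈ IntermediateField.fixedField
          (IntermediateField.restrict (localFieldAt_fixedLift_le q S σ)).fixingSubgroup := by
    intro y
    rw [IsGalois.fixedField_fixingSubgroup]
  rw [h1, IntermediateField.mem_fixedField_iff]
  constructor
  · intro hb d hd
    have := hb d hd
    exact congrArg Units.val this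
  · intro hb d hd
    apply Units.ext
    exact hb d hd

end LocalField

end Fermat.Agent.S55.GL.IdelePlaces
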