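/-
S55 (T4), block GL2 / GLO3 part 5 (helper3): the component group of the idèle invariants at a place
of `K = L^S` is the unit group of the local field `K_v = localFieldAt q K σ`.
-/
import Mathlib
import Fermat.Agent.S55.GL.IdelePlaces
import Fermat.Agent.S55.GL.CoindInvRep

set_option autoImplicit false
set_option linter.style.haveILetI false

namespace Fermat.Agent.S55.GL.IdeleLocalUnits

open IntermediateField
open Fermat.Agent.S55.LocalDict Fermat.Agent.S55.GL.LocalFieldAt Fermat.Agent.S55.GL.CoindFun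
  Fermat.Agent.S55.GL.CoindInv Fermat.Agent.S55.GL.Places Fermat.Agent.S55.GL.IdelePlaces
  Fermat.Agent.S55.GL.Ideles

local notation "Qbar" => AlgebraicClosure ℚ
local notation "Γ" => (AlgebraicClosure ℚ ≃ₐ[ℚ] AlgebraicClosure ℚ)

section Index

/-- If `Φ : I → X` is a homomorphism with `Φ⁻¹(Y) ⊆ B`, then `[I : B ∩ I]` divides `[X : Y]`. -/
theorem relIndex_dvd_index_of_forall {M : Type*} [AddCommGroup M] {X : Type*} [CommGroup X]
    (I B : AddSubgroup M) (Φ : I →+ Additive X) (Y : Subgroup X)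
    (h : ∀ x : I, Additive.toMul (Φ x) ∈ Y → (x : M) ∈ B) : B.relIndex I ∣ Y.index := by
  have h1 : (Y.toAddSubgroup.comap Φ) ≤ B.addSubgroupOf I := fun x hx => h x hx
  have h2 : (B.addSubgroupOf I).index ∣ (Y.toAddSubgroup.comap Φ).index :=
    AddSubgroup.index_dvd_of_le h1
  have h3 : (Y.toAddSubgroup.comap Φ).index ∣ Y.toAddSubgroup.index := by
    rw [AddSubgroup.index_comap]
    exact AddSubgroup.relIndex_dvd_index_of_normal _ _
  have h4 : Y.toAddSubgroup.index = Y.index := rfl
  rw [h4] at h3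
  exact h2.trans h3

end Index

section LocalUnits

variable (q : ℕ) [Fact q.Prime] (L : IntermediateField ℚ Qbar) [Normal ℚ L]
  [FiniteDimensional ℚ L]

/-- forward map of `localUnitsEquiv` -/
noncomputable def localUnitsTo (S : Subgroup (L ≃ₐ[ℚ] L)) (σ : Γ)
    (b : fixedSub (X := (localField q L)ˣ) (deltaAt (resLoc q L) S (resΓ L σ))) :
    (localFieldAt q (fixedLift L S) σ)ˣ :=
  Units.mk0 ⟨((b.1 : localField q L) : PadicAlgCl q),
      (mem_fixedSub_deltaAt_iff q S σ b.1).1 b.2⟩ (fun h => by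
        have h1 : ((b.1 : localField q L) : PadicAlgCl q) = 0 := congrArg Subtype.val h
        exact b.1.ne_zero (Subtype.ext h1))

theorem coe_localUnitsTo (S : Subgroup (L ≃ₐ[ℚ] L)) (σ : Γ)
    (b : fixedSub (X := (localField q L)ˣ) (deltaAt (resLoc q L) S (resΓ L σ))) :
    (((localUnitsTo q L S σ b : (localFieldAt q (fixedLift L S) σ)ˣ) :
      localFieldAt q (fixedLift L S) σ) : PadicAlgCl q) =
        ((b.1 : localField q L) : PadicAlgCl q) := by
  unfold localUnitsTo
  rw [Units.val_mk0]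

/-- the underlying unit of `L_q` of a unit of `K_v` -/
noncomputable def localUnitsInvAux (S : Subgroup (L ≃ₐ[ℚ] L)) (σ : Γ)
    (u : (localFieldAt q (fixedLift L S) σ)ˣ) : (localField q L)ˣ :=
  Units.mk0 ⟨((u : localFieldAt q (fixedLift L S) σ) : PadicAlgCl q),
      localFieldAt_fixedLift_le q S σ (u : localFieldAt q (fixedLift L S) σ).2⟩ (fun h => by
        have h1 : ((u : localFieldAt q (fixedLift L S) σ) : PadicAlgCl q) = 0 :=
          congrArg Subtype.val h
        exact u.ne_zero (Subtype.ext h1))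

theorem coe_localUnitsInvAux (S : Subgroup (L ≃ₐ[ℚ] L)) (σ : Γ)
    (u : (localFieldAt q (fixedLift L S) σ)ˣ) :
    (((localUnitsInvAux q L S σ u : (localField q L)ˣ) : localField q L) : PadicAlgCl q) =
      ((u : localFieldAt q (fixedLift L S) σ) : PadicAlgCl q) := by
  unfold localUnitsInvAux
  rw [Units.val_mk0]

theorem localUnitsInvAux_mem (S : Subgroup (L ≃ₐ[ℚ] L)) (σ : Γ)
    (u : (localFieldAt q (fixedLift L S) σ)ˣ) :
    localUnitsInvAux q L S σ u ∈
      fixedSub (X := (localField q L)ˣ) (deltaAt (resLoc q L) S (resΓ L σ)) := by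
  rw [mem_fixedSub_deltaAt_iff q S σ (localUnitsInvAux q L S σ u), coe_localUnitsInvAux]
  exact (u : localFieldAt q (fixedLift L S) σ).2

/-- equality in `(K_v)ˣ` can be checked in `PadicAlgCl q` -/
theorem localUnits_ext {E : IntermediateField ℚ_[q] (PadicAlgCl q)} {u u' : Eˣ}
    (h : ((u : E) : PadicAlgCl q) = ((u' : E) : PadicAlgCl q)) : u = u' :=
  Units.ext (Subtype.ext h)

theorem localUnitsTo_one (S : Subgroup (L ≃ₐ[ℚ] L)) (σ : Γ) :
    localUnitsTo q L S σ 1 = 1 := by
  apply localUnits_ext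
  rw [coe_localUnitsTo, Subgroup.coe_one, Units.val_one, Units.val_one]
  simp only [OneMemClass.coe_one]

theorem localUnitsTo_mul (S : Subgroup (L ≃ₐ[ℚ] L)) (σ : Γ)
    (a b : fixedSub (X := (localField q L)ˣ) (deltaAt (resLoc q L) S (resΓ L σ))) :
    localUnitsTo q L S σ (a * b) = localUnitsTo q L S σ a * localUnitsTo q L S σ b := by
  apply localUnits_ext
  rw [coe_localUnitsTo, Subgroup.coe_mul, Units.val_mul, Units.val_mul]
  simp only [MulMemClass.coe_mul]
  rw [coe_localUnitsTo, coe_localUnitsTo]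

/-- The component group at the place `σ` of `K = L^S` is `(K_v)ˣ`, `K_v = localFieldAt q K σ`
(as a homomorphism; bijective). -/
noncomputable def localUnitsHom (S : Subgroup (L ≃ₐ[ℚ] L)) (σ : Γ) :
    fixedSub (X := (localField q L)ˣ) (deltaAt (resLoc q L) S (resΓ L σ)) →*
      (localFieldAt q (fixedLift L S) σ)ˣ where
  toFun := localUnitsTo q L S σ
  map_one' := localUnitsTo_one q L S σ
  map_mul' := localUnitsTo_mul q L S σ

theorem coe_localUnitsHom (S : Subgroup (L ≃ₐ[ℚ] L)) (σ : Γ)
    (b : fixedSub (X := (localField q L)ˣ) (deltaAt (resLoc q L) S (resΓ L σ))) :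
    (((localUnitsHom q L S σ b : (localFieldAt q (fixedLift L S) σ)ˣ) :
      localFieldAt q (fixedLift L S) σ) : PadicAlgCl q) =
        ((b.1 : localField q L) : PadicAlgCl q) := coe_localUnitsTo q L S σ b

theorem localUnitsHom_injective (S : Subgroup (L ≃ₐ[ℚ] L)) (σ : Γ) :
    Function.Injective (localUnitsHom q L S σ) := by
  intro a b h
  have h1 := congrArg (fun u : (localFieldAt q (fixedLift L S) σ)ˣ =>
    ((u : localFieldAt q (fixedLift L S) σ) : PadicAlgCl q)) h
  simp only [coe_localUnitsHom] at h1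
  exact Subtype.ext (Units.ext (Subtype.ext h1))

theorem localUnitsHom_surjective (S : Subgroup (L ≃ₐ[ℚ] L)) (σ : Γ) :
    Function.Surjective (localUnitsHom q L S σ) := by
  intro u
  refine ⟨⟨localUnitsInvAux q L S σ u, localUnitsInvAux_mem q L S σ u⟩, ?_⟩
  apply localUnits_ext
  rw [coe_localUnitsHom, coe_localUnitsInvAux]

end LocalUnits

end Fermat.Agent.S55.GL.IdeleLocalUnits
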