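/-
S55 (T4), block GL2 / GLO3 part 6 (helper3): the place system of `K = L^H`.

`L/ℚ` finite Galois inside `ℚ̄`, `H ≤ Gal(L/ℚ)`, `K = fixedLift L H` (given as a variable `K` with
`hK : fixedLift L H = K`), `T` a finite set of rational primes.  The primes `v` of `K` over `T`
(helper11's `primesOver K T`) with helper2's `ratPrime K v`, `sigmaAt K v` form a system of
representatives of `⨆_{q ∈ T} D_q \ G / H`:

* `exists_prime_mk_eq` : every double coset `D_q g H`, `q ∈ T`, is the coset of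
  `resΓ L (sigmaAt K v)` for a prime `v ∈ primesOver K T` with `ratPrime K v = q`;
* `prime_eq_of_mk_eq` : this prime is unique.
* unit comparison: `u ∈ sUnits K (primesOver K T)` iff `u`, viewed in `L`, is a `T`-unit of `L`.
-/
import Mathlib
import Fermat.Agent.S55.GL.IdelePlaces
import Fermat.Agent.S55.GL.PlacesDVR
import Fermat.Agent.S55.GL.PlacesPrimeUnits
import Fermat.Agent.S55.GL.SecondIneq.AuxPrimes

set_option autoImplicit false
set_option linter.style.haveILetI false

namespace Fermat.Agent.S55.GL.IdelePlaceSystem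

open IntermediateField NumberField IsDedekindDomain
open Fermat.Agent.S55.LocalDict Fermat.Agent.S55.GL.LocalFieldAt Fermat.Agent.S55.GL.CoindFun
  Fermat.Agent.S55.GL.CoindInv Fermat.Agent.S55.GL.Places Fermat.Agent.S55.GL.IdelePlaces
  Fermat.Agent.S55.GL.PlacesUnits Fermat.Agent.S55.GL.PlacesDVR

local notation "Qbar" => AlgebraicClosure ℚ
local notation "Γ" => (AlgebraicClosure ℚ ≃ₐ[ℚ] AlgebraicClosure ℚ)

local instance isAlgebraicQbar_ips : Algebra.IsAlgebraic ℚ Qbar :=
  AlgebraicClosure.isAlgebraic ℚ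
local instance isAlgClosureQbar_ips : IsAlgClosure ℚ Qbar :=
  ⟨inferInstance, inferInstance⟩
local instance normalQbar_ips : Normal ℚ Qbar :=
  IsAlgClosure.normal ℚ Qbar

/-- primes as `Fact`s -/
local instance factPrime_ips (q : Nat.Primes) : Fact (q : ℕ).Prime := ⟨q.2⟩

section RatPrime

variable (K : IntermediateField ℚ Qbar) [NumberField K]

/-- `ratPrime K v` is the unique rational prime contained in `v`. -/
theorem ratPrime_eq_of_natCast_mem (v : HeightOneSpectrum (𝓞 K)) (q : Nat.Primes)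
    (h : ((q : ℕ) : 𝓞 K) ∈ v.asIdeal) : ratPrime K v = q :=
  Subtype.ext (eq_of_natCast_mem v (ratPrime K v).2 q.2 (natCast_ratPrime_mem K v) h)

theorem ratPrime_mem_of_mem_primesOver {T : Finset Nat.Primes} {v : HeightOneSpectrum (𝓞 K)}
    (hv : v ∈ primesOver K T) : ratPrime K v ∈ T := by
  obtain ⟨q, hq, hqv⟩ := mem_primesOver.mp hv
  rw [ratPrime_eq_of_natCast_mem K v q hqv]
  exact hq

theorem mem_primesOver_of_ratPrime_mem {T : Finset Nat.Primes} {v : HeightOneSpectrum (𝓞 K)}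
    (hv : ratPrime K v ∈ T) : v ∈ primesOver K T :=
  mem_primesOver.mpr ⟨ratPrime K v, hv, natCast_ratPrime_mem K v⟩

theorem mem_primesOver_iff_ratPrime_mem {T : Finset Nat.Primes} {v : HeightOneSpectrum (𝓞 K)} :
    v ∈ primesOver K T ↔ ratPrime K v ∈ T :=
  ⟨ratPrime_mem_of_mem_primesOver K, mem_primesOver_of_ratPrime_mem K⟩

theorem ratPrime_primeAt (q : Nat.Primes) (σ : Γ) : ratPrime K (primeAt (q : ℕ) K σ) = q :=
  ratPrime_eq_of_natCast_mem K _ q (natCast_mem_primeAt (q : ℕ) K σ)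

/-- `primeAt_sigmaAt` for a prime `q` given with `ratPrime K v = q`. -/
theorem primeAt_sigmaAt_of_eq (v : HeightOneSpectrum (𝓞 K)) (q : Nat.Primes)
    (h : ratPrime K v = q) : primeAt (q : ℕ) K (sigmaAt K v) = v := by
  subst h
  exact primeAt_sigmaAt K v

end RatPrime

section PlaceSystem

variable (L : IntermediateField ℚ Qbar) [Normal ℚ L] [FiniteDimensional ℚ L]
  (H : Subgroup (L ≃ₐ[ℚ] L)) (K : IntermediateField ℚ Qbar) [NumberField K]

/-- **Covering**: every double coset `D_q g H` (`q ∈ T`) is represented by `σ_v|_L` for a prime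
`v` of `K = L^H` over `T` with `ratPrime K v = q`. -/
theorem exists_prime_mk_eq (hK : fixedLift L H = K) (T : Finset Nat.Primes) (q : Nat.Primes)
    (hq : q ∈ T) (g : L ≃ₐ[ℚ] L) :
    ∃ v ∈ primesOver K T, ratPrime K v = q ∧
      DoubleCoset.mk (resLoc (q : ℕ) L).range H (resΓ L (sigmaAt K v)) =
        DoubleCoset.mk (resLoc (q : ℕ) L).range H g := by
  subst hK
  refine ⟨primeAt (q : ℕ) (fixedLift L H) (liftΓ L g),
    (primeAt_mem_primesOver_iff q (liftΓ L g)).2 hq, ratPrime_primeAt _ q _, ?_⟩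
  have h1 : primeAt (q : ℕ) (fixedLift L H)
      (sigmaAt (fixedLift L H) (primeAt (q : ℕ) (fixedLift L H) (liftΓ L g))) =
      primeAt (q : ℕ) (fixedLift L H) (liftΓ L g) :=
    primeAt_sigmaAt_of_eq _ _ q (ratPrime_primeAt _ q _)
  have h2 := (primeAt_eq_iff (q : ℕ) (fixedLift L H)).1 h1
  have h3 := (samePlace_iff_mk_eq (q : ℕ) L H _ _).1 h2
  rw [resΓ_liftΓ] at h3
  exact h3

/-- **Uniqueness**: two primes of `K = L^H` over `q` whose representatives lie in the same double
coset `D_q \ G / H` are equal. -/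
theorem prime_eq_of_mk_eq (hK : fixedLift L H = K) (q : Nat.Primes)
    (v v' : HeightOneSpectrum (𝓞 K)) (hv : ratPrime K v = q) (hv' : ratPrime K v' = q)
    (h : DoubleCoset.mk (resLoc (q : ℕ) L).range H (resΓ L (sigmaAt K v)) =
      DoubleCoset.mk (resLoc (q : ℕ) L).range H (resΓ L (sigmaAt K v'))) : v = v' := by
  subst hK
  have h2 := (samePlace_iff_mk_eq (q : ℕ) L H _ _).2 h
  have h3 := (primeAt_eq_iff (q : ℕ) (fixedLift L H)).2 h2
  rw [primeAt_sigmaAt_of_eq _ v q hv, primeAt_sigmaAt_of_eq _ v' q hv'] at h3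
  exact h3

end PlaceSystem

/-! ### Units: `S`-units of `K` for `S = primesOver K T` versus `T`-units of `L` -/

section Units

open Fermat.Agent.S55.GL.SecondIneq Fermat.Agent.S55.GL.Ideles

/-- the inclusion `Kˣ → Lˣ` for `K ≤ L` -/
noncomputable def unitsToL {K L : IntermediateField ℚ Qbar} (hKL : K ≤ L) : (↥K)ˣ →* (↥L)ˣ :=
  Units.map (IntermediateField.inclusion hKL : K →* L)

theorem coe_unitsToL {K L : IntermediateField ℚ Qbar} (hKL : K ≤ L) (u : (↥K)ˣ) :
    (((unitsToL hKL u : (↥L)ˣ) : L) : Qbar) = ((u : K) : Qbar) := rfl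

theorem unitsToL_injective {K L : IntermediateField ℚ Qbar} (hKL : K ≤ L) :
    Function.Injective (unitsToL hKL) := by
  intro a b h
  have h1 := coe_unitsToL hKL a
  rw [h, coe_unitsToL] at h1
  exact Units.ext (Subtype.ext h1.symm)

variable (L : IntermediateField ℚ Qbar) [NumberField L] [Normal ℚ L]
  (K : IntermediateField ℚ Qbar) [NumberField K]

/-- helper21's `sUnits K (primesOver K T)` are exactly the elements of `Kˣ` which are `T`-units
of `L` (in the sense of `Ideles.tUnits`). -/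
theorem mem_sUnits_primesOver_iff (hKL : K ≤ L) (T : Finset Nat.Primes) (u : (↥K)ˣ) :
    u ∈ sUnits K (primesOver K T) ↔ unitsToL hKL u ∈ tUnits L T := by
  rw [tUnits_eq_TUnit]
  have h1 : u ∈ sUnits K (primesOver K T) ↔
      u ∈ Fermat.Agent.S55.SUnit.TUnit K (primesOver K T) := Iff.rfl
  rw [h1]
  exact mem_TUnit_primesOver_iff_of_coe_eq T u (unitsToL hKL u) (coe_unitsToL hKL u).symm

/-- **`E^H = S`-units of `K`**: a unit of `L` comes from an `S`-unit of `K = L^H`
(`S = primesOver K T`) iff it is a `T`-unit fixed by `H`. -/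
theorem exists_sUnit_eq_iff (H : Subgroup (L ≃ₐ[ℚ] L)) (hK : fixedLift L H = K) (hKL : K ≤ L)
    (T : Finset Nat.Primes) (u : (↥L)ˣ) :
    (∃ u' ∈ sUnits K (primesOver K T), unitsToL hKL u' = u) ↔
      u ∈ tUnits L T ∧ ∀ h ∈ H, h (u : L) = (u : L) := by
  constructor
  · rintro ⟨u', hu', rfl⟩
    refine ⟨(mem_sUnits_primesOver_iff L K hKL T u').1 hu', fun h hh => ?_⟩
    have h1 : ((u' : K) : Qbar) ∈ fixedLift L H := by rw [hK]; exact (u' : K).2
    have h2 := mem_fixedLift.1 h1
    obtain ⟨hx, h3⟩ := h2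
    exact h3 h hh
  · rintro ⟨hu, hfix⟩
    have h1 : ((u : L) : Qbar) ∈ K := by
      rw [← hK]
      exact (coe_mem_fixedLift_iff (u : L)).2 hfix
    have h0 : (⟨((u : L) : Qbar), h1⟩ : K) ≠ 0 := fun h => by
      have h2 : ((u : L) : Qbar) = 0 := congrArg Subtype.val h
      exact u.ne_zero (Subtype.ext h2)
    have h3 : unitsToL hKL (Units.mk0 ⟨((u : L) : Qbar), h1⟩ h0) = u :=
      Units.ext (Subtype.ext rfl)
    refine ⟨Units.mk0 ⟨((u : L) : Qbar), h1⟩ h0, ?_, h3⟩
    rw [mem_sUnits_primesOver_iff L K hKL T, h3]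
    exact hu

end Units

/-! ### The diagonal idèle at the representatives -/

section Diag

open Fermat.Agent.S55.GL.Ideles

variable (L : IntermediateField ℚ Qbar) [Normal ℚ L]

/-- The component of the diagonal idèle `diag u` at `(q, σ|_L)` is `ι_q (σ u)`. -/
theorem coe_comp_diag_resΓ (T : Finset Nat.Primes) (u : (↥L)ˣ) (q : T) (σ : Γ) :
    ((((diag L T u).comp q (resΓ L σ) : (localField ((q : Nat.Primes) : ℕ) L)ˣ) :
      localField ((q : Nat.Primes) : ℕ) L) : PadicAlgCl ((q : Nat.Primes) : ℕ)) =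
      padicEmbedding ((q : Nat.Primes) : ℕ) (σ ((u : L) : Qbar)) := by
  rw [coe_comp_diag, coe_emb, coe_resΓ]

end Diag

end Fermat.Agent.S55.GL.IdelePlaceSystem
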