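import Mathlib

set_option autoImplicit false

/-!
# S55 / GLO6: orbits of a finite cyclic group

`G = ⟨σ⟩` finite cyclic acting on `X`, `w₀ : X`.  With `g := period σ w₀` (the length of the orbit)
and `k := |Stab w₀|`: `g k = |G|`, the orbit is `{σ^i w₀ | i < g}` without repetition,
`σ^g w₀ = w₀` and `Stab w₀ = ⟨σ^g⟩`.  This is the combinatorial input of the semi-local lemma
(`S14/HerbrandInduced.hIdx_pi_transitive`) for the places of `L` above a place of `K`.
-/

namespace Fermat.Agent.S55.GL.CyclicOrbit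

open MulAction

variable {G X : Type*} [Group G] [MulAction G X]

lemma period_pos_of_finite [Finite G] (σ : G) (w₀ : X) : 0 < period σ w₀ :=
  period_pos_of_orderOf_pos (orderOf_pos σ) w₀

lemma pow_period_smul' (σ : G) (w₀ : X) : σ ^ period σ w₀ • w₀ = w₀ := pow_period_smul σ w₀

lemma pow_smul_injOn [Finite G] (σ : G) (w₀ : X) :
    ∀ i < period σ w₀, ∀ j < period σ w₀, σ ^ i • w₀ = σ ^ j • w₀ → i = j := by
  have key : ∀ i j : ℕ, i ≤ j → j < period σ w₀ → σ ^ i • w₀ = σ ^ j • w₀ → i = j := by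
    intro i j hij hj h
    have h2 : σ ^ (j - i) • w₀ = w₀ := by
      have h3 : σ ^ j • w₀ = σ ^ i • σ ^ (j - i) • w₀ := by
        rw [← mul_smul, ← pow_add, Nat.add_sub_cancel' hij]
      rw [h3] at h
      exact (smul_left_cancel _ h).symm
    rw [pow_smul_eq_iff_period_dvd] at h2
    have h4 : j - i = 0 := Nat.eq_zero_of_dvd_of_lt h2 (lt_of_le_of_lt (Nat.sub_le j i) hj)
    omega
  intro i hi j hj h
  rcases le_total i j with hij | hij
  · exact key i j hij hj h
  · exact (key j i hij hi h.symm).symm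

lemma exists_pow_smul_eq [Finite G] (σ : G) (hσ : ∀ g, g ∈ Subgroup.zpowers σ) (w₀ : X) {w : X}
    (hw : w ∈ orbit G w₀) : ∃ i < period σ w₀, σ ^ i • w₀ = w := by
  obtain ⟨h, rfl⟩ := hw
  obtain ⟨j, rfl⟩ := Subgroup.mem_zpowers_iff.mp (hσ h)
  have hpos : 0 < period σ w₀ := period_pos_of_finite σ w₀
  refine ⟨(j % (period σ w₀ : ℤ)).toNat, ?_, ?_⟩
  · have h1 : j % (period σ w₀ : ℤ) < period σ w₀ :=
      Int.emod_lt_of_pos j (by exact_mod_cast hpos)
    have h0 : 0 ≤ j % (period σ w₀ : ℤ) := Int.emod_nonneg j (by exact_mod_cast hpos.ne')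
    omega
  · have h0 : 0 ≤ j % (period σ w₀ : ℤ) := Int.emod_nonneg j (by exact_mod_cast hpos.ne')
    have h1 : σ ^ (j % (period σ w₀ : ℤ)).toNat = σ ^ (j % (period σ w₀ : ℤ)) := by
      rw [← zpow_natCast, Int.toNat_of_nonneg h0]
    rw [h1]
    exact zpow_mod_period_smul j

lemma stabilizer_eq_zpowers (σ : G) (hσ : ∀ g, g ∈ Subgroup.zpowers σ) (w₀ : X) :
    stabilizer G w₀ = Subgroup.zpowers (σ ^ period σ w₀) := by
  ext h
  rw [mem_stabilizer_iff]
  constructor
  · intro hh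
    obtain ⟨j, rfl⟩ := Subgroup.mem_zpowers_iff.mp (hσ h)
    rw [zpow_smul_eq_iff_period_dvd] at hh
    obtain ⟨c, rfl⟩ := hh
    rw [Subgroup.mem_zpowers_iff]
    exact ⟨c, by rw [zpow_mul, zpow_natCast]⟩
  · intro hh
    obtain ⟨c, rfl⟩ := Subgroup.mem_zpowers_iff.mp hh
    rw [← zpow_natCast, ← zpow_mul, zpow_smul_eq_iff_period_dvd]
    exact dvd_mul_right _ _

theorem period_mul_card_stabilizer [Finite G] (σ : G) (hσ : ∀ g, g ∈ Subgroup.zpowers σ) (w₀ : X) :
    period σ w₀ * Nat.card (stabilizer G w₀) = Nat.card G := by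
  have hn : orderOf σ = Nat.card G := orderOf_eq_card_of_forall_mem_zpowers hσ
  have hdvd : period σ w₀ ∣ orderOf σ := period_dvd_orderOf σ w₀
  have hpos : period σ w₀ ≠ 0 := (period_pos_of_finite σ w₀).ne'
  rw [stabilizer_eq_zpowers σ hσ w₀, Nat.card_zpowers, orderOf_pow_of_dvd hpos hdvd, ← hn]
  exact Nat.mul_div_cancel' hdvd

/-- All the combinatorial data of a transitive action of a finite cyclic group, in the shape
consumed by `hIdx_pi_transitive` (with `s := MulAction.toPerm σ`). -/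
theorem cyclic_transitive_data [Finite G] (σ : G) (hσ : ∀ g, g ∈ Subgroup.zpowers σ) (w₀ : X)
    (htrans : ∀ w : X, ∃ h : G, h • w₀ = w) :
    0 < period σ w₀ ∧ 0 < Nat.card (stabilizer G w₀) ∧
      period σ w₀ * Nat.card (stabilizer G w₀) = Nat.card G ∧
      (∀ w : X, ∃ i < period σ w₀, ((toPerm σ : Equiv.Perm X) ^ i) w₀ = w) ∧
      (∀ i < period σ w₀, ∀ j < period σ w₀,
        ((toPerm σ : Equiv.Perm X) ^ i) w₀ = ((toPerm σ : Equiv.Perm X) ^ j) w₀ → i = j) ∧
      ((toPerm σ : Equiv.Perm X) ^ period σ w₀) w₀ = w₀ := by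
  have hperm : ∀ (i : ℕ) (w : X), ((toPerm σ : Equiv.Perm X) ^ i) w = σ ^ i • w := by
    intro i w
    have : (toPerm σ : Equiv.Perm X) ^ i = toPerm (σ ^ i) :=
      (map_pow (toPermHom G X) σ i).symm
    rw [this]
    rfl
  refine ⟨period_pos_of_finite σ w₀, Nat.card_pos, period_mul_card_stabilizer σ hσ w₀, ?_, ?_, ?_⟩
  · intro w
    obtain ⟨i, hi, h⟩ := exists_pow_smul_eq σ hσ w₀ (w := w) (htrans w)
    exact ⟨i, hi, by rw [hperm]; exact h⟩
  · intro i hi j hj h
    rw [hperm, hperm] at h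
    exact pow_smul_injOn σ w₀ i hi j hj h
  · rw [hperm]
    exact pow_period_smul σ w₀

end Fermat.Agent.S55.GL.CyclicOrbit
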