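import Fermat.Agent.S55.GL.HerbrandProj
import Fermat.Agent.S55.GL.CyclicOrbit

set_option autoImplicit false
set_option linter.unusedSectionVars false

/-!
# S55 / GLO6: Herbrand indices of the `N`-invariants of a coinduced module (cyclic layer)

Pure algebra.  `G` a finite group, `φ : Δ →* G`, `B` a commutative group with an action of `Δ`,
`N ≤ G`, `σ ∈ G` normalising `N`.  `M = coindInv φ N` is the group of functions `f : G → B` with
`f (φ d * g) = d • f g` (coinduced from `Δ`) and `f (g * ν) = f g` for `ν ∈ N` (`N`-invariants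
for the right translation action).  `σ` acts on `M` by right translation.

For the idèles: `G = Gal(L/ℚ)`, `Δ = Gal(L_q/ℚ_q)`, `φ = resLoc`, `B = (L_q)ˣ`, so that
`M = (∏_{w ∣ q} L_wˣ)^N = ∏_{w ∣ q} M_wˣ` for `M = L^N`, and `⟨σ⟩ N / N = Gal(M/K)`.
-/

namespace Fermat.Agent.S55.GL.CoindHerbrand

open Fermat.Agent.S14.Herbrand Fermat.Agent.S55.GL.HerbrandOrbits Function

variable {G Δ B : Type*} [Group G] [Group Δ] [CommGroup B] [MulDistribMulAction Δ B]

section Basic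

variable (φ : Δ →* G) (N : Subgroup G)

/-- The `N`-invariants of the module coinduced from `Δ` to `G` (functions on `G`). -/
def coindInv : Subgroup (G → B) where
  carrier := {f | (∀ (d : Δ) (g : G), f (φ d * g) = d • f g) ∧ ∀ ν ∈ N, ∀ g : G, f (g * ν) = f g}
  one_mem' := ⟨fun d g => by simp, fun ν _ g => rfl⟩
  mul_mem' := fun {a b} ha hb =>
    ⟨fun d g => by simp only [Pi.mul_apply, ha.1 d g, hb.1 d g, smul_mul'],
      fun ν hν g => by simp only [Pi.mul_apply, ha.2 ν hν g, hb.2 ν hν g]⟩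
  inv_mem' := fun {a} ha =>
    ⟨fun d g => by simp only [Pi.inv_apply, ha.1 d g, smul_inv'],
      fun ν hν g => by simp only [Pi.inv_apply, ha.2 ν hν g]⟩

variable {φ N}

lemma coind_left (f : coindInv (B := B) φ N) (d : Δ) (g : G) : f.1 (φ d * g) = d • f.1 g :=
  f.2.1 d g

lemma coind_right (f : coindInv (B := B) φ N) {ν : G} (hν : ν ∈ N) (g : G) :
    f.1 (g * ν) = f.1 g := f.2.2 ν hν g

lemma conj_mem_of_mem_normalizer {h : G} (hh : h ∈ Subgroup.normalizer (N : Set G)) {ν : G} (hν : ν ∈ N) :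
    h⁻¹ * ν * h ∈ N := by
  exact (Subgroup.mem_normalizer_iff''.mp hh ν).mp hν

lemma conj_mem_of_mem_normalizer' {h : G} (hh : h ∈ Subgroup.normalizer (N : Set G)) {ν : G} (hν : ν ∈ N) :
    h * ν * h⁻¹ ∈ N :=
  (Subgroup.mem_normalizer_iff.mp hh ν).mp hν

variable (φ N) in
/-- Right translation by an element normalising `N`. -/
def transl (h : G) (hh : h ∈ Subgroup.normalizer (N : Set G)) : coindInv (B := B) φ N →* coindInv (B := B) φ N where
  toFun f := ⟨fun g => f.1 (g * h), fun d g => by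
      show f.1 (φ d * g * h) = d • f.1 (g * h)
      rw [mul_assoc]; exact coind_left f d (g * h),
    fun ν hν g => by
      show f.1 (g * ν * h) = f.1 (g * h)
      have h1 : g * ν * h = g * h * (h⁻¹ * ν * h) := by group
      rw [h1]
      exact coind_right f (conj_mem_of_mem_normalizer hh hν) (g * h)⟩
  map_one' := rfl
  map_mul' _ _ := rfl

@[simp] lemma transl_apply (h : G) (hh : h ∈ Subgroup.normalizer (N : Set G)) (f : coindInv (B := B) φ N) (g : G) :
    (transl φ N h hh f).1 g = f.1 (g * h) := rfl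

lemma transl_congr {h h' : G} (e : h = h') (hh : h ∈ Subgroup.normalizer (N : Set G))
    (hh' : h' ∈ Subgroup.normalizer (N : Set G)) (f : coindInv (B := B) φ N) :
    transl φ N h hh f = transl φ N h' hh' f := by
  subst e
  rfl

lemma transl_mul (h h' : G) (hh : h ∈ Subgroup.normalizer (N : Set G)) (hh' : h' ∈ Subgroup.normalizer (N : Set G))
    (f : coindInv (B := B) φ N) :
    transl φ N (h * h') ((Subgroup.normalizer (N : Set G)).mul_mem hh hh') f = transl φ N h hh (transl φ N h' hh' f) := by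
  apply Subtype.ext
  funext g
  show f.1 (g * (h * h')) = f.1 (g * h * h')
  rw [mul_assoc]

lemma transl_of_mem {ν : G} (hν : ν ∈ N) (f : coindInv (B := B) φ N) :
    transl φ N ν (Subgroup.le_normalizer hν) f = f := by
  apply Subtype.ext
  funext g
  exact coind_right f hν g

variable (φ N) in
/-- The action of `σ` on `Additive (coindInv φ N)`. -/
def sigmaEnd (σ : G) (hσ : σ ∈ Subgroup.normalizer (N : Set G)) : AddMonoid.End (Additive (coindInv (B := B) φ N)) :=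
  MonoidHom.toAdditive (transl φ N σ hσ)

lemma sigmaEnd_apply (σ : G) (hσ : σ ∈ Subgroup.normalizer (N : Set G)) (f : coindInv (B := B) φ N) :
    sigmaEnd φ N σ hσ (Additive.ofMul f) = Additive.ofMul (transl φ N σ hσ f) := rfl

lemma sigmaEnd_pow (σ : G) (hσ : σ ∈ Subgroup.normalizer (N : Set G)) (i : ℕ) :
    (sigmaEnd (B := B) φ N σ hσ) ^ i = sigmaEnd φ N (σ ^ i) ((Subgroup.normalizer (N : Set G)).pow_mem hσ i) := by
  induction i with
  | zero =>
    refine end_ext fun x => ?_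
    show x = Additive.ofMul (transl φ N (σ ^ 0) _ (Additive.toMul x))
    have h1 : (σ ^ 0 : G) ∈ N := by rw [pow_zero]; exact N.one_mem
    rw [transl_of_mem h1]
    rfl
  | succ i ih =>
    rw [pow_succ, ih]
    refine end_ext fun x => ?_
    have hi : σ ^ i ∈ Subgroup.normalizer (N : Set G) :=
      (Subgroup.normalizer (N : Set G)).pow_mem hσ i
    show Additive.ofMul (transl φ N (σ ^ i) hi (transl φ N σ hσ (Additive.toMul x))) =
      Additive.ofMul (transl φ N (σ ^ (i + 1)) _ (Additive.toMul x))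
    rw [← transl_mul (σ ^ i) σ hi hσ]
    exact congrArg Additive.ofMul (transl_congr (pow_succ σ i).symm _ _ _)

lemma sigmaEnd_pow_eq_one (σ : G) (hσ : σ ∈ Subgroup.normalizer (N : Set G)) {n : ℕ} (hn : σ ^ n ∈ N) :
    (sigmaEnd (B := B) φ N σ hσ) ^ n = 1 := by
  rw [sigmaEnd_pow]
  refine end_ext fun x => ?_
  show Additive.ofMul (transl φ N (σ ^ n) _ (Additive.toMul x)) = x
  rw [transl_of_mem hn]
  rfl

end Basic

section Cosets

variable (φ : Δ →* G) (N : Subgroup G)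

/-- The double cosets `φ(Δ) \ G / N` (the places of `L^N` over `q`). -/
abbrev Cosets : Type _ := DoubleCoset.Quotient (φ.range : Set G) (N : Set G)

/-- The double coset of `g`. -/
abbrev cmk (g : G) : Cosets φ N := DoubleCoset.mk φ.range N g

variable {φ N}

lemma cmk_eq_iff {g g' : G} :
    cmk φ N g = cmk φ N g' ↔ ∃ d : Δ, ∃ ν ∈ N, g' = φ d * g * ν := by
  rw [DoubleCoset.eq]
  constructor
  · rintro ⟨_, ⟨d, rfl⟩, ν, hν, h⟩
    exact ⟨d, ν, hν, h⟩
  · rintro ⟨d, ν, hν, h⟩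
    exact ⟨φ d, ⟨d, rfl⟩, ν, hν, h⟩

lemma cmk_left (d : Δ) (g : G) : cmk φ N (φ d * g) = cmk φ N g :=
  (cmk_eq_iff.mpr ⟨d, 1, N.one_mem, by rw [mul_one]⟩).symm

lemma cmk_right {ν : G} (hν : ν ∈ N) (g : G) : cmk φ N (g * ν) = cmk φ N g :=
  (cmk_eq_iff.mpr ⟨1, ν, hν, by rw [map_one, one_mul]⟩).symm

lemma cmk_surjective (c : Cosets φ N) : ∃ g, cmk φ N g = c := Quotient.exists_rep c

variable (φ N) in
/-- Right multiplication by an element normalising `N`, on double cosets. -/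
def rmulC (h : G) (hh : h ∈ Subgroup.normalizer (N : Set G)) : Cosets φ N → Cosets φ N :=
  Quotient.map' (fun g => g * h) (by
    intro x y hxy
    obtain ⟨a, ha, b, hb, rfl⟩ := DoubleCoset.rel_iff.mp hxy
    refine DoubleCoset.rel_iff.mpr ⟨a, ha, h⁻¹ * b * h, conj_mem_of_mem_normalizer hh hb, ?_⟩
    group)

lemma rmulC_mk (h : G) (hh : h ∈ Subgroup.normalizer (N : Set G)) (g : G) :
    rmulC φ N h hh (cmk φ N g) = cmk φ N (g * h) := rfl

lemma rmulC_congr {h h' : G} (e : h = h') (hh : h ∈ Subgroup.normalizer (N : Set G))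
    (hh' : h' ∈ Subgroup.normalizer (N : Set G)) (c : Cosets φ N) :
    rmulC φ N h hh c = rmulC φ N h' hh' c := by
  subst e
  rfl

lemma rmulC_mul (h h' : G) (hh : h ∈ Subgroup.normalizer (N : Set G))
    (hh' : h' ∈ Subgroup.normalizer (N : Set G)) (c : Cosets φ N) :
    rmulC φ N (h * h') ((Subgroup.normalizer (N : Set G)).mul_mem hh hh') c =
      rmulC φ N h' hh' (rmulC φ N h hh c) := by
  obtain ⟨g, rfl⟩ := cmk_surjective c
  rw [rmulC_mk, rmulC_mk, rmulC_mk, mul_assoc]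

lemma rmulC_of_mem {ν : G} (hν : ν ∈ N) (c : Cosets φ N) :
    rmulC φ N ν (Subgroup.le_normalizer hν) c = c := by
  obtain ⟨g, rfl⟩ := cmk_surjective c
  rw [rmulC_mk, cmk_right hν]

variable (φ N) in
/-- The permutation of the double cosets induced by `σ` (right multiplication by `σ⁻¹`). -/
def sPerm (σ : G) (hσ : σ ∈ Subgroup.normalizer (N : Set G)) : Equiv.Perm (Cosets φ N) where
  toFun := rmulC φ N σ⁻¹ ((Subgroup.normalizer (N : Set G)).inv_mem hσ)
  invFun := rmulC φ N σ hσ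
  left_inv c := by
    obtain ⟨g, rfl⟩ := cmk_surjective c
    rw [rmulC_mk, rmulC_mk, inv_mul_cancel_right]
  right_inv c := by
    obtain ⟨g, rfl⟩ := cmk_surjective c
    rw [rmulC_mk, rmulC_mk, mul_inv_cancel_right]

lemma sPerm_mk (σ : G) (hσ : σ ∈ Subgroup.normalizer (N : Set G)) (g : G) :
    sPerm φ N σ hσ (cmk φ N g) = cmk φ N (g * σ⁻¹) := rfl

lemma sPerm_pow_mk (σ : G) (hσ : σ ∈ Subgroup.normalizer (N : Set G)) (i : ℕ) (g : G) :
    ((sPerm φ N σ hσ) ^ i) (cmk φ N g) = cmk φ N (g * (σ ^ i)⁻¹) := by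
  induction i generalizing g with
  | zero => simp
  | succ i ih =>
    rw [pow_succ, Equiv.Perm.mul_apply, sPerm_mk, ih, mul_assoc, ← mul_inv_rev, ← pow_succ]

lemma sPerm_pow_eq_one (σ : G) (hσ : σ ∈ Subgroup.normalizer (N : Set G)) {n : ℕ}
    (hn : σ ^ n ∈ N) : (sPerm φ N σ hσ) ^ n = 1 := by
  ext c
  obtain ⟨g, rfl⟩ := cmk_surjective c
  rw [sPerm_pow_mk, Equiv.Perm.one_apply]
  exact cmk_right (N.inv_mem hn) g

end Cosets

section Projectors

variable (φ : Δ →* G) (N : Subgroup G)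

open Classical in
/-- Restriction of a function to the double coset `c` (and `1` elsewhere). -/
noncomputable def projC (c : Cosets φ N) : coindInv (B := B) φ N →* coindInv (B := B) φ N where
  toFun f := ⟨fun g => if cmk φ N g = c then f.1 g else 1, fun d g => by
      show (if cmk φ N (φ d * g) = c then f.1 (φ d * g) else 1) =
        d • (if cmk φ N g = c then f.1 g else 1)
      rw [cmk_left]
      split_ifs
      · exact coind_left f d g
      · rw [smul_one],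
    fun ν hν g => by
      show (if cmk φ N (g * ν) = c then f.1 (g * ν) else 1) =
        (if cmk φ N g = c then f.1 g else 1)
      rw [cmk_right hν, coind_right f hν]⟩
  map_one' := by
    apply Subtype.ext
    funext g
    show (if cmk φ N g = c then (1 : B) else 1) = 1
    rw [ite_self]
  map_mul' f f' := by
    apply Subtype.ext
    funext g
    show (if cmk φ N g = c then f.1 g * f'.1 g else 1) =
      (if cmk φ N g = c then f.1 g else 1) * (if cmk φ N g = c then f'.1 g else 1)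
    split_ifs
    · rfl
    · rw [one_mul]

variable {φ N}

open Classical in
lemma projC_apply (c : Cosets φ N) (f : coindInv (B := B) φ N) (g : G) :
    (projC φ N c f).1 g = if cmk φ N g = c then f.1 g else 1 := rfl

lemma projC_apply_of_eq {c : Cosets φ N} (f : coindInv (B := B) φ N) {g : G}
    (h : cmk φ N g = c) : (projC φ N c f).1 g = f.1 g := by
  rw [projC_apply, if_pos h]

lemma projC_apply_of_ne {c : Cosets φ N} (f : coindInv (B := B) φ N) {g : G}
    (h : cmk φ N g ≠ c) : (projC φ N c f).1 g = 1 := by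
  rw [projC_apply, if_neg h]

variable (φ N) in
/-- The projector onto the component at the double coset `c`. -/
noncomputable def PEnd (c : Cosets φ N) : AddMonoid.End (Additive (coindInv (B := B) φ N)) :=
  MonoidHom.toAdditive (projC φ N c)

lemma PEnd_apply (c : Cosets φ N) (f : coindInv (B := B) φ N) :
    PEnd φ N c (Additive.ofMul f) = Additive.ofMul (projC φ N c f) := rfl

lemma PEnd_mul_of_ne {c c' : Cosets φ N} (hne : c ≠ c') :
    (PEnd (B := B) φ N c * PEnd φ N c' : AddMonoid.End (Additive (coindInv (B := B) φ N))) = 0 := by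
  refine end_ext fun x => ?_
  show Additive.ofMul (projC φ N c (projC φ N c' (Additive.toMul x))) = Additive.ofMul 1
  congr 1
  apply Subtype.ext
  funext g
  by_cases h : cmk φ N g = c
  · rw [projC_apply_of_eq _ h, projC_apply_of_ne _ (fun h' => hne (h.symm.trans h'))]
    rfl
  · rw [projC_apply_of_ne _ h]
    rfl

lemma sum_PEnd [Fintype (Cosets φ N)] :
    (∑ c, PEnd (B := B) φ N c : AddMonoid.End (Additive (coindInv (B := B) φ N))) = 1 := by
  classical
  refine end_ext fun x => ?_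
  rw [end_sum_apply]
  show ∑ c, Additive.ofMul (projC φ N c (Additive.toMul x)) = x
  rw [← ofMul_prod]
  show Additive.ofMul (∏ c, projC φ N c (Additive.toMul x)) = Additive.ofMul (Additive.toMul x)
  congr 1
  apply Subtype.ext
  funext g
  rw [Subgroup.val_finsetProd, Finset.prod_apply]
  simp only [projC_apply]
  rw [Finset.prod_ite_eq]
  simp

lemma sigmaEnd_mul_PEnd (σ : G) (hσ : σ ∈ Subgroup.normalizer (N : Set G)) (c : Cosets φ N) :
    sigmaEnd (B := B) φ N σ hσ * PEnd φ N c = PEnd φ N (sPerm φ N σ hσ c) * sigmaEnd φ N σ hσ := by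
  refine end_ext fun x => ?_
  show Additive.ofMul (transl φ N σ hσ (projC φ N c (Additive.toMul x))) =
    Additive.ofMul (projC φ N (sPerm φ N σ hσ c) (transl φ N σ hσ (Additive.toMul x)))
  congr 1
  apply Subtype.ext
  funext g
  show (projC φ N c (Additive.toMul x)).1 (g * σ) =
    (projC φ N (sPerm φ N σ hσ c) (transl φ N σ hσ (Additive.toMul x))).1 g
  by_cases h : cmk φ N (g * σ) = c
  · have h' : cmk φ N g = sPerm φ N σ hσ c := by
      rw [← h, sPerm_mk, mul_inv_cancel_right]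
    rw [projC_apply_of_eq _ h, projC_apply_of_eq _ h']
    rfl
  · have h' : cmk φ N g ≠ sPerm φ N σ hσ c := by
      intro h2
      apply h
      have := congrArg (sPerm φ N σ hσ).symm h2
      rw [Equiv.symm_apply_apply] at this
      rw [← this]
      rfl
    rw [projC_apply_of_ne _ h, projC_apply_of_ne _ h']

end Projectors

section Component

variable (φ : Δ →* G) (N : Subgroup G) (g₀ : G)

/-- `Δ₀ = φ⁻¹(g₀ N g₀⁻¹)`: the decomposition group of the place `g₀` in `N`, inside `Δ`. -/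
def stabΔ : Subgroup Δ where
  carrier := {d | g₀⁻¹ * φ d * g₀ ∈ N}
  one_mem' := by
    show g₀⁻¹ * φ 1 * g₀ ∈ N
    rw [map_one, mul_one, inv_mul_cancel]
    exact N.one_mem
  mul_mem' := fun {a b} ha hb => by
    show g₀⁻¹ * φ (a * b) * g₀ ∈ N
    have h1 : g₀⁻¹ * φ (a * b) * g₀ = (g₀⁻¹ * φ a * g₀) * (g₀⁻¹ * φ b * g₀) := by
      rw [map_mul]; group
    rw [h1]
    exact N.mul_mem ha hb
  inv_mem' := fun {a} ha => by
    show g₀⁻¹ * φ a⁻¹ * g₀ ∈ N
    have h1 : g₀⁻¹ * φ a⁻¹ * g₀ = (g₀⁻¹ * φ a * g₀)⁻¹ := by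
      rw [map_inv]; group
    rw [h1]
    exact N.inv_mem ha

variable {φ N g₀}

lemma mem_stabΔ {d : Δ} : d ∈ stabΔ φ N g₀ ↔ g₀⁻¹ * φ d * g₀ ∈ N := Iff.rfl

/-- The subgroup of `B` fixed by a subgroup of `Δ`. -/
def fixedSub (Δ₀ : Subgroup Δ) : Subgroup B where
  carrier := {b | ∀ d ∈ Δ₀, d • b = b}
  one_mem' := fun d _ => smul_one d
  mul_mem' := fun {a b} ha hb d hd => by rw [smul_mul', ha d hd, hb d hd]
  inv_mem' := fun {a} ha d hd => by rw [smul_inv', ha d hd]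

lemma mem_fixedSub {Δ₀ : Subgroup Δ} {b : B} : b ∈ fixedSub Δ₀ ↔ ∀ d ∈ Δ₀, d • b = b := Iff.rfl

/-- The action of an element `d₀` normalising `Δ₀` on the `Δ₀`-fixed points. -/
def fixAct (Δ₀ : Subgroup Δ) (d₀ : Δ) (h : ∀ d ∈ Δ₀, d₀⁻¹ * d * d₀ ∈ Δ₀) :
    fixedSub (B := B) Δ₀ →* fixedSub (B := B) Δ₀ where
  toFun b := ⟨d₀ • b.1, fun d hd => by
    have h1 : d • d₀ • b.1 = d₀ • (d₀⁻¹ * d * d₀) • b.1 := by
      rw [← mul_smul, ← mul_smul]
      congr 1
      group
    rw [h1, b.2 _ (h d hd)]⟩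
  map_one' := Subtype.ext (smul_one d₀)
  map_mul' a b := Subtype.ext (smul_mul' d₀ a.1 b.1)

/-- The same as an endomorphism of the additive group. -/
def fixEnd (Δ₀ : Subgroup Δ) (d₀ : Δ) (h : ∀ d ∈ Δ₀, d₀⁻¹ * d * d₀ ∈ Δ₀) :
    AddMonoid.End (Additive (fixedSub (B := B) Δ₀)) :=
  MonoidHom.toAdditive (fixAct Δ₀ d₀ h)

lemma fixEnd_apply (Δ₀ : Subgroup Δ) (d₀ : Δ) (h : ∀ d ∈ Δ₀, d₀⁻¹ * d * d₀ ∈ Δ₀)
    (b : fixedSub (B := B) Δ₀) :
    fixEnd Δ₀ d₀ h (Additive.ofMul b) = Additive.ofMul (fixAct Δ₀ d₀ h b) := rfl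

open Classical in
/-- Extension of `a ∈ B^{Δ₀}` to the function supported on the double coset of `g₀` with value
`d • a` at `φ d * g₀ * ν`. -/
noncomputable def extFun (a : B) (g : G) : B :=
  if h : cmk φ N g₀ = cmk φ N g then (Classical.choose (cmk_eq_iff.mp h)) • a else 1

lemma extFun_spec {a : B} (ha : a ∈ fixedSub (stabΔ φ N g₀)) {g : G} {d : Δ} {ν : G}
    (hν : ν ∈ N) (hg : g = φ d * g₀ * ν) : extFun (φ := φ) (N := N) (g₀ := g₀) a g = d • a := by
  have h : cmk φ N g₀ = cmk φ N g := cmk_eq_iff.mpr ⟨d, ν, hν, hg⟩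
  unfold extFun
  rw [dif_pos h]
  obtain ⟨ν', hν', hg'⟩ := Classical.choose_spec (cmk_eq_iff.mp h)
  set d' := Classical.choose (cmk_eq_iff.mp h) with hd'
  have h1 : d'⁻¹ * d ∈ stabΔ φ N g₀ := by
    rw [mem_stabΔ]
    have h2 : g₀⁻¹ * φ (d'⁻¹ * d) * g₀ = ν' * ν⁻¹ := by
      have h3 : φ d * g₀ * ν = φ d' * g₀ * ν' := hg.symm.trans hg'
      have h4 : φ d = φ d' * g₀ * ν' * ν⁻¹ * g₀⁻¹ := by
        rw [← h3]; group
      rw [map_mul, map_inv, h4]
      group
    rw [h2]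
    exact N.mul_mem hν' (N.inv_mem hν)
  have h5 := ha _ h1
  rw [mul_smul] at h5
  have h6 : d' • (d'⁻¹ • d • a) = d' • a := congrArg (fun b => d' • b) h5
  rw [smul_inv_smul] at h6
  exact h6.symm

lemma extFun_of_ne (a : B) {g : G} (h : cmk φ N g₀ ≠ cmk φ N g) :
    extFun (φ := φ) (N := N) (g₀ := g₀) a g = 1 := by
  unfold extFun
  rw [dif_neg h]

lemma extFun_self {a : B} (ha : a ∈ fixedSub (stabΔ φ N g₀)) :
    extFun (φ := φ) (N := N) (g₀ := g₀) a g₀ = a := by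
  have := extFun_spec (φ := φ) (N := N) (g₀ := g₀) ha (g := g₀) (d := 1) (ν := 1) N.one_mem
    (by rw [map_one, one_mul, mul_one])
  rw [this, one_smul]

variable (φ N g₀) in
/-- The inclusion of the component at `g₀`: `B^{Δ₀} → coindInv φ N`. -/
noncomputable def compIncl : fixedSub (B := B) (stabΔ φ N g₀) →* coindInv (B := B) φ N where
  toFun a := ⟨extFun (φ := φ) (N := N) (g₀ := g₀) a.1, fun d g => by
      by_cases h : cmk φ N g₀ = cmk φ N g
      · obtain ⟨d', ν, hν, hg⟩ := cmk_eq_iff.mp h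
        rw [extFun_spec a.2 hν hg, extFun_spec a.2 (d := d * d') hν
          (by rw [hg, map_mul]; group), mul_smul]
      · have h' : cmk φ N g₀ ≠ cmk φ N (φ d * g) := by rw [cmk_left]; exact h
        rw [extFun_of_ne _ h, extFun_of_ne _ h', smul_one],
    fun ν hν g => by
      by_cases h : cmk φ N g₀ = cmk φ N g
      · obtain ⟨d', ν', hν', hg⟩ := cmk_eq_iff.mp h
        rw [extFun_spec a.2 hν' hg, extFun_spec a.2 (d := d') (N.mul_mem hν' hν)
          (by rw [hg]; group)]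
      · have h' : cmk φ N g₀ ≠ cmk φ N (g * ν) := by rw [cmk_right hν]; exact h
        rw [extFun_of_ne _ h, extFun_of_ne _ h']⟩
  map_one' := by
    apply Subtype.ext
    funext g
    by_cases h : cmk φ N g₀ = cmk φ N g
    · obtain ⟨d', ν', hν', hg⟩ := cmk_eq_iff.mp h
      show extFun (φ := φ) (N := N) (g₀ := g₀) (1 : B) g = 1
      rw [extFun_spec (Subgroup.one_mem _) hν' hg, smul_one]
    · exact extFun_of_ne _ h
  map_mul' a b := by
    apply Subtype.ext
    funext g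
    show extFun (φ := φ) (N := N) (g₀ := g₀) (a.1 * b.1) g =
      extFun (φ := φ) (N := N) (g₀ := g₀) a.1 g * extFun (φ := φ) (N := N) (g₀ := g₀) b.1 g
    by_cases h : cmk φ N g₀ = cmk φ N g
    · obtain ⟨d', ν', hν', hg⟩ := cmk_eq_iff.mp h
      rw [extFun_spec (Subgroup.mul_mem _ a.2 b.2) hν' hg, extFun_spec a.2 hν' hg,
        extFun_spec b.2 hν' hg, smul_mul']
    · rw [extFun_of_ne _ h, extFun_of_ne _ h, extFun_of_ne _ h, one_mul]

lemma compIncl_apply (a : fixedSub (B := B) (stabΔ φ N g₀)) (g : G) :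
    (compIncl φ N g₀ a).1 g = extFun (φ := φ) (N := N) (g₀ := g₀) a.1 g := rfl

lemma compIncl_injective : Injective (compIncl (B := B) φ N g₀) := by
  intro a b hab
  apply Subtype.ext
  have h1 := congrArg (fun f : coindInv (B := B) φ N => f.1 g₀) hab
  simp only [compIncl_apply] at h1
  rwa [extFun_self a.2, extFun_self b.2] at h1

/-- The value at `g₀` of an element of `coindInv` is fixed by `Δ₀`. -/
lemma apply_mem_fixedSub (f : coindInv (B := B) φ N) : f.1 g₀ ∈ fixedSub (stabΔ φ N g₀) := by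
  intro d hd
  rw [← coind_left f d g₀]
  have h1 : φ d * g₀ = g₀ * (g₀⁻¹ * φ d * g₀) := by group
  rw [h1]
  exact coind_right f hd g₀

/-- The image of the component inclusion is the range of the projector. -/
lemma range_compIncl :
    (MonoidHom.toAdditive (compIncl (B := B) φ N g₀)).range =
      compRange (PEnd (B := B) φ N (cmk φ N g₀)) := by
  ext x
  constructor
  · rintro ⟨a, rfl⟩
    refine ⟨MonoidHom.toAdditive (compIncl (B := B) φ N g₀) a, ?_⟩
    show Additive.ofMul (projC φ N (cmk φ N g₀) (compIncl φ N g₀ (Additive.toMul a))) =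
      Additive.ofMul (compIncl φ N g₀ (Additive.toMul a))
    congr 1
    apply Subtype.ext
    funext g
    by_cases h : cmk φ N g = cmk φ N g₀
    · rw [projC_apply_of_eq _ h]
    · rw [projC_apply_of_ne _ h, compIncl_apply, extFun_of_ne _ (fun h' => h h'.symm)]
  · rintro ⟨y, rfl⟩
    refine ⟨Additive.ofMul ⟨(Additive.toMul y).1 g₀, apply_mem_fixedSub _⟩, ?_⟩
    show Additive.ofMul (compIncl φ N g₀ ⟨(Additive.toMul y).1 g₀, apply_mem_fixedSub _⟩) =
      Additive.ofMul (projC φ N (cmk φ N g₀) (Additive.toMul y))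
    congr 1
    apply Subtype.ext
    funext g
    by_cases h : cmk φ N g = cmk φ N g₀
    · obtain ⟨d', ν', hν', hg⟩ := cmk_eq_iff.mp h.symm
      rw [projC_apply_of_eq _ h, compIncl_apply,
        extFun_spec (apply_mem_fixedSub (Additive.toMul y)) hν' hg, hg,
        coind_right _ hν', coind_left]
    · rw [projC_apply_of_ne _ h, compIncl_apply, extFun_of_ne _ (fun h' => h h'.symm)]

end Component

section Tau

variable {φ : Δ →* G} {N : Subgroup G} {g₀ : G}

lemma cmk_mul_pow_eq (σ : G) (hσ : σ ∈ Subgroup.normalizer (N : Set G)) {j : ℕ}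
    (hj : ((sPerm φ N σ hσ) ^ j) (cmk φ N g₀) = cmk φ N g₀) :
    cmk φ N (g₀ * σ ^ j) = cmk φ N g₀ := by
  apply ((sPerm φ N σ hσ) ^ j).injective
  rw [sPerm_pow_mk, mul_inv_cancel_right, hj]

/-- `d₀` normalises `Δ₀` when `g₀ σ^j = φ d₀ g₀ ν₀`. -/
lemma conj_mem_stabΔ {t : G} (ht : t ∈ Subgroup.normalizer (N : Set G)) {d₀ : Δ}
    (h0 : φ d₀ * g₀ = g₀ * t) {d : Δ} (hd : d ∈ stabΔ φ N g₀) :
    d₀⁻¹ * d * d₀ ∈ stabΔ φ N g₀ := by
  rw [mem_stabΔ] at hd ⊢
  have h1 : g₀⁻¹ * φ (d₀⁻¹ * d * d₀) * g₀ = t⁻¹ * (g₀⁻¹ * φ d * g₀) * t := by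
    have h2 : φ d₀ = g₀ * t * g₀⁻¹ := by rw [← h0]; group
    rw [map_mul, map_mul, map_inv, h2]
    group
  rw [h1]
  exact conj_mem_of_mem_normalizer ht hd

lemma pow_mem_coset {s ν : G} (hs : s ∈ Subgroup.normalizer (N : Set G)) (hν : ν ∈ N) (i : ℕ) :
    (s ^ i)⁻¹ * (s * ν) ^ i ∈ N := by
  induction i with
  | zero => simp [N.one_mem]
  | succ i ih =>
    have h1 : (s ^ (i + 1))⁻¹ * (s * ν) ^ (i + 1) =
        (s⁻¹ * ((s ^ i)⁻¹ * (s * ν) ^ i) * s) * ν := by
      rw [pow_succ, pow_succ]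
      group
    rw [h1]
    exact N.mul_mem (conj_mem_of_mem_normalizer hs ih) hν

/-- The order of `d₀` modulo `Δ₀`. -/
lemma pow_mem_stabΔ_iff (σ : G) (hσ : σ ∈ Subgroup.normalizer (N : Set G)) {n j k : ℕ}
    (hn : ∀ i : ℕ, σ ^ i ∈ N ↔ n ∣ i) (hjk : j * k = n) (hj : 0 < j) {d₀ : Δ} {ν₀ : G}
    (hν₀ : ν₀ ∈ N) (h0 : g₀ * σ ^ j = φ d₀ * g₀ * ν₀) (i : ℕ) :
    d₀ ^ i ∈ stabΔ φ N g₀ ↔ k ∣ i := by
  rw [mem_stabΔ]
  have hs : σ ^ j ∈ Subgroup.normalizer (N : Set G) :=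
    (Subgroup.normalizer (N : Set G)).pow_mem hσ j
  have h1 : g₀⁻¹ * φ (d₀ ^ i) * g₀ = (σ ^ j * ν₀⁻¹) ^ i := by
    have h2 : φ d₀ = g₀ * (σ ^ j * ν₀⁻¹) * g₀⁻¹ := by
      have : φ d₀ = g₀ * σ ^ j * ν₀⁻¹ * g₀⁻¹ := by rw [h0]; group
      rw [this]; group
    rw [map_pow, h2, conj_pow]
    group
  rw [h1]
  have h3 := pow_mem_coset hs (N.inv_mem hν₀) i
  have h4 : (σ ^ j * ν₀⁻¹) ^ i ∈ N ↔ (σ ^ j) ^ i ∈ N := by
    constructor
    · intro h
      have h5 : ((σ ^ j) ^ i)⁻¹ ∈ N := by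
        have := N.mul_mem h3 (N.inv_mem h)
        rwa [mul_inv_cancel_right] at this
      simpa using N.inv_mem h5
    · intro h
      have := N.mul_mem h h3
      rwa [mul_inv_cancel_left] at this
  rw [h4, ← pow_mul, hn, ← hjk]
  exact Nat.mul_dvd_mul_iff_left hj

end Tau

section Final

variable {φ : Δ →* G} {N : Subgroup G}

lemma rmulC_injective (h : G) (hh : h ∈ Subgroup.normalizer (N : Set G)) :
    Injective (rmulC φ N h hh) := by
  intro c c' hcc
  have key : ∀ c : Cosets φ N, rmulC φ N h⁻¹ ((Subgroup.normalizer (N : Set G)).inv_mem hh)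
      (rmulC φ N h hh c) = c := by
    intro c
    obtain ⟨g, rfl⟩ := cmk_surjective c
    rw [rmulC_mk, rmulC_mk, mul_inv_cancel_right]
  rw [← key c, hcc, key c']

lemma transl_compIncl {g₀ : G} (σ : G) (hσ : σ ∈ Subgroup.normalizer (N : Set G)) {j : ℕ}
    {d₀ : Δ} {ν₀ : G} (hν₀ : ν₀ ∈ N) (h0 : g₀ * σ ^ j = φ d₀ * g₀ * ν₀)
    (hnorm : ∀ d ∈ stabΔ φ N g₀, d₀⁻¹ * d * d₀ ∈ stabΔ φ N g₀)
    (a : fixedSub (B := B) (stabΔ φ N g₀)) :
    transl φ N (σ ^ j) ((Subgroup.normalizer (N : Set G)).pow_mem hσ j) (compIncl φ N g₀ a) =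
      compIncl φ N g₀ (fixAct (stabΔ φ N g₀) d₀ hnorm a) := by
  have hs : σ ^ j ∈ Subgroup.normalizer (N : Set G) :=
    (Subgroup.normalizer (N : Set G)).pow_mem hσ j
  apply Subtype.ext
  funext g
  show extFun (φ := φ) (N := N) (g₀ := g₀) a.1 (g * σ ^ j) =
    extFun (φ := φ) (N := N) (g₀ := g₀) (d₀ • a.1) g
  by_cases h : cmk φ N g₀ = cmk φ N g
  · obtain ⟨d, ν, hν, hg⟩ := cmk_eq_iff.mp h
    have hν' : (σ ^ j)⁻¹ * ν * σ ^ j ∈ N := conj_mem_of_mem_normalizer hs hν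
    have e1 : g * σ ^ j = φ (d * d₀) * g₀ * (ν₀ * ((σ ^ j)⁻¹ * ν * σ ^ j)) := by
      have : g * σ ^ j = φ d * (g₀ * σ ^ j) * ((σ ^ j)⁻¹ * ν * σ ^ j) := by
        rw [hg]; group
      rw [this, h0, map_mul]
      group
    have hmem : d₀ • a.1 ∈ fixedSub (B := B) (stabΔ φ N g₀) :=
      (fixAct (stabΔ φ N g₀) d₀ hnorm a).2
    rw [extFun_spec a.2 (N.mul_mem hν₀ hν') e1, extFun_spec hmem hν hg, mul_smul]
  · have h' : cmk φ N g₀ ≠ cmk φ N (g * σ ^ j) := by
      intro h2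
      apply h
      have h3 : cmk φ N g₀ = cmk φ N (g₀ * σ ^ j) := cmk_eq_iff.mpr ⟨d₀, ν₀, hν₀, h0⟩
      apply rmulC_injective (σ ^ j) hs
      rw [rmulC_mk, rmulC_mk, ← h3, h2]
    rw [extFun_of_ne _ h, extFun_of_ne _ h']

/-- **Local hypothesis**: for every cyclic layer `Δ₀ ◁ ⟨Δ₀, d₀⟩` of `Δ` of order `k`, the
`⟨d₀⟩`-module `B^{Δ₀}` has `h⁰ = k` (local norm index) and `h¹ = 1` (Hilbert 90). -/
def LocalCyclicHyp (Δ B : Type*) [Group Δ] [CommGroup B] [MulDistribMulAction Δ B] : Prop :=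
  ∀ (Δ₀ : Subgroup Δ) (d₀ : Δ) (h : ∀ d ∈ Δ₀, d₀⁻¹ * d * d₀ ∈ Δ₀) (k : ℕ), 0 < k →
    (∀ i : ℕ, d₀ ^ i ∈ Δ₀ ↔ k ∣ i) →
    hIdx (dlt (fixEnd (B := B) Δ₀ d₀ h)) (nrm (fixEnd (B := B) Δ₀ d₀ h) k) = k ∧
      hIdx (nrm (fixEnd (B := B) Δ₀ d₀ h) k) (dlt (fixEnd (B := B) Δ₀ d₀ h)) = 1

variable (φ N) in
/-- The orbits of `σ` on the double cosets `φ(Δ) \ G / N` (the places of `K = L^{N⟨σ⟩}`). -/
abbrev OrbitsC (σ : G) (hσ : σ ∈ Subgroup.normalizer (N : Set G)) : Type _ :=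
  MulAction.orbitRel.Quotient (Subgroup.zpowers (sPerm φ N σ hσ)) (Cosets φ N)

noncomputable instance instFintypeCosets [Finite G] : Fintype (Cosets φ N) :=
  haveI : Finite (Cosets φ N) := Quotient.finite _
  Fintype.ofFinite _

noncomputable instance instFintypeOrbitsC [Finite G] (σ : G)
    (hσ : σ ∈ Subgroup.normalizer (N : Set G)) : Fintype (OrbitsC φ N σ hσ) :=
  haveI : Finite (OrbitsC φ N σ hσ) := Quotient.finite _
  Fintype.ofFinite _

variable (φ N) in
/-- The length of the orbit `v`. -/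
noncomputable def orbLen (σ : G) (hσ : σ ∈ Subgroup.normalizer (N : Set G))
    (v : OrbitsC φ N σ hσ) : ℕ :=
  MulAction.period (sPerm φ N σ hσ) (Quotient.out v)

/-- **Herbrand indices of the `N`-invariants of a coinduced module**, for the cyclic group
generated by `σ` modulo `N` (of exact order `n`). -/
theorem hIdx_coindInv [Finite G] (σ : G) (hσ : σ ∈ Subgroup.normalizer (N : Set G)) {n : ℕ}
    (hn0 : 0 < n) (hn : ∀ i : ℕ, σ ^ i ∈ N ↔ n ∣ i) (hloc : LocalCyclicHyp Δ B) :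
    hIdx (dlt (sigmaEnd (B := B) φ N σ hσ)) (nrm (sigmaEnd (B := B) φ N σ hσ) n) =
        ∏ v : OrbitsC φ N σ hσ, n / orbLen φ N σ hσ v ∧
      hIdx (nrm (sigmaEnd (B := B) φ N σ hσ) n) (dlt (sigmaEnd (B := B) φ N σ hσ)) = 1 := by
  classical
  set s := sPerm φ N σ hσ with hs
  set Z := Subgroup.zpowers s with hZ
  have hsn : s ^ n = 1 := sPerm_pow_eq_one σ hσ ((hn n).mpr dvd_rfl)
  -- the cyclic group `Z` with its generator
  let s' : Z := ⟨s, Subgroup.mem_zpowers s⟩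
  have hs' : ∀ z : Z, z ∈ Subgroup.zpowers s' := by
    rintro ⟨z, hz⟩
    obtain ⟨i, rfl⟩ := Subgroup.mem_zpowers_iff.mp hz
    exact Subgroup.mem_zpowers_iff.mpr ⟨i, Subtype.ext (by simp [s'])⟩
  have hfinZ : Finite Z := by
    have : Finite (Equiv.Perm (Cosets φ N)) := inferInstance
    exact Subtype.finite
  have hact : ∀ (i : ℕ) (w : Cosets φ N), (s' ^ i) • w = (s ^ i) w := by
    intro i w
    rfl
  have hperiod : ∀ w : Cosets φ N, MulAction.period s' w = MulAction.period s w := by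
    intro w
    apply Nat.dvd_antisymm
    · rw [← MulAction.pow_smul_eq_iff_period_dvd, hact]
      exact MulAction.pow_period_smul s w
    · rw [← MulAction.pow_smul_eq_iff_period_dvd]
      have := MulAction.pow_period_smul s' w
      rw [hact] at this
      exact this
  let p : Cosets φ N → OrbitsC φ N σ hσ := fun w => Quotient.mk'' w
  let w₀ : OrbitsC φ N σ hσ → Cosets φ N := fun v => Quotient.out v
  have hpw₀ : ∀ v, p (w₀ v) = v := fun v => Quotient.out_eq' v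
  let gl : OrbitsC φ N σ hσ → ℕ := fun v => orbLen φ N σ hσ v
  let k : OrbitsC φ N σ hσ → ℕ := fun v => n / gl v
  have hgl : ∀ v, gl v = MulAction.period s' (w₀ v) := fun v => (hperiod (w₀ v)).symm
  have hg : ∀ v, 0 < gl v := by
    intro v
    rw [hgl]
    exact CyclicOrbit.period_pos_of_finite s' (w₀ v)
  have hgdvd : ∀ v, gl v ∣ n := by
    intro v
    show MulAction.period s (w₀ v) ∣ n
    rw [← MulAction.pow_smul_eq_iff_period_dvd, hsn]
    rfl
  have hgk : ∀ v, gl v * k v = n := fun v => Nat.mul_div_cancel' (hgdvd v)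
  have hk : ∀ v, 0 < k v := fun v => Nat.div_pos (Nat.le_of_dvd hn0 (hgdvd v)) (hg v)
  have hp : ∀ v i, p ((s ^ i) (w₀ v)) = v := by
    intro v i
    rw [← hpw₀ v]
    apply Quotient.sound
    show (MulAction.orbitRel Z (Cosets φ N)) _ _
    rw [MulAction.orbitRel_apply, hpw₀ v]
    exact ⟨s' ^ i, hact i (w₀ v)⟩
  have hcyc : ∀ w, ∃ i < gl (p w), (s ^ i) (w₀ (p w)) = w := by
    intro w
    have h1 : w ∈ MulAction.orbit Z (w₀ (p w)) := by
      have h2 : p w = p (w₀ (p w)) := (hpw₀ (p w)).symm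
      have h3 := Quotient.exact h2
      exact (MulAction.orbitRel_apply).mp h3
    obtain ⟨i, hi, hiw⟩ := CyclicOrbit.exists_pow_smul_eq s' hs' (w₀ (p w)) h1
    refine ⟨i, ?_, ?_⟩
    · rw [hgl]; exact hi
    · rw [← hact]; exact hiw
  have hinj : ∀ v, ∀ i < gl v, ∀ j < gl v, (s ^ i) (w₀ v) = (s ^ j) (w₀ v) → i = j := by
    intro v i hi j hj h
    rw [hgl] at hi hj
    rw [← hact, ← hact] at h
    exact CyclicOrbit.pow_smul_injOn s' (w₀ v) i hi j hj h
  have hsg : ∀ v, (s ^ gl v) (w₀ v) = w₀ v := by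
    intro v
    show (s ^ MulAction.period s (w₀ v)) (w₀ v) = w₀ v
    exact MulAction.pow_period_smul s (w₀ v)
  -- representatives in `G` and the local generators
  have hrep : ∀ v, ∃ g₀ : G, cmk φ N g₀ = w₀ v := fun v => cmk_surjective (w₀ v)
  choose g₀ hg₀ using hrep
  have hd₀ex : ∀ v, ∃ d₀ : Δ, ∃ ν₀ ∈ N, g₀ v * σ ^ gl v = φ d₀ * g₀ v * ν₀ := by
    intro v
    have h1 : ((sPerm φ N σ hσ) ^ gl v) (cmk φ N (g₀ v)) = cmk φ N (g₀ v) := by
      rw [hg₀]; exact hsg v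
    exact cmk_eq_iff.mp (cmk_mul_pow_eq σ hσ h1).symm
  choose d₀ ν₀ hν₀ h0 using hd₀ex
  have hsj : ∀ v, σ ^ gl v ∈ Subgroup.normalizer (N : Set G) :=
    fun v => (Subgroup.normalizer (N : Set G)).pow_mem hσ (gl v)
  have hnorm : ∀ v, ∀ d ∈ stabΔ φ N (g₀ v), (d₀ v)⁻¹ * d * d₀ v ∈ stabΔ φ N (g₀ v) := by
    intro v d hd
    have ht : σ ^ gl v * (ν₀ v)⁻¹ ∈ Subgroup.normalizer (N : Set G) :=
      (Subgroup.normalizer (N : Set G)).mul_mem (hsj v)
        (Subgroup.le_normalizer (N.inv_mem (hν₀ v)))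
    refine conj_mem_stabΔ ht ?_ hd
    have : φ (d₀ v) * g₀ v = g₀ v * σ ^ gl v * (ν₀ v)⁻¹ := by rw [h0 v]; group
    rw [this, mul_assoc]
  -- apply the abstract semi-local lemma
  have key := hIdx_orbits (M := Additive (coindInv (B := B) φ N))
    (fun c => PEnd (B := B) φ N c) sum_PEnd (fun c c' h => PEnd_mul_of_ne h)
    (sigmaEnd (B := B) φ N σ hσ) s p w₀ gl k n hgk hg hk
    (sigmaEnd_pow_eq_one σ hσ ((hn n).mpr dvd_rfl)) (fun c => sigmaEnd_mul_PEnd σ hσ c)
    hp hcyc hinj hsg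
    (A := fun v => Additive (fixedSub (B := B) (stabΔ φ N (g₀ v))))
    (fun v => MonoidHom.toAdditive (compIncl (B := B) φ N (g₀ v)))
    (fun v => compIncl_injective)
    (fun v => by rw [range_compIncl, hg₀])
    (fun v => fixEnd (B := B) (stabΔ φ N (g₀ v)) (d₀ v) (hnorm v))
    (fun v a => by
      rw [sigmaEnd_pow]
      exact congrArg Additive.ofMul
        (transl_compIncl σ hσ (hν₀ v) (h0 v) (hnorm v) (Additive.toMul a)))
  have hlocv : ∀ v, hIdx (dlt (fixEnd (B := B) (stabΔ φ N (g₀ v)) (d₀ v) (hnorm v)))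
        (nrm (fixEnd (B := B) (stabΔ φ N (g₀ v)) (d₀ v) (hnorm v)) (k v)) = k v ∧
      hIdx (nrm (fixEnd (B := B) (stabΔ φ N (g₀ v)) (d₀ v) (hnorm v)) (k v))
        (dlt (fixEnd (B := B) (stabΔ φ N (g₀ v)) (d₀ v) (hnorm v))) = 1 :=
    fun v => hloc (stabΔ φ N (g₀ v)) (d₀ v) (hnorm v) (k v) (hk v)
      (pow_mem_stabΔ_iff σ hσ hn (hgk v) (hg v) (hν₀ v) (h0 v))
  obtain ⟨key0, key1⟩ := key
  refine ⟨?_, ?_⟩
  · rw [key0]
    exact Finset.prod_congr rfl fun v _ => (hlocv v).1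
  · rw [key1]
    exact Finset.prod_eq_one fun v _ => (hlocv v).2

end Final

end Fermat.Agent.S55.GL.CoindHerbrand
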