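/-
S55 / GLO6 (helper29): Herbrand indices of the idele module of a cyclic layer, in helper3's
coinduced idele model and in the exact shape of helper7's `CF1.layerHyp_of_herbrand`.

`L/ℚ` finite Galois inside `ℚ̄`, `G = Gal(L/ℚ)`, `T` a finite set of rational primes,
`J = J_{L,T} = ∏_{q ∈ T} Coind_{D_q}^G L_q^×` (`Ideles.J L T`).  For a layer `N ◁ H ≤ G` with
`H ⧸ N` cyclic of order `n`, generated by the class of `h : H`, the `H ⧸ N`-module
`J^N = (layerSC (seq L T) H N).X₂` is, `σ`-equivariantly, `∏_{q ∈ T} coindInv (resLoc q L) N`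
(`layerJEquiv`, `layerJEquiv_sigma`), hence by `CoindHerbrand.hIdx_coindInv`

  `h⁰(J^N) = ∏_{q ∈ T} ∏_{v} n / |v|`,  `h¹(J^N) = 1`      (`hIdx_layer_J`),

`v` running over the orbits of `h` on the double cosets `D_q \ G / N` (the places of `L^H` over
`q`; `|v|` = number of places of `L^N` over `v`), PROVIDED the local fields satisfy the local norm
index theorem and Hilbert 90 in the form `CoindHerbrand.LocalCyclicHyp` (helper8's LO3).
-/
import Mathlib
import Fermat.Agent.S55.GL.Ideles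
import Fermat.Agent.S55.GL.CFLayerSeq
import Fermat.Agent.S55.GL.CoindHerbrand
import Fermat.Agent.S55.GL.FirstIneqAbstract

set_option autoImplicit false

namespace Fermat.Agent.S55.GL.IdeleInvHerbrand

open IntermediateField CategoryTheory
open Fermat.Agent.S14.Herbrand Fermat.Agent.S55.GL.CoindHerbrand Fermat.Agent.S55.GL.Ideles
  Fermat.Agent.S55.GL.LocalFieldAt Fermat.Agent.S55.LocalDict
  Fermat.Agent.S55.GC.HerbrandBridge Fermat.Agent.S55.GL.CF1 Fermat.Agent.S55.GL.FirstIneq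

section Group

variable {G : Type*} [Group G] (H : Subgroup G) (N : Subgroup H)

/-- `N ≤ H ≤ G` as a subgroup of `G`. -/
abbrev subG : Subgroup G := N.map H.subtype

variable {H N}

lemma coe_mem_subG {ν : H} (hν : ν ∈ N) : (ν : G) ∈ subG H N := ⟨ν, hν, rfl⟩

lemma mem_subG_iff {g : G} : g ∈ subG H N ↔ ∃ hg : g ∈ H, (⟨g, hg⟩ : H) ∈ N := by
  constructor
  · rintro ⟨ν, hν, rfl⟩
    exact ⟨ν.2, hν⟩
  · rintro ⟨hg, hN⟩
    exact ⟨⟨g, hg⟩, hN, rfl⟩

lemma coe_mem_subG_iff {ν : H} : (ν : G) ∈ subG H N ↔ ν ∈ N := by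
  rw [mem_subG_iff]
  constructor
  · rintro ⟨_, h⟩
    exact h
  · intro h
    exact ⟨ν.2, h⟩

lemma coe_pow_mem_subG_iff (h : H) (i : ℕ) : (h : G) ^ i ∈ subG H N ↔ h ^ i ∈ N := by
  rw [← coe_mem_subG_iff (N := N), Subgroup.coe_pow]

variable (H N) in
/-- Elements of `H` normalise `N` (as a subgroup of `G`) when `N ◁ H`. -/
lemma coe_mem_normalizer_subG [N.Normal] (h : H) :
    (h : G) ∈ Subgroup.normalizer ((subG H N : Subgroup G) : Set G) := by
  rw [Subgroup.mem_normalizer_iff]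
  intro ν
  constructor
  · rintro ⟨ν₀, hν₀, rfl⟩
    have h1 : h * ν₀ * h⁻¹ ∈ N := Subgroup.Normal.conj_mem ‹N.Normal› ν₀ hν₀ h
    exact ⟨h * ν₀ * h⁻¹, h1, rfl⟩
  · rintro ⟨μ, hμ, hμe⟩
    have h1 : h⁻¹ * μ * h⁻¹⁻¹ ∈ N := Subgroup.Normal.conj_mem ‹N.Normal› μ hμ h⁻¹
    refine ⟨h⁻¹ * μ * h⁻¹⁻¹, h1, ?_⟩
    show ((h⁻¹ * μ * h⁻¹⁻¹ : H) : G) = ν
    have hμe' : (μ : G) = h * ν * (h : G)⁻¹ := hμe
    push_cast
    rw [hμe']
    group

end Group

section OrbLen

variable {G Δ : Type*} [Group G] [Group Δ] {φ : Δ →* G} {N : Subgroup G}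

/-- The length of an orbit of `σ` on `φ(Δ) \ G / N` divides `n` when `σ ^ n ∈ N`. -/
lemma orbLen_dvd (σ : G) (hσ : σ ∈ Subgroup.normalizer (N : Set G)) {n : ℕ} (hn : σ ^ n ∈ N)
    (v : OrbitsC φ N σ hσ) : orbLen φ N σ hσ v ∣ n := by
  unfold orbLen
  rw [← MulAction.pow_smul_eq_iff_period_dvd, sPerm_pow_eq_one σ hσ hn, one_smul]

lemma div_orbLen_ne_zero (σ : G) (hσ : σ ∈ Subgroup.normalizer (N : Set G)) {n : ℕ} (hn0 : 0 < n)
    (hn : σ ^ n ∈ N) (v : OrbitsC φ N σ hσ) : n / orbLen φ N σ hσ v ≠ 0 := by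
  have hd := orbLen_dvd (φ := φ) σ hσ hn v
  exact (Nat.div_pos (Nat.le_of_dvd hn0 hd) (Nat.pos_of_dvd_of_pos hd hn0)).ne'

end OrbLen

local notation "Qbar" => AlgebraicClosure ℚ

/-- primes as `Fact`s -/
local instance factPrime_iih (q : Nat.Primes) : Fact (q : ℕ).Prime := ⟨q.2⟩

variable (L : IntermediateField ℚ Qbar) [Normal ℚ L] (T : Finset Nat.Primes)
  (H : Subgroup (L ≃ₐ[ℚ] L)) (N : Subgroup H) [N.Normal]

/-- The `q`-component of the `N`-invariant ideles: `coindInv (resLoc q L) N`. -/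
abbrev CompInv (q : T) : Type :=
  Additive (coindInv (B := (localField ((q : Nat.Primes) : ℕ) L)ˣ)
    (resLoc ((q : Nat.Primes) : ℕ) L) (subG H N))

/-- The idele module of the layer, `J^N`, is `∏_{q ∈ T} coindInv (resLoc q L) N`. -/
noncomputable def layerJEquiv : (layerSC (seq L T) H N).X₂ ≃+ ∀ q : T, CompInv L T H N q where
  toFun x q := Additive.ofMul
    ⟨((Additive.toMul (α := Idele L T) x.1) q).1,
      ((Additive.toMul (α := Idele L T) x.1) q).2, by
        rintro ν ⟨ν₀, hν₀, rfl⟩ g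
        have h1 : (J L T).ρ ((ν₀ : H) : L ≃ₐ[ℚ] L) x.1 = x.1 := x.2 ⟨ν₀, hν₀⟩
        exact congrArg (fun y : Additive (Idele L T) => ((Additive.toMul y) q).1 g) h1⟩
  invFun f :=
    ⟨Additive.ofMul (α := Idele L T) fun q => ⟨(Additive.toMul (f q)).1, (Additive.toMul (f q)).2.1⟩,
      by
        rintro ⟨ν, hν⟩
        refine congrArg (Additive.ofMul (α := Idele L T)) (funext fun q => Subtype.ext ?_)
        funext g
        exact (Additive.toMul (f q)).2.2 (ν : L ≃ₐ[ℚ] L) (coe_mem_subG hν) g⟩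
  left_inv x := rfl
  right_inv f := rfl
  map_add' x y := rfl

lemma layerJEquiv_apply (x : (layerSC (seq L T) H N).X₂) (q : T) (g : L ≃ₐ[ℚ] L) :
    (Additive.toMul (layerJEquiv L T H N x q)).1 g =
      ((Additive.toMul (α := Idele L T) x.1) q).1 g := rfl

/-- `layerJEquiv` intertwines the action of the class of `h : H` with right translation by `h`
on each component. -/
lemma layerJEquiv_sigma (h : H) (x : (layerSC (seq L T) H N).X₂) :
    layerJEquiv L T H N (sigma (layerSC (seq L T) H N).X₂ (QuotientGroup.mk h) x) =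
      (show AddMonoid.End (∀ q : T, CompInv L T H N q) from
        piEnd fun q : T => sigmaEnd (B := (localField ((q : Nat.Primes) : ℕ) L)ˣ)
          (resLoc ((q : Nat.Primes) : ℕ) L) (subG H N) (h : L ≃ₐ[ℚ] L)
          (coe_mem_normalizer_subG H N h)) (layerJEquiv L T H N x) := rfl

/-- The number `a = ∏_{q ∈ T} ∏_v n / |v|` (`v` running over the orbits of `h` on
`D_q \ G / N`, i.e. over the places of `L^H` above `q`; `n / |v|` is the local degree at `v` of the
layer): the value of `h⁰(J^N)`. -/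
noncomputable def layerIndex [FiniteDimensional ℚ L] (h : H) (n : ℕ) : ℕ :=
  ∏ q : T, ∏ v : OrbitsC (resLoc ((q : Nat.Primes) : ℕ) L) (subG H N) (h : L ≃ₐ[ℚ] L)
      (coe_mem_normalizer_subG H N h),
    n / orbLen (resLoc ((q : Nat.Primes) : ℕ) L) (subG H N) (h : L ≃ₐ[ℚ] L)
      (coe_mem_normalizer_subG H N h) v

lemma layerIndex_ne_zero [FiniteDimensional ℚ L] (h : H) {n : ℕ} (hn0 : 0 < n) (hn : h ^ n ∈ N) :
    layerIndex L T H N h n ≠ 0 := by
  unfold layerIndex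
  refine Finset.prod_ne_zero_iff.mpr fun q _ => Finset.prod_ne_zero_iff.mpr fun v _ => ?_
  exact div_orbLen_ne_zero _ _ hn0 ((coe_pow_mem_subG_iff h n).mpr hn) v

set_option maxHeartbeats 1000000 in
/-- **GLO6, idele part, layer form**: Herbrand indices of `J^N` for a cyclic layer `N ◁ H` of
`Gal(L/ℚ)` with `H ⧸ N` generated by the class of `h`, of order `n`. -/
theorem hIdx_layer_J [FiniteDimensional ℚ L] (h : H) {n : ℕ} (hn0 : 0 < n)
    (hn : ∀ i : ℕ, h ^ i ∈ N ↔ n ∣ i)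
    (hloc : ∀ q : T, LocalCyclicHyp
      (localField ((q : Nat.Primes) : ℕ) L ≃ₐ[ℚ_[((q : Nat.Primes) : ℕ)]]
        localField ((q : Nat.Primes) : ℕ) L) (localField ((q : Nat.Primes) : ℕ) L)ˣ) :
    hIdx (dlt (sigma (layerSC (seq L T) H N).X₂ (QuotientGroup.mk h)))
        (nrm (sigma (layerSC (seq L T) H N).X₂ (QuotientGroup.mk h)) n) =
        layerIndex L T H N h n ∧
      hIdx (nrm (sigma (layerSC (seq L T) H N).X₂ (QuotientGroup.mk h)) n)
        (dlt (sigma (layerSC (seq L T) H N).X₂ (QuotientGroup.mk h))) = 1 := by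
  have hfin : Finite (L ≃ₐ[ℚ] L) := inferInstance
  set σJ := sigma (layerSC (seq L T) H N).X₂ (QuotientGroup.mk h) with hσJ
  set σP : AddMonoid.End (∀ q : T, CompInv L T H N q) :=
    piEnd fun q : T => sigmaEnd (B := (localField ((q : Nat.Primes) : ℕ) L)ˣ)
      (resLoc ((q : Nat.Primes) : ℕ) L) (subG H N) (h : L ≃ₐ[ℚ] L)
      (coe_mem_normalizer_subG H N h) with hσP
  have hint : ∀ x, σP (layerJEquiv L T H N x) = (layerJEquiv L T H N).toAddMonoidHom (σJ x) :=
    fun x => (layerJEquiv_sigma L T H N h x).symm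
  have hd := dlt_hom (layerJEquiv L T H N).toAddMonoidHom (a := σJ) (b := σP) hint
  have hnr := nrm_hom (layerJEquiv L T H N).toAddMonoidHom (a := σJ) (b := σP) hint n
  have e0 : hIdx (dlt σJ) (nrm σJ n) = hIdx (dlt σP) (nrm σP n) :=
    hIdx_congr (layerJEquiv L T H N) (fun x => (hd x).symm) (fun x => (hnr x).symm)
  have e1 : hIdx (nrm σJ n) (dlt σJ) = hIdx (nrm σP n) (dlt σP) :=
    hIdx_congr (layerJEquiv L T H N) (fun x => (hnr x).symm) (fun x => (hd x).symm)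
  rw [e0, e1]
  obtain ⟨p0, p1⟩ := hIdx_pi_pi (fun q : T => sigmaEnd (B := (localField ((q : Nat.Primes) : ℕ) L)ˣ)
      (resLoc ((q : Nat.Primes) : ℕ) L) (subG H N) (h : L ≃ₐ[ℚ] L)
      (coe_mem_normalizer_subG H N h)) n
  have hn' : ∀ i : ℕ, (h : L ≃ₐ[ℚ] L) ^ i ∈ subG H N ↔ n ∣ i := fun i => by
    rw [coe_pow_mem_subG_iff, hn]
  have hq := fun q : T => hIdx_coindInv (B := (localField ((q : Nat.Primes) : ℕ) L)ˣ)
    (φ := resLoc ((q : Nat.Primes) : ℕ) L) (N := subG H N) (h : L ≃ₐ[ℚ] L)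
    (coe_mem_normalizer_subG H N h) hn0 hn' (hloc q)
  constructor
  · rw [p0]
    unfold layerIndex
    exact Finset.prod_congr rfl fun q _ => (hq q).1
  · rw [p1]
    exact Finset.prod_eq_one fun q _ => (hq q).2

end Fermat.Agent.S55.GL.IdeleInvHerbrand
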