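/-
S55 (T4), block GLO2 (Places), part PL2c: the `T`-unit dictionary for ABSTRACT number fields
(`M : Type*`, not necessarily a subfield of `ℚ̄`), in terms of all embeddings `M → ℚ̄`.
-/
import Mathlib
import Fermat.Agent.S55.GL.PlacesPrimeUnits
import Fermat.Agent.S55.SUnitStable

set_option autoImplicit false
set_option linter.style.haveILetI false
set_option linter.unusedSectionVars false

namespace Fermat.Agent.S55.GL.PlacesAbs

open IntermediateField NumberField IsDedekindDomain Fermat.Agent.S55.LocalDict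
open Fermat.Agent.S55.GL Fermat.Agent.S55.GL.Places Fermat.Agent.S55.GL.PlacesUnits
open scoped Pointwise

local notation "Qbar" => AlgebraicClosure ℚ
local notation "Γ" => (AlgebraicClosure ℚ ≃ₐ[ℚ] AlgebraicClosure ℚ)

local instance isAlgebraicQbar_PA : Algebra.IsAlgebraic ℚ (AlgebraicClosure ℚ) :=
  AlgebraicClosure.isAlgebraic ℚ
local instance isAlgClosureQbar_PA : IsAlgClosure ℚ (AlgebraicClosure ℚ) :=
  ⟨inferInstance, inferInstance⟩
local instance normalQbar_PA : Normal ℚ (AlgebraicClosure ℚ) :=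
  IsAlgClosure.normal ℚ (AlgebraicClosure ℚ)

/-- primes as `Fact`s -/
local instance factPrime_pa (q : Nat.Primes) : Fact (q : ℕ).Prime := ⟨q.2⟩

/-! ### Transport of primes along an isomorphism of number fields -/

section Transport

variable {M K : Type*} [Field M] [NumberField M] [Field K] [NumberField K] (e : M ≃+* K)

/-- The prime of `𝓞 K` corresponding to a prime of `𝓞 M` under an isomorphism `M ≃ K`. -/
noncomputable def mapPrime (P : HeightOneSpectrum (𝓞 M)) : HeightOneSpectrum (𝓞 K) where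
  asIdeal := P.asIdeal.comap (RingOfIntegers.mapRingEquiv e).symm
  isPrime := Ideal.comap_isPrime _ _
  ne_bot := by
    intro h
    apply P.ne_bot
    rw [eq_bot_iff]
    intro x hx
    have h1 : RingOfIntegers.mapRingEquiv e x ∈
        P.asIdeal.comap (RingOfIntegers.mapRingEquiv e).symm := by
      rw [Ideal.mem_comap, RingEquiv.symm_apply_apply]; exact hx
    rw [h, Ideal.mem_bot] at h1
    rw [Ideal.mem_bot]
    exact (RingOfIntegers.mapRingEquiv e).injective (by rw [h1, map_zero])

theorem mem_mapPrime (P : HeightOneSpectrum (𝓞 M)) (y : 𝓞 K) :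
    y ∈ (mapPrime e P).asIdeal ↔ (RingOfIntegers.mapRingEquiv e).symm y ∈ P.asIdeal := Iff.rfl

theorem apply_mem_mapPrime (P : HeightOneSpectrum (𝓞 M)) (x : 𝓞 M) :
    RingOfIntegers.mapRingEquiv e x ∈ (mapPrime e P).asIdeal ↔ x ∈ P.asIdeal := by
  rw [mem_mapPrime, RingEquiv.symm_apply_apply]

theorem natCast_mem_mapPrime (P : HeightOneSpectrum (𝓞 M)) (n : ℕ) :
    (n : 𝓞 K) ∈ (mapPrime e P).asIdeal ↔ (n : 𝓞 M) ∈ P.asIdeal := by
  rw [mem_mapPrime, map_natCast]

theorem mapPrime_asIdeal_pow (P : HeightOneSpectrum (𝓞 M)) (n : ℕ) :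
    (mapPrime e P).asIdeal ^ n = (P.asIdeal ^ n).comap (RingOfIntegers.mapRingEquiv e).symm := by
  show (P.asIdeal.comap (RingOfIntegers.mapRingEquiv e).symm) ^ n = _
  rw [Ideal.comap_symm, Ideal.comap_symm, Ideal.map_pow]

theorem intValuation_mapPrime (P : HeightOneSpectrum (𝓞 M)) (a : 𝓞 M) :
    (mapPrime e P).intValuation (RingOfIntegers.mapRingEquiv e a) = P.intValuation a := by
  refine Fermat.Agent.S14.GalDiv.eq_of_forall_le_exp_iff
    (HeightOneSpectrum.intValuation_le_one _ _) (HeightOneSpectrum.intValuation_le_one _ _)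
    fun n => ?_
  rw [HeightOneSpectrum.intValuation_le_pow_iff_mem, HeightOneSpectrum.intValuation_le_pow_iff_mem,
    mapPrime_asIdeal_pow, Ideal.mem_comap, RingEquiv.symm_apply_apply]

theorem valuation_mapPrime (P : HeightOneSpectrum (𝓞 M)) (x : M) :
    (mapPrime e P).valuation K (e x) = P.valuation M x := by
  obtain ⟨a, b, hb, rfl⟩ := IsFractionRing.div_surjective (A := 𝓞 M) x
  have h1 : e (algebraMap (𝓞 M) M a) = algebraMap (𝓞 K) K (RingOfIntegers.mapRingEquiv e a) := rfl
  have h2 : e (algebraMap (𝓞 M) M b) = algebraMap (𝓞 K) K (RingOfIntegers.mapRingEquiv e b) := rfl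
  rw [map_div₀, h1, h2, map_div₀, map_div₀, HeightOneSpectrum.valuation_of_algebraMap,
    HeightOneSpectrum.valuation_of_algebraMap, HeightOneSpectrum.valuation_of_algebraMap,
    HeightOneSpectrum.valuation_of_algebraMap, intValuation_mapPrime, intValuation_mapPrime]

end Transport

/-! ### The primes of an abstract number field over a finite set of rational primes -/

section RatPrimesOver

open Fermat.Agent.S55.SUnitStable Fermat.Agent.S55.SUnitClass Fermat.Agent.S14.GalDiv

variable (M : Type*) [Field M] [NumberField M]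

theorem finite_ratPrimes_over (q : Nat.Primes) :
    {P : HeightOneSpectrum (𝓞 M) | ((q : ℕ) : 𝓞 M) ∈ P.asIdeal}.Finite := by
  have hq0 : ((q : ℕ) : 𝓞 M) ≠ 0 := by exact_mod_cast q.2.ne_zero
  have hI : Ideal.span {((q : ℕ) : 𝓞 M)} ≠ 0 := by
    rw [Ne, Ideal.zero_eq_bot, Ideal.span_singleton_eq_bot]; exact hq0
  refine (Ideal.finite_factors hI).subset ?_
  intro P hP
  show P.asIdeal ∣ Ideal.span {((q : ℕ) : 𝓞 M)}
  rw [Ideal.dvd_iff_le, Ideal.span_singleton_le_iff_mem]
  exact hP

/-- The (finite) set of primes of `𝓞 M` over the rational primes in `T`. -/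
noncomputable def ratPrimesOver (T : Finset Nat.Primes) : Finset (HeightOneSpectrum (𝓞 M)) :=
  (Set.Finite.biUnion T.finite_toSet (fun q _ => finite_ratPrimes_over M q)).toFinset

variable {M} in
theorem mem_ratPrimesOver {T : Finset Nat.Primes} {P : HeightOneSpectrum (𝓞 M)} :
    P ∈ ratPrimesOver M T ↔ ∃ q ∈ T, ((q : ℕ) : 𝓞 M) ∈ P.asIdeal := by
  simp [ratPrimesOver]

theorem ratPrimesOver_mono {T T' : Finset Nat.Primes} (h : T ⊆ T') :
    ratPrimesOver M T ⊆ ratPrimesOver M T' := by
  intro P hP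
  obtain ⟨q, hq, hqP⟩ := mem_ratPrimesOver.mp hP
  exact mem_ratPrimesOver.mpr ⟨q, h hq, hqP⟩

/-- For subfields of `ℚ̄` this is `PlacesUnits.primesOver`. -/
theorem primesOver_eq_ratPrimesOver (K : IntermediateField ℚ Qbar) [NumberField K]
    (T : Finset Nat.Primes) : primesOver K T = ratPrimesOver K T := by
  ext P
  rw [mem_primesOver, mem_ratPrimesOver]

/-- Every finite set of primes lies over a finite set of rational primes. -/
theorem exists_subset_ratPrimesOver (S : Finset (HeightOneSpectrum (𝓞 M))) :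
    ∃ T : Finset Nat.Primes, S ⊆ ratPrimesOver M T := by
  classical
  choose f hf using fun P : HeightOneSpectrum (𝓞 M) => exists_natCast_mem P
  exact ⟨S.image f, fun P hP => mem_ratPrimesOver.mpr ⟨f P, Finset.mem_image_of_mem f hP, hf P⟩⟩

/-- For `T` large, `Cl_T(M) = 0`. -/
theorem exists_forall_isClTrivial_ratPrimesOver :
    ∃ T₀ : Finset Nat.Primes, ∀ T, T₀ ⊆ T → IsClTrivial (ratPrimesOver M T) := by
  obtain ⟨S₀, hS₀⟩ := exists_finset_isClTrivial M
  obtain ⟨T₀, hT₀⟩ := exists_subset_ratPrimesOver M S₀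
  exact ⟨T₀, fun T hT => hS₀ _ (hT₀.trans (ratPrimesOver_mono M hT))⟩

variable {M} in
/-- The primes of `L` above the primes of `M` over `T` are the primes of `L` over `T`. -/
theorem primesAbove_ratPrimesOver (L : Type*) [Field L] [NumberField L] [Algebra M L]
    [DecidableEq (HeightOneSpectrum (𝓞 L))] (T : Finset Nat.Primes) :
    primesAbove L (ratPrimesOver M T) = ratPrimesOver L T := by
  ext w
  rw [mem_primesAbove, mem_ratPrimesOver, mem_ratPrimesOver]
  refine exists_congr fun q => and_congr_right fun _ => ?_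
  rw [underK_asIdeal, Ideal.under_def, Ideal.mem_comap, map_natCast]

/-- Galois stability (`K'` any field acting). -/
theorem smul_mem_ratPrimesOver (K' : Type*) [Field K'] [Algebra K' M] (T : Finset Nat.Primes)
    (τ : M ≃ₐ[K'] M) {w : HeightOneSpectrum (𝓞 M)} (hw : w ∈ ratPrimesOver M T) :
    τ • w ∈ ratPrimesOver M T := by
  obtain ⟨q, hq, hqw⟩ := mem_ratPrimesOver.mp hw
  refine mem_ratPrimesOver.mpr ⟨q, hq, ?_⟩
  show ((q : ℕ) : 𝓞 M) ∈ τ • w.asIdeal
  rw [Ideal.mem_pointwise_smul_iff_inv_smul_mem]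
  have h1 : τ⁻¹ • (((q : ℕ) : 𝓞 M)) = (((q : ℕ) : 𝓞 M)) :=
    map_natCast (MulSemiringAction.toRingHom (M ≃ₐ[K'] M) (𝓞 M) τ⁻¹) (q : ℕ)
  rw [h1]
  exact hqw

instance isGalStable_ratPrimesOver (K' : Type*) [Field K'] [Algebra K' M]
    (T : Finset Nat.Primes) : SUnitGalois.IsGalStable K' (ratPrimesOver M T) :=
  ⟨fun τ _ hw => smul_mem_ratPrimesOver M K' T τ hw⟩

variable {M} in
/-- Transport along an isomorphism of number fields. -/
theorem mapPrime_mem_ratPrimesOver_iff {K : Type*} [Field K] [NumberField K] (e : M ≃+* K)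
    (T : Finset Nat.Primes) (P : HeightOneSpectrum (𝓞 M)) :
    mapPrime e P ∈ ratPrimesOver K T ↔ P ∈ ratPrimesOver M T := by
  rw [mem_ratPrimesOver, mem_ratPrimesOver]
  exact exists_congr fun q => and_congr_right fun _ => natCast_mem_mapPrime e P _

end RatPrimesOver

/-! ### Units at all places over `q`, intrinsically -/

section Intrinsic

variable (M : Type*) [Field M] [NumberField M]

/-- **Intrinsic dictionary**: `x ∈ M` has absolute value `1` under all embeddings
`M → ℚ̄ → PadicAlgCl q` iff it is a unit at all primes of `𝓞 M` over `q`. -/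
theorem forall_norm_eq_one_iff (q : Nat.Primes) (x : M) :
    (∀ τ : M →ₐ[ℚ] Qbar, ‖padicEmbedding (q : ℕ) (τ x)‖ = 1) ↔
      ∀ P : HeightOneSpectrum (𝓞 M), ((q : ℕ) : 𝓞 M) ∈ P.asIdeal → P.valuation M x = 1 := by
  let τ₀ : M →ₐ[ℚ] Qbar := IsAlgClosed.lift
  let K : IntermediateField ℚ Qbar := τ₀.fieldRange
  let e : M ≃ₐ[ℚ] K := AlgEquiv.ofInjectiveField τ₀
  haveI : NumberField K :=
    { to_charZero := inferInstance
      to_finiteDimensional := LinearEquiv.finiteDimensional e.toLinearEquiv }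
  have he : ∀ y : M, ((e y : K) : Qbar) = τ₀ y := fun y => rfl
  constructor
  · intro h P hP
    have h1 : ∀ σ : Γ, absAt (q : ℕ) σ ((e x : K) : Qbar) = 1 := by
      intro σ
      have := h ((σ : Qbar →ₐ[ℚ] Qbar).comp τ₀)
      rw [absAt_apply, he]
      exact this
    have h2 := (forall_absAt_eq_one_iff K q (e x)).mp h1 (mapPrime e.toRingEquiv P)
      ((natCast_mem_mapPrime _ P _).mpr hP)
    rwa [show e x = e.toRingEquiv x from rfl, valuation_mapPrime] at h2
  · intro h τ
    let f : K →ₐ[ℚ] Qbar := τ.comp (e.symm : K →ₐ[ℚ] M)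
    let σ' : Qbar →ₐ[ℚ] Qbar := f.liftNormal Qbar
    let σ : Γ := AlgEquiv.ofBijective σ' (Algebra.IsAlgebraic.algHom_bijective σ')
    have hσ : ∀ y : M, σ (τ₀ y) = τ y := by
      intro y
      have h1 := f.liftNormal_commutes Qbar (e y)
      have h2 : f (e y) = τ y := by
        show τ (e.symm (e y)) = τ y
        rw [e.symm_apply_apply]
      rw [h2] at h1
      exact h1
    have h1 : ∀ P' : HeightOneSpectrum (𝓞 K), ((q : ℕ) : 𝓞 K) ∈ P'.asIdeal →
        P'.valuation K (e x) = 1 := by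
      intro P' hP'
      have h3 := h (mapPrime e.symm.toRingEquiv P') ((natCast_mem_mapPrime _ P' _).mpr hP')
      have h4 := valuation_mapPrime e.symm.toRingEquiv P' (e x)
      rw [show e.symm.toRingEquiv (e x) = x from e.symm_apply_apply x] at h4
      rw [← h4]
      exact h3
    have h2 := (forall_absAt_eq_one_iff K q (e x)).mpr h1 σ
    rw [absAt_apply, he, hσ] at h2
    exact h2

/-- Ring homomorphism form. -/
theorem forall_ringHom_norm_eq_one_iff (q : Nat.Primes) (x : M) :
    (∀ τ : M →+* Qbar, ‖padicEmbedding (q : ℕ) (τ x)‖ = 1) ↔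
      ∀ P : HeightOneSpectrum (𝓞 M), ((q : ℕ) : 𝓞 M) ∈ P.asIdeal → P.valuation M x = 1 := by
  rw [← forall_norm_eq_one_iff]
  constructor
  · intro h τ
    exact h τ.toRingHom
  · intro h τ
    exact h τ.toRatAlgHom

/-- **The `T`-units of an abstract number field, in the language of embeddings.** -/
theorem mem_TUnit_ratPrimesOver_iff (T : Finset Nat.Primes) (x : Mˣ) :
    x ∈ SUnit.TUnit M (ratPrimesOver M T) ↔
      ∀ q : Nat.Primes, q ∉ T → ∀ τ : M →ₐ[ℚ] Qbar, ‖padicEmbedding (q : ℕ) (τ (x : M))‖ = 1 := by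
  rw [SUnit.mem_TUnit_iff]
  constructor
  · intro h q hq
    rw [forall_norm_eq_one_iff]
    intro P hP
    apply h
    intro hPT
    obtain ⟨q', hq', hq'P⟩ := mem_ratPrimesOver.mp hPT
    have := eq_of_natCast_mem P q'.2 q.2 hq'P hP
    exact hq (by rwa [← Subtype.ext this])
  · intro h P hP
    obtain ⟨q, hq⟩ := exists_natCast_mem P
    have hqT : q ∉ T := fun hqT => hP (mem_ratPrimesOver.mpr ⟨q, hqT, hq⟩)
    exact (forall_norm_eq_one_iff M q (x : M)).mp (h q hqT) P hq

/-- Ring homomorphism form of `mem_TUnit_ratPrimesOver_iff`. -/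
theorem mem_TUnit_ratPrimesOver_iff_ringHom (T : Finset Nat.Primes) (x : Mˣ) :
    x ∈ SUnit.TUnit M (ratPrimesOver M T) ↔
      ∀ q : Nat.Primes, q ∉ T → ∀ τ : M →+* Qbar, ‖padicEmbedding (q : ℕ) (τ (x : M))‖ = 1 := by
  rw [mem_TUnit_ratPrimesOver_iff]
  refine forall_congr' fun q => forall_congr' fun _ => ?_
  rw [forall_norm_eq_one_iff, forall_ringHom_norm_eq_one_iff]

variable {M} in
/-- Embeddings into `ℚ̄` extend along extensions of number fields. -/
theorem exists_ringHom_comp_eq (L : Type*) [Field L] [NumberField L] [Algebra M L]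
    (τ : M →+* Qbar) : ∃ τ' : L →+* Qbar, τ'.comp (algebraMap M L) = τ := by
  letI := τ.toAlgebra
  haveI : Algebra.IsAlgebraic M L := Algebra.IsAlgebraic.tower_top (K := ℚ) (A := L) M
  refine ⟨((IsAlgClosed.lift : L →ₐ[M] Qbar) : L →+* Qbar), ?_⟩
  ext y
  exact (IsAlgClosed.lift : L →ₐ[M] Qbar).commutes y

variable {M} in
/-- **The `T`-units are compatible with extensions of number fields**: `x ∈ M` is a `T`-unit of `M`
iff it is a `T`-unit of `L ⊇ M`. -/
theorem map_mem_TUnit_ratPrimesOver_iff (L : Type*) [Field L] [NumberField L] [Algebra M L]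
    (T : Finset Nat.Primes) (x : Mˣ) :
    Units.map (algebraMap M L : M →* L) x ∈ SUnit.TUnit L (ratPrimesOver L T) ↔
      x ∈ SUnit.TUnit M (ratPrimesOver M T) := by
  rw [mem_TUnit_ratPrimesOver_iff_ringHom, mem_TUnit_ratPrimesOver_iff_ringHom]
  refine forall_congr' fun q => forall_congr' fun _ => ?_
  constructor
  · intro h τ
    obtain ⟨τ', rfl⟩ := exists_ringHom_comp_eq L τ
    exact h τ'
  · intro h τ'
    exact h (τ'.comp (algebraMap M L))

/-- Element form: `y ∈ L` coming from `x ∈ M`. -/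
theorem mem_TUnit_ratPrimesOver_iff_of_algebraMap_eq {M} [Field M] [NumberField M]
    (L : Type*) [Field L] [NumberField L] [Algebra M L]
    (T : Finset Nat.Primes) (x : Mˣ) (y : Lˣ) (hxy : algebraMap M L (x : M) = (y : L)) :
    y ∈ SUnit.TUnit L (ratPrimesOver L T) ↔ x ∈ SUnit.TUnit M (ratPrimesOver M T) := by
  rw [← map_mem_TUnit_ratPrimesOver_iff L T x]
  have : Units.map (algebraMap M L : M →* L) x = y := Units.ext hxy
  rw [this]

end Intrinsic

/-! ### The dictionary with `GL/Ideles.lean`, intrinsic forms -/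

section IdelesDict

open Fermat.Agent.S55.SUnitStable

variable (L : IntermediateField ℚ Qbar) [NumberField L] [Normal ℚ L]

theorem tUnits_eq_TUnit_ratPrimesOver (T : Finset Nat.Primes) :
    Ideles.tUnits L T = SUnit.TUnit L (ratPrimesOver L T) := by
  rw [tUnits_eq_TUnit, primesOver_eq_ratPrimesOver]

/-- The dictionary in the shape of `IdeleLayer.isZero_H1_res_E` (`hdict`): `M` any number field
with `[Algebra M L]` (e.g. a fixed field of a subgroup of `Gal(L/ℚ)`). -/
theorem mem_tUnits_iff_mem_TUnit_primesAbove (M : Type*) [Field M] [NumberField M] [Algebra M L]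
    [DecidableEq (HeightOneSpectrum (𝓞 L))] (T : Finset Nat.Primes) (x : (↥L)ˣ) :
    x ∈ Ideles.tUnits L T ↔ x ∈ SUnit.TUnit L (primesAbove L (ratPrimesOver M T)) := by
  rw [tUnits_eq_TUnit_ratPrimesOver, primesAbove_ratPrimesOver]

/-- The `N`-invariant `T`-units of `L` are the `T`-units of `M = L^N` (element form, `M` any
number field with `[Algebra M L]`). -/
theorem algebraMap_mem_tUnits_iff (M : Type*) [Field M] [NumberField M] [Algebra M L]
    (T : Finset Nat.Primes) (x : Mˣ) :
    Units.map (algebraMap M L : M →* L) x ∈ Ideles.tUnits L T ↔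
      x ∈ SUnit.TUnit M (ratPrimesOver M T) := by
  rw [tUnits_eq_TUnit_ratPrimesOver, map_mem_TUnit_ratPrimesOver_iff]

end IdelesDict

end Fermat.Agent.S55.GL.PlacesAbs
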