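/-
S55 / GLO8 glue (helper11): the layer module `(E_{L,T})^N` of the `T`-units of `GL/Ideles.lean` is
the group of `T`-units (in the sense of `SUnit.lean`) of the layer field `M = L^N`, equivariantly
for `H ⧸ N ≃* Gal(M/K)`, `K = L^H`.  Consequence: the Herbrand indices of `(E_{L,T})^N` for a
cyclic layer are those of `SUnitGalois.tunits_herbrand`.
-/
import Mathlib
import Fermat.Agent.S55.GL.PlacesPrimeAbs
import Fermat.Agent.S55.GL.CFLayerSeq
import Fermat.Agent.S55.GC.GaloisLayerGroup
import Fermat.Agent.S55.GL.Ideles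
import Fermat.Agent.S55.SUnitGalois

set_option autoImplicit false
set_option linter.style.haveILetI false
set_option linter.unusedSectionVars false

namespace Fermat.Agent.S55.GL.IdeleLayerUnits

open IntermediateField NumberField IsDedekindDomain CategoryTheory Rep
open Fermat.Agent.S14.Herbrand Fermat.Agent.S55.GC.HerbrandBridge
open Fermat.Agent.S55.GC.GaloisLayer Fermat.Agent.S55.GL Fermat.Agent.S55.GL.PlacesAbs
open Fermat.Agent.S55 Fermat.Agent.S55.SUnitGalois

local notation "Qbar" => AlgebraicClosure ℚ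

variable (L : IntermediateField ℚ Qbar) [NumberField L] [Normal ℚ L] [IsGalois ℚ L]
variable (T : Finset Nat.Primes)
variable (H : Subgroup (L ≃ₐ[ℚ] L)) (N : Subgroup H) [N.Normal]

/-- The layer module `(E_{L,T})^N` as an `H ⧸ N`-representation. -/
noncomputable abbrev layerE : Rep ℤ (H ⧸ N) :=
  (res H.subtype (Ideles.E L T)).quotientToInvariants N

/-- `layerE` is the first term of helper7's layer sequence of `Ideles.seq L T`. -/
theorem layerSC_X₁_eq : (CF1.layerSC (Ideles.seq L T) H N).X₁ = layerE L T H N := rfl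

/-- The value in `Lˣ` of an element of the layer module. -/
def unitOf (x : (layerE L T H N).V) : (↥L)ˣ := Additive.toMul ((x.1).1 : Additive (↥L)ˣ)

theorem unitOf_mem_tUnits (x : (layerE L T H N).V) : unitOf L T H N x ∈ Ideles.tUnits L T :=
  (x.1).2

theorem unitOf_injective : Function.Injective (unitOf L T H N) := by
  intro x y h
  apply Subtype.ext
  apply Subtype.ext
  exact h

theorem apply_unitOf (x : (layerE L T H N).V) (n : N) :
    ((n : H) : L ≃ₐ[ℚ] L) ((unitOf L T H N x : (↥L)ˣ) : L) = ((unitOf L T H N x : (↥L)ˣ) : L) := by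
  have h := x.2 n
  have h2 := congrArg (fun z : (Ideles.E L T).V =>
    ((Additive.toMul (z.1 : Additive (↥L)ˣ) : (↥L)ˣ) : L)) h
  exact h2

theorem unitOf_mem_layerField (x : (layerE L T H N).V) :
    ((unitOf L T H N x : (↥L)ˣ) : L) ∈ layerField ℚ L H N := by
  rintro ⟨g, hg⟩
  obtain ⟨n, hn, rfl⟩ := hg
  exact apply_unitOf L T H N x ⟨n, hn⟩

theorem unitOf_add (x y : (layerE L T H N).V) :
    unitOf L T H N (x + y) = unitOf L T H N x * unitOf L T H N y := rfl

theorem unitOf_rho (h : H) (x : (layerE L T H N).V) :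
    ((unitOf L T H N ((layerE L T H N).ρ (QuotientGroup.mk h) x) : (↥L)ˣ) : L) =
      (h : L ≃ₐ[ℚ] L) ((unitOf L T H N x : (↥L)ˣ) : L) := rfl

/-! ### The isomorphism with the `T`-units of the layer field -/

/-- The set of primes of the layer field `M = L^N` over `T`. -/
noncomputable abbrev layerPrimes : Finset (HeightOneSpectrum (𝓞 (layerField ℚ L H N))) :=
  ratPrimesOver (layerField ℚ L H N) T

/-- An element of the layer module as a unit of the layer field. -/
noncomputable def toLayerUnit (x : (layerE L T H N).V) : (↥(layerField ℚ L H N))ˣ :=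
  Units.mk0 ⟨((unitOf L T H N x : (↥L)ˣ) : L), unitOf_mem_layerField L T H N x⟩ (by
    intro h
    exact (unitOf L T H N x).ne_zero (congrArg Subtype.val h))

theorem coe_toLayerUnit (x : (layerE L T H N).V) :
    (((toLayerUnit L T H N x : (↥(layerField ℚ L H N))ˣ) : layerField ℚ L H N) : L) =
      ((unitOf L T H N x : (↥L)ˣ) : L) := rfl

theorem map_toLayerUnit (x : (layerE L T H N).V) :
    Units.map (algebraMap (layerField ℚ L H N) L : layerField ℚ L H N →* L)
      (toLayerUnit L T H N x) = unitOf L T H N x := Units.ext rfl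

theorem toLayerUnit_mem (x : (layerE L T H N).V) :
    toLayerUnit L T H N x ∈ SUnit.TUnit (layerField ℚ L H N) (layerPrimes L T H N) := by
  rw [← algebraMap_mem_tUnits_iff L (layerField ℚ L H N) T, map_toLayerUnit]
  exact unitOf_mem_tUnits L T H N x

/-- A `T`-unit of the layer field as an element of the layer module. -/
noncomputable def ofLayerUnit
    (u : SUnit.TUnit (layerField ℚ L H N) (layerPrimes L T H N)) : (layerE L T H N).V :=
  ⟨⟨Additive.ofMul (Units.map (algebraMap (layerField ℚ L H N) L : layerField ℚ L H N →* L)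
      (u : (↥(layerField ℚ L H N))ˣ)),
    (algebraMap_mem_tUnits_iff L (layerField ℚ L H N) T _).mpr u.2⟩, by
    intro n
    apply Subtype.ext
    apply congrArg Additive.ofMul
    apply Units.ext
    have hu : (((u : (↥(layerField ℚ L H N))ˣ) : layerField ℚ L H N) : L) ∈ layerField ℚ L H N :=
      ((u : (↥(layerField ℚ L H N))ˣ) : layerField ℚ L H N).2
    exact hu ⟨subEquiv ℚ L H n, ⟨n, n.2, rfl⟩⟩⟩

theorem unitOf_ofLayerUnit
    (u : SUnit.TUnit (layerField ℚ L H N) (layerPrimes L T H N)) :
    unitOf L T H N (ofLayerUnit L T H N u) =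
      Units.map (algebraMap (layerField ℚ L H N) L : layerField ℚ L H N →* L)
        (u : (↥(layerField ℚ L H N))ˣ) := rfl

/-- **`(E_{L,T})^N ≃+ E_{M,T}`**, `M = L^N` the layer field. -/
noncomputable def layerUnitsEquiv :
    (layerE L T H N).V ≃+
      Additive (SUnit.TUnit (layerField ℚ L H N) (layerPrimes L T H N)) where
  toFun x := Additive.ofMul ⟨toLayerUnit L T H N x, toLayerUnit_mem L T H N x⟩
  invFun u := ofLayerUnit L T H N (Additive.toMul u)
  left_inv x := by
    apply unitOf_injective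
    rw [unitOf_ofLayerUnit]
    exact map_toLayerUnit L T H N x
  right_inv u := by
    apply congrArg Additive.ofMul
    apply Subtype.ext
    apply Units.ext
    apply Subtype.ext
    rfl
  map_add' x y := by
    apply congrArg Additive.ofMul
    apply Subtype.ext
    apply Units.ext
    apply Subtype.ext
    rfl

theorem coe_layerUnitsEquiv (x : (layerE L T H N).V) :
    ((((Additive.toMul (layerUnitsEquiv L T H N x) :
      SUnit.TUnit (layerField ℚ L H N) (layerPrimes L T H N)) :
        (↥(layerField ℚ L H N))ˣ) : layerField ℚ L H N) : L) =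
      ((unitOf L T H N x : (↥L)ˣ) : L) := rfl

/-- The value in `L` of a `T`-unit of the layer field. -/
def valL (u : Additive (SUnit.TUnit (layerField ℚ L H N) (layerPrimes L T H N))) : L :=
  ((((Additive.toMul u : SUnit.TUnit (layerField ℚ L H N) (layerPrimes L T H N)) :
    (↥(layerField ℚ L H N))ˣ) : layerField ℚ L H N) : L)

theorem valL_injective : Function.Injective (valL L T H N) := by
  intro u v h
  apply congrArg Additive.ofMul (a₁ := Additive.toMul u) (a₂ := Additive.toMul v)
  apply Subtype.ext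
  apply Units.ext
  apply Subtype.ext
  exact h

theorem valL_layerUnitsEquiv (x : (layerE L T H N).V) :
    valL L T H N (layerUnitsEquiv L T H N x) = ((unitOf L T H N x : (↥L)ˣ) : L) := rfl

theorem valL_tunitsEnd (τ : layerField ℚ L H N ≃ₐ[fixedField H] layerField ℚ L H N)
    (u : Additive (SUnit.TUnit (layerField ℚ L H N) (layerPrimes L T H N))) :
    valL L T H N (tunitsEnd (fixedField H) (layerPrimes L T H N) τ u) =
      ((τ (((Additive.toMul u : SUnit.TUnit (layerField ℚ L H N) (layerPrimes L T H N)) :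
        (↥(layerField ℚ L H N))ˣ) : layerField ℚ L H N) : layerField ℚ L H N) : L) := rfl

/-- **Equivariance**: the action of `q ∈ H ⧸ N` on `(E_{L,T})^N` corresponds to the action of
`layerGroupEquiv q ∈ Gal(M/K)` on the `T`-units of `M`. -/
theorem layerUnitsEquiv_sigma (q : H ⧸ N) (x : (layerE L T H N).V) :
    layerUnitsEquiv L T H N (sigma (layerE L T H N) q x) =
      tunitsEnd (fixedField H) (layerPrimes L T H N) (layerGroupEquiv ℚ L H N q)
        (layerUnitsEquiv L T H N x) := by
  induction q using QuotientGroup.induction_on with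
  | H h =>
    apply valL_injective
    have h1 : valL L T H N (layerUnitsEquiv L T H N
        (sigma (layerE L T H N) (QuotientGroup.mk h) x)) =
        (h : L ≃ₐ[ℚ] L) ((unitOf L T H N x : (↥L)ˣ) : L) := rfl
    have h2 : valL L T H N (tunitsEnd (fixedField H) (layerPrimes L T H N)
        (layerGroupEquiv ℚ L H N (QuotientGroup.mk h)) (layerUnitsEquiv L T H N x)) =
        ((layerGroupEquiv ℚ L H N (QuotientGroup.mk h)
          ((toLayerUnit L T H N x : (↥(layerField ℚ L H N))ˣ) : layerField ℚ L H N) :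
            layerField ℚ L H N) : L) := rfl
    have h3 := layerGroupEquiv_mk_coe ℚ L H N h
      ((toLayerUnit L T H N x : (↥(layerField ℚ L H N))ˣ) : layerField ℚ L H N)
    exact h1.trans (h3.symm.trans h2.symm)

/-! ### Transport of the Herbrand indices -/

section Transport

variable {A A' : Type*} [AddCommGroup A] [AddCommGroup A']

theorem map_pow_end (e : A →+ A') (σ : AddMonoid.End A) (σ' : AddMonoid.End A')
    (h : ∀ x, e (σ x) = σ' (e x)) (i : ℕ) (x : A) : e ((σ ^ i) x) = (σ' ^ i) (e x) := by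
  induction i generalizing x with
  | zero => simp
  | succ i ih =>
    rw [pow_succ, pow_succ]
    show e ((σ ^ i) (σ x)) = (σ' ^ i) (σ' (e x))
    rw [ih, h]

theorem map_dlt (e : A →+ A') (σ : AddMonoid.End A) (σ' : AddMonoid.End A')
    (h : ∀ x, e (σ x) = σ' (e x)) (x : A) : e (dlt σ x) = dlt σ' (e x) := by
  rw [dlt_apply, dlt_apply, map_sub, h]

theorem map_nrm (e : A →+ A') (σ : AddMonoid.End A) (σ' : AddMonoid.End A')
    (h : ∀ x, e (σ x) = σ' (e x)) (n : ℕ) (x : A) : e (nrm σ n x) = nrm σ' n (e x) := by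
  rw [nrm_apply, nrm_apply, map_sum]
  exact Finset.sum_congr rfl fun i _ => map_pow_end e σ σ' h i x

end Transport

theorem hIdx_dlt_nrm_layerE (q : H ⧸ N) (n : ℕ) :
    hIdx (dlt (sigma (layerE L T H N) q)) (nrm (sigma (layerE L T H N) q) n) =
      hIdx (dlt (tunitsEnd (fixedField H) (layerPrimes L T H N) (layerGroupEquiv ℚ L H N q)))
        (nrm (tunitsEnd (fixedField H) (layerPrimes L T H N) (layerGroupEquiv ℚ L H N q)) n) :=
  hIdx_congr (layerUnitsEquiv L T H N)
    (map_dlt (layerUnitsEquiv L T H N).toAddMonoidHom _ _ (layerUnitsEquiv_sigma L T H N q))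
    (map_nrm (layerUnitsEquiv L T H N).toAddMonoidHom _ _ (layerUnitsEquiv_sigma L T H N q) n)

theorem hIdx_nrm_dlt_layerE (q : H ⧸ N) (n : ℕ) :
    hIdx (nrm (sigma (layerE L T H N) q) n) (dlt (sigma (layerE L T H N) q)) =
      hIdx (nrm (tunitsEnd (fixedField H) (layerPrimes L T H N) (layerGroupEquiv ℚ L H N q)) n)
        (dlt (tunitsEnd (fixedField H) (layerPrimes L T H N) (layerGroupEquiv ℚ L H N q))) :=
  hIdx_congr (layerUnitsEquiv L T H N)
    (map_nrm (layerUnitsEquiv L T H N).toAddMonoidHom _ _ (layerUnitsEquiv_sigma L T H N q) n)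
    (map_dlt (layerUnitsEquiv L T H N).toAddMonoidHom _ _ (layerUnitsEquiv_sigma L T H N q))

/-- Abstract form: a module equivariantly isomorphic to the `T`-units of a cyclic extension has
the Herbrand quotient of the `T`-units. -/
theorem herbrand_of_addEquiv {K M : Type*} [Field K] [Field M] [NumberField K] [NumberField M]
    [Algebra K M] [IsGalois K M] (T' : Finset (HeightOneSpectrum (𝓞 M))) [IsGalStable K T']
    [Fintype (MulAction.orbitRel.Quotient (M ≃ₐ[K] M) (InfinitePlace M ⊕ T'))]
    {A : Type*} [AddCommGroup A] (σA : AddMonoid.End A) (e : A ≃+ Additive (SUnit.TUnit M T'))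
    (τ : M ≃ₐ[K] M) (he : ∀ x, e (σA x) = tunitsEnd K T' τ (e x))
    (hτ : ∀ g, g ∈ Subgroup.zpowers τ) (n : ℕ) (hn : Module.finrank K M = n) :
    hIdx (dlt σA) (nrm σA n) ≠ 0 ∧ hIdx (nrm σA n) (dlt σA) ≠ 0 ∧
      n * hIdx (dlt σA) (nrm σA n) =
        (∏ O : MulAction.orbitRel.Quotient (M ≃ₐ[K] M) (InfinitePlace M ⊕ T'),
          PermLatticeGen.stabCard O) * hIdx (nrm σA n) (dlt σA) := by
  subst hn
  have h1 : hIdx (dlt σA) (nrm σA (Module.finrank K M)) =
      hIdx (dlt (tunitsEnd K T' τ)) (nrm (tunitsEnd K T' τ) (Module.finrank K M)) :=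
    hIdx_congr e (map_dlt e.toAddMonoidHom _ _ he) (map_nrm e.toAddMonoidHom _ _ he _)
  have h2 : hIdx (nrm σA (Module.finrank K M)) (dlt σA) =
      hIdx (nrm (tunitsEnd K T' τ) (Module.finrank K M)) (dlt (tunitsEnd K T' τ)) :=
    hIdx_congr e (map_nrm e.toAddMonoidHom _ _ he _) (map_dlt e.toAddMonoidHom _ _ he)
  rw [h1, h2]
  exact tunits_herbrand K T' τ hτ

theorem layerGroupEquiv_mem_zpowers (q : H ⧸ N) (hq : ∀ x, x ∈ Subgroup.zpowers q)
    (g : layerField ℚ L H N ≃ₐ[fixedField H] layerField ℚ L H N) :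
    g ∈ Subgroup.zpowers (layerGroupEquiv ℚ L H N q) := by
  obtain ⟨x, rfl⟩ := (layerGroupEquiv ℚ L H N).surjective g
  obtain ⟨k, rfl⟩ := Subgroup.mem_zpowers_iff.mp (hq x)
  rw [map_zpow]
  exact Subgroup.zpow_mem_zpowers _ k

/-- **Herbrand quotient of `(E_{L,T})^N`** for a cyclic layer `H ⧸ N = ⟨q⟩`, orbit form:
`[H:N] * h⁰ = (∏_{orbits O of Gal(M/K) on InfinitePlace M ⊕ T_M} |Stab_O|) * h¹`, both finite. -/
theorem layerE_herbrand
    [Fintype (MulAction.orbitRel.Quotient
      (layerField ℚ L H N ≃ₐ[fixedField H] layerField ℚ L H N)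
      (InfinitePlace (layerField ℚ L H N) ⊕ layerPrimes L T H N))]
    (q : H ⧸ N) (hq : ∀ x, x ∈ Subgroup.zpowers q) :
    hIdx (dlt (sigma (layerE L T H N) q)) (nrm (sigma (layerE L T H N) q) N.index) ≠ 0 ∧
    hIdx (nrm (sigma (layerE L T H N) q) N.index) (dlt (sigma (layerE L T H N) q)) ≠ 0 ∧
    N.index * hIdx (dlt (sigma (layerE L T H N) q)) (nrm (sigma (layerE L T H N) q) N.index) =
      (∏ O : MulAction.orbitRel.Quotient
          (layerField ℚ L H N ≃ₐ[fixedField H] layerField ℚ L H N)
          (InfinitePlace (layerField ℚ L H N) ⊕ layerPrimes L T H N),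
          PermLatticeGen.stabCard O) *
        hIdx (nrm (sigma (layerE L T H N) q) N.index) (dlt (sigma (layerE L T H N) q)) :=
  herbrand_of_addEquiv (layerPrimes L T H N) (sigma (layerE L T H N) q)
    (layerUnitsEquiv L T H N) (layerGroupEquiv ℚ L H N q) (layerUnitsEquiv_sigma L T H N q)
    (layerGroupEquiv_mem_zpowers L H N q hq) N.index (finrank_layerField ℚ L H N)

end Fermat.Agent.S55.GL.IdeleLayerUnits
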