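/-
S55 / GLO8 glue (helper11): the primes of a layer field `M = L^N` over a rational prime `q` are the
double cosets `D_q \ Gal(L/ℚ) / N` (`D_q = resLoc q L (Gal(L_q/ℚ_q))`), equivariantly.  Consequence:
the product of the orders of the decomposition groups in `SUnitGalois.tunits_herbrand_odd` equals
the product over the orbits of double cosets in `CoindHerbrand.hIdx_coindInv`.
-/
import Mathlib
import Fermat.Agent.S55.GL.IdeleLayerUnits
import Fermat.Agent.S55.GL.CoindHerbrand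

set_option autoImplicit false
set_option linter.style.haveILetI false
set_option linter.unusedSectionVars false

namespace Fermat.Agent.S55.GL.IdeleLayerPrimes

open IntermediateField NumberField IsDedekindDomain Fermat.Agent.S55.LocalDict
open Fermat.Agent.S55.GL Fermat.Agent.S55.GL.Places Fermat.Agent.S55.GL.PlacesUnits
open Fermat.Agent.S55.GL.PlacesAbs
open scoped Pointwise

local notation "Qbar" => AlgebraicClosure ℚ
local notation "Γ" => (AlgebraicClosure ℚ ≃ₐ[ℚ] AlgebraicClosure ℚ)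

local instance isAlgebraicQbar_LP : Algebra.IsAlgebraic ℚ (AlgebraicClosure ℚ) :=
  AlgebraicClosure.isAlgebraic ℚ
local instance isAlgClosureQbar_LP : IsAlgClosure ℚ (AlgebraicClosure ℚ) :=
  ⟨inferInstance, inferInstance⟩
local instance normalQbar_LP : Normal ℚ (AlgebraicClosure ℚ) :=
  IsAlgClosure.normal ℚ (AlgebraicClosure ℚ)

/-! ### Primes of an abstract number field cut out by embeddings into `ℚ̄` -/

section Emb

variable (q : ℕ) [Fact q.Prime]
variable {M : Type*} [Field M] [NumberField M] (j : M →ₐ[ℚ] Qbar)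

theorem mapPrime_injective {M K : Type*} [Field M] [NumberField M] [Field K] [NumberField K]
    (e : M ≃+* K) : Function.Injective (mapPrime e) := by
  intro P P' h
  apply HeightOneSpectrum.ext
  ext x
  rw [← apply_mem_mapPrime e P x, ← apply_mem_mapPrime e P' x, h]

/-- The image of `M` in `ℚ̄`. -/
noncomputable abbrev imgField : IntermediateField ℚ Qbar := j.fieldRange

/-- `M ≃ j(M)`. -/
noncomputable def imgEquiv : M ≃ₐ[ℚ] imgField j := AlgEquiv.ofInjectiveField j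

theorem coe_imgEquiv (x : M) : ((imgEquiv j x : imgField j) : Qbar) = j x := rfl

instance numberField_imgField : NumberField (imgField j) :=
  { to_charZero := inferInstance
    to_finiteDimensional := LinearEquiv.finiteDimensional (imgEquiv j).toLinearEquiv }

/-- The prime `{x ∈ 𝓞 M | ‖ι_q (γ (j x))‖ < 1}` of `𝓞 M`. -/
noncomputable def primeEmb (γ : Γ) : HeightOneSpectrum (𝓞 M) :=
  mapPrime (imgEquiv j).symm.toRingEquiv (primeAt q (imgField j) γ)

theorem mem_primeEmb (γ : Γ) (x : 𝓞 M) :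
    x ∈ (primeEmb q j γ).asIdeal ↔ ‖padicEmbedding q (γ (j (x : M)))‖ < 1 := by
  rw [primeEmb, mem_mapPrime, mem_primeAt_iff, absOn_apply]
  rfl

theorem natCast_mem_primeEmb (γ : Γ) : (q : 𝓞 M) ∈ (primeEmb q j γ).asIdeal := by
  rw [primeEmb, natCast_mem_mapPrime]
  exact natCast_mem_primeAt q (imgField j) γ

theorem primeEmb_eq_iff (γ γ' : Γ) :
    primeEmb q j γ = primeEmb q j γ' ↔
      ∀ x : M, ‖padicEmbedding q (γ (j x))‖ = ‖padicEmbedding q (γ' (j x))‖ := by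
  rw [primeEmb, primeEmb, (mapPrime_injective _).eq_iff, primeAt_eq_iff]
  constructor
  · intro h x
    exact h (j x) ⟨x, rfl⟩
  · rintro h _ ⟨x, rfl⟩
    exact h x

/-- Same prime `⇒` the embeddings differ by the local Galois group and an automorphism fixing
`j(M)`. -/
theorem exists_eq_mul_of_primeEmb_eq {γ γ' : Γ} (h : primeEmb q j γ = primeEmb q j γ') :
    ∃ τ : PadicAlgCl q ≃ₐ[ℚ_[q]] PadicAlgCl q, ∃ g : Γ, (∀ x : M, g (j x) = j x) ∧
      γ' = localGaloisToGlobal q τ * γ * g := by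
  rw [primeEmb, primeEmb, (mapPrime_injective _).eq_iff, primeAt_eq_iff] at h
  obtain ⟨τ, g, hg, rfl⟩ := h.exists_eq_mul q
  refine ⟨τ, g, fun x => ?_, rfl⟩
  exact (IntermediateField.mem_fixingSubgroup_iff _ g).mp hg (j x) ⟨x, rfl⟩

theorem exists_primeEmb_eq (P : HeightOneSpectrum (𝓞 M)) (hP : (q : 𝓞 M) ∈ P.asIdeal) :
    ∃ γ : Γ, primeEmb q j γ = P := by
  obtain ⟨γ, hγ⟩ := exists_primeAt_eq q (imgField j) (mapPrime (imgEquiv j).toRingEquiv P)
    ((natCast_mem_mapPrime _ P q).mpr hP)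
  refine ⟨γ, ?_⟩
  rw [primeEmb, hγ]
  apply HeightOneSpectrum.ext
  ext x
  rw [mem_mapPrime, mem_mapPrime]
  have h1 : (RingOfIntegers.mapRingEquiv (imgEquiv j).toRingEquiv).symm
      ((RingOfIntegers.mapRingEquiv (imgEquiv j).symm.toRingEquiv).symm x) = x := by
    apply RingOfIntegers.ext
    show (imgEquiv j).toRingEquiv.symm ((imgEquiv j).symm.toRingEquiv.symm (x : M)) = (x : M)
    exact (imgEquiv j).symm_apply_apply _
  rw [h1]

/-- Equivariance: if the automorphism `α` of `M` is induced by `γ₀ ∈ Γ` then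
`primeEmb (γ γ₀⁻¹) = α • primeEmb γ`. -/
theorem primeEmb_mul_inv {K' : Type*} [Field K'] [Algebra K' M] (γ γ₀ : Γ) (α : M ≃ₐ[K'] M)
    (h : ∀ x : M, γ₀ (j x) = j (α x)) :
    primeEmb q j (γ * γ₀⁻¹) = α • primeEmb q j γ := by
  apply HeightOneSpectrum.ext
  ext x
  show x ∈ (primeEmb q j (γ * γ₀⁻¹)).asIdeal ↔ x ∈ α • (primeEmb q j γ).asIdeal
  rw [Ideal.mem_pointwise_smul_iff_inv_smul_mem, mem_primeEmb, mem_primeEmb]
  have h2 : (γ * γ₀⁻¹) (j (x : M)) = γ (j (((α⁻¹ • x : 𝓞 M) : 𝓞 M) : M)) := by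
    rw [AlgEquiv.mul_apply]
    congr 1
    have h1 := h (α⁻¹ (x : M))
    have h3 : α (α⁻¹ (x : M)) = (x : M) := α.apply_symm_apply _
    rw [h3] at h1
    have h4 : (((α⁻¹ • x : 𝓞 M) : 𝓞 M) : M) = α⁻¹ (x : M) := rfl
    rw [h4, ← h1]
    exact γ₀.symm_apply_apply _
  rw [h2]

end Emb

/-! ### Primes of a subfield `M` of a Galois number field `L ⊆ ℚ̄`, indexed by `Gal(L/ℚ)` -/

section Sub

open Fermat.Agent.S55.GL.LocalFieldAt

variable (q : ℕ) [Fact q.Prime]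
variable (L : IntermediateField ℚ Qbar) [Normal ℚ L]
variable {M : Type*} [Field M] [NumberField M] (jL : M →ₐ[ℚ] L)

/-- The embedding `M → L → ℚ̄`. -/
noncomputable abbrev jOf : M →ₐ[ℚ] Qbar := L.val.comp jL

/-- The prime `{x ∈ 𝓞 M | ‖ι_q (g (jL x))‖ < 1}` attached to `g ∈ Gal(L/ℚ)`. -/
noncomputable def primeOfG (g : L ≃ₐ[ℚ] L) : HeightOneSpectrum (𝓞 M) :=
  primeEmb q (jOf L jL) (g.liftNormal Qbar)

theorem liftNormal_jOf (g : L ≃ₐ[ℚ] L) (x : M) :
    (g.liftNormal Qbar) (jOf L jL x) = ((g (jL x) : L) : Qbar) :=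
  g.liftNormal_commutes Qbar (jL x)

theorem mem_primeOfG (g : L ≃ₐ[ℚ] L) (x : 𝓞 M) :
    x ∈ (primeOfG q L jL g).asIdeal ↔
      ‖padicEmbedding q ((g (jL (x : M)) : L) : Qbar)‖ < 1 := by
  rw [primeOfG, mem_primeEmb, liftNormal_jOf]

theorem natCast_mem_primeOfG (g : L ≃ₐ[ℚ] L) : (q : 𝓞 M) ∈ (primeOfG q L jL g).asIdeal :=
  natCast_mem_primeEmb q _ _

theorem restrictNormal_jOf (γ : Γ) (x : M) :
    (((γ.restrictNormal L) (jL x) : L) : Qbar) = γ (jOf L jL x) :=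
  AlgEquiv.restrictNormal_commutes γ L (jL x)

theorem primeEmb_eq_primeOfG (γ : Γ) :
    primeEmb q (jOf L jL) γ = primeOfG q L jL (γ.restrictNormal L) := by
  apply HeightOneSpectrum.ext
  ext x
  rw [mem_primeEmb, mem_primeOfG, restrictNormal_jOf]

theorem exists_primeOfG_eq (P : HeightOneSpectrum (𝓞 M)) (hP : (q : 𝓞 M) ∈ P.asIdeal) :
    ∃ g : L ≃ₐ[ℚ] L, primeOfG q L jL g = P := by
  obtain ⟨γ, hγ⟩ := exists_primeEmb_eq q (jOf L jL) P hP
  exact ⟨γ.restrictNormal L, by rw [← primeEmb_eq_primeOfG, hγ]⟩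

theorem primeOfG_eq_iff_norm (g g' : L ≃ₐ[ℚ] L) :
    primeOfG q L jL g = primeOfG q L jL g' ↔
      ∀ x : M, ‖padicEmbedding q ((g (jL x) : L) : Qbar)‖ =
        ‖padicEmbedding q ((g' (jL x) : L) : Qbar)‖ := by
  rw [primeOfG, primeOfG, primeEmb_eq_iff]
  refine forall_congr' fun x => ?_
  rw [liftNormal_jOf, liftNormal_jOf]

variable (N' : Subgroup (L ≃ₐ[ℚ] L))

/-- **Same prime `⇔` same double coset** `D_q g N'`, when `M = L^{N'}`. -/
theorem primeOfG_eq_iff (ha : ∀ ν ∈ N', ∀ x : M, ν (jL x) = jL x)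
    (hb : ∀ g : L ≃ₐ[ℚ] L, (∀ x : M, g (jL x) = jL x) → g ∈ N') (g g' : L ≃ₐ[ℚ] L) :
    primeOfG q L jL g = primeOfG q L jL g' ↔
      ∃ d : localField q L ≃ₐ[ℚ_[q]] localField q L, ∃ ν ∈ N', g' = resLoc q L d * g * ν := by
  constructor
  · intro h
    obtain ⟨τ, h₀, hh₀, heq⟩ := exists_eq_mul_of_primeEmb_eq q (jOf L jL) h
    refine ⟨AlgEquiv.restrictNormalHom (localField q L) τ, h₀.restrictNormal L, hb _ ?_, ?_⟩
    · intro x
      apply Subtype.ext
      rw [restrictNormal_jOf]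
      exact hh₀ x
    · have h1 := congrArg (AlgEquiv.restrictNormalHom (F := ℚ) (K₁ := Qbar) L) heq
      rw [map_mul, map_mul] at h1
      have h2 : AlgEquiv.restrictNormalHom (F := ℚ) (K₁ := Qbar) L (g.liftNormal Qbar) = g :=
        g.restrict_liftNormal Qbar
      have h3 : AlgEquiv.restrictNormalHom (F := ℚ) (K₁ := Qbar) L (g'.liftNormal Qbar) = g' :=
        g'.restrict_liftNormal Qbar
      rw [h2, h3] at h1
      rw [resLoc_restrictNormalHom]
      exact h1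
  · rintro ⟨d, ν, hν, rfl⟩
    rw [primeOfG_eq_iff_norm]
    intro x
    obtain ⟨τ, rfl⟩ := AlgEquiv.restrictNormalHom_surjective (F := ℚ_[q])
      (K₁ := localField q L) (PadicAlgCl q) d
    rw [resLoc_restrictNormalHom]
    have h1 : (((AlgEquiv.restrictNormalHom (F := ℚ) (K₁ := Qbar) L (localGaloisToGlobal q τ)
        * g * ν) (jL x) : L) : Qbar) = localGaloisToGlobal q τ ((g (jL x) : L) : Qbar) := by
      rw [AlgEquiv.mul_apply, AlgEquiv.mul_apply, ha ν hν x]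
      exact AlgEquiv.restrictNormal_commutes (localGaloisToGlobal q τ) L (g (jL x))
    rw [h1, padicEmbedding_localGaloisToGlobal]
    exact ((isometry_algEquiv q τ).norm_map_of_map_zero (map_zero τ) _).symm

/-- **Equivariance**: if `h ∈ Gal(L/ℚ)` induces the automorphism `α` of `M` then
`primeOfG (g h⁻¹) = α • primeOfG g`. -/
theorem primeOfG_mul_inv {K' : Type*} [Field K'] [Algebra K' M] (g h : L ≃ₐ[ℚ] L)
    (α : M ≃ₐ[K'] M) (hα : ∀ x : M, h (jL x) = jL (α x)) :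
    primeOfG q L jL (g * h⁻¹) = α • primeOfG q L jL g := by
  apply HeightOneSpectrum.ext
  ext x
  show x ∈ (primeOfG q L jL (g * h⁻¹)).asIdeal ↔ x ∈ α • (primeOfG q L jL g).asIdeal
  rw [Ideal.mem_pointwise_smul_iff_inv_smul_mem, mem_primeOfG, mem_primeOfG]
  have h2 : (g * h⁻¹) (jL (x : M)) = g (jL (((α⁻¹ • x : 𝓞 M) : 𝓞 M) : M)) := by
    rw [AlgEquiv.mul_apply]
    congr 1
    have h1 := hα (α⁻¹ (x : M))
    have h3 : α (α⁻¹ (x : M)) = (x : M) := α.apply_symm_apply _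
    rw [h3] at h1
    have h4 : (((α⁻¹ • x : 𝓞 M) : 𝓞 M) : M) = α⁻¹ (x : M) := rfl
    rw [h4, ← h1]
    exact h.symm_apply_apply _
  rw [h2]

end Sub

/-! ### The Herbrand quotient of the `T`-units with a system of representatives of the places -/

section Reps

open Fermat.Agent.S14.Herbrand Fermat.Agent.S14.GalDiv Fermat.Agent.S55.SUnitGalois
open Fermat.Agent.S55.GL.IdeleLayerUnits

/-- Odd cyclic extension `M/K` with group `⟨τ⟩`; `A` equivariantly isomorphic to the `T'`-units of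
`M`; `r` a system of representatives of the primes of `M` in `T'` modulo `Gal(M/K)`.  Then
`n * h⁰(A) = (∏_i |Stab (r i)|) * h¹(A)`. -/
theorem herbrand_odd_of_addEquiv {K M : Type*} [Field K] [Field M] [NumberField K] [NumberField M]
    [Algebra K M] [IsGalois K M] [DecidableEq (HeightOneSpectrum (𝓞 K))]
    (T' : Finset (HeightOneSpectrum (𝓞 M))) [IsGalStable K T']
    {A : Type*} [AddCommGroup A] (σA : AddMonoid.End A) (e : A ≃+ Additive (SUnit.TUnit M T'))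
    (τ : M ≃ₐ[K] M) (he : ∀ x, e (σA x) = tunitsEnd K T' τ (e x))
    (hτ : ∀ g, g ∈ Subgroup.zpowers τ) (n : ℕ) (hn : Module.finrank K M = n) (hodd : Odd n)
    {ι : Type*} [Fintype ι] (r : ι → HeightOneSpectrum (𝓞 M)) (hrT : ∀ i, r i ∈ T')
    (hr : Function.Bijective (fun i =>
      (⟨underK K (r i), Finset.mem_image_of_mem _ (hrT i)⟩ : {v // v ∈ T'.image (underK K)}))) :
    hIdx (dlt σA) (nrm σA n) ≠ 0 ∧ hIdx (nrm σA n) (dlt σA) ≠ 0 ∧
      n * hIdx (dlt σA) (nrm σA n) =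
        (∏ i, Nat.card (MulAction.stabilizer (M ≃ₐ[K] M) (r i))) *
          hIdx (nrm σA n) (dlt σA) := by
  subst hn
  have h1 : hIdx (dlt σA) (nrm σA (Module.finrank K M)) =
      hIdx (dlt (tunitsEnd K T' τ)) (nrm (tunitsEnd K T' τ) (Module.finrank K M)) :=
    hIdx_congr e (map_dlt e.toAddMonoidHom _ _ he) (map_nrm e.toAddMonoidHom _ _ he _)
  have h2 : hIdx (nrm σA (Module.finrank K M)) (dlt σA) =
      hIdx (nrm (tunitsEnd K T' τ) (Module.finrank K M)) (dlt (tunitsEnd K T' τ)) :=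
    hIdx_congr e (map_nrm e.toAddMonoidHom _ _ he _) (map_dlt e.toAddMonoidHom _ _ he)
  rw [h1, h2]
  let Ψ := Equiv.ofBijective _ hr
  have hFin : ∀ v : {v // v ∈ T'.image (underK K)}, underK K (r (Ψ.symm v)) = v.1 := by
    intro v
    exact congrArg Subtype.val (Ψ.apply_symm_apply v)
  have key := tunits_herbrand_odd K T' hodd τ hτ (fun v => r (Ψ.symm v)) hFin
  rw [Equiv.prod_comp Ψ.symm
    (fun i => Nat.card (MulAction.stabilizer (M ≃ₐ[K] M) (r i)))] at key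
  exact key

end Reps

/-! ### Orbits of primes versus orbits of double cosets -/

section Count

open Fermat.Agent.S55.GL.CoindHerbrand Fermat.Agent.S55.GL.LocalFieldAt MulAction
open Fermat.Agent.S14.Herbrand Fermat.Agent.S14.GalDiv Fermat.Agent.S55.SUnitGalois

/-- primes as `Fact`s -/
local instance factPrime_lp (q : Nat.Primes) : Fact (q : ℕ).Prime := ⟨q.2⟩

theorem exists_pow_eq_of_mem_zpowers {G : Type*} [Group G] [Finite G] {x y : G}
    (h : x ∈ Subgroup.zpowers y) : ∃ k : ℕ, y ^ k = x := by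
  rw [← mem_powers_iff_mem_zpowers] at h
  exact h

variable (L : IntermediateField ℚ Qbar) [Normal ℚ L]
variable {M : Type*} [Field M] [NumberField M] (jL : M →ₐ[ℚ] L)
variable (N' : Subgroup (L ≃ₐ[ℚ] L))
variable {K' : Type*} [Field K'] [Algebra K' M]
variable (σ : L ≃ₐ[ℚ] L) (τ : M ≃ₐ[K'] M)

theorem pow_apply_jL (hτσ : ∀ x : M, σ (jL x) = jL (τ x)) (k : ℕ) (x : M) :
    (σ ^ k) (jL x) = jL ((τ ^ k) x) := by
  induction k generalizing x with
  | zero => rfl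
  | succ k ih =>
    rw [pow_succ, pow_succ, AlgEquiv.mul_apply, AlgEquiv.mul_apply, hτσ, ih]

theorem pow_smul_primeOfG (q : ℕ) [Fact q.Prime] (hτσ : ∀ x : M, σ (jL x) = jL (τ x)) (k : ℕ)
    (g : L ≃ₐ[ℚ] L) :
    τ ^ k • primeOfG q L jL g = primeOfG q L jL (g * (σ ^ k)⁻¹) :=
  (primeOfG_mul_inv q L jL g (σ ^ k) (τ ^ k) (pow_apply_jL L jL σ τ hτσ k)).symm

variable (ha : ∀ ν ∈ N', ∀ x : M, ν (jL x) = jL x)
variable (hb : ∀ g : L ≃ₐ[ℚ] L, (∀ x : M, g (jL x) = jL x) → g ∈ N')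

include ha hb in
theorem primeOfG_eq_iff_cmk (q : ℕ) [Fact q.Prime] (g g' : L ≃ₐ[ℚ] L) :
    primeOfG q L jL g = primeOfG q L jL g' ↔
      cmk (resLoc q L) N' g = cmk (resLoc q L) N' g' :=
  (primeOfG_eq_iff q L jL N' ha hb g g').trans cmk_eq_iff.symm

include ha hb in
theorem pow_smul_primeOfG_eq_iff (q : ℕ) [Fact q.Prime]
    (hσ : σ ∈ Subgroup.normalizer (N' : Set (L ≃ₐ[ℚ] L)))
    (hτσ : ∀ x : M, σ (jL x) = jL (τ x)) (k : ℕ) (g g' : L ≃ₐ[ℚ] L) :
    τ ^ k • primeOfG q L jL g = primeOfG q L jL g' ↔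
      (sPerm (resLoc q L) N' σ hσ ^ k) (cmk (resLoc q L) N' g) = cmk (resLoc q L) N' g' := by
  rw [pow_smul_primeOfG L jL σ τ q hτσ, primeOfG_eq_iff_cmk L jL N' ha hb, sPerm_pow_mk]

include ha hb in
theorem period_primeOfG (q : ℕ) [Fact q.Prime]
    (hσ : σ ∈ Subgroup.normalizer (N' : Set (L ≃ₐ[ℚ] L)))
    (hτσ : ∀ x : M, σ (jL x) = jL (τ x)) (g : L ≃ₐ[ℚ] L) :
    period τ (primeOfG q L jL g) =
      period (sPerm (resLoc q L) N' σ hσ) (cmk (resLoc q L) N' g) := by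
  apply Nat.dvd_antisymm
  · rw [← pow_smul_eq_iff_period_dvd, pow_smul_primeOfG_eq_iff L jL N' σ τ ha hb q hσ hτσ]
    exact pow_period_smul (sPerm (resLoc q L) N' σ hσ) (cmk (resLoc q L) N' g)
  · rw [← pow_smul_eq_iff_period_dvd]
    show (sPerm (resLoc q L) N' σ hσ ^ _) (cmk (resLoc q L) N' g) = _
    rw [← pow_smul_primeOfG_eq_iff L jL N' σ τ ha hb q hσ hτσ]
    exact pow_period_smul τ (primeOfG q L jL g)

variable [FiniteDimensional ℚ L]

/-- A representative in `Gal(L/ℚ)` of the chosen double coset of an orbit. -/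
noncomputable def gRep (q : ℕ) [Fact q.Prime]
    (hσ : σ ∈ Subgroup.normalizer (N' : Set (L ≃ₐ[ℚ] L)))
    (v : OrbitsC (resLoc q L) N' σ hσ) : L ≃ₐ[ℚ] L :=
  (cmk_surjective (Quotient.out v)).choose

theorem cmk_gRep (q : ℕ) [Fact q.Prime]
    (hσ : σ ∈ Subgroup.normalizer (N' : Set (L ≃ₐ[ℚ] L)))
    (v : OrbitsC (resLoc q L) N' σ hσ) :
    cmk (resLoc q L) N' (gRep L N' σ q hσ v) = Quotient.out v :=
  (cmk_surjective (Quotient.out v)).choose_spec

theorem natCast_mem_smul {K' : Type*} [Field K'] [Algebra K' M] (α : M ≃ₐ[K'] M)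
    (P : HeightOneSpectrum (𝓞 M)) (n : ℕ) (h : (n : 𝓞 M) ∈ P.asIdeal) :
    (n : 𝓞 M) ∈ (α • P).asIdeal := by
  show (n : 𝓞 M) ∈ α • P.asIdeal
  rw [Ideal.mem_pointwise_smul_iff_inv_smul_mem]
  have h1 : α⁻¹ • ((n : 𝓞 M)) = (n : 𝓞 M) :=
    map_natCast (MulSemiringAction.toRingHom (M ≃ₐ[K'] M) (𝓞 M) α⁻¹) n
  rw [h1]
  exact h

/-- The index type: pairs (`q ∈ T`, orbit of `σ` on the double cosets `D_q \ G / N'`). -/
abbrev OrbIdx (T : Finset Nat.Primes)
    (hσ : σ ∈ Subgroup.normalizer (N' : Set (L ≃ₐ[ℚ] L))) : Type :=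
  Σ q : T, OrbitsC (resLoc ((q : Nat.Primes) : ℕ) L) N' σ hσ

/-- The representative prime of `𝓞 M` of an orbit of double cosets. -/
noncomputable def repPrime (T : Finset Nat.Primes)
    (hσ : σ ∈ Subgroup.normalizer (N' : Set (L ≃ₐ[ℚ] L))) (i : OrbIdx L N' σ T hσ) :
    HeightOneSpectrum (𝓞 M) :=
  primeOfG ((i.1 : Nat.Primes) : ℕ) L jL (gRep L N' σ ((i.1 : Nat.Primes) : ℕ) hσ i.2)

theorem repPrime_mem (T : Finset Nat.Primes)
    (hσ : σ ∈ Subgroup.normalizer (N' : Set (L ≃ₐ[ℚ] L))) (i : OrbIdx L N' σ T hσ) :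
    repPrime L jL N' σ T hσ i ∈ ratPrimesOver M T :=
  mem_ratPrimesOver.mpr ⟨i.1, i.1.2, natCast_mem_primeOfG _ L jL _⟩

theorem natCast_mem_repPrime (T : Finset Nat.Primes)
    (hσ : σ ∈ Subgroup.normalizer (N' : Set (L ≃ₐ[ℚ] L))) (i : OrbIdx L N' σ T hσ) :
    ((((i.1 : Nat.Primes) : ℕ) : 𝓞 M)) ∈ (repPrime L jL N' σ T hσ i).asIdeal :=
  natCast_mem_primeOfG _ L jL _

include ha hb in
theorem pow_smul_repPrime_eq_iff (T : Finset Nat.Primes)
    (hσ : σ ∈ Subgroup.normalizer (N' : Set (L ≃ₐ[ℚ] L)))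
    (hτσ : ∀ x : M, σ (jL x) = jL (τ x)) (k : ℕ) (q : T)
    (v v' : OrbitsC (resLoc ((q : Nat.Primes) : ℕ) L) N' σ hσ) :
    τ ^ k • repPrime L jL N' σ T hσ ⟨q, v⟩ = repPrime L jL N' σ T hσ ⟨q, v'⟩ ↔
      (sPerm (resLoc ((q : Nat.Primes) : ℕ) L) N' σ hσ ^ k) (Quotient.out v) =
        Quotient.out v' := by
  have h := pow_smul_primeOfG_eq_iff L jL N' σ τ ha hb ((q : Nat.Primes) : ℕ) hσ hτσ k
    (gRep L N' σ ((q : Nat.Primes) : ℕ) hσ v) (gRep L N' σ ((q : Nat.Primes) : ℕ) hσ v')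
  rw [cmk_gRep, cmk_gRep] at h
  exact h

include ha hb in
theorem period_repPrime (T : Finset Nat.Primes)
    (hσ : σ ∈ Subgroup.normalizer (N' : Set (L ≃ₐ[ℚ] L)))
    (hτσ : ∀ x : M, σ (jL x) = jL (τ x)) (q : T)
    (v : OrbitsC (resLoc ((q : Nat.Primes) : ℕ) L) N' σ hσ) :
    period τ (repPrime L jL N' σ T hσ ⟨q, v⟩) =
      orbLen (resLoc ((q : Nat.Primes) : ℕ) L) N' σ hσ v := by
  have h := period_primeOfG L jL N' σ τ ha hb ((q : Nat.Primes) : ℕ) hσ hτσ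
    (gRep L N' σ ((q : Nat.Primes) : ℕ) hσ v)
  rw [cmk_gRep] at h
  exact h

variable [NumberField K'] [IsGalois K' M]

include ha hb in
theorem card_stabilizer_repPrime (T : Finset Nat.Primes)
    (hσ : σ ∈ Subgroup.normalizer (N' : Set (L ≃ₐ[ℚ] L)))
    (hτσ : ∀ x : M, σ (jL x) = jL (τ x)) (hτ : ∀ g, g ∈ Subgroup.zpowers τ)
    (n : ℕ) (hn : Module.finrank K' M = n) (q : T)
    (v : OrbitsC (resLoc ((q : Nat.Primes) : ℕ) L) N' σ hσ) :
    Nat.card (stabilizer (M ≃ₐ[K'] M) (repPrime L jL N' σ T hσ ⟨q, v⟩)) =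
      n / orbLen (resLoc ((q : Nat.Primes) : ℕ) L) N' σ hσ v := by
  haveI : Finite (M ≃ₐ[K'] M) := inferInstance
  have h7 := CyclicOrbit.period_mul_card_stabilizer τ hτ (repPrime L jL N' σ T hσ ⟨q, v⟩)
  have h8 := period_repPrime L jL N' σ τ ha hb T hσ hτσ q v
  have h9 : Nat.card (M ≃ₐ[K'] M) = n := by
    rw [← hn]; exact IsGalois.card_aut_eq_finrank K' M
  have hpos : 0 < period τ (repPrime L jL N' σ T hσ ⟨q, v⟩) :=
    CyclicOrbit.period_pos_of_finite τ _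
  rw [← h8]
  rw [h9] at h7
  exact (Nat.div_eq_of_eq_mul_right hpos h7.symm).symm

include ha hb in
theorem repPrime_bijective [DecidableEq (HeightOneSpectrum (𝓞 K'))] (T : Finset Nat.Primes)
    (hσ : σ ∈ Subgroup.normalizer (N' : Set (L ≃ₐ[ℚ] L)))
    (hτσ : ∀ x : M, σ (jL x) = jL (τ x)) (hτ : ∀ g, g ∈ Subgroup.zpowers τ) :
    Function.Bijective (fun i : OrbIdx L N' σ T hσ =>
      (⟨underK K' (repPrime L jL N' σ T hσ i),
        Finset.mem_image_of_mem _ (repPrime_mem L jL N' σ T hσ i)⟩ :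
        {v // v ∈ (ratPrimesOver M T).image (underK K')})) := by
  haveI : Finite (M ≃ₐ[K'] M) := inferInstance
  constructor
  · rintro ⟨q, v⟩ ⟨q', v'⟩ h
    have h1 : underK K' (repPrime L jL N' σ T hσ ⟨q, v⟩) =
        underK K' (repPrime L jL N' σ T hσ ⟨q', v'⟩) := congrArg Subtype.val h
    obtain ⟨α, hα⟩ := exists_smul_eq_of_underK_eq K' h1
    obtain ⟨k, rfl⟩ := exists_pow_eq_of_mem_zpowers (hτ α)
    have hq : q = q' := by
      have h2 : (((q : Nat.Primes) : ℕ) : 𝓞 M) ∈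
          (repPrime L jL N' σ T hσ ⟨q', v'⟩).asIdeal := by
        rw [← hα]
        exact natCast_mem_smul _ _ _ (natCast_mem_repPrime L jL N' σ T hσ ⟨q, v⟩)
      have h3 := natCast_mem_repPrime L jL N' σ T hσ ⟨q', v'⟩
      exact Subtype.ext (Subtype.ext (eq_of_natCast_mem _ q.1.2 q'.1.2 h2 h3))
    subst hq
    congr 1
    have h4 := (pow_smul_repPrime_eq_iff L jL N' σ τ ha hb T hσ hτσ k q v v').mp hα
    rw [← Quotient.out_eq v, ← Quotient.out_eq v']
    apply Quotient.sound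
    show (orbitRel _ _) _ _
    rw [orbitRel_apply]
    refine ⟨⟨(sPerm _ N' σ hσ ^ k)⁻¹,
      Subgroup.inv_mem _ (Subgroup.pow_mem _ (Subgroup.mem_zpowers _) k)⟩, ?_⟩
    show (sPerm _ N' σ hσ ^ k)⁻¹ (Quotient.out v') = Quotient.out v
    rw [← h4]
    exact Equiv.symm_apply_apply _ _
  · rintro ⟨w, hw⟩
    obtain ⟨P, hPT, rfl⟩ := Finset.mem_image.mp hw
    obtain ⟨q, hqT, hqP⟩ := mem_ratPrimesOver.mp hPT
    obtain ⟨g, rfl⟩ := exists_primeOfG_eq (q : ℕ) L jL P hqP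
    let v : OrbitsC (resLoc (q : ℕ) L) N' σ hσ := Quotient.mk'' (cmk (resLoc (q : ℕ) L) N' g)
    refine ⟨⟨⟨q, hqT⟩, v⟩, Subtype.ext ?_⟩
    show underK K' (primeOfG (q : ℕ) L jL (gRep L N' σ (q : ℕ) hσ v)) = _
    have h5 : (orbitRel _ _) (Quotient.out v) (cmk (resLoc (q : ℕ) L) N' g) :=
      Quotient.exact (Quotient.out_eq v)
    rw [orbitRel_apply] at h5
    obtain ⟨⟨z, hz⟩, hzc⟩ := h5
    obtain ⟨k, rfl⟩ := exists_pow_eq_of_mem_zpowers hz
    have h6 : (sPerm (resLoc (q : ℕ) L) N' σ hσ ^ k) (cmk (resLoc (q : ℕ) L) N' g) =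
        cmk (resLoc (q : ℕ) L) N' (gRep L N' σ (q : ℕ) hσ v) := by
      rw [cmk_gRep]
      exact hzc
    rw [← (pow_smul_primeOfG_eq_iff L jL N' σ τ ha hb (q : ℕ) hσ hτσ k _ _).mpr h6,
      underK_smul]

include ha hb in
/-- **The Herbrand quotient of the `T`-units of `M = L^{N'}` in double coset language.**
`M/K'` odd cyclic with group `⟨τ⟩`, `τ` induced by `σ ∈ Gal(L/ℚ)` normalising `N'`; `A`
equivariantly isomorphic to the `T`-units of `M`.  Then
`n * h⁰(A) = (∏_{q ∈ T} ∏_{v ∈ orbits of σ on D_q \ G / N'} n / |v|) * h¹(A)`. -/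
theorem herbrand_cosets (hσ : σ ∈ Subgroup.normalizer (N' : Set (L ≃ₐ[ℚ] L)))
    (hτσ : ∀ x : M, σ (jL x) = jL (τ x)) (hτ : ∀ g, g ∈ Subgroup.zpowers τ)
    (T : Finset Nat.Primes) {A : Type*} [AddCommGroup A] (σA : AddMonoid.End A)
    (e : A ≃+ Additive (SUnit.TUnit M (ratPrimesOver M T)))
    (he : ∀ x, e (σA x) = tunitsEnd K' (ratPrimesOver M T) τ (e x))
    (n : ℕ) (hn : Module.finrank K' M = n) (hodd : Odd n) :
    hIdx (dlt σA) (nrm σA n) ≠ 0 ∧ hIdx (nrm σA n) (dlt σA) ≠ 0 ∧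
      n * hIdx (dlt σA) (nrm σA n) =
        (∏ q : T, ∏ v : OrbitsC (resLoc ((q : Nat.Primes) : ℕ) L) N' σ hσ,
          n / orbLen (resLoc ((q : Nat.Primes) : ℕ) L) N' σ hσ v) *
          hIdx (nrm σA n) (dlt σA) := by
  classical
  have key := herbrand_odd_of_addEquiv (ratPrimesOver M T) σA e τ he hτ n hn hodd
    (repPrime L jL N' σ T hσ) (repPrime_mem L jL N' σ T hσ)
    (repPrime_bijective L jL N' σ τ ha hb T hσ hτσ hτ)
  have hprod : ∏ i : OrbIdx L N' σ T hσ,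
      Nat.card (stabilizer (M ≃ₐ[K'] M) (repPrime L jL N' σ T hσ i)) =
      ∏ q : T, ∏ v : OrbitsC (resLoc ((q : Nat.Primes) : ℕ) L) N' σ hσ,
        n / orbLen (resLoc ((q : Nat.Primes) : ℕ) L) N' σ hσ v := by
    rw [Fintype.prod_sigma]
    exact Finset.prod_congr rfl fun q _ => Finset.prod_congr rfl fun v _ =>
      card_stabilizer_repPrime L jL N' σ τ ha hb T hσ hτσ hτ n hn q v
  rw [hprod] at key
  exact key

end Count

/-! ### The layer `(H, N)` of `Gal(L/ℚ)` -/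

section Layer

open Fermat.Agent.S55.GC.GaloisLayer Fermat.Agent.S55.GL.IdeleLayerUnits
open Fermat.Agent.S55.GC.HerbrandBridge Fermat.Agent.S55.GL.CoindHerbrand
open Fermat.Agent.S55.GL.LocalFieldAt Fermat.Agent.S14.Herbrand

/-- primes as `Fact`s -/
local instance factPrime_lp2 (q : Nat.Primes) : Fact (q : ℕ).Prime := ⟨q.2⟩

variable (L : IntermediateField ℚ Qbar) [NumberField L] [Normal ℚ L] [IsGalois ℚ L]
variable (T : Finset Nat.Primes)
variable (H : Subgroup (L ≃ₐ[ℚ] L)) (N : Subgroup H) [N.Normal]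

/-- The inclusion of the layer field into `L` as a `ℚ`-algebra homomorphism. -/
noncomputable def layerEmb : layerField ℚ L H N →ₐ[ℚ] L :=
  (algebraMap (layerField ℚ L H N) L).toRatAlgHom

theorem layerEmb_apply (x : layerField ℚ L H N) : layerEmb L H N x = (x : L) := rfl

theorem map_subtype_apply_layerEmb {ν : L ≃ₐ[ℚ] L} (hν : ν ∈ N.map H.subtype)
    (x : layerField ℚ L H N) : ν (layerEmb L H N x) = layerEmb L H N x := by
  obtain ⟨n, hn, rfl⟩ := hν
  exact x.2 ⟨subEquiv ℚ L H n, ⟨n, hn, rfl⟩⟩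

theorem mem_map_subtype_of_forall (g : L ≃ₐ[ℚ] L)
    (hg : ∀ x : layerField ℚ L H N, g (layerEmb L H N x) = layerEmb L H N x) :
    g ∈ N.map H.subtype := by
  have hgH : g ∈ H := by
    rw [← fixingSubgroup_fixedField H]
    rintro ⟨y, hy⟩
    exact hg (algebraMap (fixedField H) (layerField ℚ L H N) ⟨y, hy⟩)
  have h2 : subEquiv ℚ L H ⟨g, hgH⟩ ∈ imgN ℚ L H N := by
    rw [← fixingSubgroup_fixedField (imgN ℚ L H N)]
    rintro ⟨y, hy⟩
    exact hg ⟨y, hy⟩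
  obtain ⟨n, hn, hn2⟩ := h2
  have h3 : n = ⟨g, hgH⟩ := (subEquiv ℚ L H).injective hn2
  exact ⟨n, hn, by rw [h3]; rfl⟩

theorem coe_mem_normalizer (h : H) :
    (h : L ≃ₐ[ℚ] L) ∈ Subgroup.normalizer ((N.map H.subtype : Subgroup (L ≃ₐ[ℚ] L)) :
      Set (L ≃ₐ[ℚ] L)) := by
  rw [Subgroup.mem_normalizer_iff]
  intro x
  constructor
  · rintro ⟨n, hn, rfl⟩
    exact ⟨h * n * h⁻¹, ‹N.Normal›.conj_mem n hn h, rfl⟩
  · rintro ⟨m, hm, hm2⟩
    refine ⟨h⁻¹ * m * h, ?_, ?_⟩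
    · have := ‹N.Normal›.conj_mem m hm h⁻¹
      rwa [inv_inv] at this
    · have hm3 : (m : L ≃ₐ[ℚ] L) = (h : L ≃ₐ[ℚ] L) * x * (h : L ≃ₐ[ℚ] L)⁻¹ := hm2
      show (h : L ≃ₐ[ℚ] L)⁻¹ * (m : L ≃ₐ[ℚ] L) * (h : L ≃ₐ[ℚ] L) = x
      rw [hm3]
      group

/-- **The Herbrand quotient of `(E_{L,T})^N` for an odd cyclic layer, in double coset language**:
`[H:N] * h⁰ = (∏_{q ∈ T} ∏_{v : orbits of h on D_q \ G / N} [H:N] / |v|) * h¹`, both finite —
the same product as in `CoindHerbrand.hIdx_coindInv` for `(J_{L,T})^N`. -/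
theorem layerE_herbrand_cosets (h : H)
    (hq : ∀ x : H ⧸ N, x ∈ Subgroup.zpowers (QuotientGroup.mk h : H ⧸ N))
    (hodd : Odd N.index) :
    hIdx (dlt (sigma (layerE L T H N) (QuotientGroup.mk h)))
        (nrm (sigma (layerE L T H N) (QuotientGroup.mk h)) N.index) ≠ 0 ∧
      hIdx (nrm (sigma (layerE L T H N) (QuotientGroup.mk h)) N.index)
        (dlt (sigma (layerE L T H N) (QuotientGroup.mk h))) ≠ 0 ∧
      N.index * hIdx (dlt (sigma (layerE L T H N) (QuotientGroup.mk h)))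
          (nrm (sigma (layerE L T H N) (QuotientGroup.mk h)) N.index) =
        (∏ q : T, ∏ v : OrbitsC (resLoc ((q : Nat.Primes) : ℕ) L) (N.map H.subtype)
            (h : L ≃ₐ[ℚ] L) (coe_mem_normalizer L H N h),
          N.index / orbLen (resLoc ((q : Nat.Primes) : ℕ) L) (N.map H.subtype)
            (h : L ≃ₐ[ℚ] L) (coe_mem_normalizer L H N h) v) *
          hIdx (nrm (sigma (layerE L T H N) (QuotientGroup.mk h)) N.index)
            (dlt (sigma (layerE L T H N) (QuotientGroup.mk h))) :=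
  herbrand_cosets L (layerEmb L H N) (N.map H.subtype) (h : L ≃ₐ[ℚ] L)
    (layerGroupEquiv ℚ L H N (QuotientGroup.mk h))
    (fun _ hν x => map_subtype_apply_layerEmb L H N hν x)
    (mem_map_subtype_of_forall L H N) (coe_mem_normalizer L H N h)
    (fun x => (layerGroupEquiv_mk_coe ℚ L H N h x).symm)
    (layerGroupEquiv_mem_zpowers L H N _ hq) T
    (sigma (layerE L T H N) (QuotientGroup.mk h)) (layerUnitsEquiv L T H N)
    (layerUnitsEquiv_sigma L T H N _) N.index (finrank_layerField ℚ L H N) hodd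

end Layer

end Fermat.Agent.S55.GL.IdeleLayerPrimes
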