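/-
S55 / GLO8 glue (helper11): the `E`-side Herbrand hypotheses `hE`, `hE0` of
`CF1.layerHyp_of_herbrand` / `LayerFirstIneq.first_inequality_layer`, VERBATIM, for an odd cyclic
layer `N ◁ H ≤ Gal(L/ℚ)` of index `n` generated by the class of `h : H`, with helper29's
`IdeleInvHerbrand.layerIndex L T H N h n`.
-/
import Mathlib
import Fermat.Agent.S55.GL.IdeleLayerPrimes
import Fermat.Agent.S55.GL.IdeleInvHerbrand

set_option autoImplicit false

namespace Fermat.Agent.S55.GL.IdeleLayerHE

open IntermediateField NumberField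
open Fermat.Agent.S14.Herbrand Fermat.Agent.S55.GC.HerbrandBridge
open Fermat.Agent.S55.GL.CF1 Fermat.Agent.S55.GL.Ideles Fermat.Agent.S55.GL.IdeleInvHerbrand
open Fermat.Agent.S55.GL.IdeleLayerUnits Fermat.Agent.S55.GL.IdeleLayerPrimes

local notation "Qbar" => AlgebraicClosure ℚ

section Group

variable {G : Type*} [Group G] (N : Subgroup G) [N.Normal]

/-- If `N` has index `n > 0` and the class of `h` has exact order `n` modulo `N`, then the class
of `h` generates `G ⧸ N`. -/
theorem mk_generates_of_index (h : G) {n : ℕ} (hn0 : 0 < n) (hidx : N.index = n)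
    (hn : ∀ i : ℕ, h ^ i ∈ N ↔ n ∣ i) :
    ∀ x : G ⧸ N, x ∈ Subgroup.zpowers (QuotientGroup.mk h : G ⧸ N) := by
  have hfin : Finite (G ⧸ N) := by
    apply Nat.finite_of_card_ne_zero
    rw [← Subgroup.index_eq_card, hidx]
    exact hn0.ne'
  have hord : orderOf (QuotientGroup.mk h : G ⧸ N) = n := by
    apply Nat.dvd_antisymm
    · apply orderOf_dvd_of_pow_eq_one
      rw [← QuotientGroup.mk_pow, QuotientGroup.eq_one_iff]
      exact (hn n).mpr dvd_rfl
    · apply (hn _).mp
      rw [← QuotientGroup.eq_one_iff, QuotientGroup.mk_pow]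
      exact pow_orderOf_eq_one _
  have htop : Subgroup.zpowers (QuotientGroup.mk h : G ⧸ N) = ⊤ := by
    apply Subgroup.eq_top_of_card_eq
    rw [Nat.card_zpowers, hord, ← Subgroup.index_eq_card, hidx]
  intro x
  rw [htop]
  exact Subgroup.mem_top x

end Group

variable (L : IntermediateField ℚ Qbar) [NumberField L] [Normal ℚ L] [IsGalois ℚ L]
variable (T : Finset Nat.Primes)
variable (H : Subgroup (L ≃ₐ[ℚ] L)) (N : Subgroup H) [N.Normal]

/-- **`hE`, `hE0` (and `h¹(E^N) ≠ 0`) of `layerHyp_of_herbrand` / `first_inequality_layer`**, for a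
layer `N ◁ H` of odd index `n` with `H ⧸ N` generated by the class of `h`:
`h¹(E^N) * layerIndex = n * h⁰(E^N)`, both Herbrand indices finite. -/
theorem layerE_hE (h : H) {n : ℕ} (hidx : N.index = n) (hn : ∀ i : ℕ, h ^ i ∈ N ↔ n ∣ i)
    (hodd : Odd n) :
    hIdx (nrm (sigma (layerSC (seq L T) H N).X₁ (QuotientGroup.mk h)) n)
        (dlt (sigma (layerSC (seq L T) H N).X₁ (QuotientGroup.mk h))) * layerIndex L T H N h n =
      n * hIdx (dlt (sigma (layerSC (seq L T) H N).X₁ (QuotientGroup.mk h)))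
        (nrm (sigma (layerSC (seq L T) H N).X₁ (QuotientGroup.mk h)) n) ∧
    hIdx (dlt (sigma (layerSC (seq L T) H N).X₁ (QuotientGroup.mk h)))
        (nrm (sigma (layerSC (seq L T) H N).X₁ (QuotientGroup.mk h)) n) ≠ 0 ∧
    hIdx (nrm (sigma (layerSC (seq L T) H N).X₁ (QuotientGroup.mk h)) n)
        (dlt (sigma (layerSC (seq L T) H N).X₁ (QuotientGroup.mk h))) ≠ 0 := by
  have hn0 : 0 < n := hodd.pos
  subst hidx
  have hq := mk_generates_of_index N h hn0 rfl hn
  obtain ⟨h0, h1, heq⟩ := layerE_herbrand_cosets L T H N h hq hodd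
  refine ⟨?_, h0, h1⟩
  rw [mul_comm]
  exact heq.symm

end Fermat.Agent.S55.GL.IdeleLayerHE
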