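/-
S55 / GLO6 (helper29): the local hypothesis `CoindHerbrand.LocalCyclicHyp` for the unit group of a
finite Galois extension of local fields, from helper8's LO3 (`normIndexStatement`, local norm index)
and Hilbert 90.

`E₀/F₀` finite Galois with group `Δ`, `Δ₀ ≤ Δ`, `d₀ ∈ Δ` normalising `Δ₀`, `d₀ ^ i ∈ Δ₀ ↔ k ∣ i`.
Put `E = E₀^{Δ₀}`, `σ = d₀|_E`, `F = E^{⟨σ⟩}`: then `E/F` is cyclic of degree `k` with group
generated by `σ`, the `⟨d₀⟩`-module `(E₀ˣ)^{Δ₀}` is `Eˣ` (`fixedUnitsEquiv`), and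
`h⁰ = [Fˣ : N Eˣ] = k`, `h¹ = 1`.
-/
import Mathlib
import Fermat.Agent.S55.GL.CoindHerbrand
import Fermat.Agent.S55.GL.FirstIneqAbstract
import Fermat.Agent.S55.Local.NormIndexGlue
import Fermat.Agent.S55.LocalInt
import Fermat.Agent.S55.GL.LocalFieldAt
import Fermat.Agent.S55.GL.IdeleInvHerbrand

set_option autoImplicit false
set_option linter.unusedSectionVars false

namespace Fermat.Agent.S55.GL.LocalCyclic

open Fermat.Agent.S14.Herbrand Fermat.Agent.S14.H90 Fermat.Agent.S55.GL.CoindHerbrand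
  IntermediateField Fermat.Agent.S55.Local.LocalField

section Abstract

variable {F₀ E₀ : Type} [Field F₀] [Field E₀] [Algebra F₀ E₀] [FiniteDimensional F₀ E₀]
  (Δ₀ : Subgroup (E₀ ≃ₐ[F₀] E₀)) (d₀ : E₀ ≃ₐ[F₀] E₀) (hnorm : ∀ d ∈ Δ₀, d₀⁻¹ * d * d₀ ∈ Δ₀)

include hnorm in
/-- `d₀` maps the fixed field of `Δ₀` to itself. -/
lemma apply_mem_fixedField {x : E₀} (hx : x ∈ fixedField Δ₀) : d₀ x ∈ fixedField Δ₀ := by
  rw [mem_fixedField_iff] at hx ⊢
  intro δ hδ
  have h1 := hx _ (hnorm δ hδ)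
  have h2 : δ (d₀ x) = d₀ ((d₀⁻¹ * δ * d₀) x) := by
    rw [AlgEquiv.mul_apply, AlgEquiv.mul_apply, ← AlgEquiv.mul_apply d₀ d₀⁻¹, mul_inv_cancel,
      AlgEquiv.one_apply]
  rw [h2, h1]

/-- The restriction of `d₀` to the fixed field of `Δ₀`, as an algebra endomorphism. -/
noncomputable def resFixedHom : fixedField Δ₀ →ₐ[F₀] fixedField Δ₀ :=
  ((d₀ : E₀ →ₐ[F₀] E₀).comp (fixedField Δ₀).val).codRestrict (fixedField Δ₀).toSubalgebra
    fun x => apply_mem_fixedField Δ₀ d₀ hnorm x.2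

/-- The restriction of `d₀` to the fixed field of `Δ₀`. -/
noncomputable def resFixed : fixedField Δ₀ ≃ₐ[F₀] fixedField Δ₀ :=
  AlgEquiv.ofBijective (resFixedHom Δ₀ d₀ hnorm)
    (Algebra.IsAlgebraic.algHom_bijective (resFixedHom Δ₀ d₀ hnorm))

@[simp] lemma coe_resFixed (x : fixedField Δ₀) :
    ((resFixed Δ₀ d₀ hnorm x : fixedField Δ₀) : E₀) = d₀ (x : E₀) := rfl

lemma coe_resFixed_pow (i : ℕ) (x : fixedField Δ₀) :
    (((resFixed Δ₀ d₀ hnorm ^ i) x : fixedField Δ₀) : E₀) = (d₀ ^ i) (x : E₀) := by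
  induction i generalizing x with
  | zero => rfl
  | succ i ih =>
    rw [pow_succ, pow_succ, AlgEquiv.mul_apply, AlgEquiv.mul_apply, ih, coe_resFixed]

lemma resFixed_pow_eq_one_iff (i : ℕ) : resFixed Δ₀ d₀ hnorm ^ i = 1 ↔ d₀ ^ i ∈ Δ₀ := by
  constructor
  · intro h
    rw [← fixingSubgroup_fixedField Δ₀, IntermediateField.mem_fixingSubgroup_iff]
    intro x hx
    have h1 := coe_resFixed_pow Δ₀ d₀ hnorm i ⟨x, hx⟩
    rw [h] at h1
    exact h1.symm
  · intro h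
    ext x
    rw [coe_resFixed_pow]
    exact (mem_fixedField_iff Δ₀ _).mp x.2 _ h

/-- `(E₀ˣ)^{Δ₀} = (E₀^{Δ₀})ˣ`. -/
noncomputable def fixedUnitsEquiv :
    Additive (fixedSub (B := E₀ˣ) Δ₀) ≃+ Additive (fixedField Δ₀)ˣ where
  toFun x := Additive.ofMul (Units.mk0 (⟨(((Additive.toMul x).1 : E₀ˣ) : E₀), by
      rw [mem_fixedField_iff]
      intro δ hδ
      exact congrArg Units.val ((Additive.toMul x).2 δ hδ)⟩ : fixedField Δ₀)
    (fun h => ((Additive.toMul x).1 : E₀ˣ).ne_zero (congrArg Subtype.val h)))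
  invFun y := Additive.ofMul
    ⟨Units.map ((algebraMap (fixedField Δ₀) E₀ : fixedField Δ₀ →+* E₀) : fixedField Δ₀ →* E₀)
      (Additive.toMul y), by
        intro δ hδ
        apply Units.ext
        exact (mem_fixedField_iff Δ₀ _).mp ((Additive.toMul y : (fixedField Δ₀)ˣ) : fixedField Δ₀).2
          δ hδ⟩
  left_inv x := by
    apply congrArg Additive.ofMul
    apply Subtype.ext
    apply Units.ext
    rfl
  right_inv y := by
    apply congrArg Additive.ofMul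
    apply Units.ext
    rfl
  map_add' x y := by
    apply congrArg Additive.ofMul
    apply Units.ext
    rfl

lemma coe_fixedUnitsEquiv (x : Additive (fixedSub (B := E₀ˣ) Δ₀)) :
    (((Additive.toMul (fixedUnitsEquiv Δ₀ x) : (fixedField Δ₀)ˣ) : fixedField Δ₀) : E₀) =
      (((Additive.toMul x).1 : E₀ˣ) : E₀) := rfl

end Abstract

section Cyclic

variable {F₀ E : Type} [Field F₀] [Field E] [Algebra F₀ E] [FiniteDimensional F₀ E]
  (σ : E ≃ₐ[F₀] E)

/-- `E` is Galois over the fixed field of `σ` (Artin). -/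
instance isGalois_fixedField_zpowers : IsGalois (fixedField (Subgroup.zpowers σ)) E :=
  IsGalois.of_fixed_field E (Subgroup.zpowers σ)

/-- `σ` as an automorphism over its fixed field. -/
noncomputable def genFixed : E ≃ₐ[fixedField (Subgroup.zpowers σ)] E :=
  subgroupEquivAlgEquiv (Subgroup.zpowers σ) ⟨σ, Subgroup.mem_zpowers σ⟩

@[simp] lemma genFixed_apply (x : E) : genFixed σ x = σ x := rfl

lemma genFixed_generates (g : E ≃ₐ[fixedField (Subgroup.zpowers σ)] E) :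
    g ∈ Subgroup.zpowers (genFixed σ) := by
  obtain ⟨⟨h, hh⟩, rfl⟩ := (subgroupEquivAlgEquiv (Subgroup.zpowers σ)).surjective g
  obtain ⟨j, rfl⟩ := Subgroup.mem_zpowers_iff.mp hh
  refine Subgroup.mem_zpowers_iff.mpr ⟨j, ?_⟩
  rw [genFixed, ← map_zpow]
  congr 1

lemma finrank_fixedField_zpowers {k : ℕ} (hk : ∀ i : ℕ, σ ^ i = 1 ↔ k ∣ i) :
    Module.finrank (fixedField (Subgroup.zpowers σ)) E = k := by
  rw [finrank_fixedField_eq_card, Nat.card_zpowers]
  exact Nat.dvd_antisymm (orderOf_dvd_of_pow_eq_one ((hk k).mpr dvd_rfl))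
    ((hk _).mp (pow_orderOf_eq_one σ))

end Cyclic

section Main

variable (F₀ E₀ : Type) [Field F₀] [Field E₀] [Algebra F₀ E₀] [FiniteDimensional F₀ E₀]
  [IsGalois F₀ E₀]

/-- **The local hypothesis of `hIdx_coindInv`** for the units of a finite Galois extension
`E₀/F₀` of local fields: for every cyclic layer `Δ₀ ◁ ⟨Δ₀, d₀⟩` of `Gal(E₀/F₀)` of order `k`,
`h⁰((E₀ˣ)^{Δ₀}) = k` (local norm index, LO3) and `h¹ = 1` (Hilbert 90). -/
theorem localCyclicHyp_of_isLocalField (hF₀ : IsLocalField F₀) :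
    LocalCyclicHyp (E₀ ≃ₐ[F₀] E₀) E₀ˣ := by
  intro Δ₀ d₀ hnorm k hk0 hk
  have hσk : ∀ i : ℕ, resFixed Δ₀ d₀ hnorm ^ i = 1 ↔ k ∣ i := fun i => by
    rw [resFixed_pow_eq_one_iff, hk]
  have hfr := finrank_fixedField_zpowers (resFixed Δ₀ d₀ hnorm) hσk
  have : Algebra.IsSeparable F₀ (fixedField Δ₀) :=
    Algebra.isSeparable_tower_bot_of_isSeparable F₀ (fixedField Δ₀) E₀
  have : Algebra.IsSeparable F₀ (fixedField (Subgroup.zpowers (resFixed Δ₀ d₀ hnorm))) :=
    Algebra.isSeparable_tower_bot_of_isSeparable F₀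
      (fixedField (Subgroup.zpowers (resFixed Δ₀ d₀ hnorm))) (fixedField Δ₀)
  have hFloc : IsLocalField (fixedField (Subgroup.zpowers (resFixed Δ₀ d₀ hnorm))) :=
    hF₀.of_finite
  have h0 := normIndexStatement (fixedField (Subgroup.zpowers (resFixed Δ₀ d₀ hnorm)))
    (fixedField Δ₀) hFloc (genFixed (resFixed Δ₀ d₀ hnorm))
    (genFixed_generates (resFixed Δ₀ d₀ hnorm))
  have h1 := Fermat.Agent.S55.Local.hIdx_nrm_dlt_field_units
    (genFixed_generates (resFixed Δ₀ d₀ hnorm))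
  rw [unitsEnd_eq_fieldUnitsEnd] at h1
  rw [hfr] at h0 h1
  have hint : ∀ x, fixedUnitsEquiv Δ₀ (fixEnd Δ₀ d₀ hnorm x) =
      fieldUnitsEnd (fixedField (Subgroup.zpowers (resFixed Δ₀ d₀ hnorm))) (fixedField Δ₀)
        (genFixed (resFixed Δ₀ d₀ hnorm)) (fixedUnitsEquiv Δ₀ x) := by
    intro x
    apply congrArg Additive.ofMul
    apply Units.ext
    apply Subtype.ext
    rfl
  have hint' : ∀ x, fieldUnitsEnd (fixedField (Subgroup.zpowers (resFixed Δ₀ d₀ hnorm)))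
      (fixedField Δ₀) (genFixed (resFixed Δ₀ d₀ hnorm))
        ((fixedUnitsEquiv Δ₀).toAddMonoidHom x) =
      (fixedUnitsEquiv Δ₀).toAddMonoidHom (fixEnd Δ₀ d₀ hnorm x) := fun x => (hint x).symm
  have hd := Fermat.Agent.S55.GL.FirstIneq.dlt_hom (fixedUnitsEquiv Δ₀).toAddMonoidHom hint'
  have hn := Fermat.Agent.S55.GL.FirstIneq.nrm_hom (fixedUnitsEquiv Δ₀).toAddMonoidHom hint' k
  constructor
  · exact (hIdx_congr (fixedUnitsEquiv Δ₀) (fun x => (hd x).symm) (fun x => (hn x).symm)).trans h0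
  · exact (hIdx_congr (fixedUnitsEquiv Δ₀) (fun x => (hn x).symm) (fun x => (hd x).symm)).trans h1

end Main

section Padic

open Fermat.Agent.S55.LocalDict

variable (q : ℕ) [Fact q.Prime]

/-- `ℚ_q` is a local field. -/
theorem isLocalField_padic : IsLocalField ℚ_[q] := isLocalField_of_dvr ℤ_[q] ℚ_[q]

local notation "Qbar" => AlgebraicClosure ℚ

/-- **`LocalCyclicHyp` for the completions `L_q/ℚ_q`** of a finite Galois extension `L/ℚ` inside
`ℚ̄` (the hypothesis `hloc` of `IdeleInvHerbrand.hIdx_layer_J`). -/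
theorem localCyclicHyp_localField (L : IntermediateField ℚ Qbar) [Normal ℚ L]
    [FiniteDimensional ℚ L] :
    LocalCyclicHyp (localField q L ≃ₐ[ℚ_[q]] localField q L) (localField q L)ˣ := by
  have : IsGalois ℚ_[q] (localField q L) := ⟨⟩
  exact localCyclicHyp_of_isLocalField ℚ_[q] (localField q L) (isLocalField_padic q)

end Padic

section Layer

open Fermat.Agent.S55.LocalDict Fermat.Agent.S55.GL.Ideles Fermat.Agent.S55.GL.CF1
  Fermat.Agent.S55.GC.HerbrandBridge Fermat.Agent.S55.GL.IdeleInvHerbrand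

local notation "Qbar" => AlgebraicClosure ℚ

/-- **GLO6, idele part (unconditional)**: for a layer `N ◁ H ≤ Gal(L/ℚ)` with `H ⧸ N` cyclic of
order `n` generated by the class of `h`: `h⁰(J^N) = layerIndex L T H N h n ≠ 0`, `h¹(J^N) = 1`, for
`J = J_{L,T}` in helper3's model.  These are the hypotheses `hJ0`, `hJ1`, `ha` of
`CF1.layerHyp_of_herbrand`. -/
theorem hIdx_layer_J_localField (L : IntermediateField ℚ Qbar) [Normal ℚ L]
    [FiniteDimensional ℚ L] (T : Finset Nat.Primes) (H : Subgroup (L ≃ₐ[ℚ] L)) (N : Subgroup H)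
    [N.Normal] (h : H) {n : ℕ} (hn0 : 0 < n) (hn : ∀ i : ℕ, h ^ i ∈ N ↔ n ∣ i) :
    hIdx (dlt (sigma (layerSC (seq L T) H N).X₂ (QuotientGroup.mk h)))
        (nrm (sigma (layerSC (seq L T) H N).X₂ (QuotientGroup.mk h)) n) =
        layerIndex L T H N h n ∧
      hIdx (nrm (sigma (layerSC (seq L T) H N).X₂ (QuotientGroup.mk h)) n)
        (dlt (sigma (layerSC (seq L T) H N).X₂ (QuotientGroup.mk h))) = 1 ∧
      layerIndex L T H N h n ≠ 0 := by
  obtain ⟨h0, h1⟩ := hIdx_layer_J L T H N h hn0 hn fun q =>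
    haveI : Fact ((q : Nat.Primes) : ℕ).Prime := ⟨(q : Nat.Primes).2⟩
    localCyclicHyp_localField ((q : Nat.Primes) : ℕ) L
  exact ⟨h0, h1, layerIndex_ne_zero L T H N h hn0 ((hn n).mpr dvd_rfl)⟩

end Layer

end Fermat.Agent.S55.GL.LocalCyclic
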