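/-
S55 / GLO6 (helper29): the FIRST INEQUALITY for a cyclic layer of `Gal(L/ℚ)` in helper3's idele
model, assembled from
* the idele part `LocalCyclic.hIdx_layer_J_localField` (`h⁰(J^N) = layerIndex`, `h¹(J^N) = 1`),
* the unit part (`hE`, `hE0`: Herbrand quotient of the `T`-units of the layer field, helper11),
* exactness of the layer sequence `0 → E^N → J^N → C^N → 0` (`H¹(N, E_{L,T}) = 0`, helper7),
via `FirstIneq.classGroup_herbrand`:  `h⁰(C^N) = n · h¹(C^N)`, both finite and nonzero.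
In particular `h⁰(C^N) ≥ n`: there is a `σ`-invariant idele class which is not a norm.
-/
import Mathlib
import Fermat.Agent.S55.GL.LocalCyclic

set_option autoImplicit false

namespace Fermat.Agent.S55.GL.LayerFirstIneq

open CategoryTheory IntermediateField
open Fermat.Agent.S14.Herbrand Fermat.Agent.S55.GL.Ideles Fermat.Agent.S55.GL.CF1
  Fermat.Agent.S55.GC.HerbrandBridge Fermat.Agent.S55.GL.IdeleInvHerbrand
  Fermat.Agent.S55.GL.LocalCyclic Fermat.Agent.S55.GC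

section General

universe u

variable {k : Type u} [CommRing k] {Q : Type u} [Group Q] (Y : ShortComplex (Rep.{u} k Q))

/-- **First inequality from Herbrand data** on a short exact sequence `0 → E → J → C → 0` of
`Q`-modules, `g ∈ Q` with `g ^ n = 1`: `h⁰(J) = a ≠ 0`, `h¹(J) = 1`, `h¹(E) · a = n · h⁰(E) ≠ 0`
⇒ `h⁰(C) = n · h¹(C)`, both nonzero.  (Same proof as `CF1.layer_of_shortExact`, without the second
inequality.) -/
theorem first_inequality_of_shortExact (hY : Y.ShortExact) (g : Q) {n a : ℕ} (hn : n ≠ 0)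
    (hgn : g ^ n = 1)
    (hJ0 : hIdx (dlt (sigma Y.X₂ g)) (nrm (sigma Y.X₂ g) n) = a)
    (hJ1 : hIdx (nrm (sigma Y.X₂ g) n) (dlt (sigma Y.X₂ g)) = 1) (ha : a ≠ 0)
    (hE : hIdx (nrm (sigma Y.X₁ g) n) (dlt (sigma Y.X₁ g)) * a =
      n * hIdx (dlt (sigma Y.X₁ g)) (nrm (sigma Y.X₁ g) n))
    (hE0 : hIdx (dlt (sigma Y.X₁ g)) (nrm (sigma Y.X₁ g) n) ≠ 0) :
    hIdx (dlt (sigma Y.X₃ g)) (nrm (sigma Y.X₃ g) n) =
        n * hIdx (nrm (sigma Y.X₃ g) n) (dlt (sigma Y.X₃ g)) ∧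
      hIdx (dlt (sigma Y.X₃ g)) (nrm (sigma Y.X₃ g) n) ≠ 0 ∧
      hIdx (nrm (sigma Y.X₃ g) n) (dlt (sigma Y.X₃ g)) ≠ 0 := by
  have hinj : Function.Injective Y.f.hom := (Rep.mono_iff_injective _).1 hY.mono_f
  have hsurj : Function.Surjective Y.g.hom := (Rep.epi_iff_surjective _).1 hY.epi_g
  have hex := (rep_exact_iff Y).1 hY.exact
  have hzero : ∀ x, Y.g.hom (Y.f.hom x) = 0 := fun x => by
    have := congrArg (fun φ : Y.X₁ ⟶ Y.X₃ => φ.hom x) Y.zero
    exact this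
  exact Fermat.Agent.S55.GL.FirstIneq.classGroup_herbrand
    (σE := sigma Y.X₁ g) (σJ := sigma Y.X₂ g) (σC := sigma Y.X₃ g)
    (Y.f.hom.toLinearMap.toAddMonoidHom) (Y.g.hom.toLinearMap.toAddMonoidHom) hinj hsurj
    (by
      ext x
      constructor
      · rintro ⟨y, rfl⟩
        exact hzero y
      · intro hx
        obtain ⟨y, hy⟩ := hex x hx
        exact ⟨y, hy⟩)
    (fun x => (Rep.hom_comm_apply Y.f g x).symm) (fun x => (Rep.hom_comm_apply Y.g g x).symm)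
    (sigma_pow_eq_one Y.X₂ g hgn) hn hJ0 hJ1 ha hE hE0

/-- Consequence: for `n > 1` there is a `g`-invariant class in `C` which is not a norm
(`Ĥ⁰(C) ≠ 0`). -/
theorem exists_invariant_not_norm (hY : Y.ShortExact) (g : Q) {n a : ℕ} (hn : 1 < n)
    (hgn : g ^ n = 1)
    (hJ0 : hIdx (dlt (sigma Y.X₂ g)) (nrm (sigma Y.X₂ g) n) = a)
    (hJ1 : hIdx (nrm (sigma Y.X₂ g) n) (dlt (sigma Y.X₂ g)) = 1) (ha : a ≠ 0)
    (hE : hIdx (nrm (sigma Y.X₁ g) n) (dlt (sigma Y.X₁ g)) * a =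
      n * hIdx (dlt (sigma Y.X₁ g)) (nrm (sigma Y.X₁ g) n))
    (hE0 : hIdx (dlt (sigma Y.X₁ g)) (nrm (sigma Y.X₁ g) n) ≠ 0) :
    ∃ x : Y.X₃, dlt (sigma Y.X₃ g) x = 0 ∧ x ∉ (nrm (sigma Y.X₃ g) n).range := by
  obtain ⟨h0, _, h1⟩ := first_inequality_of_shortExact Y hY g (by omega) hgn hJ0 hJ1 ha hE hE0
  by_contra hcon
  push Not at hcon
  have hle : (dlt (sigma Y.X₃ g)).ker ≤ (nrm (sigma Y.X₃ g) n).range := fun x hx =>
    hcon x (AddMonoidHom.mem_ker.mp hx)
  have h2 : hIdx (dlt (sigma Y.X₃ g)) (nrm (sigma Y.X₃ g) n) = 1 := by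
    rw [hIdx, AddSubgroup.relIndex_eq_one]
    exact hle
  rw [h2] at h0
  have h3 : 0 < hIdx (nrm (sigma Y.X₃ g) n) (dlt (sigma Y.X₃ g)) := Nat.pos_of_ne_zero h1
  nlinarith

end General

local notation "Qbar" => AlgebraicClosure ℚ

variable (L : IntermediateField ℚ Qbar) [Normal ℚ L] [FiniteDimensional ℚ L]
  (T : Finset Nat.Primes) (H : Subgroup (L ≃ₐ[ℚ] L)) (N : Subgroup H) [N.Normal]

/-- **First inequality for the layer `(H, N)`**, `H ⧸ N` cyclic of order `n` generated by the class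
of `h`: if the layer sequence is exact (`h1`) and the `T`-units of the layer field have Herbrand
quotient `layerIndex / n` (`hE`, `hE0`), then `h⁰(C^N) = n · h¹(C^N)`, both nonzero. -/
theorem first_inequality_layer (hT : T.Nonempty) (h : H) {n : ℕ} (hn0 : 0 < n)
    (hn : ∀ i : ℕ, h ^ i ∈ N ↔ n ∣ i)
    (h1 : Limits.IsZero (groupCohomology
      (Rep.res N.subtype (Rep.res H.subtype (seq L T).X₁)) 1))
    (hE : hIdx (nrm (sigma (layerSC (seq L T) H N).X₁ (QuotientGroup.mk h)) n)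
        (dlt (sigma (layerSC (seq L T) H N).X₁ (QuotientGroup.mk h))) * layerIndex L T H N h n =
      n * hIdx (dlt (sigma (layerSC (seq L T) H N).X₁ (QuotientGroup.mk h)))
        (nrm (sigma (layerSC (seq L T) H N).X₁ (QuotientGroup.mk h)) n))
    (hE0 : hIdx (dlt (sigma (layerSC (seq L T) H N).X₁ (QuotientGroup.mk h)))
        (nrm (sigma (layerSC (seq L T) H N).X₁ (QuotientGroup.mk h)) n) ≠ 0) :
    hIdx (dlt (sigma (layerSC (seq L T) H N).X₃ (QuotientGroup.mk h)))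
        (nrm (sigma (layerSC (seq L T) H N).X₃ (QuotientGroup.mk h)) n) =
      n * hIdx (nrm (sigma (layerSC (seq L T) H N).X₃ (QuotientGroup.mk h)) n)
        (dlt (sigma (layerSC (seq L T) H N).X₃ (QuotientGroup.mk h))) ∧
    hIdx (dlt (sigma (layerSC (seq L T) H N).X₃ (QuotientGroup.mk h)))
        (nrm (sigma (layerSC (seq L T) H N).X₃ (QuotientGroup.mk h)) n) ≠ 0 ∧
    hIdx (nrm (sigma (layerSC (seq L T) H N).X₃ (QuotientGroup.mk h)) n)
        (dlt (sigma (layerSC (seq L T) H N).X₃ (QuotientGroup.mk h))) ≠ 0 := by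
  have hgn : (QuotientGroup.mk h : H ⧸ N) ^ n = 1 :=
    (QuotientGroup.mk_pow N h n).symm.trans
      ((QuotientGroup.eq_one_iff _).mpr ((hn n).mpr dvd_rfl))
  have hY : (layerSC (seq L T) H N).ShortExact :=
    layerSC_shortExact H N (seq_shortExact L T hT) h1
  have hJ := hIdx_layer_J_localField L T H N h hn0 hn
  exact first_inequality_of_shortExact (layerSC (seq L T) H N) hY (QuotientGroup.mk h) hn0.ne' hgn
    hJ.1 hJ.2.1 hJ.2.2 hE hE0

end Fermat.Agent.S55.GL.LayerFirstIneq
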