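/-
S55 / GLO7 glue (helper29): the cohomological half of the comparison `NormIndexDvd`
(`h⁰(H/N, C_{L,T}^N) ∣ [∏_{v ∈ S} K_vˣ : diag(S-units) · ∏ N_v]`), and elementwise descriptions of
the layer module `J_{L,T}^N` in terms of plain idèles.

* `exists_eq_dlt_of_isZero_H1` : `Q = ⟨g⟩` finite cyclic, `H¹(Q, A) = 0` ⇒ `ker N ⊆ im (σ - 1)`.
* `hIdx_dvd_index_of_shortExact` : helper21's `QuotIndex.hIdx_quotient_dvd_index` for a short
  exact sequence `0 → E → J → C → 0` in `Rep k Q` with `H¹(Q, E) = 0`.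
* `isZero_H1_layer_E` : `H¹(H/N, E_{L,T}^N) = 0` from `H¹(H, E_{L,T}) = 0` (inflation).
* `layer_hIdx_dvd_index`, `layer_hIdx_dvd_index'` : the same for the layer sequence
  `E^N → J^N → C^N` of `Ideles.seq L T`: only `(X, j, hj, hjI, P, hP, 𝒩, hN)` remain.
* `ideleOf`, `mkX₂`, `ideleOf_sigma`, `ideleOf_nrm` (d), `mem_ker_dlt_iff` (a), `mem_range_f_iff` (c):
  elements of `(layerSC (seq L T) H N).X₂` as `N`-invariant idèles; the action of `H/N`, the norm,
  the `H/N`-invariants (`= H`-invariant idèles) and the image of `E^N` (diagonal `T`-units fixed by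
  `N`), without unfolding `layerSC` / `invSC` / `quotientToInvariants`.
-/
import Mathlib
import Fermat.Agent.S55.GL.LayerFirstIneq
import Fermat.Agent.S55.GL.IdeleLayerHE
import Fermat.Agent.S55.GL.SecondIneq.QuotIndex
import Fermat.Agent.S55.GL.CFIdele

set_option autoImplicit false
set_option linter.unusedSectionVars false

universe u

open CategoryTheory groupCohomology Rep Fermat.Agent.S14.Herbrand
  Fermat.Agent.S55.GC.HerbrandBridge Fermat.Agent.S55.GC

namespace Fermat.Agent.S55.GL.LayerQuotIndex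

open Fermat.Agent.S55.GL.CF1 Fermat.Agent.S55.GL.SecondIneq

section Abstract

variable {k : Type u} [CommRing k] {Q : Type u} [Group Q] [Fintype Q]
  (Y : ShortComplex (Rep.{u} k Q))

/-- `Ĥ⁻¹(Q, A) = 0` elementwise from `H¹(Q, A) = 0`, `Q = ⟨g⟩` finite cyclic. -/
theorem exists_eq_dlt_of_isZero_H1 (A : Rep.{u} k Q) (g : Q)
    (hg : ∀ x, x ∈ Subgroup.zpowers g) (h1 : Limits.IsZero (groupCohomology A 1)) (e : A)
    (he : nrm (sigma A g) (Fintype.card Q) e = 0) : ∃ e' : A, e = sigma A g e' - e' := by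
  have hc := (card_H1_H2_eq_hIdx A g hg).1
  have hs : Subsingleton (groupCohomology A 1) := (ModuleCat.isZero_iff_subsingleton).mp h1
  have h2 : hIdx (nrm (sigma A g) (Fintype.card Q)) (dlt (sigma A g)) = 1 := by
    rw [← hc]
    exact Nat.card_unique
  unfold hIdx at h2
  rw [AddSubgroup.relIndex_eq_one] at h2
  obtain ⟨e', he'⟩ := h2 (show e ∈ (nrm (sigma A g) (Fintype.card Q)).ker from he)
  exact ⟨e', by rw [← he', dlt_apply]⟩

/-- **The cohomological half of `QuotIndex.hIdx_quotient_dvd_index`** for a short exact sequence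
`0 → E → J → C → 0` of modules over a finite cyclic group `Q = ⟨g⟩` with `H¹(Q, E) = 0`. -/
theorem hIdx_dvd_index_of_shortExact (hY : Y.ShortExact) (g : Q)
    (hg : ∀ x, x ∈ Subgroup.zpowers g) (h1 : Limits.IsZero (groupCohomology Y.X₁ 1))
    {X : Type*} [CommGroup X] (j : Additive X →+ Y.X₂) (hj : Function.Injective j)
    (hjI : j.range = (dlt (sigma Y.X₂ g)).ker) (P 𝒩 : Subgroup X)
    (hP : P.toAddSubgroup.map j =
      (Y.f.hom.toLinearMap.toAddMonoidHom).range ⊓ (dlt (sigma Y.X₂ g)).ker)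
    (hN : 𝒩.toAddSubgroup.map j ≤ (nrm (sigma Y.X₂ g) (Fintype.card Q)).range) :
    hIdx (dlt (sigma Y.X₃ g)) (nrm (sigma Y.X₃ g) (Fintype.card Q)) ∣ (P ⊔ 𝒩).index := by
  have hinj : Function.Injective Y.f.hom := (Rep.mono_iff_injective _).1 hY.mono_f
  have hsurj : Function.Surjective Y.g.hom := (Rep.epi_iff_surjective _).1 hY.epi_g
  have hex := (rep_exact_iff Y).1 hY.exact
  have hzero : ∀ x, Y.g.hom (Y.f.hom x) = 0 := fun x => by
    have := congrArg (fun φ : Y.X₁ ⟶ Y.X₃ => φ.hom x) Y.zero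
    exact this
  have hgn : g ^ Fintype.card Q = 1 := pow_card_eq_one
  refine hIdx_quotient_dvd_index (sigma Y.X₂ g) (Fintype.card Q) (sigma_pow_eq_one Y.X₂ g hgn)
    (Y.f.hom.toLinearMap.toAddMonoidHom).range (Y.g.hom.toLinearMap.toAddMonoidHom) hsurj ?_
    (sigma Y.X₃ g) (fun x => (hom_comm_apply Y.g g x).symm) ?_ j hj hjI P 𝒩 hP hN
  · ext x
    constructor
    · intro hx
      obtain ⟨y, hy⟩ := hex x hx
      exact ⟨y, hy⟩
    · rintro ⟨y, rfl⟩
      exact hzero y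
  · rintro _ ⟨e, rfl⟩ he
    have he' : nrm (sigma Y.X₁ g) (Fintype.card Q) e = 0 := by
      apply hinj
      rw [map_zero]
      rw [← he]
      exact (nrm_comp_of_comp (Y.f.hom.toLinearMap.toAddMonoidHom)
        (fun x => (hom_comm_apply Y.f g x).symm) (Fintype.card Q) e).symm
    obtain ⟨e', he''⟩ := exists_eq_dlt_of_isZero_H1 Y.X₁ g hg h1 e he'
    refine ⟨Y.f.hom e', ⟨e', rfl⟩, ?_⟩
    rw [he'']
    show Y.f.hom (sigma Y.X₁ g e' - e') = sigma Y.X₂ g (Y.f.hom e') - Y.f.hom e'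
    rw [map_sub]
    congr 1
    exact hom_comm_apply Y.f g e'

end Abstract

section Layer

open IntermediateField Fermat.Agent.S55.GL.Ideles Fermat.Agent.S55.GL.IdeleInvHerbrand

local notation "Qbar" => AlgebraicClosure ℚ

variable (L : IntermediateField ℚ Qbar) [NumberField L] [Normal ℚ L] [IsGalois ℚ L]
  (T : Finset Nat.Primes) (H : Subgroup (L ≃ₐ[ℚ] L)) (N : Subgroup H) [N.Normal]

/-- `H¹(H/N, E_{L,T}^N) = 0` from `H¹(H, E_{L,T}) = 0` (inflation is injective on `H¹`). -/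
theorem isZero_H1_layer_E
    (hH1 : Limits.IsZero (groupCohomology (Rep.res H.subtype (E L T)) 1)) :
    Limits.IsZero (groupCohomology (layerSC (seq L T) H N).X₁ 1) := by
  have h : Limits.IsZero (H1InfRes (Rep.res H.subtype (seq L T).X₁) N).X₂ := hH1
  have hm : Mono (H1InfRes (Rep.res H.subtype (seq L T).X₁) N).f := inferInstance
  exact @Limits.IsZero.of_mono _ _ _ _ _ (H1InfRes (Rep.res H.subtype (seq L T).X₁) N).f hm h

/-- **The cohomological half of the comparison `NormIndexDvd`**: for a cyclic layer `N ◁ H` of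
index `n` with generator `h`, `T ≠ ∅`, `H¹(N, E_{L,T}) = 0 = H¹(H, E_{L,T})`: if
`j : X → J_{L,T}^N` identifies a group `X` with `(J^N)^{H/N}`, `P ≤ X` with `E^N ∩ (J^N)^{H/N}`
and `j(𝒩) ⊆ N_{H/N}(J^N)`, then `h⁰(H/N, C_{L,T}^N) ∣ [X : P 𝒩]`. -/
theorem layer_hIdx_dvd_index (hT : T.Nonempty) (h : H) {n : ℕ} (hn0 : 0 < n)
    (hidx : N.index = n) (hn : ∀ i : ℕ, h ^ i ∈ N ↔ n ∣ i)
    (hN1 : Limits.IsZero (groupCohomology
      (Rep.res N.subtype (Rep.res H.subtype (seq L T).X₁)) 1))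
    (hH1 : Limits.IsZero (groupCohomology (Rep.res H.subtype (E L T)) 1))
    {X : Type*} [CommGroup X] (j : Additive X →+ (layerSC (seq L T) H N).X₂)
    (hj : Function.Injective j)
    (hjI : j.range = (dlt (sigma (layerSC (seq L T) H N).X₂ (QuotientGroup.mk h))).ker)
    (P 𝒩 : Subgroup X)
    (hP : P.toAddSubgroup.map j =
      ((layerSC (seq L T) H N).f.hom.toLinearMap.toAddMonoidHom).range ⊓
        (dlt (sigma (layerSC (seq L T) H N).X₂ (QuotientGroup.mk h))).ker)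
    (hN : 𝒩.toAddSubgroup.map j ≤
      (nrm (sigma (layerSC (seq L T) H N).X₂ (QuotientGroup.mk h)) n).range) :
    hIdx (dlt (sigma (layerSC (seq L T) H N).X₃ (QuotientGroup.mk h)))
      (nrm (sigma (layerSC (seq L T) H N).X₃ (QuotientGroup.mk h)) n) ∣ (P ⊔ 𝒩).index := by
  have hY : (layerSC (seq L T) H N).ShortExact :=
    layerSC_shortExact H N (seq_shortExact L T hT) hN1
  have hfin : Finite (H ⧸ N) := by
    apply Nat.finite_of_card_ne_zero
    rw [← Subgroup.index_eq_card, hidx]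
    exact hn0.ne'
  let _ : Fintype (H ⧸ N) := Fintype.ofFinite _
  have hcard : Fintype.card (H ⧸ N) = n := by
    rw [Fintype.card_eq_nat_card, ← Subgroup.index_eq_card, hidx]
  have hg := IdeleLayerHE.mk_generates_of_index N h hn0 hidx hn
  have key := hIdx_dvd_index_of_shortExact (layerSC (seq L T) H N) hY (QuotientGroup.mk h) hg
    (isZero_H1_layer_E L T H N hH1) j hj hjI P 𝒩 hP (by rw [hcard]; exact hN)
  rw [hcard] at key
  exact key

/-! ### Elementwise descriptions of `J_{L,T}^N = (layerSC (seq L T) H N).X₂` -/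

/-- The idèle underlying an element of `J^N`. -/
def ideleOf (x : (layerSC (seq L T) H N).X₂) : Idele L T := Additive.toMul (α := Idele L T) x.1

/-- (b) An `N`-invariant idèle as an element of `J^N`. -/
def mkX₂ (f : Idele L T) (hf : ∀ ν : H, ν ∈ N → ((ν : H) : L ≃ₐ[ℚ] L) • f = f) :
    (layerSC (seq L T) H N).X₂ :=
  ⟨Additive.ofMul (α := Idele L T) f, by
    rintro ⟨ν, hν⟩
    exact congrArg (Additive.ofMul (α := Idele L T)) (hf ν hν)⟩

@[simp] lemma ideleOf_mkX₂ (f : Idele L T)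
    (hf : ∀ ν : H, ν ∈ N → ((ν : H) : L ≃ₐ[ℚ] L) • f = f) :
    ideleOf L T H N (mkX₂ L T H N f hf) = f := rfl

lemma mkX₂_val (f : Idele L T) (hf : ∀ ν : H, ν ∈ N → ((ν : H) : L ≃ₐ[ℚ] L) • f = f) :
    (mkX₂ L T H N f hf).1 = Additive.ofMul (α := Idele L T) f := rfl

lemma ideleOf_injective : Function.Injective (ideleOf L T H N) := by
  intro x y hxy
  apply Subtype.ext
  exact hxy

lemma ideleOf_add (x y : (layerSC (seq L T) H N).X₂) :
    ideleOf L T H N (x + y) = ideleOf L T H N x * ideleOf L T H N y := rfl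

lemma ideleOf_zero : ideleOf L T H N 0 = 1 := rfl

lemma mkX₂_mul (f f' : Idele L T) (hf : ∀ ν : H, ν ∈ N → ((ν : H) : L ≃ₐ[ℚ] L) • f = f)
    (hf' : ∀ ν : H, ν ∈ N → ((ν : H) : L ≃ₐ[ℚ] L) • f' = f') :
    mkX₂ L T H N (f * f') (fun ν hν => by rw [smul_mul', hf ν hν, hf' ν hν]) =
      mkX₂ L T H N f hf + mkX₂ L T H N f' hf' := rfl

lemma smul_ideleOf (x : (layerSC (seq L T) H N).X₂) (ν : H) (hν : ν ∈ N) :
    ((ν : H) : L ≃ₐ[ℚ] L) • ideleOf L T H N x = ideleOf L T H N x := by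
  have h1 := x.2 ⟨ν, hν⟩
  exact congrArg (Additive.toMul (α := Idele L T)) h1

lemma ideleOf_sigma (h : H) (x : (layerSC (seq L T) H N).X₂) :
    ideleOf L T H N (sigma (layerSC (seq L T) H N).X₂ (QuotientGroup.mk h) x) =
      (h : L ≃ₐ[ℚ] L) • ideleOf L T H N x := rfl

lemma ideleOf_rho (h : H) (x : (layerSC (seq L T) H N).X₂) :
    ideleOf L T H N ((layerSC (seq L T) H N).X₂.ρ (QuotientGroup.mk h) x) =
      (h : L ≃ₐ[ℚ] L) • ideleOf L T H N x := rfl

lemma ideleOf_sigma_pow (h : H) (i : ℕ) (x : (layerSC (seq L T) H N).X₂) :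
    ideleOf L T H N ((sigma (layerSC (seq L T) H N).X₂ (QuotientGroup.mk h) ^ i) x) =
      (h : L ≃ₐ[ℚ] L) ^ i • ideleOf L T H N x := by
  have h1 : (sigma (layerSC (seq L T) H N).X₂ (QuotientGroup.mk h) ^ i) x =
      (layerSC (seq L T) H N).X₂.ρ (QuotientGroup.mk (h ^ i)) x :=
    sigma_pow_apply (layerSC (seq L T) H N).X₂ (QuotientGroup.mk h) i x
  have h2 : ideleOf L T H N ((layerSC (seq L T) H N).X₂.ρ (QuotientGroup.mk (h ^ i)) x) =
      ((h ^ i : H) : L ≃ₐ[ℚ] L) • ideleOf L T H N x := ideleOf_rho L T H N (h ^ i) x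
  have h3 : ((h ^ i : H) : L ≃ₐ[ℚ] L) = (h : L ≃ₐ[ℚ] L) ^ i := Subgroup.coe_pow H h i
  exact (congrArg (ideleOf L T H N) h1).trans (h2.trans (congrArg (· • ideleOf L T H N x) h3))

/-- (d) The norm of `J^N` on underlying idèles. -/
theorem ideleOf_nrm (h : H) (n : ℕ) (x : (layerSC (seq L T) H N).X₂) :
    ideleOf L T H N (nrm (sigma (layerSC (seq L T) H N).X₂ (QuotientGroup.mk h)) n x) =
      ∏ i ∈ Finset.range n, (h : L ≃ₐ[ℚ] L) ^ i • ideleOf L T H N x := by
  have h0 : nrm (sigma (layerSC (seq L T) H N).X₂ (QuotientGroup.mk h)) n x =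
      ∑ i ∈ Finset.range n, (sigma (layerSC (seq L T) H N).X₂ (QuotientGroup.mk h) ^ i) x :=
    nrm_apply _ n x
  have h1 : ∀ (s : Finset ℕ) (F : ℕ → (layerSC (seq L T) H N).X₂),
      ideleOf L T H N (∑ i ∈ s, F i) = ∏ i ∈ s, ideleOf L T H N (F i) := by
    intro s F
    induction s using Finset.cons_induction with
    | empty => rfl
    | cons a s ha ih =>
      rw [Finset.sum_cons, Finset.prod_cons, ← ih]
      rfl
  rw [h0, h1]
  exact Finset.prod_congr rfl fun i _ => ideleOf_sigma_pow L T H N h i x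

/-- (a) The `H/N`-invariants of `J^N` are the `H`-invariant idèles. -/
theorem mem_ker_dlt_iff (h : H)
    (hgen : ∀ y : H ⧸ N, y ∈ Subgroup.zpowers (QuotientGroup.mk h : H ⧸ N))
    (x : (layerSC (seq L T) H N).X₂) :
    x ∈ (dlt (sigma (layerSC (seq L T) H N).X₂ (QuotientGroup.mk h))).ker ↔
      ∀ g : L ≃ₐ[ℚ] L, g ∈ H → g • ideleOf L T H N x = ideleOf L T H N x := by
  rw [AddMonoidHom.mem_ker, dlt_apply, sub_eq_zero]
  constructor
  · intro hx g hg
    have hh : (h : L ≃ₐ[ℚ] L) ∈ MulAction.stabilizer (L ≃ₐ[ℚ] L) (ideleOf L T H N x) := by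
      rw [MulAction.mem_stabilizer_iff, ← ideleOf_sigma]
      exact congrArg (ideleOf L T H N) hx
    obtain ⟨k, hk⟩ := Subgroup.mem_zpowers_iff.mp (hgen (QuotientGroup.mk ⟨g, hg⟩))
    rw [← QuotientGroup.mk_zpow, QuotientGroup.eq] at hk
    have hν : (((h ^ k)⁻¹ * ⟨g, hg⟩ : H) : L ≃ₐ[ℚ] L) ∈
        MulAction.stabilizer (L ≃ₐ[ℚ] L) (ideleOf L T H N x) := by
      rw [MulAction.mem_stabilizer_iff]
      exact smul_ideleOf L T H N x _ hk
    have hgk : g = (h : L ≃ₐ[ℚ] L) ^ k * (((h ^ k)⁻¹ * ⟨g, hg⟩ : H) : L ≃ₐ[ℚ] L) := by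
      push_cast
      group
    have h3 : g ∈ MulAction.stabilizer (L ≃ₐ[ℚ] L) (ideleOf L T H N x) := by
      rw [hgk]
      exact Subgroup.mul_mem _ (Subgroup.zpow_mem _ hh k) hν
    exact MulAction.mem_stabilizer_iff.mp h3
  · intro hx
    apply ideleOf_injective
    rw [ideleOf_sigma]
    exact hx _ h.2

/-- (c) The image of `E_{L,T}^N` in `J_{L,T}^N`: diagonal `T`-units fixed by `N`. -/
theorem mem_range_f_iff (x : (layerSC (seq L T) H N).X₂) :
    x ∈ ((layerSC (seq L T) H N).f.hom.toLinearMap.toAddMonoidHom).range ↔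
      ∃ u : (↥L)ˣ, u ∈ tUnits L T ∧ (∀ ν : H, ν ∈ N → ((ν : H) : L ≃ₐ[ℚ] L) • u = u) ∧
        ideleOf L T H N x = diag L T u := by
  constructor
  · rintro ⟨e, rfl⟩
    refine ⟨Additive.toMul ((e.1).1 : Additive (↥L)ˣ), (e.1).2, fun ν hν => ?_, rfl⟩
    have h1 := e.2 ⟨ν, hν⟩
    exact congrArg (fun z : (E L T).V => (Additive.toMul (z.1 : Additive (↥L)ˣ) : (↥L)ˣ)) h1
  · rintro ⟨u, hu, hinv, hx⟩
    refine ⟨⟨⟨Additive.ofMul u, hu⟩, ?_⟩, ?_⟩
    · rintro ⟨ν, hν⟩
      apply Subtype.ext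
      exact congrArg Additive.ofMul (hinv ν hν)
    · apply ideleOf_injective
      refine Eq.trans ?_ hx.symm
      rfl

/-- (a) with the generator hypothesis in the form of `first_inequality_layer`. -/
theorem mem_ker_dlt_iff' (h : H) {n : ℕ} (hn0 : 0 < n) (hidx : N.index = n)
    (hn : ∀ i : ℕ, h ^ i ∈ N ↔ n ∣ i) (x : (layerSC (seq L T) H N).X₂) :
    x ∈ (dlt (sigma (layerSC (seq L T) H N).X₂ (QuotientGroup.mk h))).ker ↔
      ∀ g : L ≃ₐ[ℚ] L, g ∈ H → g • ideleOf L T H N x = ideleOf L T H N x :=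
  mem_ker_dlt_iff L T H N h (IdeleLayerHE.mk_generates_of_index N h hn0 hidx hn) x

/-- `layer_hIdx_dvd_index` with the hypothesis `H¹(N', E_{L,T}) = 0` for all `N'` (the shape of
`SecondIneqFinal.HdvdHyp`). -/
theorem layer_hIdx_dvd_index' (hT : T.Nonempty) (h : H) {n : ℕ} (hn0 : 0 < n)
    (hidx : N.index = n) (hn : ∀ i : ℕ, h ^ i ∈ N ↔ n ∣ i)
    (hall : ∀ N' : Subgroup (L ≃ₐ[ℚ] L),
      Limits.IsZero (groupCohomology (Rep.res N'.subtype (E L T)) 1))
    {X : Type*} [CommGroup X] (j : Additive X →+ (layerSC (seq L T) H N).X₂)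
    (hj : Function.Injective j)
    (hjI : j.range = (dlt (sigma (layerSC (seq L T) H N).X₂ (QuotientGroup.mk h))).ker)
    (P 𝒩 : Subgroup X)
    (hP : P.toAddSubgroup.map j =
      ((layerSC (seq L T) H N).f.hom.toLinearMap.toAddMonoidHom).range ⊓
        (dlt (sigma (layerSC (seq L T) H N).X₂ (QuotientGroup.mk h))).ker)
    (hN : 𝒩.toAddSubgroup.map j ≤
      (nrm (sigma (layerSC (seq L T) H N).X₂ (QuotientGroup.mk h)) n).range) :
    hIdx (dlt (sigma (layerSC (seq L T) H N).X₃ (QuotientGroup.mk h)))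
      (nrm (sigma (layerSC (seq L T) H N).X₃ (QuotientGroup.mk h)) n) ∣ (P ⊔ 𝒩).index :=
  layer_hIdx_dvd_index L T H N hT h hn0 hidx hn (CFIdele.isZero_H1_res_res_E L hall H N)
    (hall H) j hj hjI P 𝒩 hP hN

end Layer

end Fermat.Agent.S55.GL.LayerQuotIndex
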