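/-
S55 / GLO8 (helper7): finitely many primes ramify, inertia form.

For a finite Galois extension `L/ℚ` (a number field): a prime `w` of `𝓞 L` which does not divide the
different `𝔇_{L/ℚ}` has trivial inertia group in `Gal(L/ℚ)`; hence there is a finite set `T₁` of
rational primes such that every prime of `𝓞 L` not above `T₁` has trivial inertia group
(`exists_finset_inertia_eq_bot`; `exists_finset_primesOver_inertia_eq_bot` for subfields of `ℚ̄`, in
the exact shape of the hypothesis `hunr` of `CFIdele.exists_finset_isZero_H1_E`).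
-/
import Mathlib
import Fermat.Agent.S55.GL.PlacesPrimeUnits

set_option autoImplicit false

open NumberField IsDedekindDomain

namespace Fermat.Agent.S55.GL.FiniteRam

section Abstract

variable (L : Type*) [Field L] [NumberField L] [IsGalois ℚ L]

/-- A prime of `𝓞 L` not dividing the different has trivial inertia group. -/
theorem inertia_eq_bot_of_not_dvd_different (w : HeightOneSpectrum (𝓞 L))
    (hw : ¬ w.asIdeal ∣ differentIdeal ℤ (𝓞 L)) :
    w.asIdeal.inertia (L ≃ₐ[ℚ] L) = ⊥ := by
  have hunr : Algebra.IsUnramifiedAt ℤ w.asIdeal := not_dvd_differentIdeal_iff.mp hw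
  have he : w.asIdeal.ramificationIdx ℤ = 1 := Ideal.ramificationIdx_eq_one_of_isUnramifiedAt
  have hlo : w.asIdeal.LiesOver (w.asIdeal.under ℤ) := ⟨rfl⟩
  have hp : (w.asIdeal.under ℤ).IsPrime := Ideal.IsPrime.under ℤ w.asIdeal
  have h1 := Ideal.card_inertia_eq_ramificationIdxIn (G := (L ≃ₐ[ℚ] L)) (w.asIdeal.under ℤ)
    w.asIdeal
  rw [Ideal.ramificationIdxIn_eq_ramificationIdx (w.asIdeal.under ℤ) w.asIdeal (L ≃ₐ[ℚ] L),
    he] at h1
  exact Subgroup.eq_bot_of_card_eq _ h1

open scoped Classical in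
/-- **Finitely many primes ramify, inertia form**: there is a finite set `T₁` of rational primes
such that every prime of `𝓞 L` containing no prime of `T₁` has trivial inertia group. -/
theorem exists_finset_inertia_eq_bot :
    ∃ T₁ : Finset Nat.Primes, ∀ w : HeightOneSpectrum (𝓞 L),
      (∀ q ∈ T₁, ((q : ℕ) : 𝓞 L) ∉ w.asIdeal) → w.asIdeal.inertia (L ≃ₐ[ℚ] L) = ⊥ := by
  have hfin : {w : HeightOneSpectrum (𝓞 L) | w.asIdeal ∣ differentIdeal ℤ (𝓞 L)}.Finite :=
    Ideal.finite_factors differentIdeal_ne_bot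
  choose r hr using fun w : HeightOneSpectrum (𝓞 L) => PlacesUnits.exists_natCast_mem w
  refine ⟨hfin.toFinset.image r, fun w hw => ?_⟩
  refine inertia_eq_bot_of_not_dvd_different L w fun hdvd => ?_
  exact hw (r w) (Finset.mem_image.mpr ⟨w, hfin.mem_toFinset.mpr hdvd, rfl⟩) (hr w)

end Abstract

section InQbar

local notation "Qbar" => AlgebraicClosure ℚ

variable (L : IntermediateField ℚ Qbar) [NumberField L] [IsGalois ℚ L]

/-- The same for subfields of `ℚ̄`, in terms of `PlacesUnits.primesOver`: the hypothesis `hunr` of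
`CFIdele.exists_finset_isZero_H1_E`. -/
theorem exists_finset_primesOver_inertia_eq_bot :
    ∃ T₁ : Finset Nat.Primes, ∀ w : HeightOneSpectrum (𝓞 L),
      w ∉ PlacesUnits.primesOver L T₁ → w.asIdeal.inertia (L ≃ₐ[ℚ] L) = ⊥ := by
  obtain ⟨T₁, hT₁⟩ := exists_finset_inertia_eq_bot L
  refine ⟨T₁, fun w hw => hT₁ w fun q hq hmem => hw ?_⟩
  exact PlacesUnits.mem_primesOver.mpr ⟨q, hq, hmem⟩

end InQbar

end Fermat.Agent.S55.GL.FiniteRam
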