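/-
S55 / GLO8 = CF1 (helper7), final assembly for the idèle class modules `C_{L,T}`.

* `layerHyp_res_of_le` : relative form of `LayerHyp`: it suffices to treat the layers `N ◁ H` with
  `H ≤ G₀` (subgroups of the ambient group `G`) to get `LayerHyp p (res G₀.subtype A)`.
* `layerHyp_of_herbrand_le` : relative form of `CF1.layerHyp_of_herbrand`.
* `layerHyp_C_of` : for `L/ℚ` finite Galois inside `ℚ̄`, `G₀ ≤ Gal(L/ℚ)`, `T` a non-empty finite
  set of rational primes: `LayerHyp p (res G₀ (C L T))` from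
  - `H¹(N, E_{L,T}) = 0` for all `N` (`CFIdele.exists_finset_isZero_H1_E`),
  - the idèle part (unconditional, helper29's `LocalCyclic.hIdx_layer_J_localField`),
  - the unit part `hE` (helper11) and the second inequality `hle` (GLO7) for the layers below `G₀`.
-/
import Mathlib
import Fermat.Agent.S55.GL.CFIdele
import Fermat.Agent.S55.GL.LocalCyclic
import Fermat.Agent.S55.GL.FiniteRam
import Fermat.Agent.S55.GL.IdeleLayerHE

set_option autoImplicit false

universe u

open CategoryTheory groupCohomology Rep Fermat.Agent.S14.Herbrand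
  Fermat.Agent.S55.GC.HerbrandBridge Fermat.Agent.S55.GC

namespace Fermat.Agent.S55.GL.CFFinal

open Fermat.Agent.S55.GL.CF1

section Abstract

variable {k : Type u} [CommRing k] {G : Type u} [Group G]

/-- **Relative form of `LayerHyp`**: to get `LayerHyp p (res G₀.subtype A)` it suffices to treat
the layers `N ◁ H` for the subgroups `H ≤ G₀` of the ambient group. -/
theorem layerHyp_res_of_le (p : ℕ) (A : Rep.{u} k G) (G₀ : Subgroup G)
    (h : ∀ (H : Subgroup G), H ≤ G₀ → ∀ (N : Subgroup H) [N.Normal], N.index = p →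
      Limits.IsZero (groupCohomology ((res H.subtype A).quotientToInvariants N) 1) ∧
      Nat.card (groupCohomology ((res H.subtype A).quotientToInvariants N) 2) ∣ p) :
    LayerHyp p (res G₀.subtype A) := by
  intro H' N' _ hN'
  set φ : H' →* G := G₀.subtype.comp H'.subtype with hφdef
  have hφ : Function.Injective φ :=
    G₀.subtype_injective.comp H'.subtype_injective
  have hle : φ.range ≤ G₀ := by
    rintro _ ⟨x, rfl⟩
    exact (x : G₀).2
  obtain ⟨h1, h2⟩ := h φ.range hle (imgSub φ N') ((index_imgSub φ hφ N').trans hN')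
  have e2 := (layerIso φ hφ A N' 2).toLinearEquiv
  refine ⟨h1.of_iso (layerIso φ hφ A N' 1), ?_⟩
  have : Nat.card (groupCohomology ((res H'.subtype (res G₀.subtype A)).quotientToInvariants N') 2)
      = Nat.card (groupCohomology
        ((res φ.range.subtype A).quotientToInvariants (imgSub φ N')) 2) :=
    Nat.card_congr e2.toEquiv
  rw [this]
  exact h2

/-- **Relative form of `layerHyp_of_herbrand`**: Herbrand data on the layers `N ◁ H`, `H ≤ G₀`,
give `LayerHyp p (res G₀.subtype X.X₃)`. -/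
theorem layerHyp_of_herbrand_le (X : ShortComplex (Rep.{u} k G)) (hX : X.ShortExact) (p : ℕ)
    (hp : p ≠ 0) (G₀ : Subgroup G)
    (h : ∀ (H : Subgroup G), H ≤ G₀ → ∀ (N : Subgroup H) [N.Normal], N.index = p →
      Limits.IsZero (groupCohomology (res N.subtype (res H.subtype X.X₁)) 1) ∧
      ∃ (g : H ⧸ N) (a : ℕ), (∀ x, x ∈ Subgroup.zpowers g) ∧ a ≠ 0 ∧
        hIdx (dlt (sigma (layerSC X H N).X₂ g)) (nrm (sigma (layerSC X H N).X₂ g) p) = a ∧
        hIdx (nrm (sigma (layerSC X H N).X₂ g) p) (dlt (sigma (layerSC X H N).X₂ g)) = 1 ∧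
        hIdx (nrm (sigma (layerSC X H N).X₁ g) p) (dlt (sigma (layerSC X H N).X₁ g)) * a =
          p * hIdx (dlt (sigma (layerSC X H N).X₁ g)) (nrm (sigma (layerSC X H N).X₁ g) p) ∧
        hIdx (dlt (sigma (layerSC X H N).X₁ g)) (nrm (sigma (layerSC X H N).X₁ g) p) ≠ 0 ∧
        hIdx (dlt (sigma (layerSC X H N).X₃ g)) (nrm (sigma (layerSC X H N).X₃ g) p) ≤ p) :
    LayerHyp p (res G₀.subtype X.X₃) := by
  refine layerHyp_res_of_le p X.X₃ G₀ fun H hH N _ hN => ?_
  obtain ⟨h1, g, a, hg, ha, hJ0, hJ1, hE, hE0, hle⟩ := h H hH N hN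
  clear h
  have hfin : Finite (H ⧸ N) := by
    apply Nat.finite_of_card_ne_zero
    rw [← Subgroup.index_eq_card, hN]
    exact hp
  let _ : Fintype (H ⧸ N) := Fintype.ofFinite _
  have hcard : Fintype.card (H ⧸ N) = p := by
    rw [← Nat.card_eq_fintype_card, ← Subgroup.index_eq_card, hN]
  subst hcard
  exact layer_of_shortExact (layerSC X H N) (layerSC_shortExact H N hX h1) g hg hJ0 hJ1 ha hE hE0
    hle

end Abstract

section Generator

/-- In a layer `N ◁ H` of prime index `p`, every `h ∉ N` generates `H ⧸ N`, and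
`h ^ i ∈ N ↔ p ∣ i`. -/
theorem gen_of_index_prime {H : Type*} [Group H] (N : Subgroup H) [N.Normal] {p : ℕ}
    [hp : Fact p.Prime] (hN : N.index = p) {h : H} (hh : h ∉ N) :
    (∀ i : ℕ, h ^ i ∈ N ↔ p ∣ i) ∧
      ∀ x : H ⧸ N, x ∈ Subgroup.zpowers (QuotientGroup.mk h : H ⧸ N) := by
  have hcard : Nat.card (H ⧸ N) = p := by rw [← Subgroup.index_eq_card, hN]
  have hne : (QuotientGroup.mk h : H ⧸ N) ≠ 1 := fun h1 =>
    hh ((QuotientGroup.eq_one_iff h).1 h1)
  have hord : orderOf (QuotientGroup.mk h : H ⧸ N) = p := by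
    have hfin : Finite (H ⧸ N) := Nat.finite_of_card_ne_zero (by rw [hcard]; exact hp.out.ne_zero)
    have hdvd : orderOf (QuotientGroup.mk h : H ⧸ N) ∣ p := hcard ▸ orderOf_dvd_natCard _
    rcases (Nat.dvd_prime hp.out).1 hdvd with h1 | h1
    · exact absurd (orderOf_eq_one_iff.1 h1) hne
    · exact h1
  refine ⟨fun i => ?_, fun x => ?_⟩
  · rw [← hord, orderOf_dvd_iff_pow_eq_one, ← QuotientGroup.mk_pow, QuotientGroup.eq_one_iff]
  · rw [zpowers_eq_top_of_prime_card hcard hne]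
    exact Subgroup.mem_top x

theorem exists_not_mem_of_index_prime {H : Type*} [Group H] (N : Subgroup H) {p : ℕ}
    [hp : Fact p.Prime] (hN : N.index = p) : ∃ h : H, h ∉ N := by
  by_contra hcon
  have : N = ⊤ := (Subgroup.eq_top_iff' N).2 fun x => by
    by_contra hx
    exact hcon ⟨x, hx⟩
  rw [this, Subgroup.index_top] at hN
  exact hp.out.one_lt.ne hN

end Generator

section Concrete

open IntermediateField Fermat.Agent.S55.GL.Ideles Fermat.Agent.S55.GL.IdeleInvHerbrand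
  Fermat.Agent.S55.GL.LocalCyclic

local notation "Qbar" => AlgebraicClosure ℚ

variable (L : IntermediateField ℚ Qbar) [NumberField L] [Normal ℚ L] [IsGalois ℚ L]

/-- **GLO8, assembly**: `LayerHyp p (res G₀ (C_{L,T}))` from `H¹(N, E_{L,T}) = 0` for all `N`,
the unit part `hE` of the first inequality and the second inequality `hle`, for the layers `N ◁ H`
of index `p` with `H ≤ G₀`; the idèle part is helper29's unconditional
`hIdx_layer_J_localField`. -/
theorem layerHyp_C_of (p : ℕ) [hp : Fact p.Prime] (G₀ : Subgroup (L ≃ₐ[ℚ] L))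
    (T : Finset Nat.Primes) (hT : T.Nonempty)
    (h1 : ∀ N : Subgroup (L ≃ₐ[ℚ] L),
      Limits.IsZero (groupCohomology (Rep.res N.subtype (E L T)) 1))
    (hE : ∀ (H : Subgroup (L ≃ₐ[ℚ] L)), H ≤ G₀ → ∀ (N : Subgroup H) [N.Normal], N.index = p →
      ∀ h : H, h ∉ N →
        hIdx (nrm (sigma (layerSC (seq L T) H N).X₁ (QuotientGroup.mk h)) p)
            (dlt (sigma (layerSC (seq L T) H N).X₁ (QuotientGroup.mk h))) *
            layerIndex L T H N h p =
          p * hIdx (dlt (sigma (layerSC (seq L T) H N).X₁ (QuotientGroup.mk h)))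
            (nrm (sigma (layerSC (seq L T) H N).X₁ (QuotientGroup.mk h)) p) ∧
        hIdx (dlt (sigma (layerSC (seq L T) H N).X₁ (QuotientGroup.mk h)))
            (nrm (sigma (layerSC (seq L T) H N).X₁ (QuotientGroup.mk h)) p) ≠ 0)
    (hle : ∀ (H : Subgroup (L ≃ₐ[ℚ] L)), H ≤ G₀ → ∀ (N : Subgroup H) [N.Normal], N.index = p →
      ∀ h : H, h ∉ N →
        hIdx (dlt (sigma (layerSC (seq L T) H N).X₃ (QuotientGroup.mk h)))
            (nrm (sigma (layerSC (seq L T) H N).X₃ (QuotientGroup.mk h)) p) ≤ p) :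
    LayerHyp p (Rep.res G₀.subtype (C L T)) := by
  refine layerHyp_of_herbrand_le (seq L T) (seq_shortExact L T hT) p hp.out.ne_zero G₀
    fun H hH N _ hN => (exists_not_mem_of_index_prime N hN).elim fun h hh =>
      ⟨CFIdele.isZero_H1_res_res_E L h1 H N, QuotientGroup.mk h, layerIndex L T H N h p,
        (gen_of_index_prime N hN hh).2,
        (hIdx_layer_J_localField L T H N h hp.out.pos (gen_of_index_prime N hN hh).1).2.2,
        (hIdx_layer_J_localField L T H N h hp.out.pos (gen_of_index_prime N hN hh).1).1,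
        (hIdx_layer_J_localField L T H N h hp.out.pos (gen_of_index_prime N hN hh).1).2.1,
        (hE H hH N hN h hh).1, (hE H hH N hN h hh).2, hle H hH N hN h hh⟩

/-- The unit part of the first inequality for all layers below `G₀` (helper11's statement, shape
of `layerHyp_of_herbrand.hE`, `hE0`). -/
def UnitHyp (p : ℕ) (G₀ : Subgroup (L ≃ₐ[ℚ] L)) (T : Finset Nat.Primes) : Prop :=
  ∀ (H : Subgroup (L ≃ₐ[ℚ] L)), H ≤ G₀ → ∀ (N : Subgroup H) [N.Normal], N.index = p →
    ∀ h : H, h ∉ N →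
      hIdx (nrm (sigma (layerSC (seq L T) H N).X₁ (QuotientGroup.mk h)) p)
          (dlt (sigma (layerSC (seq L T) H N).X₁ (QuotientGroup.mk h))) *
          layerIndex L T H N h p =
        p * hIdx (dlt (sigma (layerSC (seq L T) H N).X₁ (QuotientGroup.mk h)))
          (nrm (sigma (layerSC (seq L T) H N).X₁ (QuotientGroup.mk h)) p) ∧
      hIdx (dlt (sigma (layerSC (seq L T) H N).X₁ (QuotientGroup.mk h)))
          (nrm (sigma (layerSC (seq L T) H N).X₁ (QuotientGroup.mk h)) p) ≠ 0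

/-- The second inequality for all layers below `G₀` (GLO7, shape of
`layerHyp_of_herbrand.hle`). -/
def SecondIneqHyp (p : ℕ) (G₀ : Subgroup (L ≃ₐ[ℚ] L)) (T : Finset Nat.Primes) : Prop :=
  ∀ (H : Subgroup (L ≃ₐ[ℚ] L)), H ≤ G₀ → ∀ (N : Subgroup H) [N.Normal], N.index = p →
    ∀ h : H, h ∉ N →
      hIdx (dlt (sigma (layerSC (seq L T) H N).X₃ (QuotientGroup.mk h)))
          (nrm (sigma (layerSC (seq L T) H N).X₃ (QuotientGroup.mk h)) p) ≤ p

/-- The unit part holds for every odd `p`, every `G₀` and every `T` (helper11's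
`IdeleLayerHE.layerE_hE`). -/
theorem unitHyp_of_odd (p : ℕ) [hp : Fact p.Prime] (hp2 : p ≠ 2) (G₀ : Subgroup (L ≃ₐ[ℚ] L))
    (T : Finset Nat.Primes) : UnitHyp L p G₀ T := fun H _ N _ hN h hh =>
  ⟨(IdeleLayerHE.layerE_hE L T H N h hN (gen_of_index_prime N hN hh).1
      (hp.out.odd_of_ne_two hp2)).1,
    (IdeleLayerHE.layerE_hE L T H N h hN (gen_of_index_prime N hN hh).1
      (hp.out.odd_of_ne_two hp2)).2.1⟩

/-- **GLO8-FINAL, conditional on the unit part and the second inequality for `T` large**: there is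
a finite set `T₀ ⊇ T₁` of rational primes such that for all `T ⊇ T₀` the idèle class module
`C_{L,T}` satisfies the cyclic layer hypothesis at `p` over `G₀`.  (No ramification hypothesis:
finitely many primes ramify, `FiniteRam`.) -/
theorem exists_finset_layerHyp_C (p : ℕ) [hp : Fact p.Prime] (G₀ : Subgroup (L ≃ₐ[ℚ] L))
    (T₁ : Finset Nat.Primes)
    (hE : ∃ T₂ : Finset Nat.Primes, ∀ T : Finset Nat.Primes, T₂ ⊆ T → UnitHyp L p G₀ T)
    (hle : ∃ T₃ : Finset Nat.Primes, ∀ T : Finset Nat.Primes, T₃ ⊆ T → SecondIneqHyp L p G₀ T) :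
    ∃ T₀ : Finset Nat.Primes, T₁ ⊆ T₀ ∧ ∀ T : Finset Nat.Primes, T₀ ⊆ T →
      T.Nonempty ∧ LayerHyp p (Rep.res G₀.subtype (C L T)) := by
  classical
  obtain ⟨T₂, hT₂⟩ := hE
  obtain ⟨T₃, hT₃⟩ := hle
  obtain ⟨Tr, hTr⟩ := FiniteRam.exists_finset_primesOver_inertia_eq_bot L
  obtain ⟨T₄, hT₄sub, hT₄⟩ := CFIdele.exists_finset_isZero_H1_E L Tr hTr
  refine ⟨T₁ ∪ T₂ ∪ T₃ ∪ T₄ ∪ {(⟨2, Nat.prime_two⟩ : Nat.Primes)}, ?_, fun T hT => ?_⟩
  · exact fun q hq => Finset.mem_union_left _ (Finset.mem_union_left _ (Finset.mem_union_left _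
      (Finset.mem_union_left _ hq)))
  have h2 : T₂ ⊆ T := fun q hq => hT (Finset.mem_union_left _ (Finset.mem_union_left _
    (Finset.mem_union_left _ (Finset.mem_union_right _ hq))))
  have h3 : T₃ ⊆ T := fun q hq => hT (Finset.mem_union_left _ (Finset.mem_union_left _
    (Finset.mem_union_right _ hq)))
  have h4 : T₄ ⊆ T := fun q hq => hT (Finset.mem_union_left _ (Finset.mem_union_right _ hq))
  have hne : T.Nonempty := ⟨(⟨2, Nat.prime_two⟩ : Nat.Primes),
    hT (Finset.mem_union_right _ (Finset.mem_singleton_self _))⟩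
  exact ⟨hne, layerHyp_C_of L p G₀ T hne (hT₄ T h4) (hT₂ T h2) (hT₃ T h3)⟩

/-- **CF1 for `p`-subgroups of `G₀`** (consumer form, input of GLO11 (EX)): for `T` large and
every `p`-subgroup `H ≤ G₀`: `H¹(H, C_{L,T}) = 0` and `H²(H, C_{L,T})` is finite of order dividing
`|H|`. -/
theorem exists_finset_pgroup_C (p : ℕ) [hp : Fact p.Prime] (G₀ : Subgroup (L ≃ₐ[ℚ] L))
    (T₁ : Finset Nat.Primes)
    (hE : ∃ T₂ : Finset Nat.Primes, ∀ T : Finset Nat.Primes, T₂ ⊆ T → UnitHyp L p G₀ T)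
    (hle : ∃ T₃ : Finset Nat.Primes, ∀ T : Finset Nat.Primes, T₃ ⊆ T → SecondIneqHyp L p G₀ T) :
    ∃ T₀ : Finset Nat.Primes, T₁ ⊆ T₀ ∧ ∀ T : Finset Nat.Primes, T₀ ⊆ T →
      T.Nonempty ∧ ∀ (H : Subgroup (L ≃ₐ[ℚ] L)), H ≤ G₀ → ∀ n : ℕ, Nat.card H = p ^ n →
        Limits.IsZero (groupCohomology (Rep.res H.subtype (C L T)) 1) ∧
        Finite (groupCohomology (Rep.res H.subtype (C L T)) 2) ∧
        Nat.card (groupCohomology (Rep.res H.subtype (C L T)) 2) ∣ Nat.card H := by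
  obtain ⟨T₀, hT₁, hT₀⟩ := exists_finset_layerHyp_C L p G₀ T₁ hE hle
  refine ⟨T₀, hT₁, fun T hT => ⟨(hT₀ T hT).1, fun H hH n hn => ?_⟩⟩
  exact pgroup_of_layerHyp p (hT₀ T hT).2 hH hn

/-- **Hasse principle for `H²(H, Lˣ)`, `p`-part, finite level** (`H ≤ G₀`), conditional on the
unit part and the second inequality for `T` large. -/
theorem hasse_units_pPrimary_of (p : ℕ) [hp : Fact p.Prime] (G₀ : Subgroup (L ≃ₐ[ℚ] L))
    (hE : ∃ T₂ : Finset Nat.Primes, ∀ T : Finset Nat.Primes, T₂ ⊆ T → UnitHyp L p G₀ T)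
    (hle : ∃ T₃ : Finset Nat.Primes, ∀ T : Finset Nat.Primes, T₃ ⊆ T → SecondIneqHyp L p G₀ T)
    (H : Subgroup (L ≃ₐ[ℚ] L)) (hH : H ≤ G₀)
    (x : groupCohomology (Rep.res H.subtype (unitsRep L)) 2)
    (hx : x ∈ CF1.pPrimary p (groupCohomology (Rep.res H.subtype (unitsRep L)) 2))
    (hloc : ∀ (T : Finset Nat.Primes) (q : T) (g : L ≃ₐ[ℚ] L),
      (groupCohomology.map (IdeleSemiLocal.decomp L T H q g).subtype
          (IdeleSemiLocal.locHom L T H q g) 2).hom
        ((groupCohomology.map (MonoidHom.id H)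
          ((Rep.resFunctor H.subtype).map (diagRep L T)) 2).hom x) = 0) :
    x = 0 := by
  obtain ⟨T₀, -, hT₀⟩ := exists_finset_layerHyp_C L p G₀ ∅ hE hle
  exact CFIdele.hasse_units_pPrimary L H p T₀
    (fun T hT => LayerHyp.of_le hp.out.ne_zero (hT₀ T hT).2 hH) x hx hloc

/-! ### `p` odd: only the second inequality is left -/

/-- **GLO8-FINAL for odd `p`**, conditional only on the second inequality for `T` large. -/
theorem exists_finset_layerHyp_C_of_odd (p : ℕ) [hp : Fact p.Prime] (hp2 : p ≠ 2)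
    (G₀ : Subgroup (L ≃ₐ[ℚ] L)) (T₁ : Finset Nat.Primes)
    (hle : ∃ T₃ : Finset Nat.Primes, ∀ T : Finset Nat.Primes, T₃ ⊆ T → SecondIneqHyp L p G₀ T) :
    ∃ T₀ : Finset Nat.Primes, T₁ ⊆ T₀ ∧ ∀ T : Finset Nat.Primes, T₀ ⊆ T →
      T.Nonempty ∧ LayerHyp p (Rep.res G₀.subtype (C L T)) :=
  exists_finset_layerHyp_C L p G₀ T₁ ⟨∅, fun T _ => unitHyp_of_odd L p hp2 G₀ T⟩ hle

/-- **CF1 for `p`-subgroups of `G₀`, `p` odd**, conditional only on the second inequality. -/
theorem exists_finset_pgroup_C_of_odd (p : ℕ) [hp : Fact p.Prime] (hp2 : p ≠ 2)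
    (G₀ : Subgroup (L ≃ₐ[ℚ] L)) (T₁ : Finset Nat.Primes)
    (hle : ∃ T₃ : Finset Nat.Primes, ∀ T : Finset Nat.Primes, T₃ ⊆ T → SecondIneqHyp L p G₀ T) :
    ∃ T₀ : Finset Nat.Primes, T₁ ⊆ T₀ ∧ ∀ T : Finset Nat.Primes, T₀ ⊆ T →
      T.Nonempty ∧ ∀ (H : Subgroup (L ≃ₐ[ℚ] L)), H ≤ G₀ → ∀ n : ℕ, Nat.card H = p ^ n →
        Limits.IsZero (groupCohomology (Rep.res H.subtype (C L T)) 1) ∧
        Finite (groupCohomology (Rep.res H.subtype (C L T)) 2) ∧
        Nat.card (groupCohomology (Rep.res H.subtype (C L T)) 2) ∣ Nat.card H :=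
  exists_finset_pgroup_C L p G₀ T₁ ⟨∅, fun T _ => unitHyp_of_odd L p hp2 G₀ T⟩ hle

end Concrete

end Fermat.Agent.S55.GL.CFFinal
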