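/-
S55 / GLO8 (helper11): the unit hypothesis `CFFinal.UnitHyp` of helper7's `GL/CFFinal.lean`,
unconditionally for `p` odd (all `T`, all `G₀`), and helper7's three final theorems with the
unit hypothesis discharged (only the second inequality `SecondIneqHyp` remains).
-/
import Mathlib
import Fermat.Agent.S55.GL.CFFinal
import Fermat.Agent.S55.GL.IdeleLayerHE

set_option autoImplicit false

namespace Fermat.Agent.S55.GL.CFFinalUnit

open CategoryTheory groupCohomology Rep IntermediateField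
open Fermat.Agent.S14.Herbrand Fermat.Agent.S55.GC.HerbrandBridge Fermat.Agent.S55.GC
open Fermat.Agent.S55.GL.CF1 Fermat.Agent.S55.GL.Ideles Fermat.Agent.S55.GL.IdeleInvHerbrand
open Fermat.Agent.S55.GL.CFFinal Fermat.Agent.S55.GL.IdeleLayerHE

local notation "Qbar" => AlgebraicClosure ℚ

variable (L : IntermediateField ℚ Qbar) [NumberField L] [Normal ℚ L] [IsGalois ℚ L]

/-- **`UnitHyp` holds for every odd prime `p`, every `G₀` and every `T`.** -/
theorem unitHyp (p : ℕ) [hp : Fact p.Prime] (hp2 : p ≠ 2) (G₀ : Subgroup (L ≃ₐ[ℚ] L))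
    (T : Finset Nat.Primes) : UnitHyp L p G₀ T := by
  intro H _ N _ hN h hh
  have hodd : Odd p := hp.out.odd_of_ne_two hp2
  have key := layerE_hE L T H N h hN (gen_of_index_prime N hN hh).1 hodd
  exact ⟨key.1, key.2.1⟩

/-- `UnitHyp` in the cofinal form consumed by `CFFinal`. -/
theorem exists_unitHyp (p : ℕ) [hp : Fact p.Prime] (hp2 : p ≠ 2) (G₀ : Subgroup (L ≃ₐ[ℚ] L)) :
    ∃ T₂ : Finset Nat.Primes, ∀ T : Finset Nat.Primes, T₂ ⊆ T → UnitHyp L p G₀ T :=
  ⟨∅, fun T _ => unitHyp L p hp2 G₀ T⟩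

/-- **GLO8-FINAL, conditional on the second inequality only** (`p` odd). -/
theorem exists_finset_layerHyp_C' (p : ℕ) [hp : Fact p.Prime] (hp2 : p ≠ 2)
    (G₀ : Subgroup (L ≃ₐ[ℚ] L)) (T₁ : Finset Nat.Primes)
    (hle : ∃ T₃ : Finset Nat.Primes, ∀ T : Finset Nat.Primes, T₃ ⊆ T → SecondIneqHyp L p G₀ T) :
    ∃ T₀ : Finset Nat.Primes, T₁ ⊆ T₀ ∧ ∀ T : Finset Nat.Primes, T₀ ⊆ T →
      T.Nonempty ∧ LayerHyp p (Rep.res G₀.subtype (C L T)) :=
  exists_finset_layerHyp_C L p G₀ T₁ (exists_unitHyp L p hp2 G₀) hle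

/-- **CF1 for `p`-subgroups of `G₀`, conditional on the second inequality only** (`p` odd). -/
theorem exists_finset_pgroup_C' (p : ℕ) [hp : Fact p.Prime] (hp2 : p ≠ 2)
    (G₀ : Subgroup (L ≃ₐ[ℚ] L)) (T₁ : Finset Nat.Primes)
    (hle : ∃ T₃ : Finset Nat.Primes, ∀ T : Finset Nat.Primes, T₃ ⊆ T → SecondIneqHyp L p G₀ T) :
    ∃ T₀ : Finset Nat.Primes, T₁ ⊆ T₀ ∧ ∀ T : Finset Nat.Primes, T₀ ⊆ T →
      T.Nonempty ∧ ∀ (H : Subgroup (L ≃ₐ[ℚ] L)), H ≤ G₀ → ∀ n : ℕ, Nat.card H = p ^ n →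
        Limits.IsZero (groupCohomology (Rep.res H.subtype (C L T)) 1) ∧
        Finite (groupCohomology (Rep.res H.subtype (C L T)) 2) ∧
        Nat.card (groupCohomology (Rep.res H.subtype (C L T)) 2) ∣ Nat.card H :=
  exists_finset_pgroup_C L p G₀ T₁ (exists_unitHyp L p hp2 G₀) hle

/-- **Hasse principle for `H²(H, Lˣ)`, `p`-part, finite level, conditional on the second
inequality only** (`p` odd). -/
theorem hasse_units_pPrimary_of' (p : ℕ) [hp : Fact p.Prime] (hp2 : p ≠ 2)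
    (G₀ : Subgroup (L ≃ₐ[ℚ] L))
    (hle : ∃ T₃ : Finset Nat.Primes, ∀ T : Finset Nat.Primes, T₃ ⊆ T → SecondIneqHyp L p G₀ T)
    (H : Subgroup (L ≃ₐ[ℚ] L)) (hH : H ≤ G₀)
    (x : groupCohomology (Rep.res H.subtype (unitsRep L)) 2)
    (hx : x ∈ CF1.pPrimary p (groupCohomology (Rep.res H.subtype (unitsRep L)) 2))
    (hloc : ∀ (T : Finset Nat.Primes) (q : T) (g : L ≃ₐ[ℚ] L),
      (groupCohomology.map (IdeleSemiLocal.decomp L T H q g).subtype
          (IdeleSemiLocal.locHom L T H q g) 2).hom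
        ((groupCohomology.map (MonoidHom.id H)
          ((Rep.resFunctor H.subtype).map (diagRep L T)) 2).hom x) = 0) :
    x = 0 :=
  hasse_units_pPrimary_of L p G₀ (exists_unitHyp L p hp2 G₀) hle H hH x hx hloc

end Fermat.Agent.S55.GL.CFFinalUnit
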