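/-
S55 / GLO6-GLO7 glue (helper29): the Kummer layer of `b ∈ K \ K^p`.

`K ⊆ ℚ̄` a number field containing a primitive `p`-th root of unity `ζ` (`p` prime), `b ∈ K`,
`β ∈ ℚ̄` with `β ^ p = b`, `L ⊆ ℚ̄` finite normal over `ℚ` containing `K` and `β`.  In
`G = Gal(L/ℚ)`:
* `fixer L K ≤ G` : the automorphisms fixing `K` pointwise (`= Gal(L/K)`), `fixedLift_fixer`:
  its fixed field (helper3's `IdelePlaces.fixedLift`) is `K`;
* `kummerChar : fixer L K →* rootsOfUnity p L`, `h ↦ h β / β`, and `kummerN := ker` (`= Gal(L/K(β))`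
  as a subgroup of `↥(fixer L K)`), a normal subgroup;
* if `b` is not a `p`-th power in `K`: `kummerN.index = p` and there is `h` with
  `h ^ i ∈ kummerN ↔ p ∣ i` (`exists_generator`);
* `fixedLift_subG_kummerN` : the fixed field of `kummerN` is `K ⊔ ℚ⟮β⟯ = K(β)`;
* `exists_normal_field` : such an `L` exists.
This is the layer `(H, N)` to which the first inequality (`LayerFirstIneq.first_inequality_layer`)
is applied to get the weak first inequality `hfirst` of helper21's Chevalley datum.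
-/
import Mathlib
import Fermat.Agent.S55.GL.IdelePlaces
import Fermat.Agent.S55.GL.IdeleInvHerbrand

set_option autoImplicit false
set_option linter.unusedSectionVars false

namespace Fermat.Agent.S55.GL.KummerLayer

open IntermediateField Fermat.Agent.S55.GL.IdelePlaces Fermat.Agent.S55.GL.IdeleInvHerbrand

local notation "Qbar" => AlgebraicClosure ℚ

local instance isAlgebraicQbar_kl : Algebra.IsAlgebraic ℚ Qbar :=
  AlgebraicClosure.isAlgebraic ℚ
local instance isAlgClosureQbar_kl : IsAlgClosure ℚ Qbar :=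
  ⟨inferInstance, inferInstance⟩
local instance normalQbar_kl : Normal ℚ Qbar :=
  IsAlgClosure.normal ℚ Qbar

section Fixer

variable (L : IntermediateField ℚ Qbar) [Normal ℚ L]

/-- The automorphisms of `L` fixing `K` pointwise. -/
def fixer (K : IntermediateField ℚ Qbar) : Subgroup (L ≃ₐ[ℚ] L) where
  carrier := {g | ∀ x : L, (x : Qbar) ∈ K → g x = x}
  one_mem' := fun _ _ => rfl
  mul_mem' := fun {a b} ha hb x hx => by
    rw [AlgEquiv.mul_apply, hb x hx, ha x hx]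
  inv_mem' := fun {a} ha x hx => by
    have h1 : a⁻¹ (a x) = x := by
      rw [← AlgEquiv.mul_apply, inv_mul_cancel, AlgEquiv.one_apply]
    rw [ha x hx] at h1
    exact h1

variable {L} in
lemma mem_fixer {K : IntermediateField ℚ Qbar} {g : L ≃ₐ[ℚ] L} :
    g ∈ fixer L K ↔ ∀ x : L, (x : Qbar) ∈ K → g x = x := Iff.rfl

/-- The restriction to `L` of an automorphism of `ℚ̄` fixing `K` lies in `fixer L K`. -/
lemma resΓ_mem_fixer {K : IntermediateField ℚ Qbar}
    {γ : Qbar ≃ₐ[ℚ] Qbar} (hγ : γ ∈ K.fixingSubgroup) : resΓ L γ ∈ fixer L K := by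
  intro y hy
  apply Subtype.ext
  rw [coe_resΓ]
  exact (IntermediateField.mem_fixingSubgroup_iff _ _).1 hγ _ hy

/-- Galois correspondence: the fixed field of `fixer L K` is `K`. -/
theorem fixedLift_fixer {K : IntermediateField ℚ Qbar} (hKL : K ≤ L) :
    fixedLift L (fixer L K) = K := by
  have := Fermat.Agent.S55.GL.Places.isGalois_Qbar
  apply le_antisymm
  · rintro x ⟨hxL, hx⟩
    rw [← InfiniteGalois.fixedField_fixingSubgroup K, IntermediateField.mem_fixedField_iff]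
    intro γ hγ
    have h1 := hx (resΓ L γ) (resΓ_mem_fixer L hγ)
    have h2 := coe_resΓ L γ ⟨x, hxL⟩
    rw [h1] at h2
    exact h2.symm
  · intro x hx
    exact ⟨hKL hx, fun g hg => hg ⟨x, hKL hx⟩ hx⟩

end Fixer

section Kummer

variable (L : IntermediateField ℚ Qbar) [Normal ℚ L] (K : IntermediateField ℚ Qbar)
  {p : ℕ} (β : L) (hβ0 : β ≠ 0) (hβK : ((β ^ p : L) : Qbar) ∈ K)
  (hμ : ∀ ω : L, ω ^ p = 1 → (ω : Qbar) ∈ K)

include hβ0 hβK in
lemma pow_smul_div (h : fixer L K) : ((h : L ≃ₐ[ℚ] L) β / β) ^ p = 1 := by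
  rw [div_pow, ← map_pow, h.2 (β ^ p) hβK]
  exact div_self (pow_ne_zero p hβ0)

/-- The Kummer character `h ↦ h β / β` of `Gal(L/K)`, with values in the `p`-th roots of unity. -/
noncomputable def kummerChar : fixer L K →* rootsOfUnity p L where
  toFun h := ⟨Units.mk0 ((h : L ≃ₐ[ℚ] L) β / β)
      (div_ne_zero ((map_ne_zero _).mpr hβ0) hβ0), by
    rw [mem_rootsOfUnity]
    apply Units.ext
    rw [Units.val_pow_eq_pow_val, Units.val_mk0, Units.val_one]
    exact pow_smul_div L K β hβ0 hβK h⟩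
  map_one' := by
    apply Subtype.ext
    apply Units.ext
    show (1 : L ≃ₐ[ℚ] L) β / β = 1
    rw [AlgEquiv.one_apply, div_self hβ0]
  map_mul' h h' := by
    apply Subtype.ext
    apply Units.ext
    show ((h : L ≃ₐ[ℚ] L) * (h' : L ≃ₐ[ℚ] L)) β / β =
      ((h : L ≃ₐ[ℚ] L) β / β) * ((h' : L ≃ₐ[ℚ] L) β / β)
    have hfix : (h : L ≃ₐ[ℚ] L) ((h' : L ≃ₐ[ℚ] L) β / β) = (h' : L ≃ₐ[ℚ] L) β / β :=
      h.2 _ (hμ _ (pow_smul_div L K β hβ0 hβK h'))
    have h1 : (h' : L ≃ₐ[ℚ] L) β = ((h' : L ≃ₐ[ℚ] L) β / β) * β := by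
      rw [div_mul_cancel₀ _ hβ0]
    rw [AlgEquiv.mul_apply]
    conv_lhs => rw [h1, map_mul, hfix]
    field_simp

lemma coe_kummerChar (h : fixer L K) :
    (((kummerChar L K β hβ0 hβK hμ h : rootsOfUnity p L) : Lˣ) : L) =
      (h : L ≃ₐ[ℚ] L) β / β := rfl

/-- `Gal(L/K(β))` as a subgroup of `Gal(L/K)`: the kernel of the Kummer character. -/
noncomputable def kummerN : Subgroup (fixer L K) := (kummerChar L K β hβ0 hβK hμ).ker

instance kummerN_normal : (kummerN L K β hβ0 hβK hμ).Normal :=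
  MonoidHom.normal_ker _

lemma mem_kummerN_iff (h : fixer L K) :
    h ∈ kummerN L K β hβ0 hβK hμ ↔ (h : L ≃ₐ[ℚ] L) β = β := by
  rw [kummerN, MonoidHom.mem_ker]
  constructor
  · intro h1
    have h2 := congrArg (fun z : rootsOfUnity p L => ((z : Lˣ) : L)) h1
    simp only [coe_kummerChar] at h2
    have h3 : (h : L ≃ₐ[ℚ] L) β / β = 1 := h2
    rwa [div_eq_one_iff_eq hβ0] at h3
  · intro h1
    apply Subtype.ext
    apply Units.ext
    show (h : L ≃ₐ[ℚ] L) β / β = 1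
    rw [h1, div_self hβ0]

/-- The fixed field of `kummerN` (as a subgroup of `Gal(L/ℚ)`) is `K(β)`. -/
theorem fixedLift_subG_kummerN (hKL : K ≤ L) :
    fixedLift L (subG (fixer L K) (kummerN L K β hβ0 hβK hμ)) = K ⊔ ℚ⟮(β : Qbar)⟯ := by
  have hML : K ⊔ ℚ⟮(β : Qbar)⟯ ≤ L :=
    sup_le hKL ((IntermediateField.adjoin_simple_le_iff).mpr β.2)
  apply le_antisymm
  · rintro x ⟨hxL, hx⟩
    rw [← fixedLift_fixer L hML]
    refine ⟨hxL, fun g hg => hx g ?_⟩
    have hgH : g ∈ fixer L K := fun y hy => hg y ((le_sup_left : K ≤ K ⊔ ℚ⟮(β : Qbar)⟯) hy)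
    rw [mem_subG_iff]
    refine ⟨hgH, (mem_kummerN_iff L K β hβ0 hβK hμ ⟨g, hgH⟩).mpr ?_⟩
    exact hg β ((le_sup_right : ℚ⟮(β : Qbar)⟯ ≤ K ⊔ ℚ⟮(β : Qbar)⟯)
      (IntermediateField.mem_adjoin_simple_self ℚ (β : Qbar)))
  · refine sup_le ?_ ((IntermediateField.adjoin_simple_le_iff).mpr ?_)
    · intro x hx
      refine ⟨hKL hx, fun g hg => ?_⟩
      obtain ⟨hgH, _⟩ := mem_subG_iff.mp hg
      exact hgH ⟨x, hKL hx⟩ hx
    · refine ⟨β.2, fun g hg => ?_⟩
      obtain ⟨hgH, hgN⟩ := mem_subG_iff.mp hg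
      exact (mem_kummerN_iff L K β hβ0 hβK hμ ⟨g, hgH⟩).mp hgN

section Index

variable [hp : Fact p.Prime] (hKL : K ≤ L) {ζ : L} (hζ : IsPrimitiveRoot ζ p)
  (hb : ¬ ∃ c : Qbar, c ∈ K ∧ c ^ p = ((β ^ p : L) : Qbar))

include hKL hb in
/-- If `β ^ p` is not a `p`-th power in `K`, some element of `Gal(L/K)` moves `β`. -/
lemma exists_not_mem_kummerN : ∃ h : fixer L K, h ∉ kummerN L K β hβ0 hβK hμ := by
  by_contra hcon
  push Not at hcon
  have h1 : (β : Qbar) ∈ fixedLift L (fixer L K) :=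
    (coe_mem_fixedLift_iff β).mpr fun s hs =>
      (mem_kummerN_iff L K β hβ0 hβK hμ ⟨s, hs⟩).mp (hcon ⟨s, hs⟩)
  rw [fixedLift_fixer L hKL] at h1
  exact hb ⟨β, h1, rfl⟩

include hKL hb hζ in
/-- `[Gal(L/K) : Gal(L/K(β))] = p`. -/
theorem index_kummerN : (kummerN L K β hβ0 hβK hμ).index = p := by
  have : NeZero p := ⟨hp.out.ne_zero⟩
  have hcard : Nat.card (rootsOfUnity p L) = p := hζ.card_rootsOfUnity
  have : Fact (Nat.card (rootsOfUnity p L)).Prime := by rw [hcard]; exact hp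
  have hrange : (kummerChar L K β hβ0 hβK hμ).range = ⊤ := by
    rcases Subgroup.eq_bot_or_eq_top_of_prime_card (kummerChar L K β hβ0 hβK hμ).range with h | h
    · exfalso
      obtain ⟨h0, hh0⟩ := exists_not_mem_kummerN L K β hβ0 hβK hμ hKL hb
      apply hh0
      have h1 : kummerChar L K β hβ0 hβK hμ h0 ∈ (kummerChar L K β hβ0 hβK hμ).range := ⟨h0, rfl⟩
      rw [h] at h1
      exact MonoidHom.mem_ker.mpr (Subgroup.mem_bot.mp h1)
    · exact h
  rw [kummerN, Subgroup.index_ker, hrange, Subgroup.card_top, hcard]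

include hKL hb in
/-- A generator of `Gal(L/K) / Gal(L/K(β))`. -/
theorem exists_generator :
    ∃ h : fixer L K, ∀ i : ℕ, h ^ i ∈ kummerN L K β hβ0 hβK hμ ↔ p ∣ i := by
  obtain ⟨h, hh⟩ := exists_not_mem_kummerN L K β hβ0 hβK hμ hKL hb
  refine ⟨h, fun i => ?_⟩
  have h1 : kummerChar L K β hβ0 hβK hμ h ≠ 1 := fun e => hh (MonoidHom.mem_ker.mpr e)
  have h2 : (kummerChar L K β hβ0 hβK hμ h) ^ p = 1 := by
    apply Subtype.ext
    exact (mem_rootsOfUnity _ _).mp (kummerChar L K β hβ0 hβK hμ h).2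
  have h3 : orderOf (kummerChar L K β hβ0 hβK hμ h) = p := orderOf_eq_prime h2 h1
  rw [kummerN, MonoidHom.mem_ker, map_pow]
  constructor
  · intro h4
    have := orderOf_dvd_of_pow_eq_one h4
    rwa [h3] at this
  · intro h4
    exact orderOf_dvd_iff_pow_eq_one.mp (h3.symm ▸ h4)

end Index

end Kummer

/-- There is a finite normal extension of `ℚ` inside `ℚ̄` containing `K` and `β`. -/
theorem exists_normal_field (K : IntermediateField ℚ Qbar) [FiniteDimensional ℚ K] (β : Qbar) :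
    ∃ L : IntermediateField ℚ Qbar, Normal ℚ L ∧ FiniteDimensional ℚ L ∧ K ≤ L ∧ β ∈ L := by
  have : FiniteDimensional ℚ ℚ⟮β⟯ :=
    IntermediateField.adjoin.finiteDimensional (Algebra.IsIntegral.isIntegral β)
  refine ⟨IntermediateField.normalClosure ℚ ↥(K ⊔ ℚ⟮β⟯) Qbar,
    normalClosure.normal ℚ ↥(K ⊔ ℚ⟮β⟯) Qbar,
    normalClosure.is_finiteDimensional ℚ ↥(K ⊔ ℚ⟮β⟯) Qbar, ?_, ?_⟩
  · exact le_trans le_sup_left (IntermediateField.le_normalClosure (K ⊔ ℚ⟮β⟯))
  · exact IntermediateField.le_normalClosure (K ⊔ ℚ⟮β⟯)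
      ((le_sup_right : ℚ⟮β⟯ ≤ K ⊔ ℚ⟮β⟯) (IntermediateField.mem_adjoin_simple_self ℚ β))

end Fermat.Agent.S55.GL.KummerLayer
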