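import Mathlib
import Fermat.Agent.S55.GL.KummerLayer
import Fermat.Agent.S55.GL.LayerFirstIneq
import Fermat.Agent.S55.GL.IdeleLayerHE
import Fermat.Agent.S55.GL.CFFinal
import Fermat.Agent.S55.GL.SecondIneq.ModelPlaces

set_option autoImplicit false
set_option linter.unusedSectionVars false

open CategoryTheory groupCohomology Rep Fermat.Agent.S14.Herbrand
  Fermat.Agent.S55.GC.HerbrandBridge Fermat.Agent.S55.GC

namespace Fermat.Agent.S55.GL.FirstIneqKummer

open IntermediateField Fermat.Agent.S55.GL.IdelePlaces Fermat.Agent.S55.GL.IdeleInvHerbrand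
  Fermat.Agent.S55.GL.KummerLayer Fermat.Agent.S55.GL.Ideles Fermat.Agent.S55.GL.CF1
  Fermat.Agent.S55.GL.LayerFirstIneq

local notation "Qbar" => AlgebraicClosure ℚ

section Layer

variable (L : IntermediateField ℚ Qbar) [NumberField L] [Normal ℚ L] [IsGalois ℚ L]

theorem exists_finset_first_ineq :
    ∃ T₀ : Finset Nat.Primes, ∀ T : Finset Nat.Primes, T₀ ⊆ T → T.Nonempty ∧
      (∀ N' : Subgroup (L ≃ₐ[ℚ] L),
        Limits.IsZero (groupCohomology (Rep.res N'.subtype (E L T)) 1)) ∧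
      ∀ (H : Subgroup (L ≃ₐ[ℚ] L)) (N : Subgroup H) [N.Normal] (h : H) (n : ℕ), N.index = n →
        (∀ i : ℕ, h ^ i ∈ N ↔ n ∣ i) → Odd n →
        hIdx (dlt (sigma (layerSC (seq L T) H N).X₃ (QuotientGroup.mk h)))
            (nrm (sigma (layerSC (seq L T) H N).X₃ (QuotientGroup.mk h)) n) =
          n * hIdx (nrm (sigma (layerSC (seq L T) H N).X₃ (QuotientGroup.mk h)) n)
            (dlt (sigma (layerSC (seq L T) H N).X₃ (QuotientGroup.mk h))) ∧
        hIdx (dlt (sigma (layerSC (seq L T) H N).X₃ (QuotientGroup.mk h)))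
            (nrm (sigma (layerSC (seq L T) H N).X₃ (QuotientGroup.mk h)) n) ≠ 0 ∧
        hIdx (nrm (sigma (layerSC (seq L T) H N).X₃ (QuotientGroup.mk h)) n)
            (dlt (sigma (layerSC (seq L T) H N).X₃ (QuotientGroup.mk h))) ≠ 0 := by
  classical
  obtain ⟨Tr, hTr⟩ := FiniteRam.exists_finset_primesOver_inertia_eq_bot L
  have h0 := CFIdele.exists_finset_isZero_H1_E L Tr hTr
  obtain ⟨T₄, hT₄'⟩ := h0
  have hT₄ := hT₄'.2
  refine ⟨T₄ ∪ {(⟨2, Nat.prime_two⟩ : Nat.Primes)}, fun T hT => ?_⟩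
  have h4 : T₄ ⊆ T := fun q hq => hT (Finset.mem_union_left _ hq)
  have hne : T.Nonempty := ⟨(⟨2, Nat.prime_two⟩ : Nat.Primes),
    hT (Finset.mem_union_right _ (Finset.mem_singleton_self _))⟩
  refine ⟨hne, hT₄ T h4, fun H N _ h n hidx hh hodd => ?_⟩
  have hE := IdeleLayerHE.layerE_hE L T H N h hidx hh hodd
  exact first_inequality_layer L T H N hne h hodd.pos hh
      (CFIdele.isZero_H1_res_res_E L (hT₄ T h4) H N) hE.1 hE.2.1

end Layer

/-- **The first inequality for the Kummer layer of `β`.** -/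
theorem exists_layer_first_ineq (K : IntermediateField ℚ Qbar) [NumberField K] {p : ℕ}
    [hp : Fact p.Prime] (hp2 : p ≠ 2) {ζ : K} (hζ : IsPrimitiveRoot ζ p) (β : Qbar) (hβ0 : β ≠ 0)
    (hβK : β ^ p ∈ K) (hb : ¬ ∃ c : Qbar, c ∈ K ∧ c ^ p = β ^ p) :
    ∃ (L : IntermediateField ℚ Qbar) (_ : NumberField L) (_ : Normal ℚ L) (_ : IsGalois ℚ L)
      (H : Subgroup (L ≃ₐ[ℚ] L)) (N : Subgroup H) (_ : N.Normal) (h : H),
      fixedLift L H = K ∧ fixedLift L (subG H N) = K ⊔ ℚ⟮β⟯ ∧ N.index = p ∧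
      (∀ i : ℕ, h ^ i ∈ N ↔ p ∣ i) ∧
      ∃ T₀ : Finset Nat.Primes, ∀ T : Finset Nat.Primes, T₀ ⊆ T → T.Nonempty ∧
        (∀ N' : Subgroup (L ≃ₐ[ℚ] L),
          Limits.IsZero (groupCohomology (Rep.res N'.subtype (E L T)) 1)) ∧
        hIdx (dlt (sigma (layerSC (seq L T) H N).X₃ (QuotientGroup.mk h)))
            (nrm (sigma (layerSC (seq L T) H N).X₃ (QuotientGroup.mk h)) p) =
          p * hIdx (nrm (sigma (layerSC (seq L T) H N).X₃ (QuotientGroup.mk h)) p)
            (dlt (sigma (layerSC (seq L T) H N).X₃ (QuotientGroup.mk h))) ∧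
        hIdx (dlt (sigma (layerSC (seq L T) H N).X₃ (QuotientGroup.mk h)))
            (nrm (sigma (layerSC (seq L T) H N).X₃ (QuotientGroup.mk h)) p) ≠ 0 ∧
        hIdx (nrm (sigma (layerSC (seq L T) H N).X₃ (QuotientGroup.mk h)) p)
            (dlt (sigma (layerSC (seq L T) H N).X₃ (QuotientGroup.mk h))) ≠ 0 := by
  have hex := exists_normal_field K β
  obtain ⟨L, hL⟩ := hex
  have hLn : Normal ℚ L := hL.1
  have hLf : FiniteDimensional ℚ L := hL.2.1
  have hKL : K ≤ L := hL.2.2.1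
  have hβL : β ∈ L := hL.2.2.2
  have hNF : NumberField L := { to_charZero := inferInstance, to_finiteDimensional := hLf }
  have hGal : IsGalois ℚ L := ⟨⟩
  -- the data of `KummerLayer`
  have hβ'0 : (⟨β, hβL⟩ : L) ≠ 0 := fun h0 => hβ0 (congrArg Subtype.val h0)
  have hβ'K : (((⟨β, hβL⟩ : L) ^ p : L) : Qbar) ∈ K := hβK
  have hζ'p : IsPrimitiveRoot (⟨(ζ : Qbar), hKL ζ.2⟩ : L) p := by
    have h1 : IsPrimitiveRoot ((ζ : K) : Qbar) p := hζ.map_of_injective (f := K.val) K.val.injective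
    exact IsPrimitiveRoot.of_map_of_injective (f := L.val) (by exact h1) L.val.injective
  have hμ : ∀ ω : L, ω ^ p = 1 → (ω : Qbar) ∈ K := by
    intro ω hω
    obtain ⟨i, -, hi⟩ := hζ'p.eq_pow_of_pow_eq_one hω
    rw [← hi]
    exact pow_mem ζ.2 i
  have hb' : ¬ ∃ c : Qbar, c ∈ K ∧ c ^ p = (((⟨β, hβL⟩ : L) ^ p : L) : Qbar) := hb
  have hgen := exists_generator L K ⟨β, hβL⟩ hβ'0 hβ'K hμ hKL hb'
  obtain ⟨h, hh⟩ := hgen
  have hidx := index_kummerN L K ⟨β, hβL⟩ hβ'0 hβ'K hμ hKL hζ'p hb'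
  have hfi := exists_finset_first_ineq L
  obtain ⟨T₀, hT₀⟩ := hfi
  have hodd : Odd p := hp.out.odd_of_ne_two hp2
  refine ⟨L, hNF, hLn, hGal, fixer L K, kummerN L K ⟨β, hβL⟩ hβ'0 hβ'K hμ, inferInstance, h,
    fixedLift_fixer L hKL, fixedLift_subG_kummerN L K ⟨β, hβL⟩ hβ'0 hβ'K hμ hKL, hidx, hh,
    T₀, fun T hT => ⟨(hT₀ T hT).1, (hT₀ T hT).2.1, (hT₀ T hT).2.2 _ _ h p hidx hh hodd⟩⟩

section Generic

open IsDedekindDomain NumberField Fermat.Agent.S55.GL.SecondIneq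

variable {F : Type*} [Field F] [NumberField F] {G : HeightOneSpectrum (𝓞 F) → Type*}
  [∀ v, CommGroup (G v)]

/-- If `diag(S-units) · ∏_{v ∈ S} N_v` is a proper subgroup of `∏_{v ∈ S} G_v`, some family is not
an `S`-unit times local elements of the `N_v`. -/
theorem exists_not_unit_mul (loc : ∀ v, Fˣ →* G v) (S : Finset (HeightOneSpectrum (𝓞 F)))
    (Nn : ∀ v, Subgroup (G v))
    (hne : ((diagHom loc S).range ⊔ Subgroup.pi Set.univ (fun v : ↥S => Nn v)).index ≠ 1) :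
    ∃ x : ∀ v, G v, ¬ ∃ u ∈ sUnits F S, ∀ v ∈ S, x v / loc v u ∈ Nn v := by
  classical
  have hex : ∃ y : ∀ v : ↥S, G v,
      y ∉ (diagHom loc S).range ⊔ Subgroup.pi Set.univ (fun v : ↥S => Nn v) := by
    by_contra hcon
    push Not at hcon
    apply hne
    rw [Subgroup.index_eq_one]
    exact eq_top_iff.mpr fun y _ => hcon y
  obtain ⟨y, hy⟩ := hex
  refine ⟨fun v => if hv : v ∈ S then y ⟨v, hv⟩ else 1, ?_⟩
  rintro ⟨u, hu, huv⟩
  apply hy
  refine Subgroup.mem_sup.mpr ⟨diagHom loc S ⟨u, hu⟩, ⟨_, rfl⟩,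
    fun v => y v / loc v u, ?_, ?_⟩
  · rw [Subgroup.mem_pi]
    intro v _
    have h5 := huv v.1 v.2
    simp only [dif_pos v.2] at h5
    exact h5
  · funext v
    exact mul_div_cancel _ _

end Generic

section WeakFirst

open IsDedekindDomain NumberField Fermat.Agent.S55.GL.SecondIneq Fermat.Agent.S55.GL.PlacesDVR
  Fermat.Agent.S55.GL.PlacesUnits Fermat.Agent.S55.Local

variable (K : IntermediateField ℚ Qbar) [NumberField K]

/-- The comparison statement (helper3's `hdvd`): the Herbrand index `h⁰(H/N, C_{L,T}^N)` divides the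
index of `diag(S-units) · ∏_{v ∈ S} N_v(b)` in `∏_{v ∈ S} K_vˣ`, `S` the primes of `K` over `T`
(helper21's place model of the Chevalley datum). -/
def NormIndexDvd (p : ℕ) (b : Kˣ) (L : IntermediateField ℚ Qbar) [NumberField L] [Normal ℚ L]
    [IsGalois ℚ L] (H : Subgroup (L ≃ₐ[ℚ] L)) (N : Subgroup H) [N.Normal] (h : H)
    (T : Finset Nat.Primes) : Prop :=
  hIdx (dlt (sigma (layerSC (seq L T) H N).X₃ (QuotientGroup.mk h)))
      (nrm (sigma (layerSC (seq L T) H N).X₃ (QuotientGroup.mk h)) p) ∣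
    ((diagHom (G := fun v => (completionAt K v)ˣ)
        (fun v => Units.map (locAt K v : K →* completionAt K v)) (primesOver K T)).range ⊔
      Subgroup.pi Set.univ
        (fun v : ↥(primesOver K T) => normGroup (completionAt K v) (betaAt K p b v))).index

/-- **The weak first inequality `hfirst`** of helper21's `isChevalleyDatum_model` /
`second_inequality_model`, from the first inequality for the Kummer layers
(`exists_layer_first_ineq`) and the comparison `NormIndexDvd` for `T` large. -/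
theorem hfirst_of_normIndexDvd {p : ℕ} (hp : p.Prime) (hp2 : p ≠ 2) {ζ : K}
    (hζ : IsPrimitiveRoot ζ p)
    (hdvd : ∀ (b : Kˣ) (L : IntermediateField ℚ Qbar) [NumberField L] [Normal ℚ L] [IsGalois ℚ L]
      (H : Subgroup (L ≃ₐ[ℚ] L)) (N : Subgroup H) [N.Normal] (h : H),
      fixedLift L H = K → fixedLift L (subG H N) = K ⊔ ℚ⟮pRoot p (((b : Kˣ) : K) : Qbar)⟯ →
      N.index = p → (∀ i : ℕ, h ^ i ∈ N ↔ p ∣ i) →
      ∃ T₁ : Finset Nat.Primes, ∀ T : Finset Nat.Primes, T₁ ⊆ T → T.Nonempty →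
        (∀ N' : Subgroup (L ≃ₐ[ℚ] L),
          Limits.IsZero (groupCohomology (Rep.res N'.subtype (E L T)) 1)) →
        NormIndexDvd K p b L H N h T) :
    ∀ b : Kˣ, (¬ ∃ c : Kˣ, c ^ p = b) →
      ∀ S₁ : Finset (HeightOneSpectrum (𝓞 K)), ∃ S'' : Finset (HeightOneSpectrum (𝓞 K)),
        S₁ ⊆ S'' ∧ ∃ x : ∀ v, (completionAt K v)ˣ, ¬ ∃ u ∈ sUnits K S'', ∀ v ∈ S'',
          x v / Units.map (locAt K v : K →* completionAt K v) u ∈
            normGroup (completionAt K v) (betaAt K p b v) := by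
  classical
  intro b hb S₁
  have : Fact p.Prime := ⟨hp⟩
  have hβp : pRoot p (((b : Kˣ) : K) : Qbar) ^ p = (((b : Kˣ) : K) : Qbar) := pRoot_pow hp.pos _
  have hb0 : (((b : Kˣ) : K) : Qbar) ≠ 0 := fun h0 => b.ne_zero (Subtype.ext h0)
  have hβ0 : pRoot p (((b : Kˣ) : K) : Qbar) ≠ 0 := by
    intro h0
    rw [h0, zero_pow hp.ne_zero] at hβp
    exact hb0 hβp.symm
  have hβK : pRoot p (((b : Kˣ) : K) : Qbar) ^ p ∈ K := by
    rw [hβp]
    exact (b : K).2
  have hb' : ¬ ∃ c : Qbar, c ∈ K ∧ c ^ p = pRoot p (((b : Kˣ) : K) : Qbar) ^ p := by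
    rintro ⟨c, hcK, hc⟩
    rw [hβp] at hc
    have hc0 : (⟨c, hcK⟩ : K) ≠ 0 := by
      intro h0
      have : c = 0 := congrArg Subtype.val h0
      rw [this, zero_pow hp.ne_zero] at hc
      exact hb0 hc.symm
    exact hb ⟨Units.mk0 ⟨c, hcK⟩ hc0, Units.ext (Subtype.ext hc)⟩
  have hex := exists_layer_first_ineq K hp2 hζ (pRoot p (((b : Kˣ) : K) : Qbar)) hβ0 hβK hb'
  obtain ⟨L, hNF, hLn, hGal, H, N, hNn, h, hrest⟩ := hex
  have hK := hrest.1
  have hKβ := hrest.2.1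
  have hidx := hrest.2.2.1
  have hh := hrest.2.2.2.1
  have hT := hrest.2.2.2.2
  obtain ⟨T₀, hT₀⟩ := hT
  have hd := hdvd b L H N h hK hKβ hidx hh
  obtain ⟨T₁, hT₁⟩ := hd
  have hsub₀ : T₀ ⊆ T₀ ∪ T₁ ∪ S₁.image (ratPrime K) := fun q hq =>
    Finset.mem_union_left _ (Finset.mem_union_left _ hq)
  have hsub₁ : T₁ ⊆ T₀ ∪ T₁ ∪ S₁.image (ratPrime K) := fun q hq =>
    Finset.mem_union_left _ (Finset.mem_union_right _ hq)
  have hfi := hT₀ _ hsub₀
  have hdv := hT₁ _ hsub₁ hfi.1 hfi.2.1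
  refine ⟨primesOver K (T₀ ∪ T₁ ∪ S₁.image (ratPrime K)), ?_, ?_⟩
  · intro v hv
    exact mem_primesOver.mpr ⟨ratPrime K v,
      Finset.mem_union_right _ (Finset.mem_image_of_mem _ hv), natCast_ratPrime_mem K v⟩
  · -- the index is not `1`
    have hne1 : ((diagHom (G := fun v => (completionAt K v)ˣ)
        (fun v => Units.map (locAt K v : K →* completionAt K v))
          (primesOver K (T₀ ∪ T₁ ∪ S₁.image (ratPrime K)))).range ⊔
        Subgroup.pi Set.univ (fun v : ↥(primesOver K (T₀ ∪ T₁ ∪ S₁.image (ratPrime K))) =>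
          normGroup (completionAt K v) (betaAt K p b v))).index ≠ 1 := by
      intro h1
      have h2 := hdv
      unfold NormIndexDvd at h2
      rw [h1, Nat.dvd_one] at h2
      have h3 := hfi.2.2.1
      rw [h2] at h3
      have h4 : p ∣ 1 := ⟨_, h3⟩
      exact hp.one_lt.ne' (Nat.dvd_one.mp h4)
    exact exists_not_unit_mul (G := fun v => (completionAt K v)ˣ)
      (fun v => Units.map (locAt K v : K →* completionAt K v))
      (primesOver K (T₀ ∪ T₁ ∪ S₁.image (ratPrime K)))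
      (fun v => normGroup (completionAt K v) (betaAt K p b v)) hne1

end WeakFirst

end Fermat.Agent.S55.GL.FirstIneqKummer
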