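/-
S55 / GLO7-GLO8 glue (helper29): the second inequality hypothesis `CFFinal.SecondIneqHyp` of GLO8
from the single comparison statement `HdvdHyp` (helper3's `hdvd`, `FirstIneqKummer.NormIndexDvd`).

For a cyclic layer `N ◁ H ≤ Gal(L/ℚ)` of odd prime index `p` with `ζ_p ∈ K = L^H`:
* `a` := a Kummer generator (`KummerGenerator.exists_kummer_generator`), `L^N = K(pRoot p a)`;
* `hfirst` for `K` from `HdvdHyp` (`FirstIneqKummer.hfirst_of_normIndexDvd`);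
* helper21's `second_inequality_model` : the index of `diag(S-units) · ∏ N_v(a)` divides `p` for all
  large `S`;
* `HdvdHyp` once more: `h⁰(H/N, C_{L,T}^N)` divides that index for `S` = primes over `T`.
Hence `h⁰(H/N, C^N) ∣ p` for `T` large (`exists_finset_dvd`), `exists_secondIneqHyp`, and the
final theorems of GLO8 (`CFFinalUnit`) depending on `HdvdHyp` alone.
-/
import Mathlib
import Fermat.Agent.S55.GL.FirstIneqKummer
import Fermat.Agent.S55.GL.KummerGenerator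
import Fermat.Agent.S55.GL.SecondIneq.ModelCount
import Fermat.Agent.S55.GL.CFFinalUnit

set_option autoImplicit false
set_option linter.unusedSectionVars false

open CategoryTheory groupCohomology Rep Fermat.Agent.S14.Herbrand
  Fermat.Agent.S55.GC.HerbrandBridge Fermat.Agent.S55.GC

namespace Fermat.Agent.S55.GL.SecondIneqFinal

open IntermediateField Fermat.Agent.S55.GL.IdelePlaces Fermat.Agent.S55.GL.IdeleInvHerbrand
  Fermat.Agent.S55.GL.Ideles Fermat.Agent.S55.GL.CF1 Fermat.Agent.S55.GL.FirstIneqKummer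
  Fermat.Agent.S55.GL.KummerGenerator Fermat.Agent.S55.GL.SecondIneq
  Fermat.Agent.S55.GL.PlacesDVR Fermat.Agent.S55.GL.PlacesUnits
open IsDedekindDomain NumberField

local notation "Qbar" => AlgebraicClosure ℚ

/-- **The comparison hypothesis** (helper3's `hdvd`), for all number fields `K ⊆ ℚ̄` and all layers
`N ◁ H ≤ Gal(L/ℚ)` of index `p` with `L^H = K`, `L^N = K(pRoot p b)`: for `T` large,
`h⁰(H/N, C_{L,T}^N)` divides the index of `diag(S-units) · ∏_{v ∈ S} N_v(b)` in `∏_{v ∈ S} K_vˣ`,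
`S` = the primes of `K` over `T`. -/
def HdvdHyp (p : ℕ) : Prop :=
  ∀ (K : IntermediateField ℚ Qbar) [NumberField K] (b : Kˣ) (L : IntermediateField ℚ Qbar)
    [NumberField L] [Normal ℚ L] [IsGalois ℚ L] (H : Subgroup (L ≃ₐ[ℚ] L)) (N : Subgroup H)
    [N.Normal] (h : H),
    fixedLift L H = K → fixedLift L (subG H N) = K ⊔ ℚ⟮pRoot p (((b : Kˣ) : K) : Qbar)⟯ →
    N.index = p → (∀ i : ℕ, h ^ i ∈ N ↔ p ∣ i) →
    ∃ T₁ : Finset Nat.Primes, ∀ T : Finset Nat.Primes, T₁ ⊆ T → T.Nonempty →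
      (∀ N' : Subgroup (L ≃ₐ[ℚ] L),
        Limits.IsZero (groupCohomology (Rep.res N'.subtype (E L T)) 1)) →
      NormIndexDvd K p b L H N h T

variable (L : IntermediateField ℚ Qbar) [NumberField L] [Normal ℚ L] [IsGalois ℚ L]

/-- **`h⁰(H/N, C_{L,T}^N) ∣ p` for `T` large**, from `HdvdHyp`. -/
theorem exists_finset_dvd {p : ℕ} [hp : Fact p.Prime] (hp2 : p ≠ 2) (hdvd : HdvdHyp p)
    (H : Subgroup (L ≃ₐ[ℚ] L)) (N : Subgroup H) [N.Normal] (h : H) (hidx : N.index = p)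
    (hh : ∀ i : ℕ, h ^ i ∈ N ↔ p ∣ i) {ζ : L} (hζ : IsPrimitiveRoot ζ p)
    (hζH : (ζ : Qbar) ∈ fixedLift L H) :
    ∃ T₃ : Finset Nat.Primes, ∀ T : Finset Nat.Primes, T₃ ⊆ T →
      hIdx (dlt (sigma (layerSC (seq L T) H N).X₃ (QuotientGroup.mk h)))
        (nrm (sigma (layerSC (seq L T) H N).X₃ (QuotientGroup.mk h)) p) ∣ p := by
  classical
  have hNF : NumberField (fixedLift L H) :=
    { to_charZero := inferInstance, to_finiteDimensional := inferInstance }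
  have hζQ : IsPrimitiveRoot ((ζ : L) : Qbar) p :=
    hζ.map_of_injective (f := L.val) L.val.injective
  have hζK : IsPrimitiveRoot (⟨(ζ : Qbar), hζH⟩ : fixedLift L H) p :=
    IsPrimitiveRoot.of_map_of_injective (f := (fixedLift L H).val) (by exact hζQ)
      (fixedLift L H).val.injective
  obtain ⟨a, ha⟩ := exists_kummer_generator L H N (fixedLift L H) rfl hidx hζK
  have hfirst := hfirst_of_normIndexDvd (fixedLift L H) hp.out hp2 hζK
    (fun b L' _ _ _ H' N' _ h' => hdvd (fixedLift L H) b L' H' N' h')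
  have hp2' : 2 < p := lt_of_le_of_ne hp.out.two_le (Ne.symm hp2)
  have key := second_inequality_model (fixedLift L H) hp.out hp2' hζK hfirst a ∅
  refine Exists.elim key fun S' hS' => ?_
  have hd := hdvd (fixedLift L H) a L H N h rfl ha hidx hh
  refine Exists.elim hd fun T₁ hT₁ => ?_
  have hfi := exists_finset_first_ineq L
  refine Exists.elim hfi fun T₀ hT₀ => ?_
  refine ⟨T₀ ∪ T₁ ∪ S'.image (ratPrime (fixedLift L H)), fun T hT => ?_⟩
  have h0 : T₀ ⊆ T := fun q hq => hT (Finset.mem_union_left _ (Finset.mem_union_left _ hq))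
  have h1 : T₁ ⊆ T := fun q hq => hT (Finset.mem_union_left _ (Finset.mem_union_right _ hq))
  have h2 : S' ⊆ primesOver (fixedLift L H) T := by
    intro v hv
    exact mem_primesOver.mpr ⟨ratPrime (fixedLift L H) v,
      hT (Finset.mem_union_right _ (Finset.mem_image_of_mem _ hv)),
      natCast_ratPrime_mem (fixedLift L H) v⟩
  have h3 := hT₁ T h1 (hT₀ T h0).1 (hT₀ T h0).2.1
  unfold NormIndexDvd at h3
  exact h3.trans (hS'.2 _ h2)

/-- `ζ ∈ L^{G₀}` lies in `L^H` for `H ≤ G₀`. -/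
lemma mem_fixedLift_of_le {G₀ H : Subgroup (L ≃ₐ[ℚ] L)} (hH : H ≤ G₀) {x : Qbar}
    (hx : x ∈ fixedLift L G₀) : x ∈ fixedLift L H :=
  ⟨hx.1, fun s hs => hx.2 s (hH hs)⟩

/-- **`SecondIneqHyp` for `T` large**, from `HdvdHyp` (`p` odd, `ζ_p ∈ L^{G₀}`). -/
theorem exists_secondIneqHyp {p : ℕ} [hp : Fact p.Prime] (hp2 : p ≠ 2) (hdvd : HdvdHyp p)
    (G₀ : Subgroup (L ≃ₐ[ℚ] L)) {ζ : L} (hζ : IsPrimitiveRoot ζ p)
    (hζG : (ζ : Qbar) ∈ fixedLift L G₀) :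
    ∃ T₃ : Finset Nat.Primes, ∀ T : Finset Nat.Primes, T₃ ⊆ T →
      CFFinal.SecondIneqHyp L p G₀ T := by
  classical
  have key : ∀ t : (Σ H : Subgroup (L ≃ₐ[ℚ] L), Subgroup H × H), ∃ T₃ : Finset Nat.Primes,
      ∀ (hN : t.2.1.Normal), t.1 ≤ G₀ → t.2.1.index = p → t.2.2 ∉ t.2.1 →
        ∀ T : Finset Nat.Primes, T₃ ⊆ T →
          hIdx (dlt (sigma (layerSC (seq L T) t.1 t.2.1).X₃ (QuotientGroup.mk t.2.2)))
            (nrm (sigma (layerSC (seq L T) t.1 t.2.1).X₃ (QuotientGroup.mk t.2.2)) p) ≤ p := by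
    rintro ⟨H, N, h⟩
    by_cases hc : N.Normal ∧ H ≤ G₀ ∧ N.index = p ∧ h ∉ N
    · obtain ⟨hN, hH, hidx, hh⟩ := hc
      have hgen := (CFFinal.gen_of_index_prime N hidx hh).1
      have hex := exists_finset_dvd L hp2 hdvd H N h hidx hgen hζ (mem_fixedLift_of_le L hH hζG)
      refine Exists.elim hex fun T₃ hT₃ => ⟨T₃, fun _ _ _ _ T hT => ?_⟩
      exact Nat.le_of_dvd hp.out.pos (hT₃ T hT)
    · exact ⟨∅, fun hN hH hidx hh => absurd ⟨hN, hH, hidx, hh⟩ hc⟩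
  choose T₃ hT₃ using key
  have : Fintype (Σ H : Subgroup (L ≃ₐ[ℚ] L), Subgroup H × H) := Fintype.ofFinite _
  refine ⟨Finset.univ.biUnion T₃, fun T hT H hH N hN hidx h hh => ?_⟩
  exact hT₃ ⟨H, N, h⟩ hN hH hidx hh T fun q hq =>
    hT (Finset.mem_biUnion.mpr ⟨⟨H, N, h⟩, Finset.mem_univ _, hq⟩)

/-- **GLO8-FINAL from `HdvdHyp` alone**: for `T` large, `C_{L,T}` satisfies the cyclic layer
hypothesis at `p` over `G₀` (`p` odd, `ζ_p ∈ L^{G₀}`). -/
theorem exists_finset_layerHyp_C_of_hdvd {p : ℕ} [hp : Fact p.Prime] (hp2 : p ≠ 2)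
    (hdvd : HdvdHyp p) (G₀ : Subgroup (L ≃ₐ[ℚ] L)) {ζ : L} (hζ : IsPrimitiveRoot ζ p)
    (hζG : (ζ : Qbar) ∈ fixedLift L G₀) (T₁ : Finset Nat.Primes) :
    ∃ T₀ : Finset Nat.Primes, T₁ ⊆ T₀ ∧ ∀ T : Finset Nat.Primes, T₀ ⊆ T →
      T.Nonempty ∧ LayerHyp p (Rep.res G₀.subtype (C L T)) :=
  CFFinalUnit.exists_finset_layerHyp_C' L p hp2 G₀ T₁
    (exists_secondIneqHyp L hp2 hdvd G₀ hζ hζG)

/-- **CF1 for `p`-subgroups of `G₀` from `HdvdHyp` alone.** -/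
theorem exists_finset_pgroup_C_of_hdvd {p : ℕ} [hp : Fact p.Prime] (hp2 : p ≠ 2)
    (hdvd : HdvdHyp p) (G₀ : Subgroup (L ≃ₐ[ℚ] L)) {ζ : L} (hζ : IsPrimitiveRoot ζ p)
    (hζG : (ζ : Qbar) ∈ fixedLift L G₀) (T₁ : Finset Nat.Primes) :
    ∃ T₀ : Finset Nat.Primes, T₁ ⊆ T₀ ∧ ∀ T : Finset Nat.Primes, T₀ ⊆ T →
      T.Nonempty ∧ ∀ (H : Subgroup (L ≃ₐ[ℚ] L)), H ≤ G₀ → ∀ n : ℕ, Nat.card H = p ^ n →
        Limits.IsZero (groupCohomology (Rep.res H.subtype (C L T)) 1) ∧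
        Finite (groupCohomology (Rep.res H.subtype (C L T)) 2) ∧
        Nat.card (groupCohomology (Rep.res H.subtype (C L T)) 2) ∣ Nat.card H :=
  CFFinalUnit.exists_finset_pgroup_C' L p hp2 G₀ T₁
    (exists_secondIneqHyp L hp2 hdvd G₀ hζ hζG)

/-- **Hasse principle for `H²(H, Lˣ)`, `p`-part, finite level, from `HdvdHyp` alone.** -/
theorem hasse_units_pPrimary_of_hdvd {p : ℕ} [hp : Fact p.Prime] (hp2 : p ≠ 2)
    (hdvd : HdvdHyp p) (G₀ : Subgroup (L ≃ₐ[ℚ] L)) {ζ : L} (hζ : IsPrimitiveRoot ζ p)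
    (hζG : (ζ : Qbar) ∈ fixedLift L G₀)
    (H : Subgroup (L ≃ₐ[ℚ] L)) (hH : H ≤ G₀)
    (x : groupCohomology (Rep.res H.subtype (unitsRep L)) 2)
    (hx : x ∈ CF1.pPrimary p (groupCohomology (Rep.res H.subtype (unitsRep L)) 2))
    (hloc : ∀ (T : Finset Nat.Primes) (q : T) (g : L ≃ₐ[ℚ] L),
      (groupCohomology.map (IdeleSemiLocal.decomp L T H q g).subtype
          (IdeleSemiLocal.locHom L T H q g) 2).hom
        ((groupCohomology.map (MonoidHom.id H)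
          ((Rep.resFunctor H.subtype).map (diagRep L T)) 2).hom x) = 0) :
    x = 0 :=
  CFFinalUnit.hasse_units_pPrimary_of' L p hp2 G₀
    (exists_secondIneqHyp L hp2 hdvd G₀ hζ hζG) H hH x hx hloc

end Fermat.Agent.S55.GL.SecondIneqFinal
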