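/-
S55 (T4), block GL2 / GLO3 part 7 (helper3): the comparison `NormIndexDvd` / `HdvdHyp`:
`h⁰(H/N, C_{L,T}^N)` divides the index of `diag(S-units) · ∏_{v ∈ S} N_v(b)` in `∏_{v ∈ S} K_vˣ`
(`K = L^H`, `S` = primes of `K` over `T`).

Method ("forward map only"): `hIdx_quotient_eq_relIndex` identifies `h⁰(C^N)` with
`[J^H : N(J^N) · (E^N ∩ J^H)]`; the homomorphism `Φ : J^H → ∏_{v ∈ S} K_vˣ`,
`f ↦ (f_{q_v}(σ_v|_L))_v` satisfies `Φ⁻¹(diag(S-units) · ∏ N_v) ⊆ N(J^N) · (E^N ∩ J^H)` since local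
norms at a system of representatives are global norms (`exists_relNorm_eq_of`).
-/
import Mathlib
import Fermat.Agent.S55.GL.IdeleLocalUnits
import Fermat.Agent.S55.GL.IdelePlaceSystem
import Fermat.Agent.S55.GL.LayerQuotIndex
import Fermat.Agent.S55.GL.SecondIneq.NormCompare
import Fermat.Agent.S55.GL.SecondIneq.ModelPlaces
import Fermat.Agent.S55.GL.SecondIneqFinal

set_option autoImplicit false
set_option linter.style.haveILetI false
set_option linter.unusedSectionVars false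

universe u

open CategoryTheory groupCohomology Rep Fermat.Agent.S14.Herbrand
  Fermat.Agent.S55.GC.HerbrandBridge Fermat.Agent.S55.GC

namespace Fermat.Agent.S55.GL.IdeleSecondIneq

open Fermat.Agent.S55.GL.CF1 Fermat.Agent.S55.GL.SecondIneq

section Abstract

variable {k : Type u} [CommRing k] {Q : Type u} [Group Q] [Fintype Q]
  (Y : ShortComplex (Rep.{u} k Q))

/-- `QuotIndex.hIdx_quotient_eq_relIndex` for a short exact sequence `0 → E → J → C → 0` of
modules over a finite cyclic group `Q = ⟨g⟩` with `H¹(Q, E) = 0`. -/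
theorem hIdx_eq_relIndex_of_shortExact (hY : Y.ShortExact) (g : Q)
    (hg : ∀ x, x ∈ Subgroup.zpowers g) (h1 : Limits.IsZero (groupCohomology Y.X₁ 1)) :
    hIdx (dlt (sigma Y.X₃ g)) (nrm (sigma Y.X₃ g) (Fintype.card Q)) =
      ((nrm (sigma Y.X₂ g) (Fintype.card Q)).range ⊔
        ((Y.f.hom.toLinearMap.toAddMonoidHom).range ⊓ (dlt (sigma Y.X₂ g)).ker)).relIndex
          (dlt (sigma Y.X₂ g)).ker := by
  have hinj : Function.Injective Y.f.hom := (Rep.mono_iff_injective _).1 hY.mono_f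
  have hsurj : Function.Surjective Y.g.hom := (Rep.epi_iff_surjective _).1 hY.epi_g
  have hex := (rep_exact_iff Y).1 hY.exact
  have hzero : ∀ x, Y.g.hom (Y.f.hom x) = 0 := fun x => by
    have := congrArg (fun φ : Y.X₁ ⟶ Y.X₃ => φ.hom x) Y.zero
    exact this
  have hgn : g ^ Fintype.card Q = 1 := pow_card_eq_one
  refine hIdx_quotient_eq_relIndex (sigma Y.X₂ g) (Fintype.card Q)
    (sigma_pow_eq_one Y.X₂ g hgn)
    (Y.f.hom.toLinearMap.toAddMonoidHom).range (Y.g.hom.toLinearMap.toAddMonoidHom) hsurj ?_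
    (sigma Y.X₃ g) (fun x => (hom_comm_apply Y.g g x).symm) ?_
  · ext x
    constructor
    · intro hx
      obtain ⟨y, hy⟩ := hex x hx
      exact ⟨y, hy⟩
    · rintro ⟨y, rfl⟩
      exact hzero y
  · rintro _ ⟨e, rfl⟩ he
    have he' : nrm (sigma Y.X₁ g) (Fintype.card Q) e = 0 := by
      apply hinj
      rw [map_zero]
      rw [← he]
      exact (nrm_comp_of_comp (Y.f.hom.toLinearMap.toAddMonoidHom)
        (fun x => (hom_comm_apply Y.f g x).symm) (Fintype.card Q) e).symm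
    obtain ⟨e', he''⟩ := LayerQuotIndex.exists_eq_dlt_of_isZero_H1 Y.X₁ g hg h1 e he'
    refine ⟨Y.f.hom e', ⟨e', rfl⟩, ?_⟩
    rw [he'']
    show Y.f.hom (sigma Y.X₁ g e' - e') = sigma Y.X₂ g (Y.f.hom e') - Y.f.hom e'
    rw [map_sub]
    congr 1
    exact hom_comm_apply Y.f g e'

/-- If `Φ : I → X` is a homomorphism with `Φ⁻¹(Y) ⊆ B`, then `[I : B ∩ I]` divides `[X : Y]`. -/
theorem relIndex_dvd_index_of_forall' {M : Type*} [AddCommGroup M] {X : Type*} [CommGroup X]
    (I B : AddSubgroup M) (Φ : I →+ Additive X) (Y : Subgroup X)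
    (h : ∀ x : I, Additive.toMul (Φ x) ∈ Y → (x : M) ∈ B) : B.relIndex I ∣ Y.index :=
  IdeleLocalUnits.relIndex_dvd_index_of_forall I B Φ Y h

end Abstract

section Layer

open IntermediateField Fermat.Agent.S55.GL.Ideles Fermat.Agent.S55.GL.IdeleInvHerbrand

local notation "Qbar" => AlgebraicClosure ℚ

variable (L : IntermediateField ℚ Qbar) [NumberField L] [Normal ℚ L] [IsGalois ℚ L]
  (T : Finset Nat.Primes) (H : Subgroup (L ≃ₐ[ℚ] L)) (N : Subgroup H) [N.Normal]

/-- **Forward-map form of the comparison**: for a cyclic layer `N ◁ H` of index `n` with generator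
`h`, `T ≠ ∅`, `H¹(N', E_{L,T}) = 0` for all `N'`: if `Φ : (J^N)^{H/N} → X` is a homomorphism with
`Φ⁻¹(Y) ⊆ N(J^N) + (E^N ∩ (J^N)^{H/N})` then `h⁰(H/N, C_{L,T}^N) ∣ [X : Y]`. -/
theorem layer_hIdx_dvd_of_forall (hT : T.Nonempty) (h : H) {n : ℕ} (hn0 : 0 < n)
    (hidx : N.index = n) (hn : ∀ i : ℕ, h ^ i ∈ N ↔ n ∣ i)
    (hall : ∀ N' : Subgroup (L ≃ₐ[ℚ] L),
      Limits.IsZero (groupCohomology (Rep.res N'.subtype (E L T)) 1))
    {X : Type*} [CommGroup X] (Y : Subgroup X)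
    (Φ : ↥(dlt (sigma (layerSC (seq L T) H N).X₂ (QuotientGroup.mk h))).ker →+ Additive X)
    (hΦ : ∀ x : ↥(dlt (sigma (layerSC (seq L T) H N).X₂ (QuotientGroup.mk h))).ker,
      Additive.toMul (Φ x) ∈ Y →
        (x : (layerSC (seq L T) H N).X₂) ∈
          (nrm (sigma (layerSC (seq L T) H N).X₂ (QuotientGroup.mk h)) n).range ⊔
            (((layerSC (seq L T) H N).f.hom.toLinearMap.toAddMonoidHom).range ⊓
              (dlt (sigma (layerSC (seq L T) H N).X₂ (QuotientGroup.mk h))).ker)) :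
    hIdx (dlt (sigma (layerSC (seq L T) H N).X₃ (QuotientGroup.mk h)))
      (nrm (sigma (layerSC (seq L T) H N).X₃ (QuotientGroup.mk h)) n) ∣ Y.index := by
  have hY : (layerSC (seq L T) H N).ShortExact :=
    layerSC_shortExact H N (seq_shortExact L T hT) (CFIdele.isZero_H1_res_res_E L hall H N)
  have hfin : Finite (H ⧸ N) := by
    apply Nat.finite_of_card_ne_zero
    rw [← Subgroup.index_eq_card, hidx]
    exact hn0.ne'
  let _ : Fintype (H ⧸ N) := Fintype.ofFinite _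
  have hcard : Fintype.card (H ⧸ N) = n := by
    rw [Fintype.card_eq_nat_card, ← Subgroup.index_eq_card, hidx]
  have hg := IdeleLayerHE.mk_generates_of_index N h hn0 hidx hn
  have key := hIdx_eq_relIndex_of_shortExact (layerSC (seq L T) H N) hY (QuotientGroup.mk h) hg
    (LayerQuotIndex.isZero_H1_layer_E L T H N (hall H))
  rw [hcard] at key
  rw [key]
  exact relIndex_dvd_index_of_forall' _ _ Φ Y hΦ

end Layer

/-! ### The forward map `Φ` and the comparison -/

open IntermediateField NumberField IsDedekindDomain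
open Fermat.Agent.S55.LocalDict Fermat.Agent.S55.GL.LocalFieldAt Fermat.Agent.S55.GL.CoindFun
  Fermat.Agent.S55.GL.CoindInv Fermat.Agent.S55.GL.Places Fermat.Agent.S55.GL.IdelePlaces
  Fermat.Agent.S55.GL.PlacesUnits Fermat.Agent.S55.GL.PlacesDVR Fermat.Agent.S55.GL.Ideles
  Fermat.Agent.S55.GL.IdeleLocalUnits Fermat.Agent.S55.GL.IdelePlaceSystem

local notation "Qbar" => AlgebraicClosure ℚ
local notation "Γ" => (AlgebraicClosure ℚ ≃ₐ[ℚ] AlgebraicClosure ℚ)

/-- primes as `Fact`s -/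
local instance factPrime_isi (q : Nat.Primes) : Fact (q : ℕ).Prime := ⟨q.2⟩

section Phi

variable (L : IntermediateField ℚ Qbar) [NumberField L] [Normal ℚ L]
  (T : Finset Nat.Primes) (H : Subgroup (L ≃ₐ[ℚ] L)) [NumberField ↥(fixedLift L H)]

/-- evaluation of an idèle at `(q, g)` -/
noncomputable def evalIdele (q : T) (g : L ≃ₐ[ℚ] L) :
    Idele L T →* (localField ((q : Nat.Primes) : ℕ) L)ˣ where
  toFun f := f.comp q g
  map_one' := rfl
  map_mul' _ _ := rfl

theorem evalIdele_apply (q : T) (g : L ≃ₐ[ℚ] L) (f : Idele L T) :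
    evalIdele L T q g f = f.comp q g := rfl

/-- the components of an `H`-invariant idèle are `H`-invariant functions -/
theorem comp_mem_coindInv {f : Idele L T} (hf : f ∈ fixedSub (X := Idele L T) H) (q : T) :
    f q ∈ coindInv (resLoc ((q : Nat.Primes) : ℕ) L) H :=
  mem_coindInv_iff_smul.2 (fun h hh => congrFun (hf h hh) q)

theorem evalIdele_mem {f : Idele L T} (hf : f ∈ fixedSub (X := Idele L T) H) (q : T)
    (g : L ≃ₐ[ℚ] L) :
    evalIdele L T q g f ∈ fixedSub (X := (localField ((q : Nat.Primes) : ℕ) L)ˣ)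
      (deltaAt (resLoc ((q : Nat.Primes) : ℕ) L) H g) :=
  apply_mem_fixedSub (comp_mem_coindInv L T H hf q) g

/-- The component of an `H`-invariant idèle at the prime `v` of `K = L^H`, in `K_vˣ`. -/
noncomputable def compHom (v : HeightOneSpectrum (𝓞 ↥(fixedLift L H)))
    (hv : ratPrime (fixedLift L H) v ∈ T) :
    fixedSub (X := Idele L T) H →* (completionAt (fixedLift L H) v)ˣ :=
  (localUnitsHom ((ratPrime (fixedLift L H) v : Nat.Primes) : ℕ) L H
    (sigmaAt (fixedLift L H) v)).comp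
    (MonoidHom.codRestrict
      ((evalIdele L T ⟨ratPrime (fixedLift L H) v, hv⟩
        (resΓ L (sigmaAt (fixedLift L H) v))).comp (fixedSub (X := Idele L T) H).subtype)
      (fixedSub (X := (localField ((ratPrime (fixedLift L H) v : Nat.Primes) : ℕ) L)ˣ)
        (deltaAt (resLoc ((ratPrime (fixedLift L H) v : Nat.Primes) : ℕ) L) H
          (resΓ L (sigmaAt (fixedLift L H) v))))
      (fun f => evalIdele_mem L T H f.2 ⟨ratPrime (fixedLift L H) v, hv⟩ _))

theorem coe_compHom (v : HeightOneSpectrum (𝓞 ↥(fixedLift L H)))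
    (hv : ratPrime (fixedLift L H) v ∈ T) (f : fixedSub (X := Idele L T) H) :
    (((compHom L T H v hv f : (completionAt (fixedLift L H) v)ˣ) :
      completionAt (fixedLift L H) v) : PadicAlgCl ((ratPrime (fixedLift L H) v : Nat.Primes) : ℕ)) =
      ((((f : Idele L T).comp ⟨ratPrime (fixedLift L H) v, hv⟩
        (resΓ L (sigmaAt (fixedLift L H) v)) :
          (localField ((ratPrime (fixedLift L H) v : Nat.Primes) : ℕ) L)ˣ) :
        localField ((ratPrime (fixedLift L H) v : Nat.Primes) : ℕ) L) :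
          PadicAlgCl ((ratPrime (fixedLift L H) v : Nat.Primes) : ℕ)) :=
  coe_localUnitsHom ((ratPrime (fixedLift L H) v : Nat.Primes) : ℕ) L H
    (sigmaAt (fixedLift L H) v) _

/-- `Φ₀ : J^H → ∏_{v ∈ S} K_vˣ`, `S` the primes of `K = L^H` over `T`. -/
noncomputable def phi0 :
    fixedSub (X := Idele L T) H →*
      (∀ v : ↥(primesOver (fixedLift L H) T), (completionAt (fixedLift L H) v)ˣ) :=
  MonoidHom.pi (fun v => compHom L T H v.1 (ratPrime_mem_of_mem_primesOver _ v.2))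

theorem phi0_apply (f : fixedSub (X := Idele L T) H)
    (v : ↥(primesOver (fixedLift L H) T)) :
    phi0 L T H f v = compHom L T H v.1 (ratPrime_mem_of_mem_primesOver _ v.2) f := rfl

/-- the diagonal idèle of an `H`-fixed unit is `H`-invariant -/
theorem diag_mem_fixedSub (u : (↥L)ˣ) (hu : ∀ h ∈ H, h (u : L) = (u : L)) :
    diag L T u ∈ fixedSub (X := Idele L T) H := by
  intro h hh
  rw [← diag_smul]
  congr 1
  apply Units.ext
  show h (u : L) = (u : L)
  exact hu h hh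

/-- `Φ₀` of a diagonal idèle is the diagonal embedding of `K` into `∏ K_v`. -/
theorem compHom_diag (v : HeightOneSpectrum (𝓞 ↥(fixedLift L H)))
    (hv : ratPrime (fixedLift L H) v ∈ T) (u : (↥(fixedLift L H))ˣ)
    (hmem : diag L T (unitsToL (fixedLift_le L H) u) ∈ fixedSub (X := Idele L T) H) :
    compHom L T H v hv ⟨diag L T (unitsToL (fixedLift_le L H) u), hmem⟩ =
      Units.map (locAt (fixedLift L H) v : ↥(fixedLift L H) →* completionAt (fixedLift L H) v)
        u := by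
  apply localUnits_ext
  rw [coe_compHom]
  exact (coe_comp_diag_resΓ L T (unitsToL (fixedLift_le L H) u)
    ⟨ratPrime (fixedLift L H) v, hv⟩ (sigmaAt (fixedLift L H) v))

/-- **Per place**: if the component of `f ∈ J^H` at the prime `v` of `K` is a local norm from
`K_v(β_v)`, then the value of `f` at the representative `σ_v|_L` is a group-theoretic relative
norm. -/
theorem exists_relNorm_of_mem_normGroup {p : ℕ} (N' : Subgroup (L ≃ₐ[ℚ] L)) (hNH : N' ≤ H)
    (b : (↥(fixedLift L H))ˣ)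
    (hM : fixedLift L N' = fixedLift L H ⊔
      ℚ⟮pRoot p (((b : (↥(fixedLift L H))ˣ) : ↥(fixedLift L H)) : Qbar)⟯)
    (q0 : Nat.Primes) (hq0 : q0 ∈ T) (v : HeightOneSpectrum (𝓞 ↥(fixedLift L H)))
    (hv : ratPrime (fixedLift L H) v ∈ T) (h : ratPrime (fixedLift L H) v = q0)
    (f : fixedSub (X := Idele L T) H)
    (hx : compHom L T H v hv f ∈
      normGroup (completionAt (fixedLift L H) v) (betaAt (fixedLift L H) p b v)) :
    ∃ z ∈ fixedSub (X := (localField ((q0 : Nat.Primes) : ℕ) L)ˣ)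
        (deltaAt (resLoc ((q0 : Nat.Primes) : ℕ) L) N' (resΓ L (sigmaAt (fixedLift L H) v))),
      (f : Idele L T).comp ⟨q0, hq0⟩ (resΓ L (sigmaAt (fixedLift L H) v)) =
        relNorm (deltaAt (resLoc ((q0 : Nat.Primes) : ℕ) L) H
            (resΓ L (sigmaAt (fixedLift L H) v)))
          (deltaAt (resLoc ((q0 : Nat.Primes) : ℕ) L) N' (resΓ L (sigmaAt (fixedLift L H) v)))
          z := by
  subst h
  exact exists_relNorm_eq_of_mem_normGroup ((ratPrime (fixedLift L H) v : Nat.Primes) : ℕ)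
    H N' hNH _ hM (sigmaAt (fixedLift L H) v) (compHom L T H v hv f) hx _
    (coe_compHom L T H v hv f).symm

end Phi

section Cyclic

/-- For `S' ≤ S` of index `n` and `σ ∈ S` with `σ^i ∈ S' ↔ n ∣ i`, the powers `σ^0, …, σ^{n-1}`
represent `S / S'`. -/
theorem bijective_pow_mk {G : Type*} [Group G] (S S' : Subgroup G) (σ : G) (hσ : σ ∈ S)
    (n : ℕ) (hn0 : 0 < n) (hidx : (S'.subgroupOf S).index = n)
    (hn : ∀ i : ℕ, σ ^ i ∈ S' ↔ n ∣ i) :
    Function.Bijective
      (fun i : Fin n => (QuotientGroup.mk (⟨σ, hσ⟩ ^ (i : ℕ) : S) : S ⧸ S'.subgroupOf S)) := by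
  have hfin : Finite (S ⧸ S'.subgroupOf S) := by
    apply Nat.finite_of_card_ne_zero
    rw [← Subgroup.index_eq_card, hidx]
    exact hn0.ne'
  have key : ∀ i j : ℕ, i ≤ j → j < n →
      (QuotientGroup.mk (⟨σ, hσ⟩ ^ i : S) : S ⧸ S'.subgroupOf S) =
        QuotientGroup.mk (⟨σ, hσ⟩ ^ j : S) → i = j := by
    intro i j hij hj h
    rw [QuotientGroup.eq, Subgroup.mem_subgroupOf] at h
    have h1 : (((⟨σ, hσ⟩ ^ i : S)⁻¹ * (⟨σ, hσ⟩ ^ j : S) : S) : G) = σ ^ (j - i) := by
      push_cast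
      rw [← zpow_natCast, ← zpow_natCast, ← zpow_natCast, ← zpow_neg, ← zpow_add]
      congr 1
      omega
    rw [h1, hn] at h
    have h2 : j - i = 0 := Nat.eq_zero_of_dvd_of_lt h (by omega)
    omega
  apply Function.Injective.bijective_of_nat_card_le
  · intro i j h
    rcases le_total (i : ℕ) (j : ℕ) with hij | hij
    · exact Fin.ext (key _ _ hij j.2 h)
    · exact Fin.ext (key _ _ hij i.2 h.symm).symm
  · rw [← Subgroup.index_eq_card, hidx, Nat.card_eq_fintype_card, Fintype.card_fin]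

end Cyclic

section Key

variable (L : IntermediateField ℚ Qbar) [NumberField L] [Normal ℚ L]
  (T : Finset Nat.Primes) (H : Subgroup (L ≃ₐ[ℚ] L)) [NumberField ↥(fixedLift L H)]

/-- projection of an idèle to its `q`-component -/
noncomputable def projIdele (q : T) : Idele L T →* ideleAt ((q : Nat.Primes) : ℕ) L where
  toFun f := f q
  map_one' := rfl
  map_mul' _ _ := rfl

/-- **Local norms at all primes of `K` over `q₀` give a global norm at `q₀`.** -/
theorem exists_norm_component {p : ℕ} (hp0 : 0 < p) (N' : Subgroup (L ≃ₐ[ℚ] L)) (hNH : N' ≤ H)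
    (h : L ≃ₐ[ℚ] L) (hh : h ∈ H) (hidx : (N'.subgroupOf H).index = p)
    (hn : ∀ i : ℕ, h ^ i ∈ N' ↔ p ∣ i)
    (b : (↥(fixedLift L H))ˣ)
    (hM : fixedLift L N' = fixedLift L H ⊔
      ℚ⟮pRoot p (((b : (↥(fixedLift L H))ˣ) : ↥(fixedLift L H)) : Qbar)⟯)
    (f : fixedSub (X := Idele L T) H)
    (hf : ∀ v : ↥(primesOver (fixedLift L H) T), phi0 L T H f v ∈
      normGroup (completionAt (fixedLift L H) v) (betaAt (fixedLift L H) p b v))
    (q0 : Nat.Primes) (hq0 : q0 ∈ T) :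
    ∃ Z ∈ coindInv (resLoc ((q0 : Nat.Primes) : ℕ) L) N',
      (f : Idele L T) ⟨q0, hq0⟩ = ∏ i ∈ Finset.range p, h ^ i • Z := by
  classical
  -- the representatives
  have hex := fun c : DoubleCoset.Quotient ((resLoc ((q0 : Nat.Primes) : ℕ) L).range :
      Set (L ≃ₐ[ℚ] L)) (H : Set (L ≃ₐ[ℚ] L)) =>
    exists_prime_mk_eq L H (fixedLift L H) rfl T q0 hq0 (dcRep (resLoc ((q0 : Nat.Primes) : ℕ) L) H c)
  choose vOf hvmem hvrat hvmk using hex
  have hr : IsRepSystem (resLoc ((q0 : Nat.Primes) : ℕ) L) H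
      (fun c => resΓ L (sigmaAt (fixedLift L H) (vOf c))) := fun c =>
    (hvmk c).trans (mk_dcRep _ _ c)
  have hfq : (f : Idele L T) ⟨q0, hq0⟩ ∈ coindInv (resLoc ((q0 : Nat.Primes) : ℕ) L) H :=
    comp_mem_coindInv L T H f.2 ⟨q0, hq0⟩
  obtain ⟨Z, hZ, hZe⟩ := exists_relNorm_eq_of hr N' hNH hfq (fun c =>
    exists_relNorm_of_mem_normGroup L T H N' hNH b hM q0 hq0 (vOf c)
      (ratPrime_mem_of_mem_primesOver _ (hvmem c)) (hvrat c) f (hf ⟨vOf c, hvmem c⟩))
  refine ⟨Z, hZ, ?_⟩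
  rw [hZe]
  have hZ' : Z ∈ fixedSub (X := coindFun (Ω := (localField ((q0 : Nat.Primes) : ℕ) L)ˣ)
      (resLoc ((q0 : Nat.Primes) : ℕ) L)) N' := by
    rw [← coindInv_eq_fixedSub]; exact hZ
  exact relNorm_eq_prod_range_pow H N' hZ' h hh p (bijective_pow_mk H N' h hh p hp0 hidx hn)

/-- **Local norms at all primes of `K` over `T` give a global norm** (idèle level). -/
theorem exists_norm_idele {p : ℕ} (hp0 : 0 < p) (N' : Subgroup (L ≃ₐ[ℚ] L)) (hNH : N' ≤ H)
    (h : L ≃ₐ[ℚ] L) (hh : h ∈ H) (hidx : (N'.subgroupOf H).index = p)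
    (hn : ∀ i : ℕ, h ^ i ∈ N' ↔ p ∣ i)
    (b : (↥(fixedLift L H))ˣ)
    (hM : fixedLift L N' = fixedLift L H ⊔
      ℚ⟮pRoot p (((b : (↥(fixedLift L H))ˣ) : ↥(fixedLift L H)) : Qbar)⟯)
    (f : fixedSub (X := Idele L T) H)
    (hf : ∀ v : ↥(primesOver (fixedLift L H) T), phi0 L T H f v ∈
      normGroup (completionAt (fixedLift L H) v) (betaAt (fixedLift L H) p b v)) :
    ∃ Z : Idele L T, (∀ ν ∈ N', ν • Z = Z) ∧
      (f : Idele L T) = ∏ i ∈ Finset.range p, h ^ i • Z := by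
  have key := fun q : T =>
    exists_norm_component L T H hp0 N' hNH h hh hidx hn b hM f hf q.1 q.2
  choose Z hZ hZe using key
  refine ⟨fun q => Z q, fun ν hν => ?_, ?_⟩
  · funext q
    exact (mem_coindInv_iff_smul.1 (hZ q)) ν hν
  · funext q
    have h1 : projIdele L T q (∏ i ∈ Finset.range p, h ^ i • (fun q => Z q : Idele L T)) =
        ∏ i ∈ Finset.range p, projIdele L T q (h ^ i • (fun q => Z q : Idele L T)) :=
      map_prod (projIdele L T q) (fun i => h ^ i • (fun q => Z q : Idele L T)) (Finset.range p)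
    exact (hZe q).trans h1.symm

end Key

section Final

theorem mem_of_eq_of_mem {X : Type*} [Group X] {S : Subgroup X} {a b : X} (h : a = b)
    (hb : b ∈ S) : a ∈ S := h ▸ hb

open Fermat.Agent.S55.GL.IdeleInvHerbrand Fermat.Agent.S55.GL.LayerQuotIndex

variable (L : IntermediateField ℚ Qbar) [NumberField L] [Normal ℚ L] [IsGalois ℚ L]
  (T : Finset Nat.Primes) (H : Subgroup (L ≃ₐ[ℚ] L)) (N : Subgroup H) [N.Normal]
  [NumberField ↥(fixedLift L H)]

theorem subgroupOf_subG : (subG H N).subgroupOf H = N := by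
  ext x
  rw [Subgroup.mem_subgroupOf]
  exact coe_mem_subG_iff

/-- assembling the two summands -/
theorem mem_sup_of_eq {p : ℕ} (h : H) (hp0 : 0 < p) (hidx : N.index = p)
    (hn : ∀ i : ℕ, h ^ i ∈ N ↔ p ∣ i) (x : (layerSC (seq L T) H N).X₂)
    (uL : (↥L)ˣ) (hu1 : uL ∈ tUnits L T) (hu2 : ∀ g ∈ H, g (uL : L) = (uL : L))
    (dmem : diag L T uL ∈ fixedSub (X := Idele L T) H)
    (Z : Idele L T) (hZinv : ∀ ν : H, ν ∈ N → ((ν : H) : L ≃ₐ[ℚ] L) • Z = Z)
    (hZe : ideleOf L T H N x / diag L T uL =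
      ∏ i ∈ Finset.range p, (h : L ≃ₐ[ℚ] L) ^ i • Z) :
    x ∈ (nrm (sigma (layerSC (seq L T) H N).X₂ (QuotientGroup.mk h)) p).range ⊔
      (((layerSC (seq L T) H N).f.hom.toLinearMap.toAddMonoidHom).range ⊓
        (dlt (sigma (layerSC (seq L T) H N).X₂ (QuotientGroup.mk h))).ker) := by
  have hdinv : ∀ ν : H, ν ∈ N → ((ν : H) : L ≃ₐ[ℚ] L) • diag L T uL = diag L T uL :=
    fun ν _ => dmem _ ν.2
  have hxe : x = nrm (sigma (layerSC (seq L T) H N).X₂ (QuotientGroup.mk h)) p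
      (mkX₂ L T H N Z hZinv) + mkX₂ L T H N (diag L T uL) hdinv := by
    apply ideleOf_injective
    have h1 := ideleOf_add L T H N
      (nrm (sigma (layerSC (seq L T) H N).X₂ (QuotientGroup.mk h)) p (mkX₂ L T H N Z hZinv))
      (mkX₂ L T H N (diag L T uL) hdinv)
    have h2 := ideleOf_nrm L T H N h p (mkX₂ L T H N Z hZinv)
    have h4 : ideleOf L T H N (mkX₂ L T H N (diag L T uL) hdinv) = diag L T uL := rfl
    have h2' : ideleOf L T H N (nrm (sigma (layerSC (seq L T) H N).X₂ (QuotientGroup.mk h)) p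
        (mkX₂ L T H N Z hZinv)) = ∏ i ∈ Finset.range p, (h : L ≃ₐ[ℚ] L) ^ i • Z := h2
    have h5 := h1.trans (congrArg₂ (· * ·) h2' h4)
    have h6 : ideleOf L T H N x =
        (∏ i ∈ Finset.range p, (h : L ≃ₐ[ℚ] L) ^ i • Z) * diag L T uL := by
      rw [← hZe]
      exact (div_mul_cancel _ _).symm
    exact h6.trans h5.symm
  have hmem1 : mkX₂ L T H N (diag L T uL) hdinv ∈
      ((layerSC (seq L T) H N).f.hom.toLinearMap.toAddMonoidHom).range := by
    refine (mem_range_f_iff L T H N _).2 ⟨uL, hu1, ?_, rfl⟩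
    intro ν hν
    apply Units.ext
    show ((ν : H) : L ≃ₐ[ℚ] L) (uL : L) = _
    exact hu2 _ ν.2
  have hmem2 : mkX₂ L T H N (diag L T uL) hdinv ∈
      (dlt (sigma (layerSC (seq L T) H N).X₂ (QuotientGroup.mk h))).ker := by
    refine (mem_ker_dlt_iff' L T H N h hp0 hidx hn _).2 ?_
    intro g hg
    exact dmem g hg
  exact AddSubgroup.mem_sup.2 ⟨_, ⟨_, rfl⟩, _, ⟨hmem1, hmem2⟩, hxe.symm⟩

/-- **Key step**: an `H`-invariant element of `J^N` whose image under `Φ₀` is a diagonal `S`-unit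
times local norms lies in `N(J^N) + (E^N ∩ J^H)`. -/
theorem mem_sup_of_phi0_mem {p : ℕ} (h : H) (hp0 : 0 < p) (hidx : N.index = p)
    (hn : ∀ i : ℕ, h ^ i ∈ N ↔ p ∣ i) (b : (↥(fixedLift L H))ˣ)
    (hM : fixedLift L (subG H N) = fixedLift L H ⊔
      ℚ⟮pRoot p (((b : (↥(fixedLift L H))ˣ) : ↥(fixedLift L H)) : Qbar)⟯)
    (x : (layerSC (seq L T) H N).X₂)
    (hfx : ideleOf L T H N x ∈ fixedSub (X := Idele L T) H)
    (hΦ : phi0 L T H ⟨ideleOf L T H N x, hfx⟩ ∈
      (diagHom (G := fun v => (completionAt (fixedLift L H) v)ˣ)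
        (fun v => Units.map (locAt (fixedLift L H) v :
          ↥(fixedLift L H) →* completionAt (fixedLift L H) v))
        (primesOver (fixedLift L H) T)).range ⊔
      Subgroup.pi Set.univ (fun v : ↥(primesOver (fixedLift L H) T) =>
        normGroup (completionAt (fixedLift L H) v) (betaAt (fixedLift L H) p b v))) :
    x ∈ (nrm (sigma (layerSC (seq L T) H N).X₂ (QuotientGroup.mk h)) p).range ⊔
      (((layerSC (seq L T) H N).f.hom.toLinearMap.toAddMonoidHom).range ⊓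
        (dlt (sigma (layerSC (seq L T) H N).X₂ (QuotientGroup.mk h))).ker) := by
  have h0 := Subgroup.mem_sup.1 hΦ
  refine Exists.elim h0 fun y hy => ?_
  refine Exists.elim hy.2 fun z hz' => ?_
  have hz := hz'.1
  have hyz := hz'.2
  refine Exists.elim (MonoidHom.mem_range.1 hy.1) fun u hu => ?_
  -- the diagonal `S`-unit, viewed in `L`
  have huL := (exists_sUnit_eq_iff L (fixedLift L H) H rfl (fixedLift_le L H) T
    (unitsToL (fixedLift_le L H) (u : (↥(fixedLift L H))ˣ))).1 ⟨u.1, u.2, rfl⟩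
  have dmem : diag L T (unitsToL (fixedLift_le L H) (u : (↥(fixedLift L H))ˣ)) ∈
      fixedSub (X := Idele L T) H := diag_mem_fixedSub L T H _ huL.2
  have hyd : phi0 L T H ⟨_, dmem⟩ = y := by
    rw [← hu]
    funext v
    exact compHom_diag L T H v.1 (ratPrime_mem_of_mem_primesOver _ v.2) u.1 dmem
  -- the quotient `f / diag u` has local norm components
  have hw : phi0 L T H (⟨ideleOf L T H N x, hfx⟩ / ⟨_, dmem⟩) = z := by
    rw [map_div, hyd, ← hyz]
    exact mul_div_cancel_left _ _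
  have hwN : ∀ v : ↥(primesOver (fixedLift L H) T),
      phi0 L T H (⟨ideleOf L T H N x, hfx⟩ / ⟨_, dmem⟩) v ∈
        normGroup (completionAt (fixedLift L H) v) (betaAt (fixedLift L H) p b v) := by
    intro v
    have h1 : z v ∈ normGroup (completionAt (fixedLift L H) v)
        (betaAt (fixedLift L H) p b v) := (Subgroup.mem_pi _).1 hz v (Set.mem_univ v)
    have h2 : phi0 L T H (⟨ideleOf L T H N x, hfx⟩ / ⟨_, dmem⟩) v = z v := congrFun hw v
    exact mem_of_eq_of_mem h2 h1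
  have hidx' : ((subG H N).subgroupOf H).index = p := by rw [subgroupOf_subG, hidx]
  have hNH : subG H N ≤ H := by rintro _ ⟨ν, _, rfl⟩; exact ν.2
  have key := exists_norm_idele L T H hp0 (subG H N) hNH (h : L ≃ₐ[ℚ] L) h.2 hidx'
    (fun i => (coe_pow_mem_subG_iff h i).trans (hn i)) b hM _ hwN
  refine Exists.elim key fun Z hZ => ?_
  exact mem_sup_of_eq L T H N h hp0 hidx hn x _ huL.1 huL.2 dmem Z
    (fun ν hν => hZ.1 _ (coe_mem_subG hν)) hZ.2

/-- an element of `(J^N)^{H/N}` as an `H`-invariant idèle -/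
noncomputable def kerToInv {p : ℕ} (h : H) (hp0 : 0 < p) (hidx : N.index = p)
    (hn : ∀ i : ℕ, h ^ i ∈ N ↔ p ∣ i)
    (x : ↥(dlt (sigma (layerSC (seq L T) H N).X₂ (QuotientGroup.mk h))).ker) :
    fixedSub (X := Idele L T) H :=
  ⟨ideleOf L T H N x.1, (mem_ker_dlt_iff' L T H N h hp0 hidx hn x.1).1 x.2⟩

theorem kerToInv_add {p : ℕ} (h : H) (hp0 : 0 < p) (hidx : N.index = p)
    (hn : ∀ i : ℕ, h ^ i ∈ N ↔ p ∣ i)
    (x y : ↥(dlt (sigma (layerSC (seq L T) H N).X₂ (QuotientGroup.mk h))).ker) :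
    kerToInv L T H N h hp0 hidx hn (x + y) =
      kerToInv L T H N h hp0 hidx hn x * kerToInv L T H N h hp0 hidx hn y :=
  Subtype.ext ((congrArg (ideleOf L T H N) (AddSubgroup.coe_add _ x y)).trans
    (ideleOf_add L T H N x.1 y.1))

/-- The homomorphism `Φ : (J^N)^{H/N} → ∏_{v ∈ S} K_vˣ` on the layer module. -/
noncomputable def layerPhi {p : ℕ} (h : H) (hp0 : 0 < p) (hidx : N.index = p)
    (hn : ∀ i : ℕ, h ^ i ∈ N ↔ p ∣ i) :
    ↥(dlt (sigma (layerSC (seq L T) H N).X₂ (QuotientGroup.mk h))).ker →+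
      Additive (∀ v : ↥(primesOver (fixedLift L H) T), (completionAt (fixedLift L H) v)ˣ) :=
  AddMonoidHom.mk' (fun x => Additive.ofMul (phi0 L T H (kerToInv L T H N h hp0 hidx hn x)))
    (fun x y => (congrArg (fun f => Additive.ofMul (phi0 L T H f))
      (kerToInv_add L T H N h hp0 hidx hn x y)).trans
        (congrArg Additive.ofMul (map_mul (phi0 L T H) _ _)))

theorem layerPhi_apply {p : ℕ} (h : H) (hp0 : 0 < p) (hidx : N.index = p)
    (hn : ∀ i : ℕ, h ^ i ∈ N ↔ p ∣ i)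
    (x : ↥(dlt (sigma (layerSC (seq L T) H N).X₂ (QuotientGroup.mk h))).ker) :
    Additive.toMul (layerPhi L T H N h hp0 hidx hn x) =
      phi0 L T H (kerToInv L T H N h hp0 hidx hn x) := rfl

/-- **The comparison `NormIndexDvd`** for `K = fixedLift L H`. -/
theorem normIndexDvd_fixedLift {p : ℕ} (hp0 : 0 < p) (b : (↥(fixedLift L H))ˣ) (h : H)
    (hM : fixedLift L (subG H N) = fixedLift L H ⊔
      ℚ⟮pRoot p (((b : (↥(fixedLift L H))ˣ) : ↥(fixedLift L H)) : Qbar)⟯)
    (hidx : N.index = p) (hn : ∀ i : ℕ, h ^ i ∈ N ↔ p ∣ i) (hT : T.Nonempty)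
    (hall : ∀ N' : Subgroup (L ≃ₐ[ℚ] L),
      Limits.IsZero (groupCohomology (Rep.res N'.subtype (E L T)) 1)) :
    FirstIneqKummer.NormIndexDvd (fixedLift L H) p b L H N h T := by
  unfold FirstIneqKummer.NormIndexDvd
  exact layer_hIdx_dvd_of_forall L T H N hT h hp0 hidx hn hall _
    (layerPhi L T H N h hp0 hidx hn)
    (fun x hx => mem_sup_of_phi0_mem L T H N h hp0 hidx hn b hM x.1
      (kerToInv L T H N h hp0 hidx hn x).2 hx)

end Final

/-- **helper29's `HdvdHyp p`** (the single remaining hypothesis of the GLO7/GLO8 chain). -/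
theorem hdvdHyp {p : ℕ} (hp0 : 0 < p) : SecondIneqFinal.HdvdHyp p := by
  intro K _ b L _ _ _ H N _ h hK hM hidx hn
  refine ⟨∅, fun T _ hT hall => ?_⟩
  subst hK
  exact normIndexDvd_fixedLift L T H N hp0 b h hM hidx hn hT hall

end Fermat.Agent.S55.GL.IdeleSecondIneq
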