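/-
S55 (T4), GLO7/GLO8 (helper3): the UNCONDITIONAL finals of the global class-formation chain,
i.e. helper29's `SecondIneqFinal.*_of_hdvd` with `hdvd := IdeleSecondIneq.hdvdHyp`.

`L/ℚ` finite Galois inside `ℚ̄`, `p` an odd prime, `G₀ ≤ Gal(L/ℚ)` with `ζ_p ∈ L^{G₀}`:

* `exists_secondIneqHyp` : the second inequality `h⁰(H/N, C_{L,T}^N) ≤ p` for all cyclic layers of
  degree `p` below `G₀`, `T` large;
* `exists_finset_layerHyp_C` : `CF1.LayerHyp p (res G₀ C_{L,T})` for `T` large;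
* `exists_finset_pgroup_C` : `H¹(H, C_{L,T}) = 0` and `|H²(H, C_{L,T})| ∣ |H|` for `p`-subgroups
  `H ≤ G₀`, `T` large;
* `hasse_units_pPrimary` : the Hasse principle for the `p`-part of `H²(H, Lˣ)`, `H ≤ G₀`.
-/
import Mathlib
import Fermat.Agent.S55.GL.IdeleSecondIneq

set_option autoImplicit false
set_option linter.unusedSectionVars false

open CategoryTheory groupCohomology Rep Fermat.Agent.S14.Herbrand
  Fermat.Agent.S55.GC.HerbrandBridge Fermat.Agent.S55.GC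

namespace Fermat.Agent.S55.GL.CFUncond

open IntermediateField Fermat.Agent.S55.GL.Ideles Fermat.Agent.S55.GL.IdelePlaces
  Fermat.Agent.S55.GL.CF1 Fermat.Agent.S55.GL.SecondIneqFinal

local notation "Qbar" => AlgebraicClosure ℚ

variable (L : IntermediateField ℚ Qbar) [NumberField L] [Normal ℚ L] [IsGalois ℚ L]

/-- **The second inequality** for all cyclic layers of degree `p` below `G₀`, `T` large. -/
theorem exists_secondIneqHyp {p : ℕ} [hp : Fact p.Prime] (hp2 : p ≠ 2)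
    (G₀ : Subgroup (L ≃ₐ[ℚ] L)) {ζ : L} (hζ : IsPrimitiveRoot ζ p)
    (hζG : (ζ : Qbar) ∈ fixedLift L G₀) :
    ∃ T₃ : Finset Nat.Primes, ∀ T : Finset Nat.Primes, T₃ ⊆ T →
      CFFinal.SecondIneqHyp L p G₀ T :=
  SecondIneqFinal.exists_secondIneqHyp L hp2 (IdeleSecondIneq.hdvdHyp hp.out.pos) G₀ hζ hζG

/-- **`H¹(H, C_{L,T}) = 0` and `|H²(H, C_{L,T})| ∣ |H|`** for `p`-subgroups `H ≤ G₀`, `T` large. -/
theorem exists_finset_pgroup_C {p : ℕ} [hp : Fact p.Prime] (hp2 : p ≠ 2)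
    (G₀ : Subgroup (L ≃ₐ[ℚ] L)) {ζ : L} (hζ : IsPrimitiveRoot ζ p)
    (hζG : (ζ : Qbar) ∈ fixedLift L G₀) (T₁ : Finset Nat.Primes) :
    ∃ T₀ : Finset Nat.Primes, T₁ ⊆ T₀ ∧ ∀ T : Finset Nat.Primes, T₀ ⊆ T →
      T.Nonempty ∧ ∀ (H : Subgroup (L ≃ₐ[ℚ] L)), H ≤ G₀ → ∀ n : ℕ, Nat.card H = p ^ n →
        Limits.IsZero (groupCohomology (Rep.res H.subtype (C L T)) 1) ∧
        Finite (groupCohomology (Rep.res H.subtype (C L T)) 2) ∧
        Nat.card (groupCohomology (Rep.res H.subtype (C L T)) 2) ∣ Nat.card H :=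
  exists_finset_pgroup_C_of_hdvd L hp2 (IdeleSecondIneq.hdvdHyp hp.out.pos) G₀ hζ hζG T₁

/-- **Hasse principle for `H²(H, Lˣ)`, `p`-part, finite level.** -/
theorem hasse_units_pPrimary {p : ℕ} [hp : Fact p.Prime] (hp2 : p ≠ 2)
    (G₀ : Subgroup (L ≃ₐ[ℚ] L)) {ζ : L} (hζ : IsPrimitiveRoot ζ p)
    (hζG : (ζ : Qbar) ∈ fixedLift L G₀)
    (H : Subgroup (L ≃ₐ[ℚ] L)) (hH : H ≤ G₀)
    (x : groupCohomology (Rep.res H.subtype (unitsRep L)) 2)
    (hx : x ∈ CF1.pPrimary p (groupCohomology (Rep.res H.subtype (unitsRep L)) 2))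
    (hloc : ∀ (T : Finset Nat.Primes) (q : T) (g : L ≃ₐ[ℚ] L),
      (groupCohomology.map (IdeleSemiLocal.decomp L T H q g).subtype
          (IdeleSemiLocal.locHom L T H q g) 2).hom
        ((groupCohomology.map (MonoidHom.id H)
          ((Rep.resFunctor H.subtype).map (diagRep L T)) 2).hom x) = 0) :
    x = 0 :=
  hasse_units_pPrimary_of_hdvd L hp2 (IdeleSecondIneq.hdvdHyp hp.out.pos) G₀ hζ hζG H hH x hx
    hloc

end Fermat.Agent.S55.GL.CFUncond
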