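/-
S55 block GLO10, part 3: structure of the cyclotomic `ℤ_p`-tower `L(ζ_{p^n})/L` (`p` odd).

* `isCyclic_gal` : `Gal(L(ζ_{p^m})/L)` is cyclic (`p` odd, any field `L`).
* `pow_eq_one_of_isPrimitiveRoot` / `isPGroup_gal` / `exists_finrank_eq_pow` : if `ζ_p ∈ L`, then
  `Gal(L(ζ_{p^(k+1)})/L)` is a `p`-group of exponent dividing `p ^ k`; `[L(ζ_{p^m}) : L] = p ^ j`.
* `pow_dvd_finrank` : for a number field `L`, `p ^ (n - 1 - [L:ℚ]) ∣ [L(ζ_{p^n}) : L]`
  (the tower is infinite).
* `exists_cyclic_layer_of_dvd` : any field `L ∋ ζ_p`: if `p ^ N ∣ [L(ζ_{p^n}) : L]` there is a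
  cyclic layer `M/L` of degree exactly `p ^ N` inside `L(ζ_{p^n})`.
* `exists_cyclic_layer` : for a number field `L ∋ ζ_p` and every `N`, every model `E` of
  `L(ζ_{p^n})`, `n ≥ N + 1 + [L:ℚ]`, contains an intermediate field `M`, Galois and cyclic over
  `L`, with `[M : L] = p ^ N`  (the "distinguished cyclic layers" of the global class formation;
  they are unramified outside `p`, hence inside `ℚ_S` when `p ∈ S`, and their local degrees at
  every finite place are unbounded by `LocalDegrees.lean`).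

Mathlib only (the arithmetic lemma `pow_sub_dvd_of_pow_dvd_mul` is imported from `LocalDegrees`).
-/
import Mathlib
import Fermat.Agent.S55.GL.LocalDegrees

set_option autoImplicit false
set_option linter.style.haveILetI false
set_option linter.unusedSectionVars false

namespace Fermat.Agent.S55.GL.CycloTower

open IntermediateField Fermat.Agent.S55.GL.LocalDegrees

variable {L E : Type*} [Field L] [Field E] [Algebra L E] {p : ℕ} [Fact p.Prime]

/-- `Gal(L(ζ_{p^m})/L)` is cyclic for odd `p`. -/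
theorem isCyclic_gal (hp2 : p ≠ 2) (m : ℕ) [IsCyclotomicExtension {p ^ m} L E] :
    IsCyclic Gal(E/L) := by
  have hp : p.Prime := Fact.out
  haveI : NeZero (p ^ m) := ⟨pow_ne_zero _ hp.ne_zero⟩
  obtain ⟨ζ, hζ⟩ := IsCyclotomicExtension.exists_isPrimitiveRoot L E
    (Set.mem_singleton (p ^ m)) (NeZero.ne _)
  haveI := ZMod.isCyclic_units_of_prime_pow p hp hp2 m
  exact isCyclic_of_injective (hζ.autToPow L) (hζ.autToPow_injective L)

/-- If `ζ_p ∈ L`, every automorphism of `L(ζ_{p^(k+1)})/L` has order dividing `p ^ k`. -/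
theorem pow_eq_one_of_isPrimitiveRoot {η : L} (hη : IsPrimitiveRoot η p) (k : ℕ)
    [IsCyclotomicExtension {p ^ (k + 1)} L E] (σ : Gal(E/L)) : σ ^ p ^ k = 1 := by
  have hp : p.Prime := Fact.out
  haveI : NeZero (p ^ (k + 1)) := ⟨pow_ne_zero _ hp.ne_zero⟩
  obtain ⟨ζ, hζ⟩ := IsCyclotomicExtension.exists_isPrimitiveRoot L E
    (Set.mem_singleton (p ^ (k + 1))) (NeZero.ne _)
  -- `ζ ^ p ^ k` lies in `L`
  have hη' : IsPrimitiveRoot (algebraMap L E η) p := hη.map_of_injective (algebraMap L E).injective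
  have h1 : (ζ ^ p ^ k) ^ p = 1 := by rw [← pow_mul, ← pow_succ, hζ.pow_eq_one]
  obtain ⟨j, -, hj⟩ := hη'.eq_pow_of_pow_eq_one h1
  have hfix : σ (ζ ^ p ^ k) = ζ ^ p ^ k := by
    rw [← hj, ← map_pow, AlgEquiv.commutes]
  -- the exponent of `σ` is `≡ 1 mod p`
  set a : ℕ := ((hζ.autToPow L σ : (ZMod (p ^ (k + 1)))ˣ) : ZMod (p ^ (k + 1))).val with ha
  have hσζ : σ ζ = ζ ^ a := (hζ.autToPow_spec L σ).symm
  have h2 : ζ ^ (a * p ^ k) = ζ ^ (1 * p ^ k) := by
    rw [pow_mul, ← hσζ, ← map_pow, hfix, one_mul]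
  have h3 : a * p ^ k ≡ 1 * p ^ k [MOD p ^ (k + 1)] := by
    have hζ0 : ζ ≠ 0 := hζ.ne_zero (NeZero.ne _)
    have h2' : (Units.mk0 ζ hζ0) ^ (a * p ^ k) = (Units.mk0 ζ hζ0) ^ (1 * p ^ k) := by
      apply Units.ext
      simpa using h2
    rwa [pow_eq_pow_iff_modEq, ← orderOf_units, Units.val_mk0, ← hζ.eq_orderOf] at h2'
  have h4 : a ≡ 1 [MOD p] := by
    rw [pow_succ'] at h3
    exact Nat.ModEq.mul_right_cancel' (pow_ne_zero k hp.ne_zero) h3
  -- hence `a ^ p ^ k ≡ 1 mod p ^ (k + 1)`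
  have h5 : ((a : ZMod (p ^ (k + 1))) ^ p ^ k) = 1 := by
    have hdvd : ((p : ℕ) : ZMod (p ^ (k + 1))) ∣ (a : ZMod (p ^ (k + 1))) - 1 := by
      have := (Nat.modEq_iff_dvd.1 h4.symm)
      obtain ⟨t, ht⟩ := this
      refine ⟨(t : ZMod (p ^ (k + 1))), ?_⟩
      have := congrArg (Int.cast : ℤ → ZMod (p ^ (k + 1))) ht
      push_cast at this
      exact this
    have := dvd_sub_pow_of_dvd_sub hdvd k
    rw [one_pow, ← Nat.cast_pow, ZMod.natCast_self, zero_dvd_iff, sub_eq_zero] at this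
    exact this
  apply hζ.autToPow_injective L
  rw [map_pow, map_one]
  apply Units.ext
  rw [Units.val_pow_eq_pow_val, Units.val_one, ← h5, ha, ZMod.natCast_zmod_val]

/-- If `ζ_p ∈ L`, then `Gal(L(ζ_{p^m})/L)` is a `p`-group. -/
theorem isPGroup_gal {η : L} (hη : IsPrimitiveRoot η p) (m : ℕ)
    [IsCyclotomicExtension {p ^ m} L E] : IsPGroup p Gal(E/L) := by
  intro σ
  rcases m with _ | k
  · refine ⟨0, ?_⟩
    haveI : IsCyclotomicExtension {1} L E := by simpa using ‹IsCyclotomicExtension {p ^ 0} L E›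
    have hbot : (⊥ : Subalgebra L E) = ⊤ := IsCyclotomicExtension.singleton_one L E
    rw [pow_zero, pow_one]
    apply AlgEquiv.ext
    intro x
    have hx : x ∈ (⊥ : Subalgebra L E) := hbot ▸ Algebra.mem_top
    obtain ⟨y, rfl⟩ := Algebra.mem_bot.1 hx
    simp
  · exact ⟨k, pow_eq_one_of_isPrimitiveRoot hη k σ⟩

/-- If `ζ_p ∈ L`, then `[L(ζ_{p^m}) : L]` is a power of `p`. -/
theorem exists_finrank_eq_pow {η : L} (hη : IsPrimitiveRoot η p) (m : ℕ)
    [IsCyclotomicExtension {p ^ m} L E] : ∃ j : ℕ, Module.finrank L E = p ^ j := by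
  have hp : p.Prime := Fact.out
  haveI : NeZero (p ^ m) := ⟨pow_ne_zero _ hp.ne_zero⟩
  haveI : IsGalois L E := IsCyclotomicExtension.isGalois {p ^ m} L E
  haveI : FiniteDimensional L E := IsCyclotomicExtension.finiteDimensional {p ^ m} L E
  obtain ⟨j, hj⟩ := (IsPGroup.iff_card (p := p) (G := Gal(E/L))).1 (isPGroup_gal hη m)
  exact ⟨j, by rw [← IsGalois.card_aut_eq_finrank, hj]⟩

/-- The cyclotomic `ℤ_p`-tower over a number field is infinite:
`p ^ (n - 1 - [L:ℚ]) ∣ [L(ζ_{p^n}) : L]`. -/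
theorem pow_dvd_finrank [NumberField L] (n : ℕ) [IsCyclotomicExtension {p ^ n} L E] :
    p ^ (n - 1 - Module.finrank ℚ L) ∣ Module.finrank L E := by
  have hp : p.Prime := Fact.out
  haveI : NeZero (p ^ n) := ⟨pow_ne_zero _ hp.ne_zero⟩
  haveI : CharZero E := charZero_of_injective_algebraMap (algebraMap L E).injective
  haveI : FiniteDimensional L E := IsCyclotomicExtension.finiteDimensional {p ^ n} L E
  haveI : FiniteDimensional ℚ E := FiniteDimensional.trans ℚ L E
  obtain ⟨ζ, hζ⟩ := IsCyclotomicExtension.exists_isPrimitiveRoot L E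
    (Set.mem_singleton (p ^ n)) (NeZero.ne _)
  haveI : IsCyclotomicExtension {p ^ n} ℚ ℚ⟮ζ⟯ :=
    hζ.intermediateField_adjoin_isCyclotomicExtension ℚ
  have h1 : Module.finrank ℚ ℚ⟮ζ⟯ = (p ^ n).totient := IsCyclotomicExtension.Rat.finrank (p ^ n) ℚ⟮ζ⟯
  have h2 : Module.finrank ℚ ℚ⟮ζ⟯ * Module.finrank ℚ⟮ζ⟯ E = Module.finrank ℚ E :=
    Module.finrank_mul_finrank ℚ ℚ⟮ζ⟯ E
  have h3 : Module.finrank ℚ L * Module.finrank L E = Module.finrank ℚ E :=
    Module.finrank_mul_finrank ℚ L E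
  have h4 : p ^ (n - 1) ∣ Module.finrank ℚ L * Module.finrank L E := by
    rw [h3, ← h2, h1]
    rcases n with _ | k
    · simp
    · rw [Nat.totient_prime_pow_succ hp, Nat.add_sub_cancel]
      exact Dvd.dvd.mul_right (Dvd.intro _ rfl) _
  exact pow_sub_dvd_of_pow_dvd_mul hp Module.finrank_pos.ne' h4

/-- **Cyclic layers, general form.**  Let `L` be any field containing `ζ_p`, `p` odd, and `E` a
model of `L(ζ_{p^n})` with `p ^ N ∣ [E : L]`.  Then `E` contains a subfield `M`, Galois and cyclic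
over `L`, of degree exactly `p ^ N`. -/
theorem exists_cyclic_layer_of_dvd (hp2 : p ≠ 2) {η : L} (hη : IsPrimitiveRoot η p)
    {N : ℕ} (n : ℕ) [IsCyclotomicExtension {p ^ n} L E] (hdvd : p ^ N ∣ Module.finrank L E) :
    ∃ M : IntermediateField L E, IsGalois L M ∧ IsCyclic Gal(M/L) ∧
      Module.finrank L M = p ^ N := by
  have hp : p.Prime := Fact.out
  haveI : NeZero (p ^ n) := ⟨pow_ne_zero _ hp.ne_zero⟩
  haveI : IsGalois L E := IsCyclotomicExtension.isGalois {p ^ n} L E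
  haveI : FiniteDimensional L E := IsCyclotomicExtension.finiteDimensional {p ^ n} L E
  haveI hcyc : IsCyclic Gal(E/L) := isCyclic_gal hp2 n
  obtain ⟨j, hj⟩ := exists_finrank_eq_pow (E := E) hη n
  have hNj : N ≤ j := by
    rw [hj] at hdvd
    exact (Nat.pow_dvd_pow_iff_le_right hp.one_lt).1 hdvd
  have hcard : Nat.card Gal(E/L) = p ^ j := by rw [IsGalois.card_aut_eq_finrank, hj]
  obtain ⟨H, hH⟩ := Sylow.exists_subgroup_card_pow_prime (G := Gal(E/L)) p (n := j - N)
    (by rw [hcard]; exact pow_dvd_pow p (Nat.sub_le j N))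
  haveI : H.Normal := by
    letI : CommGroup Gal(E/L) := IsCyclic.commGroup
    exact Subgroup.normal_of_isMulCommutative H
  refine ⟨fixedField H, inferInstance, ?_, ?_⟩
  · exact isCyclic_of_surjective (AlgEquiv.restrictNormalHom (F := L) (K₁ := E) (fixedField H))
      (AlgEquiv.restrictNormalHom_surjective E)
  · have h1 : Module.finrank (fixedField H) E = p ^ (j - N) := by
      rw [finrank_fixedField_eq_card, hH]
    have h2 : Module.finrank L (fixedField H) * Module.finrank (fixedField H) E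
        = Module.finrank L E := Module.finrank_mul_finrank L (fixedField H) E
    rw [h1, hj] at h2
    have h3 : p ^ j = p ^ N * p ^ (j - N) := by rw [← pow_add]; congr 1; omega
    rw [h3] at h2
    exact Nat.eq_of_mul_eq_mul_right (pow_pos hp.pos _) h2

/-- **Cyclic layers of the cyclotomic `ℤ_p`-tower over a number field.**  Let `L` be a number
field containing `ζ_p`, `p` odd.  For every `N`, every model `E` of `L(ζ_{p^n})`,
`n ≥ N + 1 + [L:ℚ]`, contains a subfield `M`, Galois and cyclic over `L`, of degree exactly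
`p ^ N`. -/
theorem exists_cyclic_layer [NumberField L] (hp2 : p ≠ 2) {η : L} (hη : IsPrimitiveRoot η p)
    {N n : ℕ} (hn : N + 1 + Module.finrank ℚ L ≤ n) [IsCyclotomicExtension {p ^ n} L E] :
    ∃ M : IntermediateField L E, IsGalois L M ∧ IsCyclic Gal(M/L) ∧
      Module.finrank L M = p ^ N :=
  exists_cyclic_layer_of_dvd hp2 hη n
    ((pow_dvd_pow p (by omega)).trans (pow_dvd_finrank (L := L) (E := E) n))

end Fermat.Agent.S55.GL.CycloTower
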