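/-
S55 block GLO11 (EX), arithmetic part: A PLACE WITH FULL DECOMPOSITION GROUP.

Let `E/L` be a cyclic extension of number fields of degree `p ^ k`, `k ≥ 1` (e.g. a layer of the
cyclotomic `ℤ_p`-tower, `CycloTower.exists_cyclic_layer`), and `T` a finite set of primes of `L`.
Then some nonzero prime `𝔭 ∉ T` of `L` has full decomposition group in `Gal(E/L)`:
* `exists_stabilizer_eq_top` : every `𝔓 | 𝔭` has `stabilizer Gal(E/L) 𝔓 = ⊤`;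
* `exists_ramificationIdx_mul_inertiaDeg_eq` : `e(𝔓|𝔭) * f(𝔓|𝔭) = [E : L]` (full local degree);
* `exists_primesOver_subsingleton` : `𝔭` has a unique prime above it in `E`.
This is what makes `Σ_v inv_v : H²(G, J_E) → (1/p^k)ℤ/ℤ` surjective in (EX).

Proof: the degree-`p` sublayer `M = E^H` (`H` the subgroup of index `p`) has a prime `𝔭 ∉ T` which
does not split completely (helper3's analytic `S14/NonSplit`); in a cyclic `p`-group every proper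
subgroup lies in `H` (`exists_index_eq_prime_forall_le`), and a decomposition group contained in
`H` would force `e = f = 1` in `M` (`ramificationIdx_eq_one_and_inertiaDeg_eq_one`).

Imports: Mathlib + `S14/NonSplit` (frozen, Mathlib-only).
-/
import Mathlib
import Fermat.Agent.S14.NonSplit

set_option autoImplicit false
set_option linter.style.haveILetI false
set_option linter.unusedSectionVars false

namespace Fermat.Agent.S55.GL.BrauerExist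


/-- In a cyclic group of order `p ^ k`, `k ≥ 1`, there is a subgroup of index `p` containing every
proper subgroup. -/
theorem exists_index_eq_prime_forall_le {G : Type*} [Group G] [IsCyclic G] {p : ℕ} [Fact p.Prime]
    {k : ℕ} (hk : k ≠ 0) (hcard : Nat.card G = p ^ k) :
    ∃ H : Subgroup G, H.index = p ∧ ∀ D : Subgroup G, D ≠ ⊤ → D ≤ H := by
  have hp : p.Prime := Fact.out
  haveI : Finite G := Nat.finite_of_card_ne_zero (by rw [hcard]; exact pow_ne_zero _ hp.ne_zero)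
  obtain ⟨g, hg⟩ := IsCyclic.exists_generator (α := G)
  have hog : orderOf g = p ^ k := by
    rw [← hcard]; exact orderOf_eq_card_of_forall_mem_zpowers hg
  refine ⟨Subgroup.zpowers (g ^ p), ?_, ?_⟩
  · have h1 : Nat.card (Subgroup.zpowers (g ^ p)) = p ^ (k - 1) := by
      rw [Nat.card_zpowers, orderOf_pow' g hp.ne_zero, hog]
      obtain ⟨j, rfl⟩ := Nat.exists_eq_succ_of_ne_zero hk
      rw [Nat.succ_sub_one, pow_succ, Nat.gcd_mul_left_left, Nat.mul_div_cancel _ hp.pos]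
    have h2 := (Subgroup.zpowers (g ^ p)).card_mul_index
    rw [h1, hcard] at h2
    obtain ⟨j, rfl⟩ := Nat.exists_eq_succ_of_ne_zero hk
    rw [Nat.succ_sub_one, pow_succ] at h2
    exact Nat.eq_of_mul_eq_mul_left (pow_pos hp.pos j) h2
  · intro D hD x hx
    obtain ⟨a, rfl⟩ : ∃ a : ℕ, g ^ a = x := by
      have := hg x
      rwa [← mem_powers_iff_mem_zpowers, Submonoid.mem_powers_iff] at this
    by_cases hpa : p ∣ a
    · obtain ⟨b, rfl⟩ := hpa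
      rw [pow_mul]
      exact Subgroup.pow_mem _ (Subgroup.mem_zpowers _) b
    · exfalso
      apply hD
      have hcop : Nat.Coprime (orderOf g) a := by
        rw [hog]
        exact Nat.Coprime.pow_left k ((hp.coprime_iff_not_dvd).2 hpa)
      have h3 : orderOf (g ^ a) = Nat.card G := by
        rw [hcop.orderOf_pow, hog, hcard]
      have h4 : Subgroup.zpowers (g ^ a) = ⊤ := by
        apply Subgroup.eq_top_of_card_eq
        rw [Nat.card_zpowers, h3]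
      exact top_le_iff.1 (h4 ▸ (Subgroup.zpowers_le.2 hx))


open NumberField MulAction IntermediateField
open scoped Pointwise

variable {L E : Type*} [Field L] [NumberField L] [Field E] [NumberField E] [Algebra L E]
  [IsGalois L E]



/-- The stabilizer of `𝔓` in `Gal(E/M)` contains (a copy of) the part of the stabilizer in
`Gal(E/L)` lying in `Gal(E/M)`. -/
theorem card_stabilizer_le (M : IntermediateField L E) (𝔓 : Ideal (𝓞 E))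
    (hD : stabilizer Gal(E/L) 𝔓 ≤ M.fixingSubgroup) :
    Nat.card (stabilizer Gal(E/L) 𝔓) ≤ Nat.card (stabilizer Gal(E/M) 𝔓) := by
  let φ : stabilizer Gal(E/L) 𝔓 → stabilizer Gal(E/M) 𝔓 := fun σ =>
    ⟨IntermediateField.fixingSubgroupEquiv M ⟨σ.1, hD σ.2⟩, by
      have hσ := σ.2
      rw [mem_stabilizer_iff] at hσ ⊢
      ext x
      rw [Ideal.mem_pointwise_smul_iff_inv_smul_mem]
      conv_rhs => rw [← hσ, Ideal.mem_pointwise_smul_iff_inv_smul_mem]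
      rw [← map_inv]
      exact Iff.rfl⟩
  have hφ : Function.Injective φ := by
    intro σ τ h
    have h1 := congrArg Subtype.val h
    have h2 := (IntermediateField.fixingSubgroupEquiv M).injective h1
    exact Subtype.ext (Subtype.mk.inj h2)
  exact Nat.card_le_card_of_injective φ hφ




/-- If the decomposition group of `𝔓` in `Gal(E/L)` fixes the intermediate field `M`, then the
prime of `M` below `𝔓` has `e = f = 1` over `L`. -/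
theorem ramificationIdx_eq_one_and_inertiaDeg_eq_one (M : IntermediateField L E)
    (𝔭 : Ideal (𝓞 L)) [𝔭.IsPrime] (h𝔭 : 𝔭 ≠ ⊥) (𝔓 : Ideal (𝓞 E)) [𝔓.IsPrime] [𝔓.LiesOver 𝔭]
    (hD : stabilizer Gal(E/L) 𝔓 ≤ M.fixingSubgroup) :
    (𝔓.under (𝓞 M)).ramificationIdx (𝓞 L) = 1 ∧ (𝔓.under (𝓞 M)).inertiaDeg (𝓞 L) = 1 := by
  set 𝔓M := 𝔓.under (𝓞 M) with h𝔓M
  haveI : 𝔓M.IsPrime := Ideal.IsPrime.under (𝓞 M) 𝔓
  haveI : 𝔓M.LiesOver 𝔭 := Ideal.LiesOver.tower_bot 𝔓 𝔓M 𝔭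
  haveI : 𝔭.IsMaximal := Ideal.IsPrime.isMaximal inferInstance h𝔭
  have h𝔓M0 : 𝔓M ≠ ⊥ := Ideal.ne_bot_of_liesOver_of_ne_bot h𝔭 𝔓M
  haveI : 𝔓M.IsMaximal := Ideal.IsPrime.isMaximal inferInstance h𝔓M0
  have h1 : Nat.card (stabilizer Gal(E/L) 𝔓) =
      𝔓.ramificationIdx (𝓞 L) * 𝔓.inertiaDeg (𝓞 L) := by
    rw [Ideal.card_stabilizer_eq (G := Gal(E/L)) 𝔭 𝔓,
      Ideal.ramificationIdxIn_eq_ramificationIdx 𝔭 𝔓 Gal(E/L),
      Ideal.inertiaDegIn_eq_inertiaDeg 𝔭 𝔓 Gal(E/L)]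
  have h2 : Nat.card (stabilizer Gal(E/M) 𝔓) =
      𝔓.ramificationIdx (𝓞 M) * 𝔓.inertiaDeg (𝓞 M) := by
    rw [Ideal.card_stabilizer_eq (G := Gal(E/M)) 𝔓M 𝔓,
      Ideal.ramificationIdxIn_eq_ramificationIdx 𝔓M 𝔓 Gal(E/M),
      Ideal.inertiaDegIn_eq_inertiaDeg 𝔓M 𝔓 Gal(E/M)]
  have h3 : 𝔓.ramificationIdx (𝓞 L) = 𝔓M.ramificationIdx (𝓞 L) * 𝔓.ramificationIdx (𝓞 M) :=
    Ideal.ramificationIdx_tower 𝔓M 𝔓
  have h4 : 𝔓.inertiaDeg (𝓞 L) = 𝔓M.inertiaDeg (𝓞 L) * 𝔓.inertiaDeg (𝓞 M) :=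
    Ideal.inertiaDeg_tower 𝔓M 𝔓
  have h5 := card_stabilizer_le M 𝔓 hD
  have he' : 0 < 𝔓.ramificationIdx (𝓞 M) := Ideal.ramificationIdx_pos 𝔓 (𝓞 M)
  have hf' : 0 < 𝔓.inertiaDeg (𝓞 M) := Ideal.inertiaDeg_pos 𝔓 (𝓞 M)
  have he : 0 < 𝔓M.ramificationIdx (𝓞 L) := Ideal.ramificationIdx_pos 𝔓M (𝓞 L)
  have hf : 0 < 𝔓M.inertiaDeg (𝓞 L) := Ideal.inertiaDeg_pos 𝔓M (𝓞 L)
  rw [h1, h2, h3, h4] at h5
  have h6 : 𝔓M.ramificationIdx (𝓞 L) * 𝔓M.inertiaDeg (𝓞 L) *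
      (𝔓.ramificationIdx (𝓞 M) * 𝔓.inertiaDeg (𝓞 M)) ≤
      1 * (𝔓.ramificationIdx (𝓞 M) * 𝔓.inertiaDeg (𝓞 M)) := by
    calc _ = 𝔓M.ramificationIdx (𝓞 L) * 𝔓.ramificationIdx (𝓞 M) *
          (𝔓M.inertiaDeg (𝓞 L) * 𝔓.inertiaDeg (𝓞 M)) := by ring
      _ ≤ _ := by rw [one_mul]; exact h5
  have h7 := Nat.le_of_mul_le_mul_right h6 (Nat.mul_pos he' hf')
  have h8 : 𝔓M.ramificationIdx (𝓞 L) * 𝔓M.inertiaDeg (𝓞 L) = 1 :=
    le_antisymm h7 (Nat.mul_pos he hf)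
  exact ⟨Nat.eq_one_of_mul_eq_one_right h8, Nat.eq_one_of_mul_eq_one_left h8⟩




/-- **A place with full decomposition group.**  Let `E/L` be a cyclic extension of number fields
of degree `p ^ k`, `k ≥ 1`, and `T` a finite set of primes of `L`.  Then there is a nonzero prime
`𝔭 ∉ T` of `L` such that every prime of `E` above `𝔭` is fixed by the whole Galois group. -/
theorem exists_stabilizer_eq_top [IsCyclic Gal(E/L)] {p : ℕ} [Fact p.Prime] {k : ℕ} (hk : k ≠ 0)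
    (hcard : Nat.card Gal(E/L) = p ^ k) (T : Finset (Ideal (𝓞 L))) :
    ∃ 𝔭 : Ideal (𝓞 L), 𝔭.IsPrime ∧ 𝔭 ≠ ⊥ ∧ 𝔭 ∉ T ∧
      ∀ 𝔓 ∈ 𝔭.primesOver (𝓞 E), stabilizer Gal(E/L) 𝔓 = ⊤ := by
  have hp : p.Prime := Fact.out
  obtain ⟨H, hHidx, hH⟩ := exists_index_eq_prime_forall_le (G := Gal(E/L)) hk hcard
  haveI : H.Normal := by
    letI : CommGroup Gal(E/L) := IsCyclic.commGroup
    exact Subgroup.normal_of_isMulCommutative H
  set M : IntermediateField L E := fixedField H with hM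
  have hfix : M.fixingSubgroup = H := fixingSubgroup_fixedField H
  have hdeg : 1 < Module.finrank L M := by
    rw [finrank_eq_fixingSubgroup_index, hfix, hHidx]
    exact hp.one_lt
  obtain ⟨𝔭, h𝔭, h𝔭0, h𝔭T, hns⟩ :=
    Fermat.Agent.S14.NonSplit.exists_forall_not_splitsCompletely_of_isGaloisGroup
      (K := L) (L := M) Gal(M/L) hdeg T
  refine ⟨𝔭, h𝔭, h𝔭0, h𝔭T, fun 𝔓 h𝔓 => ?_⟩
  haveI : 𝔓.IsPrime := h𝔓.1
  haveI : 𝔓.LiesOver 𝔭 := h𝔓.2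
  by_contra hne
  have hD : stabilizer Gal(E/L) 𝔓 ≤ M.fixingSubgroup := hfix ▸ hH _ hne
  have h1 := ramificationIdx_eq_one_and_inertiaDeg_eq_one M 𝔭 h𝔭0 𝔓 hD
  exact hns (𝔓.under (𝓞 M))
    ⟨Ideal.IsPrime.under (𝓞 M) 𝔓, Ideal.LiesOver.tower_bot 𝔓 (𝔓.under (𝓞 M)) 𝔭⟩ h1

/-- Same as `exists_stabilizer_eq_top`, in `e * f` form: the local degree at `𝔭` is the full
degree. -/
theorem exists_ramificationIdx_mul_inertiaDeg_eq [IsCyclic Gal(E/L)] {p : ℕ} [Fact p.Prime]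
    {k : ℕ} (hk : k ≠ 0) (hcard : Nat.card Gal(E/L) = p ^ k) (T : Finset (Ideal (𝓞 L))) :
    ∃ 𝔭 : Ideal (𝓞 L), 𝔭.IsPrime ∧ 𝔭 ≠ ⊥ ∧ 𝔭 ∉ T ∧
      ∀ 𝔓 ∈ 𝔭.primesOver (𝓞 E),
        𝔓.ramificationIdx (𝓞 L) * 𝔓.inertiaDeg (𝓞 L) = Module.finrank L E := by
  obtain ⟨𝔭, h𝔭, h𝔭0, h𝔭T, h⟩ := exists_stabilizer_eq_top hk hcard T
  refine ⟨𝔭, h𝔭, h𝔭0, h𝔭T, fun 𝔓 h𝔓 => ?_⟩
  haveI : 𝔓.IsPrime := h𝔓.1
  haveI : 𝔓.LiesOver 𝔭 := h𝔓.2
  haveI : 𝔭.IsMaximal := Ideal.IsPrime.isMaximal inferInstance h𝔭0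
  have h1 : Nat.card (stabilizer Gal(E/L) 𝔓) =
      𝔓.ramificationIdx (𝓞 L) * 𝔓.inertiaDeg (𝓞 L) := by
    rw [Ideal.card_stabilizer_eq (G := Gal(E/L)) 𝔭 𝔓,
      Ideal.ramificationIdxIn_eq_ramificationIdx 𝔭 𝔓 Gal(E/L),
      Ideal.inertiaDegIn_eq_inertiaDeg 𝔭 𝔓 Gal(E/L)]
  rw [← h1, h 𝔓 h𝔓, Subgroup.card_top, IsGalois.card_aut_eq_finrank]

/-- Same, in "unique prime above" form. -/
theorem exists_primesOver_subsingleton [IsCyclic Gal(E/L)] {p : ℕ} [Fact p.Prime]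
    {k : ℕ} (hk : k ≠ 0) (hcard : Nat.card Gal(E/L) = p ^ k) (T : Finset (Ideal (𝓞 L))) :
    ∃ 𝔭 : Ideal (𝓞 L), 𝔭.IsPrime ∧ 𝔭 ≠ ⊥ ∧ 𝔭 ∉ T ∧ (𝔭.primesOver (𝓞 E)).Subsingleton := by
  obtain ⟨𝔭, h𝔭, h𝔭0, h𝔭T, h⟩ := exists_stabilizer_eq_top hk hcard T
  refine ⟨𝔭, h𝔭, h𝔭0, h𝔭T, fun 𝔓 h𝔓 𝔔 h𝔔 => ?_⟩
  haveI : 𝔓.IsPrime := h𝔓.1
  haveI : 𝔓.LiesOver 𝔭 := h𝔓.2
  haveI : 𝔔.IsPrime := h𝔔.1
  haveI : 𝔔.LiesOver 𝔭 := h𝔔.2
  obtain ⟨σ, rfl⟩ := Ideal.exists_smul_eq_of_isGaloisGroup 𝔭 𝔓 𝔔 Gal(E/L)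
  have : σ ∈ stabilizer Gal(E/L) 𝔓 := by rw [h 𝔓 h𝔓]; trivial
  exact (mem_stabilizer_iff.1 this).symm

end Fermat.Agent.S55.GL.BrauerExist
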