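/-
S55 block GLO10 (local degrees), part 4: the statement in the PLACES model of helper2
(`GL/Places*.lean`): for `K ⊆ ℚ̄` finite over `ℚ`, any prime `q`, any `σ ∈ Γ` (= any place of `K`
over `q`) and any prime `p`, the local degree `localDeg q K (K ⊔ ℚ(ζ_{p^n})) σ =
[ℚ_q(ι σ K)(ζ_{p^n}) : ℚ_q(ι σ K)]` is divisible by `p ^ N` for all `n ≥ n₀(q, K, σ, N)`.

Imports: `GL/LocalDegreesLocal` (local theorem) and `GL/PlacesDecomp` (`localDeg`).
-/
import Mathlib
import Fermat.Agent.S55.GL.LocalDegreesLocal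
import Fermat.Agent.S55.GL.PlacesDecomp

set_option autoImplicit false
set_option linter.style.haveILetI false

namespace Fermat.Agent.S55.GL.LocalDegrees

open IntermediateField Fermat.Agent.S55.LocalDict Fermat.Agent.S55.GL.Places

section General

variable {F₀ E : Type*} [Field F₀] [Field E] [Algebra F₀ E]

/-- `[A(z) : A]` computed inside the lattice of intermediate fields over a smaller base. -/
theorem relfinrank_sup_adjoin_simple (A : IntermediateField F₀ E) (z : E) :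
    relfinrank A (A ⊔ F₀⟮z⟯) = Module.finrank A A⟮z⟯ := by
  have h : A ≤ (adjoin A {z}).restrictScalars F₀ := by
    rw [restrictScalars_adjoin_eq_sup]; exact le_sup_left
  rw [← restrictScalars_adjoin_eq_sup, relfinrank_eq_finrank_of_le h]
  have : extendScalars h = adjoin A {z} := restrictScalars_injective F₀ rfl
  rw [this]

end General

section Padic

/-- `p`-adic instantiation of the local-degree theorem in intermediate-field form. -/
theorem exists_forall_pow_dvd_finrank_adjoin_padic (q : ℕ) [Fact q.Prime] (F : Type*) [Field F]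
    [Algebra ℚ_[q] F] [FiniteDimensional ℚ_[q] F] (p : ℕ) [Fact p.Prime] (N : ℕ) :
    ∃ n₀ : ℕ, ∀ n, n₀ ≤ n → ∀ (L : Type*) [Field L] [Algebra F L] [Algebra.IsIntegral F L]
      (ζ : L), IsPrimitiveRoot ζ (p ^ n) → p ^ N ∣ Module.finrank F F⟮ζ⟯ := by
  obtain ⟨n₀, h⟩ := exists_forall_pow_dvd_finrank_padic q F p N
  refine ⟨n₀, fun n hn L _ _ _ ζ hζ => ?_⟩
  haveI : NeZero (p ^ n) := ⟨pow_ne_zero _ (Fact.out : p.Prime).ne_zero⟩
  haveI : IsCyclotomicExtension {p ^ n} F F⟮ζ⟯ :=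
    hζ.intermediateField_adjoin_isCyclotomicExtension F
  exact h n hn F⟮ζ⟯

end Padic

section Places

variable (q : ℕ) [Fact q.Prime]

local notation "Qbar" => AlgebraicClosure ℚ
local notation "Γ" => (AlgebraicClosure ℚ ≃ₐ[ℚ] AlgebraicClosure ℚ)

/-- The local field of `K(ζ)` is the local field of `K` with `ι σ ζ` adjoined. -/
theorem localFieldAt_sup_adjoin_simple (K : IntermediateField ℚ Qbar) (σ : Γ) (ζ : Qbar) :
    localFieldAt q (K ⊔ ℚ⟮ζ⟯) σ = localFieldAt q K σ ⊔ ℚ_[q]⟮padicEmbedding q (σ ζ)⟯ := by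
  rw [localFieldAt, localFieldAt, IntermediateField.map_sup, localField_sup,
    IntermediateField.adjoin_map, Set.image_singleton, localField_adjoin_simple]
  rfl

/-- **Local degrees of the cyclotomic `ℤ_p`-tower in the Places model.**  For `K ⊆ ℚ̄` finite over
`ℚ`, any prime `q`, any `σ` (i.e. any place of `K` over `q`) and any prime `p`: for every `N` there
is `n₀` such that `p ^ N ∣ [K(ζ_{p^n})_w : K_v]` for all `n ≥ n₀`. -/
theorem exists_forall_pow_dvd_localDeg (K : IntermediateField ℚ Qbar) [FiniteDimensional ℚ K]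
    (σ : Γ) (p : ℕ) [Fact p.Prime] (N : ℕ) :
    ∃ n₀ : ℕ, ∀ n, n₀ ≤ n → ∀ ζ : Qbar, IsPrimitiveRoot ζ (p ^ n) →
      p ^ N ∣ localDeg q K (K ⊔ ℚ⟮ζ⟯) σ := by
  obtain ⟨n₀, h⟩ := exists_forall_pow_dvd_finrank_adjoin_padic q (localFieldAt q K σ) p N
  refine ⟨n₀, fun n hn ζ hζ => ?_⟩
  have hz : IsPrimitiveRoot (padicEmbedding q (σ ζ)) (p ^ n) :=
    (hζ.map_of_injective σ.injective).map_of_injective (padicEmbedding q).toRingHom.injective
  rw [localDeg, localFieldAt_sup_adjoin_simple, relfinrank_sup_adjoin_simple]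
  exact h n hn (PadicAlgCl q) _ hz

/-- Index form (helper2's `localDeg_eq_relIndex`): the relative index of the local Galois groups of
`K(ζ_{p^n})_w` and `K_v` is divisible by `p ^ N` for `n ≥ n₀`. -/
theorem exists_forall_pow_dvd_relIndex (K : IntermediateField ℚ Qbar) [FiniteDimensional ℚ K]
    (σ : Γ) (p : ℕ) [Fact p.Prime] (N : ℕ) :
    ∃ n₀ : ℕ, ∀ n, n₀ ≤ n → ∀ ζ : Qbar, IsPrimitiveRoot ζ (p ^ n) →
      p ^ N ∣ (localFieldAt q (K ⊔ ℚ⟮ζ⟯) σ).fixingSubgroup.relIndex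
        (localFieldAt q K σ).fixingSubgroup := by
  obtain ⟨n₀, h⟩ := exists_forall_pow_dvd_localDeg q K σ p N
  refine ⟨n₀, fun n hn ζ hζ => ?_⟩
  haveI : NeZero (p ^ n) := ⟨pow_ne_zero _ (Fact.out : p.Prime).ne_zero⟩
  haveI : FiniteDimensional ℚ ℚ⟮ζ⟯ :=
    IntermediateField.adjoin.finiteDimensional (hζ.isIntegral (NeZero.pos _)).tower_top
  haveI : FiniteDimensional ℚ ↥(K ⊔ ℚ⟮ζ⟯) := IntermediateField.finiteDimensional_sup K ℚ⟮ζ⟯
  rw [← localDeg_eq_relIndex q le_sup_left σ]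
  exact h n hn ζ hζ

end Places

section Finite

local notation "Qbar" => AlgebraicClosure ℚ
local notation "Γ" => (AlgebraicClosure ℚ ≃ₐ[ℚ] AlgebraicClosure ℚ)

/-- Simultaneous version for finitely many places (possibly over different primes `q i`): one `n₀`
works for all of them.  This is the form used to kill finitely many local Brauer classes of
`p`-power order by one layer `K(ζ_{p^n})` of the cyclotomic `ℤ_p`-tower. -/
theorem exists_forall_pow_dvd_localDeg_finset {ι : Type*} (s : Finset ι) (q : ι → ℕ)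
    (hq : ∀ i, (q i).Prime) (σ : ι → Γ) (K : IntermediateField ℚ Qbar) [FiniteDimensional ℚ K]
    (p : ℕ) [Fact p.Prime] (N : ℕ) :
    ∃ n₀ : ℕ, ∀ n, n₀ ≤ n → ∀ ζ : Qbar, IsPrimitiveRoot ζ (p ^ n) → ∀ i ∈ s,
      p ^ N ∣ @localDeg (q i) ⟨hq i⟩ K (K ⊔ ℚ⟮ζ⟯) (σ i) := by
  classical
  have h : ∀ i, ∃ n₀ : ℕ, ∀ n, n₀ ≤ n → ∀ ζ : Qbar, IsPrimitiveRoot ζ (p ^ n) →
      p ^ N ∣ @localDeg (q i) ⟨hq i⟩ K (K ⊔ ℚ⟮ζ⟯) (σ i) := fun i =>
    @exists_forall_pow_dvd_localDeg (q i) ⟨hq i⟩ K _ (σ i) p _ N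
  choose n₀ hn₀ using h
  exact ⟨s.sup n₀, fun n hn ζ hζ i hi => hn₀ i n ((Finset.le_sup hi).trans hn) ζ hζ⟩

end Finite

end Fermat.Agent.S55.GL.LocalDegrees
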