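/-
S55 block GLO11 (EX), field side in the Places model: A PLACE WITH FULL LOCAL DEGREE.

`K ≤ E` number fields inside `ℚ̄` (`IntermediateField ℚ ℚ̄`), `E/K` Galois and cyclic of degree
`p ^ k`, `T` a finite set of rational primes.  Then there are a rational prime `q ∉ T` and `σ : Γ`
such that the local degree of `E/K` at the place `(q, σ)` (helper2's `localDeg q K E σ`) is the full
degree `[E : K]`.  (Transport of `GL/FullDecomp.lean` through helper11's places `↔` primes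
dictionary `GL/PlacesPrime.lean` and helper2's `GL/PlacesDecomp.lean`.)
-/
import Mathlib
import Fermat.Agent.S55.GL.FullDecomp
import Fermat.Agent.S55.GL.PlacesDecomp
import Fermat.Agent.S55.GL.PlacesPrimeUnits
import Fermat.Agent.S55.GL.CycloTower
import Fermat.Agent.S55.GL.LocalDegreesPlaces

set_option autoImplicit false
set_option linter.style.haveILetI false
set_option linter.unusedSectionVars false

namespace Fermat.Agent.S55.GL.BrauerExist

open IntermediateField NumberField IsDedekindDomain Fermat.Agent.S55.LocalDict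
open Fermat.Agent.S55.GL Fermat.Agent.S55.GL.Places Fermat.Agent.S55.GL.PlacesUnits

local notation "Qbar" => AlgebraicClosure ℚ
local notation "Γ" => (AlgebraicClosure ℚ ≃ₐ[ℚ] AlgebraicClosure ℚ)

local instance isAlgebraicQbar_FDP : Algebra.IsAlgebraic ℚ (AlgebraicClosure ℚ) :=
  AlgebraicClosure.isAlgebraic ℚ
local instance isAlgClosureQbar_FDP : IsAlgClosure ℚ (AlgebraicClosure ℚ) :=
  ⟨inferInstance, inferInstance⟩
local instance normalQbar_FDP : Normal ℚ (AlgebraicClosure ℚ) :=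
  IsAlgClosure.normal ℚ (AlgebraicClosure ℚ)

/-- primes as `Fact`s -/
local instance factPrime_fdp (q : Nat.Primes) : Fact (q : ℕ).Prime := ⟨q.2⟩

section General

variable {K E : IntermediateField ℚ Qbar} [NumberField K] [NumberField E]
  [Algebra K E] (halg : ∀ x : K, ((algebraMap K E x : E) : Qbar) = (x : Qbar))

include halg in
/-- The algebra structure is the inclusion, so `K ≤ E`. -/
theorem le_of_algebraMap : K ≤ E := by
  intro x hx
  have := halg ⟨x, hx⟩
  rw [← show ((algebraMap K E ⟨x, hx⟩ : E) : Qbar) = x from this]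
  exact (algebraMap K E ⟨x, hx⟩).2

include halg in
theorem isScalarTower_of_algebraMap : IsScalarTower K E Qbar :=
  IsScalarTower.of_algebraMap_eq fun x => (halg x).symm

include halg in
/-- `E/K` normal ⇒ `G_K` stabilises `E`. -/
theorem fixingSubgroup_le_stabField_of_normal [Normal K E] :
    K.fixingSubgroup ≤ stabField E := by
  haveI := isScalarTower_of_algebraMap halg
  have key : ∀ g ∈ K.fixingSubgroup, ∀ x ∈ E, g x ∈ E := by
    intro g hg x hx
    -- `g` as a `K`-algebra automorphism of `Qbar`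
    let g' : Qbar ≃ₐ[K] Qbar := IntermediateField.fixingSubgroupEquiv K ⟨g, hg⟩
    have hg' : g' x = g x := rfl
    have hint : IsIntegral K (⟨x, hx⟩ : E) := (Normal.isIntegral ‹Normal K E› _)
    have hsp := Normal.splits ‹Normal K E› (⟨x, hx⟩ : E)
    have hmin : minpoly K (g x) = minpoly K (⟨x, hx⟩ : E) := by
      rw [← hg', minpoly.algEquiv_eq g' x]
      exact (minpoly.algebraMap_eq (algebraMap E Qbar).injective (⟨x, hx⟩ : E))
    have hintg : IsIntegral K (g x) := by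
      rw [← hg']
      exact (hint.map (IsScalarTower.toAlgHom K E Qbar)).map g'.toAlgHom
    have := IsIntegral.mem_range_algebraMap_of_minpoly_splits (K := E) hintg (by rw [hmin]; exact hsp)
    obtain ⟨y, hy⟩ := this
    rw [← hy]
    exact y.2
  intro g hg
  exact mem_stabField_of_forall (key g hg) (key g⁻¹ (inv_mem hg))

include halg in
/-- `(G_K : G_E) = [E : K]`. -/
theorem relIndex_eq_finrank :
    E.fixingSubgroup.relIndex K.fixingSubgroup = Module.finrank K E := by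
  have h1 := relIndex_mul_finrank (le_of_algebraMap halg)
  have h2 : Module.finrank ℚ K * Module.finrank K E = Module.finrank ℚ E :=
    Module.finrank_mul_finrank ℚ K E
  have hpos : 0 < Module.finrank ℚ K := Module.finrank_pos
  apply Nat.eq_of_mul_eq_mul_left hpos
  rw [h2, ← h1, mul_comm]

include halg in
/-- The prime of a place of `E` lies over the prime of its restriction to `K`. -/
theorem liesOver_prime (q : ℕ) [Fact q.Prime] (w : PlacesOver q E) :
    (w.prime q).asIdeal.LiesOver ((w.restrict q (le_of_algebraMap halg)).prime q).asIdeal := by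
  constructor
  ext x
  rw [Ideal.under_def, Ideal.mem_comap, prime_restrict]
  apply mem_primeAt_iff_of_coe_eq
  have h1 : ((algebraMap (𝓞 K) (𝓞 E) x : 𝓞 E) : E) = algebraMap K E (x : K) := by
    have h2 := IsScalarTower.algebraMap_apply (𝓞 K) (𝓞 E) E x
    have h3 := IsScalarTower.algebraMap_apply (𝓞 K) K E x
    exact h2.symm.trans h3
  rw [h1, halg]

include halg in
/-- **A place with full local degree** (general cyclic `p`-power form). -/
theorem exists_localDeg_eq_finrank [IsGalois K E] [IsCyclic Gal(E/K)] {p k : ℕ} [Fact p.Prime]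
    (hdeg : Module.finrank K E = p ^ k) (T : Finset Nat.Primes) :
    ∃ q : Nat.Primes, q ∉ T ∧ ∃ σ : Γ, localDeg (q : ℕ) K E σ = Module.finrank K E := by
  classical
  have hKE : K ≤ E := le_of_algebraMap halg
  have hnorm : K.fixingSubgroup ≤ stabField E := fixingSubgroup_le_stabField_of_normal halg
  haveI : FiniteDimensional ℚ K := inferInstance
  haveI : FiniteDimensional ℚ E := inferInstance
  rcases Nat.eq_zero_or_pos k with hk | hk
  · -- trivial extension
    subst hk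
    rw [pow_zero] at hdeg
    obtain ⟨q, hq⟩ := Infinite.exists_notMem_finset T
    refine ⟨q, hq, 1, ?_⟩
    have h := ncard_fiber_mul_localDeg (q : ℕ) hKE hnorm 1
    rw [relIndex_eq_finrank halg, hdeg] at h
    rw [hdeg]
    exact Nat.eq_one_of_mul_eq_one_left h
  · have hcard : Nat.card Gal(E/K) = p ^ k := by rw [IsGalois.card_aut_eq_finrank, hdeg]
    obtain ⟨𝔭, h𝔭, h𝔭0, h𝔭T, hsub⟩ := exists_primesOver_subsingleton (L := K) (E := E) hk.ne'
      hcard ((primesOver K T).image (fun P => P.asIdeal))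
    let P : HeightOneSpectrum (𝓞 K) := ⟨𝔭, h𝔭, h𝔭0⟩
    obtain ⟨q, hq⟩ := exists_natCast_mem P
    have hqT : q ∉ T := by
      intro hqT
      apply h𝔭T
      rw [Finset.mem_image]
      exact ⟨P, mem_primesOver.mpr ⟨q, hqT, hq⟩, rfl⟩
    obtain ⟨σ, hσ⟩ := exists_primeAt_eq (q : ℕ) K P hq
    refine ⟨q, hqT, σ, ?_⟩
    -- the fibre over the place `(q, σ)` of `K` is a singleton
    have hmem : ∀ w : PlacesOver (q : ℕ) E, w.restrict (q : ℕ) hKE = placeOf (q : ℕ) K σ →
        (w.prime (q : ℕ)).asIdeal ∈ 𝔭.primesOver (𝓞 E) := by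
      intro w hw
      refine ⟨(w.prime (q : ℕ)).isPrime, ?_⟩
      have := liesOver_prime halg (q : ℕ) w
      rw [hw, prime_placeOf, hσ] at this
      exact this
    have hfib : {w' : PlacesOver (q : ℕ) E | w'.restrict (q : ℕ) hKE = placeOf (q : ℕ) K σ} =
        {placeOf (q : ℕ) E σ} := by
      ext w
      rw [Set.mem_ofPred_eq, Set.mem_singleton_iff]
      constructor
      · intro hw
        apply PlacesOver.prime_injective (q : ℕ)
        apply HeightOneSpectrum.ext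
        exact hsub (hmem w hw) (hmem _ (restrict_placeOf (q : ℕ) hKE σ))
      · rintro rfl
        exact restrict_placeOf (q : ℕ) hKE σ
    have h := ncard_fiber_mul_localDeg (q : ℕ) hKE hnorm σ
    rw [hfib, Set.ncard_singleton, one_mul, relIndex_eq_finrank halg] at h
    exact h

end General

/-! ### The cyclotomic layers `K(ζ_{p^n}) = K ⊔ ℚ(ζ)` -/

section Cyclotomic

variable (K : IntermediateField ℚ Qbar) (ζ : Qbar)

/-- The inclusion `K ↪ K ⊔ ℚ(ζ)` as an algebra structure. -/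
@[instance_reducible]
noncomputable def algebraSup : Algebra K ↥(K ⊔ ℚ⟮ζ⟯) :=
  (IntermediateField.inclusion (le_sup_left : K ≤ K ⊔ ℚ⟮ζ⟯)).toRingHom.toAlgebra

attribute [local instance] algebraSup

theorem algebraMap_sup_coe (x : K) : ((algebraMap K ↥(K ⊔ ℚ⟮ζ⟯) x : ↥(K ⊔ ℚ⟮ζ⟯)) : Qbar) = x := rfl

theorem mem_sup_adjoin_iff (x : Qbar) : x ∈ K ⊔ ℚ⟮ζ⟯ ↔ x ∈ K⟮ζ⟯ :=
  (SetLike.ext_iff.mp (restrictScalars_adjoin_eq_sup ℚ K ({ζ} : Set Qbar)) x).symm

/-- `K ⊔ ℚ(ζ)` is `K(ζ)`, as `K`-algebras. -/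
noncomputable def supEquivAdjoin : ↥(K ⊔ ℚ⟮ζ⟯) ≃ₐ[K] ↥K⟮ζ⟯ where
  toFun x := ⟨x.1, (mem_sup_adjoin_iff K ζ x.1).mp x.2⟩
  invFun y := ⟨y.1, (mem_sup_adjoin_iff K ζ y.1).mpr y.2⟩
  left_inv _ := rfl
  right_inv _ := rfl
  map_mul' _ _ := rfl
  map_add' _ _ := rfl
  commutes' _ := rfl

variable {p : ℕ} [Fact p.Prime] {n : ℕ}

theorem isCyclotomicExtension_adjoin (hζ : IsPrimitiveRoot ζ (p ^ n)) :
    IsCyclotomicExtension {p ^ n} K K⟮ζ⟯ := by
  haveI : NeZero (p ^ n) := ⟨pow_ne_zero _ (Fact.out : p.Prime).ne_zero⟩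
  exact hζ.intermediateField_adjoin_isCyclotomicExtension K

theorem isGalois_sup (hζ : IsPrimitiveRoot ζ (p ^ n)) : IsGalois K ↥(K ⊔ ℚ⟮ζ⟯) := by
  haveI : NeZero (p ^ n) := ⟨pow_ne_zero _ (Fact.out : p.Prime).ne_zero⟩
  haveI := isCyclotomicExtension_adjoin K ζ hζ
  haveI : IsGalois K K⟮ζ⟯ := IsCyclotomicExtension.isGalois {p ^ n} K K⟮ζ⟯
  exact IsGalois.of_algEquiv (supEquivAdjoin K ζ).symm

theorem isCyclic_gal_sup (hp2 : p ≠ 2) (hζ : IsPrimitiveRoot ζ (p ^ n)) :
    IsCyclic Gal(↥(K ⊔ ℚ⟮ζ⟯)/K) := by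
  haveI := isCyclotomicExtension_adjoin K ζ hζ
  haveI : IsCyclic Gal(K⟮ζ⟯/K) := CycloTower.isCyclic_gal hp2 n
  exact isCyclic_of_surjective (AlgEquiv.autCongr (supEquivAdjoin K ζ).symm)
    (AlgEquiv.autCongr (supEquivAdjoin K ζ).symm).surjective

theorem exists_finrank_sup_eq_pow {η : K} (hη : IsPrimitiveRoot η p)
    (hζ : IsPrimitiveRoot ζ (p ^ n)) :
    ∃ j : ℕ, Module.finrank K ↥(K ⊔ ℚ⟮ζ⟯) = p ^ j := by
  haveI := isCyclotomicExtension_adjoin K ζ hζ
  obtain ⟨j, hj⟩ := CycloTower.exists_finrank_eq_pow (E := K⟮ζ⟯) hη n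
  exact ⟨j, by rw [(supEquivAdjoin K ζ).toLinearEquiv.finrank_eq, hj]⟩

theorem numberField_sup [NumberField K] (hζ : IsPrimitiveRoot ζ (p ^ n)) :
    NumberField ↥(K ⊔ ℚ⟮ζ⟯) := by
  haveI : NeZero (p ^ n) := ⟨pow_ne_zero _ (Fact.out : p.Prime).ne_zero⟩
  haveI : FiniteDimensional ℚ ℚ⟮ζ⟯ :=
    IntermediateField.adjoin.finiteDimensional (hζ.isIntegral (NeZero.pos _)).tower_top
  haveI : FiniteDimensional ℚ ↥(K ⊔ ℚ⟮ζ⟯) := IntermediateField.finiteDimensional_sup K ℚ⟮ζ⟯
  exact { to_charZero := inferInstance, to_finiteDimensional := inferInstance }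

/-- `K(ζ_{p^n})/K` is normal: `G_K` stabilises `K ⊔ ℚ(ζ)`. -/
theorem fixingSubgroup_le_stabField_sup [NumberField K] (hζ : IsPrimitiveRoot ζ (p ^ n)) :
    K.fixingSubgroup ≤ stabField (K ⊔ ℚ⟮ζ⟯) := by
  haveI := numberField_sup K ζ hζ
  haveI := isGalois_sup K ζ hζ
  exact fixingSubgroup_le_stabField_of_normal (algebraMap_sup_coe K ζ)

/-- **A place of `K` outside `T` where `K(ζ_{p^n})/K` has full local degree** (`p` odd,
`ζ_p ∈ K`). -/
theorem exists_localDeg_sup_eq_relIndex [NumberField K] (hp2 : p ≠ 2) {η : K}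
    (hη : IsPrimitiveRoot η p) (hζ : IsPrimitiveRoot ζ (p ^ n)) (T : Finset Nat.Primes) :
    ∃ q : Nat.Primes, q ∉ T ∧ ∃ σ : Γ, localDeg (q : ℕ) K (K ⊔ ℚ⟮ζ⟯) σ =
      (K ⊔ ℚ⟮ζ⟯).fixingSubgroup.relIndex K.fixingSubgroup := by
  haveI := numberField_sup K ζ hζ
  haveI := isGalois_sup K ζ hζ
  haveI := isCyclic_gal_sup K ζ hp2 hζ
  obtain ⟨j, hj⟩ := exists_finrank_sup_eq_pow K ζ hη hζ
  rw [relIndex_eq_finrank (algebraMap_sup_coe K ζ)]
  exact exists_localDeg_eq_finrank (algebraMap_sup_coe K ζ) hj T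

/-- **Field side of (EX) in the Places model.**  `K ⊆ ℚ̄` a number field containing `ζ_p`, `p` odd.
For finitely many places `(q i, σ i)` of `K`, a bound `N` and a finite set `T` of rational primes,
all layers `E = K(ζ_{p^n})`, `n ≥ n₀`, of the cyclotomic `ℤ_p`-tower satisfy: `E/K` is Galois of
`p`-power degree; `p ^ N` divides the local degree at every `(q i, σ i)`; and there is a place
`(q₀, σ₀)`, `q₀ ∉ T`, at which the local degree is the full degree `[E : K]`. -/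
theorem exists_cyclotomic_layer [NumberField K] (hp2 : p ≠ 2) {η : K} (hη : IsPrimitiveRoot η p)
    {ι : Type*} (s : Finset ι) (q : ι → Nat.Primes) (σ : ι → Γ) (N : ℕ) (T : Finset Nat.Primes) :
    ∃ n₀ : ℕ, ∀ n, n₀ ≤ n → ∀ ζ : Qbar, IsPrimitiveRoot ζ (p ^ n) →
      K.fixingSubgroup ≤ stabField (K ⊔ ℚ⟮ζ⟯) ∧
      (∃ j : ℕ, (K ⊔ ℚ⟮ζ⟯).fixingSubgroup.relIndex K.fixingSubgroup = p ^ j) ∧
      (∀ i ∈ s, p ^ N ∣ localDeg (q i : ℕ) K (K ⊔ ℚ⟮ζ⟯) (σ i)) ∧
      ∃ q₀ : Nat.Primes, q₀ ∉ T ∧ ∃ σ₀ : Γ, localDeg (q₀ : ℕ) K (K ⊔ ℚ⟮ζ⟯) σ₀ =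
        (K ⊔ ℚ⟮ζ⟯).fixingSubgroup.relIndex K.fixingSubgroup := by
  obtain ⟨n₀, h⟩ := LocalDegrees.exists_forall_pow_dvd_localDeg_finset s (fun i => (q i : ℕ))
    (fun i => (q i).2) σ K p N
  refine ⟨n₀, fun n hn ζ hζ => ⟨fixingSubgroup_le_stabField_sup K ζ hζ, ?_, h n hn ζ hζ,
    exists_localDeg_sup_eq_relIndex K ζ hp2 hη hζ T⟩⟩
  haveI := numberField_sup K ζ hζ
  obtain ⟨j, hj⟩ := exists_finrank_sup_eq_pow K ζ hη hζ
  exact ⟨j, by rw [relIndex_eq_finrank (algebraMap_sup_coe K ζ), hj]⟩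

end Cyclotomic

end Fermat.Agent.S55.GL.BrauerExist
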