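/-
S55 block GLO11 (EX): the FINAL existence theorem `existField : ExistField p S` in the shape of
helper25's `GL/BrauerAll.lean`, from reciprocity `RecipField p S`.

The layers are the cyclotomic layers `E = K(ζ_{p^m})` of a good field `K` (`FullDecompPlaces`);
the finite-level existence at each layer is `BrauerExistPlaces.existsAtLayer_places`; the passage
to level cohomology is `BrauerExistLevel.exists_of_layers`; the class field theory input
`|H²(Gal(E/K), C_{E,T})| ∣ [E:K]` is helper3/helper7's `CFUncond.exists_finset_pgroup_C`.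
-/
import Fermat.Agent.S55.GL.BrauerExistPlaces
import Fermat.Agent.S55.GL.FullDecompPlaces
import Fermat.Agent.S55.GL.BrauerAll
import Fermat.Agent.S55.GL.CFUncond
import Fermat.Agent.S55.GL.BrauerExistUnr

set_option autoImplicit false
set_option linter.style.haveILetI false
set_option linter.unusedSectionVars false

open CategoryTheory IntermediateField groupCohomology

namespace Fermat.Agent.S55.GL.BrauerExistFinal

open Fermat.Agent.S55.Level Fermat.Agent.S55.GaloisLevel Fermat.Agent.S55.GL.Places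
  Fermat.Agent.S55.GL.BrauerLocal Fermat.Agent.S55.LocalDict Fermat.Agent.S55.GL.LocalFieldAt
  Fermat.Agent.S55.GL.CoindFun Fermat.Agent.S55.GL.Ideles Fermat.Agent.S55.GL.IdeleSemiLocal
  Fermat.Agent.S55.SmoothPart Fermat.Agent.S55.CFAbs Fermat.Agent.S55.LevelLayer
  Fermat.Agent.S55.GL.BrauerDict Fermat.Agent.S55.GL.BrauerExistRep
  Fermat.Agent.S55.GL.BrauerExistLevel Fermat.Agent.S55.GL.CFIdele Fermat.Agent.S55.CF
  Fermat.Agent.S55.GL.BrauerExistPlaces Fermat.Agent.S55.GL.BrauerExist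
  Fermat.Agent.S55.GL.BrauerAll Fermat.Agent.S55.GL.BrauerInst Fermat.Agent.S55.GL.QSMod
  Fermat.Agent.S55.Local.PadicCFT Fermat.Agent.S55.GL.IdelePlaces Fermat.Agent.S55.GL.Kummer
  Fermat.Agent.S55.GL.BrauerExistUnr

local notation "Qbar" => AlgebraicClosure ℚ
local notation "Γ" => (AlgebraicClosure ℚ ≃ₐ[ℚ] AlgebraicClosure ℚ)

/-- primes as `Fact`s -/
local instance factPrime_bef (q : Nat.Primes) : Fact (q : ℕ).Prime := ⟨q.2⟩

local instance isGaloisQbar_bef : IsGalois ℚ Qbar := Fermat.Agent.S55.Level.isGalois_Qbar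

section Cyclo

variable (K : IntermediateField ℚ Qbar) (ζ : Qbar) {p : ℕ} [hpF : Fact p.Prime] {n : ℕ}

/-- `ℚ(ζ)/ℚ` is normal. -/
theorem normal_adjoin_rootOfUnity (hζ : IsPrimitiveRoot ζ (p ^ n)) : Normal ℚ ↥ℚ⟮ζ⟯ := by
  haveI : NeZero (p ^ n) := ⟨pow_ne_zero _ hpF.out.ne_zero⟩
  haveI : IsCyclotomicExtension {p ^ n} ℚ ℚ⟮ζ⟯ :=
    hζ.intermediateField_adjoin_isCyclotomicExtension ℚ
  haveI : IsGalois ℚ ℚ⟮ζ⟯ := IsCyclotomicExtension.isGalois {p ^ n} ℚ ℚ⟮ζ⟯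
  exact inferInstance

/-- `K(ζ)/ℚ` is normal for `K/ℚ` normal. -/
theorem normal_sup_rootOfUnity [Normal ℚ K] (hζ : IsPrimitiveRoot ζ (p ^ n)) :
    Normal ℚ ↥(K ⊔ ℚ⟮ζ⟯) := by
  have h1 : @Normal ℚ ↥K _ _ K.algebra' := ‹Normal ℚ ↥K›
  have h2 : @Normal ℚ ↥ℚ⟮ζ⟯ _ _ (ℚ⟮ζ⟯).algebra' := normal_adjoin_rootOfUnity ζ hζ
  have h3 : @Normal ℚ ↥(K ⊔ ℚ⟮ζ⟯) _ _ (K ⊔ ℚ⟮ζ⟯).algebra' :=
    @IntermediateField.normal_sup ℚ Qbar _ _ _ K ℚ⟮ζ⟯ h1 h2
  exact h3

end Cyclo

section Main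

variable {p : ℕ} [hpF : Fact p.Prime] {S : Finset Nat.Primes}

/-- (CF) at the layer `E/K`: `|H²(Gal(E/K), C_{E,T})| ∣ [E:K]` for `T` large (helper3/helper7's
`CFUncond.exists_finset_pgroup_C`). -/
theorem hcf_layer (hp2 : p ≠ 2) (K E : IntermediateField ℚ Qbar) [NumberField ↥E] [Normal ℚ ↥E]
    (hKE : K ≤ E) {η : Qbar} (hη : IsPrimitiveRoot η p) (hηK : η ∈ K) {j : ℕ}
    (hcard : Nat.card ↥(galE K E) = p ^ j) :
    ∃ T₀ : Finset Nat.Primes, ∀ T : Finset Nat.Primes, T₀ ⊆ T →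
      Finite (groupCohomology (Rep.res (galE K E).subtype (C E T)) 2) ∧
      Nat.card (groupCohomology (Rep.res (galE K E).subtype (C E T)) 2) ∣
        Nat.card ↥(galE K E) := by
  haveI : IsGalois ℚ ↥E := ⟨⟩
  have hηE : η ∈ E := hKE hηK
  have hζ : IsPrimitiveRoot (⟨η, hηE⟩ : ↥E) p :=
    IsPrimitiveRoot.of_map_of_injective (f := algebraMap ↥E Qbar) (by exact hη)
      (algebraMap ↥E Qbar).injective
  have hζG : (((⟨η, hηE⟩ : ↥E)) : Qbar) ∈ fixedLift E (galE K E) := by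
    rw [mem_fixedLift]
    exact ⟨hηE, fun s hs => hs ⟨η, hηE⟩ hηK⟩
  obtain ⟨T₀, -, hT₀⟩ := CFUncond.exists_finset_pgroup_C E hp2 (galE K E) hζ hζG ∅
  refine ⟨T₀, fun T hT => ?_⟩
  obtain ⟨-, h⟩ := hT₀ T hT
  obtain ⟨-, h2, h3⟩ := h (galE K E) le_rfl j hcard
  exact ⟨h2, h3⟩

/-- **(EX), final form** `BrauerAll.ExistField p S`: for a good field `K` (number field, unramified
outside `S ∋ p`, normal over `ℚ`, containing `μ_p`; `p` odd), every family of `p`-primary local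
classes, almost all zero, whose invariants sum to zero, is the family of localisations of a
`p`-primary class of `H²(G_{K,S}, ℚ_S^×)`. -/
theorem existField (hp2 : p ≠ 2) (hpS : (⟨p, hpF.out⟩ : Nat.Primes) ∈ S)
    (hR : RecipField p S) : ExistField p S := by
  intro K _ hK hnorm hμp T x hsupp hprim hsum
  haveI : Normal ℚ ↥K := hnorm
  -- `ζ_p ∈ K`
  obtain ⟨η, hη⟩ := exists_primitiveRoot_Qbar (p := p)
  have hηK : η ∈ K := hμp η hη.pow_eq_one
  have hηK' : IsPrimitiveRoot (⟨η, hηK⟩ : ↥K) p :=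
    IsPrimitiveRoot.of_map_of_injective (f := algebraMap ↥K Qbar) (by exact hη)
      (algebraMap ↥K Qbar).injective
  -- reciprocity in the shape of `existsAtLayer_places`
  have hrecip : ∀ Y : levelCohomology ((globalLevel S).restrict K.fixingSubgroup)
      (resL K (Asm (globalLevel S))) 2, IsPPrim p Y → ∃ F'' : Finset (FinPlace K),
        (∀ v, v ∉ F'' → (resP K (smoothPartι (globalLevel S) (unitsRep ℚ Qbar)) (globalLevel S)
          (open_globalLevel S) v 2).hom Y = 0) ∧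
        ∑ v ∈ F'', (cftPlace K v).inv ((resP K (smoothPartι (globalLevel S) (unitsRep ℚ Qbar))
          (globalLevel S) (open_globalLevel S) v 2).hom Y) = 0 := fun Y hY => hR K Y hY
  -- the cyclotomic layers
  have hlayer : ∀ (F' : Finset (FinPlace K)) (n : ℕ), ∃ (U : Subgroup ↥K.fixingSubgroup)
      (_ : U.Normal) (_ : U ∈ ((globalLevel S).restrict K.fixingSubgroup).sets)
      (hmem : ∀ v, U.comap (rP K v) ∈ (levP K v).sets), (∃ j : ℕ, U.index = p ^ j) ∧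
      (∀ v ∈ F', p ^ n ∣ (U.comap (rP K v)).index) ∧
      ExistsAtLayer (rP K) (phiP K (globalLevel S)) (fun v => cftPlace K v) U hmem := by
    intro F' n
    obtain ⟨n₀, hn₀⟩ := exists_cyclotomic_layer K hp2 hηK' F' (fun v => v.prime)
      (fun v => v.rep) n ∅
    obtain ⟨ζ, hζ⟩ : ∃ ζ : Qbar, IsPrimitiveRoot ζ (p ^ n₀) := by
      haveI : NeZero (p ^ n₀) := ⟨pow_ne_zero _ hpF.out.ne_zero⟩
      exact HasEnoughRootsOfUnity.exists_primitiveRoot Qbar (p ^ n₀)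
    obtain ⟨-, ⟨j, hj⟩, hdvd, q₀, -, σ₀, hfull⟩ := hn₀ n₀ le_rfl ζ hζ
    haveI := numberField_sup K ζ hζ
    haveI := normal_sup_rootOfUnity K ζ hζ
    have hKE : K ≤ K ⊔ ℚ⟮ζ⟯ := le_sup_left
    have hE : (K ⊔ ℚ⟮ζ⟯).fixingSubgroup ∈ (globalLevel S).sets :=
      sup_adjoin_mem_globalLevel hpF.out hpS hK n₀ hζ.pow_eq_one
    have hcard : Nat.card ↥(galE K (K ⊔ ℚ⟮ζ⟯)) = p ^ j := (card_galE K _ hKE).trans hj
    refine ⟨Uglob K (K ⊔ ℚ⟮ζ⟯), normal_Uglob K _, (globalLevel S).mem_restrict_sets _ hE,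
      hmemP K _, ⟨j, (index_Uglob K _).trans hj⟩, fun v hv => ?_, ?_⟩
    · have h1 := index_Uloc v.prime K (K ⊔ ℚ⟮ζ⟯) v.rep hKE
      have h2 := hdvd v hv
      rw [← h1] at h2
      exact h2
    · exact existsAtLayer_places K (K ⊔ ℚ⟮ζ⟯) (globalLevel S) (open_globalLevel S) hE
        (fun v => cftPlace K v) hKE p ⟨j, hj⟩ ⟨q₀, σ₀, hfull⟩
        (hcf_layer hp2 K _ hKE hη hηK hcard) (hunr_globalLevel S K _ hE) hrecip
  obtain ⟨y, hy, hyv⟩ := exists_of_layers (rP K)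
    (fun v => refines_decompHom (v.prime : ℕ) K v.rep (globalLevel S) (open_globalLevel S))
    (phiP K (globalLevel S)) (fun v => cftPlace K v) p hlayer T x hsupp hprim hsum
  exact ⟨y, hy, hyv⟩

end Main

end Fermat.Agent.S55.GL.BrauerExistFinal
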