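/-
S55 / GLO8 (helper7): the Hasse principle for `p`-primary classes when `ζ_p` is NOT assumed to lie
in the base field.

The cyclic layer hypothesis `LayerHyp p (res G₀ C)` is only available over the subgroup
`G₀ = Gal(L/ℚ(ζ_p))`.  For an arbitrary `H ≤ Gal(L/ℚ)` the index `[H : H ∩ G₀]` divides `p - 1`, so a
Sylow `p`-subgroup of `H ∩ G₀` is a Sylow `p`-subgroup of `H`, and restriction to it is injective on
`p`-primary parts:

* `pPrimary_H1_eq_bot_of_relIndex` : `LayerHyp p (res G₀ A)`, `p ∤ [H : H ∩ G₀]`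
  ⇒ `H¹(H, A)(p) = 0`;
* `hasse_factor_of_H1` : the abstract Hasse principle from `H¹(G, X₃)(p) = 0`;
* `hasse_units_pPrimary_of_relIndex` : finite-level Hasse principle for `H²(H, Lˣ)(p)`, any `H`.
* `zetaStab`, `not_dvd_relIndex_zetaStab` : `G₀ := Stab(ζ)`, `p ∤ [H : H ∩ G₀]`.
-/
import Mathlib
import Fermat.Agent.S55.GL.CFFinal

set_option autoImplicit false

universe u

open CategoryTheory groupCohomology Rep

namespace Fermat.Agent.S55.GL.CFHasse

open Fermat.Agent.S55.GL.CF1

section Abstract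

variable {k : Type u} [CommRing k] {G : Type u} [Group G]

/-- **`H¹(H, A)(p) = 0` from the layer hypothesis over a subgroup `G₀` with `p ∤ [H : H ∩ G₀]`.** -/
theorem pPrimary_H1_eq_bot_of_relIndex [Finite G] (p : ℕ) [hp : Fact p.Prime] (A : Rep.{u} k G)
    (H G₀ : Subgroup G) (hidx : ¬ p ∣ G₀.relIndex H) (hA : LayerHyp p (res G₀.subtype A)) :
    pPrimary p (groupCohomology (res H.subtype A) 1) = ⊥ := by
  classical
  -- a Sylow `p`-subgroup of `H ∩ G₀`, as a subgroup of `H` and of `G`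
  set G₁ : Subgroup H := G₀.subgroupOf H with hG₁
  have P₁ : Sylow p G₁ := default
  set P' : Subgroup H := (P₁ : Subgroup G₁).map G₁.subtype with hP'
  set P : Subgroup G := P'.map H.subtype with hP
  have hcard' : Nat.card P' = p ^ (Nat.card G₁).factorization p := by
    rw [hP', Subgroup.card_map_of_injective G₁.subtype_injective]
    exact P₁.card_eq_multiplicity
  have hcard : Nat.card P = p ^ (Nat.card G₁).factorization p := by
    rw [hP, Subgroup.card_map_of_injective H.subtype_injective, hcard']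
  have hidx' : ¬ p ∣ P'.index := by
    rw [hP', Subgroup.index_map_subtype]
    intro hdvd
    rcases (Nat.Prime.dvd_mul hp.out).1 hdvd with h1 | h1
    · exact P₁.not_dvd_index h1
    · exact hidx h1
  have hle : P ≤ G₀ := by
    rintro _ ⟨x, ⟨y, -, rfl⟩, rfl⟩
    exact y.2
  have hz : Limits.IsZero (groupCohomology (res P.subtype A) 1) :=
    (pgroup_of_layerHyp p hA hle hcard).1
  have hz' : Limits.IsZero (groupCohomology (res P'.subtype (res H.subtype A)) 1) :=
    (Fermat.Agent.S55.GC.isZero_groupCohomology_res_mulEquiv_iff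
      (P'.equivMapOfInjective H.subtype H.subtype_injective)
      (res (P'.map H.subtype).subtype A) 1).2 hz
  have hs : Subsingleton (groupCohomology (res P'.subtype (res H.subtype A)) 1) :=
    ModuleCat.isZero_iff_subsingleton.mp hz'
  rw [eq_bot_iff]
  rintro x ⟨j, hj⟩
  have h1 : P'.index • x = 0 := resKills (res H.subtype A) P' 1 x (Subsingleton.elim _ _)
  have hcop : Nat.Coprime (p ^ j) P'.index :=
    Nat.Coprime.pow_left j ((Nat.Prime.coprime_iff_not_dvd hp.out).mpr hidx')
  exact Fermat.Agent.S55.GC.Cores.eq_zero_of_coprime_nsmul hcop hj h1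

/-- Abstract Hasse principle through a factorisation `X₁ ⟶ U ⟶ X₂` of `X.f`, from
`H¹(G, X₃)(p) = 0`: a `p`-primary class of `H²(G, U)` coming from `H²(G, X₁)` and dying in
`H²(G, X₂)` is zero. -/
theorem hasse_factor_of_H1 [Finite G] (X : ShortComplex (Rep.{u} k G)) (hX : X.ShortExact)
    (p : ℕ) [Fact p.Prime] (hC : pPrimary p (groupCohomology X.X₃ 1) = ⊥) {U : Rep.{u} k G}
    (i : X.X₁ ⟶ U) (d : U ⟶ X.X₂) (hid : i ≫ d = X.f) (z : groupCohomology X.X₁ 2)
    (hx : (groupCohomology.map (MonoidHom.id G) i 2).hom z ∈ pPrimary p (groupCohomology U 2))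
    (h0 : (groupCohomology.map (MonoidHom.id G) d 2).hom
      ((groupCohomology.map (MonoidHom.id G) i 2).hom z) = 0) :
    (groupCohomology.map (MonoidHom.id G) i 2).hom z = 0 := by
  have hp : p.Prime := Fact.out
  have hG0 : Nat.card G ≠ 0 := Nat.card_pos.ne'
  obtain ⟨a, m, hm, hGm⟩ := Nat.exists_eq_pow_mul_and_not_dvd hG0 p hp.ne_one
  have hyp : m • z ∈ pPrimary p (groupCohomology X.X₁ 2) := by
    refine ⟨a, ?_⟩
    rw [← mul_smul, ← hGm]
    exact Fermat.Agent.S55.GC.Cores.card_nsmul_eq_zero X.X₁ 1 _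
  have hcomp : (groupCohomology.map (MonoidHom.id G) X.f 2).hom z =
      (groupCohomology.map (MonoidHom.id G) d 2).hom
        ((groupCohomology.map (MonoidHom.id G) i 2).hom z) := by
    rw [← hid, groupCohomology.map_id_comp]
    rfl
  have hJ : (groupCohomology.map (MonoidHom.id G) X.f 2).hom (m • z) = 0 := by
    rw [map_nsmul, hcomp, h0, smul_zero]
  have h1 : m • z = 0 := eq_zero_of_pPrimary_of_map_eq_zero hX p 0 hC (m • z) hyp hJ
  have hmx : m • (groupCohomology.map (MonoidHom.id G) i 2).hom z = 0 := by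
    rw [← map_nsmul, h1, map_zero]
  obtain ⟨j, hj⟩ := hx
  have hcop : Nat.Coprime (p ^ j) m :=
    Nat.Coprime.pow_left j ((Nat.Prime.coprime_iff_not_dvd hp).mpr hm)
  exact Fermat.Agent.S55.GC.Cores.eq_zero_of_coprime_nsmul hcop hj hmx

end Abstract

section Hasse

open IntermediateField Fermat.Agent.S55.GL.Ideles Fermat.Agent.S55.GL.CFIdele

local notation "Qbar" => AlgebraicClosure ℚ

variable (L : IntermediateField ℚ Qbar) [Normal ℚ L] [NumberField L]
variable (T : Finset Nat.Primes) (H : Subgroup (L ≃ₐ[ℚ] L))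

/-- Auxiliary form of the Hasse principle from `H¹(H, C_{L,T})(p) = 0`: a class coming from
`H²(H, E_{L,T})`. -/
theorem hasse_aux_of_H1 (p : ℕ) [Fact p.Prime] (hTne : T.Nonempty)
    (hC : pPrimary p (groupCohomology (Rep.res H.subtype (C L T)) 1) = ⊥)
    (z : groupCohomology (Rep.res H.subtype (E L T)) 2)
    (hx : (groupCohomology.map (MonoidHom.id H) ((Rep.resFunctor H.subtype).map (incE L T)) 2).hom z ∈
      pPrimary p (groupCohomology (Rep.res H.subtype (unitsRep L)) 2))
    (hloc : ∀ (q : T) (g : L ≃ₐ[ℚ] L),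
      (groupCohomology.map (IdeleSemiLocal.decomp L T H q g).subtype
          (IdeleSemiLocal.locHom L T H q g) 2).hom
        ((groupCohomology.map (MonoidHom.id H)
          ((Rep.resFunctor H.subtype).map (diagRep L T)) 2).hom
          ((groupCohomology.map (MonoidHom.id H)
            ((Rep.resFunctor H.subtype).map (incE L T)) 2).hom z)) = 0) :
    (groupCohomology.map (MonoidHom.id H) ((Rep.resFunctor H.subtype).map (incE L T)) 2).hom z
      = 0 := by
  have hX : ((seq L T).map (Rep.resFunctor H.subtype)).ShortExact :=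
    (Rep.shortExact_res H.subtype).2 (seq_shortExact L T hTne)
  refine hasse_factor_of_H1 ((seq L T).map (Rep.resFunctor H.subtype)) hX p hC
    ((Rep.resFunctor H.subtype).map (incE L T)) ((Rep.resFunctor H.subtype).map (diagRep L T))
    ?_ z hx ?_
  · rfl
  · apply (IdeleSemiLocal.semiLocal_J L T H 2).1
    funext j
    exact (hloc j.1 _).trans (map_zero _).symm

/-- **Hasse principle for `H²(H, Lˣ)`, `p`-part, ANY `H ≤ Gal(L/ℚ)`** (finite level): if the idèle
class groups `C_{L,T}` (`T` large) satisfy the cyclic layer hypothesis at `p` over a subgroup `G₀`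
with `p ∤ [H : H ∩ G₀]`, then a `p`-primary class of `H²(H, Lˣ)` all of whose localisations vanish
is zero. -/
theorem hasse_units_pPrimary_of_relIndex (p : ℕ) [Fact p.Prime] (G₀ : Subgroup (L ≃ₐ[ℚ] L))
    (hidx : ¬ p ∣ G₀.relIndex H) (T₀ : Finset Nat.Primes)
    (hC : ∀ T : Finset Nat.Primes, T₀ ⊆ T → LayerHyp p (Rep.res G₀.subtype (C L T)))
    (x : groupCohomology (Rep.res H.subtype (unitsRep L)) 2)
    (hx : x ∈ pPrimary p (groupCohomology (Rep.res H.subtype (unitsRep L)) 2))
    (hloc : ∀ (T : Finset Nat.Primes) (q : T) (g : L ≃ₐ[ℚ] L),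
      (groupCohomology.map (IdeleSemiLocal.decomp L T H q g).subtype
          (IdeleSemiLocal.locHom L T H q g) 2).hom
        ((groupCohomology.map (MonoidHom.id H)
          ((Rep.resFunctor H.subtype).map (diagRep L T)) 2).hom x) = 0) :
    x = 0 := by
  obtain ⟨T, hT₀, hTne, z, rfl⟩ := exists_lift_E L H T₀ x
  exact hasse_aux_of_H1 L T H p hTne
    (pPrimary_H1_eq_bot_of_relIndex p (C L T) H G₀ hidx (hC T hT₀)) z hx (hloc T)

end Hasse

section Zeta

local notation "Qbar" => AlgebraicClosure ℚ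

variable {L : Type*} [Field L] [Algebra ℚ L]

/-- The subgroup of `Gal(L/ℚ)` fixing `ζ` (`= Gal(L/ℚ(ζ))`). -/
def zetaStab (ζ : L) : Subgroup (L ≃ₐ[ℚ] L) := MulAction.stabilizer (L ≃ₐ[ℚ] L) ζ

theorem mem_zetaStab {ζ : L} {g : L ≃ₐ[ℚ] L} : g ∈ zetaStab ζ ↔ g ζ = ζ := Iff.rfl

/-- `[H : H ∩ Stab(ζ_p)]` is prime to `p` (it is at most `p - 1`). -/
theorem not_dvd_relIndex_zetaStab [Finite (L ≃ₐ[ℚ] L)] {p : ℕ} [hp : Fact p.Prime] {ζ : L}
    (hζ : IsPrimitiveRoot ζ p) (H : Subgroup (L ≃ₐ[ℚ] L)) : ¬ p ∣ (zetaStab ζ).relIndex H := by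
  classical
  have hstab : (zetaStab ζ).subgroupOf H = MulAction.stabilizer H ζ := by
    ext x
    rfl
  have hpos : 0 < p := hp.out.pos
  have : NeZero p := ⟨hp.out.ne_zero⟩
  have hsub : MulAction.orbit H ζ ⊆ (↑(primitiveRoots p L) : Set L) := by
    rintro _ ⟨h, rfl⟩
    rw [Finset.mem_coe, mem_primitiveRoots hpos]
    exact hζ.map_of_injective (f := ((h : L ≃ₐ[ℚ] L) : L →+* L)) (h : L ≃ₐ[ℚ] L).injective
  have hle : (MulAction.orbit H ζ).ncard ≤ p - 1 := by
    have h1 := Set.ncard_le_ncard hsub (Finset.finite_toSet _)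
    rw [Set.ncard_coe_finset, hζ.card_primitiveRoots, Nat.totient_prime hp.out] at h1
    exact h1
  have hne : (MulAction.orbit H ζ).ncard ≠ 0 := by
    have hfin : (MulAction.orbit H ζ).Finite := (Finset.finite_toSet _).subset hsub
    rw [Ne, Set.ncard_eq_zero hfin]
    exact (MulAction.nonempty_orbit ζ).ne_empty
  rw [Subgroup.relIndex, hstab, MulAction.index_stabilizer]
  exact Nat.not_dvd_of_pos_of_lt (Nat.pos_of_ne_zero hne) (by omega)

end Zeta

section Final

open IntermediateField Fermat.Agent.S55.GL.Ideles Fermat.Agent.S55.GL.CFFinal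

local notation "Qbar" => AlgebraicClosure ℚ

variable (L : IntermediateField ℚ Qbar) [Normal ℚ L] [NumberField L] [IsGalois ℚ L]

/-- **Hasse principle for `H²(H, Lˣ)(p)`, finite level, `p` odd, `ζ_p ∈ L`, ANY `H ≤ Gal(L/ℚ)`**,
conditional only on the second inequality (for `T` large) for the layers below
`G₀ = Stab(ζ_p) = Gal(L/ℚ(ζ_p))`. -/
theorem hasse_units_pPrimary_zeta (p : ℕ) [hp : Fact p.Prime] (hp2 : p ≠ 2) {ζ : L}
    (hζ : IsPrimitiveRoot ζ p)
    (hle : ∃ T₃ : Finset Nat.Primes, ∀ T : Finset Nat.Primes, T₃ ⊆ T →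
      SecondIneqHyp L p (zetaStab ζ) T)
    (H : Subgroup (L ≃ₐ[ℚ] L))
    (x : groupCohomology (Rep.res H.subtype (unitsRep L)) 2)
    (hx : x ∈ pPrimary p (groupCohomology (Rep.res H.subtype (unitsRep L)) 2))
    (hloc : ∀ (T : Finset Nat.Primes) (q : T) (g : L ≃ₐ[ℚ] L),
      (groupCohomology.map (IdeleSemiLocal.decomp L T H q g).subtype
          (IdeleSemiLocal.locHom L T H q g) 2).hom
        ((groupCohomology.map (MonoidHom.id H)
          ((Rep.resFunctor H.subtype).map (diagRep L T)) 2).hom x) = 0) :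
    x = 0 := by
  obtain ⟨T₀, -, hT₀⟩ := exists_finset_layerHyp_C_of_odd L p hp2 (zetaStab ζ) ∅ hle
  exact hasse_units_pPrimary_of_relIndex L H p (zetaStab ζ) (not_dvd_relIndex_zetaStab hζ H) T₀
    (fun T hT => (hT₀ T hT).2) x hx hloc

end Final

end Fermat.Agent.S55.GL.CFHasse
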