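/-
S55 / GLO8 (helper7), (HS): the finite-level Hasse principle with localisations tested at an
ARBITRARY system of representatives of the places.

helper3's semi-local decomposition `CoindFun.semiLocal` uses the representatives `Quotient.out` of
the double cosets `φ i (D i) \ G / H`; helper14's level model (`BrauerLocal.FinPlace.rep`) uses other
representatives.  Here:

* `semiLocal_reps` : `CoindFun.semiLocal` for any choice `r` of representatives of the double
  cosets;
* `semiLocal_J_reps` : the same for the idèle module `J L T`;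
* `hasse_units_pPrimary_zeta_reps`, `hasse_units_pPrimary_zeta_exists` : the finite-level Hasse
  principle for `p`-primary classes of `H²(H, Lˣ)` when the localisations vanish at ONE
  representative of every place.
-/
import Mathlib
import Fermat.Agent.S55.GL.CFHasse

set_option autoImplicit false
set_option linter.style.haveILetI false

universe u

open CategoryTheory groupCohomology Rep

namespace Fermat.Agent.S55.GL.HasseReps

/-- primes as `Fact`s -/
local instance factPrime_hr (q : Nat.Primes) : Fact (q : ℕ).Prime := ⟨q.2⟩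

section Family

open Fermat.Agent.S55.GL.CoindFun

variable {G : Type} [Group G] {I : Type} {D : I → Type*} {Ω : I → Type}
  [∀ i, Group (D i)] [∀ i, CommGroup (Ω i)] [∀ i, MulDistribMulAction (D i) (Ω i)]
  (φ : ∀ i, D i →* G) (hφ : ∀ i, Function.Injective (φ i)) (H : Subgroup G)
  (r : Idx φ H → G) (hr : ∀ j : Idx φ H, DoubleCoset.mk (φ j.1).range H (r j) = j.2)

include hr in
theorem exists_eq_mul_r_mul (i : I) (g : G) :
    ∃ (d : D i) (h : H), g = φ i d * r ⟨i, DoubleCoset.mk _ _ g⟩ * (h : G) := by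
  have h1 := hr ⟨i, DoubleCoset.mk _ _ g⟩
  obtain ⟨a, ⟨d, rfl⟩, b, hb, hab⟩ := (DoubleCoset.eq _ _ _ _).1 h1
  exact ⟨d, ⟨b, hb⟩, hab⟩

include hr in
theorem eq_of_r_mul_eq {i : I} {x y : DoubleCoset.Quotient ((φ i).range : Set G) (H : Set G)}
    {h : H} {d : D i} (hxy : r ⟨i, y⟩ * (h : G) = φ i d * r ⟨i, x⟩) : y = x := by
  refine (hr ⟨i, y⟩).symm.trans (Eq.trans ?_ (hr ⟨i, x⟩))
  show DoubleCoset.mk (φ i).range H (r ⟨i, y⟩) = DoubleCoset.mk (φ i).range H (r ⟨i, x⟩)
  rw [DoubleCoset.eq]
  refine ⟨φ i d⁻¹, ⟨d⁻¹, rfl⟩, (h : G), h.2, ?_⟩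
  rw [mul_assoc, hxy, map_inv, inv_mul_cancel_left]

include hr in
open Fermat.Agent.S55.GC.SemiLocal in
/-- **Semi-local decomposition with arbitrary representatives** of the double cosets. -/
theorem semiLocal_reps [Finite G] [Finite I] (n : ℕ) :
    Function.Bijective (fun (x : groupCohomology (Rep.res H.subtype (prodRep (Ω := Ω) φ)) n)
      (j : Idx φ H) => (loc (evalHom (Ω := Ω) φ hφ H j.1 (r j)) n).hom x) := by
  haveI : ∀ i, Finite (DoubleCoset.Quotient ((φ i).range : Set G) (H : Set G)) := fun i =>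
    Quotient.finite _
  haveI : Finite (Idx φ H) := inferInstanceAs (Finite (Σ i : I, _))
  refine semiLocal_bijective (fun j : Idx φ H => evalHom (Ω := Ω) φ hφ H j.1 (r j)) ?_ ?_ n
  · -- separation
    intro a ha
    have key : ∀ (i : I) (g : G), (Additive.toMul a i).1 g = 1 := by
      intro i g
      obtain ⟨d, h, hg⟩ := exists_eq_mul_r_mul φ H r hr i g
      have h1 := ha ⟨i, DoubleCoset.mk _ _ g⟩ h
      have h2 : (Additive.toMul a i).1 (r ⟨i, DoubleCoset.mk _ _ g⟩ * (h : G)) = 1 := h1
      rw [hg, mul_assoc, (Additive.toMul a i).2, h2, smul_one]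
    have h1 : Additive.toMul (show Additive (ProdCoind (Ω := Ω) φ) from a) = 1 := by
      funext i
      exact Subtype.ext (funext fun g => key i g)
    exact congrArg Additive.ofMul h1
  · -- single components
    rintro ⟨i, x⟩ b
    refine ⟨Additive.ofMul (singleAt φ hφ i (r ⟨i, x⟩) (Additive.toMul b)), ?_, ?_, ?_⟩
    · show Additive.ofMul ((singleAt φ hφ i (r ⟨i, x⟩) (Additive.toMul b) i).1
        (r ⟨i, x⟩)) = b
      rw [singleAt_same, single_apply_self]
      rfl
    · intro h hh
      show Additive.ofMul ((singleAt φ hφ i (r ⟨i, x⟩) (Additive.toMul b) i).1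
        (r ⟨i, x⟩ * (h : G))) = 0
      rw [singleAt_same, single_apply_of_not_exists]
      · rfl
      · rintro ⟨d, hd⟩
        exact hh (mem_stab_iff_exists.mpr ⟨d, hd⟩)
    · rintro ⟨i', y⟩ hne h
      show Additive.ofMul ((singleAt φ hφ i (r ⟨i, x⟩) (Additive.toMul b) i').1
        (r ⟨i', y⟩ * (h : G))) = 0
      by_cases hi : i = i'
      · subst hi
        rw [singleAt_same, single_apply_of_not_exists]
        · rfl
        · rintro ⟨d, hd⟩
          apply hne
          rw [eq_of_r_mul_eq φ H r hr hd]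
      · rw [singleAt_ne φ hφ i _ _ hi]
        rfl

end Family

section Ideles

open IntermediateField Fermat.Agent.S55.GL.Ideles Fermat.Agent.S55.GL.CFIdele
  Fermat.Agent.S55.LocalDict Fermat.Agent.S55.GL.LocalFieldAt
  Fermat.Agent.S55.GL.CoindFun Fermat.Agent.S55.GL.IdeleSemiLocal Fermat.Agent.S55.GL.CF1
  Fermat.Agent.S55.GL.CFHasse Fermat.Agent.S55.GL.CFFinal

local notation "Qbar" => AlgebraicClosure ℚ

variable (L : IntermediateField ℚ Qbar) [Normal ℚ L] [NumberField L]
variable (T : Finset Nat.Primes) (H : Subgroup (L ≃ₐ[ℚ] L))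

open Fermat.Agent.S55.GC.SemiLocal in
/-- **Semi-local decomposition of the idèle cohomology with arbitrary representatives.** -/
theorem semiLocal_J_reps (r : PlaceIdx L T H → (L ≃ₐ[ℚ] L))
    (hr : ∀ j : PlaceIdx L T H,
      DoubleCoset.mk (resFamily L T j.1).range H (r j) = j.2) (n : ℕ) :
    Function.Bijective (fun (x : groupCohomology (Rep.res H.subtype (J L T)) n)
      (j : PlaceIdx L T H) => (loc (locHom L T H j.1 (r j)) n).hom x) :=
  semiLocal_reps (Ω := fun q : T => (localField ((q : Nat.Primes) : ℕ) L)ˣ) (resFamily L T)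
    (resFamily_injective L T) H r hr n

/-- Auxiliary form of the Hasse principle from `H¹(H, C_{L,T})(p) = 0`, localisations tested at
arbitrary representatives. -/
theorem hasse_aux_of_H1_reps (p : ℕ) [Fact p.Prime] (hTne : T.Nonempty)
    (hC : pPrimary p (groupCohomology (Rep.res H.subtype (C L T)) 1) = ⊥)
    (r : PlaceIdx L T H → (L ≃ₐ[ℚ] L))
    (hr : ∀ j : PlaceIdx L T H,
      DoubleCoset.mk (resFamily L T j.1).range H (r j) = j.2)
    (z : groupCohomology (Rep.res H.subtype (E L T)) 2)
    (hx : (groupCohomology.map (MonoidHom.id H) ((Rep.resFunctor H.subtype).map (incE L T)) 2).hom z ∈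
      pPrimary p (groupCohomology (Rep.res H.subtype (unitsRep L)) 2))
    (hloc : ∀ j : PlaceIdx L T H,
      (groupCohomology.map (IdeleSemiLocal.decomp L T H j.1 (r j)).subtype
          (IdeleSemiLocal.locHom L T H j.1 (r j)) 2).hom
        ((groupCohomology.map (MonoidHom.id H)
          ((Rep.resFunctor H.subtype).map (diagRep L T)) 2).hom
          ((groupCohomology.map (MonoidHom.id H)
            ((Rep.resFunctor H.subtype).map (incE L T)) 2).hom z)) = 0) :
    (groupCohomology.map (MonoidHom.id H) ((Rep.resFunctor H.subtype).map (incE L T)) 2).hom z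
      = 0 := by
  have hX : ((seq L T).map (Rep.resFunctor H.subtype)).ShortExact :=
    (Rep.shortExact_res H.subtype).2 (seq_shortExact L T hTne)
  refine hasse_factor_of_H1 ((seq L T).map (Rep.resFunctor H.subtype)) hX p hC
    ((Rep.resFunctor H.subtype).map (incE L T)) ((Rep.resFunctor H.subtype).map (diagRep L T))
    ?_ z hx ?_
  · rfl
  · apply (semiLocal_J_reps L T H r hr 2).1
    funext j
    exact (hloc j).trans (map_zero _).symm

/-- **Hasse principle for `H²(H, Lˣ)`, `p`-part, ANY `H ≤ Gal(L/ℚ)`** (finite level), the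
localisations being tested at ONE representative of every place. -/
theorem hasse_units_pPrimary_of_relIndex_exists (p : ℕ) [Fact p.Prime]
    (G₀ : Subgroup (L ≃ₐ[ℚ] L))
    (hidx : ¬ p ∣ G₀.relIndex H) (T₀ : Finset Nat.Primes)
    (hC : ∀ T : Finset Nat.Primes, T₀ ⊆ T → LayerHyp p (Rep.res G₀.subtype (C L T)))
    (x : groupCohomology (Rep.res H.subtype (unitsRep L)) 2)
    (hx : x ∈ pPrimary p (groupCohomology (Rep.res H.subtype (unitsRep L)) 2))
    (hloc : ∀ (T : Finset Nat.Primes) (q : T) (g : L ≃ₐ[ℚ] L), ∃ g' : L ≃ₐ[ℚ] L,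
      DoubleCoset.mk (resFamily L T q).range H g' = DoubleCoset.mk (resFamily L T q).range H g ∧
      (groupCohomology.map (IdeleSemiLocal.decomp L T H q g').subtype
          (IdeleSemiLocal.locHom L T H q g') 2).hom
        ((groupCohomology.map (MonoidHom.id H)
          ((Rep.resFunctor H.subtype).map (diagRep L T)) 2).hom x) = 0) :
    x = 0 := by
  obtain ⟨T, hT₀, hTne, z, rfl⟩ := exists_lift_E L H T₀ x
  have hex : ∀ (q : T) (c : DoubleCoset.Quotient ((resFamily L T q).range : Set (L ≃ₐ[ℚ] L))
      (H : Set (L ≃ₐ[ℚ] L))), ∃ g' : L ≃ₐ[ℚ] L,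
      DoubleCoset.mk (resFamily L T q).range H g' = c ∧
      (groupCohomology.map (IdeleSemiLocal.decomp L T H q g').subtype
          (IdeleSemiLocal.locHom L T H q g') 2).hom
        ((groupCohomology.map (MonoidHom.id H)
          ((Rep.resFunctor H.subtype).map (diagRep L T)) 2).hom
          ((groupCohomology.map (MonoidHom.id H)
            ((Rep.resFunctor H.subtype).map (incE L T)) 2).hom z)) = 0 :=
    fun q c => Quotient.inductionOn c (fun g => hloc T q g)
  exact hasse_aux_of_H1_reps L T H p hTne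
    (pPrimary_H1_eq_bot_of_relIndex p (C L T) H G₀ hidx (hC T hT₀))
    (fun j => Classical.choose (hex j.1 j.2))
    (fun j => (Classical.choose_spec (hex j.1 j.2)).1) z hx
    (fun j => (Classical.choose_spec (hex j.1 j.2)).2)

end Ideles

section Final

open IntermediateField Fermat.Agent.S55.GL.Ideles Fermat.Agent.S55.GL.CFFinal
  Fermat.Agent.S55.GL.CoindFun Fermat.Agent.S55.GL.IdeleSemiLocal Fermat.Agent.S55.GL.CF1
  Fermat.Agent.S55.GL.CFHasse

local notation "Qbar" => AlgebraicClosure ℚ

variable (L : IntermediateField ℚ Qbar) [Normal ℚ L] [NumberField L] [IsGalois ℚ L]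

/-- **Hasse principle for `H²(H, Lˣ)(p)`, finite level, `p` odd, `ζ_p ∈ L`, ANY `H ≤ Gal(L/ℚ)`**,
the localisations being tested at ONE representative of every place (every double coset
`D_q g H`); conditional only on the second inequality (for `T` large) for the layers below
`Stab(ζ_p)`. -/
theorem hasse_units_pPrimary_zeta_exists (p : ℕ) [hp : Fact p.Prime] (hp2 : p ≠ 2) {ζ : L}
    (hζ : IsPrimitiveRoot ζ p)
    (hle : ∃ T₃ : Finset Nat.Primes, ∀ T : Finset Nat.Primes, T₃ ⊆ T →
      SecondIneqHyp L p (zetaStab ζ) T)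
    (H : Subgroup (L ≃ₐ[ℚ] L))
    (x : groupCohomology (Rep.res H.subtype (unitsRep L)) 2)
    (hx : x ∈ pPrimary p (groupCohomology (Rep.res H.subtype (unitsRep L)) 2))
    (hloc : ∀ (T : Finset Nat.Primes) (q : T) (g : L ≃ₐ[ℚ] L), ∃ g' : L ≃ₐ[ℚ] L,
      DoubleCoset.mk (resFamily L T q).range H g' = DoubleCoset.mk (resFamily L T q).range H g ∧
      (groupCohomology.map (IdeleSemiLocal.decomp L T H q g').subtype
          (IdeleSemiLocal.locHom L T H q g') 2).hom
        ((groupCohomology.map (MonoidHom.id H)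
          ((Rep.resFunctor H.subtype).map (diagRep L T)) 2).hom x) = 0) :
    x = 0 := by
  obtain ⟨T₀, -, hT₀⟩ := exists_finset_layerHyp_C_of_odd L p hp2 (zetaStab ζ) ∅ hle
  exact hasse_units_pPrimary_of_relIndex_exists L H p (zetaStab ζ)
    (not_dvd_relIndex_zetaStab hζ H) T₀ (fun T hT => (hT₀ T hT).2) x hx hloc

end Final

end Fermat.Agent.S55.GL.HasseReps
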