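/-
S55 / GLO8 (helper7), (HS): the Hasse principle for `p`-primary classes in LEVEL form.

`K ⊆ ℚ̄` a number field, `𝒰` a level structure of open subgroups of `Γ = Gal(ℚ̄/ℚ)`
(`krullLevel ℚ ℚ̄` or `globalLevel S`), `A = smoothPart 𝒰 ℚ̄ˣ` (`= ℚ̄ˣ` resp. `Q_Sˣ`).
A `p`-primary class of `H²(G_K, A)` (level cohomology for `𝒰.restrict G_K`) all of whose
localisations `BrauerLocal.resAt q K σ` vanish (at ONE representative `σ` of every finite place of
`K`) is zero.

The proof goes through helper20's dictionary (`GL/BrauerDictLocal`, `GL/BrauerDictGlobal`) to the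
finite-level Hasse principle of `GL/HasseReps.lean` (helper3's idèle model).  It is conditional
only on the second inequality `CFFinal.SecondIneqHyp` for the finite Galois `E/ℚ` containing
`ζ_p` (hypothesis `hsec`).
-/
import Mathlib
import Fermat.Agent.S55.GL.HasseReps
import Fermat.Agent.S55.GL.BrauerDictGlobal
import Fermat.Agent.S55.Local.InvariantLevel
import Fermat.Agent.S55.GL.BrauerInst

set_option autoImplicit false
set_option linter.style.haveILetI false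
set_option linter.unusedSectionVars false

open CategoryTheory IntermediateField groupCohomology

namespace Fermat.Agent.S55.GL.HasseLevel

open Fermat.Agent.S55.Level Fermat.Agent.S55.GaloisLevel Fermat.Agent.S55.GL.Places
  Fermat.Agent.S55.GL.BrauerLocal Fermat.Agent.S55.LocalDict Fermat.Agent.S55.GL.LocalFieldAt
  Fermat.Agent.S55.GL.CoindFun Fermat.Agent.S55.GL.Ideles Fermat.Agent.S55.GL.IdeleSemiLocal
  Fermat.Agent.S55.SmoothPart Fermat.Agent.S55.CFAbs Fermat.Agent.S55.LevelLayer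
  Fermat.Agent.S55.GL.BrauerDict

local notation "Qbar" => AlgebraicClosure ℚ
local notation "Γ" => (AlgebraicClosure ℚ ≃ₐ[ℚ] AlgebraicClosure ℚ)

/-- primes as `Fact`s -/
local instance factPrime_hl (q : Nat.Primes) : Fact (q : ℕ).Prime := ⟨q.2⟩

local instance isGaloisQbar_hl : IsGalois ℚ Qbar := Fermat.Agent.S55.Level.isGalois_Qbar

/-! ### (T1) is bijective -/

section T1

variable (K E : IntermediateField ℚ Qbar) [Normal ℚ E] (𝒰 : LevelStructure Γ)
  (hE : E.fixingSubgroup ∈ 𝒰.sets)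

theorem rhoE_injective : Function.Injective (rhoE K E) := by
  rw [injective_iff_map_eq_one]
  intro x hx
  induction x using QuotientGroup.induction_on with | H g =>
  rw [rhoE_mk] at hx
  have h1 : resE E (g : Γ) = 1 := by
    rw [← coe_resKE, hx]
    rfl
  exact (QuotientGroup.eq_one_iff g).2 ((mem_Uglob K E).2 ((resE_eq_one_iff E _).1 h1))

theorem rhoE_surjective (hKE : K ≤ E) : Function.Surjective (rhoE K E) := by
  intro h
  obtain ⟨g, hg⟩ := AlgEquiv.restrictNormalHom_surjective (F := ℚ) (K₁ := E) Qbar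
    ((h : ↥(galE K E)) : E ≃ₐ[ℚ] E)
  have hg' : resE E g = ((h : ↥(galE K E)) : E ≃ₐ[ℚ] E) := hg
  have hgK : g ∈ K.fixingSubgroup := by
    rw [IntermediateField.mem_fixingSubgroup_iff]
    intro x hx
    have h1 := coe_resE E g ⟨x, hKE hx⟩
    rw [hg', h.2 ⟨x, hKE hx⟩ hx] at h1
    exact h1.symm
  refine ⟨((⟨g, hgK⟩ : ↥K.fixingSubgroup) : ↥K.fixingSubgroup ⧸ Uglob K E), ?_⟩
  rw [rhoE_mk]
  apply Subtype.ext
  rw [coe_resKE]
  exact hg'

theorem rhoE_bijective (hKE : K ≤ E) : Function.Bijective (rhoE K E) :=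
  ⟨rhoE_injective K E, rhoE_surjective K E hKE⟩

theorem kapAdd₀_injective : Function.Injective (kapAdd₀ E) := by
  intro x y hxy
  apply Additive.toMul.injective
  apply Units.ext
  apply Subtype.ext
  have := kapAdd₀_apply E x
  rw [hxy, kapAdd₀_apply] at this
  exact this.symm

theorem kap_injective : Function.Injective (kap K E 𝒰 hE).hom := by
  intro x y hxy
  apply kapAdd₀_injective E
  have h1 : ((kap K E 𝒰 hE).hom x : (globLayer K E 𝒰).V).1 =
      ((kap K E 𝒰 hE).hom y : (globLayer K E 𝒰).V).1 := congrArg Subtype.val hxy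
  have h2 : kapLin E 𝒰 hE x = kapLin E 𝒰 hE y := h1
  exact congrArg Subtype.val h2

theorem kap_surjective (hKE : K ≤ E) : Function.Surjective (kap K E 𝒰 hE).hom := by
  rintro ⟨⟨a, ha'⟩, ha⟩
  have hfix : ∀ u ∈ E.fixingSubgroup,
      u (((Additive.toMul (a : Additive Qbarˣ) : Qbarˣ) : Qbar)) =
        ((Additive.toMul (a : Additive Qbarˣ) : Qbarˣ) : Qbar) := by
    intro u hu
    have huK : u ∈ K.fixingSubgroup := IntermediateField.fixingSubgroup_antitone hKE hu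
    have h1 := (Representation.mem_invariants _ _).1 ha
      ⟨⟨u, huK⟩, (mem_Uglob K E).2 hu⟩
    have h2 := congrArg (fun b : (Asm 𝒰).V => (smoothPartι 𝒰 (unitsRep ℚ Qbar)).hom b) h1
    have h3 := congrArg (fun b : Additive Qbarˣ => ((Additive.toMul b : Qbarˣ) : Qbar)) h2
    exact h3
  have h1 : ((Additive.toMul (a : Additive Qbarˣ) : Qbarˣ) : Qbar) ∈ E := by
    rw [← InfiniteGalois.fixedField_fixingSubgroup E, IntermediateField.mem_fixedField_iff]
    exact hfix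
  have h2 : (((Additive.toMul (a : Additive Qbarˣ) : Qbarˣ)⁻¹ : Qbarˣ) : Qbar) ∈ E := by
    rw [Units.val_inv_eq_inv_val]
    exact inv_mem h1
  refine ⟨Additive.ofMul ⟨⟨_, h1⟩, ⟨_, h2⟩, ?_, ?_⟩, ?_⟩
  · apply Subtype.ext
    simp
  · apply Subtype.ext
    simp
  · apply Subtype.ext
    apply Subtype.ext
    apply Additive.toMul.injective
    apply Units.ext
    rfl

theorem kap_bijective (hKE : K ≤ E) : Function.Bijective (kap K E 𝒰 hE).hom :=
  ⟨kap_injective K E 𝒰 hE, kap_surjective K E 𝒰 hE hKE⟩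

/-- **(T1) is bijective** for `K ≤ E`. -/
theorem T1_bijective (hKE : K ≤ E) (n : ℕ) : Function.Bijective (T1 K E 𝒰 hE n).hom :=
  map_bijective_of_bijective _ _ (rhoE_bijective K E hKE) (kap_bijective K E 𝒰 hE hKE) n

end T1

/-! ### Local inflation is injective in degree 2 -/

section LocalInj

variable (F Ω : Type) [Field F] [Field Ω] [Algebra F Ω] [IsGalois F Ω]

/-- Inflation `H²(Gal(Ω/F) ⧸ U, (Ωˣ)^U) → H²(Gal(Ω/F), Ωˣ)` (level cohomology) is injective
(Hilbert 90), unconditionally. -/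
theorem levelInf_units_injective (U : Subgroup (Ω ≃ₐ[F] Ω)) [U.Normal]
    (hU : U ∈ (krullLevel F Ω).sets) :
    Function.Injective (levelInf (krullLevel F Ω) (GaloisLevel.unitsRep F Ω) hU 2).hom := by
  intro y y' h
  have h0 : (levelInf (krullLevel F Ω) (GaloisLevel.unitsRep F Ω) hU 2).hom (y - y') = 0 := by
    rw [map_sub, h, sub_self]
  obtain ⟨V₀, hV₀, hV₀U, hall⟩ :=
    exists_infLayer_eq_zero (krullLevel F Ω) (GaloisLevel.unitsRep F Ω) hU (y - y') h0
  haveI := (krullLevel F Ω).normal V₀ hV₀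
  have h1 := hall V₀ hV₀ le_rfl hV₀U
  have h2 := infLayer_injective (GaloisLevel.unitsRep F Ω) hV₀U
    (Fermat.Agent.S55.Local.InvariantLevel.h1_layer U V₀ hV₀) (h1.trans (map_zero _).symm)
  exact sub_eq_zero.1 h2

end LocalInj

/-! ### The level form of the Hasse principle -/

section Main

open Fermat.Agent.S55.GL.CFFinal Fermat.Agent.S55.GL.CFHasse Fermat.Agent.S55.GL.CF1
  Fermat.Agent.S55.GL.HasseReps

variable (p : ℕ) [hp : Fact p.Prime]

/-- **The second inequality hypothesis**, for all finite Galois `E/ℚ` inside `ℚ̄` containing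
`ζ_p` (helper3/helper21/helper29's `CFFinal.SecondIneqHyp`, for `T` large). -/
def SecondIneqAll : Prop :=
  ∀ (E : IntermediateField ℚ Qbar) [Normal ℚ E] [NumberField E] [IsGalois ℚ E] (ζ : E),
    IsPrimitiveRoot ζ p → ∃ T₃ : Finset Nat.Primes, ∀ T : Finset Nat.Primes, T₃ ⊆ T →
      SecondIneqHyp E p (zetaStab ζ) T

variable (𝒰 : LevelStructure Γ) (h𝒰 : ∀ U ∈ 𝒰.sets, IsKrullOpen ℚ Qbar U)
  (K : IntermediateField ℚ Qbar)

include h𝒰 in
/-- The local layer subgroup is a member of the Krull level structure. -/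
theorem Uloc_mem (E : IntermediateField ℚ Qbar) [Normal ℚ E] (hE : E.fixingSubgroup ∈ 𝒰.sets)
    (q : Nat.Primes) (σ : Γ) :
    Uloc q K E σ ∈ (krullLevel (localFieldAt (q : ℕ) K σ) (PadicAlgCl (q : ℕ))).sets :=
  ⟨normal_Uloc q K E σ, isKrullOpen_comap_decompHom (q : ℕ) K σ (h𝒰 _ hE)⟩

/-- The global layer subgroup is a member of the restricted level structure. -/
theorem Uglob_mem (E : IntermediateField ℚ Qbar) [Normal ℚ E] (hE : E.fixingSubgroup ∈ 𝒰.sets) :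
    Uglob K E ∈ (𝒰.restrict K.fixingSubgroup).sets :=
  𝒰.mem_restrict_sets K.fixingSubgroup hE

/-- **Localisation at the layer**: if the localisation at `(q, σ)` of the inflation of
`T1 x` vanishes, then the localisation at `(q, σ|_E)` of `x` in the idèle model vanishes. -/
theorem loc_eq_zero_of_resAt (E : IntermediateField ℚ Qbar) [Normal ℚ E]
    (hE : E.fixingSubgroup ∈ 𝒰.sets) (hKE : K ≤ E) (T : Finset Nat.Primes) (q : T) (σ : Γ)
    (x : groupCohomology (unitsH K E) 2)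
    (h : (resAt ((q : Nat.Primes) : ℕ) K σ (smoothPartι 𝒰 (GaloisLevel.unitsRep ℚ Qbar)) 𝒰 h𝒰 2).hom
      ((levelInf (𝒰.restrict K.fixingSubgroup) (resL K (Asm 𝒰)) (Uglob_mem 𝒰 K E hE) 2).hom
        ((T1 K E 𝒰 hE 2).hom x)) = 0) :
    (groupCohomology.map (IdeleSemiLocal.decomp E T (galE K E) q (resE E σ)).subtype
        (IdeleSemiLocal.locHom E T (galE K E) q (resE E σ)) 2).hom
      ((groupCohomology.map (MonoidHom.id ↥(galE K E))
        ((Rep.resFunctor (galE K E).subtype).map (diagRep E T)) 2).hom x) = 0 := by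
  have h1 := levelCohomologyMap_levelInf_apply (decompHom ((q : Nat.Primes) : ℕ) K σ)
    (coeffAsm (q : Nat.Primes) K σ 𝒰) (le_refl (Uloc (q : Nat.Primes) K E σ))
    (refines_decompHom ((q : Nat.Primes) : ℕ) K σ 𝒰 h𝒰) (Uglob_mem 𝒰 K E hE)
    (Uloc_mem 𝒰 h𝒰 K E hE (q : Nat.Primes) σ) 2 ((T1 K E 𝒰 hE 2).hom x)
  have h2 := h1.symm.trans h
  have h3 := levelInf_units_injective (localFieldAt ((q : Nat.Primes) : ℕ) K σ)
    (PadicAlgCl ((q : Nat.Primes) : ℕ)) (Uloc (q : Nat.Primes) K E σ)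
    (Uloc_mem 𝒰 h𝒰 K E hE (q : Nat.Primes) σ) (h2.trans (map_zero _).symm)
  have h4 := T3_apply (q : Nat.Primes) K E σ T q.2 𝒰 hE 2 x
  have h5 := h4.symm.trans h3
  exact (T2_bijective (q : Nat.Primes) K E σ T q.2 hKE 2).1 (h5.trans (map_zero _).symm)

/-- Two elements of `Γ` defining the same place of `K` over `q` restrict to the same double coset
`D_q \ Gal(E/ℚ) / Gal(E/K)`. -/
theorem doubleCoset_eq_of_samePlace [FiniteDimensional ℚ K] (E : IntermediateField ℚ Qbar)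
    [Normal ℚ E] (T : Finset Nat.Primes) (q : T) {σ σ' : Γ}
    (h : SamePlace ((q : Nat.Primes) : ℕ) K σ' σ) :
    DoubleCoset.mk (resFamily E T q).range (galE K E) (resE E σ') =
      DoubleCoset.mk (resFamily E T q).range (galE K E) (resE E σ) := by
  obtain ⟨τ, γ, hγ, rfl⟩ := h.exists_eq_mul ((q : Nat.Primes) : ℕ)
  rw [DoubleCoset.eq]
  refine ⟨resE E (localGaloisToGlobal ((q : Nat.Primes) : ℕ) τ),
    ⟨AlgEquiv.restrictNormalHom (localField ((q : Nat.Primes) : ℕ) E) τ,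
      resLoc_restrictNormalHom ((q : Nat.Primes) : ℕ) E τ⟩,
    resE E γ, resE_mem_galE K E hγ, ?_⟩
  rw [map_mul, map_mul]

include h𝒰 in
/-- **The Hasse principle on a finite layer**, in the level language: a `p`-primary class `x` of
`H²(Gal(E/K), Eˣ)` whose inflation to `H²(G_K, A)` is locally trivial (at one representative of
every place of `K`) is zero. -/
theorem layer_hasse (hp2 : p ≠ 2) [FiniteDimensional ℚ K] (hsec : SecondIneqAll p)
    (E : IntermediateField ℚ Qbar) [Normal ℚ E] [FiniteDimensional ℚ E]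
    (hE : E.fixingSubgroup ∈ 𝒰.sets) (hKE : K ≤ E) {ζ : Qbar} (hζE : ζ ∈ E)
    (hζ : IsPrimitiveRoot ζ p)
    (x : groupCohomology (unitsH K E) 2) (hx : x ∈ pPrimary p (groupCohomology (unitsH K E) 2))
    (hloc : ∀ (q : Nat.Primes) (σ : Γ), ∃ σ' : Γ, SamePlace (q : ℕ) K σ' σ ∧
      (resAt (q : ℕ) K σ' (smoothPartι 𝒰 (GaloisLevel.unitsRep ℚ Qbar)) 𝒰 h𝒰 2).hom
        ((levelInf (𝒰.restrict K.fixingSubgroup) (resL K (Asm 𝒰)) (Uglob_mem 𝒰 K E hE) 2).hom
          ((T1 K E 𝒰 hE 2).hom x)) = 0) :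
    x = 0 := by
  haveI : NumberField E := { to_charZero := inferInstance, to_finiteDimensional := inferInstance }
  haveI : IsGalois ℚ E := ⟨⟩
  have hζ' : IsPrimitiveRoot (⟨ζ, hζE⟩ : E) p :=
    IsPrimitiveRoot.of_map_of_injective (f := algebraMap E Qbar) hζ (algebraMap E Qbar).injective
  refine hasse_units_pPrimary_zeta_exists E p hp2 hζ' (hsec E ⟨ζ, hζE⟩ hζ') (galE K E) x hx ?_
  intro T q g
  obtain ⟨σ, hσ⟩ := AlgEquiv.restrictNormalHom_surjective (F := ℚ) (K₁ := E) Qbar g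
  have hσ' : resE E σ = g := hσ
  exact Exists.elim (hloc (q : Nat.Primes) σ) fun σ' h =>
    ⟨resE E σ', (doubleCoset_eq_of_samePlace K E T q h.1).trans (congrArg _ hσ'),
      loc_eq_zero_of_resAt 𝒰 h𝒰 K E hE hKE T q σ' x h.2⟩

include h𝒰 in
/-- **(HS), level form, general level structure**: let `𝒰` be a level structure of open subgroups
of `Γ` such that the finite normal `E ⊇ K(ζ_p)` with `G_E ∈ 𝒰` are cofinal.  A `p`-primary class
of `H²(G_K, smoothPart 𝒰 ℚ̄ˣ)` (level cohomology for `𝒰.restrict G_K`) whose localisations vanish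
at one representative of every finite place of `K` is zero. -/
theorem hasse_level (hp2 : p ≠ 2) [FiniteDimensional ℚ K] (hsec : SecondIneqAll p)
    (hcof : ∀ U ∈ 𝒰.sets, ∃ E : IntermediateField ℚ Qbar, Normal ℚ E ∧ FiniteDimensional ℚ E ∧
      E.fixingSubgroup ∈ 𝒰.sets ∧ K ≤ E ∧ (∃ ζ : Qbar, ζ ∈ E ∧ IsPrimitiveRoot ζ p) ∧
      E.fixingSubgroup ≤ U)
    (y : levelCohomology (𝒰.restrict K.fixingSubgroup) (resL K (Asm 𝒰)) 2)
    (hy : ∃ M : ℕ, p ^ M • y = 0)
    (hloc : ∀ (q : Nat.Primes) (σ : Γ), ∃ σ' : Γ, SamePlace (q : ℕ) K σ' σ ∧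
      (resAt (q : ℕ) K σ' (smoothPartι 𝒰 (GaloisLevel.unitsRep ℚ Qbar)) 𝒰 h𝒰 2).hom y = 0) :
    y = 0 := by
  obtain ⟨U₀, hU₀, hall⟩ := exists_levelInf_eq (𝒰.restrict K.fixingSubgroup) (resL K (Asm 𝒰)) y
  obtain ⟨U', hU', rfl⟩ := hU₀
  obtain ⟨E, hEn, hEfd, hE, hKE, ⟨ζ, hζE, hζ⟩, hEU⟩ := hcof U' hU'
  haveI := hEn
  haveI := hEfd
  have hle : Uglob K E ≤ U'.subgroupOf K.fixingSubgroup := fun g hg =>
    hEU ((mem_Uglob K E).1 hg)
  obtain ⟨z, hz⟩ := hall (Uglob K E) (Uglob_mem 𝒰 K E hE) hle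
  obtain ⟨x, hx⟩ := (T1_bijective K E 𝒰 hE hKE 2).2 z
  haveI : Finite (E ≃ₐ[ℚ] E) := inferInstance
  have hG0 : Nat.card ↥(galE K E) ≠ 0 := Nat.card_pos.ne'
  obtain ⟨a, m, hm, hGm⟩ := Nat.exists_eq_pow_mul_and_not_dvd hG0 p hp.out.ne_one
  have hxp : m • x ∈ pPrimary p (groupCohomology (unitsH K E) 2) := by
    refine ⟨a, ?_⟩
    rw [← mul_smul, ← hGm]
    exact Fermat.Agent.S55.GC.Cores.card_nsmul_eq_zero (unitsH K E) 1 x
  have hmx : m • x = 0 := by
    refine layer_hasse p 𝒰 h𝒰 K hp2 hsec E hE hKE hζE hζ (m • x) hxp ?_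
    intro q σ
    exact Exists.elim (hloc q σ) fun σ' h => ⟨σ', h.1, by
      rw [map_nsmul, map_nsmul, map_nsmul, hx, hz, h.2, smul_zero]⟩
  have hmy : m • y = 0 := by
    rw [← hz, ← hx, ← map_nsmul, ← map_nsmul, hmx, map_zero, map_zero]
  obtain ⟨M, hM⟩ := hy
  exact Fermat.Agent.S55.GC.Cores.eq_zero_of_coprime_nsmul
    (Nat.Coprime.pow_left M ((Nat.Prime.coprime_iff_not_dvd hp.out).2 hm)) hM hmy

end Main

/-! ### The two instances: `globalLevel S` (helper14's `BrauerInput.hasse`) and the absolute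
Galois group (helper19's form) -/

section Instances

open Fermat.Agent.S55.GL.CFFinal Fermat.Agent.S55.GL.CFHasse Fermat.Agent.S55.GL.CF1
  Fermat.Agent.S55.GL.HasseReps Fermat.Agent.S55.GL.BrauerInst Fermat.Agent.S55.GL.QSMod
  Fermat.Agent.S55.CF Fermat.Agent.S55.GL.KummerUnram Fermat.Agent.S55.LevelGlobal

variable (p : ℕ) [hp : Fact p.Prime]

/-- Cofinality of the finite normal `E ⊇ K(ζ_p)` unramified outside `S` in `globalLevel S`
(`p ∈ S`, `K` unramified outside `S`). -/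
theorem cofinal_globalLevel (S : Finset Nat.Primes) (hpS : (⟨p, hp.out⟩ : Nat.Primes) ∈ S)
    (K : IntermediateField ℚ Qbar) (hK : K.IsUnramifiedOutside S) :
    ∀ U ∈ (globalLevel S).sets, ∃ E : IntermediateField ℚ Qbar, Normal ℚ E ∧
      FiniteDimensional ℚ E ∧ E.fixingSubgroup ∈ (globalLevel S).sets ∧ K ≤ E ∧
      (∃ ζ : Qbar, ζ ∈ E ∧ IsPrimitiveRoot ζ p) ∧ E.fixingSubgroup ≤ U := by
  rintro U ⟨_, F', hF', hle⟩
  obtain ⟨ζ, hζ⟩ := Fermat.Agent.S55.DualTwist.exists_primitiveRoot p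
  have hζu : (ℚ⟮ζ⟯).IsUnramifiedOutside S :=
    isUnramifiedOutside_adjoin_rootOfUnity hp.out hpS 1 (by rw [pow_one]; exact hζ.pow_eq_one)
  have h1 : (F' ⊔ K ⊔ ℚ⟮ζ⟯).IsUnramifiedOutside S := (hF'.sup hK).sup hζu
  have h2 : (IntermediateField.normalClosure ℚ ↥(F' ⊔ K ⊔ ℚ⟮ζ⟯) Qbar).IsUnramifiedOutside S :=
    KummerUnram.isUnramifiedOutside_normalClosure h1
  have hn : Normal ℚ ↥(IntermediateField.normalClosure ℚ ↥(F' ⊔ K ⊔ ℚ⟮ζ⟯) Qbar) :=
    normalClosure.normal ℚ _ Qbar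
  have hle' : F' ⊔ K ⊔ ℚ⟮ζ⟯ ≤ IntermediateField.normalClosure ℚ ↥(F' ⊔ K ⊔ ℚ⟮ζ⟯) Qbar :=
    IntermediateField.le_normalClosure _
  refine ⟨_, hn, h2.1, fixingSubgroup_mem_globalLevel h2 hn,
    (le_sup_right.trans le_sup_left).trans hle',
    ⟨ζ, hle' (le_sup_right (a := F' ⊔ K) (IntermediateField.mem_adjoin_simple_self ℚ ζ)), hζ⟩, ?_⟩
  exact (IntermediateField.fixingSubgroup_antitone
    ((le_sup_left.trans le_sup_left).trans hle')).trans hle

/-- **(HS) over `G_{K,S}`** = helper14's `BrauerInput.hasse`, VERBATIM (`p` odd, `p ∈ S`, `K`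
unramified outside `S`), conditional on the second inequality `SecondIneqAll p`. -/
theorem hasse_globalLevel (hp2 : p ≠ 2) (hsec : SecondIneqAll p) (S : Finset Nat.Primes)
    (hpS : (⟨p, hp.out⟩ : Nat.Primes) ∈ S) (K : IntermediateField ℚ Qbar)
    (hK : K.IsUnramifiedOutside S)
    (y : levelCohomology (levelLS S K) (resL K (QSUnits S)) 2) (hy : IsPPrim p y)
    (hloc : ∀ v : FinPlace K, resQ S K v y = 0) : y = 0 := by
  haveI := hK.1
  refine hasse_level p (globalLevel S) (open_globalLevel S) K hp2 hsec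
    (cofinal_globalLevel p S hpS K hK) y hy ?_
  intro q σ
  exact ⟨(FinPlace.of K q σ).rep, samePlace_rep_placeOf (q : ℕ) σ, hloc (FinPlace.of K q σ)⟩

/-- Cofinality of the finite normal `E ⊇ K(ζ_p)` in `krullLevel ℚ ℚ̄`. -/
theorem cofinal_krullLevel (K : IntermediateField ℚ Qbar) [FiniteDimensional ℚ K] :
    ∀ U ∈ (krullLevel ℚ Qbar).sets, ∃ E : IntermediateField ℚ Qbar, Normal ℚ E ∧
      FiniteDimensional ℚ E ∧ E.fixingSubgroup ∈ (krullLevel ℚ Qbar).sets ∧ K ≤ E ∧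
      (∃ ζ : Qbar, ζ ∈ E ∧ IsPrimitiveRoot ζ p) ∧ E.fixingSubgroup ≤ U := by
  rintro U ⟨_, hU⟩
  obtain ⟨E₀, hE₀fd, -, hE₀U⟩ := exists_fixingSubgroup_le hU
  obtain ⟨ζ, hζ⟩ := Fermat.Agent.S55.DualTwist.exists_primitiveRoot p
  haveI : FiniteDimensional ℚ ℚ⟮ζ⟯ :=
    IntermediateField.adjoin.finiteDimensional (Algebra.IsIntegral.isIntegral ζ)
  haveI : FiniteDimensional ℚ ↥(E₀ ⊔ K) := IntermediateField.finiteDimensional_sup E₀ K
  haveI : FiniteDimensional ℚ ↥(E₀ ⊔ K ⊔ ℚ⟮ζ⟯) :=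
    IntermediateField.finiteDimensional_sup (E₀ ⊔ K) ℚ⟮ζ⟯
  haveI hfd : FiniteDimensional ℚ ↥(IntermediateField.normalClosure ℚ ↥(E₀ ⊔ K ⊔ ℚ⟮ζ⟯) Qbar) :=
    normalClosure.is_finiteDimensional ℚ _ Qbar
  haveI hn : Normal ℚ ↥(IntermediateField.normalClosure ℚ ↥(E₀ ⊔ K ⊔ ℚ⟮ζ⟯) Qbar) :=
    normalClosure.normal ℚ _ Qbar
  haveI : IsGalois ℚ ↥(IntermediateField.normalClosure ℚ ↥(E₀ ⊔ K ⊔ ℚ⟮ζ⟯) Qbar) := ⟨⟩
  have hle' : E₀ ⊔ K ⊔ ℚ⟮ζ⟯ ≤ IntermediateField.normalClosure ℚ ↥(E₀ ⊔ K ⊔ ℚ⟮ζ⟯) Qbar :=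
    IntermediateField.le_normalClosure _
  refine ⟨_, hn, hfd, fixingSubgroup_mem_krullLevel _,
    (le_sup_right.trans le_sup_left).trans hle',
    ⟨ζ, hle' (le_sup_right (a := E₀ ⊔ K) (IntermediateField.mem_adjoin_simple_self ℚ ζ)), hζ⟩, ?_⟩
  exact (IntermediateField.fixingSubgroup_antitone
    ((le_sup_left.trans le_sup_left).trans hle')).trans hE₀U

/-- **(HS) over the absolute Galois group `G_K`**, coefficients `ℚ̄ˣ` (helper19's form): a
`p`-primary class of `H²(G_K, ℚ̄ˣ)` whose localisations vanish (at one representative of every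
finite place of `K`) is zero; conditional on `SecondIneqAll p`. -/
theorem hasse_absolute_of_samePlace (hp2 : p ≠ 2) (hsec : SecondIneqAll p)
    (K : IntermediateField ℚ Qbar) [FiniteDimensional ℚ K]
    (y : levelCohomology ((krullLevel ℚ Qbar).restrict K.fixingSubgroup)
      (resL K (GaloisLevel.unitsRep ℚ Qbar)) 2)
    (hy : ∃ M : ℕ, p ^ M • y = 0)
    (hloc : ∀ (q : Nat.Primes) (σ : Γ), ∃ σ' : Γ, SamePlace (q : ℕ) K σ' σ ∧
      (resAt (q : ℕ) K σ' (𝟙 (GaloisLevel.unitsRep ℚ Qbar)) (krullLevel ℚ Qbar)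
        (fun _ h => isKrullOpen_of_mem_krullLevel h) 2).hom y = 0) :
    y = 0 := by
  have h𝒰 : ∀ U ∈ (krullLevel ℚ Qbar).sets, IsKrullOpen ℚ Qbar U :=
    fun _ h => isKrullOpen_of_mem_krullLevel h
  -- transport to the smooth part
  let lift : GaloisLevel.unitsRep ℚ Qbar ⟶ Asm (krullLevel ℚ Qbar) :=
    smoothPartLift (𝟙 (GaloisLevel.unitsRep ℚ Qbar))
  have hlift : lift ≫ smoothPartι (krullLevel ℚ Qbar) (GaloisLevel.unitsRep ℚ Qbar) = 𝟙 _ :=
    smoothPartLift_comp_ι _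
  have h0 : (Hmap ((krullLevel ℚ Qbar).restrict K.fixingSubgroup)
      ((Rep.resFunctor K.fixingSubgroup.subtype).map lift) 2).hom y = 0 := by
    refine hasse_level p (krullLevel ℚ Qbar) h𝒰 K hp2 hsec (cofinal_krullLevel p K) _ ?_ ?_
    · obtain ⟨M, hM⟩ := hy
      exact ⟨M, by rw [← map_nsmul, hM, map_zero]⟩
    · intro q σ
      refine Exists.elim (hloc q σ) fun σ' h => ⟨σ', h.1, ?_⟩
      have h1 := Hmap_resAt (q : ℕ) K σ' (krullLevel ℚ Qbar) h𝒰 lift
        (smoothPartι (krullLevel ℚ Qbar) (GaloisLevel.unitsRep ℚ Qbar)) 2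
      have h2 := congrArg (fun ψ => ψ.hom y) h1
      refine h2.trans ?_
      have h3 : (resAt (q : ℕ) K σ'
          (lift ≫ smoothPartι (krullLevel ℚ Qbar) (GaloisLevel.unitsRep ℚ Qbar))
          (krullLevel ℚ Qbar) h𝒰 2).hom y =
          (resAt (q : ℕ) K σ' (𝟙 (GaloisLevel.unitsRep ℚ Qbar)) (krullLevel ℚ Qbar) h𝒰 2).hom y := by
        rw [hlift]
      exact h3.trans h.2
  have h4 := congrArg (Hmap ((krullLevel ℚ Qbar).restrict K.fixingSubgroup)
    ((Rep.resFunctor K.fixingSubgroup.subtype).map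
      (smoothPartι (krullLevel ℚ Qbar) (GaloisLevel.unitsRep ℚ Qbar))) 2).hom h0
  rw [map_zero, ← Hmap_comp_apply, ← CategoryTheory.Functor.map_comp, hlift,
    CategoryTheory.Functor.map_id] at h4
  rw [Hmap_id] at h4
  exact h4

/-- **(HS) over the absolute Galois group `G_K`**, helper19's form VERBATIM (all `q`, `σ`). -/
theorem hasse_absolute (hp2 : p ≠ 2) (hsec : SecondIneqAll p)
    (K : IntermediateField ℚ Qbar) [FiniteDimensional ℚ K]
    (y : levelCohomology ((krullLevel ℚ Qbar).restrict K.fixingSubgroup)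
      (resL K (GaloisLevel.unitsRep ℚ Qbar)) 2)
    (hy : ∃ M : ℕ, p ^ M • y = 0)
    (hloc : ∀ (q : Nat.Primes) (σ : Γ),
      (resAt (q : ℕ) K σ (𝟙 (GaloisLevel.unitsRep ℚ Qbar)) (krullLevel ℚ Qbar)
        (fun _ h => isKrullOpen_of_mem_krullLevel h) 2).hom y = 0) :
    y = 0 :=
  hasse_absolute_of_samePlace p hp2 hsec K y hy fun q σ =>
    ⟨σ, SamePlace.refl (q : ℕ) K σ, hloc q σ⟩

end Instances

end Fermat.Agent.S55.GL.HasseLevel
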