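/-
S55 / GLO8 (helper7), (HS) UNCONDITIONAL: the second inequality chain (helper3 `IdeleSecondIneq.hdvdHyp`
+ helper29 `SecondIneqFinal.exists_secondIneqHyp` + helper21 `second_inequality_model`) closes the
hypothesis `HasseLevel.SecondIneqAll p` of `GL/HasseLevel.lean`.

* `secondIneqAll` : `SecondIneqAll p` for every odd prime `p`;
* `hasse_globalLevel` : helper14's `BrauerInput.hasse` over `G_{K,S}` (`p` odd, `p ∈ S`, `K` unramified
  outside `S`), UNCONDITIONALLY;
* `hasse_absolute`, `hasse_absolute_of_samePlace` : the Hasse principle for the `p`-primary classes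
  of `H²(G_K, ℚ̄ˣ)` (absolute Galois group, helper19's form), UNCONDITIONALLY.
-/
import Mathlib
import Fermat.Agent.S55.GL.HasseLevel
import Fermat.Agent.S55.GL.IdeleSecondIneq

set_option autoImplicit false

open CategoryTheory IntermediateField

namespace Fermat.Agent.S55.GL.HasseFinal

open Fermat.Agent.S55.Level Fermat.Agent.S55.GaloisLevel Fermat.Agent.S55.GL.Places
  Fermat.Agent.S55.GL.BrauerLocal Fermat.Agent.S55.GL.BrauerInst Fermat.Agent.S55.GL.QSMod
  Fermat.Agent.S55.CF Fermat.Agent.S55.GL.HasseLevel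

local notation "Qbar" => AlgebraicClosure ℚ
local notation "Γ" => (AlgebraicClosure ℚ ≃ₐ[ℚ] AlgebraicClosure ℚ)

/-- primes as `Fact`s -/
local instance factPrime_hf (q : Nat.Primes) : Fact (q : ℕ).Prime := ⟨q.2⟩

local instance isGaloisQbar_hf : IsGalois ℚ Qbar := Fermat.Agent.S55.Level.isGalois_Qbar

variable (p : ℕ) [hp : Fact p.Prime]

/-- **The second inequality for all finite Galois `E/ℚ` containing `ζ_p`** (`p` odd): the
hypothesis of `HasseLevel` is a theorem. -/
theorem secondIneqAll (hp2 : p ≠ 2) : SecondIneqAll p := by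
  intro E _ _ _ ζ hζ
  exact Fermat.Agent.S55.GL.SecondIneqFinal.exists_secondIneqHyp E hp2
    (Fermat.Agent.S55.GL.IdeleSecondIneq.hdvdHyp hp.out.pos)
    (Fermat.Agent.S55.GL.CFHasse.zetaStab ζ) hζ ⟨ζ.2, fun _ hs => hs⟩

/-- **(HS) over `G_{K,S}`** = helper14's `BrauerInput.hasse`, VERBATIM and UNCONDITIONAL
(`p` odd, `p ∈ S`, `K` unramified outside `S`). -/
theorem hasse_globalLevel (hp2 : p ≠ 2) (S : Finset Nat.Primes)
    (hpS : (⟨p, hp.out⟩ : Nat.Primes) ∈ S) (K : IntermediateField ℚ Qbar)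
    (hK : K.IsUnramifiedOutside S)
    (y : levelCohomology (levelLS S K) (resL K (QSUnits S)) 2) (hy : IsPPrim p y)
    (hloc : ∀ v : FinPlace K, resQ S K v y = 0) : y = 0 :=
  HasseLevel.hasse_globalLevel p hp2 (secondIneqAll p hp2) S hpS K hK y hy hloc

/-- **(HS) over the absolute Galois group `G_K`**, coefficients `ℚ̄ˣ`, UNCONDITIONAL (`p` odd);
localisations tested at one representative of every finite place of `K`. -/
theorem hasse_absolute_of_samePlace (hp2 : p ≠ 2)
    (K : IntermediateField ℚ Qbar) [FiniteDimensional ℚ K]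
    (y : levelCohomology ((krullLevel ℚ Qbar).restrict K.fixingSubgroup)
      (resL K (GaloisLevel.unitsRep ℚ Qbar)) 2)
    (hy : ∃ M : ℕ, p ^ M • y = 0)
    (hloc : ∀ (q : Nat.Primes) (σ : Γ), ∃ σ' : Γ, SamePlace (q : ℕ) K σ' σ ∧
      (resAt (q : ℕ) K σ' (𝟙 (GaloisLevel.unitsRep ℚ Qbar)) (krullLevel ℚ Qbar)
        (fun _ h => isKrullOpen_of_mem_krullLevel h) 2).hom y = 0) :
    y = 0 :=
  HasseLevel.hasse_absolute_of_samePlace p hp2 (secondIneqAll p hp2) K y hy hloc

/-- **(HS) over the absolute Galois group `G_K`**, helper19's form VERBATIM, UNCONDITIONAL. -/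
theorem hasse_absolute (hp2 : p ≠ 2)
    (K : IntermediateField ℚ Qbar) [FiniteDimensional ℚ K]
    (y : levelCohomology ((krullLevel ℚ Qbar).restrict K.fixingSubgroup)
      (resL K (GaloisLevel.unitsRep ℚ Qbar)) 2)
    (hy : ∃ M : ℕ, p ^ M • y = 0)
    (hloc : ∀ (q : Nat.Primes) (σ : Γ),
      (resAt (q : ℕ) K σ (𝟙 (GaloisLevel.unitsRep ℚ Qbar)) (krullLevel ℚ Qbar)
        (fun _ h => isKrullOpen_of_mem_krullLevel h) 2).hom y = 0) :
    y = 0 :=
  HasseLevel.hasse_absolute p hp2 (secondIneqAll p hp2) K y hy hloc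

end Fermat.Agent.S55.GL.HasseFinal
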