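/-
S55 — (HS) for THE FINAL PLUG (helper7): `BrauerAll.HasseField p S` is a THEOREM (`p` odd, `p ∈ S`).
-/
import Mathlib
import Fermat.Agent.S55.GL.HasseFinal
import Fermat.Agent.S55.GL.BrauerAll

set_option autoImplicit false

namespace Fermat.Agent.S55.GL.HasseFieldInst

/-- **(HS)**: the Hasse principle `BrauerAll.HasseField p S` for the good fields, UNCONDITIONALLY
(`p` odd, `p ∈ S`). -/
theorem hasseField (p : ℕ) [hp : Fact p.Prime] (hp2 : p ≠ 2) (S : Finset Nat.Primes)
    (hpS : (⟨p, hp.out⟩ : Nat.Primes) ∈ S) :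
    Fermat.Agent.S55.GL.BrauerAll.HasseField p S := by
  intro L _ hL _ _ y hy hloc
  exact Fermat.Agent.S55.GL.HasseFinal.hasse_globalLevel p hp2 S hpS L hL y hy hloc

end Fermat.Agent.S55.GL.HasseFieldInst
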