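import Mathlib
import Fermat.Agent.S55.GL.DivOfElement

/-!
# S55 / GL4 part 11: the class map of `G_L`-invariant `S`-principal divisors

Namespace `Fermat.Agent.S55.GL.DivOf` (continuation of `GL/DivOfElement.lean`).
`L : IntermediateField ℚ ℚ̄` a number field unramified outside `S` (NOT necessarily normal),
`T_L := primesAbove L S`.

* `IsAdmissible L S β` : `β ≠ 0`, `β` lies in a field unramified outside `S`, and `σ β / β` is an
  `S`-unit for every `σ ∈ G_L` (i.e. the class of `β` in `P_S = ℚ_Sˣ / E_S` is `G_L`-invariant).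
* `isAdmissible_one`, `IsAdmissible.mul`, `IsAdmissible.inv`, `isAdmissible_coe` (elements of `Lˣ`),
  `isAdmissible_of_isSUnit`.
* `IsAdmissible.exists_hasDiv hL : ∃ D, HasDiv L S β D`.
* **`clInv hL : {β // IsAdmissible L S β} → ClT L T_L`**, `clInv_eq_clOf`, **`clInv_mul`** (a),
  **`clInv_eq_zero_iff`** (b) : `clInv β = 0 ↔ ∃ x ∈ L, x ≠ 0 ∧ IsSUnit S (β / x)`, `clInv_one`,
  `clInv_inv`, `clInv_eq_of_isSUnit_div`.
* `admSubgroup L S : Subgroup ℚ̄ˣ`, **`clInvHom hL : Additive (admSubgroup L S) →+ ClT L T_L`**,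
  `clInvHom_apply`, `clInvHom_eq_zero_iff`.
-/

set_option autoImplicit false
set_option linter.style.haveILetI false
set_option linter.unusedSectionVars false

open IntermediateField NumberField IsDedekindDomain
open Fermat.Agent.S55.SUnit Fermat.Agent.S55.GL.ClassT Fermat.Agent.S55.GL.Kummer
open Fermat.Agent.S55.GL.UnramBridge Fermat.Agent.S55.GL.QS Fermat.Agent.S55.GL.KummerUnram
open Fermat.Agent.S55.GL.ClassTGalois Fermat.Agent.S55.GL.DivPackInst

namespace Fermat.Agent.S55.GL.DivOf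

local notation "Qbar" => AlgebraicClosure ℚ
local notation "Γ" => (AlgebraicClosure ℚ ≃ₐ[ℚ] AlgebraicClosure ℚ)

section Adm

variable (L : IntermediateField ℚ Qbar) (S : Finset Nat.Primes)

/-- `β` is `L`-admissible: a nonzero element of `ℚ_S` whose class modulo `S`-units is
`G_L`-invariant. -/
def IsAdmissible (β : Qbar) : Prop :=
  β ≠ 0 ∧ (∃ F : IntermediateField ℚ Qbar, F.IsUnramifiedOutside S ∧ β ∈ F) ∧
    ∀ σ ∈ L.fixingSubgroup, IsSUnit S (σ β / β)

variable {L S}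

theorem IsAdmissible.ne_zero {β : Qbar} (h : IsAdmissible L S β) : β ≠ 0 := h.1

theorem IsAdmissible.isUnramifiedOutside_adjoin {β : Qbar} (h : IsAdmissible L S β) :
    (ℚ⟮β⟯).IsUnramifiedOutside S := by
  obtain ⟨F, hF, hβF⟩ := h.2.1
  exact hF.of_le (adjoin_simple_le_iff.2 hβF)

theorem isAdmissible_one : IsAdmissible L S 1 :=
  ⟨one_ne_zero, ⟨⊥, isUnramifiedOutside_bot S, one_mem _⟩, fun σ _ => by
    rw [map_one, div_one]
    exact isSUnit_one⟩

theorem IsAdmissible.mul {β β' : Qbar} (h : IsAdmissible L S β) (h' : IsAdmissible L S β') :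
    IsAdmissible L S (β * β') := by
  obtain ⟨F, hF, hβF⟩ := h.2.1
  obtain ⟨F', hF', hβF'⟩ := h'.2.1
  refine ⟨mul_ne_zero h.1 h'.1, ⟨F ⊔ F', hF.sup hF', mul_mem ((le_sup_left : F ≤ F ⊔ F') hβF)
    ((le_sup_right : F' ≤ F ⊔ F') hβF')⟩, fun σ hσ => ?_⟩
  have h1 : σ (β * β') / (β * β') = (σ β / β) * (σ β' / β') := by
    rw [map_mul, mul_div_mul_comm]
  rw [h1]
  exact (h.2.2 σ hσ).mul (h'.2.2 σ hσ)

theorem IsAdmissible.inv {β : Qbar} (h : IsAdmissible L S β) : IsAdmissible L S β⁻¹ := by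
  obtain ⟨F, hF, hβF⟩ := h.2.1
  refine ⟨inv_ne_zero h.1, ⟨F, hF, inv_mem hβF⟩, fun σ hσ => ?_⟩
  have h1 : σ β⁻¹ / β⁻¹ = (σ β / β)⁻¹ := by
    rw [map_inv₀, inv_div_inv, inv_div]
  rw [h1]
  exact (h.2.2 σ hσ).inv

/-- nonzero elements of `L` are admissible. -/
theorem isAdmissible_of_mem (hL : L.IsUnramifiedOutside S) {x : Qbar} (hx : x ∈ L) (hx0 : x ≠ 0) :
    IsAdmissible L S x :=
  ⟨hx0, ⟨L, hL, hx⟩, fun σ hσ => by
    rw [(IntermediateField.mem_fixingSubgroup_iff L σ).1 hσ x hx, div_self hx0]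
    exact isSUnit_one⟩

open scoped Pointwise in
/-- Galois conjugates of `S`-units are `S`-units. -/
theorem isSUnit_map {x : Qbar} (hx : IsSUnit S x) (σ : Γ) : IsSUnit S (σ x) := by
  intro q hq A hA
  have hB : (σ⁻¹ • A).LiesOverPrime (q : ℕ) := (liesOverPrime_smul_iff A σ⁻¹ _).mpr hA
  exact valuation_apply_eq_one_of_smul A σ (hx q hq _ hB)

/-- `S`-units of `ℚ_S` are admissible. -/
theorem isAdmissible_of_isSUnit {u : Qbar} (hu0 : u ≠ 0)
    (hF : ∃ F : IntermediateField ℚ Qbar, F.IsUnramifiedOutside S ∧ u ∈ F) (hu : IsSUnit S u) :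
    IsAdmissible L S u :=
  ⟨hu0, hF, fun σ _ => (isSUnit_map hu σ).mul hu.inv⟩

end Adm

section ClInv

variable {L : IntermediateField ℚ Qbar} [NumberField L] {S : Finset Nat.Primes}

theorem IsAdmissible.exists_hasDiv (hL : L.IsUnramifiedOutside S) {β : Qbar}
    (h : IsAdmissible L S β) : ∃ D : DivT L (primesAbove L S), HasDiv L S β D :=
  DivOf.exists_hasDiv hL h.1 h.isUnramifiedOutside_adjoin h.2.2

/-- the divisor (in `L`, off `S`) of an admissible element. -/
noncomputable def divInv (hL : L.IsUnramifiedOutside S) (β : {β : Qbar // IsAdmissible L S β}) :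
    DivT L (primesAbove L S) :=
  Classical.choose (β.2.exists_hasDiv hL)

theorem hasDiv_divInv (hL : L.IsUnramifiedOutside S) (β : {β : Qbar // IsAdmissible L S β}) :
    HasDiv L S β.1 (divInv hL β) :=
  Classical.choose_spec (β.2.exists_hasDiv hL)

theorem divInv_eq (hL : L.IsUnramifiedOutside S) (β : {β : Qbar // IsAdmissible L S β})
    {D : DivT L (primesAbove L S)} (hD : HasDiv L S β.1 D) : divInv hL β = D :=
  (hasDiv_divInv hL β).unique hD

/-- **the class (in `Cl_S(L)`) of a `G_L`-invariant `S`-principal divisor**, `β ↦ [div_L β]`. -/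
noncomputable def clInv (hL : L.IsUnramifiedOutside S) (β : {β : Qbar // IsAdmissible L S β}) :
    ClT L (primesAbove L S) :=
  clOf (primesAbove L S) (divInv hL β)

theorem clInv_eq_clOf (hL : L.IsUnramifiedOutside S) (β : {β : Qbar // IsAdmissible L S β})
    {D : DivT L (primesAbove L S)} (hD : HasDiv L S β.1 D) :
    clInv hL β = clOf (primesAbove L S) D := by
  rw [clInv, divInv_eq hL β hD]

/-- (a) additivity. -/
theorem clInv_mul (hL : L.IsUnramifiedOutside S) (β β' : {β : Qbar // IsAdmissible L S β}) :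
    clInv hL ⟨β.1 * β'.1, β.2.mul β'.2⟩ = clInv hL β + clInv hL β' := by
  rw [clInv_eq_clOf hL ⟨β.1 * β'.1, β.2.mul β'.2⟩ ((hasDiv_divInv hL β).mul (hasDiv_divInv hL β')),
    map_add]
  rfl

theorem clInv_one (hL : L.IsUnramifiedOutside S) : clInv hL ⟨1, isAdmissible_one⟩ = 0 := by
  rw [clInv_eq_clOf hL ⟨1, isAdmissible_one⟩ hasDiv_one, map_zero]

theorem clInv_inv (hL : L.IsUnramifiedOutside S) (β : {β : Qbar // IsAdmissible L S β}) :
    clInv hL ⟨β.1⁻¹, β.2.inv⟩ = -clInv hL β := by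
  rw [clInv_eq_clOf hL ⟨β.1⁻¹, β.2.inv⟩ (hasDiv_divInv hL β).inv, map_neg]
  rfl

/-- (b) the kernel: `β` is, up to an `S`-unit, a nonzero element of `L`. -/
theorem clInv_eq_zero_iff (hL : L.IsUnramifiedOutside S) (β : {β : Qbar // IsAdmissible L S β}) :
    clInv hL β = 0 ↔ ∃ x : Qbar, x ∈ L ∧ x ≠ 0 ∧ IsSUnit S (β.1 / x) := by
  rw [clInv, clOf_eq_zero_iff_of_hasDiv hL (hasDiv_divInv hL β)]
  constructor
  · rintro ⟨x, hx⟩
    refine ⟨((x : L) : Qbar), (x : L).2, ?_, hx⟩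
    have : (x : L) ≠ 0 := x.ne_zero
    simp
  · rintro ⟨x, hxL, hx0, hx⟩
    have hx0' : (⟨x, hxL⟩ : L) ≠ 0 := fun h0 => hx0 (congrArg Subtype.val h0)
    exact ⟨Units.mk0 ⟨x, hxL⟩ hx0', hx⟩

/-- elements differing by an `S`-unit have the same class. -/
theorem clInv_eq_of_isSUnit_div (hL : L.IsUnramifiedOutside S)
    (β β' : {β : Qbar // IsAdmissible L S β}) (hu : IsSUnit S (β'.1 / β.1)) :
    clInv hL β' = clInv hL β :=
  clInv_eq_clOf hL β' ((hasDiv_divInv hL β).of_isSUnit_div hu β.2.1)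

/-- the class of an element of `Lˣ` vanishes. -/
theorem clInv_of_mem (hL : L.IsUnramifiedOutside S) {x : Qbar} (hx : x ∈ L) (hx0 : x ≠ 0) :
    clInv hL ⟨x, isAdmissible_of_mem hL hx hx0⟩ = 0 := by
  rw [clInv_eq_zero_iff]
  exact ⟨x, hx, hx0, by rw [div_self hx0]; exact isSUnit_one⟩

/-- the class of an `S`-unit vanishes. -/
theorem clInv_of_isSUnit (hL : L.IsUnramifiedOutside S) {u : Qbar} (hu0 : u ≠ 0)
    (hF : ∃ F : IntermediateField ℚ Qbar, F.IsUnramifiedOutside S ∧ u ∈ F) (hu : IsSUnit S u) :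
    clInv hL ⟨u, isAdmissible_of_isSUnit hu0 hF hu⟩ = 0 := by
  rw [clInv_eq_zero_iff]
  exact ⟨1, one_mem _, one_ne_zero, by rw [div_one]; exact hu⟩

end ClInv

section Hom

variable (L : IntermediateField ℚ Qbar) [NumberField L] (S : Finset Nat.Primes)

/-- the group of admissible elements, as a subgroup of `ℚ̄ˣ`. -/
def admSubgroup : Subgroup Qbarˣ where
  carrier := {β | IsAdmissible L S (β : Qbar)}
  mul_mem' {a b} ha hb := by
    show IsAdmissible L S ((a * b : Qbarˣ) : Qbar)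
    rw [Units.val_mul]
    exact IsAdmissible.mul ha hb
  one_mem' := by
    show IsAdmissible L S ((1 : Qbarˣ) : Qbar)
    rw [Units.val_one]
    exact isAdmissible_one
  inv_mem' {a} ha := by
    show IsAdmissible L S ((a⁻¹ : Qbarˣ) : Qbar)
    rw [Units.val_inv_eq_inv_val]
    exact IsAdmissible.inv ha

variable {L S}

theorem mem_admSubgroup {β : Qbarˣ} : β ∈ admSubgroup L S ↔ IsAdmissible L S (β : Qbar) := Iff.rfl

/-- **the class map as a homomorphism** `Additive (admissible elements) →+ Cl_S(L)`. -/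
noncomputable def clInvHom (hL : L.IsUnramifiedOutside S) :
    Additive (admSubgroup L S) →+ ClT L (primesAbove L S) where
  toFun β := clInv hL ⟨((Additive.toMul β : admSubgroup L S) : Qbarˣ), (Additive.toMul β).2⟩
  map_zero' := clInv_one hL
  map_add' a b := clInv_mul hL ⟨_, (Additive.toMul a).2⟩ ⟨_, (Additive.toMul b).2⟩

theorem clInvHom_apply (hL : L.IsUnramifiedOutside S) (β : Additive (admSubgroup L S)) :
    clInvHom hL β =
      clInv hL ⟨((Additive.toMul β : admSubgroup L S) : Qbarˣ), (Additive.toMul β).2⟩ := rfl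

theorem clInvHom_eq_zero_iff (hL : L.IsUnramifiedOutside S) (β : Additive (admSubgroup L S)) :
    clInvHom hL β = 0 ↔ ∃ x : Qbar, x ∈ L ∧ x ≠ 0 ∧
      IsSUnit S ((((Additive.toMul β : admSubgroup L S) : Qbarˣ) : Qbar) / x) :=
  clInv_eq_zero_iff hL _

end Hom

end Fermat.Agent.S55.GL.DivOf
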