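/-
S55 — input (φ) of the final plug: `H¹(G_{L,S}, E_S)` embeds into the `S`-class group `Cl_S(L)`,
in explicit cocycle language.

A class `x = [z]` (`z` a level `1`-cocycle with values in `E_S`) becomes a coboundary in `ℚ_S^×`
(Hilbert 90 over `G_{L,S}`, `LevelH90.h90_levelLS`): `z(σ) = σβ/β`.  Such a `β` is admissible
(`DivOf.IsAdmissible`), and `φ x := [div_L β] ∈ Cl_S(L)` (`DivOf.clInv`).  (helper25)
-/
import Fermat.Agent.S55.GL.BrauerAll
import Fermat.Agent.S55.GL.LevelH90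
import Fermat.Agent.S55.GL.ClassTPhi

set_option autoImplicit false
set_option linter.unusedSectionVars false

namespace Fermat.Agent.S55.GL.PhiFieldInst

open CategoryTheory groupCohomology
  Fermat.Agent.S55.Level Fermat.Agent.S55.GaloisLevel
  Fermat.Agent.S55.GL.BrauerLocal Fermat.Agent.S55.GL.BrauerInst
  Fermat.Agent.S55.GL.QSMod Fermat.Agent.S55.GL.ClassT Fermat.Agent.S55.GL.DivOf
  Fermat.Agent.S55.SUnit Fermat.Agent.S55.GL.Kummer

local notation "Qbar" => AlgebraicClosure ℚ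
local notation "Γ" => (AlgebraicClosure ℚ ≃ₐ[ℚ] AlgebraicClosure ℚ)

local instance isGaloisQbar_PF : IsGalois ℚ Qbar := Fermat.Agent.S55.Level.isGalois_Qbar

variable (S : Finset Nat.Primes) (L : IntermediateField ℚ Qbar)

/-- `β` is a primitive of the `E_S`-valued cocycle `z`: `σ β = z(σ) · β` for `σ ∈ G_L`, with `β` a
nonzero element of a field unramified outside `S`. -/
def IsPrim (z : levelCocycles₁ (levelLS S L) (resL L (ESUnits S))) (β : Qbar) : Prop :=
  β ≠ 0 ∧ (∃ F : IntermediateField ℚ Qbar, F.IsUnramifiedOutside S ∧ β ∈ F) ∧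
    ∀ g : ↥L.fixingSubgroup, (g : Γ) β = ESUnits.val S (z.1 g) * β

variable {S L}

theorem IsPrim.isAdmissible {z : levelCocycles₁ (levelLS S L) (resL L (ESUnits S))} {β : Qbar}
    (h : IsPrim S L z β) : IsAdmissible L S β := by
  refine ⟨h.1, h.2.1, fun σ hσ => ?_⟩
  have := h.2.2 ⟨σ, hσ⟩
  simp only at this
  rw [this, mul_div_assoc, div_self h.1, mul_one]
  exact ESUnits.isSUnit_val S _

theorem IsPrim.add {z z' : levelCocycles₁ (levelLS S L) (resL L (ESUnits S))} {β β' : Qbar}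
    (h : IsPrim S L z β) (h' : IsPrim S L z' β') : IsPrim S L (z + z') (β * β') := by
  obtain ⟨F, hF, hβF⟩ := h.2.1
  obtain ⟨F', hF', hβF'⟩ := h'.2.1
  refine ⟨mul_ne_zero h.1 h'.1, ⟨F ⊔ F', hF.sup hF', mul_mem ((le_sup_left : F ≤ F ⊔ F') hβF)
    ((le_sup_right : F' ≤ F ⊔ F') hβF')⟩, fun g => ?_⟩
  have h1 : (z + z').1 g = z.1 g + z'.1 g := rfl
  rw [h1, map_mul, h.2.2 g, h'.2.2 g]
  have h2 : ESUnits.val S (z.1 g + z'.1 g) = ESUnits.val S (z.1 g) * ESUnits.val S (z'.1 g) :=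
    ESUnits.val_add S _ _
  rw [h2]
  ring

/-- the trivial primitive of the zero cocycle. -/
theorem isPrim_zero : IsPrim S L 0 1 := by
  refine ⟨one_ne_zero, ⟨⊥, IntermediateField.isUnramifiedOutside_bot S, one_mem _⟩, fun g => ?_⟩
  have h1 : (0 : levelCocycles₁ (levelLS S L) (resL L (ESUnits S))).1 g = 0 := rfl
  rw [h1, map_one, ESUnits.val_zero, one_mul]

/-- the cocycle relation in `ℚ̄`. -/
theorem val_cocycle (z : levelCocycles₁ (levelLS S L) (resL L (ESUnits S)))
    (g g' : ↥L.fixingSubgroup) :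
    ESUnits.val S (z.1 (g * g')) = (g : Γ) (ESUnits.val S (z.1 g')) * ESUnits.val S (z.1 g) := by
  have hz := ((Level.mem_levelCocycles₁_iff (levelLS S L) (resL L (ESUnits S)) z.1).1 z.2).1
  have hzc := (mem_cocycles₁_iff z.1).1 hz g g'
  rw [hzc]
  have h1 : ESUnits.val S ((resL L (ESUnits S)).ρ g (z.1 g') + z.1 g) =
      ESUnits.val S ((ESUnits S).ρ (g : Γ) (z.1 g')) * ESUnits.val S (z.1 g) :=
    ESUnits.val_add S _ _
  rw [h1, ESUnits.val_ρ]

/-- **Hilbert 90**: every `E_S`-valued level cocycle has a primitive in `ℚ_S^×`. -/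
theorem exists_isPrim (hL : L.IsUnramifiedOutside S)
    (z : levelCocycles₁ (levelLS S L) (resL L (ESUnits S))) : ∃ β : Qbar, IsPrim S L z β := by
  have hz := (Level.mem_levelCocycles₁_iff (levelLS S L) (resL L (ESUnits S)) z.1).1 z.2
  have hzc : ∀ g g' : ↥L.fixingSubgroup,
      z.1 (g * g') = (resL L (ESUnits S)).ρ g (z.1 g') + z.1 g := (mem_cocycles₁_iff z.1).1 hz.1
  -- the image cocycle in `ℚ_S^×`
  have hz'mem : (fun g => (ESUnitsι S).hom (z.1 g)) ∈
      levelCocycles₁ (levelLS S L) (resL L (QSUnits S)) := by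
    rw [Level.mem_levelCocycles₁_iff]
    refine ⟨(mem_cocycles₁_iff _).2 fun g g' => ?_, ?_⟩
    · show (ESUnitsι S).hom (z.1 (g * g')) =
        (resL L (QSUnits S)).ρ g ((ESUnitsι S).hom (z.1 g')) + (ESUnitsι S).hom (z.1 g)
      rw [hzc, map_add]
      congr 1
    · obtain ⟨U, hU, hUz⟩ := hz.2
      exact ⟨U, hU, fun g s hs => by
        show (ESUnitsι S).hom (z.1 (g * s)) = (ESUnitsι S).hom (z.1 g)
        rw [hUz g s hs]⟩
  have h0 : levelH1π (levelLS S L) (resL L (QSUnits S)) ⟨_, hz'mem⟩ = 0 :=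
    Fermat.Agent.S55.GL.LevelH90.h90_levelLS S L hL _
  rw [levelH1π_eq_zero_iff] at h0
  obtain ⟨a', ha'⟩ := h0
  have ha'' : ∀ g : ↥L.fixingSubgroup,
      (resL L (QSUnits S)).ρ g a' - a' = (ESUnitsι S).hom (z.1 g) := fun g => by
    have := congrFun ha' g
    rw [d₀₁_hom_apply] at this
    exact this
  obtain ⟨F, hF, -, hxF⟩ := QSUnits.exists_mem S a'
  refine ⟨QSUnits.val S a', QSUnits.val_ne_zero S a', ⟨F, hF, hxF⟩, fun g => ?_⟩
  have h1 : (resL L (QSUnits S)).ρ g a' = (ESUnitsι S).hom (z.1 g) + a' := by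
    rw [← ha'' g, sub_add_cancel]
  have h2 := congrArg (QSUnits.val S) h1
  rw [QSUnits.val_add] at h2
  show (g : Γ) (QSUnits.val S a') = QSUnits.val S ((ESUnitsι S).hom (z.1 g)) * QSUnits.val S a'
  rw [← h2]
  exact (QSUnits.val_ρ S (g : Γ) a').symm

theorem ESUnits_val_ne_zero (a : ESUnits S) : ESUnits.val S a ≠ 0 :=
  QSUnits.val_ne_zero S _

/-- the value of a coboundary. -/
theorem val_coboundary (a : ESUnits S) (g : ↥L.fixingSubgroup) :
    ESUnits.val S ((resL L (ESUnits S)).ρ g a - a) * ESUnits.val S a =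
      (g : Γ) (ESUnits.val S a) := by
  rw [← ESUnits.val_add, sub_add_cancel]
  exact ESUnits.val_ρ S (g : Γ) a

/-- changing the cocycle by a coboundary `d a` multiplies the primitive by `a`. -/
theorem IsPrim.add_coboundary {z z' : levelCocycles₁ (levelLS S L) (resL L (ESUnits S))} {β : Qbar}
    (h : IsPrim S L z β) (a : ESUnits S)
    (ha : ∀ g : ↥L.fixingSubgroup, z'.1 g = z.1 g + ((resL L (ESUnits S)).ρ g a - a)) :
    IsPrim S L z' (β * ESUnits.val S a) := by
  obtain ⟨F, hF, hβF⟩ := h.2.1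
  obtain ⟨F', hF', -, haF'⟩ := QSUnits.exists_mem S ((ESUnitsι S).hom a)
  refine ⟨mul_ne_zero h.1 (ESUnits_val_ne_zero a), ⟨F ⊔ F', hF.sup hF',
    mul_mem ((le_sup_left : F ≤ F ⊔ F') hβF) ((le_sup_right : F' ≤ F ⊔ F') haF')⟩, fun g => ?_⟩
  rw [map_mul, h.2.2 g, ha g, ESUnits.val_add, ← val_coboundary a g]
  ring

/-- two primitives of the same cocycle differ by an element of `Lˣ`. -/
theorem IsPrim.div_mem {z : levelCocycles₁ (levelLS S L) (resL L (ESUnits S))} {β β' : Qbar}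
    (h : IsPrim S L z β) (h' : IsPrim S L z β') : β' / β ∈ L := by
  rw [← InfiniteGalois.fixedField_fixingSubgroup L, IntermediateField.mem_fixedField_iff]
  intro g hg
  have h1 := h.2.2 ⟨g, hg⟩
  have h2 := h'.2.2 ⟨g, hg⟩
  simp only at h1 h2
  rw [map_div₀, h1, h2, mul_div_mul_left _ _ (ESUnits_val_ne_zero _)]

variable [NumberField L]

/-- the class of a primitive only depends on the cocycle. -/
theorem clInv_eq_of_isPrim (hL : L.IsUnramifiedOutside S)
    {z : levelCocycles₁ (levelLS S L) (resL L (ESUnits S))} {β β' : Qbar}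
    (h : IsPrim S L z β) (h' : IsPrim S L z β') :
    clInv hL ⟨β', h'.isAdmissible⟩ = clInv hL ⟨β, h.isAdmissible⟩ := by
  have hx : β' / β ∈ L := h.div_mem h'
  have hx0 : β' / β ≠ 0 := div_ne_zero h'.1 h.1
  have e : (⟨β', h'.isAdmissible⟩ : {β : Qbar // IsAdmissible L S β}) =
      ⟨β * (β' / β), h.isAdmissible.mul (isAdmissible_of_mem hL hx hx0)⟩ :=
    Subtype.ext (mul_div_cancel₀ β' h.1).symm
  rw [e, clInv_mul hL ⟨β, h.isAdmissible⟩ ⟨β' / β, isAdmissible_of_mem hL hx hx0⟩,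
    clInv_of_mem hL hx hx0, add_zero]

/-- the class attached to a cocycle. -/
noncomputable def phiTilde (hL : L.IsUnramifiedOutside S)
    (z : levelCocycles₁ (levelLS S L) (resL L (ESUnits S))) : ClT L (primesAbove L S) :=
  clInv hL ⟨Classical.choose (exists_isPrim hL z),
    (Classical.choose_spec (exists_isPrim hL z)).isAdmissible⟩

theorem phiTilde_eq (hL : L.IsUnramifiedOutside S)
    {z : levelCocycles₁ (levelLS S L) (resL L (ESUnits S))} {β : Qbar} (h : IsPrim S L z β) :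
    phiTilde hL z = clInv hL ⟨β, h.isAdmissible⟩ :=
  clInv_eq_of_isPrim hL h (Classical.choose_spec (exists_isPrim hL z))

theorem phiTilde_zero (hL : L.IsUnramifiedOutside S) : phiTilde (S := S) (L := L) hL 0 = 0 := by
  rw [phiTilde_eq hL isPrim_zero]
  exact clInv_one hL

theorem phiTilde_add (hL : L.IsUnramifiedOutside S)
    (z z' : levelCocycles₁ (levelLS S L) (resL L (ESUnits S))) :
    phiTilde hL (z + z') = phiTilde hL z + phiTilde hL z' := by
  have h := Classical.choose_spec (exists_isPrim hL z)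
  have h' := Classical.choose_spec (exists_isPrim hL z')
  rw [phiTilde_eq hL (h.add h')]
  exact clInv_mul hL ⟨_, h.isAdmissible⟩ ⟨_, h'.isAdmissible⟩

/-- cohomologous cocycles have the same class. -/
theorem phiTilde_eq_of_levelH1π_eq (hL : L.IsUnramifiedOutside S)
    {z z' : levelCocycles₁ (levelLS S L) (resL L (ESUnits S))}
    (hzz' : levelH1π (levelLS S L) (resL L (ESUnits S)) z' =
      levelH1π (levelLS S L) (resL L (ESUnits S)) z) :
    phiTilde hL z' = phiTilde hL z := by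
  rw [levelH1π_eq_iff] at hzz'
  obtain ⟨a, ha⟩ := hzz'
  have ha' : ∀ g : ↥L.fixingSubgroup,
      z'.1 g = z.1 g + ((resL L (ESUnits S)).ρ g a - a) := fun g => by
    have := congrFun ha g
    rw [d₀₁_hom_apply] at this
    rw [this]
    show z'.1 g = z.1 g + (z'.1 g - z.1 g)
    abel
  have h := Classical.choose_spec (exists_isPrim hL z)
  have h' := h.add_coboundary a ha'
  obtain ⟨F', hF', -, haF'⟩ := QSUnits.exists_mem S ((ESUnitsι S).hom a)
  rw [phiTilde_eq hL h', phiTilde_eq hL h]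
  have e := clInv_mul hL ⟨_, h.isAdmissible⟩ ⟨ESUnits.val S a,
    isAdmissible_of_isSUnit (ESUnits_val_ne_zero a) ⟨F', hF', haF'⟩ (ESUnits.isSUnit_val S a)⟩
  refine e.trans ?_
  rw [clInv_of_isSUnit hL (ESUnits_val_ne_zero a) ⟨F', hF', haF'⟩ (ESUnits.isSUnit_val S a),
    add_zero]

/-- the underlying function of `φ`. -/
noncomputable def phiFun (hL : L.IsUnramifiedOutside S)
    (x : levelCohomology (levelLS S L) (resL L (ESUnits S)) 1) : ClT L (primesAbove L S) :=
  phiTilde hL (Classical.choose (levelH1π_surjective (levelLS S L) (resL L (ESUnits S)) x))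

theorem phiFun_levelH1π (hL : L.IsUnramifiedOutside S)
    (z : levelCocycles₁ (levelLS S L) (resL L (ESUnits S))) :
    phiFun hL (levelH1π (levelLS S L) (resL L (ESUnits S)) z) = phiTilde hL z :=
  phiTilde_eq_of_levelH1π_eq hL
    (Classical.choose_spec (levelH1π_surjective (levelLS S L) (resL L (ESUnits S)) _))

/-- **`φ : H¹(G_{L,S}, E_S) → Cl_S(L)`**, `[z] ↦ [div_L β]` for `z(σ) = σβ/β`. -/
noncomputable def phi (hL : L.IsUnramifiedOutside S) :
    levelCohomology (levelLS S L) (resL L (ESUnits S)) 1 →+ ClT L (primesAbove L S) where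
  toFun := phiFun hL
  map_zero' := by
    have := phiFun_levelH1π hL (0 : levelCocycles₁ (levelLS S L) (resL L (ESUnits S)))
    rw [map_zero] at this
    rw [this, phiTilde_zero]
  map_add' x y := by
    obtain ⟨z, rfl⟩ := levelH1π_surjective (levelLS S L) (resL L (ESUnits S)) x
    obtain ⟨z', rfl⟩ := levelH1π_surjective (levelLS S L) (resL L (ESUnits S)) y
    rw [← map_add, phiFun_levelH1π, phiFun_levelH1π, phiFun_levelH1π, phiTilde_add]

/-- **`φ` is injective.** -/
theorem phi_injective (hL : L.IsUnramifiedOutside S) : Function.Injective (phi (S := S) hL) := by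
  rw [injective_iff_map_eq_zero]
  intro x hx
  obtain ⟨z, rfl⟩ := levelH1π_surjective (levelLS S L) (resL L (ESUnits S)) x
  have hx' : phiTilde hL z = 0 := (phiFun_levelH1π hL z).symm.trans hx
  have h := Classical.choose_spec (exists_isPrim hL z)
  set β := Classical.choose (exists_isPrim hL z) with hβ
  have h0 : clInv hL ⟨β, h.isAdmissible⟩ = 0 := hx'
  rw [clInv_eq_zero_iff] at h0
  obtain ⟨x₀, hx₀L, hx₀0, hu⟩ := h0
  simp only at hu
  obtain ⟨F, hF, hβF⟩ := h.2.1
  have hu0 : β / x₀ ≠ 0 := div_ne_zero h.1 hx₀0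
  have humem : β / x₀ ∈ F ⊔ L :=
    div_mem ((le_sup_left : F ≤ F ⊔ L) hβF) ((le_sup_right : L ≤ F ⊔ L) hx₀L)
  rw [levelH1π_eq_zero_iff]
  refine ⟨ESUnits.mk S (β / x₀) hu0 (hF.sup hL) humem hu, ?_⟩
  funext g
  rw [d₀₁_hom_apply]
  apply ESUnits.val_injective S
  have h1 : ESUnits.val S ((resL L (ESUnits S)).ρ g (ESUnits.mk S (β / x₀) hu0 (hF.sup hL) humem hu)
      - ESUnits.mk S (β / x₀) hu0 (hF.sup hL) humem hu) * (β / x₀) = (g : Γ) (β / x₀) :=
    val_coboundary (ESUnits.mk S (β / x₀) hu0 (hF.sup hL) humem hu) g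
  have h2 : (g : Γ) (β / x₀) = ESUnits.val S (z.1 g) * (β / x₀) := by
    rw [map_div₀, h.2.2 g, (IntermediateField.mem_fixingSubgroup_iff L (g : Γ)).1 g.2 x₀ hx₀L,
      mul_div_assoc]
  exact mul_right_cancel₀ hu0 (h1.trans h2)

/-- **Input (φ) of the final plug**, unconditionally (and for every number field `L` unramified
outside `S`; the further hypotheses of `PhiField` are not used). -/
theorem phiField (p : ℕ) (S : Finset Nat.Primes) : Fermat.Agent.S55.GL.BrauerAll.PhiField p S :=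
  fun _ _ hL _ _ => ⟨phi hL, phi_injective hL⟩

end Fermat.Agent.S55.GL.PhiFieldInst
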