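/-
S55 GLO9c (reciprocity), plumbing part 1: the LOCAL-GLOBAL LAYER SQUARE.

`L ⊆ ℚ̄` a number field, `E/L` a finite Galois extension inside `ℚ̄`
(`E : IntermediateField ↥L ℚ̄`), `(q, τ)` a place.  Global side: `Gal(ℚ̄/L)`, Krull level
structure, `ℚ̄ˣ` (helper27's model).  Local side: `Gal(Ω_q/L_v)`, `L_v = localFieldAt q L τ`,
layer field `E_w = localExt` (helper2's `PlacesRel`).

* `decompG`, `unitsLocG`, `locG` : the localisation map `Hⁿ(Gal(ℚ̄/L), ℚ̄ˣ) → Hⁿ(Gal(Ω_q/L_v), Ω_qˣ)`;
* `fLoc : Gal(E_w/L_v) →* Gal(E/L)`, `ιLoc : Eˣ → E_wˣ`;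
* `layerChange_unitsLayerIsoF` : localisation on the layer of `E`, read on the Galois groups of the
  fields, is `groupCohomology.map fLoc ιLoc`;
* `locG_levelInf` : localisation of an inflated class.
-/
import Fermat.Agent.S55.GL.PlacesRel
import Fermat.Agent.S55.GL.BrauerLocal
import Fermat.Agent.S55.GaloisLevelBC
import Fermat.Agent.S55.GC.GaloisLayerInf
import Fermat.Agent.S55.LevelLayerMore

set_option autoImplicit false
set_option linter.unusedSectionVars false
set_option linter.style.haveILetI false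

open CategoryTheory groupCohomology IntermediateField

namespace Fermat.Agent.S55.GL.RecipLayer

open Fermat.Agent.S55.Level Fermat.Agent.S55.LevelLayer Fermat.Agent.S55.GaloisLevel
  Fermat.Agent.S55.GL.Places Fermat.Agent.S55.GL.PlacesRel Fermat.Agent.S55.GL.BrauerLocal
  Fermat.Agent.S55.GC.GaloisLayerInf Fermat.Agent.S55.LevelTransport

section Generic

variable (F Ω : Type) [Field F] [Field Ω] [Algebra F Ω] [IsGalois F Ω]
  (E : IntermediateField F Ω) [Normal F E]

/-- The coefficient morphism of `unitsLayerIsoF`. -/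
noncomputable def layerMor :
    Rep.res (galQuotEquiv F Ω E).symm.toMonoidHom
      ((Rep.ofAlgebraAutOnUnits F Ω).quotientToInvariants E.fixingSubgroup) ⟶
    Rep.ofAlgebraAutOnUnits F E :=
  Rep.ofHom ⟨(unitsLayerEquivF F Ω E).toLinearMap, fun h => by
    have := unitsLayerEquivF_ρ F Ω E ((galQuotEquiv F Ω E).symm h)
    rw [MulEquiv.apply_symm_apply] at this
    exact this⟩

theorem unitsLayerIsoF_hom_eq (n : ℕ) : (unitsLayerIsoF F Ω E n).hom =
    groupCohomology.map (galQuotEquiv F Ω E).symm.toMonoidHom (layerMor F Ω E) n := rfl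

end Generic

local notation "Qbar" => AlgebraicClosure ℚ
local notation "Γ" => (AlgebraicClosure ℚ ≃ₐ[ℚ] AlgebraicClosure ℚ)

local instance isGaloisQbar_RL : IsGalois ℚ Qbar := Fermat.Agent.S55.Level.isGalois_Qbar

variable (q : ℕ) [Fact q.Prime] (L : IntermediateField ℚ Qbar) (τ : Γ)

/-! ### The localisation map in helper27's model -/

/-- The decomposition map `Gal(Ω_q/L_v) →* Gal(ℚ̄/L)`. -/
noncomputable def decompG : Gloc q L τ →* Gal(Qbar/↥L) :=
  (openEquiv (K := ℚ) (Ω := Qbar) (H := L.fixingSubgroup) (E := L) rfl).toMonoidHom.comp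
    (decompHom q L τ)

lemma decompG_apply (g : Gloc q L τ) (x : Qbar) :
    decompG q L τ g x = ((decompHom q L τ g : ↥L.fixingSubgroup) : Γ) x := rfl

/-- `ι (τ (decompG g x)) = g (ι (τ x))`. -/
lemma padicEmbedding_decompG (g : Gloc q L τ) (x : Qbar) :
    padicEmbedding q (τ (decompG q L τ g x)) = g (padicEmbedding q (τ x)) :=
  padicEmbedding_decompHom q L τ g x

/-- The localisation map on coefficients `ℚ̄ˣ → Ω_qˣ`, equivariant along `decompG`. -/
noncomputable def unitsLocG :
    Rep.res (decompG q L τ) (unitsRep ↥L Qbar) ⟶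
      unitsRep (localFieldAt q L τ) (PadicAlgCl q) :=
  Rep.ofHom ⟨(unitsLocAdd q τ).toIntLinearMap, fun g => by
    refine LinearMap.ext fun (a : Additive Qbarˣ) => ?_
    apply Additive.toMul.injective
    apply Units.ext
    exact padicEmbedding_decompG q L τ g ((Additive.toMul a : Qbarˣ) : Qbar)⟩

lemma unitsLocG_hom_apply (a : Additive Qbarˣ) :
    (unitsLocG q L τ).hom a = unitsLocAdd q τ a := rfl

variable [FiniteDimensional ℚ L]

/-- The Krull level structure of the local Galois group refines that of `Gal(ℚ̄/L)`. -/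
theorem refines_decompG :
    (krullLevel (localFieldAt q L τ) (PadicAlgCl q)).Refines (krullLevel ↥L Qbar)
      (decompG q L τ) :=
  refines_comp
    (refines_openEquiv (K := ℚ) (Ω := Qbar) (H := L.fixingSubgroup) (E := L) rfl)
    (refines_decompHom q L τ (krullLevel ℚ Qbar) fun _ hU => isKrullOpen_of_mem_krullLevel hU)

/-- **The localisation map** `Hⁿ(Gal(ℚ̄/L), ℚ̄ˣ) → Hⁿ(Gal(Ω_q/L_v), Ω_qˣ)` at the place `(q, τ)`. -/
noncomputable def locG (n : ℕ) :
    levelCohomology (krullLevel ↥L Qbar) (unitsRep ↥L Qbar) n ⟶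
      levelCohomology (krullLevel (localFieldAt q L τ) (PadicAlgCl q))
        (unitsRep (localFieldAt q L τ) (PadicAlgCl q)) n :=
  levelCohomologyMap (decompG q L τ) (refines_decompG q L τ) (unitsLocG q L τ) n

/-! ### The layer of a finite Galois extension `E/L` -/

lemma padicEmbedding_comp_injective {x y : Qbar}
    (h : padicEmbedding q (τ x) = padicEmbedding q (τ y)) : x = y :=
  τ.injective ((padicEmbedding q).toRingHom.injective h)

variable (E : IntermediateField ↥L Qbar) [IsGalois ↥L ↥E] [FiniteDimensional ↥L ↥E]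

section Wrap

/-- `E` as a subfield of `ℚ̄` over `ℚ`. -/
noncomputable abbrev E₀ : IntermediateField ℚ Qbar := E.restrictScalars ℚ

/-- (local to this section) the `L`-algebra structure of `E`, on `E₀`. -/
noncomputable local instance algebraE₀ : Algebra ↥L ↥(E₀ L E) := inferInstanceAs (Algebra ↥L ↥E)

local instance normalE₀ : Normal ↥L ↥(E₀ L E) := inferInstanceAs (Normal ↥L ↥E)

local instance finiteDimensionalE₀ : FiniteDimensional ℚ ↥(E₀ L E) :=
  Module.Finite.trans (R := ℚ) ↥L ↥E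

lemma halgE (x : L) : ((algebraMap ↥L ↥(E₀ L E) x : ↥(E₀ L E)) : Qbar) = x := rfl

/-- The local layer field `E_w = ℚ_q(ι τ E)` over `L_v`. -/
noncomputable def Ew : IntermediateField (localFieldAt q L τ) (PadicAlgCl q) :=
  localExt (K := L) (L := E₀ L E) q τ (halgE L E)

instance normal_Ew : Normal (localFieldAt q L τ) ↥(Ew q L τ E) :=
  normal_localExt (K := L) (L := E₀ L E) q τ (halgE L E)

instance finiteDimensional_Ew : FiniteDimensional (localFieldAt q L τ) ↥(Ew q L τ E) :=
  finiteDimensional_localExt (K := L) (L := E₀ L E) q τ (halgE L E)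

instance isGalois_Ew : IsGalois (localFieldAt q L τ) ↥(Ew q L τ E) :=
  isGalois_localExt (K := L) (L := E₀ L E) q τ (halgE L E)

lemma mem_Ew {y : PadicAlgCl q} : y ∈ Ew q L τ E ↔ y ∈ localFieldAt q (E₀ L E) τ :=
  mem_localExt (K := L) (L := E₀ L E) q τ (halgE L E)

lemma padicEmbedding_mem_Ew (x : E) : padicEmbedding q (τ (x : Qbar)) ∈ Ew q L τ E :=
  padicEmbedding_mem_localExt (K := L) (L := E₀ L E) q τ (halgE L E) x

/-- The decomposition group of the place `(q, τ)` of `E` in `Gal(E/L)`. -/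
noncomputable def decompE : Subgroup (↥E ≃ₐ[↥L] ↥E) :=
  decompAt (K := L) (L := E₀ L E) q τ

/-- `D_w ≃* Gal(E_w/L_v)`. -/
noncomputable def decompEquivE :
    decompE q L τ E ≃* (↥(Ew q L τ E) ≃ₐ[localFieldAt q L τ] ↥(Ew q L τ E)) :=
  decompEquiv (K := L) (L := E₀ L E) q τ (halgE L E)

lemma decompEquivE_apply (g : decompE q L τ E) (x : E) :
    ((decompEquivE q L τ E g ⟨padicEmbedding q (τ (x : Qbar)), padicEmbedding_mem_Ew q L τ E x⟩ :
      ↥(Ew q L τ E)) : PadicAlgCl q) =
      padicEmbedding q (τ ((((g : ↥E ≃ₐ[↥L] ↥E) x : E)) : Qbar)) :=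
  decompEquiv_apply (K := L) (L := E₀ L E) q τ (halgE L E) g x

end Wrap

/-- The embedding `E → E_w`, `x ↦ ι (τ x)`. -/
noncomputable def embE : ↥E →+* ↥(Ew q L τ E) where
  toFun x := ⟨padicEmbedding q (τ (x : Qbar)), padicEmbedding_mem_Ew q L τ E x⟩
  map_one' := Subtype.ext (by simp)
  map_mul' x y := Subtype.ext (by simp)
  map_zero' := Subtype.ext (by simp)
  map_add' x y := Subtype.ext (by simp)

lemma coe_embE (x : E) : ((embE q L τ E x : Ew q L τ E) : PadicAlgCl q) =
    padicEmbedding q (τ (x : Qbar)) := rfl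

/-- The map `Gal(E_w/L_v) →* Gal(E/L)` (isomorphism onto the decomposition group). -/
noncomputable def fLoc :
    (↥(Ew q L τ E) ≃ₐ[localFieldAt q L τ] ↥(Ew q L τ E)) →* (↥E ≃ₐ[↥L] ↥E) :=
  (decompE q L τ E).subtype.comp (decompEquivE q L τ E).symm.toMonoidHom

lemma fLoc_injective : Function.Injective (fLoc q L τ E) :=
  (Subgroup.subtype_injective _).comp (MulEquiv.injective _)

lemma fLoc_mem (δ : ↥(Ew q L τ E) ≃ₐ[localFieldAt q L τ] ↥(Ew q L τ E)) :
    fLoc q L τ E δ ∈ decompE q L τ E :=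
  ((decompEquivE q L τ E).symm δ).2

lemma range_fLoc : (fLoc q L τ E).range = decompE q L τ E := by
  ext g
  constructor
  · rintro ⟨δ, rfl⟩
    exact fLoc_mem q L τ E δ
  · intro hg
    refine ⟨decompEquivE q L τ E ⟨g, hg⟩, ?_⟩
    show (((decompEquivE q L τ E).symm (decompEquivE q L τ E ⟨g, hg⟩) : decompE q L τ E) :
      ↥E ≃ₐ[↥L] ↥E) = g
    rw [MulEquiv.symm_apply_apply]

/-- **Equivariance**: `embE (fLoc δ x) = δ (embE x)`. -/
lemma embE_fLoc (δ : ↥(Ew q L τ E) ≃ₐ[localFieldAt q L τ] ↥(Ew q L τ E)) (x : E) :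
    embE q L τ E (fLoc q L τ E δ x) = δ (embE q L τ E x) := by
  have h := decompEquivE_apply q L τ E ((decompEquivE q L τ E).symm δ) x
  rw [MulEquiv.apply_symm_apply] at h
  exact Subtype.ext h.symm

/-- The localisation `Eˣ → E_wˣ` as a morphism of `Gal(E_w/L_v)`-modules. -/
noncomputable def ιLoc :
    Rep.res (fLoc q L τ E) (Rep.ofAlgebraAutOnUnits ↥L ↥E) ⟶
      Rep.ofAlgebraAutOnUnits (localFieldAt q L τ) ↥(Ew q L τ E) :=
  Rep.ofHom ⟨(Units.map (embE q L τ E).toMonoidHom).toAdditive.toIntLinearMap, fun δ => by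
    refine LinearMap.ext fun x => ?_
    apply congrArg Additive.ofMul
    apply Units.ext
    exact embE_fLoc q L τ E δ _⟩

lemma ιLoc_coe (x : (Rep.ofAlgebraAutOnUnits ↥L ↥E).V) :
    ((((Additive.toMul ((ιLoc q L τ E).hom x : Additive (↥(Ew q L τ E))ˣ) :
      (↥(Ew q L τ E))ˣ) : ↥(Ew q L τ E)) : PadicAlgCl q)) =
      padicEmbedding q (τ ((((Additive.toMul (x : Additive (↥E)ˣ) : (↥E)ˣ) : ↥E) : Qbar))) := rfl

/-- The local layer subgroup maps into the global one. -/
theorem fixingSubgroup_le_comap_decompG :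
    (Ew q L τ E).fixingSubgroup ≤ E.fixingSubgroup.comap (decompG q L τ) := by
  intro g hg
  rw [Subgroup.mem_comap, IntermediateField.mem_fixingSubgroup_iff]
  intro x hx
  rw [IntermediateField.mem_fixingSubgroup_iff] at hg
  have h1 := hg _ (padicEmbedding_mem_Ew q L τ E ⟨x, hx⟩)
  have h2 := padicEmbedding_decompG q L τ g x
  exact padicEmbedding_comp_injective q τ (h2.trans h1)

/-- Restriction to `E` of the image of a local automorphism is `fLoc` of its restriction to
`E_w`. -/
theorem restrictNormalHom_decompG (g : Gloc q L τ) :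
    AlgEquiv.restrictNormalHom (F := ↥L) (K₁ := Qbar) ↥E (decompG q L τ g) =
      fLoc q L τ E (AlgEquiv.restrictNormalHom (F := localFieldAt q L τ)
        (K₁ := PadicAlgCl q) ↥(Ew q L τ E) g) := by
  ext x
  apply padicEmbedding_comp_injective q τ
  have h1 : ((AlgEquiv.restrictNormalHom (F := ↥L) (K₁ := Qbar) ↥E (decompG q L τ g) x : E) :
      Qbar) = decompG q L τ g (x : Qbar) :=
    AlgEquiv.restrictNormal_commutes (decompG q L τ g) ↥E x
  rw [h1, padicEmbedding_decompG]
  have h2 := congrArg (fun y : ↥(Ew q L τ E) => (y : PadicAlgCl q))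
    (embE_fLoc q L τ E (AlgEquiv.restrictNormalHom (F := localFieldAt q L τ)
        (K₁ := PadicAlgCl q) ↥(Ew q L τ E) g) x)
  simp only [coe_embE] at h2
  rw [h2]
  exact (AlgEquiv.restrictNormal_commutes g ↥(Ew q L τ E) (embE q L τ E x)).symm

/-- **The local-global layer square**: localisation on the layer of `E`, read on the Galois groups
of the fields, is `groupCohomology.map fLoc ιLoc`. -/
theorem layerChange_unitsLayerIsoF (n : ℕ) :
    layerChange (decompG q L τ) (unitsLocG q L τ)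
        (fixingSubgroup_le_comap_decompG q L τ E) n ≫
        (unitsLayerIsoF (localFieldAt q L τ) (PadicAlgCl q) (Ew q L τ E) n).hom =
      (unitsLayerIsoF ↥L Qbar E n).hom ≫
        groupCohomology.map (fLoc q L τ E) (ιLoc q L τ E) n := by
  have hgrp : (layerChangeHom (decompG q L τ) (fixingSubgroup_le_comap_decompG q L τ E)).comp
      (galQuotEquiv (localFieldAt q L τ) (PadicAlgCl q) (Ew q L τ E)).symm.toMonoidHom =
      (galQuotEquiv ↥L Qbar E).symm.toMonoidHom.comp (fLoc q L τ E) := by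
    ext δ
    obtain ⟨g, rfl⟩ := AlgEquiv.restrictNormalHom_surjective (F := localFieldAt q L τ)
      (K₁ := ↥(Ew q L τ E)) (PadicAlgCl q) δ
    simp only [MonoidHom.comp_apply, MulEquiv.coe_toMonoidHom]
    rw [← galQuotEquiv_mk (localFieldAt q L τ) (PadicAlgCl q) (Ew q L τ E) g,
      MulEquiv.symm_apply_apply, galQuotEquiv_mk, ← restrictNormalHom_decompG,
      ← galQuotEquiv_mk ↥L Qbar E, MulEquiv.symm_apply_apply]
    rfl
  have h1 := groupCohomology.map_comp (layerChangeHom (decompG q L τ)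
      (fixingSubgroup_le_comap_decompG q L τ E))
    (galQuotEquiv (localFieldAt q L τ) (PadicAlgCl q) (Ew q L τ E)).symm.toMonoidHom
    (layerChangeMap (decompG q L τ) (unitsLocG q L τ) (fixingSubgroup_le_comap_decompG q L τ E))
    (layerMor (localFieldAt q L τ) (PadicAlgCl q) (Ew q L τ E)) n
  have h2 := groupCohomology.map_comp (galQuotEquiv ↥L Qbar E).symm.toMonoidHom (fLoc q L τ E)
    (layerMor ↥L Qbar E) (ιLoc q L τ E) n
  rw [unitsLayerIsoF_hom_eq, unitsLayerIsoF_hom_eq]
  refine (h1.symm.trans ?_).trans h2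
  refine groupCohomology.map_congr hgrp ?_ n
  ext x
  apply Additive.toMul.injective
  apply Units.ext
  apply Subtype.ext
  rfl

/-- **Localisation of a class inflated from the layer of `E`.** -/
theorem locG_levelInf (β : groupCohomology (Rep.ofAlgebraAutOnUnits ↥L ↥E) 2) :
    (locG q L τ 2).hom ((levelInf (krullLevel ↥L Qbar) (unitsRep ↥L Qbar)
        (fixingSubgroup_mem_krullLevel E) 2).hom ((unitsLayerIsoF ↥L Qbar E 2).inv.hom β)) =
      (levelInf (krullLevel (localFieldAt q L τ) (PadicAlgCl q))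
        (unitsRep (localFieldAt q L τ) (PadicAlgCl q))
        (fixingSubgroup_mem_krullLevel (Ew q L τ E)) 2).hom
          ((unitsLayerIsoF (localFieldAt q L τ) (PadicAlgCl q) (Ew q L τ E) 2).inv.hom
            ((groupCohomology.map (fLoc q L τ E) (ιLoc q L τ E) 2).hom β)) := by
  have h1 := levelInf_levelCohomologyMap_apply (decompG q L τ) (refines_decompG q L τ)
    (unitsLocG q L τ) (fixingSubgroup_le_comap_decompG q L τ E)
    (fixingSubgroup_mem_krullLevel E) (fixingSubgroup_mem_krullLevel (Ew q L τ E)) 2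
    ((unitsLayerIsoF ↥L Qbar E 2).inv.hom β)
  refine h1.trans ?_
  have h2 := congrArg (fun ψ => ψ.hom ((unitsLayerIsoF ↥L Qbar E 2).inv.hom β))
    (layerChange_unitsLayerIsoF q L τ E 2)
  simp only [ModuleCat.hom_comp, LinearMap.comp_apply] at h2
  have h3 : (unitsLayerIsoF ↥L Qbar E 2).hom.hom ((unitsLayerIsoF ↥L Qbar E 2).inv.hom β) = β :=
    congrArg (fun ψ => ψ.hom β) (unitsLayerIsoF ↥L Qbar E 2).inv_hom_id
  rw [h3] at h2
  have key : (layerChange (decompG q L τ) (unitsLocG q L τ)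
      (fixingSubgroup_le_comap_decompG q L τ E) 2).hom ((unitsLayerIsoF ↥L Qbar E 2).inv.hom β) =
      (unitsLayerIsoF (localFieldAt q L τ) (PadicAlgCl q) (Ew q L τ E) 2).inv.hom
        ((groupCohomology.map (fLoc q L τ E) (ιLoc q L τ E) 2).hom β) := by
    rw [← h2]
    exact (congrArg (fun ψ => ψ.hom ((layerChange (decompG q L τ) (unitsLocG q L τ)
      (fixingSubgroup_le_comap_decompG q L τ E) 2).hom ((unitsLayerIsoF ↥L Qbar E 2).inv.hom β)))
      (unitsLayerIsoF (localFieldAt q L τ) (PadicAlgCl q) (Ew q L τ E) 2).hom_inv_id).symm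
  rw [key]

/-! ### Comparison with helper14's `resAt` -/

/-- helper14's localisation map (absolute level, subgroup model) is `locG` through helper27's
`restrictUnitsIso`. -/
theorem resAt_eq_comp (n : ℕ) :
    resAt q L τ (𝟙 (unitsRep ℚ Qbar)) (krullLevel ℚ Qbar)
      (fun _ hU => isKrullOpen_of_mem_krullLevel hU) n =
      (restrictUnitsIso (K := ℚ) (Ω := Qbar) (H := L.fixingSubgroup) (E := L) rfl n).hom ≫
        locG q L τ n := by
  show _ = levelCohomologyMap
      (openEquiv (K := ℚ) (Ω := Qbar) (H := L.fixingSubgroup) (E := L) rfl).symm.toMonoidHom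
      (refines_openEquiv_symm (K := ℚ) (Ω := Qbar) (H := L.fixingSubgroup) (E := L) rfl)
      (restrictUnitsHom (K := ℚ) (Ω := Qbar) (H := L.fixingSubgroup) (E := L) rfl) n ≫
    levelCohomologyMap (decompG q L τ) (refines_decompG q L τ) (unitsLocG q L τ) n
  rw [← levelCohomologyMap_comp]
  exact levelCohomologyMap_congr (by ext g x; rfl) _ _ _ _ (fun _ => rfl) n

theorem resAt_eq_locG (n : ℕ)
    (y : levelCohomology ((krullLevel ℚ Qbar).restrict L.fixingSubgroup)
      (resL L (unitsRep ℚ Qbar)) n) :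
    (resAt q L τ (𝟙 (unitsRep ℚ Qbar)) (krullLevel ℚ Qbar)
      (fun _ hU => isKrullOpen_of_mem_krullLevel hU) n).hom y =
      (locG q L τ n).hom ((restrictUnitsIso (K := ℚ) (Ω := Qbar) (H := L.fixingSubgroup)
        (E := L) rfl n).hom.hom y) := by
  rw [resAt_eq_comp]
  rfl

end Fermat.Agent.S55.GL.RecipLayer
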