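/-
S55 / GLO9c (fin): FINITE SUPPORT of Brauer classes. A class of `H²(G_L, ℚ̄ˣ)` (absolute level) is
locally trivial at all places over the primes outside a finite set.

* `exists_int_separable_map`: a polynomial over `ℤ` which is separable over `ℚ` stays separable
  modulo almost all primes (in the form: under every ring hom to a field not killing `d`);
* `exists_forall_isUnramifiedIn_localFieldAt`: a number field is locally unramified at all places
  over the primes outside a finite set (local form: `IsUnramifiedIn ℤ_[q] (localFieldAt q F σ)`);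
* `exists_forall_norm_embLoc_eq_one`: a nonzero algebraic number is a unit at all places over the
  primes outside a finite set;
* `finSupp_resAt` (helper14's `BrauerLocal` typing) and `finSupp_locG` (helper19's `RecipLayer`
  typing): finite support.
(helper5)
-/
import Mathlib
import Fermat.Agent.S55.GL.UnramLocalZero
import Fermat.Agent.S55.GL.RecipLayer
import Fermat.Agent.S55.LocalKrasner

set_option autoImplicit false
set_option linter.unusedSectionVars false
set_option linter.style.haveILetI false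

open CategoryTheory groupCohomology IntermediateField IsLocalRing Polynomial

namespace Fermat.Agent.S55.GL.FinSupport

open Fermat.Agent.S55.Level Fermat.Agent.S55.GaloisLevel Fermat.Agent.S55.GL.Places
  Fermat.Agent.S55.LevelTransport Fermat.Agent.S55.GL.BrauerLocal Fermat.Agent.S55.CFAbs
  Fermat.Agent.S55.Local.Unram Fermat.Agent.S55.LocalDict Fermat.Agent.S55.LocalInt
  Fermat.Agent.S55.LevelLayer Fermat.Agent.S55.GL.UnramLocalZero

local notation "Qbar" => AlgebraicClosure ℚ
local notation "Γ" => (AlgebraicClosure ℚ ≃ₐ[ℚ] AlgebraicClosure ℚ)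

local instance isGaloisQbar_FS : IsGalois ℚ Qbar := Fermat.Agent.S55.Level.isGalois_Qbar
local instance factPrime_FS (q : Nat.Primes) : Fact (q : ℕ).Prime := ⟨q.2⟩

/-! ### Separability modulo almost all primes -/

/-- A polynomial over `ℤ` which is separable over `ℚ` is separable over every field `k` such that
`ℤ → k` does not kill a certain nonzero integer `d`. -/
theorem exists_int_separable_map (g : ℤ[X]) (hsep : (g.map (Int.castRingHom ℚ)).Separable) :
    ∃ d : ℤ, d ≠ 0 ∧ ∀ {k : Type} [Field k] (φ : ℤ →+* k), φ d ≠ 0 → (g.map φ).Separable := by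
  obtain ⟨a, b, hab⟩ := hsep
  obtain ⟨da, hda, ha⟩ := IsLocalization.integerNormalization_spec (nonZeroDivisors ℤ) a
  obtain ⟨db, hdb, hb⟩ := IsLocalization.integerNormalization_spec (nonZeroDivisors ℤ) b
  set a₁ := IsLocalization.integerNormalization (nonZeroDivisors ℤ) a with ha₁
  set b₁ := IsLocalization.integerNormalization (nonZeroDivisors ℤ) b with hb₁
  have hda0 : da ≠ 0 := nonZeroDivisors.ne_zero hda
  have hdb0 : db ≠ 0 := nonZeroDivisors.ne_zero hdb
  have hP : C db * a₁ * g + C da * b₁ * derivative g = C (da * db) := by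
    apply Polynomial.map_injective (Int.castRingHom ℚ) Int.cast_injective
    have ha' : a₁.map (Int.castRingHom ℚ) = C (Int.castRingHom ℚ da) * a := by
      have := ha
      rw [Algebra.smul_def] at this
      exact this
    have hb' : b₁.map (Int.castRingHom ℚ) = C (Int.castRingHom ℚ db) * b := by
      have := hb
      rw [Algebra.smul_def] at this
      exact this
    rw [Polynomial.map_add, Polynomial.map_mul, Polynomial.map_mul, Polynomial.map_mul,
      Polynomial.map_mul, Polynomial.map_C, Polynomial.map_C, Polynomial.map_C, ha', hb',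
      ← Polynomial.derivative_map, map_mul, C_mul]
    have : C (Int.castRingHom ℚ db) * (C (Int.castRingHom ℚ da) * a) * map (Int.castRingHom ℚ) g +
        C (Int.castRingHom ℚ da) * (C (Int.castRingHom ℚ db) * b) *
          derivative (map (Int.castRingHom ℚ) g) =
        C (Int.castRingHom ℚ da) * C (Int.castRingHom ℚ db) * (a * map (Int.castRingHom ℚ) g +
          b * derivative (map (Int.castRingHom ℚ) g)) := by ring
    rw [this, hab, mul_one]
  refine ⟨da * db, mul_ne_zero hda0 hdb0, fun {k} _ φ hφ => ?_⟩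
  have hP' := congrArg (Polynomial.map φ) hP
  rw [Polynomial.map_add, Polynomial.map_mul, Polynomial.map_mul, Polynomial.map_mul,
      Polynomial.map_mul, Polynomial.map_C, Polynomial.map_C, Polynomial.map_C,
      ← Polynomial.derivative_map] at hP'
  refine ⟨C (φ (da * db))⁻¹ * (C (φ db) * a₁.map φ), C (φ (da * db))⁻¹ * (C (φ da) * b₁.map φ), ?_⟩
  have : C (φ (da * db))⁻¹ * (C (φ db) * a₁.map φ) * g.map φ +
      C (φ (da * db))⁻¹ * (C (φ da) * b₁.map φ) * derivative (g.map φ) =
      C (φ (da * db))⁻¹ * (C (φ db) * a₁.map φ * g.map φ +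
        C (φ da) * b₁.map φ * derivative (g.map φ)) := by ring
  rw [this, hP', ← C_mul, inv_mul_cancel₀ hφ, C_1]

/-! ### Integers prime to `q` are units of `ℤ_q` -/

section Padic

variable (q : ℕ) [Fact q.Prime]

/-- The norm of an integer prime to `q` in `Ω_q` is `1`. -/
theorem norm_intCast_eq_one {d : ℤ} (hd : ¬ (q : ℤ) ∣ d) : ‖(d : PadicAlgCl q)‖ = 1 := by
  have h : (d : PadicAlgCl q) = algebraMap ℚ_[q] (PadicAlgCl q) (d : ℚ_[q]) := by
    rw [map_intCast]
  rw [h, PadicAlgCl.norm_extends]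
  have h1 : ‖(d : ℚ_[q])‖ ≤ 1 := Padic.norm_int_le_one d
  rcases h1.lt_or_eq with h2 | h2
  · exact absurd (Padic.norm_intCast_lt_one_iff.1 h2) hd
  · exact h2

/-- An integer prime to `q` is not killed by `ℤ → ℤ_q → 𝔽_q`. -/
theorem residue_intCast_ne_zero {d : ℤ} (hd : ¬ (q : ℤ) ∣ d) :
    ((IsLocalRing.residue ℤ_[q]).comp (Int.castRingHom ℤ_[q])) d ≠ 0 := by
  rw [RingHom.comp_apply, Ne, IsLocalRing.residue_eq_zero_iff, eq_intCast]
  intro h
  have h1 : ‖(d : ℤ_[q])‖ < 1 := by
    have := (IsLocalRing.mem_maximalIdeal _).1 h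
    rwa [mem_nonunits_iff, PadicInt.isUnit_iff, ← ne_eq, (PadicInt.norm_le_one _).lt_iff_ne.symm]
      at this
  exact hd ((PadicInt.norm_int_lt_one_iff_dvd d).1 h1)

end Padic

/-! ### Number fields are locally unramified almost everywhere -/

section Unram

/-- For an algebraic integer `θ`, the local fields `ℚ_q(ι σ θ)` are unramified for all `q` not
dividing a certain nonzero integer. -/
theorem exists_forall_isUnramifiedIn_adjoin {θ : Qbar} (hθ : IsIntegral ℤ θ) :
    ∃ d : ℤ, d ≠ 0 ∧ ∀ (q : ℕ) [Fact q.Prime], ¬ (q : ℤ) ∣ d → ∀ σ : Γ,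
      IsUnramifiedIn ℤ_[q] ℚ_[q]⟮padicEmbedding q (σ θ)⟯ := by
  have hsep : ((minpoly ℤ θ).map (Int.castRingHom ℚ)).Separable := by
    have h1 : minpoly ℚ θ = (minpoly ℤ θ).map (algebraMap ℤ ℚ) :=
      minpoly.isIntegrallyClosed_eq_field_fractions' ℚ hθ
    have h2 : (minpoly ℚ θ).Separable :=
      (minpoly.irreducible (Algebra.IsIntegral.isIntegral θ)).separable
    rw [h1] at h2
    exact h2
  obtain ⟨d, hd0, hd⟩ := exists_int_separable_map (minpoly ℤ θ) hsep
  refine ⟨d, hd0, fun q _ hqd σ => ?_⟩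
  have hmon : ((minpoly ℤ θ).map (Int.castRingHom ℤ_[q])).Monic :=
    (minpoly.monic hθ).map _
  have hsep' : (((minpoly ℤ θ).map (Int.castRingHom ℤ_[q])).map
      (IsLocalRing.residue ℤ_[q])).Separable := by
    rw [Polynomial.map_map]
    exact hd _ (residue_intCast_ne_zero q hqd)
  refine isUnramifiedIn_adjoin_root_of_separable hmon hsep' ?_
  -- `ι (σ θ)` is a root
  rw [Polynomial.aeval_def, Polynomial.eval₂_map]
  have h0 : Polynomial.eval₂ (Int.castRingHom Qbar) θ (minpoly ℤ θ) = 0 := by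
    have := minpoly.aeval ℤ θ
    rwa [Polynomial.aeval_def, show algebraMap ℤ Qbar = Int.castRingHom Qbar from
      RingHom.ext_int _ _] at this
  have h1 := congrArg (fun x => padicEmbedding q (σ x)) h0
  simp only [map_zero] at h1
  rw [← h1]
  have h2 := Polynomial.hom_eval₂ (minpoly ℤ θ) (Int.castRingHom Qbar)
    (((padicEmbedding q : Qbar →+* PadicAlgCl q)).comp (σ : Qbar →+* Qbar)) θ
  rw [RingHom.comp_apply] at h2
  refine Eq.trans ?_ h2.symm
  congr 1
  exact RingHom.ext_int _ _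

/-- The set of primes dividing an integer. -/
def primesDividing (d : ℤ) : Finset Nat.Primes :=
  (d.natAbs.primeFactors.subtype (fun p => p.Prime) : Finset {p : ℕ // p.Prime})

theorem not_dvd_of_not_mem_primesDividing {d : ℤ} (hd : d ≠ 0) {q : Nat.Primes}
    (hq : q ∉ primesDividing d) : ¬ ((q : ℕ) : ℤ) ∣ d := by
  intro h
  apply hq
  have : (show {p : ℕ // p.Prime} from q) ∈
      (d.natAbs.primeFactors.subtype (fun p => p.Prime) : Finset {p : ℕ // p.Prime}) := by
    rw [Finset.mem_subtype, Nat.mem_primeFactors]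
    exact ⟨q.2, Int.natCast_dvd.1 h, Int.natAbs_ne_zero.2 hd⟩
  exact this

/-- The local field of `ℚ(β)` at `(q, σ)` is `ℚ_q(ι σ β)`. -/
theorem localFieldAt_adjoin_simple (q : ℕ) [Fact q.Prime] (β : Qbar) (σ : Γ) :
    localFieldAt q ℚ⟮β⟯ σ = ℚ_[q]⟮padicEmbedding q (σ β)⟯ := by
  rw [localFieldAt, IntermediateField.adjoin_map, Set.image_singleton]
  exact Fermat.Agent.S55.LocalDict.localField_adjoin_simple q (σ β)

/-- **Finite ramification, local form**: a number field is locally unramified at all places over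
the primes outside a finite set. -/
theorem exists_forall_isUnramifiedIn_localFieldAt (F : IntermediateField ℚ Qbar)
    [FiniteDimensional ℚ F] :
    ∃ T : Finset Nat.Primes, ∀ q : Nat.Primes, q ∉ T → ∀ σ : Γ,
      IsUnramifiedIn ℤ_[(q : ℕ)] (localFieldAt (q : ℕ) F σ) := by
  obtain ⟨β, rfl⟩ := Fermat.Agent.S55.LocalDict.exists_eq_adjoin_simple F
  have halg : IsAlgebraic ℤ β :=
    (IsFractionRing.isAlgebraic_iff ℤ ℚ Qbar).2 (Algebra.IsAlgebraic.isAlgebraic β)
  obtain ⟨n, hn, hθ⟩ := halg.exists_integral_multiple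
  obtain ⟨d, hd0, hd⟩ := exists_forall_isUnramifiedIn_adjoin hθ
  refine ⟨primesDividing d ∪ primesDividing n, fun q hq σ => ?_⟩
  rw [Finset.mem_union, not_or] at hq
  have hqd := not_dvd_of_not_mem_primesDividing hd0 hq.1
  have hqn := not_dvd_of_not_mem_primesDividing hn hq.2
  refine (hd (q : ℕ) hqd σ).of_le ?_
  rw [localFieldAt_adjoin_simple, IntermediateField.adjoin_simple_le_iff]
  have hn0 : ((n : ℤ) : PadicAlgCl (q : ℕ)) ≠ 0 := by
    intro h0
    have := norm_intCast_eq_one (q : ℕ) hqn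
    rw [h0, norm_zero] at this
    exact zero_ne_one this
  have h1 : padicEmbedding (q : ℕ) (σ β) =
      ((n : ℤ) : PadicAlgCl (q : ℕ))⁻¹ * padicEmbedding (q : ℕ) (σ (n • β)) := by
    rw [zsmul_eq_mul, map_mul, map_mul, map_intCast, map_intCast, ← mul_assoc,
      inv_mul_cancel₀ hn0, one_mul]
  rw [h1]
  exact mul_mem (inv_mem (intCast_mem _ n)) (IntermediateField.mem_adjoin_simple_self _ _)

end Unram

/-! ### Algebraic numbers are units almost everywhere -/

section Units

/-- An algebraic number with an integral multiple `n • x` has norm `≤ 1` at the places over the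
primes not dividing `n`. -/
theorem norm_embLoc_le_one_of_isIntegral_zsmul {x : Qbar} {n : ℤ} (hnx : IsIntegral ℤ (n • x))
    (q : ℕ) [Fact q.Prime] (hqn : ¬ (q : ℤ) ∣ n) (σ : Γ) : ‖embLoc q σ x‖ ≤ 1 := by
  have h1 : IsIntegral ℤ (embLoc q σ (n • x)) := map_isIntegral_int (embLoc q σ) hnx
  have h2 : IsIntegral ℤ_[q] (embLoc q σ (n • x)) := h1.tower_top
  have h3 := (isIntegral_padicInt_iff_norm_le_one q _).1 h2
  rwa [zsmul_eq_mul, map_mul, map_intCast, norm_mul, norm_intCast_eq_one q hqn, one_mul] at h3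

/-- **A nonzero algebraic number is a unit at all places over the primes outside a finite
set.** -/
theorem exists_forall_norm_embLoc_eq_one {x : Qbar} (hx : x ≠ 0) :
    ∃ T : Finset Nat.Primes, ∀ q : Nat.Primes, q ∉ T → ∀ σ : Γ, ‖embLoc (q : ℕ) σ x‖ = 1 := by
  have halg : ∀ y : Qbar, IsAlgebraic ℤ y := fun y =>
    (IsFractionRing.isAlgebraic_iff ℤ ℚ Qbar).2 (Algebra.IsAlgebraic.isAlgebraic y)
  obtain ⟨n, hn, hnx⟩ := (halg x).exists_integral_multiple
  obtain ⟨m, hm, hmx⟩ := (halg x⁻¹).exists_integral_multiple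
  refine ⟨primesDividing n ∪ primesDividing m, fun q hq σ => ?_⟩
  rw [Finset.mem_union, not_or] at hq
  have hqn := not_dvd_of_not_mem_primesDividing hn hq.1
  have hqm := not_dvd_of_not_mem_primesDividing hm hq.2
  have h1 := norm_embLoc_le_one_of_isIntegral_zsmul hnx (q : ℕ) hqn σ
  have h2 := norm_embLoc_le_one_of_isIntegral_zsmul hmx (q : ℕ) hqm σ
  rw [map_inv₀, norm_inv] at h2
  have hpos : 0 < ‖embLoc (q : ℕ) σ x‖ := by
    rw [norm_pos_iff]
    exact (_root_.map_ne_zero _).2 hx
  exact le_antisymm h1 ((inv_le_one₀ hpos).1 h2)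

/-- The same for finitely many nonzero algebraic numbers. -/
theorem exists_forall_forall_norm_embLoc_eq_one (s : Finset Qbar) (hs : ∀ x ∈ s, x ≠ 0) :
    ∃ T : Finset Nat.Primes, ∀ q : Nat.Primes, q ∉ T → ∀ σ : Γ, ∀ x ∈ s,
      ‖embLoc (q : ℕ) σ x‖ = 1 := by
  classical
  induction s using Finset.induction_on with
  | empty => exact ⟨∅, fun _ _ _ x hx => absurd hx (Finset.notMem_empty x)⟩
  | insert a s _ ih =>
    obtain ⟨T₁, hT₁⟩ := ih fun x hx => hs x (Finset.mem_insert_of_mem hx)
    obtain ⟨T₂, hT₂⟩ := exists_forall_norm_embLoc_eq_one (hs a (Finset.mem_insert_self a s))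
    refine ⟨T₁ ∪ T₂, fun q hq σ x hx => ?_⟩
    rw [Finset.mem_union, not_or] at hq
    rcases Finset.mem_insert.1 hx with rfl | hx
    · exact hT₂ q hq.2 σ
    · exact hT₁ q hq.1 σ x hx

end Units

/-! ### Finite support -/

section Main

variable (L : IntermediateField ℚ Qbar) [FiniteDimensional ℚ L]

/-- **(fin), `BrauerLocal` typing**: a class of `H²(G_L, ℚ̄ˣ)` (absolute level) is locally trivial
at all places of `L` over the primes outside a finite set. -/
theorem finSupp_resAt
    (y : levelCohomology ((krullLevel ℚ Qbar).restrict L.fixingSubgroup)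
      (resL L (unitsRep ℚ Qbar)) 2) :
    ∃ T : Finset Nat.Primes, ∀ q : Nat.Primes, q ∉ T → ∀ σ : Γ,
      (resAt (q : ℕ) L σ (𝟙 (unitsRep ℚ Qbar)) (krullLevel ℚ Qbar)
        (fun _ hU => isKrullOpen_of_mem_krullLevel hU) 2).hom y = 0 := by
  classical
  obtain ⟨U₀, hU₀, h⟩ := exists_levelInf_eq ((krullLevel ℚ Qbar).restrict L.fixingSubgroup)
    (resL L (unitsRep ℚ Qbar)) y
  haveI : U₀.Normal := ((krullLevel ℚ Qbar).restrict L.fixingSubgroup).normal U₀ hU₀
  haveI : U₀.FiniteIndex := ((krullLevel ℚ Qbar).restrict L.fixingSubgroup).finiteIndex U₀ hU₀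
  obtain ⟨y', rfl⟩ := h U₀ hU₀ le_rfl
  obtain ⟨c, rfl⟩ := Fermat.Agent.S55.GC.CyclicH2.H2π_surjective
    ((resL L (unitsRep ℚ Qbar)).quotientToInvariants U₀) y'
  obtain ⟨U, hU, hUeq⟩ := id hU₀
  obtain ⟨F, hFfin, hFU⟩ := isKrullOpen_of_mem_krullLevel hU
  haveI := hFfin
  obtain ⟨T₁, hT₁⟩ := exists_forall_isUnramifiedIn_localFieldAt F
  haveI : Finite (↥L.fixingSubgroup ⧸ U₀) := Subgroup.finite_quotient_of_finiteIndex
  have hfin : (Set.range fun gg : (↥L.fixingSubgroup ⧸ U₀) × (↥L.fixingSubgroup ⧸ U₀) =>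
      valA (𝟙 (unitsRep ℚ Qbar))
        ((c : (↥L.fixingSubgroup ⧸ U₀) × (↥L.fixingSubgroup ⧸ U₀) → _) gg).1).Finite :=
    Set.finite_range _
  obtain ⟨T₂, hT₂⟩ := exists_forall_forall_norm_embLoc_eq_one hfin.toFinset (by
    intro x hx
    rw [Set.Finite.mem_toFinset] at hx
    obtain ⟨gg, rfl⟩ := hx
    exact Units.ne_zero _)
  refine ⟨T₁ ∪ T₂, fun q hq σ => ?_⟩
  rw [Finset.mem_union, not_or] at hq
  obtain ⟨E, hE, hEU⟩ := exists_isUnramifiedIn_of_localFieldAt (q : ℕ) L σ F hFU (hT₁ q hq.1 σ)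
  rw [← hUeq] at hEU
  exact resAt_levelInf_eq_zero_of_unit_valued (q : ℕ) L σ (𝟙 (unitsRep ℚ Qbar))
    (krullLevel ℚ Qbar) (fun _ hU => isKrullOpen_of_mem_krullLevel hU) hU₀ c
    (fun g g' => hT₂ q hq.2 σ _ ((Set.Finite.mem_toFinset hfin).2 ⟨(g, g'), rfl⟩)) hE hEU

/-- **(fin), `RecipLayer` typing** (helper19's `FinSuppG2`): a class of `H²(Gal(ℚ̄/L), ℚ̄ˣ)` is
locally trivial at all places of `L` over the primes outside a finite set. -/
theorem finSupp_locG
    (y : levelCohomology (krullLevel ↥L Qbar) (unitsRep ↥L Qbar) 2) :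
    ∃ T : Finset Nat.Primes, ∀ q : Nat.Primes, q ∉ T → ∀ τ : Γ,
      (Fermat.Agent.S55.GL.RecipLayer.locG (q : ℕ) L τ 2).hom y = 0 := by
  obtain ⟨T, hT⟩ := finSupp_resAt L
    ((Fermat.Agent.S55.GaloisLevel.restrictUnitsIso (K := ℚ) (Ω := Qbar)
      (H := L.fixingSubgroup) (E := L) rfl 2).inv.hom y)
  refine ⟨T, fun q hq τ => ?_⟩
  have h := hT q hq τ
  rw [Fermat.Agent.S55.GL.RecipLayer.resAt_eq_locG] at h
  have h2 : (Fermat.Agent.S55.GaloisLevel.restrictUnitsIso (K := ℚ) (Ω := Qbar)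
      (H := L.fixingSubgroup) (E := L) rfl 2).hom.hom
      ((Fermat.Agent.S55.GaloisLevel.restrictUnitsIso (K := ℚ) (Ω := Qbar)
        (H := L.fixingSubgroup) (E := L) rfl 2).inv.hom y) = y :=
    congrArg (fun ψ => ψ.hom y) (Fermat.Agent.S55.GaloisLevel.restrictUnitsIso (K := ℚ)
      (Ω := Qbar) (H := L.fixingSubgroup) (E := L) rfl 2).inv_hom_id
  rwa [h2] at h

end Main

end Fermat.Agent.S55.GL.FinSupport
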