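/-
S55 GLO9c (R): the three statements exchanged between the owners of reciprocity, the Hasse
principle and finite support, in the `Gal(ℚ̄/↥L)`-model of `RecipLayer` (`locG`).

* `HasseG2 p`  : Hasse principle for `p`-primary classes over number fields containing `ζ_p`;
* `FinSuppG2`  : a class of `H²(Gal(ℚ̄/L), ℚ̄ˣ)` is locally trivial at almost all rational primes;
* `RecipG2 p L F` : the reciprocity law for the family of local formations `F`.
-/
import Fermat.Agent.S55.GL.RecipLayer
import Fermat.Agent.S55.GL.BrauerInst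
import Fermat.Agent.S55.CF.PElem

set_option autoImplicit false

open CategoryTheory IntermediateField

namespace Fermat.Agent.S55.GL.RecipDefs

open Fermat.Agent.S55.Level Fermat.Agent.S55.GaloisLevel Fermat.Agent.S55.CFAbs
  Fermat.Agent.S55.GL.Places Fermat.Agent.S55.GL.BrauerLocal Fermat.Agent.S55.GL.BrauerInst
  Fermat.Agent.S55.GL.RecipLayer

local notation "Qbar" => AlgebraicClosure ℚ
local notation "Γ" => (AlgebraicClosure ℚ ≃ₐ[ℚ] AlgebraicClosure ℚ)

local instance isGaloisQbar_RD : IsGalois ℚ Qbar := Fermat.Agent.S55.Level.isGalois_Qbar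
local instance factPrime_RD (q : Nat.Primes) : Fact (q : ℕ).Prime := ⟨q.2⟩

/-- **(HS)** in the `Gal(ℚ̄/↥E')`-model: over a number field `E' ∋ ζ_p`, a `p`-primary class of
`H²(Gal(ℚ̄/E'), ℚ̄ˣ)` with trivial localisation at every place `(q, τ)` is trivial. -/
def HasseG2 (p : ℕ) : Prop :=
  ∀ (E' : IntermediateField ℚ Qbar) [FiniteDimensional ℚ E'],
    (∃ ζ : Qbar, ζ ∈ E' ∧ IsPrimitiveRoot ζ p) →
    ∀ z : levelCohomology (krullLevel ↥E' Qbar) (unitsRep ↥E' Qbar) 2,
      Fermat.Agent.S55.CF.IsPPrim p z →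
      (∀ (q : Nat.Primes) (τ : Γ), (locG (q : ℕ) E' τ 2).hom z = 0) → z = 0

/-- **(fin)** in the `Gal(ℚ̄/↥L)`-model: every class is locally trivial at all places over all
but finitely many rational primes. -/
def FinSuppG2 : Prop :=
  ∀ (L : IntermediateField ℚ Qbar) [FiniteDimensional ℚ L]
    (y : levelCohomology (krullLevel ↥L Qbar) (unitsRep ↥L Qbar) 2),
    ∃ T : Finset Nat.Primes, ∀ q : Nat.Primes, q ∉ T → ∀ τ : Γ, (locG (q : ℕ) L τ 2).hom y = 0

/-- **(R)** in the `Gal(ℚ̄/↥L)`-model, for a family `F` of local class formations at the finite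
places of `L` (at their chosen representatives). -/
def RecipG2 (p : ℕ) (L : IntermediateField ℚ Qbar) [FiniteDimensional ℚ L]
    (F : ∀ v : FinPlace L, Formation (levelv L v)
      (unitsRep (Kv L v) (PadicAlgCl (v.prime : ℕ)))) : Prop :=
  ∀ y : levelCohomology (krullLevel ↥L Qbar) (unitsRep ↥L Qbar) 2,
    Fermat.Agent.S55.CF.IsPPrim p y →
    ∃ T : Finset (FinPlace L),
      (∀ v : FinPlace L, v ∉ T → (locG (v.prime : ℕ) L v.rep 2).hom y = 0) ∧
      ∑ v ∈ T, (F v).inv ((locG (v.prime : ℕ) L v.rep 2).hom y) = 0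

end Fermat.Agent.S55.GL.RecipDefs
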