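/-
S55 (HS), link (3a) of the critical chain (helper22): the Hasse principle for `p`-primary Brauer
classes in the `Gal(ℚ̄/↥E')`-model, i.e. helper19's shared statement `RecipDefs.HasseG2 p`,
UNCONDITIONALLY for `p` odd.

* `secondIneqAll` : helper7's hypothesis `HasseLevel.SecondIneqAll p` (second inequality for all
  finite Galois `E/ℚ ∋ ζ_p`), from helper3's unconditional `CFUncond.exists_secondIneqHyp`
  (`G₀ := zetaStab ζ`);
* `hasse_absolute` : helper7's absolute level form of (HS), now unconditional;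
* `hasseG2` : `RecipDefs.HasseG2 p` VERBATIM (transport along helper27's `restrictUnitsIso`,
  `RecipLayer.resAt_eq_locG`).
-/
import Mathlib
import Fermat.Agent.S55.GL.HasseLevel
import Fermat.Agent.S55.GL.CFUncond
import Fermat.Agent.S55.GL.RecipDefs

set_option autoImplicit false
set_option linter.unusedSectionVars false

open CategoryTheory IntermediateField

namespace Fermat.Agent.S55.GL.HasseAbs

open Fermat.Agent.S55.Level Fermat.Agent.S55.GaloisLevel Fermat.Agent.S55.CFAbs
  Fermat.Agent.S55.GL.Places Fermat.Agent.S55.GL.BrauerLocal Fermat.Agent.S55.GL.BrauerInst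
  Fermat.Agent.S55.GL.RecipLayer Fermat.Agent.S55.GL.RecipDefs Fermat.Agent.S55.GL.HasseLevel
  Fermat.Agent.S55.GL.CFHasse Fermat.Agent.S55.GL.IdelePlaces

local notation "Qbar" => AlgebraicClosure ℚ
local notation "Γ" => (AlgebraicClosure ℚ ≃ₐ[ℚ] AlgebraicClosure ℚ)

local instance isGaloisQbar_HA : IsGalois ℚ Qbar := Fermat.Agent.S55.Level.isGalois_Qbar
local instance factPrime_HA (q : Nat.Primes) : Fact (q : ℕ).Prime := ⟨q.2⟩

variable (p : ℕ) [hp : Fact p.Prime]

/-- `ζ` is fixed by its own stabiliser. -/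
theorem coe_mem_fixedLift_zetaStab (E : IntermediateField ℚ Qbar) (ζ : E) :
    ((ζ : E) : Qbar) ∈ fixedLift E (zetaStab ζ) :=
  ⟨ζ.2, fun _ hs => hs⟩

/-- **The second inequality for all finite Galois `E/ℚ ∋ ζ_p`** (helper7's hypothesis of the level
form of (HS)), unconditionally for `p` odd. -/
theorem secondIneqAll (hp2 : p ≠ 2) : SecondIneqAll p := by
  intro E _ _ _ ζ hζ
  exact Fermat.Agent.S55.GL.CFUncond.exists_secondIneqHyp E hp2 (zetaStab ζ) hζ
    (coe_mem_fixedLift_zetaStab E ζ)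

/-- **(HS) over the absolute Galois group `G_K`**, subgroup model, unconditional. -/
theorem hasse_absolute (hp2 : p ≠ 2)
    (K : IntermediateField ℚ Qbar) [FiniteDimensional ℚ K]
    (y : levelCohomology ((krullLevel ℚ Qbar).restrict K.fixingSubgroup)
      (resL K (GaloisLevel.unitsRep ℚ Qbar)) 2)
    (hy : ∃ M : ℕ, p ^ M • y = 0)
    (hloc : ∀ (q : Nat.Primes) (σ : Γ),
      (resAt (q : ℕ) K σ (𝟙 (GaloisLevel.unitsRep ℚ Qbar)) (krullLevel ℚ Qbar)
        (fun _ h => isKrullOpen_of_mem_krullLevel h) 2).hom y = 0) :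
    y = 0 :=
  HasseLevel.hasse_absolute p hp2 (secondIneqAll p hp2) K y hy hloc

/-- **(HS) in the `Gal(ℚ̄/↥E')`-model** = helper19's `RecipDefs.HasseG2 p`, VERBATIM,
unconditionally for `p` odd.  (The hypothesis `ζ_p ∈ E'` of `HasseG2` is not needed.) -/
theorem hasseG2 (hp2 : p ≠ 2) : HasseG2 p := by
  intro E' _ _ z hz hloc
  set e := restrictUnitsIso (K := ℚ) (Ω := Qbar) (H := E'.fixingSubgroup) (E := E') rfl 2
    with he
  have hez : e.hom.hom (e.inv.hom z) = z := congrArg (fun ψ => ψ.hom z) e.inv_hom_id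
  have h0 : e.inv.hom z = 0 := by
    refine hasse_absolute p hp2 E' (e.inv.hom z) ?_ ?_
    · obtain ⟨M, hM⟩ := hz
      exact ⟨M, by rw [← map_nsmul, hM, map_zero]⟩
    · intro q σ
      rw [resAt_eq_locG (q : ℕ) E' σ 2 (e.inv.hom z)]
      rw [← he, hez]
      exact hloc q σ
  rw [← hez, h0, map_zero]

end Fermat.Agent.S55.GL.HasseAbs
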