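/-
S55 block GL3 (cyclotomic arithmetic), part A: Frobenius elements, inertia and the trivial
ideal-theoretic reciprocity law in a cyclotomic extension `Ω = F(ζ_m)` of an arbitrary number
field `F`.  Mathlib + `S14/TwoPrime.lean` (helper13) only.

* `autToPow_of_isArithFrobAt` : a Frobenius at a prime `𝔓 ∤ m` of `Ω` is `ζ ↦ ζ ^ N(𝔓 ∩ F)`.
* `inertia_eq_bot` : primes not dividing `m` are unramified in `F(ζ_m)/F` (trivial inertia).
* `frobProd_eq_one` : the product of the Frobenius elements over the prime factorisation of a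
  principal ideal `(γ)` with `γ ≡ 1 mod m` (and positive norms) is trivial.
-/
import Mathlib
import Fermat.Agent.S14.TwoPrime

set_option autoImplicit false
set_option linter.unusedSectionVars false

namespace Fermat.Agent.S55.GL.Cyclo

open NumberField Fermat.Agent.S14.TwoPrime

section Ring

/-- A root of unity of order dividing `m` which is `≡ 1` modulo a prime ideal not containing `m`
is `1`. -/
theorem eq_one_of_sub_one_mem {S : Type*} [CommRing S] [IsDomain S] {Q : Ideal S} {ξ : S} {m : ℕ}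
    (hξ : ξ ^ m = 1) (hQ : ξ - 1 ∈ Q) (hm : (m : S) ∉ Q) : ξ = 1 := by
  by_contra hne
  have hsum : ∑ j ∈ Finset.range m, ξ ^ j = 0 := by
    have h := mul_geom_sum ξ m
    rw [hξ, sub_self] at h
    exact (mul_eq_zero.1 h).resolve_left (sub_ne_zero.2 hne)
  apply hm
  have h1 : (Ideal.Quotient.mk Q) ξ = 1 := by
    rw [← sub_eq_zero, ← map_one (Ideal.Quotient.mk Q), ← map_sub]
    exact Ideal.Quotient.eq_zero_iff_mem.2 hQ
  have h2 := congrArg (Ideal.Quotient.mk Q) hsum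
  rw [map_sum, map_zero] at h2
  simp only [map_pow, h1, one_pow, Finset.sum_const, Finset.card_range, nsmul_eq_mul, mul_one] at h2
  rw [← map_natCast (Ideal.Quotient.mk Q)] at h2
  exact Ideal.Quotient.eq_zero_iff_mem.1 h2

end Ring

variable {F Ω : Type*} [Field F] [NumberField F] [Field Ω] [NumberField Ω] [Algebra F Ω]
  [IsGalois F Ω] {m : ℕ} [NeZero m] {ζ : Ω} (hζ : IsPrimitiveRoot ζ m)

include hζ in
/-- The exponent of an automorphism on `ζ` determines its image under `autToPow`. -/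
theorem autToPow_eq_of_apply {σ : Ω ≃ₐ[F] Ω} {k : ℕ} (h : σ ζ = ζ ^ k) :
    ((hζ.autToPow F σ : (ZMod m)ˣ) : ZMod m) = (k : ZMod m) := by
  have h1 := hζ.autToPow_spec F σ
  rw [h] at h1
  have hζ0 : ζ ≠ 0 := hζ.ne_zero (NeZero.ne m)
  have h1' : (Units.mk0 ζ hζ0) ^ ((hζ.autToPow F σ : (ZMod m)ˣ) : ZMod m).val
      = (Units.mk0 ζ hζ0) ^ k := by
    apply Units.ext
    simpa using h1
  rw [pow_eq_pow_iff_modEq, ← orderOf_units, Units.val_mk0, ← hζ.eq_orderOf] at h1'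
  have h2 := (ZMod.natCast_eq_natCast_iff _ _ _).2 h1'
  rwa [ZMod.natCast_zmod_val] at h2

include hζ in
/-- **Frobenius in a cyclotomic extension**: a Frobenius element at a prime `𝔓` of `Ω` not
containing `m` corresponds to `N(𝔓 ∩ 𝓞 F) mod m` under `autToPow`. -/
theorem autToPow_of_isArithFrobAt {σ : Ω ≃ₐ[F] Ω} {𝔓 : Ideal (𝓞 Ω)}
    (h : IsArithFrobAt (𝓞 F) σ 𝔓) (hm𝔓 : (m : 𝓞 Ω) ∉ 𝔓) :
    ((hζ.autToPow F σ : (ZMod m)ˣ) : ZMod m) = (Ideal.absNorm (𝔓.under (𝓞 F)) : ZMod m) :=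
  autToPow_eq_of_apply hζ
    (frob_apply_of_pow_eq_one h (Nat.pos_of_ne_zero (NeZero.ne m)) hζ.pow_eq_one hm𝔓)

include hζ in
/-- An automorphism of `Ω = F(ζ)` fixing `ζ` is trivial. -/
theorem eq_one_of_apply_eq [IsCyclotomicExtension {m} F Ω] {σ : Ω ≃ₐ[F] Ω} (h : σ ζ = ζ) :
    σ = 1 := by
  apply hζ.autToPow_injective F
  apply Units.ext
  rw [autToPow_eq_of_apply hζ (k := 1) (by rw [pow_one, h]), map_one, Units.val_one, Nat.cast_one]

include hζ in
/-- **Primes not dividing `m` are unramified in `F(ζ_m)/F`**: the inertia group is trivial. -/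
theorem inertia_eq_bot [IsCyclotomicExtension {m} F Ω] {𝔓 : Ideal (𝓞 Ω)} [𝔓.IsPrime]
    (hm𝔓 : (m : 𝓞 Ω) ∉ 𝔓) : 𝔓.inertia (Ω ≃ₐ[F] Ω) = ⊥ := by
  rw [eq_bot_iff]
  intro σ hσ
  rw [Subgroup.mem_bot]
  have hm0 : 0 < m := Nat.pos_of_ne_zero (NeZero.ne m)
  have hint : IsIntegral ℤ ζ := IsIntegral.of_pow hm0 (by rw [hζ.pow_eq_one]; exact isIntegral_one)
  let z : 𝓞 Ω := ⟨ζ, hint⟩
  have hz : z ^ m = 1 := by
    apply RingOfIntegers.ext
    show (algebraMap (𝓞 Ω) Ω (z ^ m)) = algebraMap (𝓞 Ω) Ω 1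
    rw [map_pow, map_one]
    exact hζ.pow_eq_one
  have hmem : σ • z - z ∈ 𝔓 := hσ z
  -- ξ := (σ z) * z^(m-1) is an m-th root of unity congruent to 1
  have hξm : (σ • z * z ^ (m - 1)) ^ m = 1 := by
    rw [mul_pow, ← smul_pow', hz, smul_one, one_mul, ← pow_mul, mul_comm, pow_mul, hz, one_pow]
  have hzz : z * z ^ (m - 1) = 1 := by
    rw [← pow_succ', Nat.sub_add_cancel hm0, hz]
  have hξ1 : σ • z * z ^ (m - 1) - 1 ∈ 𝔓 := by
    have : σ • z * z ^ (m - 1) - 1 = (σ • z - z) * z ^ (m - 1) := by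
      rw [sub_mul, hzz]
    rw [this]
    exact 𝔓.mul_mem_right _ hmem
  have h1 := eq_one_of_sub_one_mem hξm hξ1 hm𝔓
  have h2 : σ • z = z := by
    have := congrArg (· * z) h1
    simp only [one_mul] at this
    rwa [mul_assoc, ← pow_succ, Nat.sub_add_cancel hm0, hz, mul_one] at this
  apply eq_one_of_apply_eq hζ
  have h3 := congrArg (fun t : 𝓞 Ω => (t : Ω)) h2
  exact h3

include hζ in
/-- **Trivial cyclotomic reciprocity.**  In `Ω = F(ζ_m)`, with `F` having positive norms (e.g.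
totally complex), the product of the Frobenius elements over the prime factorisation of a principal
ideal `(γ)`, `γ ≡ 1 mod m`, is trivial. -/
theorem frobProd_eq_one [IsCyclotomicExtension {m} F Ω]
    (hpos : ∀ x : 𝓞 F, x ≠ 0 → 0 < Algebra.norm ℤ x) {γ : 𝓞 F} (hγ : γ ≠ 0)
    (hγ1 : γ - 1 ∈ Ideal.span {(m : 𝓞 F)}) {l : List (Ideal (𝓞 Ω) × (Ω ≃ₐ[F] Ω))}
    (hl : IsFrobList m l) (hprod : underProd l = Ideal.span {γ}) : frobProd l = 1 := by
  have hm0 : 0 < m := Nat.pos_of_ne_zero (NeZero.ne m)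
  apply eq_one_of_apply_eq hζ
  rw [frobProd_apply_of_pow_eq_one hm0 hl hζ.pow_eq_one, hprod, Ideal.absNorm_span_singleton]
  conv_rhs => rw [← pow_one ζ]
  apply pow_eq_pow_of_dvd_sub hm0 hζ.pow_eq_one
  have h1 : ((m : ℕ) : ℤ) ∣ Algebra.norm ℤ γ - Algebra.norm ℤ (1 : 𝓞 F) := by
    apply dvd_norm_sub_norm
    simpa using hγ1
  rw [map_one] at h1
  rw [Int.natAbs_of_nonneg (hpos γ hγ).le]
  simpa using h1

end Fermat.Agent.S55.GL.Cyclo
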