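/-
S55 block GL3 (cyclotomic arithmetic), part B: cyclic subextensions of `Ω = K(ζ_m)` cut out by a
character of `(ZMod m)ˣ`, their Frobenius elements, unramifiedness away from `m`, and the trivial
reciprocity law; combined with `CrossChar.exists_char` this gives, for a number field `K`, an odd
prime `p` and finitely many prescribed residue cardinalities, a CYCLIC extension `E/K` of
`p`-power degree inside a cyclotomic extension `K(ζ_m)`, unramified away from `m`, in which every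
prime with one of the prescribed norms has Frobenius of order divisible by `p ^ N`
(`exists_cyclic_cross`).  This is the "crossing" extension used to prove the reciprocity law
`Σ_v inv_v = 0` without explicit local symbols.

Imports: Mathlib, `S14/Defs` (Galois action on rings of integers), `S14/ArtinMap` (`res`),
`S14/TwoPrime` (Frobenius lists), `S55/CrossChar`, `S55/GL/CycloFrob`.
-/
import Mathlib
import Fermat.Agent.S14.Defs
import Fermat.Agent.S14.ArtinMap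
import Fermat.Agent.S55.CrossChar
import Fermat.Agent.S55.GL.CycloFrob

set_option autoImplicit false
set_option linter.unusedSectionVars false

namespace Fermat.Agent.S55.GL.Cyclo

open NumberField Fermat.Agent.S14 Fermat.Agent.S14.ArtinMap Fermat.Agent.S14.TwoPrime
open scoped Pointwise

section Tower

variable {K E Ω : Type*} [Field K] [NumberField K] [Field E] [NumberField E] [Field Ω]
  [NumberField Ω] [Algebra K E] [Algebra E Ω] [Algebra K Ω] [IsScalarTower K E Ω]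
  [IsGalois K E] [IsGalois K Ω]

/-- Restriction `Gal(Ω/K) → Gal(E/K)`. -/
noncomputable abbrev resE : Gal(Ω/K) →* Gal(E/K) := res K E K Ω

theorem resE_surjective : Function.Surjective (resE (K := K) (E := E) (Ω := Ω)) := by
  intro τ
  obtain ⟨σ, hσ⟩ := AlgEquiv.restrictNormalHom_surjective (F := K) (K₁ := E) Ω τ
  refine ⟨σ, ?_⟩
  rw [← hσ]
  apply AlgEquiv.ext
  intro x
  apply (algebraMap E Ω).injective
  rw [res_commutes]
  exact (AlgEquiv.restrictNormal_commutes σ E x).symm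

theorem resE_eq_one_iff (σ : Gal(Ω/K)) :
    resE (E := E) σ = 1 ↔ ∀ x : E, σ (algebraMap E Ω x) = algebraMap E Ω x := by
  constructor
  · intro h x
    rw [← res_commutes K E K Ω σ x]
    show algebraMap E Ω (resE (E := E) σ x) = _
    rw [h, AlgEquiv.one_apply]
  · intro h
    apply AlgEquiv.ext
    intro x
    apply (algebraMap E Ω).injective
    rw [res_commutes, h, AlgEquiv.one_apply]

/-- A Frobenius at `𝔓` restricts to a Frobenius at `𝔓 ∩ 𝓞 E`. -/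
theorem isArithFrobAt_resE {σ : Gal(Ω/K)} {𝔓 : Ideal (𝓞 Ω)} (h : IsArithFrobAt (𝓞 K) σ 𝔓) :
    IsArithFrobAt (𝓞 K) (resE (E := E) σ) (𝔓.under (𝓞 E)) := by
  intro x
  have h1 := h (algebraMap (𝓞 E) (𝓞 Ω) x)
  rw [Ideal.under_def, Ideal.mem_comap, map_sub, map_pow]
  have h2 : (𝔓.under (𝓞 E)).under (𝓞 K) = 𝔓.under (𝓞 K) := Ideal.under_under _
  simp only [Ideal.under_def] at h2
  simp only [MulSemiringAction.toAlgHom_apply] at h1 ⊢
  rw [res_smul_int]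
  convert h1 using 4
  rw [Ideal.under_def, Ideal.under_def, h2]

/-- Unramifiedness descends to a subextension: if the inertia group of `𝔓` in `Gal(Ω/K)` is
trivial, so is the inertia group of `𝔓 ∩ 𝓞 E` in `Gal(E/K)`. -/
theorem inertia_under_eq_bot {𝔓 : Ideal (𝓞 Ω)} [h𝔓 : 𝔓.IsPrime] (h0 : 𝔓 ≠ ⊥)
    (h : 𝔓.inertia Gal(Ω/K) = ⊥) : (𝔓.under (𝓞 E)).inertia Gal(E/K) = ⊥ := by
  have : IsGalois E Ω := IsGalois.tower_top_of_isGalois K E Ω
  set Q : Ideal (𝓞 E) := 𝔓.under (𝓞 E) with hQ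
  set 𝔭 : Ideal (𝓞 K) := 𝔓.under (𝓞 K) with h𝔭
  have hQp : Q.IsPrime := Ideal.IsPrime.under (𝓞 E) 𝔓
  have h𝔭p : 𝔭.IsPrime := Ideal.IsPrime.under (𝓞 K) 𝔓
  have hlo1 : 𝔓.LiesOver Q := ⟨rfl⟩
  have hlo2 : 𝔓.LiesOver 𝔭 := ⟨rfl⟩
  have hlo3 : Q.LiesOver 𝔭 := ⟨by rw [hQ, Ideal.under_under]⟩
  have h𝔭0 : 𝔭 ≠ ⊥ := Ideal.under_ne_bot (𝓞 K) h0
  have : 𝔭.IsMaximal := Ring.DimensionLEOne.maximalOfPrime h𝔭0 h𝔭p
  have : Finite (𝓞 K ⧸ 𝔭) := Ideal.finiteQuotientOfFreeOfNeBot 𝔭 h𝔭0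
  have e1 := Ideal.card_inertia_eq_ramificationIdxIn (G := Gal(E/K)) 𝔭 Q
  have e2 := Ideal.card_inertia_eq_ramificationIdxIn (G := Gal(Ω/K)) 𝔭 𝔓
  have e3 := Ideal.ramificationIdxIn_mul_ramificationIdxIn (p := 𝔭) Q Gal(E/K) (𝓞 Ω) Gal(Ω/K)
    Gal(Ω/E)
  rw [h, Subgroup.card_bot] at e2
  rw [← e2] at e3
  have e4 : 𝔭.ramificationIdxIn (𝓞 E) = 1 := Nat.eq_one_of_mul_eq_one_right e3
  rw [e4] at e1
  exact (Subgroup.card_eq_one).1 e1

section Char

variable {χ : Gal(Ω/K) →* ℂˣ} (hχ : ∀ σ, χ σ = 1 ↔ resE (E := E) σ = 1)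

include hχ in
theorem orderOf_resE_eq (σ : Gal(Ω/K)) : orderOf (resE (E := E) σ) = orderOf (χ σ) := by
  rw [orderOf_eq_orderOf_iff]
  intro n
  rw [← map_pow, ← map_pow, hχ]

include hχ in
theorem isCyclic_of_char : IsCyclic Gal(E/K) := by
  have hker : (resE (K := K) (E := E) (Ω := Ω)).ker ≤ χ.ker := by
    intro σ hσ
    rw [MonoidHom.mem_ker] at hσ ⊢
    exact (hχ σ).2 hσ
  let χE : Gal(E/K) →* ℂˣ :=
    (resE (K := K) (E := E) (Ω := Ω)).liftOfSurjective resE_surjective ⟨χ, hker⟩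
  have hχE : ∀ σ, χE (resE σ) = χ σ := fun σ =>
    MonoidHom.liftOfRightInverse_comp_apply _ _ _ ⟨χ, hker⟩ σ
  have hinj : Function.Injective χE := by
    rw [injective_iff_map_eq_one]
    intro τ hτ
    obtain ⟨σ, rfl⟩ := resE_surjective (K := K) (E := E) (Ω := Ω) τ
    rw [hχE] at hτ
    exact (hχ σ).1 hτ
  exact isCyclic_of_injective_ringHom ((Units.coeHom ℂ).comp χE)
    (Units.val_injective.comp hinj)

include hχ in
theorem card_dvd_of_char {p M : ℕ} (hM : ∀ σ, χ σ ^ p ^ M = 1) : Nat.card Gal(E/K) ∣ p ^ M := by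
  have := isCyclic_of_char hχ
  rw [← IsCyclic.exponent_eq_card]
  apply Monoid.exponent_dvd_of_forall_pow_eq_one
  intro τ
  obtain ⟨σ, rfl⟩ := resE_surjective (K := K) (E := E) (Ω := Ω) τ
  rw [← map_pow, ← hχ, map_pow, hM]

end Char

end Tower

section Cyclotomic

variable (K : Type*) {Ω : Type*} [Field K] [NumberField K] [Field Ω] [NumberField Ω] [Algebra K Ω]
  [IsGalois K Ω] {m : ℕ} [NeZero m] [IsCyclotomicExtension {m} K Ω] {ζ : Ω}
  (hζ : IsPrimitiveRoot ζ m) (χ₀ : (ZMod m)ˣ →* ℂˣ)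

include hζ in
variable {K} in
theorem gal_mul_comm (σ τ : Gal(Ω/K)) : σ * τ = τ * σ := by
  apply hζ.autToPow_injective K
  rw [map_mul, map_mul, mul_comm]

/-- The character of `Gal(K(ζ_m)/K)` induced by a character of `(ZMod m)ˣ`. -/
noncomputable def galChar : Gal(Ω/K) →* ℂˣ := χ₀.comp (hζ.autToPow K)

/-- The subextension of `K(ζ_m)/K` cut out by the character `χ₀`. -/
noncomputable def crossField : IntermediateField K Ω :=
  IntermediateField.fixedField (galChar K hζ χ₀).ker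

instance crossField_isGalois : IsGalois K (crossField K hζ χ₀) := by
  have : (galChar K hζ χ₀).ker.Normal :=
    ⟨fun n hn g => by rwa [gal_mul_comm hζ g n, mul_inv_cancel_right]⟩
  exact IsGalois.of_fixedField_normal_subgroup (galChar K hζ χ₀).ker

theorem galChar_eq_one_iff (σ : Gal(Ω/K)) :
    galChar K hζ χ₀ σ = 1 ↔ resE (E := crossField K hζ χ₀) σ = 1 := by
  rw [resE_eq_one_iff, ← MonoidHom.mem_ker]
  conv_lhs => rw [← IntermediateField.fixingSubgroup_fixedField (galChar K hζ χ₀).ker]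
  rw [IntermediateField.mem_fixingSubgroup_iff]
  constructor
  · intro h x
    exact h _ x.2
  · intro h x hx
    exact h ⟨x, hx⟩

theorem crossField_isCyclic : IsCyclic Gal(crossField K hζ χ₀/K) :=
  isCyclic_of_char (galChar_eq_one_iff K hζ χ₀)

theorem crossField_card_dvd {p M : ℕ} (hM : χ₀ ^ p ^ M = 1) :
    Nat.card Gal(crossField K hζ χ₀/K) ∣ p ^ M := by
  apply card_dvd_of_char (galChar_eq_one_iff K hζ χ₀)
  intro σ
  rw [galChar, MonoidHom.comp_apply, ← MonoidHom.pow_apply, hM, MonoidHom.one_apply]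

variable {K} in
/-- Every prime of `𝓞 E` is below a prime of `𝓞 Ω`; if it does not contain `m` neither does the
prime above. -/
theorem exists_over (E : IntermediateField K Ω) (Q : Ideal (𝓞 E)) [Q.IsPrime] (hQ0 : Q ≠ ⊥)
    (hmQ : (m : 𝓞 E) ∉ Q) :
    ∃ 𝔓 : Ideal (𝓞 Ω), 𝔓.IsPrime ∧ 𝔓 ≠ ⊥ ∧ 𝔓.under (𝓞 E) = Q ∧ (m : 𝓞 Ω) ∉ 𝔓 := by
  obtain ⟨⟨𝔓, h𝔓p, h𝔓o⟩⟩ := Q.nonempty_primesOver (S := 𝓞 Ω)
  refine ⟨𝔓, h𝔓p, ?_, h𝔓o.over.symm, ?_⟩
  · rintro rfl
    apply hQ0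
    rw [h𝔓o.over]
    exact Ideal.under_bot _ _
  intro hmem
  apply hmQ
  rw [h𝔓o.over, Ideal.under_def, Ideal.mem_comap]
  simpa using hmem

include hζ in
/-- Primes of the cross field away from `m` are unramified. -/
theorem crossField_inertia_eq_bot (Q : Ideal (𝓞 (crossField K hζ χ₀))) [Q.IsPrime]
    (hQ0 : Q ≠ ⊥) (hmQ : (m : 𝓞 (crossField K hζ χ₀)) ∉ Q) :
    Q.inertia Gal(crossField K hζ χ₀/K) = ⊥ := by
  obtain ⟨𝔓, h𝔓p, h𝔓0, h𝔓Q, hm𝔓⟩ := exists_over (crossField K hζ χ₀) Q hQ0 hmQ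
  rw [← h𝔓Q]
  exact inertia_under_eq_bot h𝔓0 (inertia_eq_bot hζ hm𝔓)

/-- **Frobenius in the cross field**: a Frobenius element `τ` at a prime `Q ∤ m` of the cross
field has the same order as `χ₀ (N(Q ∩ 𝓞 K) mod m)`. -/
theorem crossField_orderOf_frob (Q : Ideal (𝓞 (crossField K hζ χ₀))) [Q.IsPrime]
    (hQ0 : Q ≠ ⊥) (hmQ : (m : 𝓞 (crossField K hζ χ₀)) ∉ Q) {τ : Gal(crossField K hζ χ₀/K)}
    (hτ : IsArithFrobAt (𝓞 K) τ Q) {u : (ZMod m)ˣ}
    (hu : (u : ZMod m) = (Ideal.absNorm (Q.under (𝓞 K)) : ZMod m)) :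
    orderOf τ = orderOf (χ₀ u) := by
  obtain ⟨𝔓, h𝔓p, h𝔓0, h𝔓Q, hm𝔓⟩ := exists_over (crossField K hζ χ₀) Q hQ0 hmQ
  have : Finite ((𝓞 Ω) ⧸ 𝔓) := Ideal.finiteQuotientOfFreeOfNeBot 𝔓 h𝔓0
  obtain ⟨σ, hσ⟩ := IsArithFrobAt.exists_of_isInvariant (𝓞 K) Gal(Ω/K) 𝔓
  have hres : IsArithFrobAt (𝓞 K) (resE (E := crossField K hζ χ₀) σ) Q := by
    rw [← h𝔓Q]; exact isArithFrobAt_resE hσ
  have hin := IsArithFrobAt.mul_inv_mem_inertia hτ hres
  rw [crossField_inertia_eq_bot K hζ χ₀ Q hQ0 hmQ, Subgroup.mem_bot, mul_inv_eq_one] at hin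
  rw [hin, orderOf_resE_eq (galChar_eq_one_iff K hζ χ₀) σ, galChar, MonoidHom.comp_apply]
  congr 2
  apply Units.ext
  rw [hu, autToPow_of_isArithFrobAt hζ hσ hm𝔓, ← h𝔓Q, Ideal.under_under]

/-- Local degrees in the cross field: if `p ^ N ∣ orderOf (χ₀ a)` for all `a` in a finite set `s`
of integers prime to `m`, then every Frobenius at a prime `Q ∤ m` whose residue cardinality
`N(Q ∩ 𝓞 K)` lies in `s` has order divisible by `p ^ N`. -/
theorem crossField_pow_dvd_orderOf_frob {p N : ℕ} {s : Finset ℕ}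
    (hχ : ∀ a ∈ s, ∀ u : (ZMod m)ˣ, (u : ZMod m) = (a : ZMod m) → p ^ N ∣ orderOf (χ₀ u))
    (hcop : ∀ a ∈ s, a.Coprime m)
    (Q : Ideal (𝓞 (crossField K hζ χ₀))) [Q.IsPrime] (hQ0 : Q ≠ ⊥)
    (hmQ : (m : 𝓞 (crossField K hζ χ₀)) ∉ Q) {τ : Gal(crossField K hζ χ₀/K)}
    (hτ : IsArithFrobAt (𝓞 K) τ Q) (hs : Ideal.absNorm (Q.under (𝓞 K)) ∈ s) :
    p ^ N ∣ orderOf τ := by
  rw [crossField_orderOf_frob K hζ χ₀ Q hQ0 hmQ hτ
    (u := ZMod.unitOfCoprime _ (hcop _ hs)) (ZMod.coe_unitOfCoprime _ _)]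
  exact hχ _ hs _ (ZMod.coe_unitOfCoprime _ _)

/-- Same, for the order of the decomposition group. -/
theorem crossField_pow_dvd_card_stabilizer {p N : ℕ} {s : Finset ℕ}
    (hχ : ∀ a ∈ s, ∀ u : (ZMod m)ˣ, (u : ZMod m) = (a : ZMod m) → p ^ N ∣ orderOf (χ₀ u))
    (hcop : ∀ a ∈ s, a.Coprime m)
    (Q : Ideal (𝓞 (crossField K hζ χ₀))) [Q.IsPrime] (hQ0 : Q ≠ ⊥)
    (hmQ : (m : 𝓞 (crossField K hζ χ₀)) ∉ Q) (hs : Ideal.absNorm (Q.under (𝓞 K)) ∈ s) :
    p ^ N ∣ Nat.card (MulAction.stabilizer Gal(crossField K hζ χ₀/K) Q) := by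
  have : Finite ((𝓞 (crossField K hζ χ₀)) ⧸ Q) := Ideal.finiteQuotientOfFreeOfNeBot Q hQ0
  obtain ⟨τ, hτ⟩ := IsArithFrobAt.exists_of_isInvariant (𝓞 K) Gal(crossField K hζ χ₀/K) Q
  have h1 := crossField_pow_dvd_orderOf_frob K hζ χ₀ hχ hcop Q hQ0 hmQ hτ hs
  have h2 : τ ∈ MulAction.stabilizer Gal(crossField K hζ χ₀/K) Q := hτ.mem_stabilizer
  exact h1.trans (Subgroup.orderOf_dvd_natCard _ h2)

/-- Lifting a Frobenius list of the cross field to `Ω`. -/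
theorem exists_lift_frobList
    (l : List (Ideal (𝓞 (crossField K hζ χ₀)) × Gal(crossField K hζ χ₀/K)))
    (hl : IsFrobList m l) (h0 : underProd l ≠ ⊥) :
    ∃ l' : List (Ideal (𝓞 Ω) × Gal(Ω/K)), IsFrobList m l' ∧ underProd l' = underProd l ∧
      resE (E := crossField K hζ χ₀) (frobProd l') = frobProd l := by
  induction l with
  | nil => exact ⟨[], fun p hp => by simp at hp, rfl, by simp⟩
  | cons q l ih =>
    rw [underProd_cons] at h0
    have hq0 : q.1.under (𝓞 K) ≠ ⊥ := fun h => h0 (by rw [h, Ideal.bot_mul])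
    have hl0 : underProd l ≠ ⊥ := fun h => h0 (by rw [h, Ideal.mul_bot])
    obtain ⟨l', hl', hu', hf'⟩ := ih (fun r hr => hl r (List.mem_cons_of_mem _ hr)) hl0
    obtain ⟨hqp, hqm, hqf⟩ := hl q List.mem_cons_self
    have hQ0 : q.1 ≠ ⊥ := by
      intro h
      apply hq0
      rw [h]
      exact Ideal.under_bot _ _
    obtain ⟨𝔓, h𝔓p, h𝔓0, h𝔓Q, hm𝔓⟩ := exists_over (crossField K hζ χ₀) q.1 hQ0 hqm
    have : Finite ((𝓞 Ω) ⧸ 𝔓) := Ideal.finiteQuotientOfFreeOfNeBot 𝔓 h𝔓0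
    obtain ⟨σ, hσ⟩ := IsArithFrobAt.exists_of_isInvariant (𝓞 K) Gal(Ω/K) 𝔓
    have hres : IsArithFrobAt (𝓞 K) (resE (E := crossField K hζ χ₀) σ) q.1 := by
      rw [← h𝔓Q]; exact isArithFrobAt_resE hσ
    have hin := IsArithFrobAt.mul_inv_mem_inertia hqf hres
    rw [crossField_inertia_eq_bot K hζ χ₀ q.1 hQ0 hqm, Subgroup.mem_bot, mul_inv_eq_one] at hin
    refine ⟨(𝔓, σ) :: l', ?_, ?_, ?_⟩
    · intro r hr
      rcases List.mem_cons.mp hr with rfl | hr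
      · exact ⟨h𝔓p, hm𝔓, hσ⟩
      · exact hl' r hr
    · rw [underProd_cons, underProd_cons, hu', ← h𝔓Q, Ideal.under_under]
    · rw [frobProd_cons, frobProd_cons, map_mul, hf', hin]

include hζ in
/-- **Trivial reciprocity in the cross field.**  If `K` has positive norms (e.g. totally complex),
the product of the Frobenius elements of `Gal(E/K)`, `E` the cross field, over the prime
factorisation of a principal ideal `(γ)`, `γ ≡ 1 mod m`, is trivial. -/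
theorem crossField_frobProd_eq_one (hpos : ∀ x : 𝓞 K, x ≠ 0 → 0 < Algebra.norm ℤ x)
    {γ : 𝓞 K} (hγ : γ ≠ 0) (hγ1 : γ - 1 ∈ Ideal.span {(m : 𝓞 K)})
    {l : List (Ideal (𝓞 (crossField K hζ χ₀)) × Gal(crossField K hζ χ₀/K))}
    (hl : IsFrobList m l) (hprod : underProd l = Ideal.span {γ}) : frobProd l = 1 := by
  have h0 : underProd l ≠ ⊥ := by
    rw [hprod, Ne, Ideal.span_singleton_eq_bot]
    exact hγ
  obtain ⟨l', hl', hu', hf'⟩ := exists_lift_frobList K hζ χ₀ l hl h0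
  rw [← hf', frobProd_eq_one hζ hpos hγ hγ1 hl' (hu'.trans hprod), map_one]

end Cyclotomic

section Summary

universe u v

/-- **Crossing extensions exist (GL3, summary).**  Let `K` be a number field, `p` an odd prime,
`N`, `B` bounds and `s` a finite set of integers `≥ 2` (think: the residue cardinalities `N v` of
finitely many places `v` of `K`).  There are a squarefree `m` with all prime factors `> B` and
`≠ p`, prime to every element of `s`, and a character `χ₀` of `(ZMod m)ˣ` of `p`-power order, such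
that for EVERY model `Ω` of `K(ζ_m)` the subfield `E := crossField K hζ χ₀ ⊆ Ω` satisfies:
`E/K` is Galois, cyclic, of degree dividing `p ^ M`; every prime `Q ∤ m` of `E` is unramified
(trivial inertia); if moreover `N(Q ∩ 𝓞 K) ∈ s`, every Frobenius at `Q` has order divisible by
`p ^ N` and so has the decomposition group; and (if norms from `𝓞 K` are positive) the product of
Frobenius elements over the factorisation of a principal ideal `(γ)`, `γ ≡ 1 mod m`, is trivial. -/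
theorem exists_cross (K : Type u) [Field K] [NumberField K] {p : ℕ} (hp : p.Prime) (hp2 : p ≠ 2)
    (N B : ℕ) (s : Finset ℕ) (hs : ∀ a ∈ s, 2 ≤ a) :
    ∃ (m : ℕ) (_ : NeZero m) (M : ℕ) (χ₀ : (ZMod m)ˣ →* ℂˣ),
      Squarefree m ∧ (∀ ℓ : ℕ, ℓ.Prime → ℓ ∣ m → B < ℓ ∧ ℓ ≠ p) ∧ (∀ a ∈ s, a.Coprime m) ∧
      χ₀ ^ p ^ M = 1 ∧
      ∀ (Ω : Type v) [Field Ω] [NumberField Ω] [Algebra K Ω] [IsGalois K Ω]
        [IsCyclotomicExtension {m} K Ω] {ζ : Ω} (hζ : IsPrimitiveRoot ζ m),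
        IsCyclic Gal(crossField K hζ χ₀/K) ∧ Nat.card Gal(crossField K hζ χ₀/K) ∣ p ^ M ∧
        (∀ (Q : Ideal (𝓞 (crossField K hζ χ₀))) [Q.IsPrime], Q ≠ ⊥ →
          (m : 𝓞 (crossField K hζ χ₀)) ∉ Q →
            Q.inertia Gal(crossField K hζ χ₀/K) = ⊥ ∧
            (Ideal.absNorm (Q.under (𝓞 K)) ∈ s →
              p ^ N ∣ Nat.card (MulAction.stabilizer Gal(crossField K hζ χ₀/K) Q) ∧
              ∀ τ : Gal(crossField K hζ χ₀/K), IsArithFrobAt (𝓞 K) τ Q → p ^ N ∣ orderOf τ)) ∧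
        ((∀ x : 𝓞 K, x ≠ 0 → 0 < Algebra.norm ℤ x) → ∀ γ : 𝓞 K, γ ≠ 0 →
          γ - 1 ∈ Ideal.span {(m : 𝓞 K)} →
          ∀ l : List (Ideal (𝓞 (crossField K hζ χ₀)) × Gal(crossField K hζ χ₀/K)),
            IsFrobList m l → underProd l = Ideal.span {γ} → frobProd l = 1) := by
  obtain ⟨m, hsq, hpr, hcop, χ₀, M, hM, hχ⟩ := CrossChar.exists_char hp hp2 N B s hs
  have hm : NeZero m := ⟨hsq.ne_zero⟩
  refine ⟨m, hm, M, χ₀, hsq, hpr, hcop, hM, ?_⟩
  intro Ω _ _ _ _ _ ζ hζ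
  refine ⟨crossField_isCyclic K hζ χ₀, crossField_card_dvd K hζ χ₀ hM, ?_, ?_⟩
  · intro Q _ hQ0 hmQ
    refine ⟨crossField_inertia_eq_bot K hζ χ₀ Q hQ0 hmQ, fun hsQ => ⟨?_, ?_⟩⟩
    · exact crossField_pow_dvd_card_stabilizer K hζ χ₀ hχ hcop Q hQ0 hmQ hsQ
    · intro τ hτ
      exact crossField_pow_dvd_orderOf_frob K hζ χ₀ hχ hcop Q hQ0 hmQ hτ hsQ
  · intro hpos γ hγ hγ1 l hl hprod
    exact crossField_frobProd_eq_one K hζ χ₀ hpos hγ hγ1 hl hprod

end Summary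

end Fermat.Agent.S55.GL.Cyclo
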