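/-
S55 GLO9c (reciprocity): the crossing field `E = crossField K hζ χ₀ ⊆ K(ζ_m)` satisfies the
trivial ideal-theoretic reciprocity law for `m` over an ARBITRARY number field `K` as soon as
`χ₀ (-1) = 1` (automatic for a character of odd order), and hence THEOREM II of `RecipCore.lean`:
if `a ∈ Kˣ` is a local norm from `E` at every prime `v ∣ m`, then `∏_{v ∤ m} Frob_v ^ ord_v(a) = 1`
in `Gal(E/K)`.
-/
import Mathlib
import Fermat.Agent.S55.GL.CycloCross
import Fermat.Agent.S55.GL.RecipCore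

set_option autoImplicit false
set_option linter.unusedSectionVars false

namespace Fermat.Agent.S55.GL.Cyclo

open NumberField IsDedekindDomain HeightOneSpectrum WithZero
open Fermat.Agent.S14 Fermat.Agent.S14.ArtinMap Fermat.Agent.S14.TwoPrime
open Fermat.Agent.S14.GalDiv Fermat.Agent.S55.GL.WeakApprox Fermat.Agent.S55.GL.NormApprox
open Fermat.Agent.S55.GL.ArtinAway Fermat.Agent.S55.GL.RecipCore

section Sign

variable {F Ω : Type*} [Field F] [NumberField F] [Field Ω] [NumberField Ω] [Algebra F Ω]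
  [IsGalois F Ω] {m : ℕ} [NeZero m] {ζ : Ω} (hζ : IsPrimitiveRoot ζ m)

include hζ in
/-- In `Ω = F(ζ_m)` the product of the Frobenius elements over the factorisation of `(γ)`,
`γ ≡ 1 mod m`, acts on `ζ` through `±1` (no positivity assumption on norms). -/
theorem autToPow_frobProd_eq_or {γ : 𝓞 F} (hγ1 : γ - 1 ∈ Ideal.span {(m : 𝓞 F)})
    {l : List (Ideal (𝓞 Ω) × (Ω ≃ₐ[F] Ω))} (hl : IsFrobList m l)
    (hprod : underProd l = Ideal.span {γ}) :
    hζ.autToPow F (frobProd l) = 1 ∨ hζ.autToPow F (frobProd l) = -1 := by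
  have hm0 : 0 < m := Nat.pos_of_ne_zero (NeZero.ne m)
  have h1 := frobProd_apply_of_pow_eq_one hm0 hl hζ.pow_eq_one
  rw [hprod, Ideal.absNorm_span_singleton] at h1
  have h2 := autToPow_eq_of_apply hζ h1
  have h3 : ((m : ℕ) : ℤ) ∣ Algebra.norm ℤ γ - Algebra.norm ℤ (1 : 𝓞 F) := by
    apply dvd_norm_sub_norm
    simpa using hγ1
  rw [map_one] at h3
  have h4 : ((Algebra.norm ℤ γ : ℤ) : ZMod m) = 1 := by
    have := (ZMod.intCast_zmod_eq_zero_iff_dvd (Algebra.norm ℤ γ - 1) m).2 h3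
    rwa [Int.cast_sub, Int.cast_one, sub_eq_zero] at this
  rcases Int.natAbs_eq (Algebra.norm ℤ γ) with h5 | h5
  · left
    apply Units.ext
    rw [h2, Units.val_one, ← h4]
    conv_rhs => rw [h5]
    rw [Int.cast_natCast]
  · right
    apply Units.ext
    rw [h2, Units.val_neg, Units.val_one, ← h4]
    conv_rhs => rw [h5]
    rw [Int.cast_neg, Int.cast_natCast, neg_neg]

end Sign

section Cyclotomic

variable (K : Type*) {Ω : Type*} [Field K] [NumberField K] [Field Ω] [NumberField Ω] [Algebra K Ω]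
  [IsGalois K Ω] {m : ℕ} [NeZero m] [IsCyclotomicExtension {m} K Ω] {ζ : Ω}
  (hζ : IsPrimitiveRoot ζ m) (χ₀ : (ZMod m)ˣ →* ℂˣ)

/-- A character of odd prime power order is even. -/
theorem char_neg_one_eq_one {p M : ℕ} (hp : p.Prime) (hp2 : p ≠ 2) (hM : χ₀ ^ p ^ M = 1) :
    χ₀ (-1) = 1 := by
  have h1 : χ₀ (-1) ^ 2 = 1 := by
    rw [← map_pow]
    simp
  have h2 : χ₀ (-1) ^ p ^ M = 1 := by
    rw [← MonoidHom.pow_apply, hM, MonoidHom.one_apply]
  have h3 := pow_gcd_eq_one.2 ⟨h1, h2⟩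
  have hcop : Nat.gcd 2 (p ^ M) = 1 := by
    apply Nat.Coprime.pow_right
    rw [Nat.coprime_primes Nat.prime_two hp]
    exact fun h => hp2 h.symm
  rwa [hcop, pow_one] at h3

include hζ in
/-- **Trivial reciprocity in the cross field, any base field.**  If `χ₀ (-1) = 1`, the product of
the Frobenius elements of `Gal(E/K)`, `E` the cross field, over the prime factorisation of a
principal ideal `(γ)`, `γ ≡ 1 mod m`, is trivial. -/
theorem crossField_frobProd_eq_one_of_even (hχ : χ₀ (-1) = 1)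
    {γ : 𝓞 K} (hγ : γ ≠ 0) (hγ1 : γ - 1 ∈ Ideal.span {(m : 𝓞 K)})
    {l : List (Ideal (𝓞 (crossField K hζ χ₀)) × Gal(crossField K hζ χ₀/K))}
    (hl : IsFrobList m l) (hprod : underProd l = Ideal.span {γ}) : frobProd l = 1 := by
  have h0 : underProd l ≠ ⊥ := by
    rw [hprod, Ne, Ideal.span_singleton_eq_bot]
    exact hγ
  obtain ⟨l', hl', hu', hf'⟩ := exists_lift_frobList K hζ χ₀ l hl h0
  rw [← hf', ← galChar_eq_one_iff, galChar, MonoidHom.comp_apply]
  rcases autToPow_frobProd_eq_or hζ hγ1 hl' (hu'.trans hprod) with h | h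
  · rw [h, map_one]
  · rw [h, hχ]

instance crossField_isMulCommutative : IsMulCommutative Gal(crossField K hζ χ₀/K) := by
  refine ⟨⟨fun a b => ?_⟩⟩
  obtain ⟨σ, rfl⟩ := resE_surjective (K := K) (E := crossField K hζ χ₀) (Ω := Ω) a
  obtain ⟨τ, rfl⟩ := resE_surjective (K := K) (E := crossField K hζ χ₀) (Ω := Ω) b
  rw [← map_mul, ← map_mul, gal_mul_comm hζ]

open scoped IsMulCommutative

/-- **Theorem II for the cross field.**  Let `E = crossField K hζ χ₀` with `χ₀` even.  If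
`a ∈ Kˣ` is a local norm (in the approximate sense of `NormApprox`) at one prime `wsel v` of `E`
above every prime `v ∣ m` of `K`, then `∏_{v ∤ m} Frob_v ^ ord_v(a) = 1` in `Gal(E/K)`. -/
theorem crossField_prod_frobAway_zpow_eq_one (hχ : χ₀ (-1) = 1) {a : K} (ha : a ≠ 0)
    (wsel : HeightOneSpectrum (𝓞 K) → HeightOneSpectrum (𝓞 (crossField K hζ χ₀)))
    (hw : ∀ v : HeightOneSpectrum (𝓞 K), (m : 𝓞 K) ∈ v.asIdeal → underK K (wsel v) = v)
    (hLN : ∀ v : HeightOneSpectrum (𝓞 K), (m : 𝓞 K) ∈ v.asIdeal → ∀ k : ℕ,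
      ∃ b : crossField K hζ χ₀, b ≠ 0 ∧
        OneMod (wsel v) k (decompNorm (K := K) (wsel v) b /
          algebraMap K (crossField K hζ χ₀) a))
    (T : Finset (HeightOneSpectrum (𝓞 K)))
    (hT : ∀ v : HeightOneSpectrum (𝓞 K), (m : 𝓞 K) ∉ v.asIdeal → v.valuation K a ≠ 1 → v ∈ T)
    (n : HeightOneSpectrum (𝓞 K) → ℤ) (hn : ∀ v ∈ T, v.valuation K a = exp (-(n v))) :
    ∏ v ∈ T, frobAway K (crossField K hζ χ₀) m v.asIdeal ^ n v = 1 := by
  refine prod_frobAway_zpow_eq_one (K := K) (E := crossField K hζ χ₀) (m := m)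
    ?_ ?_ ha wsel hw hLN T hT n hn
  · intro Q hQ hQ0 hmQ
    exact crossField_inertia_eq_bot K hζ χ₀ Q hQ0 hmQ
  · intro γ hγ hγ1 l hl hprod
    exact crossField_frobProd_eq_one_of_even K hζ χ₀ hχ hγ hγ1 hl hprod

end Cyclotomic

end Fermat.Agent.S55.GL.Cyclo
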