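/-
S55 GLO9c (reciprocity), helper26 for helper19: transport of the arithmetic of a Galois extension
of number fields along an isomorphism `e : E₁ ≃ₐ[K] E₂` (rings of integers, primes, inertia,
Frobenius elements, decomposition groups, Frobenius lists), and the crossing field of
`Cyclo.exists_cross` realised as an INTERMEDIATE FIELD of a given algebraically closed extension
`Ω̄` of `K` (`exists_cross_in`), with the trivial reciprocity law in its sign-free form
(`CycloRecip.crossField_frobProd_eq_one_of_even`).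
-/
import Mathlib
import Fermat.Agent.S55.GL.CycloRecip

set_option autoImplicit false
set_option linter.unusedSectionVars false

namespace Fermat.Agent.S55.GL.CrossTransport

open NumberField Fermat.Agent.S14 Fermat.Agent.S14.TwoPrime Fermat.Agent.S55.GL.Cyclo
open scoped Pointwise

section Transport

variable {K E₁ E₂ : Type*} [Field K] [NumberField K] [Field E₁] [NumberField E₁] [Algebra K E₁]
  [Field E₂] [NumberField E₂] [Algebra K E₂] (e : E₁ ≃ₐ[K] E₂)

/-- The isomorphism of rings of integers induced by `e`. -/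
noncomputable def intEquiv : 𝓞 E₁ ≃ₐ[𝓞 K] 𝓞 E₂ := RingOfIntegers.mapAlgEquiv e

@[simp] theorem coe_intEquiv (x : 𝓞 E₁) : ((intEquiv e x : 𝓞 E₂) : E₂) = e (x : E₁) := rfl

@[simp] theorem coe_intEquiv_symm (y : 𝓞 E₂) :
    (((intEquiv e).symm y : 𝓞 E₁) : E₁) = e.symm (y : E₂) := rfl

/-- Conjugation of Galois groups by `e`. -/
noncomputable def galEquiv : Gal(E₁/K) ≃* Gal(E₂/K) := AlgEquiv.autCongr e

@[simp] theorem galEquiv_apply (σ : Gal(E₁/K)) (y : E₂) :
    galEquiv e σ y = e (σ (e.symm y)) := rfl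

@[simp] theorem galEquiv_symm_apply (τ : Gal(E₂/K)) (x : E₁) :
    (galEquiv e).symm τ x = e.symm (τ (e x)) := rfl

theorem intEquiv_smul (σ : Gal(E₁/K)) (x : 𝓞 E₁) :
    intEquiv e (σ • x) = galEquiv e σ • intEquiv e x := by
  apply RingOfIntegers.ext
  show e (σ (x : E₁)) = e (σ (e.symm (e (x : E₁))))
  rw [e.symm_apply_apply]

theorem intEquiv_symm_smul (τ : Gal(E₂/K)) (y : 𝓞 E₂) :
    (intEquiv e).symm (τ • y) = (galEquiv e).symm τ • (intEquiv e).symm y := by
  apply RingOfIntegers.ext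
  show e.symm (τ (y : E₂)) = e.symm (τ (e (e.symm (y : E₂))))
  rw [e.apply_symm_apply]

/-- The prime of `𝓞 E₁` corresponding to a prime of `𝓞 E₂`. -/
noncomputable def pull (Q : Ideal (𝓞 E₂)) : Ideal (𝓞 E₁) :=
  Q.comap ((intEquiv e : 𝓞 E₁ ≃ₐ[𝓞 K] 𝓞 E₂) : 𝓞 E₁ →+* 𝓞 E₂)

theorem mem_pull {Q : Ideal (𝓞 E₂)} {x : 𝓞 E₁} : x ∈ pull e Q ↔ intEquiv e x ∈ Q := Iff.rfl

theorem symm_mem_pull {Q : Ideal (𝓞 E₂)} {y : 𝓞 E₂} : (intEquiv e).symm y ∈ pull e Q ↔ y ∈ Q := by
  rw [mem_pull, AlgEquiv.apply_symm_apply]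

instance pull_isPrime (Q : Ideal (𝓞 E₂)) [Q.IsPrime] : (pull e Q).IsPrime :=
  Ideal.comap_isPrime _ Q

theorem pull_ne_bot {Q : Ideal (𝓞 E₂)} (hQ : Q ≠ ⊥) : pull e Q ≠ ⊥ := by
  intro h
  apply hQ
  rw [eq_bot_iff]
  intro y hy
  have h1 : (intEquiv e).symm y ∈ pull e Q := (symm_mem_pull e).2 hy
  rw [h, Ideal.mem_bot] at h1
  have h2 := congrArg (intEquiv e) h1
  rw [AlgEquiv.apply_symm_apply, map_zero] at h2
  rw [Ideal.mem_bot]
  exact h2

theorem pull_under (Q : Ideal (𝓞 E₂)) : (pull e Q).under (𝓞 K) = Q.under (𝓞 K) := by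
  ext a
  rw [Ideal.under_def, Ideal.under_def, Ideal.mem_comap, Ideal.mem_comap, mem_pull,
    (intEquiv e).commutes]

theorem natCast_mem_pull (Q : Ideal (𝓞 E₂)) (m : ℕ) :
    (m : 𝓞 E₁) ∈ pull e Q ↔ (m : 𝓞 E₂) ∈ Q := by
  rw [mem_pull, map_natCast]

theorem mem_inertia_pull_iff (Q : Ideal (𝓞 E₂)) (σ : Gal(E₁/K)) :
    σ ∈ (pull e Q).inertia Gal(E₁/K) ↔ galEquiv e σ ∈ Q.inertia Gal(E₂/K) := by
  constructor
  · intro h y
    have h1 : σ • (intEquiv e).symm y - (intEquiv e).symm y ∈ pull e Q := h _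
    rw [mem_pull, map_sub, intEquiv_smul, AlgEquiv.apply_symm_apply] at h1
    exact h1
  · intro h x
    have h1 : galEquiv e σ • intEquiv e x - intEquiv e x ∈ Q := h _
    show σ • x - x ∈ pull e Q
    rw [mem_pull, map_sub, intEquiv_smul]
    exact h1

theorem inertia_eq_bot_of_pull {Q : Ideal (𝓞 E₂)}
    (h : (pull e Q).inertia Gal(E₁/K) = ⊥) : Q.inertia Gal(E₂/K) = ⊥ := by
  rw [Subgroup.eq_bot_iff_forall] at h ⊢
  intro τ hτ
  have h1 : (galEquiv e).symm τ ∈ (pull e Q).inertia Gal(E₁/K) := by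
    rw [mem_inertia_pull_iff, MulEquiv.apply_symm_apply]
    exact hτ
  have h2 := h _ h1
  have h3 := congrArg (galEquiv e) h2
  rwa [MulEquiv.apply_symm_apply, map_one] at h3

theorem isArithFrobAt_pull_iff (Q : Ideal (𝓞 E₂)) (σ : Gal(E₁/K)) :
    IsArithFrobAt (𝓞 K) σ (pull e Q) ↔ IsArithFrobAt (𝓞 K) (galEquiv e σ) Q := by
  constructor
  · intro h y
    have h1 := h ((intEquiv e).symm y)
    rw [pull_under] at h1
    simp only [MulSemiringAction.toAlgHom_apply] at h1 ⊢
    rw [mem_pull, map_sub, map_pow, intEquiv_smul, AlgEquiv.apply_symm_apply] at h1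
    exact h1
  · intro h x
    have h1 := h (intEquiv e x)
    rw [pull_under]
    simp only [MulSemiringAction.toAlgHom_apply] at h1 ⊢
    rw [mem_pull, map_sub, map_pow, intEquiv_smul]
    exact h1

theorem smul_pull (Q : Ideal (𝓞 E₂)) (σ : Gal(E₁/K)) :
    σ • pull e Q = pull e (galEquiv e σ • Q) := by
  ext x
  rw [Ideal.mem_pointwise_smul_iff_inv_smul_mem, mem_pull, mem_pull,
    Ideal.mem_pointwise_smul_iff_inv_smul_mem, intEquiv_smul, map_inv]

theorem pull_injective : Function.Injective (pull e : Ideal (𝓞 E₂) → Ideal (𝓞 E₁)) := by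
  intro Q Q' h
  ext y
  rw [← symm_mem_pull e, ← symm_mem_pull e (Q := Q'), h]

theorem mem_stabilizer_pull_iff (Q : Ideal (𝓞 E₂)) (σ : Gal(E₁/K)) :
    σ ∈ MulAction.stabilizer Gal(E₁/K) (pull e Q) ↔
      galEquiv e σ ∈ MulAction.stabilizer Gal(E₂/K) Q := by
  rw [MulAction.mem_stabilizer_iff, MulAction.mem_stabilizer_iff, smul_pull]
  exact ⟨fun h => pull_injective e h, fun h => by rw [h]⟩

theorem card_stabilizer_pull (Q : Ideal (𝓞 E₂)) :
    Nat.card (MulAction.stabilizer Gal(E₁/K) (pull e Q)) =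
      Nat.card (MulAction.stabilizer Gal(E₂/K) Q) := by
  refine Nat.card_congr
    { toFun := fun σ => ⟨galEquiv e σ, (mem_stabilizer_pull_iff e Q σ).1 σ.2⟩
      invFun := fun τ => ⟨(galEquiv e).symm τ, by
        rw [mem_stabilizer_pull_iff, MulEquiv.apply_symm_apply]
        exact τ.2⟩
      left_inv := fun σ => Subtype.ext ((galEquiv e).symm_apply_apply _)
      right_inv := fun τ => Subtype.ext ((galEquiv e).apply_symm_apply _) }

/-- Pull back a list of (prime, automorphism) pairs. -/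
noncomputable def pullList (l : List (Ideal (𝓞 E₂) × Gal(E₂/K))) :
    List (Ideal (𝓞 E₁) × Gal(E₁/K)) :=
  l.map fun p => (pull e p.1, (galEquiv e).symm p.2)

variable [IsGalois K E₁] [IsGalois K E₂]

theorem isFrobList_pullList {m : ℕ} {l : List (Ideal (𝓞 E₂) × Gal(E₂/K))}
    (hl : IsFrobList m l) : IsFrobList m (pullList e l) := by
  intro p hp
  obtain ⟨q, hq, rfl⟩ := List.mem_map.1 hp
  obtain ⟨h1, h2, h3⟩ := hl q hq
  refine ⟨?_, ?_, ?_⟩
  · have := h1
    exact pull_isPrime e q.1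
  · rw [natCast_mem_pull]
    exact h2
  · rw [isArithFrobAt_pull_iff, MulEquiv.apply_symm_apply]
    exact h3

theorem underProd_pullList (l : List (Ideal (𝓞 E₂) × Gal(E₂/K))) :
    underProd (pullList e l) = underProd l := by
  induction l with
  | nil => rfl
  | cons p l ih =>
    have : pullList e (p :: l) = (pull e p.1, (galEquiv e).symm p.2) :: pullList e l := rfl
    rw [this, underProd_cons, underProd_cons, ih, pull_under]

theorem frobProd_pullList (l : List (Ideal (𝓞 E₂) × Gal(E₂/K))) :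
    frobProd (pullList e l) = (galEquiv e).symm (frobProd l) := by
  induction l with
  | nil => exact (map_one _).symm
  | cons p l ih =>
    have : pullList e (p :: l) = (pull e p.1, (galEquiv e).symm p.2) :: pullList e l := rfl
    rw [this, frobProd_cons, frobProd_cons, ih, map_mul]

end Transport

section Main

universe u v

variable (K : Type u) [Field K] [NumberField K] (Ωb : Type v) [Field Ωb] [Algebra K Ωb]
  [IsAlgClosed Ωb]

/-- **The crossing field inside a given algebraically closed extension.**  For a number field `K`,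
an odd prime `p`, integers `N, B` and a finite set `s` of residue cardinalities there are a
squarefree `m` (all prime factors `> B` and `≠ p`, prime to `s`), an `M`, and a finite Galois
subextension `E/K` of `Ωb`, cyclic of degree dividing `p ^ M`, unramified at the primes not
dividing `m`, in which the primes with norm in `s` have Frobenius (and decomposition group) of
order divisible by `p ^ N`, and which satisfies the trivial reciprocity law for `m` (no positivity
hypothesis). -/
theorem exists_cross_in {p : ℕ} (hp : p.Prime) (hp2 : p ≠ 2) (N B : ℕ) (s : Finset ℕ)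
    (hs : ∀ a ∈ s, 2 ≤ a) :
    ∃ (m : ℕ) (_ : NeZero m) (M : ℕ) (E : IntermediateField K Ωb) (_ : FiniteDimensional K E)
      (_ : IsGalois K E) (_ : NumberField E),
      Squarefree m ∧ (∀ ℓ : ℕ, ℓ.Prime → ℓ ∣ m → B < ℓ ∧ ℓ ≠ p) ∧ (∀ a ∈ s, a.Coprime m) ∧
      IsCyclic Gal(E/K) ∧ Nat.card Gal(E/K) ∣ p ^ M ∧
      (∀ (Q : Ideal (𝓞 E)) [Q.IsPrime], Q ≠ ⊥ → (m : 𝓞 E) ∉ Q →
        Q.inertia Gal(E/K) = ⊥ ∧
        (Ideal.absNorm (Q.under (𝓞 K)) ∈ s →
          p ^ N ∣ Nat.card (MulAction.stabilizer Gal(E/K) Q) ∧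
          ∀ τ : Gal(E/K), IsArithFrobAt (𝓞 K) τ Q → p ^ N ∣ orderOf τ)) ∧
      (∀ γ : 𝓞 K, γ ≠ 0 → γ - 1 ∈ Ideal.span {(m : 𝓞 K)} →
        ∀ l : List (Ideal (𝓞 E) × Gal(E/K)),
          IsFrobList m l → underProd l = Ideal.span {γ} → frobProd l = 1) := by
  obtain ⟨m, hm, M, χ₀, hsq, hpr, hcop, hM, H⟩ := exists_cross K hp hp2 N B s hs
  have hchar : CharZero Ωb := charZero_of_injective_algebraMap (algebraMap K Ωb).injective
  have hmne : NeZero (m : Ωb) := ⟨Nat.cast_ne_zero.2 (NeZero.ne m)⟩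
  obtain ⟨ζ, hζ⟩ := HasEnoughRootsOfUnity.exists_primitiveRoot Ωb m
  have hζint : IsIntegral K ζ :=
    (hζ.isIntegral (Nat.pos_of_ne_zero (NeZero.ne m))).tower_top
  have hcyc : IsCyclotomicExtension {m} K (IntermediateField.adjoin K {ζ}) := by
    change IsCyclotomicExtension {m} K (IntermediateField.adjoin K {ζ}).toSubalgebra
    rw [IntermediateField.adjoin_simple_toSubalgebra_of_isAlgebraic hζint.isAlgebraic]
    exact hζ.adjoin_isCyclotomicExtension K
  have hnf : NumberField (IntermediateField.adjoin K {ζ}) :=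
    IsCyclotomicExtension.numberField {m} K _
  have hgal : IsGalois K (IntermediateField.adjoin K {ζ}) :=
    IsCyclotomicExtension.isGalois {m} K _
  have hζ' : IsPrimitiveRoot
      (⟨ζ, IntermediateField.mem_adjoin_simple_self K ζ⟩ : IntermediateField.adjoin K {ζ}) m :=
    IsPrimitiveRoot.coe_submonoidClass_iff.1 hζ
  obtain ⟨h1, h2, h3, -⟩ := H (IntermediateField.adjoin K {ζ}) hζ'
  have heven : χ₀ (-1) = 1 := char_neg_one_eq_one χ₀ hp hp2 hM
  let e := IntermediateField.liftAlgEquiv (crossField K hζ' χ₀)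
  have hfd : FiniteDimensional K (IntermediateField.lift (crossField K hζ' χ₀)) :=
    e.toLinearEquiv.finiteDimensional
  have hgalE : IsGalois K (IntermediateField.lift (crossField K hζ' χ₀)) :=
    IsGalois.of_algEquiv e
  have hnfE : NumberField (IntermediateField.lift (crossField K hζ' χ₀)) :=
    NumberField.of_module_finite K _
  refine ⟨m, hm, M, IntermediateField.lift (crossField K hζ' χ₀), hfd, hgalE, hnfE, hsq, hpr,
    hcop, ?_, ?_, ?_, ?_⟩
  · have := h1
    exact isCyclic_of_surjective (galEquiv e) (galEquiv e).surjective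
  · rw [← Nat.card_congr (galEquiv e).toEquiv]
    exact h2
  · intro Q hQ hQ0 hmQ
    obtain ⟨h4, h5⟩ := h3 (pull e Q) (pull_ne_bot e hQ0)
      (fun h => hmQ ((natCast_mem_pull e Q m).1 h))
    refine ⟨inertia_eq_bot_of_pull e h4, fun hsQ => ?_⟩
    rw [← pull_under e Q] at hsQ
    obtain ⟨h6, h7⟩ := h5 hsQ
    refine ⟨?_, fun τ hτ => ?_⟩
    · rw [← card_stabilizer_pull e Q]
      exact h6
    · have h8 := h7 ((galEquiv e).symm τ) (by
        rw [isArithFrobAt_pull_iff, MulEquiv.apply_symm_apply]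
        exact hτ)
      rwa [MulEquiv.orderOf_eq] at h8
  · intro γ hγ hγ1 l hl hprod
    have h9 := crossField_frobProd_eq_one_of_even K hζ' χ₀ heven hγ hγ1
      (isFrobList_pullList e hl) ((underProd_pullList e l).trans hprod)
    rw [frobProd_pullList] at h9
    have h10 := congrArg (galEquiv e) h9
    rwa [MulEquiv.apply_symm_apply, map_one] at h10

end Main

end Fermat.Agent.S55.GL.CrossTransport
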