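/-
S55 GLO9c (reciprocity): the CYCLIC reciprocity law, against abstract local data.

Part 1 (pure group cohomology, conventions of `Local/UnramClass.lean`).  `H = ⟨σ⟩` cyclic of
order `nH` acting on `MH`, `a ∈ MH` invariant, `[cyc σ a] ∈ H²(H, MH)`; `f : G →* H` and an
equivariant `ι : MH → M` ("localisation at a place").
* `invUnr_map_cyc` : if `(G, M)` is an unramified layer with Frobenius `φ`, the invariant of the
  localised class is `dlog_σ (f φ) * v (ι a) / nH` in `ℝ/ℤ`.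
* `exists_prod_smul_eq_of_map_cyc_eq_zero` : if `f` is injective and the localised class vanishes,
  then `ι a` is a norm from `M`: `ι a = ∏_{i < |G|} τ^i • b'` (`τ` a generator of `G`).
-/
import Mathlib
import Fermat.Agent.S55.Local.UnramClass
import Fermat.Agent.S55.GL.CycloRecip

set_option autoImplicit false
set_option linter.unusedSectionVars false

open groupCohomology CategoryTheory
open Fermat.Agent.S55.GC.CyclicH2 Fermat.Agent.S55.Local.UnramClass

namespace Fermat.Agent.S55.GL.RecipCyclic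

section Generic

variable {G : Type} [Group G] {M : Type} [CommGroup M] [MulDistribMulAction G M]
  {H : Type} [Group H] {MH : Type} [CommGroup MH] [MulDistribMulAction H MH]
  {σ : H} {nH : ℕ} [NeZero nH] (hgen : ∀ g : H, g ∈ Subgroup.zpowers σ) (hnH : orderOf σ = nH)
  (f : G →* H) (ι : Rep.res f (AM H MH) ⟶ AM G M)

/-- The localisation of an invariant element is invariant. -/
theorem ι_invariant {a : AM H MH} (ha : ∀ g, (AM H MH).ρ g a = a) (g : G) :
    (AM G M).ρ g (ι.hom a) = ι.hom a := by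
  rw [← Rep.hom_comm_apply]
  congr 1
  exact ha (f g)

/-- The localisation of the standard cocycle `cyc σ a` is the character cocycle of `dlog_σ ∘ f`. -/
theorem mapCocycles₂_cyc {a : AM H MH} (ha : ∀ g, (AM H MH).ρ g a = a) :
    mapCocycles₂ f ι ⟨cyc hgen hnH a, cyc_mem_cocycles₂ hgen hnH ha⟩ =
      ⟨cupChar (AM G M) ((dlogChar hgen hnH).comp f) (ι.hom a),
        cupChar_mem_cocycles₂ _ (ι_invariant f ι ha)⟩ := by
  apply cocycles₂_ext
  intro g h
  change ι.hom (cupChar (AM H MH) (dlogChar hgen hnH) a (f g, f h)) = _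
  rw [cupChar_apply, map_nsmul]
  rfl

/-- `nH * (n * r / nH) = n * r` for `r = dlog_σ (f φ)` when `φ ^ n = 1`. -/
theorem mul_div_dlog {φ : G} {n : ℕ} (hφ : φ ^ n = 1) :
    nH * (n * ((dlogChar hgen hnH).comp f φ).toAdd.val / nH) =
      n * ((dlogChar hgen hnH).comp f φ).toAdd.val := by
  have h1 := mul_sum_carry (σ := φ) ((dlogChar hgen hnH).comp f) n
  rw [hφ, map_one, toAdd_one, ZMod.val_zero, add_zero] at h1
  exact Nat.mul_div_cancel' ⟨_, h1.symm⟩

/-- **Invariant of a localised cyclic class at an unramified place.** -/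
theorem invUnr_map_cyc {φ : G} {n : ℕ} [NeZero n] {v : M →* Multiplicative ℤ}
    (hG : IsUnramLayer φ n v) {a : AM H MH} (ha : ∀ g, (AM H MH).ρ g a = a) :
    ZMod.toAddCircle (invUnr hG (groupCohomology.map f ι 2
      (H2π (AM H MH) ⟨cyc hgen hnH a, cyc_mem_cocycles₂ hgen hnH ha⟩))) =
    (((((((dlogChar hgen hnH) (f φ)).toAdd.val : ℕ) : ℤ) * vZ G v (ι.hom a) : ℤ) : ℝ) / nH : ℝ) := by
  rw [H2π_comp_map_apply, mapCocycles₂_cyc hgen hnH f ι ha,
    invUnr_cupChar hG _ _ (ι_invariant f ι ha), ZMod.toAddCircle_intCast]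
  have hφ : φ ^ n = 1 := hG.order ▸ pow_orderOf_eq_one φ
  have hS := mul_div_dlog hgen hnH f hφ
  rw [MonoidHom.comp_apply] at hS ⊢
  set r : ℕ := ((dlogChar hgen hnH) (f φ)).toAdd.val with hr
  set S : ℕ := n * r / nH with hSdef
  congr 1
  have hn0 : (n : ℝ) ≠ 0 := Nat.cast_ne_zero.mpr (NeZero.ne n)
  have hH0 : (nH : ℝ) ≠ 0 := Nat.cast_ne_zero.mpr (NeZero.ne nH)
  have hS' : (nH : ℝ) * S = n * r := by exact_mod_cast hS
  push_cast
  field_simp
  linear_combination (vZ G v (ι.hom a) : ℝ) * hS'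

theorem normσ_add_zsmul {A : Rep ℤ G} (τ : G) (n : ℕ) (s t : ℤ) (b₁ b₂ : A) :
    normσ τ n (s • b₁ + t • b₂) = s • normσ τ n b₁ + t • normσ τ n b₂ := by
  unfold normσ
  simp only [map_add, map_zsmul, Finset.sum_add_distrib, Finset.smul_sum]

theorem normσ_of_invariant {A : Rep ℤ G} (τ : G) (n : ℕ) {b : A} (hb : ∀ g, A.ρ g b = b) :
    normσ τ n b = n • b := by
  unfold normσ
  simp only [hb, Finset.sum_const, Finset.card_range]

/-- **A cyclic class with trivial localisation: `ι a` is a local norm.**  `f : G →* H` injective,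
`G = ⟨τ⟩` of order `nG`. -/
theorem exists_normσ_eq_of_map_cyc_eq_zero (hf : Function.Injective f) {τ : G} {nG : ℕ}
    [NeZero nG] (hgenG : ∀ g : G, g ∈ Subgroup.zpowers τ) (hnG : orderOf τ = nG)
    {a : AM H MH} (ha : ∀ g, (AM H MH).ρ g a = a)
    (h0 : groupCohomology.map f ι 2
      (H2π (AM H MH) ⟨cyc hgen hnH a, cyc_mem_cocycles₂ hgen hnH ha⟩) = 0) :
    ∃ b : AM G M, normσ τ nG b = ι.hom a := by
  rw [H2π_comp_map_apply, mapCocycles₂_cyc hgen hnH f ι ha,
    H2π_eq_zero_iff_ev hgenG hnG] at h0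
  obtain ⟨b₁, hb₁⟩ := h0
  have hτ : τ ^ nG = 1 := hnG ▸ pow_orderOf_eq_one τ
  have hev : ev τ nG (cupChar (AM G M) ((dlogChar hgen hnH).comp f) (ι.hom a)) =
      (nG * ((dlogChar hgen hnH).comp f τ).toAdd.val / nH) • ι.hom a := ev_cupChar hτ _ _
  have hS := mul_div_dlog hgen hnH f hτ
  rw [MonoidHom.comp_apply] at hS hev
  set r : ℕ := ((dlogChar hgen hnH) (f τ)).toAdd.val with hr
  set u : ℕ := nG * r / nH with hu
  have hb₁' : normσ τ nG b₁ = u • ι.hom a := hb₁.trans hev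
  have hG0 : 0 < nG := Nat.pos_of_ne_zero (NeZero.ne nG)
  have hH0 : 0 < nH := Nat.pos_of_ne_zero (NeZero.ne nH)
  have hσ : σ ^ nH = 1 := hnH ▸ pow_orderOf_eq_one σ
  -- `u` is prime to `nG`
  have hcop : Nat.Coprime u nG := by
    set d := Nat.gcd u nG with hd
    have hd0 : 0 < d := Nat.gcd_pos_of_pos_right _ hG0
    have hdu : d ∣ u := Nat.gcd_dvd_left _ _
    have hdG : d ∣ nG := Nat.gcd_dvd_right _ _
    have h1 : nH * (u / d) = nG / d * r := by
      apply Nat.eq_of_mul_eq_mul_right hd0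
      rw [mul_assoc, Nat.div_mul_cancel hdu, mul_right_comm, Nat.div_mul_cancel hdG, hS]
    have h2 : (f τ) ^ (nG / d) = 1 := by
      have h3 : σ ^ r = f τ := pow_val_dlogChar hgen hnH (f τ)
      rw [← h3, ← pow_mul, mul_comm, ← h1, pow_mul, hσ, one_pow]
    have h4 : nG ∣ nG / d := by
      have h4' : orderOf (f τ) ∣ nG / d := orderOf_dvd_of_pow_eq_one h2
      rwa [orderOf_injective f hf τ, hnG] at h4'
    have h5 : 0 < nG / d := Nat.div_pos (Nat.le_of_dvd hG0 hdG) hd0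
    have h6 : nG ≤ nG / d := Nat.le_of_dvd h5 h4
    have h7 : nG / d * d = nG := Nat.div_mul_cancel hdG
    have h8 : d = 1 := by
      by_contra hne
      have hd2 : 2 ≤ d := by omega
      have : nG / d * 2 ≤ nG / d * d := Nat.mul_le_mul_left _ hd2
      omega
    exact h8
  -- Bezout
  have hbez : (u : ℤ) * Int.gcdA u nG + (nG : ℤ) * Int.gcdB u nG = 1 := by
    have := Int.gcd_eq_gcd_ab (u : ℤ) (nG : ℤ)
    rw [Int.gcd_natCast_natCast, hcop, Nat.cast_one] at this
    exact this.symm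
  refine ⟨Int.gcdA u nG • b₁ + Int.gcdB u nG • ι.hom a, ?_⟩
  rw [normσ_add_zsmul, hb₁', normσ_of_invariant τ nG (ι_invariant f ι ha)]
  have e : ι.hom a = ((u : ℤ) * Int.gcdA u nG + (nG : ℤ) * Int.gcdB u nG) • ι.hom a := by
    rw [hbez, one_zsmul]
  conv_rhs => rw [e]
  rw [add_zsmul, mul_comm (u : ℤ), mul_comm (nG : ℤ), mul_zsmul, mul_zsmul, natCast_zsmul,
    natCast_zsmul]

end Generic

section NumberField

open NumberField IsDedekindDomain HeightOneSpectrum WithZero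
open Fermat.Agent.S14.ArtinMap Fermat.Agent.S14.TwoPrime Fermat.Agent.S14.GalDiv
open Fermat.Agent.S55.GL.WeakApprox Fermat.Agent.S55.GL.NormApprox
open Fermat.Agent.S55.GL.ArtinAway Fermat.Agent.S55.GL.RecipCore

variable {K E : Type} [Field K] [Field E] [NumberField K] [NumberField E] [Algebra K E]
  [IsGalois K E]

/-- A unit of `E` as an element of the `Gal(E/K)`-module `Eˣ`. -/
def toA (K : Type) {E : Type} [Field K] [Field E] [Algebra K E] (y : Eˣ) :
    AM (E ≃ₐ[K] E) Eˣ := Additive.ofMul y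

theorem toA_mul (x y : Eˣ) : toA K (x * y) = toA K x + toA K y := rfl

theorem toA_one : toA K (1 : Eˣ) = 0 := rfl

theorem toA_smul (g : E ≃ₐ[K] E) (y : Eˣ) :
    (AM (E ≃ₐ[K] E) Eˣ).ρ g (toA K y) = toA K (g • y) := rfl

/-- An element of `Kˣ` as an element of the `Gal(E/K)`-module `Eˣ`. -/
def ofBase (a : Kˣ) : AM (E ≃ₐ[K] E) Eˣ :=
  toA K (Units.map (algebraMap K E : K →* E) a)

theorem ofBase_invariant (a : Kˣ) (g : E ≃ₐ[K] E) :
    (AM (E ≃ₐ[K] E) Eˣ).ρ g (ofBase a) = ofBase a := by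
  rw [ofBase, toA_smul]
  congr 1
  apply Units.ext
  change g (algebraMap K E a) = algebraMap K E a
  exact g.commutes a

variable {σ : E ≃ₐ[K] E} {n : ℕ} [NeZero n] (hgen : ∀ g : E ≃ₐ[K] E, g ∈ Subgroup.zpowers σ)
  (hn : orderOf σ = n)

/-- The class `[cyc σ a] ∈ H²(Gal(E/K), Eˣ)` of `a ∈ Kˣ`. -/
noncomputable def cycClass (a : Kˣ) : H2 (AM (E ≃ₐ[K] E) Eˣ) :=
  H2π (AM (E ≃ₐ[K] E) Eˣ)
    ⟨cyc hgen hn (ofBase a), cyc_mem_cocycles₂ hgen hn (ofBase_invariant a)⟩

/-- Every class of `H²(Gal(E/K), Eˣ)`, `E/K` cyclic, is of the form `[cyc σ a]`. -/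
theorem exists_cycClass_eq (x : H2 (AM (E ≃ₐ[K] E) Eˣ)) : ∃ a : Kˣ, x = cycClass hgen hn a := by
  obtain ⟨a', ha', rfl⟩ := exists_H2π_cyc_eq hgen hn x
  -- an invariant unit of `E` comes from `K`
  have hfix : ∀ g : E ≃ₐ[K] E, g ((Additive.toMul (show Additive Eˣ from a') : Eˣ) : E) =
      ((Additive.toMul (show Additive Eˣ from a') : Eˣ) : E) := by
    intro g
    have := ha' g
    exact congrArg (fun y : Additive Eˣ => ((Additive.toMul y : Eˣ) : E)) this
  have hmem : ((Additive.toMul (show Additive Eˣ from a') : Eˣ) : E) ∈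
      (⊥ : IntermediateField K E) := by
    rw [← IsGalois.fixedField_top (F := K) (E := E), IntermediateField.mem_fixedField_iff]
    intro g _
    exact hfix g
  rw [IntermediateField.mem_bot] at hmem
  obtain ⟨a₀, ha₀⟩ := hmem
  have ha₀0 : a₀ ≠ 0 := by
    rintro rfl
    rw [map_zero] at ha₀
    exact (Units.ne_zero _) ha₀.symm
  refine ⟨Units.mk0 a₀ ha₀0, ?_⟩
  have e : a' = ofBase (Units.mk0 a₀ ha₀0) := by
    have e1 : a' = toA K (Additive.toMul (show Additive Eˣ from a')) := rfl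
    rw [e1, ofBase]
    congr 1
    apply Units.ext
    exact ha₀.symm
  subst e
  rfl

section Local

variable {D : Type} [Group D] {M : Type} [CommGroup M] [MulDistribMulAction D M]
  (f : D →* (E ≃ₐ[K] E)) (ι : Rep.res f (AM (E ≃ₐ[K] E) Eˣ) ⟶ AM D M)

/-- The localisation map on unit groups, multiplicatively. -/
def ιM : Eˣ →* M where
  toFun y := toM D (ι.hom (toA K y))
  map_one' := by
    rw [toA_one, map_zero]
    rfl
  map_mul' x y := by
    rw [toA_mul, map_add]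
    rfl

theorem ιM_apply (y : Eˣ) : ιM f ι y = toM D (ι.hom (toA K y)) := rfl

theorem ιM_smul (d : D) (y : Eˣ) : ιM f ι (f d • y) = d • ιM f ι y := by
  have := Rep.hom_comm_apply ι d (toA K y)
  exact congrArg (toM D) this

/-- **The invariant at an unramified place** of the cyclic class `[cyc σ a]`:
`dlog_σ(Frob) * ord_v(a) / n`. -/
theorem toAddCircle_invUnr_map_cycClass {φ : D} {nD : ℕ} [NeZero nD]
    {val : M →* Multiplicative ℤ} (hU : IsUnramLayer φ nD val)
    (w : HeightOneSpectrum (𝓞 E)) (hw : w.asIdeal.inertia (E ≃ₐ[K] E) = ⊥)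
    (hval : ∀ x : Eˣ, w.valuation E (x : E) = exp (-(val (ιM f ι x)).toAdd))
    (a : Kˣ) (k : ℤ) (hk : (underK K w).valuation K (a : K) = exp (-k)) :
    ZMod.toAddCircle (invUnr hU (groupCohomology.map f ι 2 (cycClass hgen hn a))) =
      (((((((dlogChar hgen hn) (f φ)).toAdd.val : ℕ) : ℤ) * k : ℤ) : ℝ) / n : ℝ) := by
  have h1 := invUnr_map_cyc hgen hn f ι hU (ofBase_invariant (K := K) (E := E) a)
  have h2 : vZ D val (ι.hom (ofBase a)) = k := by
    have h3 := hval (Units.map (algebraMap K E : K →* E) a)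
    have h4 := valuation_algebraMap_of_inertia_eq_bot w hw (a : K)
    have h5 : ((Units.map (algebraMap K E : K →* E) a : Eˣ) : E) = algebraMap K E (a : K) := rfl
    rw [h5, h4, hk, exp_inj, neg_inj] at h3
    exact h3.symm
  rw [h2] at h1
  exact h1

/-- **A cyclic class with trivial localisation at `w`: `a` is a local norm at `w`**, in the
approximate form of `NormApprox`.  `f : D →* Gal(E/K)` is injective with image the decomposition
group of `w`; `U k` is a decreasing family of `D`-stable subgroups of `M` ("`1 + 𝔪_w^k`") with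
`ι⁻¹(U k) ⊆ {x ≡ 1 mod^× w^k}` and `ι(Eˣ)` dense in `M`. -/
theorem exists_localNorm_of_map_cycClass_eq_zero (hf : Function.Injective f)
    (w : HeightOneSpectrum (𝓞 E)) (hfr : ∀ g : E ≃ₐ[K] E, g ∈ f.range ↔ g • w = w)
    (U : ℕ → Subgroup M) (hU1 : ∀ (k : ℕ) (d : D) (u : M), u ∈ U k → d • u ∈ U k)
    (hU2 : ∀ (k : ℕ) (x : Eˣ), ιM f ι x ∈ U k → OneMod w k (x : E))
    (hU3 : ∀ (b' : M) (k : ℕ), ∃ b : Eˣ, ιM f ι b / b' ∈ U k)
    (a : Kˣ) (h0 : groupCohomology.map f ι 2 (cycClass hgen hn a) = 0) (k : ℕ) :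
    ∃ b : E, b ≠ 0 ∧ OneMod w k (decompNorm (K := K) w b / algebraMap K E (a : K)) := by
  classical
  have : Finite D := Finite.of_injective f hf
  have : IsCyclic (E ≃ₐ[K] E) := ⟨σ, hgen⟩
  have : IsCyclic D := isCyclic_of_injective f hf
  obtain ⟨τ, hτ⟩ := IsCyclic.exists_generator (α := D)
  set nD : ℕ := orderOf τ with hnD
  have : NeZero nD := ⟨(orderOf_pos τ).ne'⟩
  obtain ⟨b', hb'⟩ := exists_normσ_eq_of_map_cyc_eq_zero hgen hn f ι hf hτ rfl
    (ofBase_invariant (K := K) (E := E) a) h0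
  have hb'M : ∏ i ∈ Finset.range nD, (τ ^ i) • toM D b' =
      ιM f ι (Units.map (algebraMap K E : K →* E) a) := by
    rw [← toM_normσ, hb']
    rfl
  obtain ⟨b, hb⟩ := hU3 (toM D b') k
  refine ⟨(b : E), b.ne_zero, ?_⟩
  -- the decomposition group as the powers of `f τ`
  have hset : Finset.univ.filter (fun g : E ≃ₐ[K] E => g • w = w) =
      (Finset.range nD).image (fun i => f τ ^ i) := by
    ext g
    simp only [Finset.mem_filter, Finset.mem_univ, true_and, Finset.mem_image, Finset.mem_range]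
    rw [← hfr g]
    constructor
    · rintro ⟨d, rfl⟩
      have h1 := (mem_zpowers_iff_mem_range_orderOf (x := τ) (y := d)).1 (hτ d)
      rw [Finset.mem_image] at h1
      obtain ⟨i, hi, rfl⟩ := h1
      exact ⟨i, Finset.mem_range.1 hi, (map_pow f τ i).symm⟩
    · rintro ⟨i, -, rfl⟩
      exact ⟨τ ^ i, map_pow f τ i⟩
  have hinj : Set.InjOn (fun i => f τ ^ i) (Finset.range nD : Set ℕ) := by
    intro i hi j hj hij
    have h1 : f (τ ^ i) = f (τ ^ j) := by rw [map_pow, map_pow]; exact hij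
    have h2 := hf h1
    exact pow_injOn_Iio_orderOf (by simpa using hi) (by simpa using hj) h2
  have hdec : decompNorm (K := K) w (b : E) =
      ((∏ i ∈ Finset.range nD, (f τ ^ i) • b : Eˣ) : E) := by
    rw [decompNorm, hset, Finset.prod_image hinj, Units.coe_prod]
    rfl
  -- the unit `x = N_D(b) / a`
  set x : Eˣ := (∏ i ∈ Finset.range nD, (f τ ^ i) • b) / Units.map (algebraMap K E : K →* E) a
    with hx
  have hxE : (x : E) = decompNorm (K := K) w (b : E) / algebraMap K E (a : K) := by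
    rw [hx, Units.val_div_eq_div_val, hdec]
    rfl
  rw [← hxE]
  apply hU2
  have h1 : ιM f ι x = ∏ i ∈ Finset.range nD, (τ ^ i) • (ιM f ι b / toM D b') := by
    rw [hx, map_div, map_prod, ← hb'M, ← Finset.prod_div_distrib]
    refine Finset.prod_congr rfl fun i _ => ?_
    rw [← map_pow, ιM_smul, smul_div']
  rw [h1]
  exact Subgroup.prod_mem _ fun i _ => hU1 k _ _ hb

end Local

section Global

open scoped IsMulCommutative

variable [IsMulCommutative (E ≃ₐ[K] E)] {m : ℕ}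

/-- At a prime `w ∤ m` (unramified), any Frobenius element at `w` is `frobAway` of the prime
below. -/
theorem frobAway_eq_of_isArithFrobAt
    (hunr : ∀ Q : Ideal (𝓞 E), Q.IsPrime → Q ≠ ⊥ → (m : 𝓞 E) ∉ Q →
      Q.inertia (E ≃ₐ[K] E) = ⊥)
    (w : HeightOneSpectrum (𝓞 E)) (hmw : (m : 𝓞 K) ∉ (underK K w).asIdeal)
    {g : E ≃ₐ[K] E} (hg : IsArithFrobAt (𝓞 K) g w.asIdeal) :
    frobAway K E m (underK K w).asIdeal = g := by
  rw [frobAway_of_not_mem K E m hmw]
  have hP : (underK K w).asIdeal.IsPrime := (underK K w).isPrime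
  have hQ : w.asIdeal.IsPrime := w.isPrime
  have hfr := isArithFrobAt_frob (K := K) (L := E) (underK K w).ne_bot w.asIdeal
  have : Finite ((𝓞 E) ⧸ w.asIdeal) := Ideal.finiteQuotientOfFreeOfNeBot w.asIdeal w.ne_bot
  have hin := IsArithFrobAt.mul_inv_mem_inertia hg hfr
  have hmw' : (m : 𝓞 E) ∉ w.asIdeal := fun h => hmw (natCast_mem_under (K := K) h)
  rw [hunr w.asIdeal w.isPrime w.ne_bot hmw', Subgroup.mem_bot, mul_inv_eq_one] at hin
  exact hin.symm

variable [NeZero m]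

/-- **Theorem II in additive form**: `Σ_{v ∤ m} dlog_σ(Frob_v) * ord_v(a) / n = 0` in `ℝ/ℤ`, for
`a ∈ Kˣ` a local norm at all `v ∣ m`. -/
theorem sum_dlog_frobAway_eq_zero
    (hunr : ∀ Q : Ideal (𝓞 E), Q.IsPrime → Q ≠ ⊥ → (m : 𝓞 E) ∉ Q →
      Q.inertia (E ≃ₐ[K] E) = ⊥)
    (hrec : ∀ γ : 𝓞 K, γ ≠ 0 → γ - 1 ∈ Ideal.span {(m : 𝓞 K)} →
      ∀ l : List (Ideal (𝓞 E) × (E ≃ₐ[K] E)), IsFrobList m l → underProd l = Ideal.span {γ} →
        frobProd l = 1)
    {a : K} (ha : a ≠ 0)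
    (wsel : HeightOneSpectrum (𝓞 K) → HeightOneSpectrum (𝓞 E))
    (hw : ∀ v : HeightOneSpectrum (𝓞 K), (m : 𝓞 K) ∈ v.asIdeal → underK K (wsel v) = v)
    (hLN : ∀ v : HeightOneSpectrum (𝓞 K), (m : 𝓞 K) ∈ v.asIdeal → ∀ k : ℕ, ∃ b : E, b ≠ 0 ∧
      OneMod (wsel v) k (decompNorm (K := K) (wsel v) b / algebraMap K E a))
    (T : Finset (HeightOneSpectrum (𝓞 K)))
    (hT : ∀ v : HeightOneSpectrum (𝓞 K), (m : 𝓞 K) ∉ v.asIdeal → v.valuation K a ≠ 1 → v ∈ T)
    (nv : HeightOneSpectrum (𝓞 K) → ℤ) (hnv : ∀ v ∈ T, v.valuation K a = exp (-(nv v))) :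
    ∑ v ∈ T, ((((((((dlogChar hgen hn) (frobAway K E m v.asIdeal)).toAdd.val : ℕ) : ℤ) * nv v : ℤ)
      : ℝ) / n : ℝ) : UnitAddCircle) = 0 := by
  have h := prod_frobAway_zpow_eq_one hunr hrec ha wsel hw hLN T hT nv hnv
  have h2 := congrArg (dlogChar hgen hn) h
  rw [map_prod, map_one] at h2
  simp only [map_zpow] at h2
  have h3 : ∑ v ∈ T, nv v • ((dlogChar hgen hn) (frobAway K E m v.asIdeal)).toAdd = 0 := by
    have := congrArg Multiplicative.toAdd h2
    rw [toAdd_prod, toAdd_one] at this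
    simpa only [toAdd_zpow] using this
  have h4 := congrArg (ZMod.toAddCircle (N := n)) h3
  rw [map_sum, map_zero] at h4
  rw [← h4]
  apply Finset.sum_congr rfl
  intro v _
  rw [map_zsmul, ZMod.toAddCircle_apply, ← AddCircle.coe_zsmul]
  congr 1
  rw [zsmul_eq_mul]
  push_cast
  ring

end Global

end NumberField

end Fermat.Agent.S55.GL.RecipCyclic
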