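/-
S55 GLO9c (reciprocity), plumbing part 2: the LOCAL INPUTS of the cyclic reciprocity law at a place
`(q, τ)` of `L`, for a finite Galois layer `E/L` inside `ℚ̄` (setting of `RecipLayer`).

* `oneUnits v k` : the subgroup `{u | v (u - 1) ≤ exp (-(k+1))}` of the units of a valued field;
* `primeE`, `vEw` : the prime of `𝓞 E` cut out by `(q, τ)` and the valuation of `E_w`;
* `exists_localNorm_of_map_eq_zero` : a cyclic class `[cyc σ a]` of `H²(Gal(E/L), Eˣ)` with trivial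
  localisation at `w` has `a` an approximate local norm at `w` (input `hLN` of Theorem II);
* `inv_levelInf_of_isUnramifiedIn` : the invariant of a class inflated from an unramified layer.
-/
import Fermat.Agent.S55.GL.RecipLayer
import Fermat.Agent.S55.GL.RecipCyclic
import Fermat.Agent.S55.GL.PlacesDVR
import Fermat.Agent.S55.Local.PadicFormation

set_option autoImplicit false
set_option linter.unusedSectionVars false
set_option linter.style.haveILetI false

open CategoryTheory groupCohomology IntermediateField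

namespace Fermat.Agent.S55.GL.RecipLocal

open WithZero

/-! ### One-units of a valued field -/

section OneUnits

variable {F : Type*} [Field F] (v : Valuation F ℤᵐ⁰)

theorem exp_neg_succ_lt_one (k : ℕ) : (exp (-((k : ℤ) + 1)) : ℤᵐ⁰) < 1 := by
  rw [← exp_zero, exp_lt_exp]
  omega

theorem val_eq_one_of_sub_one_le {k : ℕ} {u : F} (hu : v (u - 1) ≤ exp (-((k : ℤ) + 1))) :
    v u = 1 := by
  have h : v (u - 1) < 1 := lt_of_le_of_lt hu (exp_neg_succ_lt_one k)
  have := Valuation.map_one_add_of_lt v h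
  rwa [add_sub_cancel] at this

/-- The subgroup `{u | v (u - 1) ≤ exp (-(k+1))}` of `Fˣ`. -/
def oneUnits (k : ℕ) : Subgroup Fˣ where
  carrier := {u | v ((u : F) - 1) ≤ exp (-((k : ℤ) + 1))}
  one_mem' := by
    show v (((1 : Fˣ) : F) - 1) ≤ _
    rw [Units.val_one, sub_self, map_zero]
    exact zero_le
  mul_mem' := by
    intro x y hx hy
    show v (((x * y : Fˣ) : F) - 1) ≤ _
    have e : ((x * y : Fˣ) : F) - 1 = ((x : F) - 1) * (y : F) + ((y : F) - 1) := by
      rw [Units.val_mul]; ring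
    rw [e]
    refine Valuation.map_add_le _ ?_ hy
    rw [map_mul, val_eq_one_of_sub_one_le v hy, mul_one]
    exact hx
  inv_mem' := by
    intro x hx
    show v (((x⁻¹ : Fˣ) : F) - 1) ≤ _
    have e : ((x⁻¹ : Fˣ) : F) - 1 = -(((x : F) - 1) * ((x⁻¹ : Fˣ) : F)) := by
      have : (x : F) * ((x⁻¹ : Fˣ) : F) = 1 := by
        rw [← Units.val_mul, mul_inv_cancel, Units.val_one]
      linear_combination this
    have hxinv : v ((x⁻¹ : Fˣ) : F) = 1 := by
      have h1 : v (x : F) * v ((x⁻¹ : Fˣ) : F) = 1 := by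
        rw [← map_mul, ← Units.val_mul, mul_inv_cancel, Units.val_one, map_one]
      rwa [val_eq_one_of_sub_one_le v hx, one_mul] at h1
    rw [e, Valuation.map_neg, map_mul, hxinv, mul_one]
    exact hx

theorem mem_oneUnits_iff (k : ℕ) (u : Fˣ) :
    u ∈ oneUnits v k ↔ v ((u : F) - 1) ≤ exp (-((k : ℤ) + 1)) := Iff.rfl

end OneUnits

/-! ### The place `(q, τ)` on the layer `E/L` -/

section Place

open NumberField IsDedekindDomain HeightOneSpectrum
open Fermat.Agent.S14.GalDiv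
open Fermat.Agent.S55.Local Fermat.Agent.S55.LocalDict
open Fermat.Agent.S55.GL.Places Fermat.Agent.S55.GL.PlacesRel Fermat.Agent.S55.GL.PlacesDVR
open Fermat.Agent.S55.GL.RecipLayer Fermat.Agent.S55.GL.RecipCyclic
open Fermat.Agent.S55.GL.WeakApprox Fermat.Agent.S55.GL.NormApprox

local notation "Qbar" => AlgebraicClosure ℚ
local notation "Γ" => (AlgebraicClosure ℚ ≃ₐ[ℚ] AlgebraicClosure ℚ)

local instance isGaloisQbar_RLoc : IsGalois ℚ Qbar := Fermat.Agent.S55.Level.isGalois_Qbar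

variable (q : ℕ) [Fact q.Prime] (L : IntermediateField ℚ Qbar) (τ : Γ)
  [FiniteDimensional ℚ L] [NumberField ↥L]
  (E : IntermediateField ↥L Qbar) [IsGalois ↥L ↥E] [FiniteDimensional ↥L ↥E] [NumberField ↥E]

section Wrap

attribute [local instance] Fermat.Agent.S55.GL.RecipLayer.algebraE₀
  Fermat.Agent.S55.GL.RecipLayer.normalE₀ Fermat.Agent.S55.GL.RecipLayer.finiteDimensionalE₀

local instance isGaloisE₀' : IsGalois ↥L ↥(E₀ L E) := inferInstanceAs (IsGalois ↥L ↥E)

local instance numberFieldE₀' : NumberField ↥(E₀ L E) := inferInstanceAs (NumberField ↥E)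

/-- The prime of `𝓞 E` cut out by the place `(q, τ)`. -/
noncomputable def primeE : HeightOneSpectrum (𝓞 ↥E) := primeAt q (E₀ L E) τ

/-- `primeE` lies over `primeAt q L τ`. -/
theorem underK_primeE : underK ↥L (primeE q L τ E) = primeAt q L τ := by
  apply HeightOneSpectrum.ext
  ext x
  rw [underK_asIdeal, Ideal.under_def, Ideal.mem_comap]
  exact (mem_primeAt_iff_of_coe_eq (K := L) (L := E₀ L E) q τ x (algebraMap (𝓞 ↥L) (𝓞 ↥E) x)
    rfl).symm

/-- The stabiliser of `primeE` is the decomposition group. -/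
theorem smul_primeE_iff (g : ↥E ≃ₐ[↥L] ↥E) :
    g • primeE q L τ E = primeE q L τ E ↔ g ∈ decompE q L τ E :=
  (mem_decompAt_iff_smul (K := L) (L := E₀ L E) q τ (halgE L E) g).symm

/-- `E_w` as the completion of `E` (a field over `ℚ_q`): the identity map. -/
noncomputable def toLocE₀ : ↥(Ew q L τ E) →+* ↥(localFieldAt q (E₀ L E) τ) where
  toFun y := ⟨y, (mem_Ew q L τ E).1 y.2⟩
  map_one' := rfl
  map_mul' _ _ := rfl
  map_zero' := rfl
  map_add' _ _ := rfl

/-- The normalised valuation of `E_w`. -/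
noncomputable def vEw : Valuation ↥(Ew q L τ E) ℤᵐ⁰ :=
  (dvrValuation (integralClosure ℤ_[q] (localFieldAt q (E₀ L E) τ))
    (localFieldAt q (E₀ L E) τ)).comap (toLocE₀ q L τ E)

theorem vEw_embE (x : E) : vEw q L τ E (embE q L τ E x) = (primeE q L τ E).valuation ↥E x :=
  dvrValuation_embAt q (E₀ L E) τ x

theorem vEw_algEquiv (δ : ↥(Ew q L τ E) ≃ₐ[localFieldAt q L τ] ↥(Ew q L τ E))
    (y : ↥(Ew q L τ E)) : vEw q L τ E (δ y) = vEw q L τ E y := by
  unfold vEw
  rw [Valuation.comap_apply, Valuation.comap_apply, dvrValuation_eq_iff_norm_eq]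
  exact norm_algEquiv_localExt (K := L) (L := E₀ L E) q τ (halgE L E) δ y

theorem exists_vEw_embE_div_sub_one_le (b' : ↥(Ew q L τ E)) (hb' : b' ≠ 0) (k : ℕ) :
    ∃ b : ↥E, b ≠ 0 ∧ vEw q L τ E (embE q L τ E b / b' - 1) ≤ exp (-(k : ℤ)) := by
  have hb0 : toLocE₀ q L τ E b' ≠ 0 := (map_ne_zero _).2 hb'
  obtain ⟨b, hb, h⟩ := exists_dvrValuation_embAt_div_sub_one_le q (E₀ L E) τ
    (toLocE₀ q L τ E b') hb0 k
  exact ⟨b, hb, h⟩

end Wrap

/-- `ιM` of the localisation is `Units.map embE`. -/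
theorem ιM_ιLoc (x : (↥E)ˣ) :
    ιM (K := ↥L) (E := ↥E) (D := ↥(Ew q L τ E) ≃ₐ[localFieldAt q L τ] ↥(Ew q L τ E))
      (M := (↥(Ew q L τ E))ˣ) (fLoc q L τ E) (ιLoc q L τ E) x =
      Units.map (embE q L τ E).toMonoidHom x := rfl

/-- **(L2)**: a cyclic class `[cyc σ a]` of `H²(Gal(E/L), Eˣ)` whose localisation at the place
`(q, τ)` vanishes has `a` an approximate local norm at `primeE` (hypothesis `hLN` of
`RecipCyclic.sum_dlog_frobAway_eq_zero`). -/
theorem exists_localNorm_of_map_eq_zero {σ : ↥E ≃ₐ[↥L] ↥E} {n : ℕ} [NeZero n]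
    (hgen : ∀ g : ↥E ≃ₐ[↥L] ↥E, g ∈ Subgroup.zpowers σ) (hn : orderOf σ = n) (a : (↥L)ˣ)
    (h0 : groupCohomology.map (fLoc q L τ E) (ιLoc q L τ E) 2 (cycClass hgen hn a) = 0)
    (k : ℕ) :
    ∃ b : ↥E, b ≠ 0 ∧ OneMod (primeE q L τ E) k
      (decompNorm (K := ↥L) (primeE q L τ E) b / algebraMap ↥L ↥E (a : ↥L)) := by
  refine exists_localNorm_of_map_cycClass_eq_zero (K := ↥L) (E := ↥E)
    (D := ↥(Ew q L τ E) ≃ₐ[localFieldAt q L τ] ↥(Ew q L τ E)) (M := (↥(Ew q L τ E))ˣ)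
    hgen hn (fLoc q L τ E) (ιLoc q L τ E) (fLoc_injective q L τ E) (primeE q L τ E) ?_
    (fun k => oneUnits (vEw q L τ E) k) ?_ ?_ ?_ a h0 k
  · intro g
    rw [smul_primeE_iff, ← range_fLoc]
  · intro k d u hu
    rw [mem_oneUnits_iff] at hu
    show vEw q L τ E (d (u : ↥(Ew q L τ E)) - 1) ≤ _
    have h1 : d (u : ↥(Ew q L τ E)) - 1 = d ((u : ↥(Ew q L τ E)) - 1) := by
      rw [map_sub, map_one]
    rw [h1, vEw_algEquiv]
    exact hu
  · intro k x hx
    rw [ιM_ιLoc, mem_oneUnits_iff] at hx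
    have h1 : ((Units.map (embE q L τ E).toMonoidHom x : (↥(Ew q L τ E))ˣ) : ↥(Ew q L τ E)) - 1 =
        embE q L τ E ((x : ↥E) - 1) := by
      rw [map_sub, map_one]
      rfl
    rw [h1, vEw_embE] at hx
    exact OneMod.mono (Nat.le_succ k) (by
      rw [oneMod_iff]
      exact_mod_cast hx)
  · intro b' k
    obtain ⟨b, hb, h⟩ := exists_vEw_embE_div_sub_one_le q L τ E (b' : ↥(Ew q L τ E))
      b'.ne_zero (k + 1)
    refine ⟨Units.mk0 b hb, ?_⟩
    rw [ιM_ιLoc, mem_oneUnits_iff]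
    have h1 : ((Units.map (embE q L τ E).toMonoidHom (Units.mk0 b hb) / b' :
        (↥(Ew q L τ E))ˣ) : ↥(Ew q L τ E)) = embE q L τ E b / (b' : ↥(Ew q L τ E)) := by
      rw [Units.val_div_eq_div_val]
      rfl
    rw [h1]
    exact_mod_cast h

/-! ### Unramified places -/

section Unram

open Fermat.Agent.S55.Level Fermat.Agent.S55.LevelLayer Fermat.Agent.S55.GaloisLevel
open Fermat.Agent.S55.GC.GaloisLayerInf Fermat.Agent.S55.GC.CyclicH2
open Fermat.Agent.S55.Local.Unram Fermat.Agent.S55.Local.UnramClass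
open Fermat.Agent.S55.Local.Invariant Fermat.Agent.S55.Local.InvariantLevel
open Fermat.Agent.S55.Local.PadicFormation Fermat.Agent.S55.GL.ArtinAway

/-- **The field-level data at a place `(q, τ)` of `L` where `E/L` is unramified**: `E_w/L_v` is
unramified, its Frobenius induces a Frobenius element of `primeE`, and the normalised valuation of
`E_w` restricts to the valuation of `primeE`. -/
structure UnramAt : Prop where
  unr : IsUnramifiedIn (integralClosure ℤ_[q] (localFieldAt q L τ)) (Ew q L τ E)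
  frob : IsArithFrobAt (𝓞 ↥L) (fLoc q L τ E unr.frob) (primeE q L τ E).asIdeal
  val : ∀ x : (↥E)ˣ, (primeE q L τ E).valuation ↥E (x : ↥E) =
    exp (-(ordE unr (Units.map (embE q L τ E).toMonoidHom x)).toAdd)

variable {q L τ E}

set_option maxHeartbeats 1600000 in
/-- **(L1)**: the local invariant at an unramified place of a class inflated from the cyclic layer
`Gal(E/L)`: `dlog_σ(Frob) * ord_v(a) / n`. -/
theorem inv_locG_levelInf_cycClass (H : PadicInput q) (U : UnramAt q L τ E)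
    (hw : (primeE q L τ E).asIdeal.inertia (↥E ≃ₐ[↥L] ↥E) = ⊥)
    {σ : ↥E ≃ₐ[↥L] ↥E} {n : ℕ} [NeZero n]
    (hgen : ∀ g : ↥E ≃ₐ[↥L] ↥E, g ∈ Subgroup.zpowers σ) (hn : orderOf σ = n) (a : (↥L)ˣ)
    (k : ℤ) (hk : (primeAt q L τ).valuation ↥L (a : ↥L) = exp (-k)) :
    (formationAt H (localFieldAt q L τ)).inv
      ((locG q L τ 2).hom ((levelInf (krullLevel ↥L Qbar) (unitsRep ↥L Qbar)
        (fixingSubgroup_mem_krullLevel E) 2).hom
          ((unitsLayerIsoF ↥L Qbar E 2).inv.hom (cycClass hgen hn a)))) =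
      (((((((dlogChar hgen hn) (fLoc q L τ E U.unr.frob)).toAdd.val : ℕ) : ℤ) * k : ℤ) : ℝ) / n
        : ℝ) := by
  obtain ⟨m, hm⟩ : ∃ m : ℕ, Module.finrank (localFieldAt q L τ) ↥(Ew q L τ E) = m := ⟨_, rfl⟩
  haveI : NeZero m := ⟨by rw [← hm]; exact Module.finrank_pos.ne'⟩
  have h0 := locG_levelInf q L τ E (cycClass hgen hn a)
  refine (congrArg (fun z => (formationAt H (localFieldAt q L τ)).inv z) h0).trans ?_
  have h1 := inv_levelInf_formationAt H (localFieldAt q L τ) U.unr hm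
    ((unitsLayerIsoF (localFieldAt q L τ) (PadicAlgCl q) (Ew q L τ E) 2).inv.hom
      ((groupCohomology.map (fLoc q L τ E) (ιLoc q L τ E) 2).hom (cycClass hgen hn a)))
  have h3 : (unitsLayerIsoF (localFieldAt q L τ) (PadicAlgCl q) (Ew q L τ E) 2).hom.hom
      ((unitsLayerIsoF (localFieldAt q L τ) (PadicAlgCl q) (Ew q L τ E) 2).inv.hom
        ((groupCohomology.map (fLoc q L τ E) (ιLoc q L τ E) 2).hom (cycClass hgen hn a))) =
      (groupCohomology.map (fLoc q L τ E) (ιLoc q L τ E) 2).hom (cycClass hgen hn a) :=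
    congrArg (fun ψ => ψ.hom ((groupCohomology.map (fLoc q L τ E) (ιLoc q L τ E) 2).hom
      (cycClass hgen hn a)))
      (unitsLayerIsoF (localFieldAt q L τ) (PadicAlgCl q) (Ew q L τ E) 2).inv_hom_id
  rw [h3] at h1
  refine h1.trans ?_
  have hk' : (underK ↥L (primeE q L τ E)).valuation ↥L (a : ↥L) = exp (-k) := by
    rw [underK_primeE]
    exact hk
  have hval : ∀ x : (↥E)ˣ, (primeE q L τ E).valuation ↥E (x : ↥E) =
      exp (-(ordE U.unr (ιM (K := ↥L) (E := ↥E)
        (D := ↥(Ew q L τ E) ≃ₐ[localFieldAt q L τ] ↥(Ew q L τ E))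
        (M := (↥(Ew q L τ E))ˣ) (fLoc q L τ E) (ιLoc q L τ E) x)).toAdd) := U.val
  exact toAddCircle_invUnr_map_cycClass (K := ↥L) (E := ↥E)
    (D := ↥(Ew q L τ E) ≃ₐ[localFieldAt q L τ] ↥(Ew q L τ E)) (M := (↥(Ew q L τ E))ˣ)
    hgen hn (fLoc q L τ E) (ιLoc q L τ E) (isUnramLayer_of_finrank U.unr hm)
    (primeE q L τ E) hw hval a k hk'

/-- At an unramified place `w ∤ m`, the Frobenius of `E_w/L_v` induces `frobAway` of the prime
below. -/
theorem frobAway_eq_fLoc_frob [IsMulCommutative (↥E ≃ₐ[↥L] ↥E)] (U : UnramAt q L τ E) {m : ℕ}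
    (hunr : ∀ Q : Ideal (𝓞 ↥E), Q.IsPrime → Q ≠ ⊥ → (m : 𝓞 ↥E) ∉ Q →
      Q.inertia (↥E ≃ₐ[↥L] ↥E) = ⊥)
    (hm : (m : 𝓞 ↥L) ∉ (primeAt q L τ).asIdeal) :
    frobAway ↥L ↥E m (primeAt q L τ).asIdeal = fLoc q L τ E U.unr.frob := by
  have h := frobAway_eq_of_isArithFrobAt (K := ↥L) (E := ↥E) hunr (primeE q L τ E)
    (by rw [underK_primeE]; exact hm) U.frob
  rw [underK_primeE] at h
  exact h

end Unram

end Place

end Fermat.Agent.S55.GL.RecipLocal
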