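/-
S55 GLO9c (R), plumbing part 4: finite places of `L` (helper14's `FinPlace L`) versus height one
primes of `𝓞 L`; reindexing of finite sums.
-/
import Fermat.Agent.S55.GL.BrauerLocal
import Fermat.Agent.S55.GL.PlacesDVR

set_option autoImplicit false
set_option linter.unusedSectionVars false

open IntermediateField

namespace Fermat.Agent.S55.GL.RecipPlaces

open NumberField IsDedekindDomain HeightOneSpectrum
open Fermat.Agent.S55.LocalDict Fermat.Agent.S55.GL.Places Fermat.Agent.S55.GL.PlacesDVR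
open Fermat.Agent.S55.GL.BrauerLocal

local notation "Qbar" => AlgebraicClosure ℚ
local notation "Γ" => (AlgebraicClosure ℚ ≃ₐ[ℚ] AlgebraicClosure ℚ)

local instance factPrime_RP (q : Nat.Primes) : Fact (q : ℕ).Prime := ⟨q.2⟩

/-- Two coprime natural numbers do not both lie in a proper ideal. -/
theorem natCast_not_mem_of_coprime {R : Type*} [CommRing R] (I : Ideal R) (hI : I ≠ ⊤) {a b : ℕ}
    (hab : a.Coprime b) (ha : (a : R) ∈ I) : (b : R) ∉ I := by
  intro hb
  apply hI
  rw [Ideal.eq_top_iff_one]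
  obtain ⟨u, v, huv⟩ := Nat.isCoprime_iff_coprime.2 hab
  have h1 : ((u : ℤ) : R) * (a : R) + ((v : ℤ) : R) * (b : R) = 1 := by
    have := congrArg (Int.cast : ℤ → R) huv
    push_cast at this
    exact this
  rw [← h1]
  exact I.add_mem (I.mul_mem_left _ ha) (I.mul_mem_left _ hb)

variable (L : IntermediateField ℚ Qbar) [FiniteDimensional ℚ L] [NumberField ↥L]

/-- The prime of `𝓞 L` of a finite place. -/
noncomputable def primeOfPlace (w : FinPlace L) : HeightOneSpectrum (𝓞 ↥L) :=
  primeAt (w.prime : ℕ) L w.rep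

theorem natCast_prime_mem (w : FinPlace L) :
    (((w.prime : ℕ)) : 𝓞 ↥L) ∈ (primeOfPlace L w).asIdeal :=
  natCast_mem_primeAt (w.prime : ℕ) L w.rep

/-- The rational prime below a prime of `𝓞 L` is unique. -/
theorem eq_of_natCast_mem (v : HeightOneSpectrum (𝓞 ↥L)) {q q' : Nat.Primes}
    (hq : ((q : ℕ) : 𝓞 ↥L) ∈ v.asIdeal) (hq' : ((q' : ℕ) : 𝓞 ↥L) ∈ v.asIdeal) : q = q' := by
  by_contra hne
  have hcop : (q : ℕ).Coprime (q' : ℕ) :=
    (Nat.coprime_primes q.2 q'.2).2 (fun h => hne (Subtype.ext h))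
  exact natCast_not_mem_of_coprime v.asIdeal v.isPrime.ne_top hcop hq hq'

theorem primeOfPlace_of (q : Nat.Primes) (σ : Γ) :
    primeOfPlace L (FinPlace.of L q σ) = primeAt (q : ℕ) L σ :=
  prime_placeOf (q : ℕ) σ

theorem primeOfPlace_injective : Function.Injective (primeOfPlace L) := by
  rintro ⟨q, u⟩ ⟨q', u'⟩ h
  have hqq : q = q' := by
    refine eq_of_natCast_mem L (primeOfPlace L ⟨q, u⟩) (natCast_prime_mem L ⟨q, u⟩) ?_
    rw [h]
    exact natCast_prime_mem L ⟨q', u'⟩
  subst hqq
  have : u = u' := PlacesOver.prime_injective (q : ℕ) h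
  rw [this]

/-- The finite place of `L` attached to a prime of `𝓞 L`. -/
noncomputable def placeOfPrime (v : HeightOneSpectrum (𝓞 ↥L)) : FinPlace L :=
  FinPlace.of L (ratPrime L v) (sigmaAt L v)

theorem primeOfPlace_placeOfPrime (v : HeightOneSpectrum (𝓞 ↥L)) :
    primeOfPlace L (placeOfPrime L v) = v := by
  rw [placeOfPrime, primeOfPlace_of, primeAt_sigmaAt]

theorem placeOfPrime_primeOfPlace (w : FinPlace L) : placeOfPrime L (primeOfPlace L w) = w :=
  primeOfPlace_injective L (primeOfPlace_placeOfPrime L _)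

/-- **Reindexing**: a finite set of primes of `𝓞 L` as a finite set of finite places. -/
theorem exists_finset_finPlace (T' : Finset (HeightOneSpectrum (𝓞 ↥L))) :
    ∃ F : Finset (FinPlace L), (∀ w : FinPlace L, w ∈ F ↔ primeOfPlace L w ∈ T') ∧
      ∀ {M : Type} [AddCommMonoid M] (g : HeightOneSpectrum (𝓞 ↥L) → M),
        ∑ w ∈ F, g (primeOfPlace L w) = ∑ v ∈ T', g v := by
  classical
  refine ⟨T'.image (placeOfPrime L), fun w => ?_, fun g => ?_⟩
  · rw [Finset.mem_image]
    constructor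
    · rintro ⟨v, hv, rfl⟩
      rwa [primeOfPlace_placeOfPrime]
    · intro h
      exact ⟨primeOfPlace L w, h, placeOfPrime_primeOfPlace L w⟩
  · rw [Finset.sum_image]
    · exact Finset.sum_congr rfl fun v _ => by rw [primeOfPlace_placeOfPrime]
    · intro v _ v' _ h
      have := congrArg (primeOfPlace L) h
      rwa [primeOfPlace_placeOfPrime, primeOfPlace_placeOfPrime] at this

end Fermat.Agent.S55.GL.RecipPlaces
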