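/-
S55 GLO9c (R): THE RECIPROCITY LAW `Σ_v inv_v(y) = 0` for `p`-primary classes of
`H²(Gal(ℚ̄/L), ℚ̄ˣ)`, `L ⊆ ℚ̄` any number field, `p` odd, in the `Gal(ℚ̄/↥L)`-model (`RecipLayer`).

Inputs (hypotheses): local class field theory (`PadicInput`, helper26), the Hasse principle over
number fields containing `ζ_p` (`HasseG2`, helper7), finite support (`FinSuppG2`, helper5), the
unramified local data (`UnramAt`, helper2).
-/
import Fermat.Agent.S55.GL.RecipLocal
import Fermat.Agent.S55.GL.RecipUnram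
import Fermat.Agent.S55.GL.RecipPlaces
import Fermat.Agent.S55.GL.RecipDefs
import Fermat.Agent.S55.GL.CrossTransport
import Fermat.Agent.S55.LevelInfRes
import Fermat.Agent.S55.GC.Cores

set_option autoImplicit false
set_option linter.unusedSectionVars false
set_option linter.style.haveILetI false

open CategoryTheory groupCohomology IntermediateField

namespace Fermat.Agent.S55.GL.Reciprocity

open WithZero NumberField IsDedekindDomain HeightOneSpectrum
open scoped Pointwise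
open Fermat.Agent.S55.Level Fermat.Agent.S55.LevelLayer Fermat.Agent.S55.GaloisLevel
open Fermat.Agent.S55.GC.GaloisLayerInf Fermat.Agent.S55.GC.CyclicH2
open Fermat.Agent.S55.Local.InvariantLevel
open Fermat.Agent.S55.GL.Places Fermat.Agent.S55.GL.BrauerLocal
open Fermat.Agent.S55.GL.RecipLayer Fermat.Agent.S55.GL.RecipCyclic Fermat.Agent.S55.GL.RecipLocal
open Fermat.Agent.S55.LevelInfRes Fermat.Agent.S55.CFAbs Fermat.Agent.S55.CF
open Fermat.Agent.S55.Local.PadicFormation Fermat.Agent.S55.GL.BrauerInst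
open Fermat.Agent.S55.GL.RecipDefs Fermat.Agent.S55.GL.RecipPlaces Fermat.Agent.S55.GL.RecipUnram
open Fermat.Agent.S55.GL.PlacesDVR Fermat.Agent.S55.GL.PlacesUnits
open Fermat.Agent.S14.GalDiv Fermat.Agent.S55.GL.WeakApprox Fermat.Agent.S55.GL.NormApprox
open Fermat.Agent.S55.GL.ArtinAway

local notation "Qbar" => AlgebraicClosure ℚ
local notation "Γ" => (AlgebraicClosure ℚ ≃ₐ[ℚ] AlgebraicClosure ℚ)

local instance isGaloisQbar_Rec : IsGalois ℚ Qbar := Fermat.Agent.S55.Level.isGalois_Qbar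
local instance factPrime_Rec (q : Nat.Primes) : Fact (q : ℕ).Prime := ⟨q.2⟩

/-! ### Step (B): a class dying over a cyclic `E/L` is an inflated cyclic class -/

section StepB

variable (L : IntermediateField ℚ Qbar) [FiniteDimensional ℚ L] [NumberField ↥L]
  (E : IntermediateField ↥L Qbar) [IsGalois ↥L ↥E] [FiniteDimensional ↥L ↥E] [NumberField ↥E]

/-- A class of `H²(Gal(ℚ̄/L), ℚ̄ˣ)` whose restriction to `E` vanishes is inflated from the layer
`Gal(E/L)`. -/
theorem exists_levelInf_of_bcMap_eq_zero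
    (y : levelCohomology (krullLevel ↥L Qbar) (unitsRep ↥L Qbar) 2)
    (hy : (bcMap ↥L ↥E Qbar 2).hom y = 0) :
    ∃ β : groupCohomology (Rep.ofAlgebraAutOnUnits ↥L ↥E) 2,
      y = (levelInf (krullLevel ↥L Qbar) (unitsRep ↥L Qbar)
        (fixingSubgroup_mem_krullLevel E) 2).hom ((unitsLayerIsoF ↥L Qbar E 2).inv.hom β) := by
  haveI : IsDiscrete ((krullLevel ↥L Qbar).restrict E.fixingSubgroup)
      (Rep.res E.fixingSubgroup.subtype (unitsRep ↥L Qbar)) :=
    isDiscrete_res_subtype (unitsRep ↥L Qbar) E.fixingSubgroup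
  have h1 := res_comp_restrictUnitsIso_hom (K := ↥L) (Ω := Qbar) (H := E.fixingSubgroup)
    (E := E) rfl 2
  have h2 := congrArg (fun ψ => ψ.hom y) h1
  simp only [ModuleCat.hom_comp, LinearMap.comp_apply] at h2
  rw [hy] at h2
  have hres : (levelCohomologyMap E.fixingSubgroup.subtype
      ((krullLevel ↥L Qbar).restrict_refines E.fixingSubgroup)
      (𝟙 (Rep.res E.fixingSubgroup.subtype (unitsRep ↥L Qbar))) 2).hom y = 0 := by
    have h3 := congrArg (fun z => (restrictUnitsIso (K := ↥L) (Ω := Qbar)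
      (H := E.fixingSubgroup) (E := E) rfl 2).inv.hom z) h2
    simp only [map_zero] at h3
    rw [← h3]
    exact (congrArg (fun ψ => ψ.hom ((levelCohomologyMap E.fixingSubgroup.subtype
      ((krullLevel ↥L Qbar).restrict_refines E.fixingSubgroup)
      (𝟙 (Rep.res E.fixingSubgroup.subtype (unitsRep ↥L Qbar))) 2).hom y))
      (restrictUnitsIso (K := ↥L) (Ω := Qbar) (H := E.fixingSubgroup) (E := E) rfl
        2).hom_inv_id).symm
  obtain ⟨β, hβ⟩ := exists_levelInf_eq_of_res_eq_zero (krullLevel ↥L Qbar) (unitsRep ↥L Qbar)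
    (fixingSubgroup_mem_krullLevel E)
    (fun W _ hW _ => h1_layer E.fixingSubgroup W hW) y hres
  refine ⟨(unitsLayerIsoF ↥L Qbar E 2).hom.hom β, ?_⟩
  have h4 : (unitsLayerIsoF ↥L Qbar E 2).inv.hom ((unitsLayerIsoF ↥L Qbar E 2).hom.hom β) = β :=
    congrArg (fun ψ => ψ.hom β) (unitsLayerIsoF ↥L Qbar E 2).hom_inv_id
  rw [h4, hβ]

/-- For a cyclic `E/L`, the class is an inflated cyclic class `[cyc σ a]`, `a ∈ Lˣ`. -/
theorem exists_cycClass_of_bcMap_eq_zero {σ : ↥E ≃ₐ[↥L] ↥E} {n : ℕ} [NeZero n]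
    (hgen : ∀ g : ↥E ≃ₐ[↥L] ↥E, g ∈ Subgroup.zpowers σ) (hn : orderOf σ = n)
    (y : levelCohomology (krullLevel ↥L Qbar) (unitsRep ↥L Qbar) 2)
    (hy : (bcMap ↥L ↥E Qbar 2).hom y = 0) :
    ∃ a : (↥L)ˣ, y = (levelInf (krullLevel ↥L Qbar) (unitsRep ↥L Qbar)
        (fixingSubgroup_mem_krullLevel E) 2).hom
          ((unitsLayerIsoF ↥L Qbar E 2).inv.hom (cycClass hgen hn a)) := by
  obtain ⟨β, hβ⟩ := exists_levelInf_of_bcMap_eq_zero L E y hy
  obtain ⟨a, ha⟩ := exists_cycClass_eq hgen hn β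
  exact ⟨a, by rw [hβ, ha]⟩

end StepB

/-! ### Step (C): trivial localisation of an inflated cyclic class -/

section StepC

variable (q : ℕ) [Fact q.Prime] (L : IntermediateField ℚ Qbar) (τ : Γ)
  [FiniteDimensional ℚ L] [NumberField ↥L]
  (E : IntermediateField ↥L Qbar) [IsGalois ↥L ↥E] [FiniteDimensional ↥L ↥E] [NumberField ↥E]

/-- If the localisation at `(q, τ)` of the class inflated from `β ∈ H²(Gal(E/L), Eˣ)` vanishes,
then `map fLoc ιLoc 2 β = 0`. -/
theorem map_fLoc_eq_zero_of_locG_eq_zero (H : PadicInput q)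
    (β : groupCohomology (Rep.ofAlgebraAutOnUnits ↥L ↥E) 2)
    (h0 : (locG q L τ 2).hom ((levelInf (krullLevel ↥L Qbar) (unitsRep ↥L Qbar)
        (fixingSubgroup_mem_krullLevel E) 2).hom ((unitsLayerIsoF ↥L Qbar E 2).inv.hom β)) = 0) :
    (groupCohomology.map (fLoc q L τ E) (ιLoc q L τ E) 2).hom β = 0 := by
  rw [locG_levelInf] at h0
  have h1 := (formationAt H (localFieldAt q L τ)).levelInf_injective (Ew q L τ E).fixingSubgroup
    (fixingSubgroup_mem_krullLevel (Ew q L τ E)) (h0.trans (map_zero _).symm)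
  have h2 := congrArg (fun z => (unitsLayerIsoF (localFieldAt q L τ) (PadicAlgCl q)
    (Ew q L τ E) 2).hom.hom z) h1
  simp only [map_zero] at h2
  rw [← h2]
  exact (congrArg (fun ψ => ψ.hom ((groupCohomology.map (fLoc q L τ E) (ιLoc q L τ E) 2).hom β))
    (unitsLayerIsoF (localFieldAt q L τ) (PadicAlgCl q) (Ew q L τ E) 2).inv_hom_id).symm

end StepC

/-! ### The two remaining plumbing inputs, as statements -/

/-- Hasse principle for `p`-primary classes over ALL number fields (output of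
`HasseAll.hasse_all`, from `HasseG2 p`). -/
def HasseAllG2 (p : ℕ) : Prop :=
  ∀ (K₁ : IntermediateField ℚ Qbar) [FiniteDimensional ℚ K₁]
    (x : levelCohomology (krullLevel ↥K₁ Qbar) (unitsRep ↥K₁ Qbar) 2),
    IsPPrim p x → (∀ (q : Nat.Primes) (τ : Γ), (locG (q : ℕ) K₁ τ 2).hom x = 0) → x = 0

/-- The local kill statement (output of `RecipBaseChange`): a class whose localisation at `(q, τ)`
is killed by `d ∣ [E_w : L_v]` has trivial localisation at `(q, τ)` after restriction to `E`. -/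
def KillG2 : Prop :=
  ∀ (q : Nat.Primes) (L : IntermediateField ℚ Qbar) [FiniteDimensional ℚ L] (τ : Γ)
    (E : IntermediateField ↥L Qbar) [FiniteDimensional ↥L ↥E] [IsGalois ↥L ↥E]
    [FiniteDimensional ℚ ↥(E₀ L E)]
    (y : levelCohomology (krullLevel ↥L Qbar) (unitsRep ↥L Qbar) 2) (d : ℕ),
    d • (locG (q : ℕ) L τ 2).hom y = 0 → d ∣ Nat.card (decompE (q : ℕ) L τ E) →
    (locG (q : ℕ) (E₀ L E) τ 2).hom ((bcMap ↥L ↥E Qbar 2).hom y) = 0

/-! ### Auxiliary lemmas -/

section Aux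

/-- For a proper ideal containing the prime number `q`: `m ∈ I ↔ q ∣ m`. -/
theorem natCast_mem_iff_dvd {R : Type*} [CommRing R] (I : Ideal R) (hI : I ≠ ⊤) {q : ℕ}
    (hq : q.Prime) (hqI : (q : R) ∈ I) (m : ℕ) : (m : R) ∈ I ↔ q ∣ m := by
  constructor
  · intro hm
    by_contra h
    exact natCast_not_mem_of_coprime I hI ((Nat.Prime.coprime_iff_not_dvd hq).2 h) hqI hm
  · rintro ⟨c, rfl⟩
    rw [Nat.cast_mul]
    exact I.mul_mem_right _ hqI

variable (q : ℕ) [Fact q.Prime] (L : IntermediateField ℚ Qbar) (τ : Γ)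
  [FiniteDimensional ℚ L] [NumberField ↥L]
  (E : IntermediateField ↥L Qbar) [IsGalois ↥L ↥E] [FiniteDimensional ↥L ↥E] [NumberField ↥E]

theorem natCast_mem_primeE (n : ℕ) (h : (n : 𝓞 ↥L) ∈ (primeAt q L τ).asIdeal) :
    (n : 𝓞 ↥E) ∈ (primeE q L τ E).asIdeal := by
  rw [← underK_primeE q L τ E, underK_asIdeal, Ideal.under_def, Ideal.mem_comap,
    map_natCast] at h
  exact h

theorem natCast_mem_primeAt_iff_dvd (m : ℕ) :
    (m : 𝓞 ↥L) ∈ (primeAt q L τ).asIdeal ↔ q ∣ m :=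
  natCast_mem_iff_dvd _ (primeAt q L τ).isPrime.ne_top (Fact.out : q.Prime)
    (natCast_mem_primeAt q L τ) m

theorem natCast_mem_primeE_iff_dvd (m : ℕ) :
    (m : 𝓞 ↥E) ∈ (primeE q L τ E).asIdeal ↔ q ∣ m :=
  natCast_mem_iff_dvd _ (primeE q L τ E).isPrime.ne_top (Fact.out : q.Prime)
    (natCast_mem_primeE q L τ E q (natCast_mem_primeAt q L τ)) m

/-- The stabiliser of the ideal `primeE` is the decomposition group. -/
theorem stabilizer_primeE :
    MulAction.stabilizer (↥E ≃ₐ[↥L] ↥E) (primeE q L τ E).asIdeal = decompE q L τ E := by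
  ext g
  rw [MulAction.mem_stabilizer_iff, ← smul_primeE_iff]
  constructor
  · intro h
    exact HeightOneSpectrum.ext h
  · intro h
    exact congrArg HeightOneSpectrum.asIdeal h

/-- The set of primes where `a ≠ 0` is not a unit is finite. -/
theorem finite_valuation_ne_one {a : ↥L} (ha : a ≠ 0) :
    {v : HeightOneSpectrum (𝓞 ↥L) | v.valuation ↥L a ≠ 1}.Finite := by
  refine ((HeightOneSpectrum.Support.finite (𝓞 ↥L) a).union
    (HeightOneSpectrum.Support.finite (𝓞 ↥L) a⁻¹)).subset ?_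
  intro v hv
  rcases lt_or_gt_of_ne hv with h | h
  · right
    show 1 < v.valuation ↥L a⁻¹
    rw [map_inv₀]
    exact (one_lt_inv₀ (zero_lt_iff.2 ((map_ne_zero _).2 ha))).2 h
  · left
    exact h

end Aux

/-! ### The reciprocity law -/

section Main

open scoped IsMulCommutative

variable {p : ℕ}

set_option maxHeartbeats 1600000 in
/-- **(R) in the `Gal(ℚ̄/↥L)`-model**, for every number field `L ⊆ ℚ̄` and every odd prime `p`:
`Σ_v inv_v(y) = 0` for the `p`-primary classes `y` of `H²(Gal(ℚ̄/L), ℚ̄ˣ)`, the local invariants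
being those of the local class formations `formationAt`. -/
theorem recipG2_of (hp : p.Prime) (hp2 : p ≠ 2) (H : ∀ q : Nat.Primes, PadicInput (q : ℕ))
    (hall : HasseAllG2 p) (hkill : KillG2) (hfin : FinSuppG2)
    (L : IntermediateField ℚ Qbar) [FiniteDimensional ℚ L] :
    RecipG2 p L (fun v => formationAt (H v.prime) (Kv L v)) := by
  classical
  haveI : NumberField ↥L := ⟨⟩
  rintro y ⟨M, hyM⟩
  obtain ⟨T₀, hT₀⟩ := hfin L y
  set B : ℕ := T₀.sup (fun q => (q : ℕ)) with hB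
  set s : Finset ℕ := (primesOver L T₀).image (fun v => Ideal.absNorm v.asIdeal) with hs_def
  have hs : ∀ a ∈ s, 2 ≤ a := by
    intro a ha
    obtain ⟨v, -, rfl⟩ := Finset.mem_image.1 ha
    have h0 : Ideal.absNorm v.asIdeal ≠ 0 := by
      rw [Ne, Ideal.absNorm_eq_zero_iff]
      exact v.ne_bot
    have h1 : Ideal.absNorm v.asIdeal ≠ 1 := by
      rw [Ne, Ideal.absNorm_eq_one_iff]
      exact v.isPrime.ne_top
    omega
  obtain ⟨m, hm, M', E, hfd, hgal, hnf, hsq, hpr, hcop, hcyc, hcard, hunr, hrec⟩ :=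
    Fermat.Agent.S55.GL.CrossTransport.exists_cross_in ↥L Qbar hp hp2 M B s hs
  haveI := hm
  haveI := hfd
  haveI := hgal
  haveI := hnf
  haveI : FiniteDimensional ℚ ↥(E₀ L E) := Fermat.Agent.S55.GL.RecipLayer.finiteDimensionalE₀ L E
  haveI : IsMulCommutative (↥E ≃ₐ[↥L] ↥E) := by
    letI := IsCyclic.commGroup (α := ↥E ≃ₐ[↥L] ↥E)
    exact ⟨⟨mul_comm⟩⟩
  -- primes of `T₀` do not divide `m`
  have hT₀m : ∀ q : Nat.Primes, q ∈ T₀ → ¬ (q : ℕ) ∣ m := by
    intro q hq hdvd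
    have h1 := (hpr q q.2 hdvd).1
    have h2 : (q : ℕ) ≤ B := Finset.le_sup (f := fun q : Nat.Primes => (q : ℕ)) hq
    omega
  have hunr' : ∀ Q : Ideal (𝓞 ↥E), Q.IsPrime → Q ≠ ⊥ → (m : 𝓞 ↥E) ∉ Q →
      Q.inertia (↥E ≃ₐ[↥L] ↥E) = ⊥ := fun Q hQ h0 hmQ => (@hunr Q hQ h0 hmQ).1
  -- (1) the restriction of `y` to `E` is locally trivial everywhere
  have hx : ∀ (q : Nat.Primes) (τ : Γ),
      (locG (q : ℕ) (E₀ L E) τ 2).hom ((bcMap ↥L ↥E Qbar 2).hom y) = 0 := by
    intro q τ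
    by_cases hq : q ∈ T₀
    · refine hkill q L τ E y (p ^ M) ?_ ?_
      · rw [← map_nsmul, hyM, map_zero]
      · have hQ : (m : 𝓞 ↥E) ∉ (primeE (q : ℕ) L τ E).asIdeal := by
          rw [natCast_mem_primeE_iff_dvd]
          exact hT₀m q hq
        haveI := (primeE (q : ℕ) L τ E).isPrime
        have hnorm : Ideal.absNorm ((primeE (q : ℕ) L τ E).asIdeal.under (𝓞 ↥L)) ∈ s := by
          have h1 : (primeE (q : ℕ) L τ E).asIdeal.under (𝓞 ↥L) =
              (primeAt (q : ℕ) L τ).asIdeal := by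
            rw [← underK_primeE (q : ℕ) L τ E]
            rfl
          rw [h1]
          exact Finset.mem_image.2 ⟨primeAt (q : ℕ) L τ,
            (primeAt_mem_primesOver_iff q τ).2 hq, rfl⟩
        have h2 := ((hunr (primeE (q : ℕ) L τ E).asIdeal (primeE (q : ℕ) L τ E).ne_bot hQ).2
          hnorm).1
        rwa [stabilizer_primeE] at h2
    · exact hkill q L τ E y 1 (by rw [one_nsmul]; exact hT₀ q hq τ) (one_dvd _)
  have hpM : p ^ M • (bcMap ↥L ↥E Qbar 2).hom y = 0 := by rw [← map_nsmul, hyM, map_zero]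
  have hbc : (bcMap ↥L ↥E Qbar 2).hom y = 0 :=
    hall (E₀ L E) ((bcMap ↥L ↥E Qbar 2).hom y) ⟨M, hpM⟩ hx
  -- (2) `y` is an inflated cyclic class
  obtain ⟨σ, hgen⟩ := hcyc.exists_generator
  haveI : NeZero (orderOf σ) := ⟨(orderOf_pos σ).ne'⟩
  obtain ⟨a, ha⟩ := exists_cycClass_of_bcMap_eq_zero L E hgen rfl y hbc
  have ha0 : (a : ↥L) ≠ 0 := a.ne_zero
  set nv : HeightOneSpectrum (𝓞 ↥L) → ℤ := fun v => -(log (v.valuation ↥L (a : ↥L))) with hnv_def
  have hnv : ∀ v : HeightOneSpectrum (𝓞 ↥L), v.valuation ↥L (a : ↥L) = exp (-(nv v)) := by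
    intro v
    rw [hnv_def, neg_neg, exp_log ((map_ne_zero _).2 ha0)]
  set g : HeightOneSpectrum (𝓞 ↥L) → UnitAddCircle := fun v =>
    (((((((((dlogChar hgen rfl) (frobAway ↥L ↥E m v.asIdeal)).toAdd.val : ℕ) : ℤ) * nv v : ℤ)
      : ℝ) / (orderOf σ : ℕ) : ℝ)) : UnitAddCircle) with hg_def
  -- (3) places dividing `m`
  have hdvd0 : ∀ (q : Nat.Primes) (τ : Γ), (q : ℕ) ∣ m → (locG (q : ℕ) L τ 2).hom y = 0 :=
    fun q τ hd => hT₀ q (fun hq => hT₀m q hq hd) τ
  -- (4) places not dividing `m`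
  have hformula : ∀ (q : Nat.Primes) (τ : Γ), ¬ (q : ℕ) ∣ m →
      (formationAt (H q) (localFieldAt (q : ℕ) L τ)).inv ((locG (q : ℕ) L τ 2).hom y) =
        g (primeAt (q : ℕ) L τ) := by
    intro q τ hd
    have hQ : (m : 𝓞 ↥E) ∉ (primeE (q : ℕ) L τ E).asIdeal := by
      rw [natCast_mem_primeE_iff_dvd]
      exact hd
    have hmL : (m : 𝓞 ↥L) ∉ (primeAt (q : ℕ) L τ).asIdeal := by
      rw [natCast_mem_primeAt_iff_dvd]
      exact hd
    have hw := hunr' (primeE (q : ℕ) L τ E).asIdeal (primeE (q : ℕ) L τ E).isPrime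
      (primeE (q : ℕ) L τ E).ne_bot hQ
    have U := unramAt_of_inertia_eq_bot (q : ℕ) L τ E hw
    have h1 := inv_locG_levelInf_cycClass (H q) U hw hgen rfl a (nv (primeAt (q : ℕ) L τ))
      (hnv _)
    rw [← ha, ← frobAway_eq_fLoc_frob U hunr' hmL] at h1
    exact h1
  -- (5) Theorem II
  set T' : Finset (HeightOneSpectrum (𝓞 ↥L)) :=
    (finite_valuation_ne_one L ha0).toFinset.filter (fun v => (m : 𝓞 ↥L) ∉ v.asIdeal) with hT'
  have hmemT' : ∀ v, v ∈ T' ↔ v.valuation ↥L (a : ↥L) ≠ 1 ∧ (m : 𝓞 ↥L) ∉ v.asIdeal := by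
    intro v
    rw [hT', Finset.mem_filter, Set.Finite.mem_toFinset]
    rfl
  have hsum : ∑ v ∈ T', g v = 0 := by
    refine sum_dlog_frobAway_eq_zero (K := ↥L) (E := ↥E) hgen rfl hunr' hrec ha0
      (fun v => primeE (ratPrime L v : ℕ) L (sigmaAt L v) E) ?_ ?_ T' ?_ nv
      (fun v _ => hnv v)
    · intro v _
      rw [underK_primeE, primeAt_sigmaAt]
    · intro v hv k
      have hd : ((ratPrime L v : Nat.Primes) : ℕ) ∣ m := by
        have := (natCast_mem_primeAt_iff_dvd (ratPrime L v : ℕ) L (sigmaAt L v) m).1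
        rw [primeAt_sigmaAt] at this
        exact this hv
      have h0 := hdvd0 (ratPrime L v) (sigmaAt L v) hd
      rw [ha] at h0
      have h1 := map_fLoc_eq_zero_of_locG_eq_zero (ratPrime L v : ℕ) L (sigmaAt L v) E
        (H (ratPrime L v)) (cycClass hgen rfl a) h0
      exact exists_localNorm_of_map_eq_zero (ratPrime L v : ℕ) L (sigmaAt L v) E hgen rfl a h1 k
    · intro v hv1 hv2
      exact (hmemT' v).2 ⟨hv2, hv1⟩
  -- (6) back to the finite places of `L`
  obtain ⟨F, hF1, hF2⟩ := exists_finset_finPlace L T'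
  refine ⟨F, fun w hw => ?_, ?_⟩
  · by_cases hd : ((w.prime : Nat.Primes) : ℕ) ∣ m
    · exact hdvd0 w.prime w.rep hd
    · have h1 := hformula w.prime w.rep hd
      have h2 : primeAt (w.prime : ℕ) L w.rep ∉ T' := fun h => hw ((hF1 w).2 h)
      have h3 : (primeAt (w.prime : ℕ) L w.rep).valuation ↥L (a : ↥L) = 1 := by
        by_contra h
        apply h2
        refine (hmemT' _).2 ⟨h, ?_⟩
        rw [natCast_mem_primeAt_iff_dvd]
        exact hd
      have h4 : g (primeAt (w.prime : ℕ) L w.rep) = 0 := by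
        have : nv (primeAt (w.prime : ℕ) L w.rep) = 0 := by
          rw [hnv_def]
          simp only [h3, log_one, neg_zero]
        rw [hg_def]
        simp only [this, mul_zero, Int.cast_zero, zero_div, AddCircle.coe_zero]
      rw [h4] at h1
      exact (formationAt (H w.prime) (localFieldAt (w.prime : ℕ) L w.rep)).inv_injective
        (h1.trans (map_zero _).symm)
  · rw [← hsum, ← hF2 g]
    refine Finset.sum_congr rfl fun w hw => ?_
    have h1 : primeAt (w.prime : ℕ) L w.rep ∈ T' := (hF1 w).1 hw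
    have hd : ¬ ((w.prime : Nat.Primes) : ℕ) ∣ m := by
      rw [← natCast_mem_primeAt_iff_dvd (w.prime : ℕ) L w.rep]
      exact ((hmemT' _).1 h1).2
    exact hformula w.prime w.rep hd

end Main

end Fermat.Agent.S55.GL.Reciprocity
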