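/-
S55 (HS) (helper22): the Hasse principle for `p`-primary Brauer classes over EVERY number field in
the `Gal(ℚ̄/↥K₁)`-model = helper19's `Reciprocity.HasseAllG2 p`, unconditionally for `p` odd.
(helper7's absolute level form `HasseLevel.hasse_absolute` holds for every number field; the
reduction to fields containing `ζ_p` is done inside the finite-level Hasse principle.)
-/
import Mathlib
import Fermat.Agent.S55.GL.HasseAbs
import Fermat.Agent.S55.GL.Reciprocity

set_option autoImplicit false
set_option linter.unusedSectionVars false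

open CategoryTheory IntermediateField

namespace Fermat.Agent.S55.GL.HasseAllAbs

open Fermat.Agent.S55.Level Fermat.Agent.S55.GaloisLevel Fermat.Agent.S55.CFAbs
  Fermat.Agent.S55.GL.Places Fermat.Agent.S55.GL.BrauerLocal Fermat.Agent.S55.GL.BrauerInst
  Fermat.Agent.S55.GL.RecipLayer Fermat.Agent.S55.GL.RecipDefs Fermat.Agent.S55.GL.Reciprocity

local notation "Qbar" => AlgebraicClosure ℚ
local notation "Γ" => (AlgebraicClosure ℚ ≃ₐ[ℚ] AlgebraicClosure ℚ)

local instance isGaloisQbar_HAA : IsGalois ℚ Qbar := Fermat.Agent.S55.Level.isGalois_Qbar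
local instance factPrime_HAA (q : Nat.Primes) : Fact (q : ℕ).Prime := ⟨q.2⟩

variable (p : ℕ) [hp : Fact p.Prime]

/-- **(HS) over every number field, `Gal(ℚ̄/↥K₁)`-model** = `Reciprocity.HasseAllG2 p` VERBATIM,
unconditionally for `p` odd. -/
theorem hasseAllG2 (hp2 : p ≠ 2) : HasseAllG2 p := by
  intro K₁ _ z hz hloc
  set e := restrictUnitsIso (K := ℚ) (Ω := Qbar) (H := K₁.fixingSubgroup) (E := K₁) rfl 2
    with he
  have hez : e.hom.hom (e.inv.hom z) = z := congrArg (fun ψ => ψ.hom z) e.inv_hom_id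
  have h0 : e.inv.hom z = 0 := by
    refine Fermat.Agent.S55.GL.HasseAbs.hasse_absolute p hp2 K₁ (e.inv.hom z) ?_ ?_
    · obtain ⟨M, hM⟩ := hz
      exact ⟨M, by rw [← map_nsmul, hM, map_zero]⟩
    · intro q σ
      rw [resAt_eq_locG (q : ℕ) K₁ σ 2 (e.inv.hom z)]
      rw [← he, hez]
      exact hloc q σ
  rw [← hez, h0, map_zero]

end Fermat.Agent.S55.GL.HasseAllAbs
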