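/-
S55 / GLO9c glue (helper27): GLOBAL RESTRICTION versus LOCAL BASE CHANGE, in helper14's
`BrauerLocal` model.

`L ≤ E ⊆ ℚ̄`, `(q, σ)` a place.  `K_v = localFieldAt q L σ ≤ E_w = localFieldAt q E σ ⊆ Ω_q`.

* `resLE hLE A 𝒰 n : Hⁿ(G_L, A) ⟶ Hⁿ(G_E, A)` : restriction to the subgroup `G_E ≤ G_L` on level
  cohomology (level structure `𝒰` on `Γ`, restricted);
* `resLE_resAt` : `resAt q E σ ∘ resLE = bcMap K_v E_w Ω_q ∘ resAt q L σ` (for ANY algebra
  structure `K_v → E_w` compatible with the inclusions into `Ω_q`);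
* `inv_resAt_resLE` : hence `inv_w (res y)_w = d • inv_v (y_v)` whenever
  `inv_w ∘ bcMap = d • inv_v` (LOC5, `InvariantRel.inv_bcMap_rel`);
* `inv_resAt_resLE_eq_zero` : `= 0` when `m • y = 0` and `m ∣ d` (step (b) of the crossing
  argument of the reciprocity law: `p^M ∣ [E_w : K_v]`).
-/
import Fermat.Agent.S55.GL.BrauerLocal
import Fermat.Agent.S55.GaloisLevelBC
import Fermat.Agent.S55.CFAbs
import Fermat.Agent.S55.LevelConj
import Fermat.Agent.S55.CF.LESElem
import Fermat.Agent.S55.GL.RecipLayer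
import Fermat.Agent.S55.Local.PadicFormation

set_option autoImplicit false
set_option linter.unusedSectionVars false

open CategoryTheory IntermediateField

namespace Fermat.Agent.S55.GL.RecipBaseChange

open Fermat.Agent.S55.Level Fermat.Agent.S55.GaloisLevel Fermat.Agent.S55.GL.Places
  Fermat.Agent.S55.GL.BrauerLocal Fermat.Agent.S55.LevelTransport Fermat.Agent.S55.CFAbs
  Fermat.Agent.S55.CF

local notation "Qbar" => AlgebraicClosure ℚ
local notation "Γ" => (AlgebraicClosure ℚ ≃ₐ[ℚ] AlgebraicClosure ℚ)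

local instance isGaloisQbar_RBC : IsGalois ℚ Qbar := Fermat.Agent.S55.Level.isGalois_Qbar

variable {L E : IntermediateField ℚ Qbar} (hLE : L ≤ E)

/-! ### Restriction from `G_L` to `G_E` -/

/-- The inclusion `G_E ≤ G_L`. -/
noncomputable def inclG : ↥E.fixingSubgroup →* ↥L.fixingSubgroup :=
  Subgroup.inclusion (IntermediateField.fixingSubgroup_antitone hLE)

lemma coe_inclG (g : ↥E.fixingSubgroup) : ((inclG hLE g : ↥L.fixingSubgroup) : Γ) = g := rfl

/-- The restricted level structures are compatible with the inclusion `G_E ≤ G_L`. -/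
theorem refines_inclG (𝒰 : LevelStructure Γ) :
    (𝒰.restrict E.fixingSubgroup).Refines (𝒰.restrict L.fixingSubgroup) (inclG hLE) := by
  rintro _ ⟨U, hU, rfl⟩
  exact ⟨_, 𝒰.mem_restrict_sets _ hU, fun x hx => hx⟩

/-- The identity of `A`, as a morphism `Res (Res_{G_L} A) ⟶ Res_{G_E} A`. -/
noncomputable def resLEcoeff (A : Rep.{0} ℤ Γ) : Rep.res (inclG hLE) (resL L A) ⟶ resL E A :=
  𝟙 (resL E A)

@[simp] lemma resLEcoeff_hom_apply (A : Rep.{0} ℤ Γ) (a : A.V) :
    (resLEcoeff hLE A).hom a = a := rfl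

/-- **Restriction** `Hⁿ(G_L, A) ⟶ Hⁿ(G_E, A)` on level cohomology. -/
noncomputable def resLE (A : Rep.{0} ℤ Γ) (𝒰 : LevelStructure Γ) [IsDiscrete 𝒰 A] (n : ℕ) :
    levelCohomology (𝒰.restrict L.fixingSubgroup) (resL L A) n ⟶
      levelCohomology (𝒰.restrict E.fixingSubgroup) (resL E A) n :=
  levelCohomologyMap (inclG hLE) (refines_inclG hLE 𝒰) (resLEcoeff hLE A) n

/-- Restriction is compatible with coefficient maps. -/
theorem Hmap_resLE {A A' : Rep.{0} ℤ Γ} (i : A ⟶ A') (𝒰 : LevelStructure Γ) [IsDiscrete 𝒰 A]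
    [IsDiscrete 𝒰 A'] (n : ℕ) :
    Hmap (𝒰.restrict L.fixingSubgroup) ((Rep.resFunctor L.fixingSubgroup.subtype).map i) n ≫
        resLE hLE A' 𝒰 n =
      resLE hLE A 𝒰 n ≫
        Hmap (𝒰.restrict E.fixingSubgroup) ((Rep.resFunctor E.fixingSubgroup.subtype).map i) n :=
  levelCohomologyMap_naturality (𝒰 := 𝒰.restrict L.fixingSubgroup)
    (𝒱 := 𝒰.restrict E.fixingSubgroup) (inclG hLE) (refines_inclG hLE 𝒰)
    ((Rep.resFunctor L.fixingSubgroup.subtype).map i)
    ((Rep.resFunctor E.fixingSubgroup.subtype).map i) (resLEcoeff hLE A) (resLEcoeff hLE A')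
    (fun _ => rfl) n

/-! ### The local-global square -/

section Square

variable (q : ℕ) [Fact q.Prime] (σ : Γ)
  [Algebra ↥(localFieldAt q L σ) ↥(localFieldAt q E σ)]
  [IsScalarTower ↥(localFieldAt q L σ) ↥(localFieldAt q E σ) (PadicAlgCl q)]
  {A : Rep.{0} ℤ Γ} (j : A ⟶ unitsRep ℚ Qbar) (𝒰 : LevelStructure Γ) [IsDiscrete 𝒰 A]
  (h𝒰 : ∀ U ∈ 𝒰.sets, IsKrullOpen ℚ Qbar U)

/-- The local Galois group of `E_w` inside that of `K_v`, compatibly with the decomposition maps. -/
lemma decompHom_restrictScalars (τ : Gloc q E σ) :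
    decompHom q L σ (AlgEquiv.restrictScalarsHom ↥(localFieldAt q L σ) τ) =
      inclG hLE (decompHom q E σ τ) := by
  apply Subtype.ext
  rw [coe_inclG, coe_decompHom, coe_decompHom]
  congr 1

/-- **Global restriction versus local base change**: localising at the place `(q, σ)` of `E` the
restriction to `G_E` of a class over `G_L` is the base change `K_v → E_w` of its localisation at the
place `(q, σ)` of `L`. -/
theorem resLE_resAt (n : ℕ) :
    resLE hLE A 𝒰 n ≫ resAt q E σ j 𝒰 h𝒰 n =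
      resAt q L σ j 𝒰 h𝒰 n ≫
        bcMap ↥(localFieldAt q L σ) ↥(localFieldAt q E σ) (PadicAlgCl q) n := by
  have h1 := levelCohomologyMap_comp_eq (inclG hLE) (refines_inclG hLE 𝒰) (resLEcoeff hLE A)
    (decompHom q E σ) (refines_decompHom q E σ 𝒰 h𝒰) (coeffLoc q E σ j)
    ((inclG hLE).comp (decompHom q E σ))
    (refines_comp (refines_inclG hLE 𝒰) (refines_decompHom q E σ 𝒰 h𝒰))
    (coeffLoc q E σ j)
    (fun _ => rfl) (fun _ => rfl) n
  have h2 := levelCohomologyMap_comp_eq (decompHom q L σ) (refines_decompHom q L σ 𝒰 h𝒰)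
    (coeffLoc q L σ j)
    (AlgEquiv.restrictScalarsHom ↥(localFieldAt q L σ))
    (refines_restrictScalarsHom ↥(localFieldAt q L σ) ↥(localFieldAt q E σ) (PadicAlgCl q))
    (unitsRes ↥(localFieldAt q L σ) ↥(localFieldAt q E σ) (PadicAlgCl q))
    ((inclG hLE).comp (decompHom q E σ))
    (refines_comp (refines_inclG hLE 𝒰) (refines_decompHom q E σ 𝒰 h𝒰))
    (coeffLoc q E σ j)
    (fun τ => decompHom_restrictScalars hLE q σ τ) (fun _ => rfl) n
  exact h1.trans h2.symm

theorem resLE_resAt_apply (n : ℕ)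
    (y : levelCohomology (𝒰.restrict L.fixingSubgroup) (resL L A) n) :
    (resAt q E σ j 𝒰 h𝒰 n).hom ((resLE hLE A 𝒰 n).hom y) =
      (bcMap ↥(localFieldAt q L σ) ↥(localFieldAt q E σ) (PadicAlgCl q) n).hom
        ((resAt q L σ j 𝒰 h𝒰 n).hom y) :=
  congrArg (fun φ => φ.hom y) (resLE_resAt hLE q σ j 𝒰 h𝒰 n)

/-- **Invariants under restriction**: if `inv_w ∘ res_{K_v → E_w} = d • inv_v` (LOC5) then the
invariant at `w` of the restriction of `y` is `d` times the invariant of `y` at `v`. -/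
theorem inv_resAt_resLE
    (Fv : Formation (krullLevel ↥(localFieldAt q L σ) (PadicAlgCl q))
      (unitsRep ↥(localFieldAt q L σ) (PadicAlgCl q)))
    (Fw : Formation (krullLevel ↥(localFieldAt q E σ) (PadicAlgCl q))
      (unitsRep ↥(localFieldAt q E σ) (PadicAlgCl q)))
    {d : ℕ} (hrel : ∀ x, Fw.inv
      ((bcMap ↥(localFieldAt q L σ) ↥(localFieldAt q E σ) (PadicAlgCl q) 2).hom x) = d • Fv.inv x)
    (y : levelCohomology (𝒰.restrict L.fixingSubgroup) (resL L A) 2) :
    Fw.inv ((resAt q E σ j 𝒰 h𝒰 2).hom ((resLE hLE A 𝒰 2).hom y)) =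
      d • Fv.inv ((resAt q L σ j 𝒰 h𝒰 2).hom y) := by
  rw [resLE_resAt_apply, hrel]

/-- **Step (b) of the crossing argument**: if `m • y = 0` and `m` divides the local degree `d`
then the restriction of `y` has trivial invariant at `w`. -/
theorem inv_resAt_resLE_eq_zero
    (Fv : Formation (krullLevel ↥(localFieldAt q L σ) (PadicAlgCl q))
      (unitsRep ↥(localFieldAt q L σ) (PadicAlgCl q)))
    (Fw : Formation (krullLevel ↥(localFieldAt q E σ) (PadicAlgCl q))
      (unitsRep ↥(localFieldAt q E σ) (PadicAlgCl q)))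
    {d m : ℕ} (hrel : ∀ x, Fw.inv
      ((bcMap ↥(localFieldAt q L σ) ↥(localFieldAt q E σ) (PadicAlgCl q) 2).hom x) = d • Fv.inv x)
    (hmd : m ∣ d)
    (y : levelCohomology (𝒰.restrict L.fixingSubgroup) (resL L A) 2) (hy : m • y = 0) :
    (resAt q E σ j 𝒰 h𝒰 2).hom ((resLE hLE A 𝒰 2).hom y) = 0 := by
  apply Fw.inv_injective
  rw [inv_resAt_resLE hLE q σ j 𝒰 h𝒰 Fv Fw hrel, map_zero]
  obtain ⟨c, rfl⟩ := hmd
  have h0 : m • (resAt q L σ j 𝒰 h𝒰 2).hom y = 0 := by rw [← map_nsmul, hy, map_zero]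
  rw [mul_comm, mul_smul, ← map_nsmul Fv.inv m, h0, map_zero, smul_zero]

/-- If the localisation of `y` at `v` vanishes, so does the localisation at `w` of its
restriction. -/
theorem resAt_resLE_eq_zero_of_resAt_eq_zero (n : ℕ)
    (y : levelCohomology (𝒰.restrict L.fixingSubgroup) (resL L A) n)
    (hy : (resAt q L σ j 𝒰 h𝒰 n).hom y = 0) :
    (resAt q E σ j 𝒰 h𝒰 n).hom ((resLE hLE A 𝒰 n).hom y) = 0 := by
  rw [resLE_resAt_apply, hy, map_zero]

end Square

/-! ### The same square in the `Gal(ℚ̄/L)`-model (helper19's `RecipLayer.locG`) -/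

section G2

open Fermat.Agent.S55.GL.RecipLayer Fermat.Agent.S55.Local.PadicFormation
  Fermat.Agent.S55.GL.PlacesRel

variable (q : ℕ) [Fact q.Prime] (L : IntermediateField ℚ Qbar) (τ : Γ) [FiniteDimensional ℚ L]
  (E : IntermediateField ↥L Qbar) [FiniteDimensional ↥L ↥E]

/-- `E` (as a subfield of `ℚ̄` over `ℚ`) is finite over `ℚ`. -/
theorem finiteDimensional_E₀ : FiniteDimensional ℚ ↥(E₀ L E) :=
  Module.Finite.trans (R := ℚ) ↥L ↥E

/-- `L ≤ E` as subfields of `ℚ̄` over `ℚ`. -/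
theorem le_E₀ : L ≤ E₀ L E := fun x hx => E.algebraMap_mem ⟨x, hx⟩

/-- The local algebra structure `L_v → E_w` (inclusion of subfields of `Ω_q`). -/
noncomputable abbrev algLoc :
    Algebra ↥(localFieldAt q L τ) ↥(localFieldAt q (E₀ L E) τ) :=
  (IntermediateField.inclusion (localFieldAt_mono q (le_E₀ L E) τ)).toRingHom.toAlgebra

/-- `L_v → E_w → Ω_q` is a tower. -/
theorem towerLoc :
    letI := algLoc q L τ E
    IsScalarTower ↥(localFieldAt q L τ) ↥(localFieldAt q (E₀ L E) τ) (PadicAlgCl q) :=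
  letI := algLoc q L τ E
  IsScalarTower.of_algebraMap_eq fun _ => rfl

attribute [local instance] finiteDimensional_E₀ algLoc towerLoc

/-- The common composite change-of-group datum of the square. -/
noncomputable def locGE : Rep.res ((decompG q L τ).comp
      (AlgEquiv.restrictScalarsHom ↥(localFieldAt q L τ) :
        Gloc q (E₀ L E) τ →* Gloc q L τ)) (unitsRep ↥L Qbar) ⟶
      unitsRep ↥(localFieldAt q (E₀ L E) τ) (PadicAlgCl q) :=
  Rep.ofHom ⟨(unitsLocAdd q τ).toIntLinearMap, fun g => by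
    refine LinearMap.ext fun (a : Additive Qbarˣ) => ?_
    apply Additive.toMul.injective
    apply Units.ext
    exact padicEmbedding_decompG q L τ
      (AlgEquiv.restrictScalarsHom ↥(localFieldAt q L τ) g) ((Additive.toMul a : Qbarˣ) : Qbar)⟩

/-- **(a) Global base change versus local base change** in the `Gal(ℚ̄/L)`-model: localising at
the place `(q, τ)` of `E` the restriction to `Gal(ℚ̄/E)` of a class over `Gal(ℚ̄/L)` is the base
change `L_v → E_w` of its localisation at the place `(q, τ)` of `L`. -/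
theorem locG_bcMap (n : ℕ) (y : levelCohomology (krullLevel ↥L Qbar) (unitsRep ↥L Qbar) n) :
    (locG q (E₀ L E) τ n).hom ((bcMap ↥L ↥E Qbar n).hom y) =
      (bcMap ↥(localFieldAt q L τ) ↥(localFieldAt q (E₀ L E) τ) (PadicAlgCl q) n).hom
        ((locG q L τ n).hom y) := by
  have h1 := levelCohomologyMap_comp_eq_apply
    (AlgEquiv.restrictScalarsHom ↥L : Gal(Qbar/↥E) →* Gal(Qbar/↥L))
    (refines_restrictScalarsHom ↥L ↥E Qbar) (unitsRes ↥L ↥E Qbar)
    (decompG q (E₀ L E) τ) (refines_decompG q (E₀ L E) τ) (unitsLocG q (E₀ L E) τ)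
    ((decompG q L τ).comp (AlgEquiv.restrictScalarsHom ↥(localFieldAt q L τ) :
        Gloc q (E₀ L E) τ →* Gloc q L τ))
    (refines_comp (refines_decompG q L τ)
      (refines_restrictScalarsHom ↥(localFieldAt q L τ) ↥(localFieldAt q (E₀ L E) τ)
        (PadicAlgCl q)))
    (locGE q L τ E)
    (fun g => by
      apply AlgEquiv.ext
      intro x
      rfl)
    (fun _ => rfl) n y
  have h2 := levelCohomologyMap_comp_eq_apply (decompG q L τ) (refines_decompG q L τ)
    (unitsLocG q L τ)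
    (AlgEquiv.restrictScalarsHom ↥(localFieldAt q L τ) : Gloc q (E₀ L E) τ →* Gloc q L τ)
    (refines_restrictScalarsHom ↥(localFieldAt q L τ) ↥(localFieldAt q (E₀ L E) τ)
      (PadicAlgCl q))
    (unitsRes ↥(localFieldAt q L τ) ↥(localFieldAt q (E₀ L E) τ) (PadicAlgCl q))
    ((decompG q L τ).comp (AlgEquiv.restrictScalarsHom ↥(localFieldAt q L τ) :
        Gloc q (E₀ L E) τ →* Gloc q L τ))
    (refines_comp (refines_decompG q L τ)
      (refines_restrictScalarsHom ↥(localFieldAt q L τ) ↥(localFieldAt q (E₀ L E) τ)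
        (PadicAlgCl q)))
    (locGE q L τ E)
    (fun _ => rfl) (fun _ => rfl) n y
  exact h1.trans h2.symm

/-- `|D_w| = [E_w : L_v]` for a finite Galois extension `E/L`. -/
theorem card_decompE [IsGalois ↥L ↥E] :
    Nat.card (decompE q L τ E) = localDeg q L (E₀ L E) τ := by
  exact @card_decompAt L (E₀ L E) (inferInstance : Algebra ↥L ↥E) q _ τ (halgE L E)
    (inferInstance : Normal ↥L ↥E) (finiteDimensional_E₀ L E)

/-- The local degree `[E_w : L_v]` (w.r.t. the inclusion algebra structure `algLoc`) is the local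
degree of `PlacesDecomp`. -/
theorem finrank_algLoc :
    Module.finrank ↥(localFieldAt q L τ) ↥(localFieldAt q (E₀ L E) τ) =
      localDeg q L (E₀ L E) τ := by
  have h1 := finrank_mul_localDeg q (le_E₀ L E) τ
  have h2 := finrank_mul_finrank_of_tower (localFieldAt q L τ) (localFieldAt q (E₀ L E) τ)
  have hpos : 0 < Module.finrank ℚ_[q] (localFieldAt q L τ) := Module.finrank_pos
  apply Nat.eq_of_mul_eq_mul_left hpos
  rw [h1, h2, mul_comm]

/-- **(b) Killing a class by local base change**: if `d` kills the localisation of `y` at the place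
`(q, τ)` of `L` and `d` divides the local degree `[E_w : L_v]`, then the restriction of `y` to
`Gal(ℚ̄/E)` is locally trivial at the place `(q, τ)` of `E`. -/
theorem locG_bcMap_eq_zero_of_finrank (H : PadicInput q)
    (y : levelCohomology (krullLevel ↥L Qbar) (unitsRep ↥L Qbar) 2) (d : ℕ)
    (hd : d • (locG q L τ 2).hom y = 0)
    (hdvd : d ∣ Module.finrank ↥(localFieldAt q L τ) ↥(localFieldAt q (E₀ L E) τ)) :
    (locG q (E₀ L E) τ 2).hom ((bcMap ↥L ↥E Qbar 2).hom y) = 0 := by
  rw [locG_bcMap]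
  apply (formationAt H (localFieldAt q (E₀ L E) τ)).inv_injective
  rw [map_zero, inv_bcMap_formationAt_rel H (localFieldAt q L τ) (localFieldAt q (E₀ L E) τ)]
  obtain ⟨m, hm⟩ := hdvd
  rw [hm, mul_comm, mul_smul, ← map_nsmul, hd, map_zero, smul_zero]

/-- The same, with the local degree expressed as `localDeg`. -/
theorem locG_bcMap_eq_zero_of_localDeg (H : PadicInput q)
    (y : levelCohomology (krullLevel ↥L Qbar) (unitsRep ↥L Qbar) 2) (d : ℕ)
    (hd : d • (locG q L τ 2).hom y = 0)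
    (hdvd : d ∣ localDeg q L (E₀ L E) τ) :
    (locG q (E₀ L E) τ 2).hom ((bcMap ↥L ↥E Qbar 2).hom y) = 0 :=
  locG_bcMap_eq_zero_of_finrank q L τ E H y d hd (by rwa [finrank_algLoc])

/-- **(b), Galois form**: if `E/L` is Galois, `d` kills the localisation of `y` at `(q, τ)` and `d`
divides the order of the decomposition group `D_w ≤ Gal(E/L)`, then the restriction of `y` to
`Gal(ℚ̄/E)` is locally trivial at `(q, τ)`. -/
theorem locG_bcMap_eq_zero (H : PadicInput q) [IsGalois ↥L ↥E]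
    (y : levelCohomology (krullLevel ↥L Qbar) (unitsRep ↥L Qbar) 2) (d : ℕ)
    (hd : d • (locG q L τ 2).hom y = 0)
    (hdvd : d ∣ Nat.card (decompE q L τ E)) :
    (locG q (E₀ L E) τ 2).hom ((bcMap ↥L ↥E Qbar 2).hom y) = 0 := by
  refine locG_bcMap_eq_zero_of_localDeg q L τ E H y d hd ?_
  have h := card_decompE q L τ E
  rwa [h] at hdvd

end G2

end Fermat.Agent.S55.GL.RecipBaseChange
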