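/-
S55 / GLO9c glue (helper27): FROM THE RECIPROCITY LAW IN THE `Gal(ℚ̄/↥L)`-MODEL (`RecipDefs.RecipG2`,
helper19) TO THE FIELD `BrauerInput.recip` (helper14's `G_{L,S}`-model).

`L ⊆ ℚ̄` finite over `ℚ`, `S` a finite set of primes.  A class `y ∈ H²(G_{L,S}, ℚ_S^×)` is inflated
to `H²(G_L, ℚ̄ˣ)` (`BrauerLocal.inflL`) and transported to `H²(Gal(ℚ̄/↥L), ℚ̄ˣ)`
(`GaloisLevelBC.restrictUnitsIso`): this is `toG2 S L`.  The localisation maps correspond:

* `resQ_eq_locG` : `resQ S L v y = locG v.prime L v.rep 2 (toG2 S L y)`;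
* `recip_of_recipG2` : `RecipG2 p L F → BrauerInput.recip` (verbatim) for `(p, S, L, F)`.
-/
import Fermat.Agent.S55.GL.RecipDefs

set_option autoImplicit false
set_option linter.unusedSectionVars false

open CategoryTheory IntermediateField

namespace Fermat.Agent.S55.GL.RecipAdapter

open Fermat.Agent.S55.Level Fermat.Agent.S55.GaloisLevel Fermat.Agent.S55.CFAbs
  Fermat.Agent.S55.GL.Places Fermat.Agent.S55.GL.BrauerLocal Fermat.Agent.S55.GL.BrauerInst
  Fermat.Agent.S55.GL.RecipLayer Fermat.Agent.S55.GL.RecipDefs Fermat.Agent.S55.GL.QSMod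
  Fermat.Agent.S55.CF

local notation "Qbar" => AlgebraicClosure ℚ
local notation "Γ" => (AlgebraicClosure ℚ ≃ₐ[ℚ] AlgebraicClosure ℚ)

local instance isGaloisQbar_RA : IsGalois ℚ Qbar := Fermat.Agent.S55.Level.isGalois_Qbar
local instance factPrime_RA (q : Nat.Primes) : Fact (q : ℕ).Prime := ⟨q.2⟩

variable (S : Finset Nat.Primes) (L : IntermediateField ℚ Qbar)

/-- The members of the Krull level structure are open (explicit-binder form). -/
theorem open_krullLevel : ∀ U ∈ (krullLevel ℚ Qbar).sets, IsKrullOpen ℚ Qbar U :=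
  fun _ hU => isKrullOpen_of_mem_krullLevel hU

/-- The Krull level structure is finer than `globalLevel S`. -/
theorem globalLevel_le_krullLevel :
    ∀ U ∈ (globalLevel S).sets, ∃ U' ∈ (krullLevel ℚ Qbar).sets, U' ≤ U :=
  fun U hU => ⟨U, ⟨(globalLevel S).normal U hU, open_globalLevel S U hU⟩, le_rfl⟩

/-- Inflation `Hⁿ(G_{L,S}, ℚ_S^×) → Hⁿ(G_L, ℚ̄ˣ)` (absolute Galois group, Krull level structure). -/
noncomputable def toAbs (n : ℕ) :
    levelCohomology (levelLS S L) (resL L (QSUnits S)) n ⟶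
      levelCohomology ((krullLevel ℚ Qbar).restrict L.fixingSubgroup)
        (resL L (unitsRep ℚ Qbar)) n :=
  inflL L (QSUnitsι S) (globalLevel S) (krullLevel ℚ Qbar) (globalLevel_le_krullLevel S) n

/-- Localising a class of `Hⁿ(G_{L,S}, ℚ_S^×)` is localising its inflation to `Hⁿ(G_L, ℚ̄ˣ)`. -/
theorem toAbs_resAt (q : ℕ) [Fact q.Prime] (σ : Γ) (n : ℕ)
    (y : levelCohomology (levelLS S L) (resL L (QSUnits S)) n) :
    (resAt q L σ (𝟙 (unitsRep ℚ Qbar)) (krullLevel ℚ Qbar) open_krullLevel n).hom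
        ((toAbs S L n).hom y) =
      (resAt q L σ (QSUnitsι S) (globalLevel S) (open_globalLevel S) n).hom y := by
  have h := inflL_resAt q L σ (QSUnitsι S) (𝟙 (unitsRep ℚ Qbar)) (globalLevel S)
    (krullLevel ℚ Qbar) (open_globalLevel S) open_krullLevel (globalLevel_le_krullLevel S) n
  rw [Category.comp_id] at h
  exact congrArg (fun ψ => ψ.hom y) h

variable [FiniteDimensional ℚ L]

/-- **From `G_{L,S}` to the `Gal(ℚ̄/↥L)`-model**: `Hⁿ(G_{L,S}, ℚ_S^×) → Hⁿ(Gal(ℚ̄/L), ℚ̄ˣ)`. -/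
noncomputable def toG2 (n : ℕ) :
    levelCohomology (levelLS S L) (resL L (QSUnits S)) n ⟶
      levelCohomology (krullLevel ↥L Qbar) (unitsRep ↥L Qbar) n :=
  toAbs S L n ≫ (restrictUnitsIso (K := ℚ) (Ω := Qbar) (H := L.fixingSubgroup) (E := L) rfl n).hom

/-- The localisation maps of the two models correspond. -/
theorem resAt_eq_locG_toG2 (q : ℕ) [Fact q.Prime] (σ : Γ) (n : ℕ)
    (y : levelCohomology (levelLS S L) (resL L (QSUnits S)) n) :
    (resAt q L σ (QSUnitsι S) (globalLevel S) (open_globalLevel S) n).hom y =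
      (locG q L σ n).hom ((toG2 S L n).hom y) := by
  rw [← toAbs_resAt]
  exact resAt_eq_locG q L σ n ((toAbs S L n).hom y)

/-- `resQ S L v = locG v.prime L v.rep 2 ∘ toG2 S L 2`. -/
theorem resQ_eq_locG (v : FinPlace L)
    (y : levelCohomology (levelLS S L) (resL L (QSUnits S)) 2) :
    resQ S L v y = (locG (v.prime : ℕ) L v.rep 2).hom ((toG2 S L 2).hom y) :=
  resAt_eq_locG_toG2 S L (v.prime : ℕ) v.rep 2 y

/-- `toG2` preserves `p`-primary classes. -/
theorem isPPrim_toG2 {p : ℕ} (n : ℕ) {y : levelCohomology (levelLS S L) (resL L (QSUnits S)) n}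
    (hy : IsPPrim p y) : IsPPrim p ((toG2 S L n).hom y) :=
  hy.map (toG2 S L n).hom.toAddMonoidHom

variable {L}

/-- **(R) `BrauerInput.recip` from the reciprocity law in the `Gal(ℚ̄/↥L)`-model.** -/
theorem recip_of_recipG2 {p : ℕ}
    {F : ∀ v : FinPlace L, Formation (levelv L v) (unitsRep (Kv L v) (PadicAlgCl (v.prime : ℕ)))}
    (h : RecipG2 p L F) :
    ∀ y : levelCohomology (levelLS S L) (resL L (QSUnits S)) 2, IsPPrim p y →
      ∃ T : Finset (FinPlace L), (∀ v, v ∉ T → resQ S L v y = 0) ∧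
        ∑ v ∈ T, (F v).inv (resQ S L v y) = 0 := by
  intro y hy
  obtain ⟨T, hT0, hTsum⟩ := h ((toG2 S L 2).hom y) (isPPrim_toG2 S L 2 hy)
  refine ⟨T, fun v hv => ?_, ?_⟩
  · rw [resQ_eq_locG]
    exact hT0 v hv
  · rw [← hTsum]
    exact Finset.sum_congr rfl fun v _ => by rw [resQ_eq_locG]

end Fermat.Agent.S55.GL.RecipAdapter
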