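/-
S55 / GLO9c glue (helper27): THE FIELD `BrauerAll.RecipField p S` FROM THE RECIPROCITY LAW IN THE
`Gal(ℚ̄/↥L)`-MODEL (`RecipDefs.RecipG2`, helper19) for the unconditional local class formations
`PadicCFT.cftPlace L` (`= formationAt (padicInput v.prime) (Kv L v)`).
-/
import Fermat.Agent.S55.GL.RecipAdapter
import Fermat.Agent.S55.GL.BrauerAll

set_option autoImplicit false
set_option linter.unusedSectionVars false

open CategoryTheory IntermediateField

namespace Fermat.Agent.S55.GL.RecipFieldAdapter

open Fermat.Agent.S55.Level Fermat.Agent.S55.GaloisLevel Fermat.Agent.S55.CFAbs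
  Fermat.Agent.S55.GL.Places Fermat.Agent.S55.GL.BrauerLocal Fermat.Agent.S55.GL.BrauerInst
  Fermat.Agent.S55.GL.RecipDefs Fermat.Agent.S55.GL.BrauerAll
  Fermat.Agent.S55.Local.PadicFormation Fermat.Agent.S55.Local.PadicCFT

local notation "Qbar" => AlgebraicClosure ℚ
local notation "Γ" => (AlgebraicClosure ℚ ≃ₐ[ℚ] AlgebraicClosure ℚ)

local instance isGaloisQbar_RFA : IsGalois ℚ Qbar := Fermat.Agent.S55.Level.isGalois_Qbar
local instance factPrime_RFA (q : Nat.Primes) : Fact (q : ℕ).Prime := ⟨q.2⟩

/-- **`RecipField p S` from the reciprocity law in the `Gal(ℚ̄/↥L)`-model** for the local class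
formations `cftPlace L`. -/
theorem recipField_of_recipG2 {p : ℕ} (S : Finset Nat.Primes)
    (h : ∀ (L : IntermediateField ℚ Qbar) [FiniteDimensional ℚ L], RecipG2 p L (cftPlace L)) :
    RecipField p S :=
  fun L _ => RecipAdapter.recip_of_recipG2 S (h L)

/-- The same, from the reciprocity law stated for an arbitrary family of `p`-adic inputs
(helper19's `recipG2`). -/
theorem recipField_of_recipG2_padic {p : ℕ} (S : Finset Nat.Primes)
    (h : ∀ (H : ∀ q : Nat.Primes, PadicInput (q : ℕ)) (L : IntermediateField ℚ Qbar)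
      [FiniteDimensional ℚ L], RecipG2 p L (fun v => formationAt (H v.prime) (Kv L v))) :
    RecipField p S :=
  recipField_of_recipG2 S fun L _ => h (fun q => padicInput (q : ℕ)) L

end Fermat.Agent.S55.GL.RecipFieldAdapter
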