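/-
S55 GLO9c (R), FINAL ASSEMBLY (helper19): the reciprocity field `BrauerAll.RecipField p S` of the
final S55 plug, UNCONDITIONALLY for `p` an odd prime.

* `finSuppG2` : finite support (helper5 `FinSupport.finSupp_locG`);
* `killG2` : the local kill statement (helper27 `RecipBaseChange.locG_bcMap_eq_zero` for the
  unconditional `p`-adic input of helper16);
* `recipG2` : `RecipG2 p L (formationAt (H v.prime) (Kv L v))` for every number field `L ⊆ ℚ̄`
  (`Reciprocity.recipG2_of` with helper22's `HasseAllAbs.hasseAllG2`);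
* `recipField` : `BrauerAll.RecipField p S` (helper27's `RecipFieldAdapter`).
-/
import Fermat.Agent.S55.GL.Reciprocity
import Fermat.Agent.S55.GL.RecipBaseChange
import Fermat.Agent.S55.GL.FinSupport
import Fermat.Agent.S55.GL.HasseAllAbs
import Fermat.Agent.S55.GL.RecipFieldAdapter
import Fermat.Agent.S55.Local.PadicInputInst

set_option autoImplicit false
set_option linter.unusedSectionVars false

open CategoryTheory IntermediateField

namespace Fermat.Agent.S55.GL.RecipFinal

open Fermat.Agent.S55.Level Fermat.Agent.S55.GaloisLevel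
open Fermat.Agent.S55.GL.Places Fermat.Agent.S55.GL.BrauerLocal
open Fermat.Agent.S55.GL.RecipLayer
open Fermat.Agent.S55.Local.PadicFormation Fermat.Agent.S55.GL.BrauerInst
open Fermat.Agent.S55.GL.RecipDefs Fermat.Agent.S55.GL.Reciprocity
open Fermat.Agent.S55.GL.RecipBaseChange

local notation "Qbar" => AlgebraicClosure ℚ
local notation "Γ" => (AlgebraicClosure ℚ ≃ₐ[ℚ] AlgebraicClosure ℚ)

local instance isGaloisQbar_RF : IsGalois ℚ Qbar := Fermat.Agent.S55.Level.isGalois_Qbar
local instance factPrime_RF (q : Nat.Primes) : Fact (q : ℕ).Prime := ⟨q.2⟩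

/-- Finite support of Brauer classes in the `Gal(ℚ̄/↥L)`-model. -/
theorem finSuppG2 : FinSuppG2 :=
  fun L _ y => Fermat.Agent.S55.GL.FinSupport.finSupp_locG L y

attribute [local instance] finiteDimensional_E₀ algLoc towerLoc

/-- The local kill statement, for the unconditional `p`-adic input. -/
theorem killG2 : KillG2 := fun q L _ τ E _ _ _ y d hd hdvd =>
  locG_bcMap_eq_zero (q : ℕ) L τ E
    (Fermat.Agent.S55.Local.PadicInputInst.padicInputPrimes q) y d hd hdvd

variable (p : ℕ) [hp : Fact p.Prime]

/-- **The reciprocity law** `Σ_v inv_v (y_v) = 0` for the `p`-primary classes of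
`H²(Gal(ℚ̄/L), ℚ̄ˣ)`, for EVERY number field `L ⊆ ℚ̄` and `p` odd — unconditional. -/
theorem recipG2 (hp2 : p ≠ 2) (H : ∀ q : Nat.Primes, PadicInput (q : ℕ))
    (L : IntermediateField ℚ Qbar) [FiniteDimensional ℚ L] :
    RecipG2 p L (fun v => formationAt (H v.prime) (Kv L v)) :=
  recipG2_of hp.out hp2 H (Fermat.Agent.S55.GL.HasseAllAbs.hasseAllG2 p hp2) killG2 finSuppG2 L

/-- **(R)** `BrauerAll.RecipField p S`: reciprocity for the `p`-primary classes of
`H²(G_{L,S}, ℚ_S^×)`, every finite `L`, `p` odd — unconditional. -/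
theorem recipField (hp2 : p ≠ 2) (S : Finset Nat.Primes) :
    Fermat.Agent.S55.GL.BrauerAll.RecipField p S :=
  Fermat.Agent.S55.GL.RecipFieldAdapter.recipField_of_recipG2_padic S
    (fun H L _ => recipG2 p hp2 H L)

end Fermat.Agent.S55.GL.RecipFinal
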