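/-
S55 / GLO13 (helper28): the `p`-rank lemma for finite abelian groups.

For a finite abelian group `X` and `n : ℕ`, `|X / nX| = |X[n]|`; hence `|B / nB| ≤ |A / nA|` for a
subgroup (more generally an injective image) `B` of a finite abelian group `A`, and
`|A / nA| ≤ |B / nB|` for a quotient `A` of `B`.  Used for `dim ker(loc²) ≤ c_L`: the group
`H¹(G_{L,S}, E_S)` embeds in `Cl_S(L)`, so its `p`-rank is at most that of `Cl_S(L)`.
-/
import Mathlib

set_option autoImplicit false

namespace Fermat.Agent.S55.GL.PRank

variable {A B : Type*} [AddCommGroup A] [AddCommGroup B]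

/-- `|X / nX| = |X[n]|` for a finite abelian group `X`. -/
theorem card_quotient_range_nsmul_eq_card_ker [Finite A] (n : ℕ) :
    Nat.card (A ⧸ (nsmulAddMonoidHom n : A →+ A).range) =
      Nat.card (nsmulAddMonoidHom n : A →+ A).ker := by
  set f : A →+ A := nsmulAddMonoidHom n
  have h1 : Nat.card f.range * f.range.index = Nat.card A := f.range.card_mul_index
  have h2 : Nat.card f.ker * f.ker.index = Nat.card A := f.ker.card_mul_index
  have h3 : f.ker.index = Nat.card f.range := AddSubgroup.index_ker f
  have h4 : 0 < Nat.card f.range := Nat.card_pos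
  rw [← AddSubgroup.index_eq_card]
  have : Nat.card f.range * f.range.index = Nat.card f.range * Nat.card f.ker := by
    rw [h1, ← h2, h3, mul_comm]
  exact Nat.eq_of_mul_eq_mul_left h4 this

/-- The `n`-torsion of a subgroup is at most the `n`-torsion of the group. -/
theorem card_ker_nsmul_le_of_injective [Finite A] (f : B →+ A) (hf : Function.Injective f)
    (n : ℕ) :
    Nat.card (nsmulAddMonoidHom n : B →+ B).ker ≤ Nat.card (nsmulAddMonoidHom n : A →+ A).ker := by
  refine Nat.card_le_card_of_injective
    (fun x : (nsmulAddMonoidHom n : B →+ B).ker =>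
      (⟨f x.1, by
        have hx : n • x.1 = 0 := x.2
        show n • f x.1 = 0
        rw [← map_nsmul, hx, map_zero]⟩ : (nsmulAddMonoidHom n : A →+ A).ker)) ?_
  intro x y hxy
  exact Subtype.ext (hf (congrArg Subtype.val hxy))

/-- **`p`-rank monotonicity for subgroups**: if `B` embeds in the finite abelian group `A`, then
`|B / nB| ≤ |A / nA|`. -/
theorem card_quotient_range_nsmul_le_of_injective [Finite A] (f : B →+ A)
    (hf : Function.Injective f) (n : ℕ) :
    Nat.card (B ⧸ (nsmulAddMonoidHom n : B →+ B).range) ≤
      Nat.card (A ⧸ (nsmulAddMonoidHom n : A →+ A).range) := by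
  have : Finite B := Finite.of_injective f hf
  rw [card_quotient_range_nsmul_eq_card_ker, card_quotient_range_nsmul_eq_card_ker]
  exact card_ker_nsmul_le_of_injective f hf n

/-- **`p`-rank monotonicity for quotients**: if the finite abelian group `B` surjects onto `A`,
then `|A / nA| ≤ |B / nB|`. -/
theorem card_quotient_range_nsmul_le_of_surjective [Finite B] (f : B →+ A)
    (hf : Function.Surjective f) (n : ℕ) :
    Nat.card (A ⧸ (nsmulAddMonoidHom n : A →+ A).range) ≤
      Nat.card (B ⧸ (nsmulAddMonoidHom n : B →+ B).range) := by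
  have : Finite A := Finite.of_surjective f hf
  refine Nat.card_le_card_of_surjective
    (QuotientAddGroup.map _ _ f (by
      rintro _ ⟨b, rfl⟩
      exact ⟨f b, (map_nsmul f n b).symm⟩)) ?_
  intro x
  obtain ⟨a, rfl⟩ := QuotientAddGroup.mk_surjective x
  obtain ⟨b, rfl⟩ := hf a
  exact ⟨QuotientAddGroup.mk b, rfl⟩

/-- The `n`-torsion subgroup has the same cardinality as the cokernel of `n` (finite abelian
group), in the `torsionBy` form. -/
theorem card_torsionBy_eq_card_quotient [Finite A] (n : ℕ) :
    Nat.card (Submodule.torsionBy ℤ A (n : ℤ)) =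
      Nat.card (A ⧸ (nsmulAddMonoidHom n : A →+ A).range) := by
  rw [card_quotient_range_nsmul_eq_card_ker]
  refine Nat.card_congr (Equiv.subtypeEquivRight fun a => ?_)
  rw [Submodule.mem_torsionBy_iff, AddMonoidHom.mem_ker, nsmulAddMonoidHom_apply,
    natCast_zsmul]

/-- Comparing dimensions of finite `ZMod p`-vector spaces through cardinalities. -/
theorem finrank_le_of_card_le {p : ℕ} [Fact p.Prime] {V W : Type*} [AddCommGroup V]
    [Module (ZMod p) V] [Finite V] [AddCommGroup W] [Module (ZMod p) W] [Finite W]
    (h : Nat.card V ≤ Nat.card W) :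
    Module.finrank (ZMod p) V ≤ Module.finrank (ZMod p) W := by
  have : Module.Finite (ZMod p) V := Module.Finite.of_finite
  have : Module.Finite (ZMod p) W := Module.Finite.of_finite
  rw [Module.natCard_eq_pow_finrank (K := ZMod p) (V := V),
    Module.natCard_eq_pow_finrank (K := ZMod p) (V := W), Nat.card_zmod] at h
  exact (Nat.pow_le_pow_iff_right (Fact.out : p.Prime).one_lt).1 h

/-- Cardinality of a finite `ZMod p`-vector space from its dimension. -/
theorem card_eq_pow_finrank {p : ℕ} [Fact p.Prime] {V : Type*} [AddCommGroup V]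
    [Module (ZMod p) V] [Finite V] : Nat.card V = p ^ Module.finrank (ZMod p) V := by
  have : Module.Finite (ZMod p) V := Module.Finite.of_finite
  rw [Module.natCard_eq_pow_finrank (K := ZMod p) (V := V), Nat.card_zmod]

end Fermat.Agent.S55.GL.PRank
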