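/-
S55 / GLO14 (helper28): the class-killing fields `kill1`, `kill2` of `GL.BaseCaseTriv.ArithL` hold
unconditionally (`BaseObjects.exists_Hmap_baseIncl_eq_zero`), so `ArithL` reduces to its two
arithmetic fields `K2` and `count`.
-/
import Fermat.Agent.S55.GL.BaseCaseTriv
import Fermat.Agent.S55.GL.BaseObjects

set_option autoImplicit false

namespace Fermat.Agent.S55.GL.ArithLKill

open Module groupCohomology Fermat.Agent.S55.Level Fermat.Agent.S55.Cone Fermat.Agent.S55.CF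
  Fermat.Agent.S55.DualTwist Fermat.Agent.S55.Devissage Fermat.Agent.S55.GL.BaseCase
  Fermat.Agent.S55.GL.BaseFamily Fermat.Agent.S55.GL.BaseCaseTriv

universe u

variable {k G : Type u} [Field k] [Group G] {𝒰 : LevelStructure G}
  (D : LocalData 𝒰) (χ : G →* kˣ) [IsDiscrete 𝒰 (ofChar χ)] (tr : Hc D (ofChar χ) 3 →ₗ[k] k)

/-- Class killing for the base objects `I_U = coind_U^G k`, in the shape of `ArithL.kill1/kill2`. -/
theorem kill (U : Subgroup G) (hU : U ∈ 𝒰.sets) [IsDiscrete 𝒰 (coindRes U (triv k G))] (n : ℕ)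
    (x : levelCohomology 𝒰 (coindRes U (triv k G)) (n + 1)) :
    ∃ U' ∈ 𝒰.sets, ∃ h : U' ≤ U, ∀ [IsDiscrete 𝒰 (coindRes U' (triv k G))],
      (Hmap 𝒰 (coindResIncl h (triv k G)) (n + 1)).hom x = 0 :=
  BaseObjects.exists_Hmap_baseIncl_eq_zero 𝒰 hU (triv k G) n x

/-- **`ArithL` from its two arithmetic fields**: the class-killing fields are automatic. -/
theorem arithL_of_K2_count
    (hK2 : ∀ U ∈ 𝒰.sets, (∀ u ∈ U, χ u = 1) → ∀ [IsDiscrete 𝒰 (coindRes U (triv k G))]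
      [IsDiscrete 𝒰 ((coindRes U (triv k G)).dualTwist χ)],
      (twistPair (𝒰 := 𝒰) χ (coindRes U (triv k G))).K2 D tr)
    (hcount : ∀ U ∈ 𝒰.sets, (∀ u ∈ U, χ u = 1) → ∀ [IsDiscrete 𝒰 (coindRes U (triv k G))]
      [IsDiscrete 𝒰 ((coindRes U (triv k G)).dualTwist χ)],
      ∃ s c, (twistPair (𝒰 := 𝒰) χ (coindRes U (triv k G))).Count D tr s c) :
    ArithL D χ tr where
  K2 := hK2
  count := hcount
  kill1 := fun U hU _ _ x => kill U hU 0 x
  kill2 := fun U hU _ _ x => kill U hU 1 x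

end Fermat.Agent.S55.GL.ArithLKill
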