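/-
S55 / GLO12 (part 4): ARITH-L (b), (c) over `G_{L,S}` in the `Cone.locH (brauerData L S)` form
(the shape consumed by the transport `LocalDataMatch` / `ArithLInst`).

* `finite_kerLocμ`: `Ш²_S(L, μ_p)` is finite when `H¹(G_{L,S}, E_S)` embeds into a finite group;
* `sha2_finite_and_card_le` (b): `Finite {y // locH (brauerData L S) μ 2 y = 0}` and
  `Nat.card _ ≤ |C / pC|`;
* `sumInv`, `exists_locH_eq_of_sumInv_eq_zero` (c): the additive map
  `s = Σ_w inv_w ∘ κ_w : ∏_w H²(L_w, μ_p) → ℝ/ℤ` whose kernel is contained in the range of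
  `locH (brauerData L S) μ 2`.
(helper14)
-/
import Fermat.Agent.S55.GL.BrauerInst
import Fermat.Agent.S55.GL.BrauerData

set_option autoImplicit false
set_option linter.unusedSectionVars false

open CategoryTheory IntermediateField

namespace Fermat.Agent.S55.GL.BrauerFinal

open Fermat.Agent.S55.Level Fermat.Agent.S55.GaloisLevel Fermat.Agent.S55.GL.Places
  Fermat.Agent.S55.LevelTransport Fermat.Agent.S55.GL.BrauerLocal Fermat.Agent.S55.GL.QSMod
  Fermat.Agent.S55.CF Fermat.Agent.S55.CFAbs Fermat.Agent.S55.GL.BrauerInst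
  Fermat.Agent.S55.GL.BrauerData Fermat.Agent.S55.Cone

local notation "Qbar" => AlgebraicClosure ℚ
local notation "Γ" => (AlgebraicClosure ℚ ≃ₐ[ℚ] AlgebraicClosure ℚ)

local instance isGaloisQbar_BF : IsGalois ℚ Qbar := Fermat.Agent.S55.Level.isGalois_Qbar
local instance factPrime_BF (q : Nat.Primes) : Fact (q : ℕ).Prime := ⟨q.2⟩

variable {p : ℕ} {S : Finset Nat.Primes} {L : IntermediateField ℚ Qbar} [FiniteDimensional ℚ L]
  {F : ∀ v : FinPlace L, CFAbs.Formation (levelv L v)
    (unitsRep (Kv L v) (PadicAlgCl (v.prime : ℕ)))}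

/-- The place of `PlaceS L S` underlying a member of `placesAbove L S`. -/
def placeSOf (v : FinPlace L) (hv : v ∈ placesAbove L S) : (brauerData L S).ι :=
  (⟨⟨v.1, (mem_placesAbove L S v).1 hv⟩, v.2⟩ : PlaceS L S)

/-- Discreteness of `μ_p` at the places of `brauerData` (explicit instance: the generic
`LocalData.isDiscrete_res` is not found by unification for the concrete `brauerData`). -/
instance isDiscrete_brauerData_mu (w : (brauerData L S).ι) :
    IsDiscrete ((brauerData L S).𝒱 w) (Rep.res ((brauerData L S).r w) (resL L (muP S p))) :=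
  LocalData.isDiscrete_res (brauerData L S) (resL L (muP S p)) w

/-- The components of `locH (brauerData L S)` are the maps `locμ`. -/
theorem locH_apply_placeS (c : levelCohomology (levelLS S L) (resL L (muP S p)) 2)
    (w : (brauerData L S).ι) :
    locH (brauerData L S) (resL L (muP S p)) 2 c w =
      locμ p S L (PlaceS.toFinPlace L S w) c := by
  show (levelCohomologyMap ((brauerData L S).r w) ((brauerData L S).refines w) (𝟙 _) 2).hom c = _
  unfold locμ locAt
  rfl

theorem locH_eq_zero_iff (c : levelCohomology (levelLS S L) (resL L (muP S p)) 2) :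
    locH (brauerData L S) (resL L (muP S p)) 2 c = 0 ↔
      ∀ v, v ∈ placesAbove L S → locμ p S L v c = 0 := by
  constructor
  · intro h v hv
    have := congrFun h (placeSOf v hv)
    rw [locH_apply_placeS] at this
    exact this
  · intro h
    funext w
    rw [locH_apply_placeS]
    exact h _ (PlaceS.toFinPlace_mem L S w)

section B

variable (hp : p.Prime) (hpS : (⟨p, hp⟩ : Nat.Primes) ∈ S) (H : BrauerInput p S L F)
  {C : Type*} [AddCommGroup C] [Finite C]
  (φ : levelCohomology (levelLS S L) (resL L (ESUnits S)) 1 →+ C) (hφ : Function.Injective φ)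

include hp hpS H hφ

/-- `Ш²_S(L, μ_p)` is finite. -/
theorem finite_kerLocμ :
    Finite (BrauerCore.kerLocμ (S := placesAbove L S) (locμ p S L)) := by
  have hfin : Finite (levelCohomology (levelLS S L) (resL L (ESUnits S)) 1) :=
    Finite.of_injective φ hφ
  have hsub : (BrauerCore.kerLocμ (S := placesAbove L S) (locμ p S L) :
      Set (levelCohomology (levelLS S L) (resL L (muP S p)) 2)) ⊆
      Set.range (kummerδ (levelLS S L) (kummerL_shortExact p S L hp hpS) 1).hom := by
    intro c hc
    exact (H.locμ_eq_zero_iff hp hpS c).1 hc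
  exact ((Set.finite_range _).subset hsub).to_subtype

/-- **ARITH-L (b)** in `locH` form: the kernel of `locH (brauerData L S) μ_p 2` is finite of
cardinality at most `|C / pC|`. -/
theorem sha2_finite_and_card_le :
    Finite {y : levelCohomology (levelLS S L) (resL L (muP S p)) 2 //
        locH (brauerData L S) (resL L (muP S p)) 2 y = 0} ∧
      Nat.card {y : levelCohomology (levelLS S L) (resL L (muP S p)) 2 //
        locH (brauerData L S) (resL L (muP S p)) 2 y = 0} ≤
        Nat.card (C ⧸ (nsmulAddMonoidHom p : C →+ C).range) := by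
  let e : {y : levelCohomology (levelLS S L) (resL L (muP S p)) 2 //
        locH (brauerData L S) (resL L (muP S p)) 2 y = 0} ≃
      BrauerCore.kerLocμ (S := placesAbove L S) (locμ p S L) :=
    Equiv.subtypeEquivRight fun y => locH_eq_zero_iff y
  have hfin := finite_kerLocμ hp hpS H φ hφ
  refine ⟨Finite.of_equiv _ e.symm, ?_⟩
  rw [Nat.card_congr e]
  exact H.card_sha2_le hp hpS φ hφ

end B

section C

variable (p S L F)

/-- **The sum of the local invariants** `s = Σ_w inv_w ∘ κ_w` on `∏_w H²(L_w, μ_p)`. -/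
noncomputable def sumInv :
    (∀ w : (brauerData L S).ι, levelCohomology ((brauerData L S).𝒱 w)
      (Rep.res ((brauerData L S).r w) (resL L (muP S p))) 2) →+ UnitAddCircle :=
  ∑ v ∈ (placesAbove L S).attach,
    (((F v.1).inv.comp (kappa p S L v.1)).comp
      (Pi.evalAddMonoidHom (fun w : (brauerData L S).ι => levelCohomology ((brauerData L S).𝒱 w)
        (Rep.res ((brauerData L S).r w) (resL L (muP S p))) 2) (placeSOf v.1 v.2)))

theorem sumInv_apply (y : ∀ w : (brauerData L S).ι, levelCohomology ((brauerData L S).𝒱 w)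
      (Rep.res ((brauerData L S).r w) (resL L (muP S p))) 2) :
    sumInv p S L F y = ∑ v ∈ (placesAbove L S).attach,
      (F v.1).inv (kappa p S L v.1 (y (placeSOf v.1 v.2))) := by
  rw [sumInv, AddMonoidHom.finsetSum_apply]
  rfl

variable {p S L F}

/-- **ARITH-L (c)** in `locH` form: a family of local classes with vanishing sum of invariants
is the localisation of a global class. -/
theorem exists_locH_eq_of_sumInv_eq_zero (hp : p.Prime) (hpS : (⟨p, hp⟩ : Nat.Primes) ∈ S)
    (H : BrauerInput p S L F)
    (y : ∀ w : (brauerData L S).ι, levelCohomology ((brauerData L S).𝒱 w)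
      (Rep.res ((brauerData L S).r w) (resL L (muP S p))) 2)
    (hy : sumInv p S L F y = 0) :
    ∃ c, locH (brauerData L S) (resL L (muP S p)) 2 c = y := by
  classical
  let x : ∀ v : FinPlace L, H2μv p S L v := fun v =>
    if h : v ∈ placesAbove L S then y (placeSOf v h) else 0
  have hx : ∑ v ∈ placesAbove L S, (F v).inv (kappa p S L v (x v)) = 0 := by
    rw [← Finset.sum_attach]
    rw [sumInv_apply] at hy
    rw [← hy]
    refine Finset.sum_congr rfl fun v _ => ?_
    have hxv : x v.1 = y (placeSOf v.1 v.2) := dif_pos v.2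
    rw [hxv]
  obtain ⟨c, hc⟩ := (H.exists_locμ_eq_iff hp hpS x).2 hx
  refine ⟨c, ?_⟩
  funext w
  rw [locH_apply_placeS, hc _ (PlaceS.toFinPlace_mem L S w)]
  exact dif_pos (PlaceS.toFinPlace_mem L S w)

/-- Conversely the localisation of a global class has vanishing sum of invariants. -/
theorem sumInv_locH (hp : p.Prime) (hpS : (⟨p, hp⟩ : Nat.Primes) ∈ S)
    (H : BrauerInput p S L F) (c : levelCohomology (levelLS S L) (resL L (muP S p)) 2) :
    sumInv p S L F (locH (brauerData L S) (resL L (muP S p)) 2 c) = 0 := by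
  rw [sumInv_apply]
  have h := (H.exists_locμ_eq_iff hp hpS (fun v => locμ p S L v c)).1 ⟨c, fun _ _ => rfl⟩
  rw [← Finset.sum_attach] at h
  exact h

/-- The sum of the invariants is killed by `p`. -/
theorem nsmul_sumInv (hp : p.Prime) (hpS : (⟨p, hp⟩ : Nat.Primes) ∈ S)
    (y : ∀ w : (brauerData L S).ι, levelCohomology ((brauerData L S).𝒱 w)
      (Rep.res ((brauerData L S).r w) (resL L (muP S p))) 2) :
    p • sumInv p S L F y = 0 := by
  rw [sumInv_apply, Finset.smul_sum]
  refine Finset.sum_eq_zero fun v _ => ?_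
  have h0 : p • (y (placeSOf v.1 v.2) : H2μv p S L v.1) = 0 := nsmul_H2μv p S L v.1 hp hpS _
  have h1 : p • kappa p S L v.1 (y (placeSOf v.1 v.2)) = 0 :=
    (map_nsmul (kappa p S L v.1) p (y (placeSOf v.1 v.2))).symm.trans
      ((congrArg (kappa p S L v.1) h0).trans (map_zero _))
  exact (map_nsmul (F v.1).inv p _).symm.trans ((congrArg (F v.1).inv h1).trans (map_zero _))

end C

end Fermat.Agent.S55.GL.BrauerFinal
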