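/-
S55 / GLO15 T3 (b′) (helper25 #827 (2)): the bound on `Ш²` in the `locL` language of
`ArithLInst.ArithU`.

`sha_count S L hpS F H j φ hφ c hc` : from `H : BrauerInput p S L F`, ANY isomorphism
`j : toIntRep (trivU (ZMod p) G_L) ≅ resL L (muP S p)` (e.g. `ZetaCoeff.zetaIso` or
`MuTriv.muTrivIsoU`), an injection `φ : H¹(G_{L,S}, E_S) ↪ C` into a finite abelian group with
`|C / pC| ≤ p ^ c`:
  `FiniteDimensional (ZMod p) (ker (locL (localData S) G_L (trivU (ZMod p) G_L) (sigma S L) 2)) ∧
   finrank (ZMod p) (ker (locL … 2)) ≤ c`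
(= the conjuncts `fdsha ∧ hsha` of `ArithU`, and — by `rfl` on `sigma = placeσ` — the last two
conjuncts of `ArithUInst.BrauerBlock`).

Route: `ker locL ≃ ker locH (mackeyData …)` (`kerLocLEquiv`) `≃ ker locH (brauerData L S) μ_p`
(`LocalDataMatch.kerEquivT` along `MackeyBrauerMatch.localMatch`), then helper14's
`BrauerFinal.sha2_finite_and_card_le`; `finrank_le_of_card_le`.
-/
import Mathlib
import Fermat.Agent.S55.GL.MackeyBrauerMatch
import Fermat.Agent.S55.GL.BrauerFinal
import Fermat.Agent.S55.GL.ArithLInst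
import Fermat.Agent.S55.LocalDataMatch

set_option autoImplicit false
set_option linter.unusedSectionVars false

open CategoryTheory ExtCitation

namespace Fermat.Agent.S55.GL.ArithT3b

open Fermat.Agent.S55.Level Fermat.Agent.S55.Cone Fermat.Agent.S55.GaloisLevel
  Fermat.Agent.S55.GL.Places Fermat.Agent.S55.GL.BrauerLocal Fermat.Agent.S55.GL.BrauerData
  Fermat.Agent.S55.GL.BrauerInst Fermat.Agent.S55.GL.BrauerFinal Fermat.Agent.S55.GL.QSMod
  Fermat.Agent.S55.GL.MackeyBrauerMatch Fermat.Agent.S55.LocalDataMatch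
  Fermat.Agent.S55.Assembly Fermat.Agent.S55.ShapiroTransport Fermat.Agent.S55.LevelScalars
  Fermat.Agent.S55.GL.ArithLInst Fermat.Agent.S55.CFAbs

local notation "Qbar" => AlgebraicClosure ℚ
local notation "Γ" => (AlgebraicClosure ℚ ≃ₐ[ℚ] AlgebraicClosure ℚ)

local instance factPrime_T3b (q : Nat.Primes) : Fact (q : ℕ).Prime := ⟨q.2⟩

section Generic

/-- A finite `𝔽_p`-vector space with at most `p ^ c` elements has dimension at most `c`. -/
theorem finrank_le_of_card_le {p : ℕ} [Fact p.Prime] {V : Type*} [AddCommGroup V]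
    [Module (ZMod p) V] [Finite V] {c : ℕ} (h : Nat.card V ≤ p ^ c) :
    Module.finrank (ZMod p) V ≤ c := by
  have hp : p.Prime := Fact.out
  have h1 := Module.natCard_eq_pow_finrank (K := ZMod p) (V := V)
  rw [Nat.card_zmod] at h1
  rw [h1] at h
  exact (Nat.pow_le_pow_iff_right hp.one_lt).1 h

end Generic

variable {p : ℕ} [hpF : Fact p.Prime] (S : Finset Nat.Primes) (L : IntermediateField ℚ Qbar)
  [FiniteDimensional ℚ L] [IsOpenSub (globalLevel S) L.fixingSubgroup]
  [IsDiscrete ((globalLevel S).restrict L.fixingSubgroup) (trivU (ZMod p) L.fixingSubgroup)]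

/-- The kernel of `locL` is the kernel of `locH (mackeyData …)`. -/
noncomputable def kerLocLEquiv (n : ℕ) :
    ↥(LinearMap.ker (locL (localData S) L.fixingSubgroup (trivU (ZMod p) L.fixingSubgroup)
      (sigma S L) n)) ≃
    {x : levelCohomology ((globalLevel S).restrict L.fixingSubgroup)
        (trivU (ZMod p) L.fixingSubgroup) n //
      locH (mackeyData (localData S) L.fixingSubgroup (sigma S L))
        (trivU (ZMod p) L.fixingSubgroup) n x = 0} :=
  Equiv.subtypeEquivRight fun x => by
    rw [LinearMap.mem_ker]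
    constructor
    · intro h
      funext w
      exact congrFun (congrFun h w.1) w.2
    · intro h
      funext v i
      exact congrFun h ⟨v, i⟩

variable (hpS : (⟨p, hpF.out⟩ : Nat.Primes) ∈ S)
  (F : ∀ v : FinPlace L, Formation (levelv L v) (unitsRep (Kv L v) (PadicAlgCl (v.prime : ℕ))))
  (H : BrauerInput p S L F)
  (j : toIntRep (trivU (ZMod p) L.fixingSubgroup) ≅ resL L (muP S p))
  {C : Type} [AddCommGroup C] [Finite C]
  (φ : levelCohomology (levelLS S L) (resL L (ESUnits S)) 1 →+ C) (hφ : Function.Injective φ)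

include hpS H j hφ in
/-- The kernel of `locL` in degree 2 is finite, of cardinality at most `|C / pC|`. -/
theorem finite_and_card_ker_locL_le :
    Finite ↥(LinearMap.ker (locL (localData S) L.fixingSubgroup
      (trivU (ZMod p) L.fixingSubgroup) (sigma S L) 2)) ∧
    Nat.card ↥(LinearMap.ker (locL (localData S) L.fixingSubgroup
      (trivU (ZMod p) L.fixingSubgroup) (sigma S L) 2)) ≤
      Nat.card (C ⧸ (nsmulAddMonoidHom p : C →+ C).range) := by
  obtain ⟨hfin, hcard⟩ := sha2_finite_and_card_le hpF.out hpS H φ hφ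
  let e := (kerLocLEquiv S L (p := p) 2).trans
    (kerEquivT (localMatch S L) (trivU (ZMod p) L.fixingSubgroup) (resL L (muP S p)) j 2).symm
  exact ⟨Finite.of_equiv _ e.symm, (Nat.card_congr e).trans_le hcard⟩

include hpS H j hφ in
/-- **T3 (b′)** = the conjuncts `fdsha ∧ hsha` of `ArithLInst.ArithU` for `U = G_L`. -/
theorem sha_count (c : ℕ)
    (hc : Nat.card (C ⧸ (nsmulAddMonoidHom p : C →+ C).range) ≤ p ^ c) :
    FiniteDimensional (ZMod p) ↥(LinearMap.ker (locL (localData S) L.fixingSubgroup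
      (trivU (ZMod p) L.fixingSubgroup) (sigma S L) 2)) ∧
    Module.finrank (ZMod p) ↥(LinearMap.ker (locL (localData S) L.fixingSubgroup
      (trivU (ZMod p) L.fixingSubgroup) (sigma S L) 2)) ≤ c := by
  obtain ⟨hfin, hcard⟩ := finite_and_card_ker_locL_le S L hpS F H j φ hφ
  exact ⟨Module.Finite.of_finite, finrank_le_of_card_le (hcard.trans hc)⟩

end Fermat.Agent.S55.GL.ArithT3b
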