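/-
S55 GLO9c (reciprocity), ideal-theoretic core, part 1: the Artin symbol AWAY from `m`.

`E/K` an abelian extension of number fields, `m` a natural number.  `artinAway K E m I` is the
product of the Frobenius elements over the prime factors of `I` not containing `m`.

Hypotheses used below:
* `hunr` : every prime of `E` not containing `m` has trivial inertia group;
* `hrec` : the TRIVIAL ideal-theoretic reciprocity law for `m`: the product of Frobenius elements
  over the factorisation of a principal ideal `(γ)`, `γ ≡ 1 mod m`, is trivial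
  (exactly the output of `Cyclo.exists_cross`).

Results: `artinAway_relNorm` (norms of ideals of `E` are killed) and `artinAway_span_eq_one`
(principal ideals `(γ)`, `γ ≡ 1 mod m`, are killed).
-/
import Mathlib
import Fermat.Agent.S14.ArtinMap
import Fermat.Agent.S14.TwoPrime

set_option autoImplicit false
set_option linter.unusedSectionVars false

namespace Fermat.Agent.S55.GL.ArtinAway

open NumberField UniqueFactorizationMonoid
open Fermat.Agent.S14.ArtinMap Fermat.Agent.S14.TwoPrime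

section Defs

variable (K E : Type*) [Field K] [Field E] [NumberField K] [NumberField E] [Algebra K E]
  [IsGalois K E] (m : ℕ)

open Classical in
/-- The Frobenius of `P`, or `1` if `P` contains `m`. -/
noncomputable def frobAway (P : Ideal (𝓞 K)) : Gal(E/K) :=
  if (m : 𝓞 K) ∈ P then 1 else frob K E P

theorem frobAway_of_mem {P : Ideal (𝓞 K)} (h : (m : 𝓞 K) ∈ P) : frobAway K E m P = 1 := by
  classical
  rw [frobAway, if_pos h]

theorem frobAway_of_not_mem {P : Ideal (𝓞 K)} (h : (m : 𝓞 K) ∉ P) :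
    frobAway K E m P = frob K E P := by
  classical
  rw [frobAway, if_neg h]

variable [IsMulCommutative Gal(E/K)]

open scoped IsMulCommutative

/-- The Artin symbol away from `m`. -/
noncomputable def artinAway (I : Ideal (𝓞 K)) : Gal(E/K) :=
  ((normalizedFactors I).map (frobAway K E m)).prod

theorem artinAway_top : artinAway K E m ⊤ = 1 := by
  rw [artinAway, ← Ideal.one_eq_top, normalizedFactors_one]
  simp

theorem artinAway_mul {I J : Ideal (𝓞 K)} (hI : I ≠ ⊥) (hJ : J ≠ ⊥) :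
    artinAway K E m (I * J) = artinAway K E m I * artinAway K E m J := by
  rw [artinAway, artinAway, artinAway, normalizedFactors_mul hI hJ, Multiset.map_add,
    Multiset.prod_add]

theorem artinAway_prime {P : Ideal (𝓞 K)} [hPp : P.IsPrime] (hP : P ≠ ⊥) :
    artinAway K E m P = frobAway K E m P := by
  have hirr : Irreducible P := (Ideal.prime_of_isPrime hP hPp).irreducible
  rw [artinAway, normalizedFactors_irreducible hirr, normalize_eq]
  simp

theorem artinAway_pow (I : Ideal (𝓞 K)) (n : ℕ) :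
    artinAway K E m (I ^ n) = artinAway K E m I ^ n := by
  rw [artinAway, artinAway, normalizedFactors_pow, Multiset.map_nsmul, Multiset.prod_nsmul]

/-- Away from `m` the two Artin symbols agree. -/
theorem artinAway_eq_artin {I : Ideal (𝓞 K)}
    (h : ∀ P : Ideal (𝓞 K), P.IsPrime → I ≤ P → (m : 𝓞 K) ∉ P) :
    artinAway K E m I = artin K E I := by
  rw [artinAway, artin]
  congr 1
  refine Multiset.map_congr rfl fun P hP => ?_
  have hp := prime_of_normalized_factor P hP
  exact frobAway_of_not_mem K E m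
    (h P (Ideal.isPrime_of_prime hp) (Ideal.le_of_dvd (dvd_of_mem_normalizedFactors hP)))

end Defs

section Main

variable {K E : Type*} [Field K] [Field E] [NumberField K] [NumberField E] [Algebra K E]
  [IsGalois K E] [IsMulCommutative Gal(E/K)] {m : ℕ}

open scoped IsMulCommutative

theorem natCast_mem_under {Q : Ideal (𝓞 E)} (h : (m : 𝓞 E) ∈ Q) :
    (m : 𝓞 K) ∈ Q.under (𝓞 K) := by
  rw [Ideal.under_def, Ideal.mem_comap, map_natCast]
  exact h

theorem unramifiedAt_of_not_mem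
    (hunr : ∀ Q : Ideal (𝓞 E), Q.IsPrime → Q ≠ ⊥ → (m : 𝓞 E) ∉ Q → Q.inertia Gal(E/K) = ⊥)
    {P : Ideal (𝓞 K)} (hP0 : P ≠ ⊥) (hmP : (m : 𝓞 K) ∉ P) : UnramifiedAt K E P := by
  intro Q hQp hQo
  refine hunr Q hQp (ne_bot_of_liesOver E hP0 Q) fun hmem => hmP ?_
  rw [hQo.over]
  exact natCast_mem_under hmem

/-- Frobenius to the power the residue degree is trivial. -/
theorem frobAway_pow_inertiaDeg
    (hunr : ∀ Q : Ideal (𝓞 E), Q.IsPrime → Q ≠ ⊥ → (m : 𝓞 E) ∉ Q → Q.inertia Gal(E/K) = ⊥)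
    {P : Ideal (𝓞 K)} [P.IsPrime] (hP0 : P ≠ ⊥) (Q : Ideal (𝓞 E)) [Q.IsPrime] [Q.LiesOver P] :
    frobAway K E m P ^ Q.inertiaDeg (𝓞 K) = 1 := by
  by_cases hmP : (m : 𝓞 K) ∈ P
  · rw [frobAway_of_mem K E m hmP, one_pow]
  · rw [frobAway_of_not_mem K E m hmP]
    have : IsMulCommutative Gal(E/E) := ⟨⟨fun a b => Subsingleton.elim _ _⟩⟩
    have h := res_frob (K := K) (L := E) (F := E) (M := E) hP0
      (unramifiedAt_of_not_mem hunr hP0 hmP) Q
    rw [← h, Subsingleton.elim (frob E E Q) 1, map_one]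

/-- **Norms of ideals are killed by the Artin symbol away from `m`.** -/
theorem artinAway_relNorm
    (hunr : ∀ Q : Ideal (𝓞 E), Q.IsPrime → Q ≠ ⊥ → (m : 𝓞 E) ∉ Q → Q.inertia Gal(E/K) = ⊥)
    (J : Ideal (𝓞 E)) (hJ : J ≠ ⊥) : artinAway K E m (Ideal.relNorm (𝓞 K) J) = 1 := by
  refine ideal_induction (C := fun J : Ideal (𝓞 E) => artinAway K E m (Ideal.relNorm (𝓞 K) J) = 1)
    ?_ ?_ ?_ J hJ
  · rw [Ideal.relNorm_top, artinAway_top]
  · intro Q hQ hQ0
    have hPp : (Q.under (𝓞 K)).IsPrime := Ideal.IsPrime.under (𝓞 K) Q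
    have hP0 : Q.under (𝓞 K) ≠ ⊥ := Ideal.under_ne_bot (𝓞 K) hQ0
    have hlo : Q.LiesOver (Q.under (𝓞 K)) := ⟨rfl⟩
    have hPmax : (Q.under (𝓞 K)).IsMaximal := Ring.DimensionLEOne.maximalOfPrime hP0 hPp
    have hQmax : Q.IsMaximal := Ring.DimensionLEOne.maximalOfPrime hQ0 hQ
    rw [Ideal.relNorm_eq_pow_of_isMaximal Q (Q.under (𝓞 K)), artinAway_pow,
      artinAway_prime K E m hP0, frobAway_pow_inertiaDeg hunr hP0 Q]
  · intro I J hI hJ ihI ihJ
    have hI' : Ideal.relNorm (𝓞 K) I ≠ ⊥ := by rwa [Ne, Ideal.relNorm_eq_bot_iff]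
    have hJ' : Ideal.relNorm (𝓞 K) J ≠ ⊥ := by rwa [Ne, Ideal.relNorm_eq_bot_iff]
    rw [map_mul, artinAway_mul K E m hI' hJ', ihI, ihJ, one_mul]

/-- The product of the Frobenius elements of a Frobenius list is the Artin symbol of the product
of the primes below. -/
theorem frobProd_eq_artin
    (hunr : ∀ Q : Ideal (𝓞 E), Q.IsPrime → Q ≠ ⊥ → (m : 𝓞 E) ∉ Q → Q.inertia Gal(E/K) = ⊥)
    (l : List (Ideal (𝓞 E) × Gal(E/K))) (hl : IsFrobList m l) (h0 : underProd l ≠ ⊥) :
    frobProd l = artin K E (underProd l) := by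
  induction l with
  | nil => rw [frobProd_nil, underProd_nil, Ideal.one_eq_top, artin_top]
  | cons q l ih =>
    rw [underProd_cons] at h0
    have hq0 : q.1.under (𝓞 K) ≠ ⊥ := fun h => h0 (by rw [h, Ideal.bot_mul])
    have hl0 : underProd l ≠ ⊥ := fun h => h0 (by rw [h, Ideal.mul_bot])
    obtain ⟨hqp, hqm, hqf⟩ := hl q List.mem_cons_self
    have hQ0 : q.1 ≠ ⊥ := by
      intro h
      apply hq0
      rw [h]
      exact Ideal.under_bot _ _
    have hPp : (q.1.under (𝓞 K)).IsPrime := Ideal.IsPrime.under (𝓞 K) q.1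
    have hlo : q.1.LiesOver (q.1.under (𝓞 K)) := ⟨rfl⟩
    have : Finite ((𝓞 E) ⧸ q.1) := Ideal.finiteQuotientOfFreeOfNeBot q.1 hQ0
    have hfr := isArithFrobAt_frob (K := K) (L := E) hq0 q.1
    have hin := IsArithFrobAt.mul_inv_mem_inertia hqf hfr
    rw [hunr q.1 hqp hQ0 hqm, Subgroup.mem_bot, mul_inv_eq_one] at hin
    rw [frobProd_cons, underProd_cons, artin_mul K E hq0 hl0, artin_prime K E hq0,
      ih (fun r hr => hl r (List.mem_cons_of_mem _ hr)) hl0, hin]

/-- A prime containing `γ ≡ 1 mod m` does not contain `m`. -/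
theorem not_mem_of_sub_one_mem {γ : 𝓞 K} (hγ1 : γ - 1 ∈ Ideal.span {(m : 𝓞 K)})
    (P : Ideal (𝓞 K)) (hP : P.IsPrime) (hle : Ideal.span {γ} ≤ P) : (m : 𝓞 K) ∉ P := by
  intro hm
  have h1 : γ - 1 ∈ P := (Ideal.span_singleton_le_iff_mem P).2 hm hγ1
  have h2 : γ ∈ P := (Ideal.span_singleton_le_iff_mem P).1 hle
  apply hP.ne_top
  rw [Ideal.eq_top_iff_one]
  have : (1 : 𝓞 K) = γ - (γ - 1) := by ring
  rw [this]
  exact P.sub_mem h2 h1

/-- **Principal ideals `(γ)`, `γ ≡ 1 mod m`, are killed by the Artin symbol away from `m`**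
(under the trivial reciprocity hypothesis `hrec`). -/
theorem artinAway_span_eq_one
    (hunr : ∀ Q : Ideal (𝓞 E), Q.IsPrime → Q ≠ ⊥ → (m : 𝓞 E) ∉ Q → Q.inertia Gal(E/K) = ⊥)
    (hrec : ∀ γ : 𝓞 K, γ ≠ 0 → γ - 1 ∈ Ideal.span {(m : 𝓞 K)} →
      ∀ l : List (Ideal (𝓞 E) × Gal(E/K)), IsFrobList m l → underProd l = Ideal.span {γ} →
        frobProd l = 1)
    {γ : 𝓞 K} (hγ : γ ≠ 0) (hγ1 : γ - 1 ∈ Ideal.span {(m : 𝓞 K)}) :
    artinAway K E m (Ideal.span {γ}) = 1 := by
  have h0 : Ideal.span {γ} ≠ ⊥ := by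
    rwa [Ne, Ideal.span_singleton_eq_bot]
  rw [artinAway_eq_artin K E m (not_mem_of_sub_one_mem hγ1)]
  obtain ⟨l, hl, hlp⟩ := exists_frobList (Ω := E) (m := m) (Ideal.span {γ}) h0
    (not_mem_of_sub_one_mem hγ1)
  rw [← hlp, ← frobProd_eq_artin hunr l hl (by rwa [hlp])]
  exact hrec γ hγ hγ1 l hl hlp

end Main

end Fermat.Agent.S55.GL.ArtinAway
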