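/-
S55 / GLO14, part 5: the hypothesis `Pair.Count` of the base case from PER-PLACE data.

* `locDual_single_right`, `locDual_injective`: the mirror images of `Cone.locDual_single`,
  `Cone.locDual_surjective` (per-place LEFT nondegeneracy gives injectivity of the sum of the local
  duality maps).
* `finiteDimensional_of_ker_of_codomain`: `H²(Y)` is finite dimensional as soon as `Ш²(Y)` and
  `P²(Y)` are.
* `Pair.K2_of_finrank`: ARITH (c) (`Pair.K2`) from a COUNT: `ι⁰` injective and
  `dim P²(Y) ≤ dim H⁰(X) + dim range (loc² on Y)` (the cokernel of `loc²` has dimension at most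
  `dim H⁰(X)`, which is `1` for the base objects).
* `Pair.count_of_local`: `Pair.Count D tr s c` from
  - an isomorphism `e : P.X ≅ P.Y` (the `ζ`-isomorphism; gives `hH'`, `hker`, `fdH1'`),
  - the global count `finrank H¹(X) = s + c` and `Ш²(Y)` finite dimensional of dimension `≤ c`,
  - per-place finite dimensionality, the per-place count `∑_v finrank H¹_v(Y) = 2 s`,
  - per-place nondegeneracy of `inv_v (a ∪ b)` in degrees `(0,2)` (both sides) and `(1,1)` (left).
-/
import Fermat.Agent.S55.GL.BaseCase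
import Fermat.Agent.S55.ConeEndgame
import Fermat.Agent.S55.ConeStep

set_option autoImplicit false

namespace Fermat.Agent.S55.GL.BaseLocal

open CategoryTheory Module Fermat.Agent.S55.Level Fermat.Agent.S55.Cone
  Fermat.Agent.S55.GL.BaseCase Fermat.Agent.S55.GL.BaseCount

universe u

variable {k G : Type u} [Field k] [Group G] {𝒰 : LevelStructure G} (D : LocalData 𝒰)

section LocDual

variable {A B C : Rep.{u} k G} [IsDiscrete 𝒰 A] [IsDiscrete 𝒰 B] [IsDiscrete 𝒰 C]
  (φ : A →ₗ[k] B →ₗ[k] C)
  (hφ : ∀ (g : G) (a : A) (b : B), φ (A.ρ g a) (B.ρ g b) = C.ρ g (φ a b))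
  [DecidableEq D.ι]

/-- The value of the sum of the local duality maps against a family supported at one place. -/
theorem locDual_single_right (m n p : ℕ) (h : m + n = p) (tr : Hc D C (p + 1) →ₗ[k] k) (v : D.ι)
    (w : ∀ v, levelCohomology (D.𝒱 v) (Rep.res (D.r v) A) m)
    (b : levelCohomology (D.𝒱 v) (Rep.res (D.r v) B) n) :
    locDual D φ hφ m n p h tr w (Pi.single v b) =
      invAt D tr v (cupLoc D φ hφ v m n p h (w v) b) := by
  rw [locDual_apply, invAt_apply]
  congr 2
  funext v'
  by_cases hv : v' = v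
  · subst hv
    simp
  · rw [Pi.single_eq_of_ne hv, Pi.single_eq_of_ne hv, map_zero]

/-- One-sided (left) local nondegeneracy at every place implies injectivity of the sum of the local
duality maps. -/
theorem locDual_injective (m n p : ℕ) (h : m + n = p) (tr : Hc D C (p + 1) →ₗ[k] k)
    (hnd : ∀ (v : D.ι) (a : levelCohomology (D.𝒱 v) (Rep.res (D.r v) A) m),
      (∀ b : levelCohomology (D.𝒱 v) (Rep.res (D.r v) B) n,
        invAt D tr v (cupLoc D φ hφ v m n p h a b) = 0) → a = 0) :
    Function.Injective (locDual D φ hφ m n p h tr) := by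
  rw [injective_iff_map_eq_zero]
  intro w hw
  funext v
  apply hnd v (w v)
  intro b
  rw [← locDual_single_right D φ hφ m n p h tr v w b, hw]
  rfl

end LocDual

section FiniteDim

variable {V W : Type*} [AddCommGroup V] [Module k V] [AddCommGroup W] [Module k W]

/-- A vector space mapping to a finite dimensional space with finite dimensional kernel is finite
dimensional. -/
theorem finiteDimensional_of_ker_of_codomain (f : V →ₗ[k] W) [FiniteDimensional k W]
    [FiniteDimensional k (LinearMap.ker f)] : FiniteDimensional k V := by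
  have h1 : FiniteDimensional k (LinearMap.range f) := inferInstance
  have h2 : FiniteDimensional k (V ⧸ LinearMap.ker f) :=
    LinearEquiv.finiteDimensional f.quotKerEquivRange.symm
  exact Module.Finite.of_submodule_quotient (LinearMap.ker f)

end FiniteDim

section Count

variable {C : Rep.{u} k G} [IsDiscrete 𝒰 C] (tr : Hc D C 3 →ₗ[k] k) (P : Pair 𝒰 C)
  [Fintype D.ι] [DecidableEq D.ι]

/-- **`Pair.Count` from per-place data** and the `ζ`-isomorphism `P.X ≅ P.Y`. -/
theorem _root_.Fermat.Agent.S55.GL.BaseCase.Pair.count_of_local {s c : ℕ} (e : P.X ≅ P.Y)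
    (fdH1 : FiniteDimensional k (levelCohomology 𝒰 P.X 1))
    (hH : finrank k (levelCohomology 𝒰 P.X 1) = s + c)
    (fdSha2 : FiniteDimensional k (LinearMap.ker (locH D P.Y 2)))
    (hsha2 : finrank k (LinearMap.ker (locH D P.Y 2)) ≤ c)
    (fd0 : ∀ v, FiniteDimensional k (levelCohomology (D.𝒱 v) (Rep.res (D.r v) P.X) 0))
    (fd1' : ∀ v, FiniteDimensional k (levelCohomology (D.𝒱 v) (Rep.res (D.r v) P.Y) 1))
    (fd2' : ∀ v, FiniteDimensional k (levelCohomology (D.𝒱 v) (Rep.res (D.r v) P.Y) 2))
    (hP' : ∑ v, finrank k (levelCohomology (D.𝒱 v) (Rep.res (D.r v) P.Y) 1) = 2 * s)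
    (hnd02l : ∀ (v : D.ι) (a : levelCohomology (D.𝒱 v) (Rep.res (D.r v) P.X) 0),
      (∀ b : levelCohomology (D.𝒱 v) (Rep.res (D.r v) P.Y) 2,
        invAt D (p := 2) tr v (cupLoc D P.φ P.hφ v 0 2 2 rfl a b) = 0) → a = 0)
    (hnd02r : ∀ (v : D.ι) (b : levelCohomology (D.𝒱 v) (Rep.res (D.r v) P.Y) 2),
      (∀ a : levelCohomology (D.𝒱 v) (Rep.res (D.r v) P.X) 0,
        invAt D (p := 2) tr v (cupLoc D P.φ P.hφ v 0 2 2 rfl a b) = 0) → b = 0)
    (hnd11l : ∀ (v : D.ι) (a : levelCohomology (D.𝒱 v) (Rep.res (D.r v) P.X) 1),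
      (∀ b : levelCohomology (D.𝒱 v) (Rep.res (D.r v) P.Y) 1,
        invAt D (p := 2) tr v (cupLoc D P.φ P.hφ v 1 1 2 rfl a b) = 0) → a = 0) :
    P.Count D tr s c := by
  have fdP2' : FiniteDimensional k (∀ v, levelCohomology (D.𝒱 v) (Rep.res (D.r v) P.Y) 2) :=
    inferInstance
  have fdH1' : FiniteDimensional k (levelCohomology 𝒰 P.Y 1) :=
    LinearEquiv.finiteDimensional (HmapEquiv e 1)
  exact
    { fdH1 := fdH1
      fdH1' := fdH1'
      fdH2' := finiteDimensional_of_ker_of_codomain (locH D P.Y 2)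
      fdP0 := inferInstance
      fdP1' := inferInstance
      fdP2' := fdP2'
      hH := hH
      hH' := (finrank_levelCohomology_eq_of_iso e 1).symm.trans hH
      hP' := by rw [Module.finrank_pi_fintype]; exact hP'
      hker := finrank_ker_locH_eq_of_iso D e 1
      hsha2 := hsha2
      hι0 := ⟨locDual_injective D P.φ P.hφ 0 2 2 rfl tr hnd02l,
        locDual_surjective D P.φ P.hφ 0 2 2 rfl tr fd2' hnd02r⟩
      hι1 := locDual_injective D P.φ P.hφ 1 1 2 rfl tr hnd11l }

end Count

section K2

variable {C : Rep.{u} k G} [IsDiscrete 𝒰 C] (tr : Hc D C 3 →ₗ[k] k) (P : Pair 𝒰 C)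

/-- The localisation map in degree `0` is injective as soon as there is at least one place. -/
theorem locH_zero_injective [Nonempty D.ι] (A : Rep.{u} k G) [IsDiscrete 𝒰 A] :
    Function.Injective (locH D A 0) := by
  rw [injective_iff_map_eq_zero]
  intro x hx
  obtain ⟨v⟩ := ‹Nonempty D.ι›
  apply levelCohomologyMap_zero_injective (D.r v) (D.refines v) A
  rw [map_zero]
  exact congrFun hx v

/-- The localisation images in degrees `0` (of `X`) and `2` (of `Y`) are orthogonal: formal from
the cone (`∂ ∘ loc = 0`). -/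
theorem _root_.Fermat.Agent.S55.GL.BaseCase.Pair.isotropic_zero_two
    (c : levelCohomology 𝒰 P.X 0) (y : levelCohomology 𝒰 P.Y 2) :
    P.iota0 D tr (locH D P.X 0 c) (locH D P.Y 2 y) = 0 := by
  have h := Phi_HcBd D P.φ P.hφ 0 2 2 rfl tr (locH D P.X 0 c) y
  rw [HcBd_locH, map_zero] at h
  exact h.symm

/-- **ARITH (c) from a count**: if `ι⁰` is injective and
`dim P²(Y) ≤ dim range (loc⁰ on X) + dim range (loc² on Y)`, then `K2` holds. -/
theorem _root_.Fermat.Agent.S55.GL.BaseCase.Pair.K2_of_finrank_range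
    [FiniteDimensional k (∀ v, levelCohomology (D.𝒱 v) (Rep.res (D.r v) P.Y) 2)]
    (hι0 : Function.Injective (P.iota0 D tr))
    (hdim : finrank k (∀ v, levelCohomology (D.𝒱 v) (Rep.res (D.r v) P.Y) 2) ≤
      finrank k (LinearMap.range (locH D P.X 0)) + finrank k (LinearMap.range (locH D P.Y 2))) :
    P.K2 D tr := by
  intro w hw
  have hmem : w ∈ LinearMap.range (locH D P.X 0) :=
    mem_of_isotropic_of_le_finrank (P.iota0 D tr) hι0 (LinearMap.range (locH D P.X 0))
      (LinearMap.range (locH D P.Y 2))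
      (by
        rintro _ ⟨c, rfl⟩ _ ⟨y, rfl⟩
        exact P.isotropic_zero_two D tr c y)
      hdim
      (by
        rintro _ ⟨y, rfl⟩
        exact hw y)
  obtain ⟨c, rfl⟩ := hmem
  exact HcBd_locH D P.X 0 c

/-- **ARITH (c) from a count**, with `dim H⁰(X)` in place of `dim range loc⁰`. -/
theorem _root_.Fermat.Agent.S55.GL.BaseCase.Pair.K2_of_finrank [Nonempty D.ι]
    [FiniteDimensional k (∀ v, levelCohomology (D.𝒱 v) (Rep.res (D.r v) P.Y) 2)]
    (hι0 : Function.Injective (P.iota0 D tr))
    (hdim : finrank k (∀ v, levelCohomology (D.𝒱 v) (Rep.res (D.r v) P.Y) 2) ≤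
      finrank k (levelCohomology 𝒰 P.X 0) + finrank k (LinearMap.range (locH D P.Y 2))) :
    P.K2 D tr := by
  apply P.K2_of_finrank_range D tr hι0
  rw [LinearMap.finrank_range_of_inj (locH_zero_injective D P.X)]
  exact hdim

end K2

end Fermat.Agent.S55.GL.BaseLocal
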