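/-
S55 / GLO11 = (EX) (helper5), part 5: the input `hcf` of helper20's
`BrauerExistPlaces.existsAtLayer_places` from the unconditional global class field theory chain
(helper3's `CFUncond.exists_finset_pgroup_C`).

`K ≤ E ⊆ ℚ̄`, `E/ℚ` finite normal, `ζ_p ∈ K`, `H = galE K E = Gal(E/K)` a `p`-group, `p` odd:
for `T` large, `H²(H, C_{E,T})` is finite of order dividing `|H|`.
-/
import Fermat.Agent.S55.GL.BrauerDictLocal
import Fermat.Agent.S55.GL.CFUncond

set_option autoImplicit false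
set_option linter.style.haveILetI false
set_option linter.unusedSectionVars false

open CategoryTheory IntermediateField groupCohomology

namespace Fermat.Agent.S55.GL.BrauerExistCF

open Fermat.Agent.S55.GL.Ideles Fermat.Agent.S55.GL.IdelePlaces Fermat.Agent.S55.GL.BrauerDict

local notation "Qbar" => AlgebraicClosure ℚ

variable (K E : IntermediateField ℚ Qbar) [FiniteDimensional ℚ E] [Normal ℚ E]

/-- `K ∩ E ≤ E^{Gal(E/K)}`. -/
theorem mem_fixedLift_galE {x : Qbar} (hxK : x ∈ K) (hxE : x ∈ E) :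
    x ∈ fixedLift E (galE K E) :=
  ⟨hxE, fun s hs => hs ⟨x, hxE⟩ hxK⟩

/-- **`hcf` of `BrauerExistPlaces.existsAtLayer_places`**, verbatim: for `T` large,
`|H²(Gal(E/K), C_{E,T})|` is finite and divides `|Gal(E/K)|` (`Gal(E/K)` a `p`-group, `p` odd,
`ζ_p ∈ K ≤ E`). -/
theorem hcf_of_card {p : ℕ} [hp : Fact p.Prime] (hp2 : p ≠ 2) (hKE : K ≤ E) {ζ : Qbar}
    (hζ : IsPrimitiveRoot ζ p) (hζK : ζ ∈ K) {n : ℕ} (hcard : Nat.card ↥(galE K E) = p ^ n) :
    ∃ T₀ : Finset Nat.Primes, ∀ T : Finset Nat.Primes, T₀ ⊆ T →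
      Finite (groupCohomology (Rep.res (galE K E).subtype (C E T)) 2) ∧
      Nat.card (groupCohomology (Rep.res (galE K E).subtype (C E T)) 2) ∣
        Nat.card ↥(galE K E) := by
  haveI : NumberField E :=
    { to_charZero := inferInstance, to_finiteDimensional := inferInstance }
  haveI : IsGalois ℚ E := ⟨⟩
  have hζE : IsPrimitiveRoot (⟨ζ, hKE hζK⟩ : E) p :=
    IsPrimitiveRoot.of_map_of_injective (f := E.val) (by exact hζ) E.val.injective
  obtain ⟨T₀, -, hT₀⟩ := Fermat.Agent.S55.GL.CFUncond.exists_finset_pgroup_C E hp2 (galE K E)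
    hζE (mem_fixedLift_galE K E hζK (hKE hζK)) ∅
  refine ⟨T₀, fun T hT => ?_⟩
  obtain ⟨-, h⟩ := hT₀ T hT
  obtain ⟨-, hfin, hdvd⟩ := h (galE K E) le_rfl n hcard
  exact ⟨hfin, hdvd⟩

/-- `hcf_of_card` in helper20's exact shape (`[NumberField E]`). -/
theorem hcf_galE {p : ℕ} [Fact p.Prime] (hp2 : p ≠ 2) (K E : IntermediateField ℚ Qbar)
    [NumberField ↥E] [Normal ℚ ↥E] (hKE : K ≤ E) {η : Qbar} (hη : IsPrimitiveRoot η p)
    (hηK : η ∈ K) {j : ℕ} (hcard : Nat.card ↥(galE K E) = p ^ j) :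
    ∃ T₀ : Finset Nat.Primes, ∀ T : Finset Nat.Primes, T₀ ⊆ T →
      Finite (groupCohomology (Rep.res (galE K E).subtype (Ideles.C E T)) 2) ∧
      Nat.card (groupCohomology (Rep.res (galE K E).subtype (Ideles.C E T)) 2) ∣
        Nat.card ↥(galE K E) :=
  hcf_of_card K E hp2 hKE hη hηK hcard

end Fermat.Agent.S55.GL.BrauerExistCF
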