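/-
S55 / GLO11 = (EX) (helper5), part 2: the existence theorem in the semi-local (coinduced) setting
of helper3's `GL/CoindFun.lean` (= the shape of the finite-product idèles `J_{L,T}`).

`G` a finite group, `φ i : D i →* G` injective (`i ∈ I` finite; think `D_q = Gal(L_q/ℚ_q)`),
`Ω i` a `D i`-module (`L_q^×`), `J = prodRep φ = ∏ i, coindFun (φ i)`, `H ≤ G` a subgroup
(`H = Gal(L/K)`), and a short exact sequence `0 → E → res_H J → C → 0` in `Rep ℤ H`
(`E` = `T`-units, `C` = `T`-idèle classes).  The "places of `K`" are the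
`j : Idx φ H = Σ i, φ i (D i) \ G / H`, with decomposition groups `stab φ H j.1 (rep φ H j) ≤ H`
and local modules `repB …`; the localisation maps are `SemiLocal.loc (evalHom …)`.

Given additive "local invariants" `invLoc j : H²(stab_j, Ω_j) →+ T` such that
* `|H²(H, C)| ∣ |H|` (second inequality / GLO8),
* `∑_j invLoc j (loc_j (f_* x)) = 0` for all `x ∈ H²(H, E)` (reciprocity / GLO9c),
* some local class has invariant of order divisible by `|H|` (a place with full decomposition
  group / `FullDecomp`),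
every family of local classes `(x_j)_j` with `∑_j invLoc j (x_j) = 0` is the family of
localisations of a class of `H²(H, E)` (`exists_global_class`).
-/
import Mathlib
import Fermat.Agent.S55.GL.CoindFun
import Fermat.Agent.S55.GL.BrauerExistAbs

set_option autoImplicit false
set_option linter.style.haveILetI false

open CategoryTheory groupCohomology

namespace Fermat.Agent.S55.GL.BrauerExistSemiLocal

open Fermat.Agent.S55.GL.CoindFun Fermat.Agent.S55.GC.SemiLocal
  Fermat.Agent.S55.GL.BrauerExistAbs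

variable {G : Type} [Group G] {I : Type} {D : I → Type} {Ω : I → Type}
  [∀ i, Group (D i)] [∀ i, CommGroup (Ω i)] [∀ i, MulDistribMulAction (D i) (Ω i)]
  (φ : ∀ i, D i →* G) (hφ : ∀ i, Function.Injective (φ i)) (H : Subgroup G)

/-- The localisation map at the "place" `j`. -/
noncomputable abbrev locAt (j : Idx φ H) (n : ℕ) :
    groupCohomology (Rep.res H.subtype (prodRep (Ω := Ω) φ)) n ⟶
      groupCohomology (repB (Ω := Ω) φ hφ H j.1 (rep φ H j)) n :=
  loc (evalHom (Ω := Ω) φ hφ H j.1 (rep φ H j)) n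

variable [Finite G] [Finite I]

instance finite_idx : Finite (Idx φ H) := by
  haveI : ∀ i, Finite (DoubleCoset.Quotient ((φ i).range : Set G) (H : Set G)) := fun i =>
    Quotient.finite _
  exact inferInstanceAs (Finite (Σ i : I, _))

variable {T : Type*} [AddCommGroup T]
  (invLoc : ∀ j : Idx φ H, groupCohomology (repB (Ω := Ω) φ hφ H j.1 (rep φ H j)) 2 →+ T)

/-- The sum of the local invariants, on `H²(H, J)`. -/
noncomputable def sumInv :
    groupCohomology (Rep.res H.subtype (prodRep (Ω := Ω) φ)) 2 →+ T :=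
  letI : Fintype (Idx φ H) := Fintype.ofFinite _
  ∑ j : Idx φ H, (invLoc j).comp (locAt φ hφ H j 2).hom.toAddMonoidHom

theorem sumInv_apply [Fintype (Idx φ H)]
    (y : groupCohomology (Rep.res H.subtype (prodRep (Ω := Ω) φ)) 2) :
    sumInv φ hφ H invLoc y = ∑ j : Idx φ H, invLoc j ((locAt φ hφ H j 2).hom y) := by
  unfold sumInv
  rw [AddMonoidHom.finsetSum_apply]
  refine Finset.sum_congr ?_ fun j _ => rfl
  ext j
  simp

/-- A class of `H²(H, J)` with prescribed localisations. -/
theorem exists_locAt_eq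
    (x : ∀ j : Idx φ H, groupCohomology (repB (Ω := Ω) φ hφ H j.1 (rep φ H j)) 2) :
    ∃ y : groupCohomology (Rep.res H.subtype (prodRep (Ω := Ω) φ)) 2,
      ∀ j, (locAt φ hφ H j 2).hom y = x j := by
  obtain ⟨y, hy⟩ := (semiLocal (Ω := Ω) φ hφ H 2).2 x
  exact ⟨y, fun j => congrFun hy j⟩

variable {E C : Rep ℤ H} (f : E ⟶ Rep.res H.subtype (prodRep (Ω := Ω) φ))
  (g : Rep.res H.subtype (prodRep (Ω := Ω) φ) ⟶ C) (w : f ≫ g = 0)
  (hX : (ShortComplex.mk f g w).ShortExact)
  [Finite (groupCohomology C 2)] (hcard : Nat.card (groupCohomology C 2) ∣ Nat.card H)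
  (hrec : ∀ x : groupCohomology E 2,
    sumInv φ hφ H invLoc (groupCohomology.map (MonoidHom.id H) f 2 x) = 0)
  (j₀ : Idx φ H) (y₀ : groupCohomology (repB (Ω := Ω) φ hφ H j₀.1 (rep φ H j₀)) 2)
  (hy₀ : ∀ m : ℕ, m • invLoc j₀ y₀ = 0 → Nat.card H ∣ m)

include hX hcard hrec hy₀ in
/-- **(EX), semi-local form**: a family of local classes whose invariants sum to zero is the
family of localisations of a global class. -/
theorem exists_global_class
    (x : ∀ j : Idx φ H, groupCohomology (repB (Ω := Ω) φ hφ H j.1 (rep φ H j)) 2)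
    (hx : (letI : Fintype (Idx φ H) := Fintype.ofFinite _; ∑ j : Idx φ H, invLoc j (x j)) = 0) :
    ∃ β : groupCohomology E 2, ∀ j : Idx φ H,
      (locAt φ hφ H j 2).hom (groupCohomology.map (MonoidHom.id H) f 2 β) = x j := by
  classical
  letI : Fintype (Idx φ H) := Fintype.ofFinite _
  -- the global class `Y₀` supported at `j₀`
  obtain ⟨Y₀, hY₀⟩ := exists_locAt_eq φ hφ H (Pi.single j₀ y₀)
  have hsY₀ : sumInv φ hφ H invLoc Y₀ = invLoc j₀ y₀ := by
    rw [sumInv_apply]
    rw [Finset.sum_eq_single j₀]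
    · rw [hY₀, Pi.single_eq_same]
    · intro j _ hj
      rw [hY₀, Pi.single_eq_of_ne hj, map_zero]
    · intro h; exact absurd (Finset.mem_univ _) h
  obtain ⟨y, hy⟩ := exists_locAt_eq φ hφ H x
  have hsy : sumInv φ hφ H invLoc y = 0 := by
    rw [sumInv_apply]
    rw [← hx]
    exact Finset.sum_congr rfl fun j _ => by rw [hy]
  obtain ⟨β, hβ⟩ := exists_map_f_eq_of_sum_eq_zero (X := ShortComplex.mk f g w) hX hcard
    (sumInv φ hφ H invLoc) hrec Y₀ (by rw [hsY₀]; exact hy₀) y hsy
  exact ⟨β, fun j => by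
    have : groupCohomology.map (MonoidHom.id H) f 2 β = y := hβ
    rw [this, hy]⟩

end Fermat.Agent.S55.GL.BrauerExistSemiLocal
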