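/-
S55 / GLO11 = (EX) (helper5), part 3 (T5a): the semi-local existence theorem of
`GL/BrauerExistSemiLocal.lean` for an ARBITRARY system of places.

`G` a finite group, `φ i : D i →* G` injective (`i : I`), `J = prodRep φ = ∏ i, coindFun (φ i)`,
`H ≤ G`.  Instead of the canonical index set `Idx φ H` (pairs `(i, double coset)`) with the chosen
representatives `rep φ H j`, we take ANY system of places `(qq i, gg i)_{i : P}` in the sense of
helper21's `SecondIneq.IsPlaceSys φ H qq gg` (every `(q, g)` lies in exactly one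
`(qq i, φ(D) (gg i) H)`).  Then

* `semiLocal_placeSys` : `Hⁿ(H, J) → ∏_{i : P} Hⁿ(stab (qq i) (gg i), Ω (qq i))` is bijective;
* `exists_global_class_placeSys` : (EX), semi-local form, with localisations at the `(qq i, gg i)`.

Application: `P = {v : FinPlace K // v.prime ∈ T}` with `gg v = (v.rep)|_E` (helper14's chosen
representatives), so that no conjugation transport is needed in the level form of (EX).
-/
import Mathlib
import Fermat.Agent.S55.GL.BrauerExistSemiLocal
import Fermat.Agent.S55.GL.SecondIneq.CoindPlaces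

set_option autoImplicit false
set_option linter.style.haveILetI false
set_option linter.unusedSectionVars false

open CategoryTheory groupCohomology

namespace Fermat.Agent.S55.GL.BrauerExistPlaceSys

open Fermat.Agent.S55.GL.CoindFun Fermat.Agent.S55.GC.SemiLocal
  Fermat.Agent.S55.GL.BrauerExistAbs Fermat.Agent.S55.GL.SecondIneq

variable {G : Type} [Group G] {I : Type} {D : I → Type} {Ω : I → Type}
  [∀ i, Group (D i)] [∀ i, CommGroup (Ω i)] [∀ i, MulDistribMulAction (D i) (Ω i)]
  (φ : ∀ i, D i →* G) (hφ : ∀ i, Function.Injective (φ i)) (H : Subgroup G)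
  {P : Type} (qq : P → I) (gg : P → G)

/-- `singleAt i g b` vanishes off the coset `φ(D) g`, in every component. -/
theorem singleAt_apply_of_not_exists (i : I) (g : G) (b : Ω i) (i' : I) {x : G}
    (hx : ¬ ∃ d : D i, x = φ i d * g) : (singleAt φ hφ i g b i').1 x = 1 := by
  by_cases h : i = i'
  · subst h
    rw [singleAt_same, single_apply_of_not_exists _ _ _ hx]
  · rw [singleAt_ne φ hφ i _ _ h]
    rfl

/-- The localisation map at the place `i : P`. -/
noncomputable abbrev locP (i : P) (n : ℕ) :
    groupCohomology (Rep.res H.subtype (prodRep (Ω := Ω) φ)) n ⟶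
      groupCohomology (repB (Ω := Ω) φ hφ H (qq i) (gg i)) n :=
  loc (evalHom (Ω := Ω) φ hφ H (qq i) (gg i)) n

variable {φ H qq gg}

/-- **Semi-local decomposition for an arbitrary system of places.** -/
theorem semiLocal_placeSys (hP : IsPlaceSys φ H qq gg) [Finite G] [Finite P] (n : ℕ) :
    Function.Bijective (fun (x : groupCohomology (Rep.res H.subtype (prodRep (Ω := Ω) φ)) n)
      (i : P) => (locP φ hφ H qq gg i n).hom x) := by
  refine semiLocal_bijective (fun i : P => evalHom (Ω := Ω) φ hφ H (qq i) (gg i)) ?_ ?_ n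
  · -- separation
    intro a ha
    have key : ∀ (i : I) (g : G), (Additive.toMul a i).1 g = 1 := by
      intro i g
      obtain ⟨j, rfl, d, η, hη, rfl⟩ := hP.cov i g
      have h1 := ha j ⟨η, hη⟩
      have h2 : (Additive.toMul a (qq j)).1 (gg j * η) = 1 := h1
      rw [mul_assoc, (Additive.toMul a (qq j)).2, h2, smul_one]
    have h1 : Additive.toMul (show Additive (ProdCoind (Ω := Ω) φ) from a) = 1 := by
      funext i
      exact Subtype.ext (funext fun g => key i g)
    exact congrArg Additive.ofMul h1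
  · -- single components
    intro j b
    refine ⟨Additive.ofMul (singleAt φ hφ (qq j) (gg j) (Additive.toMul b)), ?_, ?_, ?_⟩
    · show Additive.ofMul ((singleAt φ hφ (qq j) (gg j) (Additive.toMul b) (qq j)).1
        (gg j)) = b
      rw [singleAt_same, single_apply_self]
      rfl
    · intro h hh
      show Additive.ofMul ((singleAt φ hφ (qq j) (gg j) (Additive.toMul b) (qq j)).1
        (gg j * (h : G))) = 0
      rw [singleAt_apply_of_not_exists]
      · rfl
      · rintro ⟨d, hd⟩
        exact hh (mem_stab_iff_exists.mpr ⟨d, hd⟩)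
    · intro j' hne h
      show Additive.ofMul ((singleAt φ hφ (qq j) (gg j) (Additive.toMul b) (qq j')).1
        (gg j' * (h : G))) = 0
      by_cases hi : qq j = qq j'
      · rw [singleAt_apply_of_not_exists]
        · rfl
        · rintro ⟨d, hd⟩
          apply hne
          refine (hP.disj j j' hi ⟨d, ((h⁻¹ : H) : G), (h⁻¹ : H).2, ?_⟩).symm
          rw [← hd]
          simp
      · have : singleAt φ hφ (qq j) (gg j) (Additive.toMul b) (qq j') = 1 :=
          singleAt_ne φ hφ (qq j) _ _ hi
        rw [this]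
        rfl

/-- A class of `H²(H, J)` with prescribed localisations. -/
theorem exists_locP_eq (hP : IsPlaceSys φ H qq gg) [Finite G] [Finite P]
    (x : ∀ i : P, groupCohomology (repB (Ω := Ω) φ hφ H (qq i) (gg i)) 2) :
    ∃ y : groupCohomology (Rep.res H.subtype (prodRep (Ω := Ω) φ)) 2,
      ∀ i, (locP φ hφ H qq gg i 2).hom y = x i := by
  obtain ⟨y, hy⟩ := (semiLocal_placeSys (Ω := Ω) hφ hP 2).2 x
  exact ⟨y, fun i => congrFun hy i⟩

variable {A : Type*} [AddCommGroup A]
  (invLoc : ∀ i : P, groupCohomology (repB (Ω := Ω) φ hφ H (qq i) (gg i)) 2 →+ A)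

/-- The sum of the local invariants, on `H²(H, J)`. -/
noncomputable def sumInvP [Fintype P] :
    groupCohomology (Rep.res H.subtype (prodRep (Ω := Ω) φ)) 2 →+ A :=
  ∑ i : P, (invLoc i).comp (locP φ hφ H qq gg i 2).hom.toAddMonoidHom

theorem sumInvP_apply [Fintype P]
    (y : groupCohomology (Rep.res H.subtype (prodRep (Ω := Ω) φ)) 2) :
    sumInvP hφ invLoc y = ∑ i : P, invLoc i ((locP φ hφ H qq gg i 2).hom y) := by
  unfold sumInvP
  rw [AddMonoidHom.finsetSum_apply]
  rfl

variable [Finite G] [Fintype P] (hP : IsPlaceSys φ H qq gg)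
  {E C : Rep ℤ H} (f : E ⟶ Rep.res H.subtype (prodRep (Ω := Ω) φ))
  (g : Rep.res H.subtype (prodRep (Ω := Ω) φ) ⟶ C) (w : f ≫ g = 0)
  (hX : (ShortComplex.mk f g w).ShortExact)
  [Finite (groupCohomology C 2)] (hcard : Nat.card (groupCohomology C 2) ∣ Nat.card H)
  (hrec : ∀ x : groupCohomology E 2,
    ∑ i : P, invLoc i ((locP φ hφ H qq gg i 2).hom
      (groupCohomology.map (MonoidHom.id H) f 2 x)) = 0)
  (i₀ : P) (y₀ : groupCohomology (repB (Ω := Ω) φ hφ H (qq i₀) (gg i₀)) 2)
  (hy₀ : ∀ m : ℕ, m • invLoc i₀ y₀ = 0 → Nat.card H ∣ m)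

include hP hX hcard hrec hy₀ in
/-- **(EX), semi-local form, arbitrary system of places**: a family of local classes whose
invariants sum to zero is the family of localisations of a global class. -/
theorem exists_global_class_placeSys
    (x : ∀ i : P, groupCohomology (repB (Ω := Ω) φ hφ H (qq i) (gg i)) 2)
    (hx : ∑ i : P, invLoc i (x i) = 0) :
    ∃ β : groupCohomology E 2, ∀ i : P,
      (locP φ hφ H qq gg i 2).hom (groupCohomology.map (MonoidHom.id H) f 2 β) = x i := by
  classical
  -- the global class `Y₀` supported at `i₀`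
  obtain ⟨Y₀, hY₀⟩ := exists_locP_eq (Ω := Ω) hφ hP (Pi.single i₀ y₀)
  have hsY₀ : sumInvP hφ invLoc Y₀ = invLoc i₀ y₀ := by
    rw [sumInvP_apply]
    rw [Finset.sum_eq_single i₀]
    · rw [hY₀, Pi.single_eq_same]
    · intro j _ hj
      rw [hY₀, Pi.single_eq_of_ne hj, map_zero]
    · intro h; exact absurd (Finset.mem_univ _) h
  obtain ⟨y, hy⟩ := exists_locP_eq (Ω := Ω) hφ hP x
  have hsy : sumInvP hφ invLoc y = 0 := by
    rw [sumInvP_apply]
    rw [← hx]
    exact Finset.sum_congr rfl fun j _ => by rw [hy]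
  obtain ⟨β, hβ⟩ := exists_map_f_eq_of_sum_eq_zero (X := ShortComplex.mk f g w) hX hcard
    (sumInvP hφ invLoc) (fun x => by rw [sumInvP_apply]; exact hrec x) Y₀
    (by rw [hsY₀]; exact hy₀) y hsy
  exact ⟨β, fun j => by
    have : groupCohomology.map (MonoidHom.id H) f 2 β = y := hβ
    rw [this, hy]⟩

end Fermat.Agent.S55.GL.BrauerExistPlaceSys
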