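/-
S55 block GLO11 (EX), item (5) of the critical chain (helper23): the FINITE-LEVEL RECIPROCITY `hrec`
of `BrauerExistSemiLocal.exists_global_class`, derived from the level reciprocity law
(`BrauerInput.recip`, taken as a bare hypothesis), in helper20's `BrauerDict` typing and indexed by
helper14's places `v : FinPlace K` with base point `v.rep|_E`.

`S ⊆ T` finite sets of primes, `K ⊆ ℚ̄` finite, `E/ℚ` finite normal with `G_E ∈ globalLevel S`,
`H = galE K E`.  For `x' ∈ H²(H, Eˣ)` put
`layerClass x' = levelInf (T1 x') ∈ H²(G_{K,S}, ℚ_S^×)`.  For `x ∈ H²(H, E_{E,T})` (`T`-units):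

* `resQ_layerClass_of_mem`: at a place `v` over `T`, `resQ v (layerClass (ι_* x))` is the inflation
  of `T2 (loc_v ((iE)_* x))` (helper20's (T3));
* `resQ_layerClass_of_not_mem`: at a place `v` off `T`, `resQ v (layerClass (ι_* x)) = 0` (helper5's
  [UNR]: unit-valued cocycle at an unramified place);
* `sum_inv_eq_zero`: `∑_{v over T} inv_v (levelInf (T2 (loc_v ((iE)_* x)))) = 0` for `p`-primary `x`.
-/
import Fermat.Agent.S55.GL.BrauerDictGlobal
import Fermat.Agent.S55.GL.BrauerInst
import Fermat.Agent.S55.GL.UnramLocalZero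

set_option autoImplicit false
set_option linter.style.haveILetI false
set_option linter.unusedSectionVars false

open CategoryTheory IntermediateField groupCohomology

namespace Fermat.Agent.S55.GL.BrauerExistRecip

open Fermat.Agent.S55.Level Fermat.Agent.S55.GaloisLevel Fermat.Agent.S55.GL.Places
  Fermat.Agent.S55.GL.BrauerLocal Fermat.Agent.S55.LocalDict Fermat.Agent.S55.GL.LocalFieldAt
  Fermat.Agent.S55.GL.CoindFun Fermat.Agent.S55.GL.Ideles Fermat.Agent.S55.GL.IdeleSemiLocal
  Fermat.Agent.S55.SmoothPart Fermat.Agent.S55.CFAbs Fermat.Agent.S55.LevelLayer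
  Fermat.Agent.S55.GL.BrauerDict Fermat.Agent.S55.GL.BrauerInst Fermat.Agent.S55.GL.QSMod
  Fermat.Agent.S55.CF Fermat.Agent.S55.GL.UnramLocalZero

local notation "Qbar" => AlgebraicClosure ℚ
local notation "Γ" => (AlgebraicClosure ℚ ≃ₐ[ℚ] AlgebraicClosure ℚ)

/-- primes as `Fact`s -/
local instance factPrime_ber (q : Nat.Primes) : Fact (q : ℕ).Prime := ⟨q.2⟩

local instance isGaloisQbar_ber : IsGalois ℚ Qbar := Fermat.Agent.S55.Level.isGalois_Qbar

variable (S T : Finset Nat.Primes) (K E : IntermediateField ℚ Qbar) [Normal ℚ E]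
  (hE : E.fixingSubgroup ∈ (globalLevel S).sets)

include hE in
/-- The layer subgroup `G_E ∩ G_K` is a member of the level structure of `G_{K,S}`. -/
theorem Uglob_mem : Uglob K E ∈ (levelLS S K).sets := ⟨E.fixingSubgroup, hE, rfl⟩

/-- The class of `H²(G_{K,S}, ℚ_S^×)` inflated from a finite-level class `x' ∈ H²(Gal(E/K), Eˣ)`. -/
noncomputable def layerClass (x' : groupCohomology (unitsH K E) 2) :
    levelCohomology (levelLS S K) (resL K (QSUnits S)) 2 :=
  (levelInf (levelLS S K) (resL K (QSUnits S)) (Uglob_mem S K E hE) 2).hom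
    ((T1 K E (globalLevel S) hE 2).hom x')

/-! ### Places over `T`: helper20's (T3) -/

section Mem

variable (v : FinPlace K)

include hE in
/-- The local layer subgroup is a member of the local Krull level structure. -/
theorem Uloc_mem : Uloc v.prime K E v.rep ∈ (levelv K v).sets :=
  (mem_krullLevel_iff _).2 ⟨inferInstance,
    isKrullOpen_comap_decompHom (v.prime : ℕ) K v.rep (open_globalLevel S _ hE)⟩

/-- The localisation at `v` (over `T`) of a finite-level class, in helper3's idèle model. -/
noncomputable def locClass (hv : v.prime ∈ T) (x' : groupCohomology (unitsH K E) 2) :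
    groupCohomology (locRepB v.prime K E v.rep T hv) 2 :=
  (GC.SemiLocal.loc (locHom E T (galE K E) ⟨v.prime, hv⟩ (resE E v.rep)) 2).hom
    ((groupCohomology.map (MonoidHom.id ↥(galE K E))
      ((Rep.resFunctor (galE K E).subtype).map (diagRep E T)) 2).hom x')

/-- **(T3) at the level**: the localisation at a place `v` over `T` of the level class inflated from
`x' ∈ H²(Gal(E/K), Eˣ)` is the inflation of `T2 (loc_v (diag_* x'))`. -/
theorem resQ_layerClass (hv : v.prime ∈ T) (x' : groupCohomology (unitsH K E) 2) :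
    resQ S K v (layerClass S K E hE x') =
      (levelInf (levelv K v) (unitsRep (Kv K v) (PadicAlgCl (v.prime : ℕ)))
        (Uloc_mem S K E hE v) 2).hom
        ((T2 v.prime K E v.rep T hv 2).hom (locClass T K E v hv x')) := by
  have h1 := levelCohomologyMap_levelInf_apply (decompHom (v.prime : ℕ) K v.rep)
    (coeffLoc (v.prime : ℕ) K v.rep (QSUnitsι S))
    (le_refl ((Uglob K E).comap (decompHom (v.prime : ℕ) K v.rep)))
    (refines_decompHom (v.prime : ℕ) K v.rep (globalLevel S) (open_globalLevel S))
    (Uglob_mem S K E hE) (Uloc_mem S K E hE v) 2 ((T1 K E (globalLevel S) hE 2).hom x')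
  refine h1.trans ?_
  exact congrArg _ (T3_apply v.prime K E v.rep T hv (globalLevel S) hE 2 x')

end Mem

/-! ### Places off `T`: helper5's [UNR] -/

section NotMem

/-- The inclusion of the `T`-units into `Eˣ`, over `H = Gal(E/K)`. -/
noncomputable abbrev ιT : Rep.res (galE K E).subtype (Ideles.E E T) ⟶ unitsH K E :=
  (Rep.resFunctor (galE K E).subtype).map
    (Rep.subtype (Ideles.unitsRep E) (tUnitsSubmodule E T) (tUnitsSubmodule_le_comap E T))

variable [FiniteDimensional ℚ K]

/-- `T`-units are units at the places `(q, σ)`, `q ∉ T`. -/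
theorem norm_embLoc_tUnit {q : Nat.Primes} (hq : q ∉ T) (σ : Γ)
    (t : (Ideles.E E T).V) :
    ‖embLoc (q : ℕ) σ ((((Additive.toMul (t.1 : Additive Eˣ) : Eˣ) : E) : Qbar))‖ = 1 := by
  have h := t.2 q hq (resE E σ)
  rw [coe_resE] at h
  rw [embLoc_apply]
  exact h

include hE in
/-- **[UNR] at the level**: the level class inflated from a `T`-unit valued finite-level class is
locally trivial at the places off `T ⊇ S`. -/
theorem resQ_layerClass_of_not_mem (hST : S ⊆ T) (v : FinPlace K) (hv : v.prime ∉ T)
    (x : groupCohomology (Rep.res (galE K E).subtype (Ideles.E E T)) 2) :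
    resQ S K v (layerClass S K E hE
      ((groupCohomology.map (MonoidHom.id ↥(galE K E)) (ιT T K E) 2).hom x)) = 0 := by
  obtain ⟨c, rfl⟩ := Fermat.Agent.S55.GC.CyclicH2.H2π_surjective _ x
  have h1 := congrArg (fun F => F.hom c)
    (H2π_comp_map (A := Rep.res (galE K E).subtype (Ideles.E E T)) (B := unitsH K E)
      (MonoidHom.id ↥(galE K E)) (ιT T K E))
  have h2 := congrArg (fun F => F.hom (mapCocycles₂ (MonoidHom.id ↥(galE K E)) (ιT T K E) c))
    (H2π_comp_map (A := unitsH K E) (B := globLayer K E (globalLevel S))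
      (rhoE K E) (kap K E (globalLevel S) hE))
  have h3 : (T1 K E (globalLevel S) hE 2).hom
      ((groupCohomology.map (MonoidHom.id ↥(galE K E)) (ιT T K E) 2).hom
        (H2π (Rep.res (galE K E).subtype (Ideles.E E T)) c)) =
      H2π (globLayer K E (globalLevel S))
        (mapCocycles₂ (rhoE K E) (kap K E (globalLevel S) hE)
          (mapCocycles₂ (MonoidHom.id ↥(galE K E)) (ιT T K E) c)) :=
    (congrArg (T1 K E (globalLevel S) hE 2).hom h1).trans h2
  obtain ⟨E', hE', hEU⟩ := exists_isUnramifiedIn_of_mem_globalLevel S K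
    (fun h => hv (hST h)) v.rep hE
  unfold layerClass
  rw [h3]
  refine resAt_levelInf_eq_zero_of_unit_valued (v.prime : ℕ) K v.rep (QSUnitsι S) (globalLevel S)
    (open_globalLevel S) (Uglob_mem S K E hE) _ (fun g g' => ?_) hE' hEU
  exact norm_embLoc_tUnit T E hv v.rep _

end NotMem

/-! ### The finite-level reciprocity law -/

section Recip

variable [FiniteDimensional ℚ K] (p : ℕ)
  (F : ∀ v : FinPlace K, Formation (levelv K v) (unitsRep (Kv K v) (PadicAlgCl (v.prime : ℕ))))

/-- The local invariant at the place `v` (over `T`) of helper3's finite-level local cohomology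
group: `inv_v ∘ levelInf ∘ T2`. -/
noncomputable def invLoc (v : FinPlace K) (hv : v.prime ∈ T) :
    groupCohomology (locRepB v.prime K E v.rep T hv) 2 →+ UnitAddCircle :=
  (F v).inv.comp
    (((levelInf (levelv K v) (unitsRep (Kv K v) (PadicAlgCl (v.prime : ℕ)))
        (Uloc_mem S K E hE v) 2).hom.toAddMonoidHom).comp
      (T2 v.prime K E v.rep T hv 2).hom.toAddMonoidHom)

theorem invLoc_apply (v : FinPlace K) (hv : v.prime ∈ T)
    (z : groupCohomology (locRepB v.prime K E v.rep T hv) 2) :
    invLoc S T K E hE F v hv z =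
      (F v).inv ((levelInf (levelv K v) (unitsRep (Kv K v) (PadicAlgCl (v.prime : ℕ)))
        (Uloc_mem S K E hE v) 2).hom ((T2 v.prime K E v.rep T hv 2).hom z)) := rfl

/-- The localisation at `v` of a class of `H²(H, E_{E,T})`, through `iE : E_{E,T} → J_{E,T}`. -/
theorem locClass_ιT (v : FinPlace K) (hv : v.prime ∈ T)
    (x : groupCohomology (Rep.res (galE K E).subtype (Ideles.E E T)) 2) :
    locClass T K E v hv ((groupCohomology.map (MonoidHom.id ↥(galE K E)) (ιT T K E) 2).hom x) =
      (GC.SemiLocal.loc (locHom E T (galE K E) ⟨v.prime, hv⟩ (resE E v.rep)) 2).hom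
        ((groupCohomology.map (MonoidHom.id ↥(galE K E))
          ((Rep.resFunctor (galE K E).subtype).map (iE E T)) 2).hom x) := by
  unfold locClass
  congr 1
  have h := groupCohomology.map_id_comp (ιT T K E)
    ((Rep.resFunctor (galE K E).subtype).map (diagRep E T)) 2
  exact (congrArg (fun ψ => ψ.hom x) h).symm

theorem layerClass_nsmul (n : ℕ) (x' : groupCohomology (unitsH K E) 2) :
    layerClass S K E hE (n • x') = n • layerClass S K E hE x' :=
  (congrArg (levelInf (levelLS S K) (resL K (QSUnits S)) (Uglob_mem S K E hE) 2).hom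
    (map_nsmul (T1 K E (globalLevel S) hE 2).hom n x')).trans
    (map_nsmul (levelInf (levelLS S K) (resL K (QSUnits S)) (Uglob_mem S K E hE) 2).hom n _)

theorem layerClass_zero : layerClass S K E hE 0 = 0 :=
  (congrArg (levelInf (levelLS S K) (resL K (QSUnits S)) (Uglob_mem S K E hE) 2).hom
    (map_zero (T1 K E (globalLevel S) hE 2).hom)).trans
    (map_zero (levelInf (levelLS S K) (resL K (QSUnits S)) (Uglob_mem S K E hE) 2).hom)

theorem isPPrim_layerClass {x' : groupCohomology (unitsH K E) 2} (hx : IsPPrim p x') :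
    IsPPrim p (layerClass S K E hE x') := by
  obtain ⟨n, hn⟩ := hx
  exact ⟨n, by rw [← layerClass_nsmul, hn, layerClass_zero]⟩

/-- The sum of the local invariants of the level class `layerClass x'` over the places above `T`
vanishes when the class is `p`-primary and locally trivial off `T`. -/
theorem sum_inv_resQ_eq_zero
    (hrecip : ∀ y : levelCohomology (levelLS S K) (resL K (QSUnits S)) 2, IsPPrim p y →
      ∃ T' : Finset (FinPlace K), (∀ v, v ∉ T' → resQ S K v y = 0) ∧
        ∑ v ∈ T', (F v).inv (resQ S K v y) = 0)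
    (y : levelCohomology (levelLS S K) (resL K (QSUnits S)) 2) (hy : IsPPrim p y)
    (hoff : ∀ v : FinPlace K, v.prime ∉ T → resQ S K v y = 0) :
    ∑ v ∈ placesAbove K T, (F v).inv (resQ S K v y) = 0 := by
  classical
  obtain ⟨T', h0, hsum⟩ := hrecip y hy
  rw [← hsum]
  have e1 : ∑ v ∈ placesAbove K T, (F v).inv (resQ S K v y) =
      ∑ v ∈ placesAbove K T ∪ T', (F v).inv (resQ S K v y) := by
    refine Finset.sum_subset Finset.subset_union_left fun v _ hv => ?_
    have hvT : v.prime ∉ T := fun h => hv ((mem_placesAbove K T v).2 h)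
    rw [hoff v hvT, map_zero]
  have e2 : ∑ v ∈ T', (F v).inv (resQ S K v y) =
      ∑ v ∈ placesAbove K T ∪ T', (F v).inv (resQ S K v y) := by
    refine Finset.sum_subset Finset.subset_union_right fun v _ hv => ?_
    rw [h0 v hv, map_zero]
  rw [e1, e2]

/-- The local invariant of the level class attached to `x ∈ H²(H, E_{E,T})` at a place over `T`, in
terms of the finite-level localisation. -/
theorem inv_resQ_layerClass (v : FinPlace K) (hv : v.prime ∈ T)
    (x : groupCohomology (Rep.res (galE K E).subtype (Ideles.E E T)) 2) :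
    (F v).inv (resQ S K v (layerClass S K E hE
      ((groupCohomology.map (MonoidHom.id ↥(galE K E)) (ιT T K E) 2).hom x))) =
    invLoc S T K E hE F v hv
      ((GC.SemiLocal.loc (locHom E T (galE K E) ⟨v.prime, hv⟩ (resE E v.rep)) 2).hom
        ((groupCohomology.map (MonoidHom.id ↥(galE K E))
          ((Rep.resFunctor (galE K E).subtype).map (iE E T)) 2).hom x)) := by
  rw [invLoc_apply, ← locClass_ιT]
  exact congrArg (F v).inv (resQ_layerClass S T K E hE v hv _)

/-- **Finite-level reciprocity** (`hrec` of `BrauerExistSemiLocal.exists_global_class`, indexed by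
the places of `K` over `T` with base points `v.rep|_E`): for a `p`-primary class `x` of
`H²(Gal(E/K), E_{E,T})` the invariants of its localisations at the places over `T` sum to zero. -/
theorem sum_inv_eq_zero (hST : S ⊆ T)
    (hrecip : ∀ y : levelCohomology (levelLS S K) (resL K (QSUnits S)) 2, IsPPrim p y →
      ∃ T' : Finset (FinPlace K), (∀ v, v ∉ T' → resQ S K v y = 0) ∧
        ∑ v ∈ T', (F v).inv (resQ S K v y) = 0)
    (x : groupCohomology (Rep.res (galE K E).subtype (Ideles.E E T)) 2) (hx : IsPPrim p x) :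
    ∑ v ∈ (placesAbove K T).attach,
      invLoc S T K E hE F v.1 ((mem_placesAbove K T v.1).1 v.2)
        ((GC.SemiLocal.loc (locHom E T (galE K E)
            ⟨v.1.prime, (mem_placesAbove K T v.1).1 v.2⟩ (resE E v.1.rep)) 2).hom
          ((groupCohomology.map (MonoidHom.id ↥(galE K E))
            ((Rep.resFunctor (galE K E).subtype).map (iE E T)) 2).hom x)) = 0 := by
  have hx'p : IsPPrim p ((groupCohomology.map (MonoidHom.id ↥(galE K E)) (ιT T K E) 2).hom x) := by
    obtain ⟨n, hn⟩ := hx
    exact ⟨n, by rw [← map_nsmul, hn, map_zero]⟩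
  have hy : IsPPrim p (layerClass S K E hE
      ((groupCohomology.map (MonoidHom.id ↥(galE K E)) (ιT T K E) 2).hom x)) :=
    isPPrim_layerClass S K E hE p hx'p
  have hoff : ∀ v : FinPlace K, v.prime ∉ T → resQ S K v (layerClass S K E hE
      ((groupCohomology.map (MonoidHom.id ↥(galE K E)) (ιT T K E) 2).hom x)) = 0 :=
    fun v hv => resQ_layerClass_of_not_mem S T K E hE hST v hv x
  have hPT := sum_inv_resQ_eq_zero S T K p F hrecip _ hy hoff
  have h1 := Finset.sum_attach (placesAbove K T) (fun v : FinPlace K => (F v).inv (resQ S K v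
    (layerClass S K E hE ((groupCohomology.map (MonoidHom.id ↥(galE K E)) (ιT T K E) 2).hom x))))
  refine Eq.trans (Finset.sum_congr rfl fun v _ => ?_) (h1.trans hPT)
  exact (inv_resQ_layerClass S T K E hE F v.1 ((mem_placesAbove K T v.1).1 v.2) x).symm

/-- `sum_inv_eq_zero` as a sum over the subtype `{v : FinPlace K // v.prime ∈ T}` (any `Fintype`
instance). -/
theorem sum_inv_eq_zero_subtype [Fintype {v : FinPlace K // v.prime ∈ T}] (hST : S ⊆ T)
    (hrecip : ∀ y : levelCohomology (levelLS S K) (resL K (QSUnits S)) 2, IsPPrim p y →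
      ∃ T' : Finset (FinPlace K), (∀ v, v ∉ T' → resQ S K v y = 0) ∧
        ∑ v ∈ T', (F v).inv (resQ S K v y) = 0)
    (x : groupCohomology (Rep.res (galE K E).subtype (Ideles.E E T)) 2) (hx : IsPPrim p x) :
    ∑ v : {v : FinPlace K // v.prime ∈ T},
      invLoc S T K E hE F v.1 v.2
        ((GC.SemiLocal.loc (locHom E T (galE K E) ⟨v.1.prime, v.2⟩ (resE E v.1.rep)) 2).hom
          ((groupCohomology.map (MonoidHom.id ↥(galE K E))
            ((Rep.resFunctor (galE K E).subtype).map (iE E T)) 2).hom x)) = 0 := by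
  have h := sum_inv_eq_zero S T K E hE p F hST hrecip x hx
  rw [← Finset.univ_eq_attach] at h
  rw [← h]
  exact (Fintype.sum_equiv (Equiv.subtypeEquivRight (mem_placesAbove K T)) _ _
    (fun _ => rfl)).symm

/-- Classes of `H²` of a group of order `p ^ j` are `p`-primary. -/
theorem isPPrim_of_card [Finite ↥(galE K E)] {j : ℕ} (hcard : Nat.card ↥(galE K E) = p ^ j)
    (A : Rep.{0} ℤ ↥(galE K E)) (x : groupCohomology A 2) : IsPPrim p x := by
  refine ⟨j, ?_⟩
  have h := Fermat.Agent.S55.GC.Cores.card_nsmul_eq_zero A 1 x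
  rwa [hcard] at h

/-- `sum_inv_eq_zero` for `Gal(E/K)` a `p`-group. -/
theorem sum_inv_eq_zero_of_card [Finite ↥(galE K E)] {j : ℕ}
    (hcard : Nat.card ↥(galE K E) = p ^ j) (hST : S ⊆ T)
    (hrecip : ∀ y : levelCohomology (levelLS S K) (resL K (QSUnits S)) 2, IsPPrim p y →
      ∃ T' : Finset (FinPlace K), (∀ v, v ∉ T' → resQ S K v y = 0) ∧
        ∑ v ∈ T', (F v).inv (resQ S K v y) = 0)
    (x : groupCohomology (Rep.res (galE K E).subtype (Ideles.E E T)) 2) :
    ∑ v ∈ (placesAbove K T).attach,
      invLoc S T K E hE F v.1 ((mem_placesAbove K T v.1).1 v.2)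
        ((GC.SemiLocal.loc (locHom E T (galE K E)
            ⟨v.1.prime, (mem_placesAbove K T v.1).1 v.2⟩ (resE E v.1.rep)) 2).hom
          ((groupCohomology.map (MonoidHom.id ↥(galE K E))
            ((Rep.resFunctor (galE K E).subtype).map (iE E T)) 2).hom x)) = 0 :=
  sum_inv_eq_zero S T K E hE p F hST hrecip x (isPPrim_of_card K E p hcard _ x)

end Recip

end Fermat.Agent.S55.GL.BrauerExistRecip
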