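/-
S55 block GLO11 (EX): `BrauerExistRecip.sum_inv_eq_zero_subtype` in the EXACT shape of the hypothesis
`hrec` of helper5's `BrauerExistPlaceSys.exists_global_class_placeSys`, for the system of places
`P = {v : FinPlace K // v.prime ∈ T}`, `qq v = ⟨v.prime, _⟩`, `gg v = (v.rep)|_E` (helper23).
-/
import Fermat.Agent.S55.GL.BrauerExistRecip
import Fermat.Agent.S55.GL.BrauerExistPlaceSys

set_option autoImplicit false
set_option linter.style.haveILetI false
set_option linter.unusedSectionVars false

open CategoryTheory IntermediateField groupCohomology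

namespace Fermat.Agent.S55.GL.BrauerExistRecipPS

open Fermat.Agent.S55.Level Fermat.Agent.S55.GaloisLevel Fermat.Agent.S55.GL.Places
  Fermat.Agent.S55.GL.BrauerLocal Fermat.Agent.S55.LocalDict Fermat.Agent.S55.GL.LocalFieldAt
  Fermat.Agent.S55.GL.CoindFun Fermat.Agent.S55.GL.Ideles Fermat.Agent.S55.GL.IdeleSemiLocal
  Fermat.Agent.S55.SmoothPart Fermat.Agent.S55.CFAbs Fermat.Agent.S55.LevelLayer
  Fermat.Agent.S55.GL.BrauerDict Fermat.Agent.S55.GL.BrauerInst Fermat.Agent.S55.GL.QSMod
  Fermat.Agent.S55.CF Fermat.Agent.S55.GL.BrauerExistRecip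
  Fermat.Agent.S55.GL.BrauerExistPlaceSys

local notation "Qbar" => AlgebraicClosure ℚ
local notation "Γ" => (AlgebraicClosure ℚ ≃ₐ[ℚ] AlgebraicClosure ℚ)

/-- primes as `Fact`s -/
local instance factPrime_berps (q : Nat.Primes) : Fact (q : ℕ).Prime := ⟨q.2⟩

local instance isGaloisQbar_berps : IsGalois ℚ Qbar := Fermat.Agent.S55.Level.isGalois_Qbar

variable (S T : Finset Nat.Primes) (K E : IntermediateField ℚ Qbar) [Normal ℚ E]
  (hE : E.fixingSubgroup ∈ (globalLevel S).sets) [FiniteDimensional ℚ K] (p : ℕ)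
  (F : ∀ v : FinPlace K, Formation (levelv K v) (unitsRep (Kv K v) (PadicAlgCl (v.prime : ℕ))))

/-- The places of `K` over `T`. -/
abbrev PT : Type := {v : FinPlace K // v.prime ∈ T}

/-- The prime below a place of `PT`. -/
def qqT (v : PT T K) : T := ⟨v.1.prime, v.2⟩

/-- The base point of a place of `PT`: `(v.rep)|_E`. -/
noncomputable def ggT (v : PT T K) : E ≃ₐ[ℚ] E := resE E v.1.rep

/-- The local invariants on helper3's finite-level local cohomology groups, indexed by `PT`. -/
noncomputable def invLocT (v : PT T K) :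
    groupCohomology (repB (Ω := fun q : T => (localField ((q : Nat.Primes) : ℕ) E)ˣ)
      (resFamily E T) (resFamily_injective E T) (galE K E) (qqT T K v) (ggT T K E v)) 2 →+
      UnitAddCircle :=
  invLoc S T K E hE F v.1 v.2

/-- **`hrec` of `exists_global_class_placeSys`**, verbatim, for `f = (iE E T)|_H`. -/
theorem hrec_placeSys [Fintype (PT T K)] (hST : S ⊆ T)
    (hrecip : ∀ y : levelCohomology (levelLS S K) (resL K (QSUnits S)) 2, IsPPrim p y →
      ∃ T' : Finset (FinPlace K), (∀ v, v ∉ T' → resQ S K v y = 0) ∧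
        ∑ v ∈ T', (F v).inv (resQ S K v y) = 0)
    (hpp : ∀ x : groupCohomology (Rep.res (galE K E).subtype (Ideles.E E T)) 2, IsPPrim p x) :
    ∀ x : groupCohomology (Rep.res (galE K E).subtype (Ideles.E E T)) 2,
      ∑ i : PT T K, invLocT S T K E hE F i
        ((locP (Ω := fun q : T => (localField ((q : Nat.Primes) : ℕ) E)ˣ) (resFamily E T)
            (resFamily_injective E T) (galE K E) (qqT T K) (ggT T K E) i 2).hom
          (groupCohomology.map (MonoidHom.id ↥(galE K E))
            ((Rep.resFunctor (galE K E).subtype).map (iE E T)) 2 x)) = 0 :=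
  fun x => sum_inv_eq_zero_subtype S T K E hE p F hST hrecip x (hpp x)

/-- `hrec_placeSys` for `Gal(E/K)` of order `p ^ j`. -/
theorem hrec_placeSys_of_card [Fintype (PT T K)] [Finite ↥(galE K E)] {j : ℕ}
    (hcard : Nat.card ↥(galE K E) = p ^ j) (hST : S ⊆ T)
    (hrecip : ∀ y : levelCohomology (levelLS S K) (resL K (QSUnits S)) 2, IsPPrim p y →
      ∃ T' : Finset (FinPlace K), (∀ v, v ∉ T' → resQ S K v y = 0) ∧
        ∑ v ∈ T', (F v).inv (resQ S K v y) = 0) :
    ∀ x : groupCohomology (Rep.res (galE K E).subtype (Ideles.E E T)) 2,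
      ∑ i : PT T K, invLocT S T K E hE F i
        ((locP (Ω := fun q : T => (localField ((q : Nat.Primes) : ℕ) E)ˣ) (resFamily E T)
            (resFamily_injective E T) (galE K E) (qqT T K) (ggT T K E) i 2).hom
          (groupCohomology.map (MonoidHom.id ↥(galE K E))
            ((Rep.resFunctor (galE K E).subtype).map (iE E T)) 2 x)) = 0 :=
  hrec_placeSys S T K E hE p F hST hrecip (fun x => isPPrim_of_card K E p hcard _ x)

end Fermat.Agent.S55.GL.BrauerExistRecipPS
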