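/-
S55 / (fin): FINITE SUPPORT of global Brauer classes (helper26).

* `exists_int_forall_valuation_eq_one`, `exists_finset_isSUnit` : a nonzero algebraic number is a
  unit at all places over almost all primes (`KummerUnram.IsSUnit S x` for a finite `S`);
* `exists_int_forall_inertia_fix`, `exists_finset_isUnramifiedOutside` : every finite extension
  `F/ℚ` inside `ℚ̄` is unramified outside a finite set of primes (prelude
  `IntermediateField.IsUnramifiedOutside`), by the Bezout/Taylor argument on the minimal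
  polynomial of an integral generator (no discriminants);
* `exists_finset_resAt_eq_zero` : (fin) in helper14's `resAt`-typing: a class of `H²(G_L, ℚ̄ˣ)` is
  locally trivial at ALL places `(q, σ)` over almost all primes `q`
  (helper5's `resAt_levelInf_eq_zero_of_unit_valued`);
* `exists_finset_locG_eq_zero`, `finSuppG2` : the same in helper19's `locG`-typing
  (`= RecipAdapter.FinSuppG2` unfolded).
-/
import Fermat.Agent.S54.Frobenius
import Fermat.Agent.S05.Inertia
import Fermat.Agent.S55.GL.KummerUnram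
import Fermat.Agent.S55.LocalDict
import Fermat.Agent.S55.GL.UnramLocalZero
import Fermat.Agent.S55.GL.RecipLayer

set_option autoImplicit false
set_option linter.unusedSectionVars false
set_option linter.style.haveILetI false

open Polynomial CategoryTheory groupCohomology IntermediateField

namespace Fermat.Agent.S55.GL.FinSupp

local notation "Qbar" => AlgebraicClosure ℚ
local notation "Γ" => (AlgebraicClosure ℚ ≃ₐ[ℚ] AlgebraicClosure ℚ)

open Fermat.Agent.S54 Fermat.Agent.S05.Inertia Fermat.Agent.S55.GL.KummerUnram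

/-! ### Almost all places: units and inertia -/

/-- A nonzero algebraic number is a unit at all places over the primes not dividing a suitable
nonzero integer. -/
theorem exists_int_forall_valuation_eq_one {x : Qbar} (hx : x ≠ 0) :
    ∃ D : ℤ, D ≠ 0 ∧ ∀ q : ℕ, q.Prime → ¬ (q : ℤ) ∣ D → ∀ A : ValuationSubring Qbar,
      A.LiesOverPrime q → A.valuation x = 1 := by
  obtain ⟨d₁, hd₁, h1⟩ := (isAlgebraic_int_Qbar x).exists_integral_multiple
  obtain ⟨d₂, hd₂, h2⟩ := (isAlgebraic_int_Qbar x⁻¹).exists_integral_multiple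
  refine ⟨d₁ * d₂, mul_ne_zero hd₁ hd₂, fun q hq hqD A hA => ?_⟩
  have hq1 : ¬ (q : ℤ) ∣ d₁ := fun h => hqD (Dvd.dvd.mul_right h d₂)
  have hq2 : ¬ (q : ℤ) ∣ d₂ := fun h => hqD (Dvd.dvd.mul_left h d₁)
  have hu1 : A.valuation ((d₁ : ℤ) : Qbar) = 1 := by
    have hle : A.valuation ((d₁ : ℤ) : Qbar) ≤ 1 := (A.valuation_le_one_iff _).2 (_root_.intCast_mem A d₁)
    have hn := intCast_not_mem_nonunits A hq hA hq1
    rw [A.mem_nonunits_iff, not_lt] at hn
    exact le_antisymm hle hn
  have hu2 : A.valuation ((d₂ : ℤ) : Qbar) = 1 := by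
    have hle : A.valuation ((d₂ : ℤ) : Qbar) ≤ 1 := (A.valuation_le_one_iff _).2 (_root_.intCast_mem A d₂)
    have hn := intCast_not_mem_nonunits A hq hA hq2
    rw [A.mem_nonunits_iff, not_lt] at hn
    exact le_antisymm hle hn
  have h1' : A.valuation x ≤ 1 := by
    have := (A.valuation_le_one_iff _).2 (mem_valuationSubring_of_isIntegral_int A h1)
    rw [Algebra.smul_def, map_mul] at this
    have e : algebraMap ℤ Qbar d₁ = ((d₁ : ℤ) : Qbar) := rfl
    rwa [e, hu1, one_mul] at this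
  have h2' : A.valuation x⁻¹ ≤ 1 := by
    have := (A.valuation_le_one_iff _).2 (mem_valuationSubring_of_isIntegral_int A h2)
    rw [Algebra.smul_def, map_mul] at this
    have e : algebraMap ℤ Qbar d₂ = ((d₂ : ℤ) : Qbar) := rfl
    rwa [e, hu2, one_mul] at this
  rw [map_inv₀] at h2'
  have hv0 : A.valuation x ≠ 0 := (A.valuation.ne_zero_iff).2 hx
  have h3 : 1 ≤ A.valuation x := by
    by_contra hlt
    rw [not_le] at hlt
    have := (one_lt_inv₀ (zero_lt_iff.mpr hv0)).2 hlt
    exact absurd h2' (not_le.2 this)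
  exact le_antisymm h1' h3

/-- Evaluation of an integer polynomial in a valuation subring, read in the field. -/
theorem coe_eval_map_intCast (A : ValuationSubring Qbar) (x : A) (P : ℤ[X]) :
    ((eval x (P.map (Int.castRingHom A)) : A) : Qbar) = aeval (x : Qbar) P := by
  rw [Polynomial.eval_map, Polynomial.aeval_def]
  have h := hom_eval₂ P (Int.castRingHom A) A.subtype x
  have e : A.subtype.comp (Int.castRingHom A) = algebraMap ℤ Qbar := RingHom.ext_int _ _
  rw [e] at h
  exact h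

theorem mul_mem_nonunits (A : ValuationSubring Qbar) {x y : Qbar} (hx : x ∈ A)
    (hy : y ∈ A.nonunits) : x * y ∈ A.nonunits := by
  rw [A.mem_nonunits_iff] at hy ⊢
  rw [map_mul]
  exact mul_lt_one_of_nonneg_of_lt_one_right ((A.valuation_le_one_iff _).2 hx) zero_le hy

/-- For an algebraic integer `θ`, the inertia groups of the places over almost all primes fix
`θ`. -/
theorem exists_int_forall_inertia_fix {θ : Qbar} (hθ : IsIntegral ℤ θ) :
    ∃ D : ℤ, D ≠ 0 ∧ ∀ q : ℕ, q.Prime → ¬ (q : ℤ) ∣ D → ∀ A : ValuationSubring Qbar,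
      A.LiesOverPrime q → ∀ σ : Γ, σ ∈ A.inertiaSubgroupIn ℚ → σ θ = θ := by
  set g := minpoly ℤ θ with hg
  have hgθ : aeval θ g = 0 := minpoly.aeval ℤ θ
  have hθQ : IsIntegral ℚ θ := hθ.tower_top
  have hmap : g.map (algebraMap ℤ ℚ) = minpoly ℚ θ :=
    (minpoly.isIntegrallyClosed_eq_field_fractions' ℚ hθ).symm
  have hsep : (minpoly ℚ θ).Separable := (minpoly.irreducible hθQ).separable
  obtain ⟨a, b, hab⟩ := hsep
  have h1 : aeval θ b * aeval θ (derivative (minpoly ℚ θ)) = 1 := by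
    have := congrArg (aeval θ) hab
    rw [map_add, map_mul, map_mul, minpoly.aeval, mul_zero, zero_add, map_one] at this
    exact this
  have hγ : aeval θ (derivative (minpoly ℚ θ)) = aeval θ (derivative g) := by
    rw [← hmap, derivative_map, aeval_map_algebraMap]
  obtain ⟨D, hD, hDβ⟩ := (isAlgebraic_int_Qbar (aeval θ b)).exists_integral_multiple
  refine ⟨D, hD, fun q hq hqD A hA σ hσ => ?_⟩
  by_contra hne
  have hθA : θ ∈ A := mem_valuationSubring_of_isIntegral_int A hθ
  have hyn : σ θ - θ ∈ A.nonunits := apply_sub_mem_nonunits_of_mem_inertiaSubgroupIn A hσ hθA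
  have hyA : σ θ - θ ∈ A := A.nonunits_le hyn
  -- Taylor expansion in `A`
  obtain ⟨k, hk⟩ := (g.map (Int.castRingHom A)).binomExpansion ⟨θ, hθA⟩ ⟨σ θ - θ, hyA⟩
  have hk' := congrArg (fun z : A => (z : Qbar)) hk
  rw [derivative_map] at hk'
  push_cast at hk'
  rw [coe_eval_map_intCast, coe_eval_map_intCast, coe_eval_map_intCast] at hk'
  have e1 : ((⟨θ, hθA⟩ + ⟨σ θ - θ, hyA⟩ : A) : Qbar) = σ θ := by
    push_cast
    ring
  have e2 : aeval (σ θ) g = 0 := by
    have := congrArg σ hgθ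
    rw [map_zero] at this
    rw [← this]
    exact (aeval_algHom_apply (σ : Qbar →ₐ[ℚ] Qbar).toRingHom.toIntAlgHom θ g)
  rw [e1, e2] at hk'
  simp only [] at hk'
  rw [hgθ, zero_add] at hk'
  have hy0 : σ θ - θ ≠ 0 := sub_ne_zero.2 hne
  have h2 : aeval θ (derivative g) = -((k : Qbar) * (σ θ - θ)) := by
    have h3 : (σ θ - θ) * (aeval θ (derivative g) + (k : Qbar) * (σ θ - θ)) = 0 := by
      rw [hk']
      ring
    rcases mul_eq_zero.1 h3 with h | h
    · exact absurd h hy0
    · exact eq_neg_of_add_eq_zero_left h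
  have hγA : aeval θ (derivative g) ∈ A.nonunits := by
    rw [h2]
    have := mul_mem_nonunits A k.2 hyn
    rw [A.mem_nonunits_iff] at this ⊢
    rwa [Valuation.map_neg]
  have hDn : ((D : ℤ) : Qbar) ∈ A.nonunits := by
    have e : ((D : ℤ) : Qbar) = (D • aeval θ b) * aeval θ (derivative g) := by
      rw [← hγ, smul_mul_assoc, h1, zsmul_eq_mul, mul_one]
    rw [e]
    exact mul_mem_nonunits A (mem_valuationSubring_of_isIntegral_int A hDβ) hγA
  exact intCast_not_mem_nonunits A hq hA hqD hDn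

/-- The same for an arbitrary algebraic number. -/
theorem exists_int_forall_inertia_fix' (x : Qbar) :
    ∃ D : ℤ, D ≠ 0 ∧ ∀ q : ℕ, q.Prime → ¬ (q : ℤ) ∣ D → ∀ A : ValuationSubring Qbar,
      A.LiesOverPrime q → ∀ σ : Γ, σ ∈ A.inertiaSubgroupIn ℚ → σ x = x := by
  obtain ⟨d, hd, hint⟩ := (isAlgebraic_int_Qbar x).exists_integral_multiple
  obtain ⟨D, hD, h⟩ := exists_int_forall_inertia_fix hint
  refine ⟨D, hD, fun q hq hqD A hA σ hσ => ?_⟩
  have h1 := h q hq hqD A hA σ hσ
  rw [zsmul_eq_mul, map_mul, map_intCast] at h1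
  exact mul_left_cancel₀ (Int.cast_ne_zero.2 hd) h1

/-- The finite set of primes dividing an integer. -/
noncomputable def primesDividing (D : ℤ) : Finset Nat.Primes :=
  (D.natAbs.primeFactors).subtype Nat.Prime

theorem not_dvd_of_not_mem_primesDividing {D : ℤ} (hD : D ≠ 0) {q : Nat.Primes}
    (hq : q ∉ primesDividing D) : ¬ ((q : ℕ) : ℤ) ∣ D := by
  intro h
  apply hq
  unfold primesDividing
  exact Finset.mem_subtype.2 (Nat.mem_primeFactors.2
    ⟨q.2, Int.natCast_dvd.1 h, Int.natAbs_ne_zero.2 hD⟩)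

/-- **Every nonzero algebraic number is an `S`-unit for a finite set `S` of primes.** -/
theorem exists_finset_isSUnit {x : Qbar} (hx : x ≠ 0) :
    ∃ S : Finset Nat.Primes, IsSUnit S x := by
  obtain ⟨D, hD, h⟩ := exists_int_forall_valuation_eq_one hx
  exact ⟨primesDividing D, fun q hq A hA =>
    h q q.2 (not_dvd_of_not_mem_primesDividing hD hq) A hA⟩

/-- **Every finite extension of `ℚ` inside `ℚ̄` is unramified outside a finite set of primes.** -/
theorem exists_finset_isUnramifiedOutside (F : IntermediateField ℚ Qbar)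
    [FiniteDimensional ℚ F] : ∃ S : Finset Nat.Primes, F.IsUnramifiedOutside S := by
  classical
  have hfg : F.FG := by
    apply IntermediateField.fg_of_fg_toSubalgebra
    apply Subalgebra.fg_of_fg_toSubmodule
    exact (Module.Finite.iff_fg (N := F.toSubalgebra.toSubmodule)).1
      (inferInstanceAs (Module.Finite ℚ F))
  obtain ⟨s, hs⟩ := hfg
  choose D hD0 hD using exists_int_forall_inertia_fix'
  refine ⟨s.biUnion fun x => primesDividing (D x), inferInstance, fun q hq A hA σ hσ => ?_⟩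
  rw [← hs, Fermat.Agent.S55.LocalDict.mem_fixingSubgroup_adjoin_iff]
  intro x hx
  refine hD x q q.2 ?_ A hA σ hσ
  exact not_dvd_of_not_mem_primesDividing (hD0 x)
    (fun h => hq (Finset.mem_biUnion.2 ⟨x, hx, h⟩))

/-! ### (fin) -/

section Fin

open Fermat.Agent.S55.Level Fermat.Agent.S55.GaloisLevel Fermat.Agent.S55.GL.Places
  Fermat.Agent.S55.LevelTransport Fermat.Agent.S55.GL.BrauerLocal Fermat.Agent.S55.CFAbs
  Fermat.Agent.S55.LocalDict Fermat.Agent.S55.LevelLayer
  Fermat.Agent.S55.GL.UnramLocalZero Fermat.Agent.S55.GL.KummerUnram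
  Fermat.Agent.S55.GL.PlacesUnram Fermat.Agent.S55.GL.RecipLayer

local instance isGaloisQbar_FS : IsGalois ℚ Qbar := Fermat.Agent.S55.Level.isGalois_Qbar

local instance factPrime_FS (q : Nat.Primes) : Fact (q : ℕ).Prime := ⟨q.2⟩

theorem IsSUnit.mono {S S' : Finset Nat.Primes} (h : S ⊆ S') {x : Qbar} (hx : IsSUnit S x) :
    IsSUnit S' x := fun q hq A hA => hx q (fun hqS => hq (h hqS)) A hA

theorem isUnramifiedOutside_mono {F : IntermediateField ℚ Qbar} {S S' : Finset Nat.Primes}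
    (h : S ⊆ S') (hF : F.IsUnramifiedOutside S) : F.IsUnramifiedOutside S' :=
  ⟨hF.1, fun q hq A hA => hF.2 q (fun hqS => hq (h hqS)) A hA⟩

variable (L : IntermediateField ℚ Qbar) [FiniteDimensional ℚ L]

/-- **(fin), `resAt`-form**: a class of `H²(G_L, ℚ̄ˣ)` is locally trivial at all places over almost
all primes. -/
theorem exists_finset_resAt_eq_zero
    (y : levelCohomology ((krullLevel ℚ Qbar).restrict L.fixingSubgroup)
      (resL L (unitsRep ℚ Qbar)) 2) :
    ∃ T : Finset Nat.Primes, ∀ q : Nat.Primes, q ∉ T → ∀ σ : Γ,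
      (resAt (q : ℕ) L σ (𝟙 (unitsRep ℚ Qbar)) (krullLevel ℚ Qbar)
        (fun _ hU => isKrullOpen_of_mem_krullLevel hU) 2).hom y = 0 := by
  classical
  obtain ⟨U₀, hU₀, h⟩ := exists_levelInf_eq ((krullLevel ℚ Qbar).restrict L.fixingSubgroup)
    (resL L (unitsRep ℚ Qbar)) y
  haveI : U₀.Normal := ((krullLevel ℚ Qbar).restrict L.fixingSubgroup).normal U₀ hU₀
  haveI : U₀.FiniteIndex := ((krullLevel ℚ Qbar).restrict L.fixingSubgroup).finiteIndex U₀ hU₀
  obtain ⟨y', rfl⟩ := h U₀ hU₀ le_rfl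
  obtain ⟨c, rfl⟩ := Fermat.Agent.S55.GC.CyclicH2.H2π_surjective
    ((resL L (unitsRep ℚ Qbar)).quotientToInvariants U₀) y'
  obtain ⟨U, hU, hUeq⟩ := id hU₀
  obtain ⟨F, hFfin, hFU⟩ := isKrullOpen_of_mem_krullLevel hU
  haveI := hFfin
  obtain ⟨S₂, hS₂⟩ := exists_finset_isUnramifiedOutside F
  haveI : Finite (↥L.fixingSubgroup ⧸ U₀) := Subgroup.finite_quotient_of_finiteIndex
  haveI : Fintype (↥L.fixingSubgroup ⧸ U₀) := Fintype.ofFinite _
  -- the values of the cocycle
  let x : (↥L.fixingSubgroup ⧸ U₀) × (↥L.fixingSubgroup ⧸ U₀) → Qbar := fun gg =>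
    valA (𝟙 (unitsRep ℚ Qbar))
      ((c : (↥L.fixingSubgroup ⧸ U₀) × (↥L.fixingSubgroup ⧸ U₀) → _) gg).1
  have hx0 : ∀ gg, x gg ≠ 0 := fun gg => Units.ne_zero _
  choose S₁ hS₁ using fun gg => exists_finset_isSUnit (hx0 gg)
  refine ⟨(Finset.univ.biUnion S₁) ∪ S₂, fun q hq σ => ?_⟩
  have hq₂ : q ∉ S₂ := fun h => hq (Finset.mem_union_right _ h)
  have hq₁ : ∀ gg, q ∉ S₁ gg := fun gg h =>
    hq (Finset.mem_union_left _ (Finset.mem_biUnion.2 ⟨gg, Finset.mem_univ _, h⟩))
  obtain ⟨E, hE, hEU⟩ := exists_isUnramifiedIn_of_localFieldAt (q : ℕ) L σ F hFU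
    (isUnramifiedIn_localFieldAt hS₂ hq₂ σ)
  rw [← hUeq] at hEU
  exact resAt_levelInf_eq_zero_of_unit_valued (q : ℕ) L σ (𝟙 (unitsRep ℚ Qbar))
    (krullLevel ℚ Qbar) (fun _ hU => isKrullOpen_of_mem_krullLevel hU) hU₀ c
    (fun g g' => norm_embLoc_eq_one_of_isSUnit (S₁ (g, g')) (hS₁ (g, g')) (hx0 (g, g'))
      (hq₁ (g, g')) σ) hE hEU

/-- **(fin), `locG`-form** (= helper19's `FinSuppG2`, for one `L`). -/
theorem exists_finset_locG_eq_zero
    (y : levelCohomology (krullLevel ↥L Qbar) (unitsRep ↥L Qbar) 2) :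
    ∃ T : Finset Nat.Primes, ∀ q : Nat.Primes, q ∉ T → ∀ τ : Γ,
      (locG (q : ℕ) L τ 2).hom y = 0 := by
  obtain ⟨T, hT⟩ := exists_finset_resAt_eq_zero L
    ((restrictUnitsIso (K := ℚ) (Ω := Qbar) (H := L.fixingSubgroup) (E := L) rfl 2).inv.hom y)
  refine ⟨T, fun q hq τ => ?_⟩
  have h1 := hT q hq τ
  rw [resAt_eq_locG] at h1
  have h2 : (restrictUnitsIso (K := ℚ) (Ω := Qbar) (H := L.fixingSubgroup) (E := L) rfl 2).hom.hom
      ((restrictUnitsIso (K := ℚ) (Ω := Qbar) (H := L.fixingSubgroup) (E := L) rfl 2).inv.hom y) = y :=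
    congrArg (fun ψ => ψ.hom y)
      (restrictUnitsIso (K := ℚ) (Ω := Qbar) (H := L.fixingSubgroup) (E := L) rfl 2).inv_hom_id
  rw [h2] at h1
  exact h1

/-- **(fin) = helper19's `FinSuppG2`**, unfolded. -/
theorem finSuppG2 : ∀ (L : IntermediateField ℚ Qbar) [FiniteDimensional ℚ L]
    (y : levelCohomology (krullLevel ↥L Qbar) (unitsRep ↥L Qbar) 2),
    ∃ T : Finset Nat.Primes, ∀ q : Nat.Primes, q ∉ T → ∀ τ : Γ,
      (locG (q : ℕ) L τ 2).hom y = 0 :=
  fun L _ y => exists_finset_locG_eq_zero L y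

end Fin

end Fermat.Agent.S55.GL.FinSupp
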