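import Fermat.Agent.S14.HerbrandInduced

set_option autoImplicit false
set_option linter.unusedSectionVars false

/-!
# S55 / GLO6: Herbrand indices of a product with several orbits (flat form)

* `resEnd`: restriction of an endomorphism to a stable subgroup.
* `hIdx_eq_prod_hSub`: for a complete family of orthogonal idempotents `e v` commuting with `f, g`:
  `hIdx f g = ∏ v, hSub f g (range (e v))`.
* `hSub_induced`: relative form of the cyclic Shapiro lemma (`S14/HerbrandInduced`): on the direct
  summand `range e` the `σ`-module is induced from `range π`.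
* `hIdx_pi_orbits`: **flat semi-local lemma**: `J = ∏_{w ∈ W} A_w`, `σ` permutes the components
  through `s : Perm W`, whose orbits are indexed by `V` (representatives `w₀ v`, lengths `g v`,
  `g v * k v = n`), `σ^(g v)` acts on `A_{w₀ v}` through `τ v`.  Then
  `h⁰(J) = ∏_v h⁰(A_{w₀ v})`, `h¹(J) = ∏_v h¹(A_{w₀ v})`.
-/

namespace Fermat.Agent.S55.GL.HerbrandOrbits

open Fermat.Agent.S14.Herbrand Function Finset

section Restrict

variable {M : Type*} [AddCommGroup M]

lemma end_ext {a b : AddMonoid.End M} (h : ∀ x, a x = b x) : a = b := AddMonoidHom.ext h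

/-- Restriction of an endomorphism to a stable subgroup. -/
def resEnd (B : AddSubgroup M) (φ : AddMonoid.End M) (h : ∀ x ∈ B, φ x ∈ B) : AddMonoid.End B :=
  ((show M →+ M from φ).comp B.subtype).codRestrict B fun x => h x x.2

lemma resEnd_coe (B : AddSubgroup M) (φ : AddMonoid.End M) (h : ∀ x ∈ B, φ x ∈ B) (x : B) :
    ((resEnd B φ h x : B) : M) = φ x := rfl

lemma resEnd_pow_coe (B : AddSubgroup M) (φ : AddMonoid.End M) (h : ∀ x ∈ B, φ x ∈ B) (r : ℕ)
    (x : B) : ((((resEnd B φ h) ^ r) x : B) : M) = (φ ^ r) x :=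
  (pow_intertwine B.subtype (a := resEnd B φ h) (b := φ) (fun _ => rfl) r x).symm

lemma dlt_resEnd_coe (B : AddSubgroup M) (φ : AddMonoid.End M) (h : ∀ x ∈ B, φ x ∈ B) (x : B) :
    ((dlt (resEnd B φ h) x : B) : M) = dlt φ x := rfl

lemma nrm_resEnd_coe (B : AddSubgroup M) (φ : AddMonoid.End M) (h : ∀ x ∈ B, φ x ∈ B) (n : ℕ)
    (x : B) : ((nrm (resEnd B φ h) n x : B) : M) = nrm φ n x := by
  rw [nrm_apply, nrm_apply, AddSubgroup.val_finsetSum]
  exact Finset.sum_congr rfl fun r _ => resEnd_pow_coe B φ h r x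

/-- Herbrand index of the restriction = relative index `hSub`. -/
lemma hIdx_resEnd (B : AddSubgroup M) (f g : AddMonoid.End M) (hf : ∀ x ∈ B, f x ∈ B)
    (hg : ∀ x ∈ B, g x ∈ B) :
    hIdx (show B →+ B from resEnd B f hf) (show B →+ B from resEnd B g hg) =
      hSub (show M →+ M from f) (show M →+ M from g) B := by
  have := hIdx_sub (f' := (show B →+ B from resEnd B f hf)) (g' := (show B →+ B from resEnd B g hg))
    (f := (show M →+ M from f)) (g := (show M →+ M from g)) B.subtype B.subtype_injective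
    (fun _ => rfl) (fun _ => rfl)
  rw [this, AddSubgroup.range_subtype]

end Restrict

section Idempotents

variable {M : Type*} [AddCommGroup M] {V : Type*} [Fintype V] [DecidableEq V]

/-- **Orthogonal idempotent decomposition of the Herbrand index.** -/
theorem hIdx_eq_prod_hSub (e : V → AddMonoid.End M) (hsum : ∑ v, e v = 1)
    (horth : ∀ v v', v ≠ v' → e v * e v' = 0) (f g : AddMonoid.End M)
    (hf : ∀ v, f * e v = e v * f) (hg : ∀ v, g * e v = e v * g) :
    hIdx (show M →+ M from f) (show M →+ M from g) =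
      ∏ v, hSub (show M →+ M from f) (show M →+ M from g) (compRange (e v)) := by
  have hidem : ∀ v, e v * e v = e v := by
    intro v
    have h1 : e v * ∑ v', e v' = e v := by rw [hsum, mul_one]
    rw [Finset.mul_sum, Finset.sum_eq_single v (fun v' _ hne => horth v v' hne.symm)
      (fun h => absurd (Finset.mem_univ v) h)] at h1
    exact h1
  have hfst : ∀ v, ∀ x ∈ compRange (e v), f x ∈ compRange (e v) := by
    rintro v _ ⟨y, rfl⟩
    exact ⟨f y, (end_congr (hf v) y).symm⟩
  have hgst : ∀ v, ∀ x ∈ compRange (e v), g x ∈ compRange (e v) := by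
    rintro v _ ⟨y, rfl⟩
    exact ⟨g y, (end_congr (hg v) y).symm⟩
  have hfix : ∀ v, ∀ x ∈ compRange (e v), e v x = x := by
    rintro v _ ⟨y, rfl⟩
    exact end_congr (hidem v) y
  have hkill : ∀ v v', v ≠ v' → ∀ x ∈ compRange (e v'), e v x = 0 := by
    rintro v v' hne _ ⟨y, rfl⟩
    exact end_congr (horth v v' hne) y
  let Φ : M ≃+ ∀ v, compRange (e v) :=
    { toFun := fun m v => ⟨e v m, m, rfl⟩
      invFun := fun n => ∑ v, (n v : M)
      left_inv := by
        intro m
        show ∑ v, e v m = m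
        rw [← end_sum_apply, hsum]
        rfl
      right_inv := by
        intro n
        funext v
        apply Subtype.ext
        show e v (∑ v', (n v' : M)) = n v
        rw [map_sum, Finset.sum_eq_single v
          (fun v' _ hne => hkill v v' hne.symm _ (n v').2)
          (fun h => absurd (Finset.mem_univ v) h)]
        exact hfix v _ (n v).2
      map_add' := by
        intro m m'
        funext v
        apply Subtype.ext
        exact map_add (e v) m m' }
  have h1 := hIdx_congr (f := (show M →+ M from f)) (g := (show M →+ M from g))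
    (f' := piEnd fun v => (show compRange (e v) →+ compRange (e v) from
      resEnd (compRange (e v)) f (hfst v)))
    (g' := piEnd fun v => (show compRange (e v) →+ compRange (e v) from
      resEnd (compRange (e v)) g (hgst v))) Φ
    (by
      intro m
      funext v
      apply Subtype.ext
      exact (end_congr (hf v) m).symm)
    (by
      intro m
      funext v
      apply Subtype.ext
      exact (end_congr (hg v) m).symm)
  rw [h1, hIdx_pi]
  exact Finset.prod_congr rfl fun v _ => hIdx_resEnd (compRange (e v)) f g (hfst v) (hgst v)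

end Idempotents

section RelativeInduced

variable {M A₀ : Type*} [AddCommGroup M] [AddCommGroup A₀]

/-- **Relative cyclic Shapiro lemma**: on the `σ`-stable direct summand `range e` of `M`, the
module is induced from `range π ≅ A₀` (a `σ^g`-module). -/
theorem hSub_induced (σ π e : AddMonoid.End M) {g k : ℕ} (hg : 0 < g) (hk : 0 < k)
    (hσ : σ ^ (g * k) = 1) (he : e * e = e) (heσ : σ * e = e * σ) (hπe : π * e = π)
    (heπ : e * π = π)
    (complete : ∑ i ∈ range g, σ ^ i * π * σ ^ (g * k - i) = e)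
    (orth : ∀ j, 0 < j → j < g → π * σ ^ j * π = 0) (comm : π * σ ^ g = σ ^ g * π)
    (ι : A₀ →+ M) (hι : Injective ι) (hιr : ι.range = compRange π) (τ₀ : AddMonoid.End A₀)
    (hτ : ∀ a, (σ ^ g) (ι a) = ι (τ₀ a)) :
    hSub (dlt σ) (nrm σ (g * k)) (compRange e) = hIdx (dlt τ₀) (nrm τ₀ k) ∧
      hSub (nrm σ (g * k)) (dlt σ) (compRange e) = hIdx (nrm τ₀ k) (dlt τ₀) := by
  set B : AddSubgroup M := compRange e with hB
  have hfix : ∀ x ∈ B, e x = x := by
    rintro _ ⟨y, rfl⟩
    exact end_congr he y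
  have hσst : ∀ x ∈ B, σ x ∈ B := by
    rintro _ ⟨y, rfl⟩
    exact ⟨σ y, (end_congr heσ y).symm⟩
  have hπst : ∀ x ∈ B, π x ∈ B := by
    intro x _
    exact ⟨π x, end_congr heπ x⟩
  set σB : AddMonoid.End B := resEnd B σ hσst with hσB
  set πB : AddMonoid.End B := resEnd B π hπst with hπB
  have hind : IsInducedProj σB πB g k := by
    refine ⟨hg, hk, ?_, ?_, ?_, ?_⟩
    · refine end_ext fun x => Subtype.ext ?_
      rw [resEnd_pow_coe, hσ]
      rfl
    · refine end_ext fun x => Subtype.ext ?_
      rw [end_sum_apply, AddSubgroup.val_finsetSum]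
      have h1 : ∀ i ∈ range g, (((σB ^ i * πB * σB ^ (g * k - i)) x : B) : M) =
          (σ ^ i * π * σ ^ (g * k - i)) x := by
        intro i _
        show ((((σB ^ i) (πB ((σB ^ (g * k - i)) x))) : B) : M) = (σ ^ i) (π ((σ ^ (g * k - i)) x))
        rw [resEnd_pow_coe, resEnd_coe, resEnd_pow_coe]
      rw [Finset.sum_congr rfl h1, ← end_sum_apply, complete]
      exact hfix x x.2
    · intro j hj0 hj
      refine end_ext fun x => Subtype.ext ?_
      show (((πB ((σB ^ j) (πB x))) : B) : M) = 0
      rw [resEnd_coe, resEnd_pow_coe, resEnd_coe]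
      exact end_congr (orth j hj0 hj) x
    · refine end_ext fun x => Subtype.ext ?_
      show (((πB ((σB ^ g) x)) : B) : M) = (((σB ^ g) (πB x) : B) : M)
      rw [resEnd_coe, resEnd_pow_coe, resEnd_pow_coe, resEnd_coe]
      exact end_congr comm x
  have hιB : ∀ a, ι a ∈ B := by
    intro a
    have h1 : ι a ∈ compRange π := hιr ▸ ⟨a, rfl⟩
    obtain ⟨y, hy⟩ := h1
    exact ⟨π y, by rw [← hy]; exact end_congr heπ y⟩
  set ιB : A₀ →+ B := ι.codRestrict B hιB with hιB'
  have hιBinj : Injective ιB := by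
    intro a a' haa
    exact hι (congrArg Subtype.val haa)
  have hιBr : ιB.range = compRange πB := by
    ext x
    constructor
    · rintro ⟨a, rfl⟩
      have h1 : ι a ∈ compRange π := hιr ▸ ⟨a, rfl⟩
      obtain ⟨y, hy⟩ := h1
      refine ⟨⟨e y, y, rfl⟩, Subtype.ext ?_⟩
      show π (e y) = ι a
      rw [← hy]
      exact end_congr hπe y
    · rintro ⟨y, rfl⟩
      have h1 : π y ∈ ι.range := hιr ▸ ⟨(y : M), rfl⟩
      obtain ⟨a, ha⟩ := h1
      exact ⟨a, Subtype.ext ha⟩
  have hτB : ∀ a, (σB ^ g) (ιB a) = ιB (τ₀ a) := by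
    intro a
    apply Subtype.ext
    rw [resEnd_pow_coe]
    exact hτ a
  obtain ⟨h0, h1⟩ := hind.hIdx_eq ιB hιBinj hιBr τ₀ hτB
  have hd : ∀ x : B, dlt σ (B.subtype x) = B.subtype (dlt σB x) := fun _ => rfl
  have hn : ∀ x : B, nrm σ (g * k) (B.subtype x) = B.subtype (nrm σB (g * k) x) :=
    fun x => (nrm_resEnd_coe B σ hσst (g * k) x).symm
  have e0 := hIdx_sub (f' := dlt σB) (g' := nrm σB (g * k)) (f := dlt σ) (g := nrm σ (g * k))
    B.subtype B.subtype_injective hd hn
  have e1 := hIdx_sub (f' := nrm σB (g * k)) (g' := dlt σB) (f := nrm σ (g * k)) (g := dlt σ)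
    B.subtype B.subtype_injective hn hd
  rw [AddSubgroup.range_subtype] at e0 e1
  exact ⟨e0.symm.trans h0, e1.symm.trans h1⟩

end RelativeInduced

section FlatPi

variable {W V : Type*} [Fintype W] [DecidableEq W] [Fintype V] [DecidableEq V]
  {A : W → Type*} [∀ w, AddCommGroup (A w)]

lemma projAt_mul_self (w : W) : (projAt w * projAt w : AddMonoid.End (∀ w, A w)) = projAt w := by
  refine end_ext fun m => ?_
  show Pi.single w ((Pi.single w (m w) : ∀ w, A w) w) = Pi.single w (m w)
  rw [Pi.single_eq_same]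

/-- The idempotent cutting out the components in the fibre of `p` over `v`. -/
def fibreProj (p : W → V) (v : V) : AddMonoid.End (∀ w, A w) :=
  ∑ w ∈ univ.filter (fun w => p w = v), projAt w

lemma sum_fibreProj (p : W → V) : (∑ v, fibreProj p v : AddMonoid.End (∀ w, A w)) = 1 := by
  unfold fibreProj
  rw [Finset.sum_fiberwise, sum_projAt]

lemma fibreProj_mul_of_ne (p : W → V) {v v' : V} (hne : v ≠ v') :
    (fibreProj p v * fibreProj p v' : AddMonoid.End (∀ w, A w)) = 0 := by
  unfold fibreProj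
  rw [Finset.sum_mul]
  refine Finset.sum_eq_zero fun w hw => ?_
  rw [Finset.mul_sum]
  refine Finset.sum_eq_zero fun w' hw' => ?_
  refine projAt_mul_projAt_of_ne ?_
  rintro rfl
  exact hne ((Finset.mem_filter.mp hw).2.symm.trans (Finset.mem_filter.mp hw').2)

lemma fibreProj_mul_self (p : W → V) (v : V) :
    (fibreProj p v * fibreProj p v : AddMonoid.End (∀ w, A w)) = fibreProj p v := by
  have h1 : fibreProj p v * ∑ v', fibreProj p v' = (fibreProj p v : AddMonoid.End (∀ w, A w)) := by
    rw [sum_fibreProj, mul_one]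
  rw [Finset.mul_sum, Finset.sum_eq_single v (fun v' _ hne => fibreProj_mul_of_ne p hne.symm)
    (fun h => absurd (Finset.mem_univ v) h)] at h1
  exact h1

lemma projAt_mul_fibreProj (p : W → V) {w : W} {v : V} (hw : p w = v) :
    (projAt w * fibreProj p v : AddMonoid.End (∀ w, A w)) = projAt w := by
  unfold fibreProj
  rw [Finset.mul_sum, Finset.sum_eq_single w
    (fun w' _ hne => projAt_mul_projAt_of_ne hne.symm)
    (fun h => absurd (Finset.mem_filter.mpr ⟨Finset.mem_univ w, hw⟩) h), projAt_mul_self]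

lemma fibreProj_mul_projAt (p : W → V) {w : W} {v : V} (hw : p w = v) :
    (fibreProj p v * projAt w : AddMonoid.End (∀ w, A w)) = projAt w := by
  unfold fibreProj
  rw [Finset.sum_mul, Finset.sum_eq_single w
    (fun w' _ hne => projAt_mul_projAt_of_ne hne)
    (fun h => absurd (Finset.mem_filter.mpr ⟨Finset.mem_univ w, hw⟩) h), projAt_mul_self]

/-- **Flat semi-local lemma** (several orbits). -/
theorem hIdx_pi_orbits (σ : AddMonoid.End (∀ w, A w)) (s : Equiv.Perm W) (p : W → V) (w₀ : V → W)
    (g k : V → ℕ) (n : ℕ) (hgk : ∀ v, g v * k v = n) (hg : ∀ v, 0 < g v) (hk : ∀ v, 0 < k v)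
    (hσ : σ ^ n = 1) (hσs : ∀ w, σ * projAt w = projAt (s w) * σ)
    (hp : ∀ v i, p ((s ^ i) (w₀ v)) = v)
    (hcyc : ∀ w, ∃ i < g (p w), (s ^ i) (w₀ (p w)) = w)
    (hinj : ∀ v, ∀ i < g v, ∀ j < g v, (s ^ i) (w₀ v) = (s ^ j) (w₀ v) → i = j)
    (hsg : ∀ v, (s ^ g v) (w₀ v) = w₀ v)
    (τ : ∀ v, AddMonoid.End (A (w₀ v)))
    (hτ : ∀ v (a : A (w₀ v)), (σ ^ g v) (Pi.single (w₀ v) a) = Pi.single (w₀ v) (τ v a)) :
    hIdx (dlt σ) (nrm σ n) = ∏ v, hIdx (dlt (τ v)) (nrm (τ v) (k v)) ∧
      hIdx (nrm σ n) (dlt σ) = ∏ v, hIdx (nrm (τ v) (k v)) (dlt (τ v)) := by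
  have hps : ∀ w, p (s w) = p w := by
    intro w
    obtain ⟨i, -, hi⟩ := hcyc w
    have h1 : s w = (s ^ (i + 1)) (w₀ (p w)) := by
      rw [pow_succ', Equiv.Perm.mul_apply, hi]
    rw [h1, hp]
  have hpow : ∀ (i : ℕ) (w : W), σ ^ i * projAt w = projAt ((s ^ i) w) * σ ^ i := by
    intro i
    induction i with
    | zero => intro w; simp
    | succ i ih =>
      intro w
      rw [pow_succ', mul_assoc, ih, ← mul_assoc, hσs, mul_assoc, pow_succ' s]
      rfl
  -- `σ` commutes with the fibre idempotents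
  have hσe : ∀ v, σ * fibreProj p v = fibreProj p v * σ := by
    intro v
    unfold fibreProj
    rw [Finset.mul_sum, Finset.sum_mul, Finset.sum_congr rfl (fun w _ => hσs w),
      ← Finset.sum_mul, ← Finset.sum_mul]
    congr 1
    refine Finset.sum_equiv s (fun w => ?_) (fun _ _ => rfl)
    rw [Finset.mem_filter, Finset.mem_filter, hps]
    simp
  have hσie : ∀ (i : ℕ) v, σ ^ i * fibreProj p v = fibreProj p v * σ ^ i := fun i v =>
    ((Commute.pow_left (show Commute σ (fibreProj p v) from hσe v) i)).eq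
  have hde : ∀ v, (σ - 1 : AddMonoid.End (∀ w, A w)) * fibreProj p v =
      fibreProj p v * (σ - 1) := by
    intro v
    rw [sub_mul, mul_sub, hσe, one_mul, mul_one]
  have hne : ∀ v, (∑ i ∈ range n, σ ^ i : AddMonoid.End (∀ w, A w)) * fibreProj p v =
      fibreProj p v * ∑ i ∈ range n, σ ^ i := by
    intro v
    rw [Finset.sum_mul, Finset.mul_sum]
    exact Finset.sum_congr rfl fun i _ => hσie i v
  have hD := hIdx_eq_prod_hSub (fun v => (fibreProj p v : AddMonoid.End (∀ w, A w)))
    (sum_fibreProj p) (fun v v' hvv' => fibreProj_mul_of_ne p hvv')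
    (σ - 1) (∑ i ∈ range n, σ ^ i) hde hne
  have hD' := hIdx_eq_prod_hSub (fun v => (fibreProj p v : AddMonoid.End (∀ w, A w)))
    (sum_fibreProj p) (fun v v' hvv' => fibreProj_mul_of_ne p hvv')
    (∑ i ∈ range n, σ ^ i) (σ - 1) hne hde
  -- the induced structure on each fibre
  have hv : ∀ v, hSub (dlt σ) (nrm σ n) (compRange (fibreProj p v)) =
        hIdx (dlt (τ v)) (nrm (τ v) (k v)) ∧
      hSub (nrm σ n) (dlt σ) (compRange (fibreProj p v)) =
        hIdx (nrm (τ v) (k v)) (dlt (τ v)) := by
    intro v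
    have hw₀ : p (w₀ v) = v := by simpa using hp v 0
    have hσ' : σ ^ (g v * k v) = 1 := by rw [hgk v]; exact hσ
    have hcomplete : ∑ i ∈ range (g v), σ ^ i * projAt (w₀ v) * σ ^ (g v * k v - i) =
        (fibreProj p v : AddMonoid.End (∀ w, A w)) := by
      have e1 : ∀ i ∈ range (g v), σ ^ i * projAt (w₀ v) * σ ^ (g v * k v - i) =
          (projAt ((s ^ i) (w₀ v)) : AddMonoid.End (∀ w, A w)) := by
        intro i hi
        have hi' : i ≤ g v * k v :=
          (Finset.mem_range.mp hi).le.trans (Nat.le_mul_of_pos_right (g v) (hk v))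
        rw [hpow, mul_assoc, ← pow_add, Nat.add_sub_cancel' hi', hσ', mul_one]
      rw [Finset.sum_congr rfl e1]
      unfold fibreProj
      have himg : (range (g v)).image (fun i => (s ^ i) (w₀ v)) =
          univ.filter (fun w => p w = v) := by
        ext w
        rw [Finset.mem_image, Finset.mem_filter]
        constructor
        · rintro ⟨i, -, rfl⟩
          exact ⟨Finset.mem_univ _, hp v i⟩
        · rintro ⟨-, hw⟩
          obtain ⟨i, hi, hiw⟩ := hcyc w
          rw [hw] at hi hiw
          exact ⟨i, Finset.mem_range.mpr hi, hiw⟩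
      rw [← himg, Finset.sum_image]
      intro i hi j hj hij
      exact hinj v i (Finset.mem_range.mp hi) j (Finset.mem_range.mp hj) hij
    have horth : ∀ j, 0 < j → j < g v →
        (projAt (w₀ v) * σ ^ j * projAt (w₀ v) : AddMonoid.End (∀ w, A w)) = 0 := by
      intro j hj0 hj
      have hne' : w₀ v ≠ (s ^ j) (w₀ v) := by
        intro heq
        have := hinj v 0 (hg v) j hj (by rw [pow_zero]; exact heq)
        omega
      rw [mul_assoc, hpow, ← mul_assoc, projAt_mul_projAt_of_ne hne', zero_mul]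
    have hcomm : (projAt (w₀ v) * σ ^ g v : AddMonoid.End (∀ w, A w)) =
        σ ^ g v * projAt (w₀ v) := by
      have := hpow (g v) (w₀ v)
      rw [hsg v] at this
      exact this.symm
    have key := hSub_induced σ (projAt (w₀ v)) (fibreProj p v) (hg v) (hk v) hσ'
      (fibreProj_mul_self p v) (hσe v) (projAt_mul_fibreProj p hw₀) (fibreProj_mul_projAt p hw₀)
      hcomplete horth hcomm (AddMonoidHom.single A (w₀ v)) (Pi.single_injective (w₀ v))
      (compRange_projAt (w₀ v)).symm (τ v) (hτ v)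
    rw [hgk v] at key
    exact key
  refine ⟨?_, ?_⟩
  · exact hD.trans (Finset.prod_congr rfl fun v _ => (hv v).1)
  · exact hD'.trans (Finset.prod_congr rfl fun v _ => (hv v).2)

end FlatPi

end Fermat.Agent.S55.GL.HerbrandOrbits
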