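import Fermat.Agent.S55.GL.FirstIneqAbstract
import Fermat.Agent.S55.GL.HerbrandOrbits
import Fermat.Agent.S55.GL.CyclicOrbit
import Fermat.Agent.S55.SUnitGalois

set_option autoImplicit false

/-!
# S55 / GLO6: the first inequality `h(C_L) = n` for the `T`-idele class group, model-parametric

`L/K` cyclic of odd degree `n` with generator `σ`, `T` a finite Galois-stable set of primes of `L`.
The local fields enter only through an abstract family of groups `A w` (`= Additive (L_w)ˣ`),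
`w ∈ T`, with:

* `ρ`: the action of `σ` on `J = ∏_{w ∈ T} A w`, permuting the components like `σ` permutes `T`;
* `τ w`: the action of `σ^{g}` (`g` = length of the orbit of `w`) on `A w` — a generator of the
  decomposition group — with the local norm index `[A_w^{τ} : N A_w] = |D_w|` and Hilbert 90;
* `ι`: the diagonal embedding of the `T`-units, `σ`-equivariant.

Conclusion (`first_inequality_tideles`): for `C = J / ι(E_{L,T})`,
`[C^σ : N C] = n · [ker N : (σ-1) C]`, both finite.  The global input is helper11's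
`SUnitGalois.tunits_herbrand_odd`.
-/

namespace Fermat.Agent.S55.GL.FirstIneq

open NumberField IsDedekindDomain HeightOneSpectrum Function MulAction
open Fermat.Agent.S14 Fermat.Agent.S14.Herbrand Fermat.Agent.S14.GalDiv
open Fermat.Agent.S55.SUnit Fermat.Agent.S55.SUnitGalois
open Fermat.Agent.S55.GL.HerbrandOrbits Fermat.Agent.S55.GL.CyclicOrbit

variable (K : Type*) {L : Type*} [Field K] [Field L] [NumberField K] [NumberField L] [Algebra K L]
  [IsGalois K L] (T : Finset (HeightOneSpectrum (𝓞 L))) [IsGalStable K T]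

omit [NumberField K] [NumberField L] [IsGalois K L] in
lemma stabilizer_coe (w : T) :
    stabilizer (L ≃ₐ[K] L) w = stabilizer (L ≃ₐ[K] L) (w : HeightOneSpectrum (𝓞 L)) := by
  ext h
  simp only [mem_stabilizer_iff]
  exact ⟨fun hh => congrArg Subtype.val hh, fun hh => Subtype.ext hh⟩

omit [NumberField K] [NumberField L] [IsGalois K L] in
lemma period_coe (σ : L ≃ₐ[K] L) (w : T) :
    period σ w = period σ (w : HeightOneSpectrum (𝓞 L)) := by
  apply Nat.dvd_antisymm
  · rw [← pow_smul_eq_iff_period_dvd]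
    exact Subtype.ext (pow_period_smul σ (w : HeightOneSpectrum (𝓞 L)))
  · rw [← pow_smul_eq_iff_period_dvd]
    exact congrArg Subtype.val (pow_period_smul σ w)

variable [DecidableEq (HeightOneSpectrum (𝓞 K))] [DecidableEq (HeightOneSpectrum (𝓞 L))]

/-- The places of `K` below `T`. -/
abbrev PlacesBelow : Type _ := {v // v ∈ T.image (underK K)}

/-- **First inequality for the `T`-idele class group** (odd cyclic degree), parametric in the
local data. -/
theorem first_inequality_tideles (hodd : Odd (Module.finrank K L))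
    (σ : L ≃ₐ[K] L) (hσ : ∀ g, g ∈ Subgroup.zpowers σ)
    {A : T → Type*} [∀ w, AddCommGroup (A w)]
    (ρ : AddMonoid.End (∀ w : T, A w))
    (hρn : ρ ^ Module.finrank K L = 1)
    (hρs : ∀ w : T, ρ * projAt w = projAt (σ • w) * ρ)
    (τ : ∀ w : T, AddMonoid.End (A w))
    (hτ : ∀ (w : T) (a : A w),
      (ρ ^ period σ (w : HeightOneSpectrum (𝓞 L))) (Pi.single w a) = Pi.single w (τ w a))
    (hloc0 : ∀ w : T,
      hIdx (dlt (τ w))
          (nrm (τ w) (Nat.card (stabilizer (L ≃ₐ[K] L) (w : HeightOneSpectrum (𝓞 L))))) =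
        Nat.card (stabilizer (L ≃ₐ[K] L) (w : HeightOneSpectrum (𝓞 L))))
    (hloc1 : ∀ w : T,
      hIdx (nrm (τ w) (Nat.card (stabilizer (L ≃ₐ[K] L) (w : HeightOneSpectrum (𝓞 L)))))
          (dlt (τ w)) = 1)
    (ι : Additive (TUnit L T) →+ ∀ w : T, A w) (hι : Injective ι)
    (hιρ : ∀ u, ρ (ι u) = ι (tunitsEnd K T σ u))
    {C : Type*} [AddCommGroup C] (π : (∀ w : T, A w) →+ C) (hπ : Surjective π)
    (hex : ι.range = π.ker) (σC : AddMonoid.End C) (hπσ : ∀ x, σC (π x) = π (ρ x)) :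
    hIdx (dlt σC) (nrm σC (Module.finrank K L)) =
        Module.finrank K L * hIdx (nrm σC (Module.finrank K L)) (dlt σC) ∧
      hIdx (dlt σC) (nrm σC (Module.finrank K L)) ≠ 0 ∧
      hIdx (nrm σC (Module.finrank K L)) (dlt σC) ≠ 0 := by
  classical
  set n := Module.finrank K L with hn
  have hn0 : n ≠ 0 := Module.finrank_pos.ne'
  have hcardG : Nat.card (L ≃ₐ[K] L) = n := IsGalois.card_aut_eq_finrank K L
  -- places of `K` below `T`, and chosen places above
  let p : T → PlacesBelow K T := fun w => ⟨underK K w.1, Finset.mem_image_of_mem _ w.2⟩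
  have hw₀ex : ∀ v : PlacesBelow K T, ∃ w : T, p w = v := by
    intro v
    obtain ⟨w, hw, hwv⟩ := Finset.mem_image.mp v.2
    exact ⟨⟨w, hw⟩, Subtype.ext hwv⟩
  choose w₀ hw₀ using hw₀ex
  let s : Equiv.Perm T := toPerm σ
  have hperm : ∀ (i : ℕ) (w : T), (s ^ i) w = σ ^ i • w := by
    intro i w
    have : s ^ i = toPerm (σ ^ i) := (map_pow (toPermHom (L ≃ₐ[K] L) T) σ i).symm
    rw [this]
    rfl
  have hpsmul : ∀ (h : L ≃ₐ[K] L) (w : T), p (h • w) = p w := by
    intro h w
    exact Subtype.ext (underK_smul K h w.1)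
  let g : PlacesBelow K T → ℕ := fun v => period σ (w₀ v)
  let k : PlacesBelow K T → ℕ := fun v => Nat.card (stabilizer (L ≃ₐ[K] L) ((w₀ v : T) : HeightOneSpectrum (𝓞 L)))
  have hgk : ∀ v, g v * k v = n := by
    intro v
    have := period_mul_card_stabilizer σ hσ (w₀ v)
    rw [stabilizer_coe K T (w₀ v), hcardG] at this
    exact this
  have hg : ∀ v, 0 < g v := fun v => period_pos_of_finite σ (w₀ v)
  have hk : ∀ v, 0 < k v := fun v => Nat.card_pos
  have hp : ∀ v i, p ((s ^ i) (w₀ v)) = v := by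
    intro v i
    rw [hperm, hpsmul, hw₀]
  have hcyc : ∀ w, ∃ i < g (p w), (s ^ i) (w₀ (p w)) = w := by
    intro w
    have h1 : underK K ((w₀ (p w) : T) : HeightOneSpectrum (𝓞 L)) = underK K w.1 :=
      congrArg Subtype.val (hw₀ (p w))
    obtain ⟨h, hh⟩ := exists_smul_eq_of_underK_eq K h1
    have h2 : w ∈ orbit (L ≃ₐ[K] L) (w₀ (p w)) := ⟨h, Subtype.ext hh⟩
    obtain ⟨i, hi, hiw⟩ := exists_pow_smul_eq σ hσ (w₀ (p w)) h2
    exact ⟨i, hi, by rw [hperm]; exact hiw⟩
  have hinj : ∀ v, ∀ i < g v, ∀ j < g v, (s ^ i) (w₀ v) = (s ^ j) (w₀ v) → i = j := by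
    intro v i hi j hj h
    rw [hperm, hperm] at h
    exact pow_smul_injOn σ (w₀ v) i hi j hj h
  have hsg : ∀ v, (s ^ g v) (w₀ v) = w₀ v := by
    intro v
    rw [hperm]
    exact pow_period_smul σ (w₀ v)
  have hτ' : ∀ v (a : A (w₀ v)),
      (ρ ^ g v) (Pi.single (w₀ v) a) = Pi.single (w₀ v) (τ (w₀ v) a) := by
    intro v a
    have := hτ (w₀ v) a
    rw [← period_coe K T σ (w₀ v)] at this
    exact this
  obtain ⟨hJ0, hJ1⟩ := hIdx_pi_orbits ρ s p w₀ g k n hgk hg hk hρn hρs hp hcyc hinj hsg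
    (fun v => τ (w₀ v)) hτ'
  have hJ0' : hIdx (dlt ρ) (nrm ρ n) = ∏ v, k v := by
    rw [hJ0]
    exact Finset.prod_congr rfl fun v _ => hloc0 (w₀ v)
  have hJ1' : hIdx (nrm ρ n) (dlt ρ) = 1 := by
    rw [hJ1]
    exact Finset.prod_eq_one fun v _ => hloc1 (w₀ v)
  have ha : (∏ v, k v) ≠ 0 := Finset.prod_ne_zero_iff.mpr fun v _ => (hk v).ne'
  -- the global input: Herbrand quotient of the `T`-units
  obtain ⟨hE0, -, hE⟩ := tunits_herbrand_odd K T hodd σ hσ
    (fun v => ((w₀ v : T) : HeightOneSpectrum (𝓞 L)))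
    (fun v => congrArg Subtype.val (hw₀ v))
  have hE' : hIdx (nrm (tunitsEnd K T σ) n) (dlt (tunitsEnd K T σ)) * ∏ v, k v =
      n * hIdx (dlt (tunitsEnd K T σ)) (nrm (tunitsEnd K T σ) n) := by
    rw [hE, mul_comm]
  exact classGroup_herbrand ι π hι hπ hex hιρ hπσ hρn hn0 hJ0' hJ1' ha hE' hE0

end Fermat.Agent.S55.GL.FirstIneq
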