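/-
S55 GLO9c (R): the `E' = K₁(ζ_p)` step of the Hasse principle.

From the Hasse principle `HasseG2 p` for number fields containing `ζ_p` and the local-global
base-change square `SQ` (only its "`= 0`" consequence), the Hasse principle for `p`-primary classes
over an ARBITRARY number field `K₁ ⊆ ℚ̄`: restrict to `E' = K₁(ζ_p)` (degree `< p`, hence prime to
`p`), use inflation-restriction (`LevelInfRes`) and `|Gal(E'/K₁)| · H²(Gal(E'/K₁), E'ˣ) = 0`.

* `finrank_adjoin_primitiveRoot_lt`, `isGalois_adjoin_primitiveRoot` : `K(ζ_p)/K`;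
* `finrank_nsmul_eq_zero_of_bcMap_eq_zero` : a class of `H²(Gal(Ω/F), Ωˣ)` dying in
  `H²(Gal(Ω/E), Ωˣ)` (`E/F` finite Galois) is killed by `[E : F]`;
* `SQ`, `hasse_all`.
(helper1)
-/
import Fermat.Agent.S55.GL.RecipDefs
import Fermat.Agent.S55.LevelInfRes
import Fermat.Agent.S55.GC.Cores
import Fermat.Agent.S55.Local.InvariantLevel

set_option autoImplicit false
set_option linter.unusedSectionVars false
set_option linter.style.haveILetI false

open CategoryTheory IntermediateField

namespace Fermat.Agent.S55.GL.HasseAll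

open Fermat.Agent.S55.Level Fermat.Agent.S55.LevelLayer Fermat.Agent.S55.GaloisLevel
  Fermat.Agent.S55.CFAbs Fermat.Agent.S55.GL.RecipLayer Fermat.Agent.S55.GL.RecipDefs

/-! ### The extension `K(ζ_p)/K` -/

section Degree

open Polynomial

variable {K Ω : Type*} [Field K] [Field Ω] [Algebra K Ω]

/-- `0 < [K(ζ_p) : K] < p`. -/
theorem finrank_adjoin_primitiveRoot_lt {p : ℕ} (hp : p.Prime) {ζ : Ω} (hζ : IsPrimitiveRoot ζ p) :
    0 < Module.finrank K K⟮ζ⟯ ∧ Module.finrank K K⟮ζ⟯ < p := by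
  have hint : IsIntegral K ζ := (hζ.isIntegral hp.pos).tower_top
  rw [IntermediateField.adjoin.finrank hint]
  refine ⟨minpoly.natDegree_pos hint, ?_⟩
  have hroot : aeval ζ (cyclotomic p K) = 0 := by
    have h := hζ.isRoot_cyclotomic hp.pos
    rw [IsRoot.def, ← map_cyclotomic p (algebraMap K Ω), eval_map_algebraMap] at h
    exact h
  have hdvd : minpoly K ζ ∣ cyclotomic p K := minpoly.dvd K ζ hroot
  have hle := natDegree_le_of_dvd hdvd (cyclotomic_ne_zero p K)
  rw [natDegree_cyclotomic, Nat.totient_prime hp] at hle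
  have := hp.pos
  omega

/-- `K(ζ_p)/K` is Galois. -/
theorem isGalois_adjoin_primitiveRoot [Algebra.IsIntegral K Ω] {p : ℕ} (hp : p.Prime) {ζ : Ω}
    (hζ : IsPrimitiveRoot ζ p) : IsGalois K K⟮ζ⟯ := by
  haveI : NeZero p := ⟨hp.ne_zero⟩
  haveI := hζ.intermediateField_adjoin_isCyclotomicExtension K
  exact IsCyclotomicExtension.isGalois {p} K K⟮ζ⟯

end Degree

/-! ### Classes dying in a finite Galois layer -/

section Kill

variable {F Ω : Type} [Field F] [Field Ω] [Algebra F Ω] [IsGalois F Ω]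
  (E : IntermediateField F Ω) [FiniteDimensional F E] [IsGalois F E]

/-- A class of `H²(Gal(Ω/F), Ωˣ)` whose restriction to `Gal(Ω/E)` vanishes (`E/F` finite Galois) is
killed by `[E : F]`. -/
theorem finrank_nsmul_eq_zero_of_bcMap_eq_zero
    (x : levelCohomology (krullLevel F Ω) (unitsRep F Ω) 2)
    (hx : (bcMap F ↥E Ω 2).hom x = 0) : Module.finrank F E • x = 0 := by
  have hU : E.fixingSubgroup ∈ (krullLevel F Ω).sets := fixingSubgroup_mem_krullLevel E
  haveI : IsDiscrete ((krullLevel F Ω).restrict E.fixingSubgroup)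
      (Rep.res E.fixingSubgroup.subtype (unitsRep F Ω)) :=
    isDiscrete_res_subtype (unitsRep F Ω) E.fixingSubgroup
  -- the restriction to the subgroup vanishes
  have hres : (levelCohomologyMap E.fixingSubgroup.subtype
      ((krullLevel F Ω).restrict_refines E.fixingSubgroup)
      (𝟙 (Rep.res E.fixingSubgroup.subtype (unitsRep F Ω))) 2).hom x = 0 := by
    have h1 := congrArg (fun ψ => ψ.hom x)
      (res_comp_restrictUnitsIso_hom (K := F) (Ω := Ω) (H := E.fixingSubgroup) (E := E) rfl 2)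
    simp only [ModuleCat.hom_comp, LinearMap.comp_apply] at h1
    rw [hx] at h1
    have hinj : Function.Injective
        (restrictUnitsIso (K := F) (Ω := Ω) (H := E.fixingSubgroup) (E := E) rfl 2).hom.hom :=
      (ModuleCat.mono_iff_injective _).1 inferInstance
    exact hinj (h1.trans (map_zero _).symm)
  -- hence the class is inflated from the layer of `E`
  obtain ⟨β, rfl⟩ := Fermat.Agent.S55.LevelInfRes.exists_levelInf_eq_of_res_eq_zero
    (krullLevel F Ω) (unitsRep F Ω) hU
    (fun W _ hW _ => Fermat.Agent.S55.Local.InvariantLevel.h1_layer _ W hW) x hres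
  -- the layer group is finite of order `[E : F]`
  have hidx : Module.finrank F E = E.fixingSubgroup.index :=
    IntermediateField.finrank_eq_fixingSubgroup_index Ω E
  haveI : E.fixingSubgroup.FiniteIndex := ⟨by rw [← hidx]; exact Module.finrank_pos.ne'⟩
  have hβ := Fermat.Agent.S55.GC.Cores.card_nsmul_eq_zero
    ((unitsRep F Ω).quotientToInvariants E.fixingSubgroup) 1 β
  rw [← map_nsmul, hidx, Subgroup.index, hβ, map_zero]

end Kill

/-! ### The Hasse principle over an arbitrary number field -/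

local notation "Qbar" => AlgebraicClosure ℚ
local notation "Γ" => (AlgebraicClosure ℚ ≃ₐ[ℚ] AlgebraicClosure ℚ)

local instance isGaloisQbar_HA : IsGalois ℚ Qbar := Fermat.Agent.S55.Level.isGalois_Qbar
local instance factPrime_HA (q : Nat.Primes) : Fact (q : ℕ).Prime := ⟨q.2⟩

/-- The "`= 0`" consequence of the local-global base-change square: a class over `L` which is
locally trivial at `(q, τ)` stays locally trivial at `(q, τ)` after restriction to `E ⊇ L`. -/
def SQ : Prop :=
  ∀ (q : Nat.Primes) (L : IntermediateField ℚ Qbar) [FiniteDimensional ℚ L] (τ : Γ)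
    (E : IntermediateField ↥L Qbar) [FiniteDimensional ↥L ↥E] [FiniteDimensional ℚ ↥(E₀ L E)]
    (y : levelCohomology (krullLevel ↥L Qbar) (unitsRep ↥L Qbar) 2),
    (locG (q : ℕ) L τ 2).hom y = 0 →
      (locG (q : ℕ) (E₀ L E) τ 2).hom ((bcMap ↥L ↥E Qbar 2).hom y) = 0

/-- **The Hasse principle for `p`-primary classes over an arbitrary number field**, from the case
of number fields containing `ζ_p`. -/
theorem hasse_all {p : ℕ} (hp : p.Prime) (hHS : HasseG2 p) (hsq : SQ)
    (K₁ : IntermediateField ℚ Qbar) [FiniteDimensional ℚ K₁]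
    (x : levelCohomology (krullLevel ↥K₁ Qbar) (unitsRep ↥K₁ Qbar) 2)
    (hx : Fermat.Agent.S55.CF.IsPPrim p x)
    (hloc : ∀ (q : Nat.Primes) (τ : Γ), (locG (q : ℕ) K₁ τ 2).hom x = 0) : x = 0 := by
  haveI : NeZero p := ⟨hp.ne_zero⟩
  obtain ⟨ζ, hζ⟩ := HasEnoughRootsOfUnity.exists_primitiveRoot Qbar p
  let E' : IntermediateField ↥K₁ Qbar := IntermediateField.adjoin ↥K₁ {ζ}
  haveI hfd : FiniteDimensional ↥K₁ ↥E' :=
    IntermediateField.adjoin.finiteDimensional ((hζ.isIntegral hp.pos).tower_top)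
  haveI hgal : IsGalois ↥K₁ ↥E' := isGalois_adjoin_primitiveRoot hp hζ
  haveI hfdQ : FiniteDimensional ℚ ↥(E₀ K₁ E') := Module.Finite.trans (R := ℚ) ↥K₁ ↥E'
  -- the restriction to `E'` vanishes, by the Hasse principle over `E' ∋ ζ_p`
  have hz : (bcMap ↥K₁ ↥E' Qbar 2).hom x = 0 := by
    refine hHS (E₀ K₁ E') ⟨ζ, IntermediateField.mem_adjoin_simple_self ↥K₁ ζ, hζ⟩
      ((bcMap ↥K₁ ↥E' Qbar 2).hom x) ?_ ?_
    · exact hx.map ((bcMap ↥K₁ ↥E' Qbar 2).hom : _ →ₗ[ℤ] _).toAddMonoidHom
    · intro q τ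
      exact hsq q K₁ τ E' x (hloc q τ)
  have hkill := finrank_nsmul_eq_zero_of_bcMap_eq_zero E' x hz
  obtain ⟨M, hM⟩ := hx
  obtain ⟨hpos, hlt⟩ := finrank_adjoin_primitiveRoot_lt (K := ↥K₁) hp hζ
  have hcop : Nat.Coprime (p ^ M) (Module.finrank ↥K₁ ↥E') :=
    Nat.Coprime.pow_left M ((Nat.Prime.coprime_iff_not_dvd hp).2
      (Nat.not_dvd_of_pos_of_lt hpos hlt))
  exact Fermat.Agent.S55.GC.Cores.eq_zero_of_coprime_nsmul hcop hM hkill

end Fermat.Agent.S55.GL.HasseAll
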