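/-
S55 / GLO12 (helper22): the localisation maps `resAt q L σ` do not depend on the representative
`σ` of the place, up to a canonical change-of-group map.

If `σ' = r(τ) σ g` with `τ ∈ Gal(Ω_q/ℚ_q)` and `g ∈ G_L` (this is what `SamePlace q L σ σ'`
means, `Places.SamePlace.exists_eq_mul`), then `K_{σ'} = τ K_σ`, conjugation by `τ` is a
homomorphism `Gal(Ω_q/K_{σ'}) →* Gal(Ω_q/K_σ)`, and

  `resAt σ ≫ (conjugation by τ) = resAt σ'`.

In particular the vanishing of `resAt q L σ y` only depends on the place of `L` defined by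
`(q, σ)`: it may be tested on the chosen representatives `FinPlace.rep`.
-/
import Fermat.Agent.S55.GL.BrauerLocal
import Fermat.Agent.S55.GaloisLevelBC
import Fermat.Agent.S55.LevelConj

set_option autoImplicit false
set_option linter.unusedSectionVars false

open CategoryTheory IntermediateField

namespace Fermat.Agent.S55.GL.ResAtConj

open Fermat.Agent.S55.Level Fermat.Agent.S55.GaloisLevel Fermat.Agent.S55.GL.Places
  Fermat.Agent.S55.LevelTransport Fermat.Agent.S55.GL.BrauerLocal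

/-! ### Conjugation between the Galois groups of conjugate intermediate fields -/

section ConjGal

variable {K₀ Ω : Type} [Field K₀] [Field Ω] [Algebra K₀ Ω] [IsGalois K₀ Ω]
  (F F' : IntermediateField K₀ Ω) (τ : Ω ≃ₐ[K₀] Ω) (hτ : ∀ x ∈ F, τ x ∈ F')

/-- Conjugation `η ↦ τ⁻¹ η τ : Gal(Ω/F') →* Gal(Ω/F)` when `τ F ⊆ F'`. -/
noncomputable def conjGal : Gal(Ω/F') →* Gal(Ω/F) where
  toFun η := AlgEquiv.ofRingEquiv
    (f := (τ.toRingEquiv.trans η.toRingEquiv).trans τ.symm.toRingEquiv) (fun x => by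
      show τ.symm (η (τ (x : Ω))) = (x : Ω)
      have h1 : η (τ (x : Ω)) = τ (x : Ω) := η.commutes ⟨τ x, hτ x x.2⟩
      rw [h1, AlgEquiv.symm_apply_apply])
  map_one' := by
    ext x
    exact τ.symm_apply_apply x
  map_mul' η₁ η₂ := by
    ext x
    show τ.symm (η₁ (η₂ (τ x))) = τ.symm (η₁ (τ (τ.symm (η₂ (τ x)))))
    rw [AlgEquiv.apply_symm_apply]

lemma conjGal_apply (η : Gal(Ω/F')) (x : Ω) :
    conjGal F F' τ hτ η x = τ.symm (η (τ x)) := rfl

/-- The coefficient map `τ : Ωˣ → Ωˣ`, equivariant along `conjGal`. -/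
noncomputable def conjUnits :
    Rep.res (conjGal F F' τ hτ) (unitsRep F Ω) ⟶ unitsRep F' Ω :=
  Rep.ofHom ⟨(MonoidHom.toAdditive (Units.map ((τ : Ω →+* Ω) : Ω →* Ω))).toIntLinearMap,
    fun η => by
      refine LinearMap.ext fun (a : Additive Ωˣ) => ?_
      apply Additive.toMul.injective
      apply Units.ext
      show τ (τ.symm (η (τ ((Additive.toMul a : Ωˣ) : Ω)))) = η (τ ((Additive.toMul a : Ωˣ) : Ω))
      exact τ.apply_symm_apply _⟩

lemma conjUnits_hom_apply (a : Additive Ωˣ) :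
    ((Additive.toMul ((conjUnits F F' τ hτ).hom a : Additive Ωˣ) : Ωˣ) : Ω) =
      τ ((Additive.toMul a : Ωˣ) : Ω) := rfl

/-- Conjugation is compatible with the Krull level structures. -/
theorem refines_conjGal :
    (krullLevel F' Ω).Refines (krullLevel F Ω) (conjGal F F' τ hτ) := by
  classical
  rintro U ⟨hUn, E, hE, hEU⟩
  have := hUn
  have := hE
  refine ⟨U.comap (conjGal F F' τ hτ), ⟨inferInstance, ?_⟩, le_rfl⟩
  obtain ⟨t, ht⟩ := (Module.Finite.fg_top : (⊤ : Submodule F E).FG)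
  let s₀ : Set Ω := (fun x : E => (x : Ω)) '' (t : Set E)
  let s : Set Ω := (fun x : E => τ (x : Ω)) '' (t : Set E)
  have hsfin : s.Finite := (Finset.finite_toSet t).image _
  have hspan : ∀ x : E, (x : Ω) ∈ Submodule.span F s₀ := by
    intro x
    have hx : x ∈ Submodule.span F (t : Set E) := by rw [ht]; trivial
    exact Submodule.apply_mem_span_image_of_mem_span (E.val.toLinearMap) hx
  have hint : ∀ x ∈ s, IsIntegral F' x := fun x _ =>
    (Algebra.IsAlgebraic.isAlgebraic (R := F') x).isIntegral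
  have : Finite s := hsfin
  refine ⟨IntermediateField.adjoin F' s, IntermediateField.finiteDimensional_adjoin hint, ?_⟩
  intro η hη
  rw [Subgroup.mem_comap]
  apply hEU
  rw [IntermediateField.mem_fixingSubgroup_iff]
  intro y hy
  refine apply_eq_of_mem_span F Ω (τ := conjGal F F' τ hτ η) (s := s₀) ?_ (hspan ⟨y, hy⟩)
  rintro _ ⟨x, hx, rfl⟩
  show τ.symm (η (τ (x : Ω))) = (x : Ω)
  have h1 : η (τ (x : Ω)) = τ (x : Ω) :=
    (IntermediateField.mem_fixingSubgroup_iff _ _).1 hη _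
      (IntermediateField.subset_adjoin F' s ⟨x, hx, rfl⟩)
  rw [h1, AlgEquiv.symm_apply_apply]

end ConjGal

/-! ### Change of representative of a place -/

local notation "Qbar" => AlgebraicClosure ℚ
local notation "Γ" => (AlgebraicClosure ℚ ≃ₐ[ℚ] AlgebraicClosure ℚ)

local instance isGaloisQbar_RAC : IsGalois ℚ Qbar := Fermat.Agent.S55.Level.isGalois_Qbar

section Change

variable (q : ℕ) [Fact q.Prime] (L : IntermediateField ℚ Qbar) (σ : Γ)
  (τ : PadicAlgCl q ≃ₐ[ℚ_[q]] PadicAlgCl q) (g : Γ) (hg : g ∈ L.fixingSubgroup)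

include hg in
/-- `K_{r(τ) σ g} = τ K_σ` for `g ∈ G_L`. -/
theorem localFieldAt_mul_mul :
    localFieldAt q L (localGaloisToGlobal q τ * σ * g) =
      (localFieldAt q L σ).map (τ : PadicAlgCl q →ₐ[ℚ_[q]] PadicAlgCl q) := by
  rw [← localFieldAt_localGaloisToGlobal_mul]
  apply le_antisymm
  · rw [localFieldAt_le_iff]
    intro x hx
    rw [AlgEquiv.mul_apply, (IntermediateField.mem_fixingSubgroup_iff L g).mp hg x hx]
    exact padicEmbedding_apply_mem_localFieldAt q _ hx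
  · rw [localFieldAt_le_iff]
    intro x hx
    have := padicEmbedding_apply_mem_localFieldAt q (localGaloisToGlobal q τ * σ * g) hx
    rwa [AlgEquiv.mul_apply, (IntermediateField.mem_fixingSubgroup_iff L g).mp hg x hx] at this

include hg in
theorem apply_mem_localFieldAt_mul_mul (x : PadicAlgCl q) (hx : x ∈ localFieldAt q L σ) :
    τ x ∈ localFieldAt q L (localGaloisToGlobal q τ * σ * g) := by
  rw [localFieldAt_mul_mul q L σ τ g hg]
  exact (IntermediateField.mem_map _).2 ⟨x, hx, rfl⟩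

/-- Conjugation by `τ` : `Gal(Ω_q/K_{σ'}) →* Gal(Ω_q/K_σ)`, `σ' = r(τ) σ g`. -/
noncomputable def conjLoc :
    Gloc q L (localGaloisToGlobal q τ * σ * g) →* Gloc q L σ :=
  conjGal (localFieldAt q L σ) (localFieldAt q L (localGaloisToGlobal q τ * σ * g)) τ
    (apply_mem_localFieldAt_mul_mul q L σ τ g hg)

lemma conjLoc_apply (η : Gloc q L (localGaloisToGlobal q τ * σ * g)) (x : PadicAlgCl q) :
    conjLoc q L σ τ g hg η x = τ.symm (η (τ x)) := rfl

/-- The coefficient map of the change of representative. -/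
noncomputable def conjLocUnits :
    Rep.res (conjLoc q L σ τ g hg) (unitsRep (localFieldAt q L σ) (PadicAlgCl q)) ⟶
      unitsRep (localFieldAt q L (localGaloisToGlobal q τ * σ * g)) (PadicAlgCl q) :=
  conjUnits (localFieldAt q L σ) (localFieldAt q L (localGaloisToGlobal q τ * σ * g)) τ
    (apply_mem_localFieldAt_mul_mul q L σ τ g hg)

theorem refines_conjLoc :
    (krullLevel (localFieldAt q L (localGaloisToGlobal q τ * σ * g)) (PadicAlgCl q)).Refines
      (krullLevel (localFieldAt q L σ) (PadicAlgCl q)) (conjLoc q L σ τ g hg) :=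
  refines_conjGal _ _ τ _

/-- **The change of representative map** on the local cohomology groups:
`Hⁿ(Gal(Ω_q/K_σ), Ω_qˣ) ⟶ Hⁿ(Gal(Ω_q/K_{σ'}), Ω_qˣ)`, `σ' = r(τ) σ g`. -/
noncomputable def conjMap (n : ℕ) :
    levelCohomology (krullLevel (localFieldAt q L σ) (PadicAlgCl q))
        (unitsRep (localFieldAt q L σ) (PadicAlgCl q)) n ⟶
      levelCohomology
        (krullLevel (localFieldAt q L (localGaloisToGlobal q τ * σ * g)) (PadicAlgCl q))
        (unitsRep (localFieldAt q L (localGaloisToGlobal q τ * σ * g)) (PadicAlgCl q)) n :=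
  levelCohomologyMap (conjLoc q L σ τ g hg) (refines_conjLoc q L σ τ g hg)
    (conjLocUnits q L σ τ g hg) n

lemma glocToAbs_conjLoc (η : Gloc q L (localGaloisToGlobal q τ * σ * g)) :
    glocToAbs q L σ (conjLoc q L σ τ g hg η) =
      τ⁻¹ * glocToAbs q L (localGaloisToGlobal q τ * σ * g) η * τ :=
  AlgEquiv.ext fun _ => rfl

/-- The decomposition maps at `σ'` and `σ` are conjugate by `g⁻¹ ∈ G_L`. -/
theorem decompHom_mul_mul (η : Gloc q L (localGaloisToGlobal q τ * σ * g)) :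
    decompHom q L (localGaloisToGlobal q τ * σ * g) η =
      (⟨g⁻¹, inv_mem hg⟩ : ↥L.fixingSubgroup) *
        decompHom q L σ (conjLoc q L σ τ g hg η) *
          (⟨g⁻¹, inv_mem hg⟩ : ↥L.fixingSubgroup)⁻¹ := by
  apply Subtype.ext
  show ((decompHom q L (localGaloisToGlobal q τ * σ * g) η : ↥L.fixingSubgroup) : Γ) =
    g⁻¹ * ((decompHom q L σ (conjLoc q L σ τ g hg η) : ↥L.fixingSubgroup) : Γ) * (g⁻¹)⁻¹
  rw [coe_decompHom, coe_decompHom, conjLocal_apply, conjLocal_apply, glocToAbs_conjLoc,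
    map_mul, map_mul, map_inv]
  group

variable {A : Rep.{0} ℤ Γ} (j : A ⟶ unitsRep ℚ Qbar) (𝒰 : LevelStructure Γ) [IsDiscrete 𝒰 A]
  (h𝒰 : ∀ U ∈ 𝒰.sets, IsKrullOpen ℚ Qbar U)

/-- **Change of representative**: `resAt σ ≫ conjMap = resAt (r(τ) σ g)` for `g ∈ G_L`. -/
theorem resAt_comp_conjMap (n : ℕ) :
    resAt q L σ j 𝒰 h𝒰 n ≫ conjMap q L σ τ g hg n =
      resAt q L (localGaloisToGlobal q τ * σ * g) j 𝒰 h𝒰 n := by
  have hcomp := levelCohomologyMap_comp (A := resL L A) (decompHom q L σ) (conjLoc q L σ τ g hg)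
    (refines_decompHom q L σ 𝒰 h𝒰) (refines_conjLoc q L σ τ g hg) (coeffLoc q L σ j)
    (conjLocUnits q L σ τ g hg) n
  rw [conjMap, resAt, ← hcomp, resAt]
  refine (levelCohomologyMap_eq_of_conj (⟨g⁻¹, inv_mem hg⟩ : ↥L.fixingSubgroup)
    ((decompHom q L σ).comp (conjLoc q L σ τ g hg)) _
    (decompHom q L (localGaloisToGlobal q τ * σ * g)) _
    (decompHom_mul_mul q L σ τ g hg) _ _ (fun a => ?_) n).symm
  apply Additive.toMul.injective
  apply Units.ext
  have hj : j.hom (A.ρ g a) = (unitsRep ℚ Qbar).ρ g (j.hom a) := Rep.hom_comm_apply j g a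
  show padicEmbedding q ((localGaloisToGlobal q τ * σ * g)
      ((Additive.toMul (j.hom a : Additive Qbarˣ) : Qbarˣ) : Qbar)) =
    τ (padicEmbedding q (σ ((Additive.toMul
      (j.hom (A.ρ (((⟨g⁻¹, inv_mem hg⟩ : ↥L.fixingSubgroup)⁻¹ : ↥L.fixingSubgroup) : Γ) a) :
        Additive Qbarˣ) : Qbarˣ) : Qbar)))
  have hgg : (((⟨g⁻¹, inv_mem hg⟩ : ↥L.fixingSubgroup)⁻¹ : ↥L.fixingSubgroup) : Γ) = g :=
    inv_inv g
  rw [hgg, hj, AlgEquiv.mul_apply, AlgEquiv.mul_apply, padicEmbedding_localGaloisToGlobal]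
  rfl

/-- Elementwise form. -/
theorem conjMap_resAt_apply (n : ℕ)
    (y : levelCohomology (𝒰.restrict L.fixingSubgroup) (resL L A) n) :
    (conjMap q L σ τ g hg n).hom ((resAt q L σ j 𝒰 h𝒰 n).hom y) =
      (resAt q L (localGaloisToGlobal q τ * σ * g) j 𝒰 h𝒰 n).hom y :=
  congrArg (fun φ => ModuleCat.Hom.hom φ y) (resAt_comp_conjMap q L σ τ g hg j 𝒰 h𝒰 n)

end Change

/-! ### Vanishing only depends on the place -/

section Vanish

variable (q : ℕ) [Fact q.Prime] (L : IntermediateField ℚ Qbar) [FiniteDimensional ℚ L]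
  {A : Rep.{0} ℤ Γ} (j : A ⟶ unitsRep ℚ Qbar) (𝒰 : LevelStructure Γ) [IsDiscrete 𝒰 A]
  (h𝒰 : ∀ U ∈ 𝒰.sets, IsKrullOpen ℚ Qbar U)

/-- **The vanishing of the local component of a class only depends on the place.** -/
theorem resAt_eq_zero_of_samePlace {σ σ' : Γ} (h : SamePlace q L σ σ') (n : ℕ)
    (y : levelCohomology (𝒰.restrict L.fixingSubgroup) (resL L A) n)
    (hy : (resAt q L σ j 𝒰 h𝒰 n).hom y = 0) : (resAt q L σ' j 𝒰 h𝒰 n).hom y = 0 := by
  obtain ⟨τ, g, hg, rfl⟩ := h.exists_eq_mul q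
  rw [← conjMap_resAt_apply q L σ τ g hg j 𝒰 h𝒰 n y, hy, map_zero]

theorem resAt_eq_zero_iff_of_samePlace {σ σ' : Γ} (h : SamePlace q L σ σ') (n : ℕ)
    (y : levelCohomology (𝒰.restrict L.fixingSubgroup) (resL L A) n) :
    (resAt q L σ j 𝒰 h𝒰 n).hom y = 0 ↔ (resAt q L σ' j 𝒰 h𝒰 n).hom y = 0 :=
  ⟨resAt_eq_zero_of_samePlace q L j 𝒰 h𝒰 h n y,
    resAt_eq_zero_of_samePlace q L j 𝒰 h𝒰 (SamePlace.symm q h) n y⟩

end Vanish

section Rep

local instance factPrime_RAC (q : Nat.Primes) : Fact (q : ℕ).Prime := ⟨q.2⟩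

variable (L : IntermediateField ℚ Qbar) [FiniteDimensional ℚ L]
  {A : Rep.{0} ℤ Γ} (j : A ⟶ unitsRep ℚ Qbar) (𝒰 : LevelStructure Γ) [IsDiscrete 𝒰 A]
  (h𝒰 : ∀ U ∈ 𝒰.sets, IsKrullOpen ℚ Qbar U)

/-- **A class whose local components at the chosen representatives of all finite places vanish
has vanishing local components at every `(q, σ)`.** -/
theorem resAt_eq_zero_of_forall_resP (n : ℕ)
    (y : levelCohomology (𝒰.restrict L.fixingSubgroup) (resL L A) n)
    (hy : ∀ v : FinPlace L, (resP L j 𝒰 h𝒰 v n).hom y = 0) (q : Nat.Primes) (σ : Γ) :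
    (resAt (q : ℕ) L σ j 𝒰 h𝒰 n).hom y = 0 :=
  resAt_eq_zero_of_samePlace (q : ℕ) L j 𝒰 h𝒰
    (samePlace_rep_placeOf (q : ℕ) (K := L) σ) n y (hy (FinPlace.of L q σ))

end Rep

end Fermat.Agent.S55.GL.ResAtConj
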