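/-
S55 / (HS) level form, LOCAL DICTIONARY half (helper22), generic in the level structure `𝒰`
(`globalLevel S` for `BrauerInput.hasse`, `krullLevel ℚ ℚ̄` for the absolute form).

In helper20's `BrauerDict` typing: `E/ℚ` finite normal with `G_E ∈ 𝒰`, `K ≤ E`,
`H = galE K E = Gal(E/K)`, `x ∈ H²(H, Eˣ)` and `y := levelInf (T1 x)` the class of
`H²(G_K, smoothPart 𝒰 ℚ̄ˣ)` (level cohomology for `𝒰.restrict G_K`) inflated from `x`.

* `T1_bijective`: every class of the layer `G_K ⧸ (G_E ∩ G_K)` is `T1 x`;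
* `loc_diag_eq_zero`: if the local component `resAt q K σ y` vanishes, then the localisation of
  `x` at `(q, σ|_E)` in helper3's idèle model vanishes;
* `hloc_of_forall_resAt`: the hypothesis `hloc` of the finite-level Hasse principle
  (`CFFinal.hasse_units_pPrimary_of`, `SecondIneqFinal.hasse_units_pPrimary_of_hdvd`) VERBATIM
  from the vanishing of all `resAt q K σ y`;
* `hloc_of_forall_resP`: the same from the vanishing at the chosen representatives of the finite
  places only (`ResAtConj`).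
-/
import Fermat.Agent.S55.GL.BrauerDictGlobal
import Fermat.Agent.S55.GL.UnitLift
import Fermat.Agent.S55.GL.ResAtConj

set_option autoImplicit false
set_option linter.unusedSectionVars false

open CategoryTheory IntermediateField groupCohomology

namespace Fermat.Agent.S55.GL.HasseLocalDict

open Fermat.Agent.S55.Level Fermat.Agent.S55.GaloisLevel Fermat.Agent.S55.GL.Places
  Fermat.Agent.S55.GL.BrauerLocal Fermat.Agent.S55.LocalDict Fermat.Agent.S55.GL.LocalFieldAt
  Fermat.Agent.S55.GL.CoindFun Fermat.Agent.S55.GL.Ideles Fermat.Agent.S55.GL.IdeleSemiLocal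
  Fermat.Agent.S55.SmoothPart Fermat.Agent.S55.CFAbs Fermat.Agent.S55.LevelLayer
  Fermat.Agent.S55.GL.BrauerDict Fermat.Agent.S55.GC.SemiLocal

local notation "Qbar" => AlgebraicClosure ℚ
local notation "Γ" => (AlgebraicClosure ℚ ≃ₐ[ℚ] AlgebraicClosure ℚ)

local instance factPrime_hld (q : Nat.Primes) : Fact (q : ℕ).Prime := ⟨q.2⟩
local instance isGaloisQbar_hld : IsGalois ℚ Qbar := Fermat.Agent.S55.Level.isGalois_Qbar

/-! ### `T1` is bijective -/

section T1

variable (K E : IntermediateField ℚ Qbar) [Normal ℚ E] (𝒰 : LevelStructure Γ)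
  (hE : E.fixingSubgroup ∈ 𝒰.sets) (hKE : K ≤ E)

theorem rhoE_injective : Function.Injective (rhoE K E) := by
  refine (injective_iff_map_eq_one _).2 fun x => ?_
  induction x using QuotientGroup.induction_on with
  | H g =>
    intro h
    refine (QuotientGroup.eq_one_iff _).2 ((mem_Uglob K E).2 ((resE_eq_one_iff E _).1 ?_))
    rw [rhoE_mk] at h
    exact congrArg Subtype.val h

include hKE in
theorem rhoE_surjective : Function.Surjective (rhoE K E) := by
  rintro ⟨h, hh⟩
  obtain ⟨g, rfl⟩ := AlgEquiv.restrictNormalHom_surjective Qbar h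
  have hg : g ∈ K.fixingSubgroup := by
    rw [IntermediateField.mem_fixingSubgroup_iff]
    intro x hx
    have h1 := coe_resE E g ⟨x, hKE hx⟩
    rw [← h1, (mem_galE.1 hh) ⟨x, hKE hx⟩ hx]
  exact ⟨((⟨g, hg⟩ : ↥K.fixingSubgroup) : ↥K.fixingSubgroup ⧸ Uglob K E), Subtype.ext rfl⟩

include hKE in
theorem rhoE_bijective : Function.Bijective (rhoE K E) :=
  ⟨rhoE_injective K E, rhoE_surjective K E hKE⟩

include hKE in
theorem kap_bijective : Function.Bijective (kap K E 𝒰 hE).hom := by
  constructor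
  · intro x y hxy
    have h1 : kapAdd₀ E x = kapAdd₀ E y :=
      congrArg (fun a : (globLayer K E 𝒰).V =>
        (smoothPartι 𝒰 (unitsRep ℚ Qbar)).hom (a : (resL K (Asm 𝒰)).V)) hxy
    apply Additive.toMul.injective
    apply Units.ext
    apply Subtype.ext
    exact congrArg (fun b : Additive Qbarˣ => ((Additive.toMul b : Qbarˣ) : Qbar)) h1
  · rintro ⟨a, ha⟩
    -- the unit of `ℚ̄` underlying `a`
    set u : Qbarˣ := Additive.toMul ((smoothPartι 𝒰 (unitsRep ℚ Qbar)).hom a : Additive Qbarˣ)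
      with hu
    have hfix : ∀ g ∈ E.fixingSubgroup, g (u : Qbar) = (u : Qbar) := by
      intro g hg
      have hgK : g ∈ K.fixingSubgroup := IntermediateField.fixingSubgroup_antitone hKE hg
      have h1 := (Representation.mem_invariants _ _).1 ha
        ⟨⟨g, hgK⟩, (mem_Uglob K E).2 hg⟩
      have h2 := congrArg (fun b : (resL K (Asm 𝒰)).V =>
        ((Additive.toMul ((smoothPartι 𝒰 (unitsRep ℚ Qbar)).hom b : Additive Qbarˣ) : Qbarˣ) :
          Qbar)) h1
      exact h2
    have hmem : (u : Qbar) ∈ E := by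
      rw [← InfiniteGalois.fixedField_fixingSubgroup E, IntermediateField.mem_fixedField_iff]
      exact hfix
    have hmem' : ((u⁻¹ : Qbarˣ) : Qbar) ∈ E := by
      rw [Units.val_inv_eq_inv_val]
      exact inv_mem hmem
    refine ⟨Additive.ofMul ⟨⟨_, hmem⟩, ⟨_, hmem'⟩, ?_, ?_⟩, ?_⟩
    · apply Subtype.ext
      simp
    · apply Subtype.ext
      simp
    · apply Subtype.ext
      apply Subtype.ext
      apply Additive.toMul.injective
      apply Units.ext
      rfl

include hKE in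
/-- **(T1) is bijective**: the cohomology of the layer `G_K ⧸ (G_E ∩ G_K)` of helper14's model is
the cohomology of `Gal(E/K)` acting on `Eˣ`. -/
theorem T1_bijective (n : ℕ) : Function.Bijective (T1 K E 𝒰 hE n).hom :=
  map_bijective_of_bijective _ _ (rhoE_bijective K E hKE) (kap_bijective K E 𝒰 hE hKE) n

end T1

/-! ### The local dictionary -/

section Dict

variable (q : Nat.Primes) (K E : IntermediateField ℚ Qbar) [Normal ℚ E] (σ : Γ)
  (T : Finset Nat.Primes) (hq : q ∈ T) (𝒰 : LevelStructure Γ)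
  (h𝒰 : ∀ U ∈ 𝒰.sets, IsKrullOpen ℚ Qbar U) (hE : E.fixingSubgroup ∈ 𝒰.sets) (hKE : K ≤ E)

include hE in
/-- The layer subgroup `G_E ∩ G_K` is a member of the restricted level structure. -/
theorem Uglob_mem : Uglob K E ∈ (𝒰.restrict K.fixingSubgroup).sets :=
  𝒰.mem_restrict_sets K.fixingSubgroup hE

include h𝒰 hE in
/-- The local layer subgroup is a member of the Krull level structure. -/
theorem Uloc_mem :
    Uloc q K E σ ∈ (krullLevel (localFieldAt (q : ℕ) K σ) (PadicAlgCl (q : ℕ))).sets :=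
  ⟨inferInstance, isKrullOpen_comap_decompHom (q : ℕ) K σ (h𝒰 _ hE)⟩

/-- The class of `H²(G_K, smoothPart 𝒰 ℚ̄ˣ)` inflated from `x ∈ H²(Gal(E/K), Eˣ)`. -/
noncomputable def layerClass (n : ℕ) (x : groupCohomology (unitsH K E) n) :
    levelCohomology (𝒰.restrict K.fixingSubgroup) (resL K (Asm 𝒰)) n :=
  (levelInf (𝒰.restrict K.fixingSubgroup) (resL K (Asm 𝒰)) (Uglob_mem K E 𝒰 hE) n).hom
    ((T1 K E 𝒰 hE n).hom x)

include hKE in
/-- **Local dictionary at one place**: if the local component at `(q, σ)` of the class inflated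
from `x ∈ H²(Gal(E/K), Eˣ)` vanishes, then the localisation of `x` at `(q, σ|_E)` in the idèle
model vanishes. -/
theorem loc_diag_eq_zero (x : groupCohomology (unitsH K E) 2)
    (h : (resAt (q : ℕ) K σ (smoothPartι 𝒰 (unitsRep ℚ Qbar)) 𝒰 h𝒰 2).hom
      (layerClass K E 𝒰 hE 2 x) = 0) :
    (loc (locHom E T (galE K E) ⟨q, hq⟩ (resE E σ)) 2).hom
      ((groupCohomology.map (MonoidHom.id ↥(galE K E))
        ((Rep.resFunctor (galE K E).subtype).map (diagRep E T)) 2).hom x) = 0 := by
  have h1 := levelCohomologyMap_levelInf_apply (decompHom (q : ℕ) K σ) (coeffAsm q K σ 𝒰)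
    (le_refl (Uloc q K E σ)) (refines_decompHom (q : ℕ) K σ 𝒰 h𝒰) (Uglob_mem K E 𝒰 hE)
    (Uloc_mem q K E σ 𝒰 h𝒰 hE) 2 ((T1 K E 𝒰 hE 2).hom x)
  have h2 : (levelInf (krullLevel (localFieldAt (q : ℕ) K σ) (PadicAlgCl (q : ℕ)))
      (unitsRep (localFieldAt (q : ℕ) K σ) (PadicAlgCl (q : ℕ))) (Uloc_mem q K E σ 𝒰 h𝒰 hE) 2).hom
      ((layerBC (U := Uglob K E) (V := Uloc q K E σ) (decompHom (q : ℕ) K σ)
        (coeffAsm q K σ 𝒰) (le_refl _) 2).hom ((T1 K E 𝒰 hE 2).hom x)) = 0 :=
    h1.symm.trans h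
  have h3 := Fermat.Agent.S55.GL.UnitLift.levelInf_unitsRep_injective
    (localFieldAt (q : ℕ) K σ) (PadicAlgCl (q : ℕ)) (Uloc q K E σ) (Uloc_mem q K E σ 𝒰 h𝒰 hE)
    (h2.trans (map_zero _).symm)
  rw [T3_apply q K E σ T hq 𝒰 hE 2 x] at h3
  exact (T2_bijective q K E σ T hq hKE 2).1 (h3.trans (map_zero _).symm)

end Dict

/-! ### The hypothesis `hloc` of the finite-level Hasse principle -/

section Hloc

variable (K E : IntermediateField ℚ Qbar) [Normal ℚ E] (𝒰 : LevelStructure Γ)
  (h𝒰 : ∀ U ∈ 𝒰.sets, IsKrullOpen ℚ Qbar U) (hE : E.fixingSubgroup ∈ 𝒰.sets) (hKE : K ≤ E)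

include hKE in
/-- **`hloc` of the finite-level Hasse principle** (`hasse_units_pPrimary_of_hdvd` with `L := E`,
`H := galE K E`) from the vanishing of all local components of the inflated class. -/
theorem hloc_of_forall_resAt (x : groupCohomology (unitsH K E) 2)
    (h : ∀ (q : Nat.Primes) (σ : Γ),
      (resAt (q : ℕ) K σ (smoothPartι 𝒰 (unitsRep ℚ Qbar)) 𝒰 h𝒰 2).hom
        (layerClass K E 𝒰 hE 2 x) = 0)
    (T : Finset Nat.Primes) (q : T) (g : E ≃ₐ[ℚ] E) :
    (groupCohomology.map (IdeleSemiLocal.decomp E T (galE K E) q g).subtype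
        (IdeleSemiLocal.locHom E T (galE K E) q g) 2).hom
      ((groupCohomology.map (MonoidHom.id ↥(galE K E))
        ((Rep.resFunctor (galE K E).subtype).map (diagRep E T)) 2).hom x) = 0 := by
  obtain ⟨σ, rfl⟩ := AlgEquiv.restrictNormalHom_surjective Qbar g
  exact loc_diag_eq_zero q.1 K E σ T q.2 𝒰 h𝒰 hE hKE x (h q.1 σ)

include hKE in
/-- The same, from the vanishing at the chosen representatives of the finite places of `K`. -/
theorem hloc_of_forall_resP [FiniteDimensional ℚ K] (x : groupCohomology (unitsH K E) 2)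
    (h : ∀ v : FinPlace K, (resP K (smoothPartι 𝒰 (unitsRep ℚ Qbar)) 𝒰 h𝒰 v 2).hom
      (layerClass K E 𝒰 hE 2 x) = 0)
    (T : Finset Nat.Primes) (q : T) (g : E ≃ₐ[ℚ] E) :
    (groupCohomology.map (IdeleSemiLocal.decomp E T (galE K E) q g).subtype
        (IdeleSemiLocal.locHom E T (galE K E) q g) 2).hom
      ((groupCohomology.map (MonoidHom.id ↥(galE K E))
        ((Rep.resFunctor (galE K E).subtype).map (diagRep E T)) 2).hom x) = 0 :=
  hloc_of_forall_resAt K E 𝒰 h𝒰 hE hKE x
    (fun q σ => ResAtConj.resAt_eq_zero_of_forall_resP K _ 𝒰 h𝒰 2 _ h q σ) T q g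

end Hloc

end Fermat.Agent.S55.GL.HasseLocalDict
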