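/-
S55 (HS) = `BrauerInput.hasse` (helper16): the Hasse principle for the `p`-primary part of
`H²(G_{L,S}, ℚ_S^×)` from the finite-level Hasse principle
(`SecondIneqFinal.hasse_units_pPrimary_of_hdvd`).

* `rhoE_bijective`, `kap_bijective`, `T1_bijective`: the global dictionary of `BrauerDictGlobal`
  is bijective (`K ≤ E`);
* `layer_hasse`: the Hasse principle for a `p`-primary class of the layer
  `H²(G_K ⧸ (G_E ∩ G_K), (ℚ_S^×)^{G_E})`;
* `hasse_of_forall`: level form, with local triviality at every `(q, σ)`.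
-/
import Fermat.Agent.S55.GL.BrauerDictGlobal
import Fermat.Agent.S55.GL.SecondIneqFinal
import Fermat.Agent.S55.GL.UnitLift

set_option autoImplicit false
set_option linter.style.haveILetI false
set_option linter.unusedSectionVars false

open CategoryTheory IntermediateField groupCohomology

namespace Fermat.Agent.S55.GL.HasseQS

open Fermat.Agent.S55.Level Fermat.Agent.S55.GaloisLevel Fermat.Agent.S55.GL.Places
  Fermat.Agent.S55.GL.BrauerLocal Fermat.Agent.S55.LocalDict Fermat.Agent.S55.GL.LocalFieldAt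
  Fermat.Agent.S55.GL.CoindFun Fermat.Agent.S55.GL.Ideles Fermat.Agent.S55.GL.IdeleSemiLocal
  Fermat.Agent.S55.SmoothPart Fermat.Agent.S55.CFAbs Fermat.Agent.S55.LevelLayer
  Fermat.Agent.S55.GL.BrauerDict

local notation "Qbar" => AlgebraicClosure ℚ
local notation "Γ" => (AlgebraicClosure ℚ ≃ₐ[ℚ] AlgebraicClosure ℚ)

/-- primes as `Fact`s -/
local instance factPrime_hq (q : Nat.Primes) : Fact (q : ℕ).Prime := ⟨q.2⟩

local instance isGaloisQbar_hq : IsGalois ℚ Qbar := Fermat.Agent.S55.Level.isGalois_Qbar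

/-! ### The global dictionary is bijective -/

section Global

variable (K E : IntermediateField ℚ Qbar) [Normal ℚ E] (𝒰 : LevelStructure Γ)
  (hE : E.fixingSubgroup ∈ 𝒰.sets)

theorem rhoE_injective : Function.Injective (rhoE K E) := by
  rw [injective_iff_map_eq_one]
  intro x hx
  induction x using QuotientGroup.induction_on with | H g =>
  rw [rhoE_mk] at hx
  refine (QuotientGroup.eq_one_iff g).2 ((mem_Uglob K E).2 ?_)
  rw [← resE_eq_one_iff, ← coe_resKE, hx]
  rfl

theorem rhoE_surjective (hKE : K ≤ E) : Function.Surjective (rhoE K E) := by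
  intro h
  obtain ⟨g, hg⟩ := AlgEquiv.restrictNormalHom_surjective (F := ℚ) (K₁ := E) Qbar
    ((h : ↥(galE K E)) : E ≃ₐ[ℚ] E)
  have hgK : g ∈ K.fixingSubgroup := by
    rw [IntermediateField.mem_fixingSubgroup_iff]
    intro x hx
    have h1 := coe_resE E g ⟨x, hKE hx⟩
    have h2 : resE E g = ((h : ↥(galE K E)) : E ≃ₐ[ℚ] E) := hg
    rw [h2, h.2 ⟨x, hKE hx⟩ hx] at h1
    exact h1.symm
  refine ⟨((⟨g, hgK⟩ : ↥K.fixingSubgroup) : ↥K.fixingSubgroup ⧸ Uglob K E), ?_⟩
  rw [rhoE_mk]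
  apply Subtype.ext
  rw [coe_resKE]
  exact hg

theorem rhoE_bijective (hKE : K ≤ E) : Function.Bijective (rhoE K E) :=
  ⟨rhoE_injective K E, rhoE_surjective K E hKE⟩

theorem kap_injective : Function.Injective (kap K E 𝒰 hE).hom := by
  intro x y hxy
  have h1 : kapLin E 𝒰 hE x = kapLin E 𝒰 hE y := by
    rw [← kap_apply_coe K E 𝒰 hE x, ← kap_apply_coe K E 𝒰 hE y]
    exact congrArg Subtype.val hxy
  have h2 : kapAdd₀ E x = kapAdd₀ E y := by
    rw [← smoothPartι_kapLin E 𝒰 hE x, ← smoothPartι_kapLin E 𝒰 hE y, h1]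
  apply Additive.toMul.injective
  apply Units.ext
  apply Subtype.ext
  have h3 := congrArg (fun b : Additive Qbarˣ => ((Additive.toMul b : Qbarˣ) : Qbar)) h2
  exact h3

theorem kap_surjective (hKE : K ≤ E) : Function.Surjective (kap K E 𝒰 hE).hom := by
  rintro ⟨m, hm⟩
  -- the underlying algebraic number lies in `E`
  have hfix : ∀ g ∈ E.fixingSubgroup,
      g ((Additive.toMul ((smoothPartι 𝒰 (unitsRep ℚ Qbar)).hom m : Additive Qbarˣ) : Qbarˣ) :
        Qbar) =
      ((Additive.toMul ((smoothPartι 𝒰 (unitsRep ℚ Qbar)).hom m : Additive Qbarˣ) : Qbarˣ) :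
        Qbar) := by
    intro g hg
    have hgK : g ∈ K.fixingSubgroup := IntermediateField.fixingSubgroup_antitone hKE hg
    have h1 := (Representation.mem_invariants _ _).1 hm
      ⟨⟨g, hgK⟩, (mem_Uglob K E).2 hg⟩
    have h2 := congrArg (fun a : (Asm 𝒰).V =>
      ((Additive.toMul ((smoothPartι 𝒰 (unitsRep ℚ Qbar)).hom a : Additive Qbarˣ) : Qbarˣ) :
        Qbar)) h1
    exact h2
  have hmem : ((Additive.toMul ((smoothPartι 𝒰 (unitsRep ℚ Qbar)).hom m : Additive Qbarˣ) :
      Qbarˣ) : Qbar) ∈ E := by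
    rw [← InfiniteGalois.fixedField_fixingSubgroup E, IntermediateField.mem_fixedField_iff]
    exact hfix
  have hmem' : (((Additive.toMul ((smoothPartι 𝒰 (unitsRep ℚ Qbar)).hom m : Additive Qbarˣ) :
      Qbarˣ)⁻¹ : Qbarˣ) : Qbar) ∈ E := by
    rw [Units.val_inv_eq_inv_val]
    exact inv_mem hmem
  refine ⟨Additive.ofMul ⟨⟨_, hmem⟩, ⟨_, hmem'⟩, ?_, ?_⟩, ?_⟩
  · apply Subtype.ext
    simp
  · apply Subtype.ext
    simp
  · apply Subtype.ext
    apply Subtype.ext
    apply Additive.toMul.injective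
    apply Units.ext
    rfl

theorem kap_bijective (hKE : K ≤ E) : Function.Bijective (kap K E 𝒰 hE).hom :=
  ⟨kap_injective K E 𝒰 hE, kap_surjective K E 𝒰 hE hKE⟩

theorem T1_bijective (hKE : K ≤ E) (n : ℕ) : Function.Bijective (T1 K E 𝒰 hE n).hom :=
  map_bijective_of_bijective _ _ (rhoE_bijective K E hKE) (kap_bijective K E 𝒰 hE hKE) n

end Global

/-! ### The Hasse principle on a layer -/

section Core

variable (K E : IntermediateField ℚ Qbar) [NumberField E] [Normal ℚ E] [IsGalois ℚ E]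
  (𝒰 : LevelStructure Γ) (hE : E.fixingSubgroup ∈ 𝒰.sets) (hKE : K ≤ E)
  {p : ℕ} [hp : Fact p.Prime] (hp2 : p ≠ 2) (hdvd : SecondIneqFinal.HdvdHyp p)
  {ζ : Qbar} (hζ : IsPrimitiveRoot ζ p) (hζK : ζ ∈ K)

include hE hKE hp2 hdvd hζ hζK in
/-- **The Hasse principle on a layer**: a `p`-primary class of the layer
`H²(G_K ⧸ (G_E ∩ G_K), (A)^{G_E})`, `A = smoothPart 𝒰 ℚ̄ˣ`, whose localisations (at the local
layers) vanish at all `(q, σ)`, vanishes (`μ_p ⊆ K ≤ E`, `p` odd). -/
theorem layer_hasse (β : groupCohomology (globLayer K E 𝒰) 2) (hβ : ∃ j : ℕ, p ^ j • β = 0)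
    (hloc : ∀ (q : Nat.Primes) (σ : Γ),
      (layerBC (U := Uglob K E) (V := Uloc q K E σ) (decompHom (q : ℕ) K σ)
        (coeffAsm q K σ 𝒰) (le_refl _) 2).hom β = 0) : β = 0 := by
  obtain ⟨x, rfl⟩ := (T1_bijective K E 𝒰 hE hKE 2).2 β
  have hx : x ∈ CF1.pPrimary p (groupCohomology (unitsH K E) 2) := by
    obtain ⟨j, hj⟩ := hβ
    refine ⟨j, (T1_bijective K E 𝒰 hE hKE 2).1 ?_⟩
    rw [map_nsmul, hj, map_zero]
  have hζE : IsPrimitiveRoot (⟨ζ, hKE hζK⟩ : E) p :=
    IsPrimitiveRoot.of_map_of_injective (f := E.val) (by exact hζ) E.val.injective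
  have hx0 : x = 0 := by
    refine SecondIneqFinal.hasse_units_pPrimary_of_hdvd E hp2 hdvd (galE K E) hζE
      ⟨hKE hζK, fun s hs => hs ⟨ζ, hKE hζK⟩ hζK⟩ (galE K E) le_rfl x hx ?_
    intro T q g
    obtain ⟨σ, rfl⟩ := AlgEquiv.restrictNormalHom_surjective (F := ℚ) (K₁ := E) Qbar g
    have h3 := T3_apply q.1 K E σ T q.2 𝒰 hE 2 x
    rw [hloc q.1 σ] at h3
    exact (T2_bijective q.1 K E σ T q.2 hKE 2).1 (h3.symm.trans (map_zero _).symm)
  rw [hx0, map_zero]

end Core

/-! ### The Hasse principle over `G_{L,S}` -/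

section Level

open Fermat.Agent.S55.GL.QSMod Fermat.Agent.S55.GL.KummerUnram Fermat.Agent.S55.LevelGlobal
  Fermat.Agent.S55.GL.IdealInst Fermat.Agent.S55.GL.BrauerInst Fermat.Agent.S55.CF

variable {S : Finset Nat.Primes} {L : IntermediateField ℚ Qbar} {p : ℕ} [hp : Fact p.Prime]

/-- the local layer subgroup at `(q, σ)` is a member of the Krull level structure -/
theorem Uloc_mem (b : GoodField S L) (q : Nat.Primes) (σ : Γ) :
    Uloc q L b.F σ ∈ (krullLevel (localFieldAt (q : ℕ) L σ) (PadicAlgCl (q : ℕ))).sets :=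
  haveI : Normal ℚ b.F := b.normal
  ⟨normal_Uloc q L b.F σ, isKrullOpen_comap_decompHom (q : ℕ) L σ
    (isKrullOpen_of_mem_globalLevel S b.fixingSubgroup_mem)⟩

/-- **(HS), level form**: a `p`-primary class of `H²(G_{L,S}, ℚ_S^×)` which is locally trivial at
every `(q, σ)` vanishes (`L` a number field unramified outside `S` containing `μ_p`, `p` odd). -/
theorem hasse_of_forall (hp2 : p ≠ 2) (hdvd : SecondIneqFinal.HdvdHyp p)
    (hL : L.IsUnramifiedOutside S) {ζ : Qbar} (hζ : IsPrimitiveRoot ζ p) (hζL : ζ ∈ L)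
    (y : levelCohomology (levelLS S L) (resL L (QSUnits S)) 2) (hy : IsPPrim p y)
    (hall : ∀ (q : Nat.Primes) (σ : Γ),
      (resAt (q : ℕ) L σ (QSUnitsι S) (globalLevel S) (open_globalLevel S) 2).hom y = 0) :
    y = 0 := by
  obtain ⟨a, ya, rfl⟩ := IdealInst.exists_levelInf_eq hL (MS S L) y
  obtain ⟨j, hj⟩ := hy
  have h0 : (levelInf (levelLS S L) (MS S L) a.U_mem 2).hom (p ^ j • ya) = 0 := by
    rw [map_nsmul]
    exact hj
  obtain ⟨V₀, hV₀, hV₀U, hV⟩ :=
    exists_infLayer_eq_zero (levelLS S L) (MS S L) a.U_mem (p ^ j • ya) h0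
  obtain ⟨b, hb⟩ := GoodField.cofinal hL V₀ hV₀
  have hba : b.U ≤ a.U := hb.trans hV₀U
  have hyb : p ^ j • (infLayer (MS S L) hba 2).hom ya = 0 := by
    rw [← map_nsmul]
    exact hV b.U b.U_mem hb hba
  rw [← infLayer_levelInf_apply (levelLS S L) (MS S L) hba a.U_mem b.U_mem 2 ya]
  haveI : NumberField b.F := QS.numberField_of_finiteDimensional b.F b.unram.1
  haveI : Normal ℚ b.F := b.normal
  haveI : IsGalois ℚ b.F := ⟨⟩
  have key : (infLayer (MS S L) hba 2).hom ya = 0 :=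
    layer_hasse L b.F (globalLevel S) b.fixingSubgroup_mem b.le hp2 hdvd hζ hζL
    ((infLayer (MS S L) hba 2).hom ya) ⟨j, hyb⟩ (fun q σ => by
      have h1 := levelCohomologyMap_levelInf_apply (decompHom (q : ℕ) L σ)
        (coeffLoc (q : ℕ) L σ (QSUnitsι S)) (le_refl (b.U.comap (decompHom (q : ℕ) L σ)))
        (refines_decompHom (q : ℕ) L σ (globalLevel S) (open_globalLevel S))
        b.U_mem (Uloc_mem b q σ) 2 ((infLayer (MS S L) hba 2).hom ya)
      have h2 := hall q σ
      rw [← infLayer_levelInf_apply (levelLS S L) (MS S L) hba a.U_mem b.U_mem 2 ya] at h2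
      have h3 := h1.symm.trans h2
      exact UnitLift.levelInf_unitsRep_injective _ _ _ (Uloc_mem b q σ)
        (h3.trans (map_zero _).symm))
  rw [key, map_zero]

variable (S L) in
/-- **(CONJ)**: local triviality at the chosen representatives `v.rep` of all finite places of `L`
implies local triviality at every `(q, σ)` (helper22's
`ResAtConj.forall_resAt_eq_zero_of_forall_rep`). -/
def ConjHyp : Prop :=
  ∀ y : levelCohomology (levelLS S L) (resL L (QSUnits S)) 2,
    (∀ v : FinPlace L, resQ S L v y = 0) → ∀ (q : Nat.Primes) (σ : Γ),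
      (resAt (q : ℕ) L σ (QSUnitsι S) (globalLevel S) (open_globalLevel S) 2).hom y = 0

/-- **(HS) in the exact shape of the field `BrauerInput.hasse`**, from `HdvdHyp p` (finite-level
second inequality input) and `ConjHyp S L` (independence of the representative of a place). -/
theorem hasse_brauerInput_of_conj (hp2 : p ≠ 2) (hdvd : SecondIneqFinal.HdvdHyp p)
    (hconj : ConjHyp S L) (hL : L.IsUnramifiedOutside S) {ζ : Qbar} (hζ : IsPrimitiveRoot ζ p)
    (hζL : ζ ∈ L) :
    ∀ y : levelCohomology (levelLS S L) (resL L (QSUnits S)) 2, IsPPrim p y →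
      (∀ v, resQ S L v y = 0) → y = 0 :=
  fun y hy hloc => hasse_of_forall hp2 hdvd hL hζ hζL y hy (hconj y hloc)

end Level

end Fermat.Agent.S55.GL.HasseQS
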