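import Fermat.Agent.S55.GL.HerbrandOrbits

set_option autoImplicit false
set_option linter.unusedSectionVars false

/-!
# S55 / GLO6: semi-local lemma for an abstract family of projectors

`M` any abelian group with a complete family of orthogonal idempotents `P w`, `w ∈ W` (finite),
permuted by `σ`: `σ * P w = P (s w) * σ`.  The orbits of `s` are indexed by `p : W → V`, with
representatives `w₀ v`, lengths `g v` (`g v * k v = n`, `σ^n = 1`), and the component
`range (P (w₀ v))` is identified with an honest group `A v` on which `σ^(g v)` acts through `τ v`.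
Then `h⁰(M) = ∏_v h⁰(A v)`, `h¹(M) = ∏_v h¹(A v)` (cyclic Shapiro on every orbit).
This is `HerbrandOrbits.hIdx_pi_orbits` without the assumption that `M` is literally a `Pi` type.
-/

namespace Fermat.Agent.S55.GL.HerbrandOrbits

open Fermat.Agent.S14.Herbrand Function Finset

section ProjFamily

variable {M : Type*} [AddCommGroup M] {W V : Type*} [Fintype W] [DecidableEq W] [Fintype V]
  [DecidableEq V]

lemma proj_mul_self (P : W → AddMonoid.End M) (hPsum : ∑ w, P w = 1)
    (hPorth : ∀ w w', w ≠ w' → P w * P w' = 0) (w : W) : P w * P w = P w := by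
  have h1 : P w * ∑ w', P w' = P w := by rw [hPsum, mul_one]
  rw [Finset.mul_sum, Finset.sum_eq_single w (fun w' _ hne => hPorth w w' hne.symm)
    (fun h => absurd (Finset.mem_univ w) h)] at h1
  exact h1

/-- The idempotent of the fibre of `p` over `v`. -/
def fibreSum (P : W → AddMonoid.End M) (p : W → V) (v : V) : AddMonoid.End M :=
  ∑ w ∈ univ.filter (fun w => p w = v), P w

lemma sum_fibreSum (P : W → AddMonoid.End M) (hPsum : ∑ w, P w = 1) (p : W → V) :
    ∑ v, fibreSum P p v = 1 := by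
  unfold fibreSum
  rw [Finset.sum_fiberwise, hPsum]

lemma fibreSum_mul_of_ne (P : W → AddMonoid.End M)
    (hPorth : ∀ w w', w ≠ w' → P w * P w' = 0) (p : W → V) {v v' : V} (hne : v ≠ v') :
    fibreSum P p v * fibreSum P p v' = 0 := by
  unfold fibreSum
  rw [Finset.sum_mul]
  refine Finset.sum_eq_zero fun w hw => ?_
  rw [Finset.mul_sum]
  refine Finset.sum_eq_zero fun w' hw' => ?_
  refine hPorth w w' ?_
  rintro rfl
  exact hne ((Finset.mem_filter.mp hw).2.symm.trans (Finset.mem_filter.mp hw').2)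

lemma fibreSum_mul_self (P : W → AddMonoid.End M) (hPsum : ∑ w, P w = 1)
    (hPorth : ∀ w w', w ≠ w' → P w * P w' = 0) (p : W → V) (v : V) :
    fibreSum P p v * fibreSum P p v = fibreSum P p v :=
  proj_mul_self (fun v => fibreSum P p v) (sum_fibreSum P hPsum p)
    (fun _ _ h => fibreSum_mul_of_ne P hPorth p h) v

lemma proj_mul_fibreSum (P : W → AddMonoid.End M) (hPsum : ∑ w, P w = 1)
    (hPorth : ∀ w w', w ≠ w' → P w * P w' = 0) (p : W → V) {w : W} {v : V} (hw : p w = v) :
    P w * fibreSum P p v = P w := by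
  unfold fibreSum
  rw [Finset.mul_sum, Finset.sum_eq_single w
    (fun w' _ hne => hPorth w w' hne.symm)
    (fun h => absurd (Finset.mem_filter.mpr ⟨Finset.mem_univ w, hw⟩) h),
    proj_mul_self P hPsum hPorth]

lemma fibreSum_mul_proj (P : W → AddMonoid.End M) (hPsum : ∑ w, P w = 1)
    (hPorth : ∀ w w', w ≠ w' → P w * P w' = 0) (p : W → V) {w : W} {v : V} (hw : p w = v) :
    fibreSum P p v * P w = P w := by
  unfold fibreSum
  rw [Finset.sum_mul, Finset.sum_eq_single w
    (fun w' _ hne => hPorth w' w hne)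
    (fun h => absurd (Finset.mem_filter.mpr ⟨Finset.mem_univ w, hw⟩) h),
    proj_mul_self P hPsum hPorth]

/-- **Semi-local lemma for an abstract projector family** (several orbits). -/
theorem hIdx_orbits (P : W → AddMonoid.End M) (hPsum : ∑ w, P w = 1)
    (hPorth : ∀ w w', w ≠ w' → P w * P w' = 0)
    (σ : AddMonoid.End M) (s : Equiv.Perm W) (p : W → V) (w₀ : V → W)
    (g k : V → ℕ) (n : ℕ) (hgk : ∀ v, g v * k v = n) (hg : ∀ v, 0 < g v) (hk : ∀ v, 0 < k v)
    (hσ : σ ^ n = 1) (hσs : ∀ w, σ * P w = P (s w) * σ)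
    (hp : ∀ v i, p ((s ^ i) (w₀ v)) = v)
    (hcyc : ∀ w, ∃ i < g (p w), (s ^ i) (w₀ (p w)) = w)
    (hinj : ∀ v, ∀ i < g v, ∀ j < g v, (s ^ i) (w₀ v) = (s ^ j) (w₀ v) → i = j)
    (hsg : ∀ v, (s ^ g v) (w₀ v) = w₀ v)
    {A : V → Type*} [∀ v, AddCommGroup (A v)] (ι : ∀ v, A v →+ M) (hι : ∀ v, Injective (ι v))
    (hιr : ∀ v, (ι v).range = compRange (P (w₀ v)))
    (τ : ∀ v, AddMonoid.End (A v))
    (hτ : ∀ v (a : A v), (σ ^ g v) (ι v a) = ι v (τ v a)) :
    hIdx (dlt σ) (nrm σ n) = ∏ v, hIdx (dlt (τ v)) (nrm (τ v) (k v)) ∧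
      hIdx (nrm σ n) (dlt σ) = ∏ v, hIdx (nrm (τ v) (k v)) (dlt (τ v)) := by
  have hps : ∀ w, p (s w) = p w := by
    intro w
    obtain ⟨i, -, hi⟩ := hcyc w
    have h1 : s w = (s ^ (i + 1)) (w₀ (p w)) := by
      rw [pow_succ', Equiv.Perm.mul_apply, hi]
    rw [h1, hp]
  have hpow : ∀ (i : ℕ) (w : W), σ ^ i * P w = P ((s ^ i) w) * σ ^ i := by
    intro i
    induction i with
    | zero => intro w; simp
    | succ i ih =>
      intro w
      rw [pow_succ', mul_assoc, ih, ← mul_assoc, hσs, mul_assoc, pow_succ' s]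
      rfl
  have hσe : ∀ v, σ * fibreSum P p v = fibreSum P p v * σ := by
    intro v
    unfold fibreSum
    rw [Finset.mul_sum, Finset.sum_mul, Finset.sum_congr rfl (fun w _ => hσs w),
      ← Finset.sum_mul, ← Finset.sum_mul]
    congr 1
    refine Finset.sum_equiv s (fun w => ?_) (fun _ _ => rfl)
    rw [Finset.mem_filter, Finset.mem_filter, hps]
    simp
  have hσie : ∀ (i : ℕ) v, σ ^ i * fibreSum P p v = fibreSum P p v * σ ^ i := fun i v =>
    ((Commute.pow_left (show Commute σ (fibreSum P p v) from hσe v) i)).eq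
  have hde : ∀ v, (σ - 1 : AddMonoid.End M) * fibreSum P p v = fibreSum P p v * (σ - 1) := by
    intro v
    rw [sub_mul, mul_sub, hσe, one_mul, mul_one]
  have hne : ∀ v, (∑ i ∈ range n, σ ^ i : AddMonoid.End M) * fibreSum P p v =
      fibreSum P p v * ∑ i ∈ range n, σ ^ i := by
    intro v
    rw [Finset.sum_mul, Finset.mul_sum]
    exact Finset.sum_congr rfl fun i _ => hσie i v
  have hD := hIdx_eq_prod_hSub (fun v => fibreSum P p v)
    (sum_fibreSum P hPsum p) (fun v v' hvv' => fibreSum_mul_of_ne P hPorth p hvv')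
    (σ - 1) (∑ i ∈ range n, σ ^ i) hde hne
  have hD' := hIdx_eq_prod_hSub (fun v => fibreSum P p v)
    (sum_fibreSum P hPsum p) (fun v v' hvv' => fibreSum_mul_of_ne P hPorth p hvv')
    (∑ i ∈ range n, σ ^ i) (σ - 1) hne hde
  have hv : ∀ v, hSub (dlt σ) (nrm σ n) (compRange (fibreSum P p v)) =
        hIdx (dlt (τ v)) (nrm (τ v) (k v)) ∧
      hSub (nrm σ n) (dlt σ) (compRange (fibreSum P p v)) =
        hIdx (nrm (τ v) (k v)) (dlt (τ v)) := by
    intro v
    have hw₀ : p (w₀ v) = v := by simpa using hp v 0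
    have hσ' : σ ^ (g v * k v) = 1 := by rw [hgk v]; exact hσ
    have hcomplete : ∑ i ∈ range (g v), σ ^ i * P (w₀ v) * σ ^ (g v * k v - i) =
        fibreSum P p v := by
      have e1 : ∀ i ∈ range (g v), σ ^ i * P (w₀ v) * σ ^ (g v * k v - i) =
          P ((s ^ i) (w₀ v)) := by
        intro i hi
        have hi' : i ≤ g v * k v :=
          (Finset.mem_range.mp hi).le.trans (Nat.le_mul_of_pos_right (g v) (hk v))
        rw [hpow, mul_assoc, ← pow_add, Nat.add_sub_cancel' hi', hσ', mul_one]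
      rw [Finset.sum_congr rfl e1]
      unfold fibreSum
      have himg : (range (g v)).image (fun i => (s ^ i) (w₀ v)) =
          univ.filter (fun w => p w = v) := by
        ext w
        rw [Finset.mem_image, Finset.mem_filter]
        constructor
        · rintro ⟨i, -, rfl⟩
          exact ⟨Finset.mem_univ _, hp v i⟩
        · rintro ⟨-, hw⟩
          obtain ⟨i, hi, hiw⟩ := hcyc w
          rw [hw] at hi hiw
          exact ⟨i, Finset.mem_range.mpr hi, hiw⟩
      rw [← himg, Finset.sum_image]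
      intro i hi j hj hij
      exact hinj v i (Finset.mem_range.mp hi) j (Finset.mem_range.mp hj) hij
    have horth : ∀ j, 0 < j → j < g v → P (w₀ v) * σ ^ j * P (w₀ v) = 0 := by
      intro j hj0 hj
      have hne' : w₀ v ≠ (s ^ j) (w₀ v) := by
        intro heq
        have := hinj v 0 (hg v) j hj (by rw [pow_zero]; exact heq)
        omega
      rw [mul_assoc, hpow, ← mul_assoc, hPorth _ _ hne', zero_mul]
    have hcomm : P (w₀ v) * σ ^ g v = σ ^ g v * P (w₀ v) := by
      have := hpow (g v) (w₀ v)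
      rw [hsg v] at this
      exact this.symm
    have key := hSub_induced σ (P (w₀ v)) (fibreSum P p v) (hg v) (hk v) hσ'
      (fibreSum_mul_self P hPsum hPorth p v) (hσe v) (proj_mul_fibreSum P hPsum hPorth p hw₀)
      (fibreSum_mul_proj P hPsum hPorth p hw₀)
      hcomplete horth hcomm (ι v) (hι v) (hιr v) (τ v) (hτ v)
    rw [hgk v] at key
    exact key
  refine ⟨?_, ?_⟩
  · exact hD.trans (Finset.prod_congr rfl fun v _ => (hv v).1)
  · exact hD'.trans (Finset.prod_congr rfl fun v _ => (hv v).2)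

end ProjFamily

end Fermat.Agent.S55.GL.HerbrandOrbits
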