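/-
S55 / GLO7-GLO8 glue (helper29): the Kummer generator of a cyclic layer of prime degree.

* `exists_eigen` : Hilbert 90 for a character `χ : H →* Lˣ` of a finite group of automorphisms with
  `H`-invariant values (Dedekind independence): `∃ α ≠ 0, ∀ g ∈ H, g α = χ g * α`.
* `exists_char` : for `N ◁ H` of prime index `p` and an `H`-invariant primitive `p`-th root of unity,
  a character `χ : H →* Lˣ` with kernel `N` and values in `μ_p`.
* `exists_kummer_elt` : `L/ℚ` finite normal inside `ℚ̄`, `H ≤ Gal(L/ℚ)`, `N ◁ H` of index `p`,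
  `ζ_p ∈ L^H`: `L^N = L^H(α)` with `α ^ p ∈ L^H` (helper3's `fixedLift` language).
* `exists_kummer_generator` : the same with helper21's chosen root: `L^N = K ⊔ ℚ⟮pRoot p a⟯`,
  `a ∈ Kˣ`, `K = L^H` (shape of `FirstIneqKummer.NormIndexDvd` / `second_inequality_model`).
-/
import Mathlib
import Fermat.Agent.S55.GL.KummerLayer
import Fermat.Agent.S55.GL.SecondIneq.ModelPlaces

set_option autoImplicit false
set_option linter.unusedSectionVars false

namespace Fermat.Agent.S55.GL.KummerGenerator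

section Abstract

variable {F L : Type*} [Field F] [Field L] [Algebra F L]

/-- **Hilbert 90 for a character of a finite group of automorphisms**: if `χ : H →* Lˣ` has
`H`-invariant values, there is `α ≠ 0` with `g α = χ g * α` for all `g ∈ H`. -/
theorem exists_eigen (H : Subgroup (L ≃ₐ[F] L)) [Finite H] (χ : H →* Lˣ)
    (hχ : ∀ g g' : H, (g : L ≃ₐ[F] L) ((χ g' : Lˣ) : L) = ((χ g' : Lˣ) : L)) :
    ∃ α : L, α ≠ 0 ∧ ∀ g : H, (g : L ≃ₐ[F] L) α = ((χ g : Lˣ) : L) * α := by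
  classical
  have : Fintype H := Fintype.ofFinite H
  have hind : LinearIndependent L (fun g : H => (((g : L ≃ₐ[F] L) : L →* L) : L → L)) := by
    have h0 := linearIndependent_monoidHom L L
    refine h0.comp (fun g : H => ((g : L ≃ₐ[F] L) : L →* L)) ?_
    intro g g' hgg'
    apply Subtype.ext
    ext x
    exact DFunLike.congr_fun hgg' x
  obtain ⟨x, hx⟩ : ∃ x : L, ∑ g : H, (((χ g)⁻¹ : Lˣ) : L) * (g : L ≃ₐ[F] L) x ≠ 0 := by
    by_contra hall
    push Not at hall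
    have h1 := Fintype.linearIndependent_iff.mp hind (fun g => (((χ g)⁻¹ : Lˣ) : L))
      (by
        funext x
        simp only [Finset.sum_apply, Pi.smul_apply, smul_eq_mul, Pi.zero_apply]
        exact hall x) 1
    exact Units.ne_zero _ h1
  refine ⟨_, hx, fun g' => ?_⟩
  rw [map_sum, Finset.mul_sum]
  rw [← Equiv.sum_comp (Equiv.mulLeft g')
    (fun g => ((χ g' : Lˣ) : L) * ((((χ g)⁻¹ : Lˣ) : L) * (g : L ≃ₐ[F] L) x))]
  refine Finset.sum_congr rfl fun g _ => ?_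
  rw [map_mul]
  have h2 : (g' : L ≃ₐ[F] L) (((χ g)⁻¹ : Lˣ) : L) = (((χ g)⁻¹ : Lˣ) : L) := by
    rw [← map_inv]
    exact hχ g' g⁻¹
  rw [h2, Equiv.coe_mulLeft, map_mul, mul_inv_rev]
  have h3 : ((χ g' : Lˣ) : L) * ((((χ g)⁻¹ * (χ g')⁻¹ : Lˣ) : Lˣ) : L) =
      (((χ g)⁻¹ : Lˣ) : L) := by
    rw [Units.val_mul, mul_comm (((χ g)⁻¹ : Lˣ) : L), ← mul_assoc, Units.mul_inv, one_mul]
  rw [← mul_assoc, h3]
  rfl

/-- A character `χ : H →* Lˣ` with kernel `N` (of prime index `p`), with values in the powers of an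
`H`-invariant primitive `p`-th root of unity. -/
theorem exists_char (H : Subgroup (L ≃ₐ[F] L)) (N : Subgroup H) [N.Normal] {p : ℕ}
    [hp : Fact p.Prime] (hidx : N.index = p) {ζ : L} (hζ : IsPrimitiveRoot ζ p)
    (hζH : ∀ g : H, (g : L ≃ₐ[F] L) ζ = ζ) :
    ∃ χ : H →* Lˣ, (∀ g : H, χ g = 1 ↔ g ∈ N) ∧ (∀ g : H, ((χ g : Lˣ) : L) ^ p = 1) ∧
      ∀ g g' : H, (g : L ≃ₐ[F] L) ((χ g' : Lˣ) : L) = ((χ g' : Lˣ) : L) := by
  obtain ⟨h, hh⟩ : ∃ h : H, h ∉ N := by
    by_contra hcon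
    have : N = ⊤ := (Subgroup.eq_top_iff' N).2 fun x => by
      by_contra hx
      exact hcon ⟨x, hx⟩
    rw [this, Subgroup.index_top] at hidx
    exact hp.out.one_lt.ne hidx
  have hcard : Nat.card (H ⧸ N) = p := by rw [← Subgroup.index_eq_card, hidx]
  have hne : (QuotientGroup.mk h : H ⧸ N) ≠ 1 := fun h1 =>
    hh ((QuotientGroup.eq_one_iff h).1 h1)
  have hfin : Finite (H ⧸ N) := Nat.finite_of_card_ne_zero (by rw [hcard]; exact hp.out.ne_zero)
  have hord : orderOf (QuotientGroup.mk h : H ⧸ N) = p := by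
    have hdvd : orderOf (QuotientGroup.mk h : H ⧸ N) ∣ p := hcard ▸ orderOf_dvd_natCard _
    rcases (Nat.dvd_prime hp.out).1 hdvd with h1 | h1
    · exact absurd (orderOf_eq_one_iff.1 h1) hne
    · exact h1
  have hgen : ∀ x : H ⧸ N, x ∈ Subgroup.zpowers (QuotientGroup.mk h : H ⧸ N) := by
    intro x
    rw [zpowers_eq_top_of_prime_card hcard hne]
    exact Subgroup.mem_top x
  have hζ0 : ζ ≠ 0 := hζ.ne_zero hp.out.ne_zero
  have hζu : IsPrimitiveRoot (Units.mk0 ζ hζ0) p := by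
    rw [← IsPrimitiveRoot.coe_units_iff, Units.val_mk0]
    exact hζ
  have hordζ : orderOf (Units.mk0 ζ hζ0) = p := hζu.eq_orderOf.symm
  have hval : ∀ g : H, ∃ k : ℤ, (QuotientGroup.mk g : H ⧸ N) = (QuotientGroup.mk h : H ⧸ N) ^ k := by
    intro g
    obtain ⟨k, hk⟩ := Subgroup.mem_zpowers_iff.mp (hgen (QuotientGroup.mk g))
    exact ⟨k, hk.symm⟩
  have hχ : ∀ (g : H) (k : ℤ), (QuotientGroup.mk g : H ⧸ N) = (QuotientGroup.mk h : H ⧸ N) ^ k →
      (monoidHomOfForallMemZpowers hgen (g' := Units.mk0 ζ hζ0) (by rw [hordζ, hord])).comp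
        (QuotientGroup.mk' N) g = (Units.mk0 ζ hζ0) ^ k := by
    intro g k hk
    rw [MonoidHom.comp_apply, QuotientGroup.mk'_apply, hk, map_zpow,
      monoidHomOfForallMemZpowers_apply_gen]
  refine ⟨(monoidHomOfForallMemZpowers hgen (g' := Units.mk0 ζ hζ0) (by rw [hordζ, hord])).comp
    (QuotientGroup.mk' N), fun g => ?_, fun g => ?_, fun g g' => ?_⟩
  · obtain ⟨k, hk⟩ := hval g
    rw [hχ g k hk]
    constructor
    · intro h1
      have h2 : (p : ℤ) ∣ k := by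
        rw [← hordζ]
        exact orderOf_dvd_iff_zpow_eq_one.mpr h1
      rw [← hord] at h2
      have h3 := orderOf_dvd_iff_zpow_eq_one.mp h2
      rw [h3] at hk
      exact (QuotientGroup.eq_one_iff g).1 hk
    · intro hgN
      have h1 : (QuotientGroup.mk g : H ⧸ N) = 1 := (QuotientGroup.eq_one_iff g).2 hgN
      rw [h1] at hk
      have h2 : (p : ℤ) ∣ k := by
        rw [← hord]
        exact orderOf_dvd_iff_zpow_eq_one.mpr hk.symm
      rw [← hordζ] at h2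
      exact orderOf_dvd_iff_zpow_eq_one.mp h2
  · obtain ⟨k, hk⟩ := hval g
    rw [hχ g k hk, ← Units.val_pow_eq_pow_val, ← zpow_natCast, ← zpow_mul, mul_comm, zpow_mul,
      zpow_natCast, ← hordζ, pow_orderOf_eq_one, one_zpow, Units.val_one]
  · obtain ⟨k, hk⟩ := hval g'
    rw [hχ g' k hk, Units.val_zpow_eq_zpow_val, Units.val_mk0, map_zpow₀, hζH g]

end Abstract

section Concrete

open IntermediateField Fermat.Agent.S55.GL.IdelePlaces Fermat.Agent.S55.GL.IdeleInvHerbrand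
  Fermat.Agent.S55.GL.KummerLayer Fermat.Agent.S55.GL.SecondIneq

local notation "Qbar" => AlgebraicClosure ℚ

variable (L : IntermediateField ℚ Qbar) [Normal ℚ L] [FiniteDimensional ℚ L]
  (H : Subgroup (L ≃ₐ[ℚ] L)) (N : Subgroup H) [N.Normal] {p : ℕ} [hp : Fact p.Prime]

/-- **Kummer element of a layer**: if `N ◁ H` has prime index `p` and `L^H` contains a primitive
`p`-th root of unity, then `L^N = L^H(α)` with `α ≠ 0`, `α ^ p ∈ L^H`. -/
theorem exists_kummer_elt (hidx : N.index = p) {ζ : L} (hζ : IsPrimitiveRoot ζ p)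
    (hζH : (ζ : Qbar) ∈ fixedLift L H) :
    ∃ α : L, α ≠ 0 ∧ ((α ^ p : L) : Qbar) ∈ fixedLift L H ∧
      fixedLift L (subG H N) = fixedLift L H ⊔ ℚ⟮(α : Qbar)⟯ := by
  obtain ⟨χ, hχ1, hχ2, hχ3⟩ := exists_char H N hidx hζ
    (fun g => (coe_mem_fixedLift_iff ζ).mp hζH g g.2)
  obtain ⟨α, hα0, hα⟩ := exists_eigen H χ hχ3
  have hML : fixedLift L H ⊔ ℚ⟮(α : Qbar)⟯ ≤ L :=
    sup_le (fixedLift_le L H) ((IntermediateField.adjoin_simple_le_iff).mpr α.2)
  refine ⟨α, hα0, ?_, le_antisymm ?_ ?_⟩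
  · rw [coe_mem_fixedLift_iff]
    intro s hs
    rw [map_pow, hα ⟨s, hs⟩, mul_pow, hχ2, one_mul]
  · rintro x ⟨hxL, hx⟩
    rw [← fixedLift_fixer L hML]
    refine ⟨hxL, fun g hg => hx g ?_⟩
    have hgH : g ∈ H := mem_of_forall_fixedLift fun y hy =>
      hg y ((le_sup_left : fixedLift L H ≤ fixedLift L H ⊔ ℚ⟮(α : Qbar)⟯) hy)
    rw [mem_subG_iff]
    refine ⟨hgH, (hχ1 ⟨g, hgH⟩).mp ?_⟩
    have h1 : g α = α := hg α ((le_sup_right : ℚ⟮(α : Qbar)⟯ ≤ fixedLift L H ⊔ ℚ⟮(α : Qbar)⟯)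
      (IntermediateField.mem_adjoin_simple_self ℚ (α : Qbar)))
    have h2 := hα ⟨g, hgH⟩
    rw [h1] at h2
    apply Units.ext
    rw [Units.val_one]
    exact (mul_right_cancel₀ hα0 (h2.symm.trans (one_mul α).symm))
  · refine sup_le ?_ ((IntermediateField.adjoin_simple_le_iff).mpr ?_)
    · rintro x ⟨hxL, hx⟩
      exact ⟨hxL, fun s hs => hx s (mem_subG_iff.mp hs).1⟩
    · rw [coe_mem_fixedLift_iff]
      intro s hs
      obtain ⟨hsH, hsN⟩ := mem_subG_iff.mp hs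
      have h2 := hα ⟨s, hsH⟩
      rw [(hχ1 ⟨s, hsH⟩).mpr hsN, Units.val_one, one_mul] at h2
      exact h2

/-- **Kummer generator of a layer**, in the shape consumed by `FirstIneqKummer.NormIndexDvd` and
helper21's `second_inequality_model`: `L^N = K(pRoot p a)` for some `a ∈ Kˣ`, `K = L^H ∋ ζ_p`. -/
theorem exists_kummer_generator (K : IntermediateField ℚ Qbar) (hK : fixedLift L H = K)
    (hidx : N.index = p) {ζ : K} (hζ : IsPrimitiveRoot ζ p) :
    ∃ a : Kˣ, fixedLift L (subG H N) = K ⊔ ℚ⟮pRoot p (((a : Kˣ) : K) : Qbar)⟯ := by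
  subst hK
  have hζQ : IsPrimitiveRoot ((ζ : fixedLift L H) : Qbar) p :=
    hζ.map_of_injective (f := (fixedLift L H).val) (fixedLift L H).val.injective
  have hζL : IsPrimitiveRoot (⟨(ζ : Qbar), fixedLift_le L H ζ.2⟩ : L) p :=
    IsPrimitiveRoot.of_map_of_injective (f := L.val) (by exact hζQ) L.val.injective
  obtain ⟨α, hα0, hαK, hfix⟩ := exists_kummer_elt L H N hidx hζL ζ.2
  have hα0' : (α : Qbar) ≠ 0 := fun h0 => hα0 (Subtype.ext h0)
  have ha0 : (⟨((α ^ p : L) : Qbar), hαK⟩ : fixedLift L H) ≠ 0 := by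
    intro h0
    have h1 : ((α ^ p : L) : Qbar) = 0 := congrArg Subtype.val h0
    exact pow_ne_zero p hα0' h1
  refine ⟨Units.mk0 ⟨((α ^ p : L) : Qbar), hαK⟩ ha0, ?_⟩
  rw [hfix, Units.val_mk0]
  have hβp : pRoot p ((α ^ p : L) : Qbar) ^ p = (α : Qbar) ^ p := pRoot_pow hp.out.pos _
  have h1 : (pRoot p ((α ^ p : L) : Qbar) / (α : Qbar)) ^ p = 1 := by
    rw [div_pow, hβp, div_self (pow_ne_zero p hα0')]
  obtain ⟨i, -, hi⟩ := hζQ.eq_pow_of_pow_eq_one h1
  have hζi : ((ζ : fixedLift L H) : Qbar) ^ i ∈ fixedLift L H := pow_mem ζ.2 i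
  have hζi0 : ((ζ : fixedLift L H) : Qbar) ^ i ≠ 0 :=
    pow_ne_zero i (hζQ.ne_zero hp.out.ne_zero)
  have hβ : pRoot p ((α ^ p : L) : Qbar) = ((ζ : fixedLift L H) : Qbar) ^ i * (α : Qbar) := by
    rw [hi, div_mul_cancel₀ _ hα0']
  apply le_antisymm
  · refine sup_le le_sup_left ((IntermediateField.adjoin_simple_le_iff).mpr ?_)
    have h2 : (α : Qbar) = (((ζ : fixedLift L H) : Qbar) ^ i)⁻¹ * pRoot p ((α ^ p : L) : Qbar) := by
      rw [hβ, ← mul_assoc, inv_mul_cancel₀ hζi0, one_mul]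
    rw [h2]
    exact mul_mem (inv_mem ((le_sup_left : fixedLift L H ≤ _) hζi))
      ((le_sup_right : ℚ⟮pRoot p ((α ^ p : L) : Qbar)⟯ ≤ _)
        (IntermediateField.mem_adjoin_simple_self ℚ _))
  · refine sup_le le_sup_left ((IntermediateField.adjoin_simple_le_iff).mpr ?_)
    rw [hβ]
    exact mul_mem ((le_sup_left : fixedLift L H ≤ _) hζi)
      ((le_sup_right : ℚ⟮(α : Qbar)⟯ ≤ _) (IntermediateField.mem_adjoin_simple_self ℚ _))

end Concrete

end Fermat.Agent.S55.GL.KummerGenerator
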