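/-
S55 / GLO7 glue (helper29): relative norms of a cyclic layer, from helper3's `CoindInv.relNorm` to
the Herbrand norm `nrm σ n` on `J_{L,T}^N` (the `hN` step of `LayerQuotIndex.layer_hIdx_dvd_index`).

* `subgroupOf_subG`, `bijective_mk_pow` : `1, h, …, h^{n-1}` represent `H / N`;
* `relNorm_eq_prod_pow` : `relNorm H N x = ∏_{i<n} h^i • x` for `x` fixed by `N`;
* `mem_range_nrm_of_relNorm` : an element of `J^N` whose components are relative norms
  `N_{H/N}` of the components of an `N`-invariant idèle is a norm of the cyclic layer;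
* `mem_range_nrm_of_local_norms` : **local norms are norms of the layer** (idèle form of helper3's
  `CoindInvRep.exists_relNorm_eq_of`; the local hypothesis is literally the conclusion of helper21's
  `NormCompare.exists_relNorm_eq_of_mem_normGroup`).
-/
import Mathlib
import Fermat.Agent.S55.GL.LayerQuotIndex
import Fermat.Agent.S55.GL.CoindInv
import Fermat.Agent.S55.GL.CoindInvRep

set_option autoImplicit false
set_option linter.unusedSectionVars false

open CategoryTheory groupCohomology Rep Fermat.Agent.S14.Herbrand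
  Fermat.Agent.S55.GC.HerbrandBridge Fermat.Agent.S55.GC

namespace Fermat.Agent.S55.GL.LayerRelNorm

open Fermat.Agent.S55.GL.CF1 Fermat.Agent.S55.GL.IdeleInvHerbrand Fermat.Agent.S55.GL.CoindInv
  Fermat.Agent.S55.GL.LayerQuotIndex

section Group

variable {G : Type*} [Group G] (H : Subgroup G) (N : Subgroup H) [N.Normal]

/-- `N`, viewed in `G` and pulled back to `H`, is `N`. -/
lemma subgroupOf_subG : (subG H N).subgroupOf H = N := by
  ext x
  rw [Subgroup.mem_subgroupOf, coe_mem_subG_iff]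

/-- The powers `1, h, …, h^{n-1}` represent `H / N` (`N` of index `n`, `h` of order `n` mod `N`). -/
lemma bijective_mk_pow (h : H) {n : ℕ} (hn0 : 0 < n) (hidx : N.index = n)
    (hn : ∀ i : ℕ, h ^ i ∈ N ↔ n ∣ i) :
    Function.Bijective (fun i : Fin n =>
      (QuotientGroup.mk ((⟨(h : G), h.2⟩ : H) ^ (i : ℕ)) : H ⧸ (subG H N).subgroupOf H)) := by
  have hcard : Nat.card (H ⧸ (subG H N).subgroupOf H) = n := by
    rw [subgroupOf_subG, ← Subgroup.index_eq_card, hidx]
  have hfin : Finite (H ⧸ (subG H N).subgroupOf H) := by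
    apply Nat.finite_of_card_ne_zero
    rw [hcard]
    exact hn0.ne'
  have hinj : Function.Injective (fun i : Fin n =>
      (QuotientGroup.mk ((⟨(h : G), h.2⟩ : H) ^ (i : ℕ)) : H ⧸ (subG H N).subgroupOf H)) := by
    intro i j hij
    have h1 : ((⟨(h : G), h.2⟩ : H) ^ (i : ℕ))⁻¹ * (⟨(h : G), h.2⟩ : H) ^ (j : ℕ) ∈
        (subG H N).subgroupOf H := QuotientGroup.eq.mp hij
    rw [subgroupOf_subG] at h1
    have hh : (⟨(h : G), h.2⟩ : H) = h := rfl
    rw [hh] at h1
    apply Fin.ext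
    -- wlog on the order of `i, j`
    rcases le_total (i : ℕ) (j : ℕ) with hle | hle
    · have h2 : h ^ ((j : ℕ) - (i : ℕ)) ∈ N := by
        have : h ^ ((j : ℕ) - (i : ℕ)) = (h ^ (i : ℕ))⁻¹ * h ^ (j : ℕ) := by
          rw [eq_inv_mul_iff_mul_eq, ← pow_add, Nat.add_sub_cancel' hle]
        rw [this]
        exact h1
      have h3 := (hn _).mp h2
      have h4 : (j : ℕ) - (i : ℕ) < n := lt_of_le_of_lt (Nat.sub_le _ _) j.2
      have h5 := Nat.eq_zero_of_dvd_of_lt h3 h4
      omega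
    · have h2 : h ^ ((i : ℕ) - (j : ℕ)) ∈ N := by
        have : h ^ ((i : ℕ) - (j : ℕ)) = ((h ^ (i : ℕ))⁻¹ * h ^ (j : ℕ))⁻¹ := by
          rw [mul_inv_rev, inv_inv, eq_inv_mul_iff_mul_eq, ← pow_add, Nat.add_sub_cancel' hle]
        rw [this]
        exact N.inv_mem h1
      have h3 := (hn _).mp h2
      have h4 : (i : ℕ) - (j : ℕ) < n := lt_of_le_of_lt (Nat.sub_le _ _) i.2
      have h5 := Nat.eq_zero_of_dvd_of_lt h3 h4
      omega
  rw [Nat.bijective_iff_injective_and_card]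
  exact ⟨hinj, by rw [Nat.card_fin, hcard]⟩

variable {X : Type*} [CommGroup X] [MulDistribMulAction G X]

/-- **The relative norm of a cyclic layer** is the product over the powers of a generator. -/
theorem relNorm_eq_prod_pow (h : H) {n : ℕ} (hn0 : 0 < n) (hidx : N.index = n)
    (hn : ∀ i : ℕ, h ^ i ∈ N ↔ n ∣ i) {x : X} (hx : x ∈ fixedSub (X := X) (subG H N)) :
    relNorm H (subG H N) x = ∏ i ∈ Finset.range n, (h : G) ^ i • x :=
  relNorm_eq_prod_range_pow H (subG H N) hx (h : G) h.2 n (bijective_mk_pow H N h hn0 hidx hn)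

end Group

section Idele

open IntermediateField Fermat.Agent.S55.GL.Ideles Fermat.Agent.S55.GL.LocalFieldAt
  Fermat.Agent.S55.GL.CoindFun Fermat.Agent.S55.LocalDict

local notation "Qbar" => AlgebraicClosure ℚ

/-- primes as `Fact`s -/
local instance factPrime_lrn (q : Nat.Primes) : Fact (q : ℕ).Prime := ⟨q.2⟩

variable (L : IntermediateField ℚ Qbar) [NumberField L] [Normal ℚ L] [IsGalois ℚ L]
  (T : Finset Nat.Primes) (H : Subgroup (L ≃ₐ[ℚ] L)) (N : Subgroup H) [N.Normal]

/-- The components of an `N`-invariant idèle are fixed by `N`. -/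
lemma comp_mem_fixedSub (F' : Idele L T)
    (hF' : ∀ ν : H, ν ∈ N → ((ν : H) : L ≃ₐ[ℚ] L) • F' = F') (q : T) :
    F' q ∈ fixedSub (X := ideleAt ((q : Nat.Primes) : ℕ) L) (subG H N) := by
  rintro s ⟨ν, hν, rfl⟩
  exact congrFun (hF' ν hν) q

/-- **Local relative norms are norms of the layer**: if every component of the idèle of
`x ∈ J^N` is the relative norm `N_{H/N}` of the component of an `N`-invariant idèle `F'`, then
`x` is a norm of the cyclic layer `H/N = ⟨h⟩`. -/
theorem mem_range_nrm_of_relNorm (h : H) {n : ℕ} (hn0 : 0 < n) (hidx : N.index = n)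
    (hn : ∀ i : ℕ, h ^ i ∈ N ↔ n ∣ i) (x : (layerSC (seq L T) H N).X₂) (F' : Idele L T)
    (hF' : ∀ ν : H, ν ∈ N → ((ν : H) : L ≃ₐ[ℚ] L) • F' = F')
    (hx : ∀ q : T, ideleOf L T H N x q =
      relNorm (X := ideleAt ((q : Nat.Primes) : ℕ) L) H (subG H N) (F' q)) :
    x ∈ (nrm (sigma (layerSC (seq L T) H N).X₂ (QuotientGroup.mk h)) n).range := by
  refine ⟨mkX₂ L T H N F' hF', ideleOf_injective L T H N ?_⟩
  have h1 := ideleOf_nrm L T H N h n (mkX₂ L T H N F' hF')
  refine h1.trans ?_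
  funext q
  have h2 : (∏ i ∈ Finset.range n, (h : L ≃ₐ[ℚ] L) ^ i • ideleOf L T H N (mkX₂ L T H N F' hF')) q =
      ∏ i ∈ Finset.range n, (h : L ≃ₐ[ℚ] L) ^ i • F' q :=
    Finset.prod_apply q (Finset.range n) fun i => (h : L ≃ₐ[ℚ] L) ^ i • F'
  refine h2.trans ?_
  rw [hx q]
  exact (relNorm_eq_prod_pow H N h hn0 hidx hn (comp_mem_fixedSub L T H N F' hF' q)).symm

/-- The components of an `H`-invariant idèle lie in `coindInv (resLoc q L) H`. -/
lemma comp_mem_coindInv (S : Subgroup (L ≃ₐ[ℚ] L)) (F : Idele L T)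
    (hF : ∀ g : L ≃ₐ[ℚ] L, g ∈ S → g • F = F) (q : T) :
    F q ∈ coindInv (Ω := (localField ((q : Nat.Primes) : ℕ) L)ˣ)
      (resLoc ((q : Nat.Primes) : ℕ) L) S := by
  intro s hs g
  have h1 := congrFun (hF s hs) q
  exact congrArg (fun f : ideleAt ((q : Nat.Primes) : ℕ) L => f.1 g) h1

/-- **Local norms are norms of the layer** (idèle form of helper3's `exists_relNorm_eq_of`): an
`H`-invariant `x ∈ J^N` whose components at a system of representatives of the places of `L^H`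
are local relative norms `N_{Δ^H/Δ^N}` is a norm of the cyclic layer `H/N = ⟨h⟩`. -/
theorem mem_range_nrm_of_local_norms (h : H) {n : ℕ} (hn0 : 0 < n) (hidx : N.index = n)
    (hn : ∀ i : ℕ, h ^ i ∈ N ↔ n ∣ i) (x : (layerSC (seq L T) H N).X₂)
    (hxH : ∀ g : L ≃ₐ[ℚ] L, g ∈ H → g • ideleOf L T H N x = ideleOf L T H N x)
    (r : ∀ q : T, DoubleCoset.Quotient (((resLoc ((q : Nat.Primes) : ℕ) L).range :
      Subgroup (L ≃ₐ[ℚ] L)) : Set (L ≃ₐ[ℚ] L)) (H : Set (L ≃ₐ[ℚ] L)) → (L ≃ₐ[ℚ] L))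
    (hr : ∀ q : T, IsRepSystem (resLoc ((q : Nat.Primes) : ℕ) L) H (r q))
    (hloc : ∀ (q : T) (c : DoubleCoset.Quotient (((resLoc ((q : Nat.Primes) : ℕ) L).range :
        Subgroup (L ≃ₐ[ℚ] L)) : Set (L ≃ₐ[ℚ] L)) (H : Set (L ≃ₐ[ℚ] L))),
      ∃ b ∈ fixedSub (X := (localField ((q : Nat.Primes) : ℕ) L)ˣ)
          (deltaAt (resLoc ((q : Nat.Primes) : ℕ) L) (subG H N) (r q c)),
        (ideleOf L T H N x q).1 (r q c) =
          relNorm (deltaAt (resLoc ((q : Nat.Primes) : ℕ) L) H (r q c))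
            (deltaAt (resLoc ((q : Nat.Primes) : ℕ) L) (subG H N) (r q c)) b) :
    x ∈ (nrm (sigma (layerSC (seq L T) H N).X₂ (QuotientGroup.mk h)) n).range := by
  have hNH : subG H N ≤ H := by
    rintro _ ⟨ν, -, rfl⟩
    exact ν.2
  have hfin : Finite (H ⧸ (subG H N).subgroupOf H) := inferInstance
  have key : ∀ q : T, ∃ f' ∈ coindInv (Ω := (localField ((q : Nat.Primes) : ℕ) L)ˣ)
      (resLoc ((q : Nat.Primes) : ℕ) L) (subG H N),
      ideleOf L T H N x q = relNorm (X := ideleAt ((q : Nat.Primes) : ℕ) L) H (subG H N) f' :=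
    fun q => exists_relNorm_eq_of (hr q) (subG H N) hNH
      (comp_mem_coindInv L T H (ideleOf L T H N x) hxH q) (hloc q)
  choose F' hF'N hF' using key
  have hinv : ∀ ν : H, ν ∈ N → ((ν : H) : L ≃ₐ[ℚ] L) • (show Idele L T from F') =
      (show Idele L T from F') := by
    intro ν hν
    funext q
    apply Subtype.ext
    funext g
    exact hF'N q (ν : L ≃ₐ[ℚ] L) (coe_mem_subG hν) g
  exact mem_range_nrm_of_relNorm L T H N h hn0 hidx hn x F' hinv hF'

end Idele

end Fermat.Agent.S55.GL.LayerRelNorm
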