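/-
S55 / GLO12 (part 3): inflation is injective on `H¹`; Hilbert 90 over `G_{L,S}`:
`H¹(G_{L,S}, ℚ_S^×) = 0` (`h90_levelLS`).
(helper14)
-/
import Fermat.Agent.S55.GL.BrauerInst
import Fermat.Agent.S55.GaloisLevelBC
import Fermat.Agent.S55.LevelH1
import Fermat.Agent.S55.LevelElem

set_option autoImplicit false
set_option linter.unusedSectionVars false

open CategoryTheory IntermediateField groupCohomology

namespace Fermat.Agent.S55.GL.LevelH90

open Fermat.Agent.S55.Level Fermat.Agent.S55.GaloisLevel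
  Fermat.Agent.S55.LevelTransport Fermat.Agent.S55.GL.BrauerLocal Fermat.Agent.S55.GL.QSMod
  Fermat.Agent.S55.CF Fermat.Agent.S55.GL.BrauerInst Fermat.Agent.S55.SmoothPart

local notation "Qbar" => AlgebraicClosure ℚ
local notation "Γ" => (AlgebraicClosure ℚ ≃ₐ[ℚ] AlgebraicClosure ℚ)

/-! ### Inflation is injective in degree one -/

section Generic

universe u

variable {k G : Type u} [CommRing k] [Group G] {𝒰 𝒰' : LevelStructure G}
  {A A' : Rep.{u} k G} [IsDiscrete 𝒰 A] [IsDiscrete 𝒰' A']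

/-- **Inflation is injective on `H¹`**: if `𝒰'` is finer than `𝒰`, `i : A → A'` is injective and
every vector of `A'` fixed by a member of `𝒰` comes from `A`, then `H¹(𝒰, A) → H¹(𝒰', A')` is
injective. -/
theorem levelCohomologyMap_id_one_injective (h : 𝒰'.Refines 𝒰 (MonoidHom.id G)) (i : A ⟶ A')
    (hi : Function.Injective i.hom)
    (hsat : ∀ a' : A', (∃ U ∈ 𝒰.sets, ∀ u ∈ U, A'.ρ u a' = a') → ∃ a, i.hom a = a') :
    Function.Injective (levelCohomologyMap (A := A) (B := A') (MonoidHom.id G) h i 1).hom := by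
  rw [injective_iff_map_eq_zero]
  intro x hx
  obtain ⟨z, rfl⟩ := levelH1π_surjective 𝒰 A x
  have hz := (Level.mem_levelCocycles₁_iff 𝒰 A z.1).1 z.2
  have hzc : ∀ g g' : G, z.1 (g * g') = A.ρ g (z.1 g') + z.1 g :=
    (mem_cocycles₁_iff z.1).1 hz.1
  have hz'mem : (fun g => i.hom (z.1 g)) ∈ levelCocycles₁ 𝒰' A' := by
    rw [Level.mem_levelCocycles₁_iff]
    refine ⟨(mem_cocycles₁_iff _).2 fun g g' => ?_, ?_⟩
    · show i.hom (z.1 (g * g')) = A'.ρ g (i.hom (z.1 g')) + i.hom (z.1 g)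
      rw [hzc, map_add]
      congr 1
      exact Rep.hom_comm_apply i g (z.1 g')
    · obtain ⟨U, hU, hUz⟩ := hz.2
      obtain ⟨U', hU', hUU'⟩ := h U hU
      exact ⟨U', hU', fun g s hs => by
        show i.hom (z.1 (g * s)) = i.hom (z.1 g)
        rw [hUz g s (hUU' hs)]⟩
  have hmap : (levelCohomologyMap (A := A) (B := A') (MonoidHom.id G) h i 1).hom
      (levelH1π 𝒰 A z) = levelH1π 𝒰' A' ⟨_, hz'mem⟩ :=
    levelCohomologyMap_levelπ _ h i 1 _ _ (fun g => rfl)
  rw [hmap, levelH1π_eq_zero_iff] at hx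
  obtain ⟨a', ha'⟩ := hx
  have ha'' : ∀ g : G, A'.ρ g a' - a' = i.hom (z.1 g) := fun g => by
    have := congrFun ha' g
    rw [d₀₁_hom_apply] at this
    exact this
  obtain ⟨U, hU, hUz⟩ := hz.2
  have hz1 : z.1 1 = 0 := by
    have := hzc 1 1
    rw [mul_one, map_one] at this
    simpa using this
  obtain ⟨a, rfl⟩ := hsat a' ⟨U, hU, fun u hu => by
    have h1 := ha'' u
    have h2 := hUz 1 u hu
    rw [one_mul, hz1] at h2
    rw [h2, map_zero] at h1
    exact sub_eq_zero.1 h1⟩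
  rw [levelH1π_eq_zero_iff]
  refine ⟨a, ?_⟩
  funext g
  rw [d₀₁_hom_apply]
  apply hi
  rw [← ha'' g, map_sub]
  congr 1
  exact (Rep.hom_comm_apply i g a)

end Generic

/-! ### Hilbert 90 over `G_{L,S}` -/

section H90

local instance isGaloisQbar_UC : IsGalois ℚ Qbar := Fermat.Agent.S55.Level.isGalois_Qbar

variable (S : Finset Nat.Primes) (L : IntermediateField ℚ Qbar)

/-- `G_L` is open for `globalLevel S` when `L` is unramified outside `S`. -/
theorem isOpenSub_fixingSubgroup (hL : L.IsUnramifiedOutside S) :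
    IsOpenSub (globalLevel S) L.fixingSubgroup :=
  ⟨⟨_, normalCore_mem_globalLevel S hL, Subgroup.normalCore_le _⟩⟩

/-- Hilbert 90 for the absolute Galois group `G_L` (Krull level structure induced from `ℚ`). -/
theorem isZero_H1_krull [FiniteDimensional ℚ L] :
    Limits.IsZero (levelCohomology ((krullLevel ℚ Qbar).restrict L.fixingSubgroup)
      (resL L (unitsRep ℚ Qbar)) 1) :=
  (isZero_levelCohomology_unitsRep_one (K := L) (Ω := Qbar)).of_iso
    (restrictUnitsIso (K := ℚ) (Ω := Qbar) (H := L.fixingSubgroup) (E := L) rfl 1)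

/-- **Hilbert 90 over `G_{L,S}`**: `H¹(G_{L,S}, ℚ_S^×) = 0`. -/
theorem h90_levelLS (hL : L.IsUnramifiedOutside S)
    (x : levelCohomology (levelLS S L) (resL L (QSUnits S)) 1) : x = 0 := by
  have hfd : FiniteDimensional ℚ L := hL.1
  have hopen := isOpenSub_fixingSubgroup S L hL
  have hle : ∀ U ∈ (globalLevel S).sets, ∃ U' ∈ (krullLevel ℚ Qbar).sets, U' ≤ U :=
    fun U hU => ⟨U, ⟨(globalLevel S).normal U hU, isKrullOpen_of_mem_globalLevel S hU⟩, le_rfl⟩
  have hinj := levelCohomologyMap_id_one_injective (𝒰 := levelLS S L)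
    (𝒰' := (krullLevel ℚ Qbar).restrict L.fixingSubgroup)
    (A := resL L (QSUnits S)) (A' := resL L (unitsRep ℚ Qbar))
    (refines_id_restrict L (globalLevel S) (krullLevel ℚ Qbar) hle)
    ((Rep.resFunctor L.fixingSubgroup.subtype).map (QSUnitsι S))
    (smoothPartι_injective (globalLevel S) QbarUnits) (fun a' ha' => by
      obtain ⟨V, hV, hVa'⟩ := ha'
      obtain ⟨U, hU, hUL, hUV⟩ := IsOpenSub.exists_le_of_mem_restrict (𝒰 := globalLevel S) hV
      exact (exists_smoothPartι_eq_iff (globalLevel S) QbarUnits a').2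
        ⟨U, hU, fun u hu => hVa' ⟨u, hUL hu⟩ (hUV (Subgroup.mem_subgroupOf.2 hu))⟩)
  apply hinj
  rw [map_zero]
  have := ModuleCat.subsingleton_of_isZero (isZero_H1_krull L)
  exact Subsingleton.elim _ _

end H90

end Fermat.Agent.S55.GL.LevelH90
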