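/-
S55 / GLO15 (H-match) of helper25's #809: the ONE term

  `localMatch L S : LocalDataMatch.Match
      (mackeyData (localData S) L.fixingSubgroup (mackeyRep L S)) (brauerData L S)`

matching the Mackey local data of `G_L ≤ Γ` over the places of `ℚ` in `S` (representatives
`mackeyRep q w = (w.rep)⁻¹`) with helper14's local data of `G_{L,S}` at the places of `L` above `S`.
Built from `GL/LocalMatch.lean` (`matchEquiv`, `mackeyHom_matchEquiv`, `refines_matchEquiv(_symm)`);
index bijection `e = Equiv.refl`.  All cohomological consequences (`matchEquiv_locH`,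
`prodEquiv_locH`, `card_ker_locH_eq`, `exists_additive_of_int`, …) are generic in
`S55/LocalDataMatch.lean`.
-/
import Mathlib
import Fermat.Agent.S55.GL.LocalMatch
import Fermat.Agent.S55.LocalDataMatch
import Fermat.Agent.S55.GL.BrauerData

set_option autoImplicit false
set_option linter.unusedSectionVars false

open CategoryTheory ExtCitation

namespace Fermat.Agent.S55.GL.LocalMatch

open Fermat.Agent.S55.Level Fermat.Agent.S55.GaloisLevel Fermat.Agent.S55.GL.Places
  Fermat.Agent.S55.GL.BrauerLocal Fermat.Agent.S55.GL.BrauerData Fermat.Agent.S55.LocalDataMatch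
  Fermat.Agent.S55.Assembly Fermat.Agent.S55.Cone

local notation "Qbar" => AlgebraicClosure ℚ
local notation "Γ" => (AlgebraicClosure ℚ ≃ₐ[ℚ] AlgebraicClosure ℚ)

local instance factPrime_LMD (q : Nat.Primes) : Fact (q : ℕ).Prime := ⟨q.2⟩

variable (L : IntermediateField ℚ Qbar) [FiniteDimensional ℚ L] (S : Finset Nat.Primes)

/-- **(H-match)**: the Mackey data of `G_L ≤ Γ` at the places of `ℚ` in `S` (representatives
`mackeyRep = (w.rep)⁻¹`) is matched with helper14's local data `brauerData L S` of `G_{L,S}` at the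
places of `L` above `S`. -/
noncomputable def localMatch :
    Match (mackeyData (localData S) L.fixingSubgroup (mackeyRep L S)) (brauerData L S) where
  e := Equiv.refl _
  g w := (matchEquiv (w.1.1 : ℕ) L
    (PlacesOver.rep (w.1.1 : ℕ) w.2)).symm
  hr w h :=
    (mackeyHom_matchEquiv (w.1.1 : ℕ) L (PlacesOver.rep (w.1.1 : ℕ) w.2)
      ((matchEquiv (w.1.1 : ℕ) L (PlacesOver.rep (w.1.1 : ℕ) w.2)).symm h)).symm.trans
    (congrArg (mackeyHom (localGaloisToGlobal (w.1.1 : ℕ)) L.fixingSubgroup
        (PlacesOver.rep (w.1.1 : ℕ) w.2)⁻¹)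
      ((matchEquiv (w.1.1 : ℕ) L (PlacesOver.rep (w.1.1 : ℕ) w.2)).apply_symm_apply h))
  href w := refines_matchEquiv_symm (w.1.1 : ℕ) L
    (PlacesOver.rep (w.1.1 : ℕ) w.2) ((localData S).𝒱 w.1)
    (Fermat.Agent.S55.Local.KrullLocal.localLevel_primeLocalToGlobal_eq w.1.1)
  href' w := refines_matchEquiv (w.1.1 : ℕ) L
    (PlacesOver.rep (w.1.1 : ℕ) w.2) ((localData S).𝒱 w.1)
    (Fermat.Agent.S55.Local.KrullLocal.localLevel_primeLocalToGlobal_eq w.1.1)

@[simp] lemma localMatch_e (w : PlaceS L S) : (localMatch L S).e w = w := rfl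

end Fermat.Agent.S55.GL.LocalMatch
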