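/-
S55 GLO9c (reciprocity): from LOCAL NORMS to a GLOBAL NORM up to a multiplicative congruence.

`L/K` a Galois extension of number fields, `s` a finite set of primes of `K`, `a ∈ Kˣ`.  Suppose
that for every `v ∈ s` there is a prime `w ∣ v` of `L` such that `a` is, to any prescribed
`w`-adic precision, the norm `∏_{g ∈ D_w} g b` (`D_w` the decomposition group) of an element
`b ∈ Lˣ` (this is how "`a` is a norm from the completion `L_w`" reads in `L` itself).  Then there is
a single `b ∈ Lˣ` with `N_{L/K}(b) / a ≡ 1 mod^× v^j` for all `v ∈ s`.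
-/
import Mathlib
import Fermat.Agent.S55.GL.WeakApprox
import Fermat.Agent.S14.GalDivisors

set_option autoImplicit false

namespace Fermat.Agent.S55.GL.NormApprox

open NumberField IsDedekindDomain HeightOneSpectrum WithZero
open Fermat.Agent.S14.GalDiv Fermat.Agent.S55.GL.WeakApprox

variable {K L : Type*} [Field K] [Field L] [NumberField K] [NumberField L] [Algebra K L]

/-- Descent of a multiplicative congruence from `L` to `K`. -/
theorem oneMod_of_algebraMap (w : HeightOneSpectrum (𝓞 L)) (v : HeightOneSpectrum (𝓞 K))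
    [w.asIdeal.LiesOver v.asIdeal] {j k : ℕ}
    (hk : j * v.asIdeal.ramificationIdx' w.asIdeal ≤ k) {x : K}
    (h : OneMod w k (algebraMap K L x)) : OneMod v j x := by
  have he : v.asIdeal.ramificationIdx' w.asIdeal ≠ 0 :=
    Ideal.IsDedekindDomain.ramificationIdx'_ne_zero_of_liesOver w.asIdeal v.ne_bot
  rw [OneMod, ← map_one (algebraMap K L), ← map_sub, ← valuation_liesOver L v w] at h
  rw [OneMod]
  by_contra hlt
  rw [not_le] at hlt
  have h1 : (exp (-(j : ℤ)) : ℤᵐ⁰) ^ v.asIdeal.ramificationIdx' w.asIdeal <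
      v.valuation K (x - 1) ^ v.asIdeal.ramificationIdx' w.asIdeal :=
    pow_lt_pow_left₀ hlt zero_le he
  have h2 : (exp (-(k : ℤ)) : ℤᵐ⁰) ≤ exp (-(j : ℤ)) ^ v.asIdeal.ramificationIdx' w.asIdeal := by
    rw [← exp_nsmul, exp_le_exp]
    have : ((j * v.asIdeal.ramificationIdx' w.asIdeal : ℕ) : ℤ) ≤ (k : ℤ) := by exact_mod_cast hk
    simp only [nsmul_eq_mul]
    push_cast at this
    linarith [this, mul_comm (j : ℤ) (v.asIdeal.ramificationIdx' w.asIdeal : ℤ)]
  exact absurd (h.trans h2) (not_le.2 h1)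

variable [IsGalois K L]

theorem oneMod_smul_iff (σ : L ≃ₐ[K] L) (w : HeightOneSpectrum (𝓞 L)) (k : ℕ) (x : L) :
    OneMod (σ • w) k (σ x) ↔ OneMod w k x := by
  have e1 : σ x - 1 = σ (x - 1) := by rw [map_sub, map_one]
  rw [OneMod, OneMod, e1, valuation_smul]

open Classical in
/-- The norm from the decomposition group of `w`. -/
noncomputable def decompNorm (w : HeightOneSpectrum (𝓞 L)) (b : L) : L :=
  ∏ g ∈ Finset.univ.filter (fun g : L ≃ₐ[K] L => g • w = w), g b

omit [IsGalois K L] in
theorem decompNorm_ne_zero (w : HeightOneSpectrum (𝓞 L)) {b : L} (hb : b ≠ 0) :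
    decompNorm (K := K) w b ≠ 0 := by
  classical
  rw [decompNorm, Finset.prod_ne_zero_iff]
  intro g _
  rwa [Ne, map_eq_zero_iff g g.injective]

/-- **Local norms at finitely many primes are approximated by one global norm.** -/
theorem exists_norm_oneMod (s : Finset (HeightOneSpectrum (𝓞 K))) {a : K} (ha : a ≠ 0)
    (wsel : HeightOneSpectrum (𝓞 K) → HeightOneSpectrum (𝓞 L))
    (hw : ∀ v ∈ s, underK K (wsel v) = v)
    (hLN : ∀ v ∈ s, ∀ k : ℕ, ∃ b : L, b ≠ 0 ∧
      OneMod (wsel v) k (decompNorm (K := K) (wsel v) b / algebraMap K L a)) (j : ℕ) :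
    ∃ b : L, b ≠ 0 ∧ ∀ v ∈ s, OneMod v j (Algebra.norm K b / a) := by
  classical
  set e : HeightOneSpectrum (𝓞 K) → ℕ := fun v => v.asIdeal.ramificationIdx' (wsel v).asIdeal
    with he
  set k : ℕ := j * (∑ v ∈ s, e v) + 1 with hk
  have hk1 : 1 ≤ k := by omega
  have hLN' : ∀ v ∈ s, ∃ b : L, b ≠ 0 ∧
      OneMod (wsel v) k (decompNorm (K := K) (wsel v) b / algebraMap K L a) :=
    fun v hv => hLN v hv k
  choose! bsel hb0 hb using hLN'
  set SL : Finset (HeightOneSpectrum (𝓞 L)) := s.biUnion (fibre K L) with hSL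
  set t : HeightOneSpectrum (𝓞 L) → L :=
    fun w' => if w' = wsel (underK K w') then bsel (underK K w') else 1 with ht
  have hmemSL : ∀ w', w' ∈ SL ↔ underK K w' ∈ s := by
    intro w'
    rw [hSL, Finset.mem_biUnion]
    constructor
    · rintro ⟨v, hv, hw'⟩
      rw [mem_fibre] at hw'
      rwa [hw']
    · intro h
      exact ⟨_, h, mem_fibre.2 rfl⟩
  have ht0 : ∀ w' ∈ SL, t w' ≠ 0 := by
    intro w' hw'
    rw [ht]
    dsimp only
    split_ifs
    · exact hb0 _ ((hmemSL w').1 hw')
    · exact one_ne_zero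
  obtain ⟨b, hb0', hbt⟩ := exists_oneMod_div SL t ht0 k
  refine ⟨b, hb0', fun v hv => ?_⟩
  set w := wsel v with hwdef
  have hwv : underK K w = v := hw v hv
  have haL : algebraMap K L a ≠ 0 := by
    rwa [Ne, map_eq_zero_iff _ (algebraMap K L).injective]
  have hlo : w.asIdeal.LiesOver v.asIdeal := (underK_eq_iff K w v).1 hwv
  -- descend from `w` to `v`
  refine oneMod_of_algebraMap w v (k := k) ?_ ?_
  · rw [hk]
    have : e v ≤ ∑ v ∈ s, e v := Finset.single_le_sum (fun _ _ => Nat.zero_le _) hv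
    have h2 : j * e v ≤ j * ∑ v ∈ s, e v := Nat.mul_le_mul_left j this
    have h3 : e v = v.asIdeal.ramificationIdx' w.asIdeal := rfl
    rw [← h3]
    omega
  rw [map_div₀, Algebra.norm_eq_prod_automorphisms,
    ← Finset.prod_filter_mul_prod_filter_not Finset.univ (fun g : L ≃ₐ[K] L => g • w = w)]
  set X := ∏ g ∈ Finset.univ.filter (fun g : L ≃ₐ[K] L => g • w = w), g b with hX
  set Z := ∏ g ∈ Finset.univ.filter (fun g : L ≃ₐ[K] L => ¬ g • w = w), g b with hZ
  set Y := decompNorm (K := K) w (bsel v) with hY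
  have hY0 : Y ≠ 0 := decompNorm_ne_zero w (hb0 v hv)
  have hwSL : w ∈ SL := (hmemSL w).2 (by rw [hwv]; exact hv)
  have htw : t w = bsel v := by
    rw [ht]
    dsimp only
    rw [hwv, if_pos hwdef]
  -- the decomposition group part
  have h1 : OneMod w k (X / Y) := by
    rw [hX, hY, decompNorm, ← Finset.prod_div_distrib]
    refine OneMod.prod hk1 _ _ fun g hg => ?_
    rw [Finset.mem_filter] at hg
    have h := hbt w hwSL
    rw [htw] at h
    have h' := (oneMod_smul_iff g w k (b / bsel v)).2 h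
    rwa [hg.2, map_div₀] at h'
  -- the other automorphisms
  have h2 : OneMod w k Z := by
    rw [hZ]
    refine OneMod.prod hk1 _ _ fun g hg => ?_
    rw [Finset.mem_filter] at hg
    set w' := g⁻¹ • w with hw'
    have hw'v : underK K w' = v := by rw [hw', underK_smul, hwv]
    have hw'SL : w' ∈ SL := (hmemSL w').2 (by rw [hw'v]; exact hv)
    have hne : w' ≠ wsel (underK K w') := by
      rw [hw'v, ← hwdef]
      intro h
      apply hg.2
      have h3 : g • w' = g • w := by rw [h]
      rw [hw', smul_inv_smul] at h3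
      exact h3.symm
    have htw' : t w' = 1 := by
      rw [ht]
      dsimp only
      rw [if_neg hne]
    have h := hbt w' hw'SL
    rw [htw', div_one] at h
    have h' := (oneMod_smul_iff g w' k b).2 h
    rwa [hw', smul_inv_smul] at h'
  have h3 : OneMod w k (Y / algebraMap K L a) := hb v hv
  have e1 : X * Z / algebraMap K L a = X / Y * (Y / algebraMap K L a) * Z := by
    field_simp
  rw [e1]
  exact (h1.mul hk1 h3).mul hk1 h2

end Fermat.Agent.S55.GL.NormApprox
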