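/-
S55 / GLO6-GLO7 glue (helper29): a finite Galois extension `L/ℚ` is unramified outside a finite set
of rational primes, in the inertia form used by `CFIdele.exists_finset_isZero_H1_E`:

  `∃ T₁ : Finset Nat.Primes, ∀ w ∉ primesOver L T₁, w.asIdeal.inertia Gal(L/ℚ) = ⊥`.

Proof: for `σ ≠ 1` pick `x_σ ∈ 𝓞 L` with `σ x_σ ≠ x_σ`; `d := ∏_{σ ≠ 1} (σ x_σ - x_σ) ≠ 0` divides the
nonzero integer `m = N(d)`; if `σ ≠ 1` lies in the inertia group of `w ∣ q` then `σ x_σ - x_σ ∈ w`, so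
`m ∈ w`, so `q ∣ m`.
-/
import Mathlib
import Fermat.Agent.S55.GL.PlacesPrimeAbs

set_option autoImplicit false
set_option linter.unusedSectionVars false

namespace Fermat.Agent.S55.GL.RamifiedFinite

open NumberField IsDedekindDomain HeightOneSpectrum

section Abstract

variable (L : Type*) [Field L] [NumberField L] [IsGalois ℚ L]

/-- A nontrivial automorphism moves some algebraic integer. -/
lemma exists_smul_ne {σ : L ≃ₐ[ℚ] L} (hσ : σ ≠ 1) : ∃ x : 𝓞 L, σ • x ≠ x := by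
  by_contra hcon
  push Not at hcon
  apply hσ
  ext y
  obtain ⟨a, b, hb, rfl⟩ := IsFractionRing.div_surjective (A := 𝓞 L) y
  have ha' : σ (algebraMap (𝓞 L) L a) = algebraMap (𝓞 L) L a :=
    congrArg (algebraMap (𝓞 L) L) (hcon a)
  have hb' : σ (algebraMap (𝓞 L) L b) = algebraMap (𝓞 L) L b :=
    congrArg (algebraMap (𝓞 L) L) (hcon b)
  rw [map_div₀, ha', hb', AlgEquiv.one_apply]

/-- There is a nonzero integer `m` such that the inertia groups of all primes of `L` not dividing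
`m` are trivial. -/
theorem exists_nat_inertia_eq_bot :
    ∃ m : ℕ, m ≠ 0 ∧ ∀ (w : HeightOneSpectrum (𝓞 L)) (q : ℕ), q.Prime →
      ((q : ℕ) : 𝓞 L) ∈ w.asIdeal → ¬ q ∣ m → w.asIdeal.inertia (L ≃ₐ[ℚ] L) = ⊥ := by
  classical
  have hx : ∀ σ : L ≃ₐ[ℚ] L, ∃ x : 𝓞 L, σ ≠ 1 → σ • x ≠ x := fun σ => by
    by_cases hσ : σ = 1
    · exact ⟨0, fun h => (h hσ).elim⟩
    · obtain ⟨x, hx⟩ := exists_smul_ne L hσ
      exact ⟨x, fun _ => hx⟩
  choose x hx using hx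
  set d : 𝓞 L := ∏ σ ∈ (Finset.univ : Finset (L ≃ₐ[ℚ] L)).filter (· ≠ 1), (σ • x σ - x σ)
    with hd
  have hd0 : d ≠ 0 := by
    rw [hd, Finset.prod_ne_zero_iff]
    intro σ hσ
    exact sub_ne_zero.mpr (hx σ (Finset.mem_filter.mp hσ).2)
  have hN0 : Algebra.intNorm ℤ (𝓞 L) d ≠ 0 := fun h => hd0 (Algebra.intNorm_eq_zero.mp h)
  refine ⟨(Algebra.intNorm ℤ (𝓞 L) d).natAbs, Int.natAbs_ne_zero.mpr hN0, ?_⟩
  intro w q hq hqw hqm
  rw [eq_bot_iff]
  intro σ hσ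
  rw [Subgroup.mem_bot]
  by_contra hσ1
  -- `σ x_σ - x_σ ∈ w`
  have h1 : σ • x σ - x σ ∈ w.asIdeal := hσ (x σ)
  have h2 : d ∈ w.asIdeal := by
    rw [hd]
    exact Ideal.mem_of_dvd _
      (Finset.dvd_prod_of_mem _ (Finset.mem_filter.mpr ⟨Finset.mem_univ σ, hσ1⟩)) h1
  have h3 : algebraMap ℤ (𝓞 L) (Algebra.intNorm ℤ (𝓞 L) d) ∈ w.asIdeal :=
    Ideal.mem_of_dvd _ (Algebra.dvd_algebraMap_intNorm_self ℤ (𝓞 L) d) h2
  -- coprimality
  have hcop : IsCoprime (q : ℤ) (Algebra.intNorm ℤ (𝓞 L) d) := by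
    rw [Int.isCoprime_iff_gcd_eq_one, Int.gcd, Int.natAbs_natCast]
    exact (Nat.Prime.coprime_iff_not_dvd hq).mpr hqm
  obtain ⟨a, b, hab⟩ := hcop
  have h4 : (1 : 𝓞 L) ∈ w.asIdeal := by
    have h5 : (1 : 𝓞 L) = algebraMap ℤ (𝓞 L) a * ((q : ℕ) : 𝓞 L) +
        algebraMap ℤ (𝓞 L) b * algebraMap ℤ (𝓞 L) (Algebra.intNorm ℤ (𝓞 L) d) := by
      have := congrArg (algebraMap ℤ (𝓞 L)) hab
      rw [map_add, map_mul, map_mul, map_one] at this
      rw [← this]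
      simp
    rw [h5]
    exact w.asIdeal.add_mem (w.asIdeal.mul_mem_left _ hqw) (w.asIdeal.mul_mem_left _ h3)
  exact w.isPrime.ne_top ((Ideal.eq_top_iff_one _).mpr h4)

end Abstract

section InQbar

local notation "Qbar" => AlgebraicClosure ℚ

open Fermat.Agent.S55.GL.PlacesUnits

/-- **Finiteness of ramification**, in the shape of the hypothesis `hunr` of
`CFIdele.exists_finset_isZero_H1_E`. -/
theorem exists_finset_inertia_eq_bot (L : IntermediateField ℚ Qbar) [NumberField L]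
    [IsGalois ℚ L] :
    ∃ T₁ : Finset Nat.Primes, ∀ w : HeightOneSpectrum (𝓞 L), w ∉ primesOver L T₁ →
      w.asIdeal.inertia (L ≃ₐ[ℚ] L) = ⊥ := by
  classical
  obtain ⟨m, hm0, hm⟩ := exists_nat_inertia_eq_bot L
  refine ⟨(show Finset Nat.Primes from (m.primeFactors).subtype Nat.Prime), fun w hw => ?_⟩
  obtain ⟨q, hq⟩ := exists_natCast_mem w
  refine hm w q q.2 hq fun hqm => hw ?_
  rw [mem_primesOver]
  refine ⟨q, ?_, hq⟩
  exact Finset.mem_subtype.mpr (Nat.mem_primeFactors.mpr ⟨q.2, hqm, hm0⟩)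

end InQbar

end Fermat.Agent.S55.GL.RamifiedFinite
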