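/-
S55 GLO9c (reciprocity), ideal-theoretic core, part 2: THEOREM II.

`E/K` abelian, unramified outside `m`, with the trivial ideal-theoretic reciprocity law `hrec` for
`m` (see `ArtinAway.lean`).  If `a = x / y ∈ Kˣ` is a local norm at every prime `v ∣ m` of `K`
(in the approximate form of `NormApprox.lean`), then the Artin symbols away from `m` of `(x)` and
`(y)` agree, i.e. `∏_{v ∤ m} Frob_v ^ ord_v(a) = 1` (`prod_frobAway_zpow_eq_one`).
-/
import Mathlib
import Fermat.Agent.S55.GL.WeakApprox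
import Fermat.Agent.S55.GL.NormApprox
import Fermat.Agent.S55.GL.ArtinAway

set_option autoImplicit false
set_option linter.unusedSectionVars false

namespace Fermat.Agent.S55.GL.RecipCore

open IsDedekindDomain HeightOneSpectrum WithZero Fermat.Agent.S55.GL.WeakApprox

section CRT

variable {R : Type*} [CommRing R] [IsDedekindDomain R] {K : Type*} [Field K] [Algebra R K]
  [IsFractionRing R K]

/-- Membership in a power of a prime in terms of the valuation on the fraction field. -/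
theorem valuation_le_exp_of_mem (v : HeightOneSpectrum R) {r : R} {n : ℕ}
    (h : r ∈ v.asIdeal ^ n) : v.valuation K (algebraMap R K r) ≤ exp (-(n : ℤ)) := by
  rw [valuation_of_algebraMap]
  exact (intValuation_le_pow_iff_mem _ _ _).2 h

/-- **Numerator/denominator with congruences.**  If `c ≡ 1 mod^× v^j` for all `v ∈ S`, then
`c = γ / δ` with `γ, δ ∈ R` nonzero and `γ ≡ δ ≡ 1 mod v^j` for all `v ∈ S`. -/
theorem exists_num_den (S : Finset (HeightOneSpectrum R)) {j : ℕ} (hj : 1 ≤ j) {c : K}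
    (hc0 : c ≠ 0) (hc : ∀ v ∈ S, OneMod v j c) :
    ∃ γ δ : R, γ ≠ 0 ∧ δ ≠ 0 ∧ algebraMap R K γ = algebraMap R K δ * c ∧
      (∀ v ∈ S, γ - 1 ∈ v.asIdeal ^ j) ∧ (∀ v ∈ S, δ - 1 ∈ v.asIdeal ^ j) := by
  classical
  set T : Finset (HeightOneSpectrum R) := (HeightOneSpectrum.Support.finite R c).toFinset with hT
  have hmemT : ∀ v, v ∈ T ↔ 1 < v.valuation K c := by
    intro v
    rw [hT, Set.Finite.mem_toFinset]
    rfl
  set N : HeightOneSpectrum R → ℕ := fun v => (log (v.valuation K c)).toNat with hN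
  set U : Finset (HeightOneSpectrum R) := S ∪ T with hU
  set e : HeightOneSpectrum R → ℕ := fun v => if v ∈ S then j else N v with he
  set x : HeightOneSpectrum R → R := fun v => if v ∈ S then 1 else 0 with hx
  obtain ⟨δ₁, hδ₁⟩ := IsDedekindDomain.exists_forall_sub_mem_ideal
    (s := U) (fun w : HeightOneSpectrum R => w.asIdeal) e
    (fun w _ => w.prime) (fun w _ w' _ hne h => hne (HeightOneSpectrum.ext h))
    (fun w => x w.1)
  -- a nonzero element of all the `v ^ e v`
  have hprod : (∏ v ∈ U, v.asIdeal ^ e v) ≠ ⊥ := by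
    rw [← Ideal.zero_eq_bot, Finset.prod_ne_zero_iff]
    intro v _
    exact pow_ne_zero _ v.ne_bot
  obtain ⟨M, hM, hM0⟩ := Submodule.exists_mem_ne_zero_of_ne_bot hprod
  have hMv : ∀ v ∈ U, M ∈ v.asIdeal ^ e v := by
    intro v hv
    exact (Ideal.prod_le_inf.trans (Finset.inf_le hv)) hM
  set δ : R := if δ₁ = 0 then M else δ₁ with hδdef
  have hδ0 : δ ≠ 0 := by
    rw [hδdef]
    split_ifs with h
    · exact hM0
    · exact h
  have hδ : ∀ v ∈ U, δ - x v ∈ v.asIdeal ^ e v := by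
    intro v hv
    rw [hδdef]
    split_ifs with h
    · have h1 := hδ₁ v hv
      rw [h, zero_sub] at h1
      exact Ideal.sub_mem _ (hMv v hv) ((Ideal.neg_mem_iff _).1 h1)
    · exact hδ₁ v hv
  have hδS : ∀ v ∈ S, δ - 1 ∈ v.asIdeal ^ j := by
    intro v hv
    have h1 := hδ v (Finset.mem_union_left _ hv)
    simp only [hx, he, if_pos hv] at h1
    exact h1
  have hδK : algebraMap R K δ ≠ 0 := by
    rwa [Ne, IsFractionRing.to_map_eq_zero_iff]
  -- integrality of `δ * c`
  have hint : ∀ v : HeightOneSpectrum R, v.valuation K (algebraMap R K δ * c) ≤ 1 := by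
    intro v
    rw [map_mul]
    by_cases hvS : v ∈ S
    · rw [(hc v hvS).valuation_eq_one hj, mul_one]
      exact v.valuation_le_one δ
    · by_cases hvT : v ∈ T
      · have h1 := hδ v (Finset.mem_union_right _ hvT)
        simp only [hx, he, if_neg hvS, sub_zero] at h1
        have h2 := valuation_le_exp_of_mem (K := K) v h1
        have hc1 : 1 < v.valuation K c := (hmemT v).1 hvT
        have hcne : v.valuation K c ≠ 0 := (Valuation.ne_zero_iff _).2 hc0
        have hlog : 0 < log (v.valuation K c) := by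
          rw [← exp_lt_exp, exp_log hcne, exp_zero]
          exact hc1
        have hNv : ((N v : ℕ) : ℤ) = log (v.valuation K c) := by
          simp only [hN]
          exact Int.toNat_of_nonneg hlog.le
        calc v.valuation K (algebraMap R K δ) * v.valuation K c
            ≤ exp (-((N v : ℕ) : ℤ)) * v.valuation K c := mul_le_mul_left h2 _
          _ = exp (-((N v : ℕ) : ℤ)) * exp (log (v.valuation K c)) := by rw [exp_log hcne]
          _ = 1 := by rw [← exp_add, hNv, neg_add_cancel, exp_zero]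
      · have hc1 : v.valuation K c ≤ 1 := not_lt.1 (fun h => hvT ((hmemT v).2 h))
        exact mul_le_one' (v.valuation_le_one δ) hc1
  obtain ⟨γ, hγ⟩ := mem_integers_of_valuation_le_one K _ hint
  have hγ0 : γ ≠ 0 := by
    intro h
    rw [h, map_zero] at hγ
    exact mul_ne_zero hδK hc0 hγ.symm
  refine ⟨γ, δ, hγ0, hδ0, hγ, fun v hv => ?_, hδS⟩
  rw [← oneMod_algebraMap_iff (K := K), hγ]
  exact ((oneMod_algebraMap_iff (K := K) δ).2 (hδS v hv)).mul hj (hc v hv)

/-- An element lying in `v ^ j` for all primes `v ∣ m`, with `j` at least the order of `m` at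
these primes, is a multiple of `m`. -/
theorem mem_span_of_forall_mem_pow {m z : R} (hm : m ≠ 0) (j : ℕ)
    (hjm : ∀ v : HeightOneSpectrum R, m ∈ v.asIdeal → exp (-(j : ℤ)) ≤ v.intValuation m)
    (hz : ∀ v : HeightOneSpectrum R, m ∈ v.asIdeal → z ∈ v.asIdeal ^ j) :
    z ∈ Ideal.span {m} := by
  set K := FractionRing R with hK
  have hmK : algebraMap R K m ≠ 0 := by
    rwa [Ne, IsFractionRing.to_map_eq_zero_iff]
  have hint : ∀ v : HeightOneSpectrum R,
      v.valuation K (algebraMap R K z / algebraMap R K m) ≤ 1 := by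
    intro v
    rw [map_div₀, valuation_of_algebraMap, valuation_of_algebraMap]
    by_cases hv : m ∈ v.asIdeal
    · have h0 : (0 : ℤᵐ⁰) < v.intValuation m :=
        zero_lt_iff.2 (v.intValuation_ne_zero m hm)
      rw [div_le_one₀ h0]
      exact ((intValuation_le_pow_iff_mem _ _ _).2 (hz v hv)).trans (hjm v hv)
    · rw [intValuation_eq_one_iff.2 hv, div_one]
      exact v.intValuation_le_one z
  obtain ⟨r, hr⟩ := mem_integers_of_valuation_le_one K _ hint
  rw [Ideal.mem_span_singleton']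
  refine ⟨r, ?_⟩
  apply IsFractionRing.injective R K
  rw [map_mul, hr, div_mul_cancel₀ _ hmK]

/-- A uniform bound for the orders of `m` at the primes dividing it. -/
theorem exists_bound_intValuation {m : R} (hm : m ≠ 0) :
    ∃ j : ℕ, 1 ≤ j ∧
      ∀ v : HeightOneSpectrum R, m ∈ v.asIdeal → exp (-(j : ℤ)) ≤ v.intValuation m := by
  classical
  have h0 : Ideal.span {m} ≠ 0 := by
    rwa [Ne, Ideal.zero_eq_bot, Ideal.span_singleton_eq_bot]
  set S : Finset (HeightOneSpectrum R) := (Ideal.finite_factors h0).toFinset with hS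
  have hmemS : ∀ v : HeightOneSpectrum R, v ∈ S ↔ m ∈ v.asIdeal := by
    intro v
    rw [hS, Set.Finite.mem_toFinset, Set.mem_ofPred_eq, Ideal.dvd_span_singleton]
  have hn : ∀ v : HeightOneSpectrum R, ∃ n : ℕ, v.intValuation m = exp (-(n : ℤ)) :=
    fun v => exists_intValuation_eq v hm
  choose n hn using hn
  refine ⟨1 + ∑ v ∈ S, n v, by omega, fun v hv => ?_⟩
  rw [hn v, exp_le_exp]
  have : n v ≤ ∑ v ∈ S, n v :=
    Finset.single_le_sum (fun _ _ => Nat.zero_le _) ((hmemS v).2 hv)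
  omega

end CRT

section Main

open NumberField Fermat.Agent.S14.GalDiv Fermat.Agent.S14.TwoPrime
open Fermat.Agent.S55.GL.NormApprox Fermat.Agent.S55.GL.ArtinAway

variable {K E : Type*} [Field K] [Field E] [NumberField K] [NumberField E] [Algebra K E]
  [IsGalois K E] [IsMulCommutative Gal(E/K)] {m : ℕ} [NeZero m]

/-- **Theorem II (integral form).**  Let `E/K` be abelian, unramified outside `m`, with the trivial
reciprocity law `hrec` for `m`.  If `x / y` is a local norm (in the approximate sense) at one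
prime `wsel v` of `E` above every prime `v ∣ m` of `K`, then the Artin symbols away from `m` of
`(x)` and `(y)` agree. -/
theorem artinAway_eq_of_localNorms
    (hunr : ∀ Q : Ideal (𝓞 E), Q.IsPrime → Q ≠ ⊥ → (m : 𝓞 E) ∉ Q → Q.inertia Gal(E/K) = ⊥)
    (hrec : ∀ γ : 𝓞 K, γ ≠ 0 → γ - 1 ∈ Ideal.span {(m : 𝓞 K)} →
      ∀ l : List (Ideal (𝓞 E) × Gal(E/K)), IsFrobList m l → underProd l = Ideal.span {γ} →
        frobProd l = 1)
    {x y : 𝓞 K} (hx : x ≠ 0) (hy : y ≠ 0)
    (wsel : HeightOneSpectrum (𝓞 K) → HeightOneSpectrum (𝓞 E))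
    (hw : ∀ v : HeightOneSpectrum (𝓞 K), (m : 𝓞 K) ∈ v.asIdeal → underK K (wsel v) = v)
    (hLN : ∀ v : HeightOneSpectrum (𝓞 K), (m : 𝓞 K) ∈ v.asIdeal → ∀ k : ℕ, ∃ b : E, b ≠ 0 ∧
      OneMod (wsel v) k (decompNorm (K := K) (wsel v) b /
        algebraMap K E (algebraMap (𝓞 K) K x / algebraMap (𝓞 K) K y))) :
    artinAway K E m (Ideal.span {x}) = artinAway K E m (Ideal.span {y}) := by
  classical
  have hm0 : (m : 𝓞 K) ≠ 0 := Nat.cast_ne_zero.2 (NeZero.ne m)
  obtain ⟨j, hj1, hjm⟩ := exists_bound_intValuation hm0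
  have h0 : Ideal.span {(m : 𝓞 K)} ≠ 0 := by
    rwa [Ne, Ideal.zero_eq_bot, Ideal.span_singleton_eq_bot]
  set S : Finset (HeightOneSpectrum (𝓞 K)) := (Ideal.finite_factors h0).toFinset with hS
  have hmemS : ∀ v : HeightOneSpectrum (𝓞 K), v ∈ S ↔ (m : 𝓞 K) ∈ v.asIdeal := by
    intro v
    rw [hS, Set.Finite.mem_toFinset, Set.mem_ofPred_eq, Ideal.dvd_span_singleton]
  have hxK : algebraMap (𝓞 K) K x ≠ 0 := by
    rwa [Ne, IsFractionRing.to_map_eq_zero_iff]
  have hyK : algebraMap (𝓞 K) K y ≠ 0 := by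
    rwa [Ne, IsFractionRing.to_map_eq_zero_iff]
  set a : K := algebraMap (𝓞 K) K x / algebraMap (𝓞 K) K y with ha
  have ha0 : a ≠ 0 := div_ne_zero hxK hyK
  obtain ⟨b, hb0, hb⟩ := exists_norm_oneMod S ha0 wsel (fun v hv => hw v ((hmemS v).1 hv))
    (fun v hv => hLN v ((hmemS v).1 hv)) j
  have hNb : Algebra.norm K b ≠ 0 := Algebra.norm_ne_zero_iff.2 hb0
  set c : K := a / Algebra.norm K b with hc
  have hc0 : c ≠ 0 := div_ne_zero ha0 hNb
  have hcS : ∀ v ∈ S, OneMod v j c := by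
    intro v hv
    have := (hb v hv).inv hj1
    rwa [inv_div] at this
  obtain ⟨γ, δ, hγ0, hδ0, hγδ, hγS, hδS⟩ := exists_num_den S hj1 hc0 hcS
  have hγ1 : γ - 1 ∈ Ideal.span {(m : 𝓞 K)} :=
    mem_span_of_forall_mem_pow hm0 j hjm fun v hv => hγS v ((hmemS v).2 hv)
  have hδ1 : δ - 1 ∈ Ideal.span {(m : 𝓞 K)} :=
    mem_span_of_forall_mem_pow hm0 j hjm fun v hv => hδS v ((hmemS v).2 hv)
  -- write `b = b₁ / b₂`
  obtain ⟨b₁, b₂, hb₂, hbb⟩ := IsFractionRing.div_surjective (A := 𝓞 E) b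
  have hb₂0 : b₂ ≠ 0 := nonZeroDivisors.ne_zero hb₂
  have hb₁0 : b₁ ≠ 0 := by
    rintro rfl
    rw [map_zero, zero_div] at hbb
    exact hb0 hbb.symm
  have hN1 : algebraMap (𝓞 K) K (Algebra.intNorm (𝓞 K) (𝓞 E) b₁) =
      Algebra.norm K (algebraMap (𝓞 E) E b₁) :=
    Algebra.algebraMap_intNorm (A := 𝓞 K) (K := K) (L := E) (B := 𝓞 E) b₁
  have hN2 : algebraMap (𝓞 K) K (Algebra.intNorm (𝓞 K) (𝓞 E) b₂) =
      Algebra.norm K (algebraMap (𝓞 E) E b₂) :=
    Algebra.algebraMap_intNorm (A := 𝓞 K) (K := K) (L := E) (B := 𝓞 E) b₂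
  have hb₂E : algebraMap (𝓞 E) E b₂ ≠ 0 := by
    rwa [Ne, IsFractionRing.to_map_eq_zero_iff]
  have hb₁E : algebraMap (𝓞 E) E b₁ ≠ 0 := by
    rwa [Ne, IsFractionRing.to_map_eq_zero_iff]
  have hNb₂ : Algebra.norm K (algebraMap (𝓞 E) E b₂) ≠ 0 := Algebra.norm_ne_zero_iff.2 hb₂E
  have hNb₁ : Algebra.norm K (algebraMap (𝓞 E) E b₁) ≠ 0 := Algebra.norm_ne_zero_iff.2 hb₁E
  have key : γ * y * Algebra.intNorm (𝓞 K) (𝓞 E) b₁ = δ * x * Algebra.intNorm (𝓞 K) (𝓞 E) b₂ := by
    apply IsFractionRing.injective (𝓞 K) K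
    have hb1 : algebraMap (𝓞 E) E b₁ = b * algebraMap (𝓞 E) E b₂ := by
      rw [← hbb, div_mul_cancel₀ _ hb₂E]
    rw [map_mul, map_mul, map_mul, map_mul, hN1, hN2, hγδ, hc, ha, hb1, map_mul]
    field_simp
  -- pass to ideals
  have hI1 : Ideal.relNorm (𝓞 K) (Ideal.span {b₁}) ≠ ⊥ := by
    rwa [Ne, Ideal.relNorm_eq_bot_iff, Ideal.span_singleton_eq_bot]
  have hI2 : Ideal.relNorm (𝓞 K) (Ideal.span {b₂}) ≠ ⊥ := by
    rwa [Ne, Ideal.relNorm_eq_bot_iff, Ideal.span_singleton_eq_bot]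
  have hsx : Ideal.span {x} ≠ ⊥ := by rwa [Ne, Ideal.span_singleton_eq_bot]
  have hsy : Ideal.span {y} ≠ ⊥ := by rwa [Ne, Ideal.span_singleton_eq_bot]
  have hsγ : Ideal.span {γ} ≠ ⊥ := by rwa [Ne, Ideal.span_singleton_eq_bot]
  have hsδ : Ideal.span {δ} ≠ ⊥ := by rwa [Ne, Ideal.span_singleton_eq_bot]
  have key' : Ideal.span {γ} * Ideal.span {y} * Ideal.relNorm (𝓞 K) (Ideal.span {b₁}) =
      Ideal.span {δ} * Ideal.span {x} * Ideal.relNorm (𝓞 K) (Ideal.span {b₂}) := by
    rw [Ideal.relNorm_singleton, Ideal.relNorm_singleton, Ideal.span_singleton_mul_span_singleton,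
      Ideal.span_singleton_mul_span_singleton, Ideal.span_singleton_mul_span_singleton,
      Ideal.span_singleton_mul_span_singleton, key]
  have h1 := congrArg (artinAway K E m) key'
  rw [artinAway_mul K E m (mul_ne_zero hsγ hsy) hI1, artinAway_mul K E m hsγ hsy,
    artinAway_mul K E m (mul_ne_zero hsδ hsx) hI2, artinAway_mul K E m hsδ hsx,
    artinAway_relNorm hunr _ (by rwa [Ne, Ideal.span_singleton_eq_bot]),
    artinAway_relNorm hunr _ (by rwa [Ne, Ideal.span_singleton_eq_bot]),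
    artinAway_span_eq_one hunr hrec hγ0 hγ1, artinAway_span_eq_one hunr hrec hδ0 hδ1,
    one_mul, one_mul, mul_one, mul_one] at h1
  exact h1.symm

end Main

section ValuationForm

open NumberField Fermat.Agent.S14.GalDiv Fermat.Agent.S14.TwoPrime
open Fermat.Agent.S55.GL.NormApprox Fermat.Agent.S55.GL.ArtinAway
open scoped IsMulCommutative

/-- A nonzero principal ideal of a Dedekind domain as a finite product of prime powers. -/
theorem span_eq_prod_pow {R : Type*} [CommRing R] [IsDedekindDomain R] {x : R} (hx : x ≠ 0)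
    (T : Finset (HeightOneSpectrum R)) (hT : ∀ v : HeightOneSpectrum R, x ∈ v.asIdeal → v ∈ T) :
    Ideal.span {x} = ∏ v ∈ T, v.asIdeal ^
      ((Associates.mk v.asIdeal).count (Associates.mk (Ideal.span {x} : Ideal R)).factors) := by
  have h0 : (Ideal.span {x} : Ideal R) ≠ 0 := by
    rwa [Ne, Ideal.zero_eq_bot, Ideal.span_singleton_eq_bot]
  have h1 := Ideal.finprod_heightOneSpectrum_factorization h0
  rw [finprod_eq_prod_of_mulSupport_subset (s := T)] at h1
  · exact h1.symm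
  · intro v hv
    rw [Function.mem_mulSupport] at hv
    rw [Finset.mem_coe]
    apply hT
    by_contra hxv
    apply hv
    have h2 := v.intValuation_if_neg hx
    rw [intValuation_eq_one_iff.2 hxv, ← exp_zero, exp_inj] at h2
    have h3 : (Associates.mk v.asIdeal).count (Associates.mk (Ideal.span {x} : Ideal R)).factors
        = 0 := by omega
    rw [IsDedekindDomain.HeightOneSpectrum.maxPowDividing, h3, pow_zero]

variable {K E : Type*} [Field K] [Field E] [NumberField K] [NumberField E] [Algebra K E]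
  [IsGalois K E] [IsMulCommutative Gal(E/K)] {m : ℕ}

/-- The Artin symbol away from `m` of a finite product of prime powers. -/
theorem artinAway_prod_pow (T : Finset (HeightOneSpectrum (𝓞 K)))
    (k : HeightOneSpectrum (𝓞 K) → ℕ) :
    artinAway K E m (∏ v ∈ T, v.asIdeal ^ k v) = ∏ v ∈ T, frobAway K E m v.asIdeal ^ k v := by
  classical
  induction T using Finset.induction_on with
  | empty =>
    rw [Finset.prod_empty, Finset.prod_empty, Ideal.one_eq_top, artinAway_top]
  | insert v T hv ih =>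
    have hp : v.asIdeal.IsPrime := v.isPrime
    have h1 : v.asIdeal ^ k v ≠ ⊥ := pow_ne_zero _ v.ne_bot
    have h2 : (∏ v ∈ T, v.asIdeal ^ k v) ≠ ⊥ := by
      rw [← Ideal.zero_eq_bot, Finset.prod_ne_zero_iff]
      intro w _
      exact pow_ne_zero _ w.ne_bot
    rw [Finset.prod_insert hv, Finset.prod_insert hv, artinAway_mul K E m h1 h2, artinAway_pow,
      artinAway_prime K E m v.ne_bot, ih]

/-- The Artin symbol away from `m` of a principal ideal in terms of valuations. -/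
theorem artinAway_span_eq_prod {x : 𝓞 K} (hx : x ≠ 0)
    (T : Finset (HeightOneSpectrum (𝓞 K)))
    (hT : ∀ v : HeightOneSpectrum (𝓞 K), x ∈ v.asIdeal → v ∈ T) :
    artinAway K E m (Ideal.span {x}) = ∏ v ∈ T, frobAway K E m v.asIdeal ^
      ((Associates.mk v.asIdeal).count (Associates.mk (Ideal.span {x} : Ideal (𝓞 K))).factors) := by
  conv_lhs => rw [span_eq_prod_pow hx T hT]
  exact artinAway_prod_pow T _

/-- **Theorem II (valuation form).**  Let `E/K` be abelian, unramified outside `m`, with the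
trivial reciprocity law `hrec` for `m`.  If `a ∈ Kˣ` is a local norm (in the approximate sense) at
one prime `wsel v` of `E` above every prime `v ∣ m` of `K`, then
`∏_{v ∤ m} Frob_v ^ ord_v(a) = 1`.  Here `T` is any finite set of primes containing all `v ∤ m`
with `ord_v(a) ≠ 0`, and `n v = ord_v(a)` on `T`. -/
theorem prod_frobAway_zpow_eq_one [NeZero m]
    (hunr : ∀ Q : Ideal (𝓞 E), Q.IsPrime → Q ≠ ⊥ → (m : 𝓞 E) ∉ Q → Q.inertia Gal(E/K) = ⊥)
    (hrec : ∀ γ : 𝓞 K, γ ≠ 0 → γ - 1 ∈ Ideal.span {(m : 𝓞 K)} →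
      ∀ l : List (Ideal (𝓞 E) × Gal(E/K)), IsFrobList m l → underProd l = Ideal.span {γ} →
        frobProd l = 1)
    {a : K} (ha : a ≠ 0)
    (wsel : HeightOneSpectrum (𝓞 K) → HeightOneSpectrum (𝓞 E))
    (hw : ∀ v : HeightOneSpectrum (𝓞 K), (m : 𝓞 K) ∈ v.asIdeal → underK K (wsel v) = v)
    (hLN : ∀ v : HeightOneSpectrum (𝓞 K), (m : 𝓞 K) ∈ v.asIdeal → ∀ k : ℕ, ∃ b : E, b ≠ 0 ∧
      OneMod (wsel v) k (decompNorm (K := K) (wsel v) b / algebraMap K E a))
    (T : Finset (HeightOneSpectrum (𝓞 K)))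
    (hT : ∀ v : HeightOneSpectrum (𝓞 K), (m : 𝓞 K) ∉ v.asIdeal → v.valuation K a ≠ 1 → v ∈ T)
    (n : HeightOneSpectrum (𝓞 K) → ℤ) (hn : ∀ v ∈ T, v.valuation K a = exp (-(n v))) :
    ∏ v ∈ T, frobAway K E m v.asIdeal ^ n v = 1 := by
  classical
  obtain ⟨x, y, hy, rfl⟩ := IsFractionRing.div_surjective (A := 𝓞 K) a
  have hy0 : y ≠ 0 := nonZeroDivisors.ne_zero hy
  have hx0 : x ≠ 0 := by
    rintro rfl
    rw [map_zero, zero_div] at ha
    exact ha rfl
  have hII := artinAway_eq_of_localNorms hunr hrec hx0 hy0 wsel hw hLN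
  have hsx : (Ideal.span {x} : Ideal (𝓞 K)) ≠ 0 := by
    rwa [Ne, Ideal.zero_eq_bot, Ideal.span_singleton_eq_bot]
  have hsy : (Ideal.span {y} : Ideal (𝓞 K)) ≠ 0 := by
    rwa [Ne, Ideal.zero_eq_bot, Ideal.span_singleton_eq_bot]
  set Tx : Finset (HeightOneSpectrum (𝓞 K)) := (Ideal.finite_factors hsx).toFinset with hTx
  set Ty : Finset (HeightOneSpectrum (𝓞 K)) := (Ideal.finite_factors hsy).toFinset with hTy
  have hmemTx : ∀ v : HeightOneSpectrum (𝓞 K), x ∈ v.asIdeal → v ∈ Tx := by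
    intro v hv
    rw [hTx, Set.Finite.mem_toFinset, Set.mem_ofPred_eq, Ideal.dvd_span_singleton]
    exact hv
  have hmemTy : ∀ v : HeightOneSpectrum (𝓞 K), y ∈ v.asIdeal → v ∈ Ty := by
    intro v hv
    rw [hTy, Set.Finite.mem_toFinset, Set.mem_ofPred_eq, Ideal.dvd_span_singleton]
    exact hv
  set T' : Finset (HeightOneSpectrum (𝓞 K)) := T ∪ Tx ∪ Ty with hT'
  set nx : HeightOneSpectrum (𝓞 K) → ℕ := fun v =>
    (Associates.mk v.asIdeal).count (Associates.mk (Ideal.span {x} : Ideal (𝓞 K))).factors with hnx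
  set ny : HeightOneSpectrum (𝓞 K) → ℕ := fun v =>
    (Associates.mk v.asIdeal).count (Associates.mk (Ideal.span {y} : Ideal (𝓞 K))).factors with hny
  rw [artinAway_span_eq_prod hx0 T'
      (fun v hv => Finset.mem_union_left _ (Finset.mem_union_right _ (hmemTx v hv))),
    artinAway_span_eq_prod hy0 T' (fun v hv => Finset.mem_union_right _ (hmemTy v hv))] at hII
  have hval : ∀ v : HeightOneSpectrum (𝓞 K),
      v.valuation K (algebraMap (𝓞 K) K x / algebraMap (𝓞 K) K y) =
        exp ((ny v : ℤ) - nx v) := by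
    intro v
    rw [map_div₀, valuation_of_algebraMap, valuation_of_algebraMap, v.intValuation_if_neg hx0,
      v.intValuation_if_neg hy0, ← exp_sub]
    congr 1
    simp only [hnx, hny]
    ring
  have h1 : ∏ v ∈ T', frobAway K E m v.asIdeal ^ ((nx v : ℤ) - ny v) = 1 := by
    simp only [zpow_sub, zpow_natCast]
    rw [Finset.prod_mul_distrib, Finset.prod_inv_distrib, hII, mul_inv_cancel]
  rw [← h1]
  have hsub : T ⊆ T' := fun v hv => Finset.mem_union_left _ (Finset.mem_union_left _ hv)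
  rw [← Finset.prod_subset hsub]
  · refine Finset.prod_congr rfl fun v hv => ?_
    have h2 := hn v hv
    rw [hval v, exp_inj] at h2
    congr 1
    omega
  · intro v _ hvT
    by_cases hmv : (m : 𝓞 K) ∈ v.asIdeal
    · rw [frobAway_of_mem K E m hmv, one_zpow]
    · have h2 : v.valuation K (algebraMap (𝓞 K) K x / algebraMap (𝓞 K) K y) = 1 := by
        by_contra h
        exact hvT (hT v hmv h)
      rw [hval v, ← exp_zero, exp_inj] at h2
      rw [show ((nx v : ℤ) - ny v) = 0 by omega, zpow_zero]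

end ValuationForm

end Fermat.Agent.S55.GL.RecipCore
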