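/-
S55 / final assembly: RECIPROCITY OVER `ℚ` from the MINIMAL inputs at `L = ⊥`.

`RecipQS.hrec_invLoc` asks for the whole structure `BrauerInput p S ⊥ Fb`; only two of its fields
are used.  Here the same conclusion from
* `hrecip` = the field `recip` at `L = ⊥` (reciprocity for `p`-primary classes of `H²(G_S, ℚ_S^×)`),
* `hunit`  = the field `unit_res` at `L = ⊥` (classes of `H²(G_S, E_S)` are locally trivial off `S`),
so that the Hasse principle, existence and the unit sequence are NOT needed over `ℚ` (where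
`ζ_p ∉ ℚ`).  Also the top-level theorem in this form.
-/
import Fermat.Agent.S55.GL.RecipQS
import Fermat.Agent.S55.TopBlocks

set_option autoImplicit false
set_option linter.unusedSectionVars false

open CategoryTheory IntermediateField

namespace Fermat.Agent.S55.GL.RecipQMin

open Fermat.Agent.S55.Level Fermat.Agent.S55.GaloisLevel Fermat.Agent.S55.GL.Places
  Fermat.Agent.S55.LevelTransport Fermat.Agent.S55.GL.BrauerLocal Fermat.Agent.S55.GL.QSMod
  Fermat.Agent.S55.GL.BrauerInst Fermat.Agent.S55.CF Fermat.Agent.S55.CFAbs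
  Fermat.Agent.S55.DualTwist Fermat.Agent.S55.Local.LocalInv
  ExtCitation groupCohomology Fermat.Agent.S55.Assembly Fermat.Agent.S55.Cone
  Fermat.Agent.S55.GL.RecipQ Fermat.Agent.S55.GL.RecipQS Fermat.Agent.S55.TraceGlueLocal
  Fermat.Agent.S55.GL.ArithUInst

local notation "Qbar" => AlgebraicClosure ℚ
local notation "Γ" => (AlgebraicClosure ℚ ≃ₐ[ℚ] AlgebraicClosure ℚ)

local instance isGaloisQbar_RQM : IsGalois ℚ Qbar := Fermat.Agent.S55.Level.isGalois_Qbar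
local instance factPrime_RQM (q : Nat.Primes) : Fact (q : ℕ).Prime := ⟨q.2⟩

variable {p : ℕ} [hpF : Fact p.Prime] (S : Finset Nat.Primes)
  (hpS : (⟨p, hpF.out⟩ : Nat.Primes) ∈ S) {ζ : Qbar} (hζ : IsPrimitiveRoot ζ p)
  (Fb : ∀ v : FinPlace (⊥ : IntermediateField ℚ Qbar),
    Formation (levelv ⊥ v) (unitsRep (Kv ⊥ v) (PadicAlgCl (v.prime : ℕ))))
  (FG : ∀ q : ↥S, Formation (krullLevel ℚ_[(q.1 : ℕ)] (PadicAlgCl (q.1 : ℕ)))
    (unitsRep ℚ_[(q.1 : ℕ)] (PadicAlgCl (q.1 : ℕ))))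

include hpS in
/-- The sum formula over the places of `L` above `S` for the classes of `H²(G_{L,S}, μ_p)`, from
`recip` and `unit_res` alone (any `L`). -/
theorem sum_inv_kappa_locμ (L : IntermediateField ℚ Qbar) [FiniteDimensional ℚ L]
    (F : ∀ v : FinPlace L, Formation (levelv L v) (unitsRep (Kv L v) (PadicAlgCl (v.prime : ℕ))))
    (hrecip : ∀ y : levelCohomology (levelLS S L) (resL L (QSUnits S)) 2, IsPPrim p y →
      ∃ T : Finset (FinPlace L), (∀ v, v ∉ T → resQ S L v y = 0) ∧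
        ∑ v ∈ T, (F v).inv (resQ S L v y) = 0)
    (hunit : ∀ v : FinPlace L, v.prime ∉ S →
      ∀ e : levelCohomology (levelLS S L) (resL L (ESUnits S)) 2, IsPPrim p e →
        resQ S L v ((Hmap (levelLS S L) (fL S L) 2).hom e) = 0)
    (c : levelCohomology (levelLS S L) (resL L (muP S p)) 2) :
    ∑ v ∈ placesAbove L S, (F v).inv (kappa p S L v (locμ p S L v c)) = 0 := by
  classical
  set e := (Hmap (levelLS S L) (ιL p S L) 2).hom c with he
  have hpc : p • c = 0 :=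
    nsmul_levelCohomology_eq_zero (levelLS S L) (kummerL_shortExact p S L hpF.out hpS) 2 c
  have hpe : p • e = 0 := by rw [he, ← map_nsmul, hpc, map_zero]
  have hprim : IsPPrim p e := IsPPrim.of_nsmul_eq_zero hpe
  set y := (Hmap (levelLS S L) (fL S L) 2).hom e with hy
  have hyprim : IsPPrim p y := hprim.map (Hmap (levelLS S L) (fL S L) 2).hom.toAddMonoidHom
  obtain ⟨T, hT, hsum⟩ := hrecip y hyprim
  have hoff : ∀ v, v ∉ placesAbove L S → resQ S L v y = 0 := fun v hv =>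
    hunit v (fun h => hv ((mem_placesAbove L S v).2 h)) e hprim
  have h1 : ∑ v ∈ placesAbove L S, (F v).inv (resQ S L v y) =
      ∑ v ∈ T ∪ placesAbove L S, (F v).inv (resQ S L v y) :=
    Finset.sum_subset Finset.subset_union_right fun v _ hv => by rw [hoff v hv, map_zero]
  have h2 : ∑ v ∈ T, (F v).inv (resQ S L v y) =
      ∑ v ∈ T ∪ placesAbove L S, (F v).inv (resQ S L v y) :=
    Finset.sum_subset Finset.subset_union_left fun v _ hv => by rw [hT v hv, map_zero]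
  have h3 : ∑ v ∈ placesAbove L S, (F v).inv (resQ S L v y) = 0 := by rw [h1, ← h2, hsum]
  rw [← h3]
  refine Finset.sum_congr rfl fun v _ => ?_
  rw [kappa_locμ]

include hpS in
/-- **Reciprocity over `ℚ`** for `invLoc q hζ (FG q)`, `q ∈ S`, from the sum formula at `⊥`. -/
theorem hrec_invLoc_of_sum
    (hF : ∀ (v : FinPlace (⊥ : IntermediateField ℚ Qbar)) (hv : v.prime ∈ S)
      (x : levelCohomology (krullLevel ℚ_[(v.prime : ℕ)] (PadicAlgCl (v.prime : ℕ)))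
        (unitsRep ℚ_[(v.prime : ℕ)] (PadicAlgCl (v.prime : ℕ))) 2),
      (Fb v).inv ((bcMap ℚ_[(v.prime : ℕ)] (Kv ⊥ v) (PadicAlgCl (v.prime : ℕ)) 2).hom x) =
        (FG ⟨v.prime, hv⟩).inv x)
    (hsum : ∀ c : levelCohomology (levelLS S ⊥) (resL ⊥ (muP S p)) 2,
      ∑ v ∈ placesAbove (⊥ : IntermediateField ℚ Qbar) S,
        (Fb v).inv (kappa p S ⊥ v (locμ p S ⊥ v c)) = 0)
    [IsDiscrete (globalLevel S) (ofChar (k := ZMod p) (cycloChar p))]
    (y : levelCohomology (globalLevel S) (ofChar (k := ZMod p) (cycloChar p)) 2) :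
    ∑ q : (localData S).ι,
      invLoc q.1 hζ (FG q) (locH (localData S) (ofChar (k := ZMod p) (cycloChar p)) 2 y q) = 0 := by
  have : NeZero p := ⟨hpF.out.ne_zero⟩
  apply ZMod.toAddCircle_injective p
  rw [map_sum, map_zero]
  have h := hsum ((toL S ⊥ 2).hom (toMu S hpS hζ 2 y))
  rw [sum_placesAbove_bot] at h
  rw [← h]
  refine Finset.sum_congr rfl fun q _ => ?_
  exact (@toAddCircle_invPrime p _ q.1 ζ hζ
    ((localData S).isDiscrete_res (ofChar (k := ZMod p) (cycloChar p)) q) (FG q) _).trans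
    (inv_locBrPrime_eq' S hpS hζ Fb FG hF y q)

include hpS in
/-- **Reciprocity over `ℚ`** from `recip` and `unit_res` at `L = ⊥`. -/
theorem hrec_invLoc_of_recip
    (hF : ∀ (v : FinPlace (⊥ : IntermediateField ℚ Qbar)) (hv : v.prime ∈ S)
      (x : levelCohomology (krullLevel ℚ_[(v.prime : ℕ)] (PadicAlgCl (v.prime : ℕ)))
        (unitsRep ℚ_[(v.prime : ℕ)] (PadicAlgCl (v.prime : ℕ))) 2),
      (Fb v).inv ((bcMap ℚ_[(v.prime : ℕ)] (Kv ⊥ v) (PadicAlgCl (v.prime : ℕ)) 2).hom x) =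
        (FG ⟨v.prime, hv⟩).inv x)
    (hrecip : ∀ y : levelCohomology (levelLS S ⊥) (resL ⊥ (QSUnits S)) 2, IsPPrim p y →
      ∃ T : Finset (FinPlace (⊥ : IntermediateField ℚ Qbar)),
        (∀ v, v ∉ T → resQ S ⊥ v y = 0) ∧ ∑ v ∈ T, (Fb v).inv (resQ S ⊥ v y) = 0)
    (hunit : ∀ v : FinPlace (⊥ : IntermediateField ℚ Qbar), v.prime ∉ S →
      ∀ e : levelCohomology (levelLS S ⊥) (resL ⊥ (ESUnits S)) 2, IsPPrim p e →
        resQ S ⊥ v ((Hmap (levelLS S ⊥) (fL S ⊥) 2).hom e) = 0)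
    [IsDiscrete (globalLevel S) (ofChar (k := ZMod p) (cycloChar p))]
    (y : levelCohomology (globalLevel S) (ofChar (k := ZMod p) (cycloChar p)) 2) :
    ∑ q : (localData S).ι,
      invLoc q.1 hζ (FG q) (locH (localData S) (ofChar (k := ZMod p) (cycloChar p)) 2 y q) = 0 :=
  hrec_invLoc_of_sum S hpS hζ Fb FG hF
    (fun c => sum_inv_kappa_locμ S hpS ⊥ Fb hrecip hunit c) y

include hζ in
/-- **The frozen S55 from local class formations, reciprocity + unit triviality at `ℚ`, and the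
arithmetic blocks over the good fields** (`TopBlocks.result_of_formations_blocks` with `hrec`
discharged by `hrec_invLoc_of_recip`). -/
theorem result_of_formations_recip_blocks (hp2 : p ≠ 2) (hpS' : pPrime p ∈ S)
    (M : Rep (ZMod p) Γ) [FiniteDimensional (ZMod p) M]
    (hsm : ∀ m : M, ∃ F : IntermediateField ℚ Qbar, FiniteDimensional ℚ F ∧
      ∀ s ∈ F.fixingSubgroup, M.ρ s m = m)
    (hMur : ∀ q : Nat.Primes, q ∉ S → ∀ A : ValuationSubring Qbar,
      A.LiesOverPrime (q : ℕ) → ∀ g ∈ A.inertiaSubgroupIn ℚ, M.ρ g = 1)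
    (FE : ∀ (q : ↥S) (E : IntermediateField ℚ_[(q.1 : ℕ)] (PadicAlgCl (q.1 : ℕ))),
      FiniteDimensional ℚ_[(q.1 : ℕ)] E → IsGalois ℚ_[(q.1 : ℕ)] E →
      Formation (krullLevel E (PadicAlgCl (q.1 : ℕ))) (unitsRep E (PadicAlgCl (q.1 : ℕ))))
    (hBC : ∀ (q : ↥S) (E : IntermediateField ℚ_[(q.1 : ℕ)] (PadicAlgCl (q.1 : ℕ)))
      (hfd : FiniteDimensional ℚ_[(q.1 : ℕ)] E) (hgal : IsGalois ℚ_[(q.1 : ℕ)] E)
      (x : levelCohomology (krullLevel ℚ_[(q.1 : ℕ)] (PadicAlgCl (q.1 : ℕ)))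
        (unitsRep ℚ_[(q.1 : ℕ)] (PadicAlgCl (q.1 : ℕ))) 2),
      (FE q E hfd hgal).inv ((bcMap ℚ_[(q.1 : ℕ)] E (PadicAlgCl (q.1 : ℕ)) 2).hom x) =
        Module.finrank ℚ_[(q.1 : ℕ)] E • (FG q).inv x)
    (hF : ∀ (v : FinPlace (⊥ : IntermediateField ℚ Qbar)) (hv : v.prime ∈ S)
      (x : levelCohomology (krullLevel ℚ_[(v.prime : ℕ)] (PadicAlgCl (v.prime : ℕ)))
        (unitsRep ℚ_[(v.prime : ℕ)] (PadicAlgCl (v.prime : ℕ))) 2),
      (Fb v).inv ((bcMap ℚ_[(v.prime : ℕ)] (Kv ⊥ v) (PadicAlgCl (v.prime : ℕ)) 2).hom x) =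
        (FG ⟨v.prime, hv⟩).inv x)
    (hrecip : ∀ y : levelCohomology (levelLS S ⊥) (resL ⊥ (QSUnits S)) 2, IsPPrim p y →
      ∃ T : Finset (FinPlace (⊥ : IntermediateField ℚ Qbar)),
        (∀ v, v ∉ T → resQ S ⊥ v y = 0) ∧ ∑ v ∈ T, (Fb v).inv (resQ S ⊥ v y) = 0)
    (hunit : ∀ v : FinPlace (⊥ : IntermediateField ℚ Qbar), v.prime ∉ S →
      ∀ e : levelCohomology (levelLS S ⊥) (resL ⊥ (ESUnits S)) 2, IsPPrim p e →
        resQ S ⊥ v ((Hmap (levelLS S ⊥) (fL S ⊥) 2).hom e) = 0)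
    (hB : AllBrauerBlocks S p) :
    ∃ B : sha₁ S (M.dualTwist (cycloChar p)) →ₗ[ZMod p] sha₂ S M →ₗ[ZMod p] ZMod p,
      (∀ y, (∀ x, B y x = 0) → y = 0) ∧ (∀ x, (∀ y, B y x = 0) → x = 0) :=
  Fermat.Agent.S55.TopBlocks.result_of_formations_blocks S hp2 hpS' M hsm hMur hζ FG FE hBC
    (fun {_} y => hrec_invLoc_of_recip S hpS' hζ Fb FG hF hrecip hunit y) hB

end Fermat.Agent.S55.GL.RecipQMin
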