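/-
S55 GLO9c (R), plumbing part 3: the unramified local data `UnramAt` of `RecipLocal` from trivial
inertia (helper2's `PlacesRelUnram`).
-/
import Fermat.Agent.S55.GL.RecipLocal
import Fermat.Agent.S55.GL.PlacesRelUnram

set_option autoImplicit false
set_option linter.unusedSectionVars false
set_option linter.style.haveILetI false

open CategoryTheory IntermediateField

namespace Fermat.Agent.S55.GL.RecipUnram

open NumberField IsDedekindDomain HeightOneSpectrum
open Fermat.Agent.S55.Local Fermat.Agent.S55.LocalDict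
open Fermat.Agent.S55.GL.Places Fermat.Agent.S55.GL.PlacesRel Fermat.Agent.S55.GL.PlacesRelUnram
open Fermat.Agent.S55.GL.RecipLayer Fermat.Agent.S55.GL.RecipLocal

local notation "Qbar" => AlgebraicClosure ℚ
local notation "Γ" => (AlgebraicClosure ℚ ≃ₐ[ℚ] AlgebraicClosure ℚ)

local instance isGaloisQbar_RU : IsGalois ℚ Qbar := Fermat.Agent.S55.Level.isGalois_Qbar

variable (q : ℕ) [Fact q.Prime] (L : IntermediateField ℚ Qbar) (τ : Γ)
  [FiniteDimensional ℚ L] [NumberField ↥L]
  (E : IntermediateField ↥L Qbar) [IsGalois ↥L ↥E] [FiniteDimensional ↥L ↥E] [NumberField ↥E]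

attribute [local instance] Fermat.Agent.S55.GL.RecipLayer.algebraE₀
  Fermat.Agent.S55.GL.RecipLayer.normalE₀ Fermat.Agent.S55.GL.RecipLayer.finiteDimensionalE₀

local instance isGaloisE₀_RU : IsGalois ↥L ↥(E₀ L E) := inferInstanceAs (IsGalois ↥L ↥E)

local instance numberFieldE₀_RU : NumberField ↥(E₀ L E) := inferInstanceAs (NumberField ↥E)

set_option maxHeartbeats 1000000 in
set_option synthInstance.maxHeartbeats 400000 in
/-- **Trivial inertia at `primeE` gives the unramified local data.** -/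
theorem unramAt_of_inertia_eq_bot
    (hw : (primeE q L τ E).asIdeal.inertia (↥E ≃ₐ[↥L] ↥E) = ⊥) : UnramAt q L τ E := by
  have hI : (primeAt q (E₀ L E) τ).asIdeal.inertia (↥(E₀ L E) ≃ₐ[↥L] ↥(E₀ L E)) = ⊥ := hw
  have hunr : Unram.IsUnramifiedIn (integralClosure ℤ_[q] (localFieldAt q L τ)) (Ew q L τ E) :=
    isUnramifiedIn_localExt_of_inertia_eq_bot (K := L) (L := E₀ L E) (halgE L E) q τ hI
  refine ⟨hunr, ?_, ?_⟩
  · exact isArithFrobAt_decompEquiv_symm_frob (K := L) (L := E₀ L E) (halgE L E) q τ hunr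
  · intro x
    exact valuation_eq_exp_neg_ordZ (K := L) (L := E₀ L E) (halgE L E) q τ x

end Fermat.Agent.S55.GL.RecipUnram
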