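/-
S55 (T4), block GLO2/GLO3 interface: the semi-local multiplicative group
`∏_{w | q} L_w^×` of a number field `L ⊆ ℚ̄`, realised cast-free inside
`PlacesOver q L → (PadicAlgCl q)ˣ`, with the action of the Galois group `stabField L`,
the diagonal embedding of `L^×` and the projections.
-/
import Mathlib
import Fermat.Agent.S55.GL.PlacesDecomp

set_option autoImplicit false
set_option linter.style.haveILetI false

namespace Fermat.Agent.S55.GL.Places

open Polynomial IntermediateField Fermat.Agent.S55.LocalDict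
open scoped Pointwise

variable (q : ℕ) [Fact q.Prime]

local notation "Qbar" => AlgebraicClosure ℚ
local notation "Γ" => (AlgebraicClosure ℚ ≃ₐ[ℚ] AlgebraicClosure ℚ)
local notation "Tq" => (PadicAlgCl q ≃ₐ[ℚ_[q]] PadicAlgCl q)

/-! ### Transport of embeddings -/

/-- `τ` transports the embedding `ι ∘ σ` of `L` to the embedding `ι ∘ σ'`, along `g`:
`ι (σ' (g y)) = τ (ι (σ y))` for `y ∈ L`. -/
def IsTransport (L : IntermediateField ℚ Qbar) (σ σ' g : Γ) (τ : Tq) : Prop :=
  ∀ y ∈ L, padicEmbedding q (σ' (g y)) = τ (padicEmbedding q (σ y))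

variable {q}

theorem IsTransport.one (L : IntermediateField ℚ Qbar) (σ : Γ) : IsTransport q L σ σ 1 1 :=
  fun _ _ => rfl

theorem IsTransport.comp {L : IntermediateField ℚ Qbar} {σ σ' σ'' g g' : Γ} {τ τ' : Tq}
    (hg : g ∈ stabField L) (h : IsTransport q L σ σ' g τ) (h' : IsTransport q L σ' σ'' g' τ') :
    IsTransport q L σ σ'' (g' * g) (τ' * τ) := by
  intro y hy
  rw [AlgEquiv.mul_apply, AlgEquiv.mul_apply, ← h y hy]
  exact h' (g y) (apply_mem_of_mem_stabField hg hy)

theorem IsTransport.inv {L : IntermediateField ℚ Qbar} {σ σ' g : Γ} {τ : Tq}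
    (hg : g ∈ stabField L) (h : IsTransport q L σ σ' g τ) :
    IsTransport q L σ' σ g⁻¹ τ⁻¹ := by
  intro y hy
  have hy' : g⁻¹ y ∈ L := apply_mem_of_mem_stabField (inv_mem hg) hy
  have := h (g⁻¹ y) hy'
  rw [show g (g⁻¹ y) = y from g.apply_symm_apply y] at this
  rw [this]
  exact (τ.symm_apply_apply _).symm

/-- A transport maps `ℚ_q(ι σ L)` into `ℚ_q(ι σ' L)`. -/
theorem IsTransport.apply_mem {L : IntermediateField ℚ Qbar} {σ σ' g : Γ} {τ : Tq}
    (hg : g ∈ stabField L) (h : IsTransport q L σ σ' g τ) {y : PadicAlgCl q}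
    (hy : y ∈ localFieldAt q L σ) : τ y ∈ localFieldAt q L σ' := by
  have hle : localFieldAt q L σ ≤
      (localFieldAt q L σ').comap (τ : PadicAlgCl q →ₐ[ℚ_[q]] PadicAlgCl q) := by
    rw [localFieldAt_le_iff]
    intro x hx
    show τ (padicEmbedding q (σ x)) ∈ localFieldAt q L σ'
    rw [← h x hx]
    exact padicEmbedding_apply_mem_localFieldAt q σ' (apply_mem_of_mem_stabField hg hx)
  exact hle hy

/-- Two transports agree on `ℚ_q(ι σ L)`. -/
theorem IsTransport.apply_eq {L : IntermediateField ℚ Qbar} {σ σ' g : Γ} {τ τ' : Tq}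
    (h : IsTransport q L σ σ' g τ) (h' : IsTransport q L σ σ' g τ') {y : PadicAlgCl q}
    (hy : y ∈ localFieldAt q L σ) : τ y = τ' y := by
  have hfix : τ'⁻¹ * τ ∈ (localFieldAt q L σ).fixingSubgroup := by
    rw [localFieldAt, localField, mem_fixingSubgroup_adjoin_iff]
    rintro _ ⟨_, ⟨x, hx, rfl⟩, rfl⟩
    show τ'⁻¹ (τ (padicEmbedding q (σ x))) = padicEmbedding q (σ x)
    rw [← h x hx, h' x hx]
    exact τ'.symm_apply_apply _
  have := (IntermediateField.mem_fixingSubgroup_iff _ _).mp hfix y hy
  rw [AlgEquiv.mul_apply] at this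
  have h2 := congrArg τ' this
  rwa [show τ' (τ'⁻¹ (τ y)) = τ y from τ'.apply_symm_apply _] at h2

variable (q)

/-- Transports exist between representatives of `w` and `g • w`. -/
theorem exists_isTransport {L : IntermediateField ℚ Qbar} [FiniteDimensional ℚ L] {σ σ' g : Γ}
    (hg : g ∈ stabField L) (hs : SamePlace q L (σ * g⁻¹) σ') :
    ∃ τ : Tq, IsTransport q L σ σ' g τ := by
  obtain ⟨τ, hτ⟩ := (samePlace_iff_exists_algEquiv q).mp hs
  refine ⟨τ, fun y hy => ?_⟩
  have := hτ (g y) (apply_mem_of_mem_stabField hg hy)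
  rw [this, AlgEquiv.mul_apply, show g⁻¹ (g y) = y from g.symm_apply_apply y]

/-- If `g ≡ conjLocal σ τ` modulo `G_L`, then `τ` transports `ι ∘ σ` to itself along `g`. -/
theorem isTransport_of_eq_conjLocal_mul {L : IntermediateField ℚ Qbar} {σ g h : Γ} {τ : Tq}
    (hh : h ∈ L.fixingSubgroup) (hg : g = conjLocal q σ τ * h) : IsTransport q L σ σ g τ := by
  intro y hy
  rw [hg, AlgEquiv.mul_apply, (IntermediateField.mem_fixingSubgroup_iff L h).mp hh y hy,
    padicEmbedding_conjLocal]

section Trans

variable (L : IntermediateField ℚ Qbar) [FiniteDimensional ℚ L]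

omit [FiniteDimensional ℚ L] in
theorem samePlace_rep_smul (g : stabField L) (w : PlacesOver q L) :
    SamePlace q L (PlacesOver.rep q w * (g : Γ)⁻¹) (PlacesOver.rep q (g • w)) := by
  rw [← placeOf_eq_iff, placeOf_rep, ← smul_placeOf, placeOf_rep]

/-- A chosen automorphism of `PadicAlgCl q` transporting `L_w` to `L_{g • w}` along `g`. -/
noncomputable def transAut (g : stabField L) (w : PlacesOver q L) : Tq :=
  Classical.choose (exists_isTransport q g.2 (samePlace_rep_smul q L g w))

theorem isTransport_transAut (g : stabField L) (w : PlacesOver q L) :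
    IsTransport q L (PlacesOver.rep q w) (PlacesOver.rep q (g • w)) g (transAut q L g w) :=
  Classical.choose_spec (exists_isTransport q g.2 (samePlace_rep_smul q L g w))

theorem transAut_apply_mem (g : stabField L) (w : PlacesOver q L) {y : PadicAlgCl q}
    (hy : y ∈ PlacesOver.localField q w) :
    transAut q L g w y ∈ PlacesOver.localField q (g • w) :=
  (isTransport_transAut q L g w).apply_mem g.2 hy

/-- Characterisation of `transAut` on `L_w`: any transport computes it. -/
theorem transAut_apply_eq (g : stabField L) (w : PlacesOver q L) {τ : Tq}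
    (hτ : IsTransport q L (PlacesOver.rep q w) (PlacesOver.rep q (g • w)) g τ)
    {y : PadicAlgCl q} (hy : y ∈ PlacesOver.localField q w) : transAut q L g w y = τ y :=
  (isTransport_transAut q L g w).apply_eq hτ hy

theorem transAut_one_apply (w : PlacesOver q L) {y : PadicAlgCl q}
    (hy : y ∈ PlacesOver.localField q w) : transAut q L 1 w y = y := by
  have h := isTransport_transAut q L 1 w
  have h1 : IsTransport q L (PlacesOver.rep q w) (PlacesOver.rep q ((1 : stabField L) • w))
      ((1 : stabField L) : Γ) 1 := by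
    rw [one_smul]
    exact IsTransport.one L _
  exact h.apply_eq h1 hy

theorem transAut_mul_apply (g h : stabField L) (w : PlacesOver q L) {y : PadicAlgCl q}
    (hy : y ∈ PlacesOver.localField q w) :
    transAut q L (g * h) w y = transAut q L g (h • w) (transAut q L h w y) := by
  have h1 := isTransport_transAut q L (g * h) w
  have h2 := (isTransport_transAut q L h w).comp h.2 (isTransport_transAut q L g (h • w))
  rw [← mul_smul] at h2
  exact h1.apply_eq h2 hy

/-- The embedding is transported: `τ_{g,w} (ι (σ_w y)) = ι (σ_{g w} (g y))`. -/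
theorem transAut_padicEmbedding (g : stabField L) (w : PlacesOver q L) {y : Qbar} (hy : y ∈ L) :
    transAut q L g w (padicEmbedding q (PlacesOver.rep q w y)) =
      padicEmbedding q (PlacesOver.rep q (g • w) ((g : Γ) y)) :=
  (isTransport_transAut q L g w y hy).symm

end Trans

/-! ### The semi-local group `∏_{w | q} L_w^×` -/

/-- The semi-local multiplicative group of `L` at `q`: families `(x_w)_{w | q}` with
`x_w ∈ L_w^×`, as a subgroup of `PlacesOver q L → (PadicAlgCl q)ˣ`. -/
def SemiLocalUnits (L : IntermediateField ℚ Qbar) :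
    Subgroup (PlacesOver q L → (PadicAlgCl q)ˣ) where
  carrier := {x | ∀ w, ((x w : (PadicAlgCl q)ˣ) : PadicAlgCl q) ∈ PlacesOver.localField q w}
  mul_mem' := by
    intro x y hx hy w
    rw [Pi.mul_apply, Units.val_mul]
    exact mul_mem (hx w) (hy w)
  one_mem' := by
    intro w
    rw [Pi.one_apply, Units.val_one]
    exact one_mem _
  inv_mem' := by
    intro x hx w
    rw [Pi.inv_apply, Units.val_inv_eq_inv_val]
    exact inv_mem (hx w)

theorem mem_semiLocalUnits {L : IntermediateField ℚ Qbar} {x : PlacesOver q L → (PadicAlgCl q)ˣ} :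
    x ∈ SemiLocalUnits q L ↔
      ∀ w, ((x w : (PadicAlgCl q)ˣ) : PadicAlgCl q) ∈ PlacesOver.localField q w := Iff.rfl

section Action

variable (L : IntermediateField ℚ Qbar) [FiniteDimensional ℚ L]

/-- The underlying function of `g • x`. -/
noncomputable def smulFun (g : stabField L) (x : PlacesOver q L → (PadicAlgCl q)ˣ) :
    PlacesOver q L → (PadicAlgCl q)ˣ :=
  fun w => Units.map ((transAut q L g (g⁻¹ • w) : PadicAlgCl q →+* PadicAlgCl q) :
    PadicAlgCl q →* PadicAlgCl q) (x (g⁻¹ • w))

theorem coe_smulFun (g : stabField L) (x : PlacesOver q L → (PadicAlgCl q)ˣ) (w : PlacesOver q L) :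
    ((smulFun q L g x w : (PadicAlgCl q)ˣ) : PadicAlgCl q) =
      transAut q L g (g⁻¹ • w) ((x (g⁻¹ • w) : (PadicAlgCl q)ˣ) : PadicAlgCl q) := rfl

theorem smulFun_mem (g : stabField L) {x : PlacesOver q L → (PadicAlgCl q)ˣ}
    (hx : x ∈ SemiLocalUnits q L) : smulFun q L g x ∈ SemiLocalUnits q L := by
  intro w
  rw [coe_smulFun]
  have := transAut_apply_mem q L g (g⁻¹ • w) (hx (g⁻¹ • w))
  rwa [smul_inv_smul] at this

noncomputable instance mulDistribMulActionSemiLocalUnits :
    MulDistribMulAction (stabField L) (SemiLocalUnits q L) where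
  smul g x := ⟨smulFun q L g x.1, smulFun_mem q L g x.2⟩
  one_smul x := by
    apply Subtype.ext
    funext w
    apply Units.ext
    show ((smulFun q L 1 x.1 w : (PadicAlgCl q)ˣ) : PadicAlgCl q) = _
    rw [coe_smulFun, transAut_one_apply q L _ (x.2 _), inv_one, one_smul]
  mul_smul g h x := by
    apply Subtype.ext
    funext w
    apply Units.ext
    show ((smulFun q L (g * h) x.1 w : (PadicAlgCl q)ˣ) : PadicAlgCl q) =
      ((smulFun q L g (smulFun q L h x.1) w : (PadicAlgCl q)ˣ) : PadicAlgCl q)
    rw [coe_smulFun, coe_smulFun, coe_smulFun, transAut_mul_apply q L g h _ (x.2 _)]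
    have e1 : (g * h)⁻¹ • w = h⁻¹ • g⁻¹ • w := by rw [mul_inv_rev, mul_smul]
    have e2 : h • (g * h)⁻¹ • w = g⁻¹ • w := by rw [e1, smul_inv_smul]
    rw [e2, e1]
  smul_mul g x y := by
    apply Subtype.ext
    funext w
    show smulFun q L g (x.1 * y.1) w = smulFun q L g x.1 w * smulFun q L g y.1 w
    simp only [smulFun, Pi.mul_apply, map_mul]
  smul_one g := by
    apply Subtype.ext
    funext w
    show smulFun q L g 1 w = 1
    simp only [smulFun, Pi.one_apply, map_one]

theorem coe_smul_apply (g : stabField L) (x : SemiLocalUnits q L) (w : PlacesOver q L) :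
    (((g • x : SemiLocalUnits q L).1 w : (PadicAlgCl q)ˣ) : PadicAlgCl q) =
      transAut q L g (g⁻¹ • w) ((x.1 (g⁻¹ • w) : (PadicAlgCl q)ˣ) : PadicAlgCl q) := rfl

/-- `(g • x)_{g • w} = τ_{g,w} (x_w)`. -/
theorem coe_smul_apply_smul (g : stabField L) (x : SemiLocalUnits q L) (w : PlacesOver q L) :
    (((g • x : SemiLocalUnits q L).1 (g • w) : (PadicAlgCl q)ˣ) : PadicAlgCl q) =
      transAut q L g w ((x.1 w : (PadicAlgCl q)ˣ) : PadicAlgCl q) := by
  rw [coe_smul_apply, inv_smul_smul]

/-- For `g` in the stabiliser of `w`, `(g • x)_w = τ_{g,w} (x_w)`: the decomposition group acts on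
the `w`-component through `Gal(L_w/ℚ_q)`. -/
theorem coe_smul_apply_of_smul_eq (g : stabField L) (x : SemiLocalUnits q L) (w : PlacesOver q L)
    (hg : g • w = w) :
    (((g • x : SemiLocalUnits q L).1 w : (PadicAlgCl q)ˣ) : PadicAlgCl q) =
      transAut q L g w ((x.1 w : (PadicAlgCl q)ˣ) : PadicAlgCl q) := by
  have := coe_smul_apply_smul q L g x w
  rwa [hg] at this

/-- For `g` in the stabiliser of `w`, written `g = conjLocal σ_w τ * h` with `h ∈ G_L` (see
`smul_placeOf_eq_iff`), the transport `τ_{g,w}` acts on `L_w` as `τ`. -/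
theorem transAut_apply_of_eq_conjLocal_mul (g : stabField L) (w : PlacesOver q L) (hgw : g • w = w)
    {τ : Tq} {h : Γ} (hh : h ∈ L.fixingSubgroup)
    (hg : (g : Γ) = conjLocal q (PlacesOver.rep q w) τ * h) {y : PadicAlgCl q}
    (hy : y ∈ PlacesOver.localField q w) : transAut q L g w y = τ y := by
  have h2 : IsTransport q L (PlacesOver.rep q w) (PlacesOver.rep q (g • w)) g τ := by
    rw [hgw]
    exact isTransport_of_eq_conjLocal_mul q hh hg
  exact transAut_apply_eq q L g w h2 hy

/-- Elements of `G_L` act trivially on the semi-local group. -/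
theorem smul_eq_self_of_mem_fixingSubgroup (g : stabField L) (hg : (g : Γ) ∈ L.fixingSubgroup)
    (x : SemiLocalUnits q L) : g • x = x := by
  have hgw : ∀ w : PlacesOver q L, g • w = w := by
    intro w
    obtain ⟨σ, rfl⟩ := placeOf_surjective q L w
    rw [smul_placeOf_eq_iff]
    exact ⟨1, g, hg, by rw [map_one, one_mul]⟩
  apply Subtype.ext
  funext w
  apply Units.ext
  rw [coe_smul_apply_of_smul_eq q L g x w (hgw w)]
  have := transAut_apply_of_eq_conjLocal_mul q L g w (hgw w) (τ := 1) hg
    (by rw [map_one, one_mul]) (x.2 w)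
  rw [this]
  rfl

/-! ### The diagonal embedding -/

/-- The embedding `L → PadicAlgCl q` at the place `w` (through the chosen representative). -/
noncomputable def embPlace (w : PlacesOver q L) : L →+* PadicAlgCl q :=
  ((padicEmbedding q : Qbar →+* PadicAlgCl q).comp
    ((PlacesOver.rep q w : Γ) : Qbar →+* Qbar)).comp (algebraMap L Qbar)

omit [FiniteDimensional ℚ L] in
theorem embPlace_apply (w : PlacesOver q L) (x : L) :
    embPlace q L w x = padicEmbedding q (PlacesOver.rep q w (x : Qbar)) := rfl

omit [FiniteDimensional ℚ L] in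
theorem embPlace_mem (w : PlacesOver q L) (x : L) :
    embPlace q L w x ∈ PlacesOver.localField q w :=
  padicEmbedding_apply_mem_localFieldAt q _ x.2

omit [FiniteDimensional ℚ L] in
theorem norm_embPlace (w : PlacesOver q L) (x : L) : ‖embPlace q L w x‖ = w.1 x :=
  rep_apply q w x

/-- The diagonal embedding `L^× → ∏_{w | q} L_w^×`. -/
noncomputable def diag : Lˣ →* SemiLocalUnits q L where
  toFun x := ⟨fun w => Units.map (embPlace q L w : L →* PadicAlgCl q) x,
    fun w => embPlace_mem q L w x⟩
  map_one' := by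
    apply Subtype.ext
    funext w
    exact map_one _
  map_mul' x y := by
    apply Subtype.ext
    funext w
    exact map_mul _ x y

omit [FiniteDimensional ℚ L] in
theorem coe_diag_apply (x : Lˣ) (w : PlacesOver q L) :
    (((diag q L x).1 w : (PadicAlgCl q)ˣ) : PadicAlgCl q) = embPlace q L w x := rfl

omit [FiniteDimensional ℚ L] in
theorem diag_injective : Function.Injective (diag q L) := by
  intro x y h
  have hw := congrArg (fun z : SemiLocalUnits q L =>
    ((z.1 (placeOf q L 1) : (PadicAlgCl q)ˣ) : PadicAlgCl q)) h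
  simp only [coe_diag_apply] at hw
  exact Units.ext ((embPlace q L (placeOf q L 1)).injective hw)

/-- The diagonal embedding is Galois-equivariant. -/
theorem smul_diag (g : stabField L) (x : Lˣ) :
    g • diag q L x = diag q L (Units.map (resHom L g : L →* L) x) := by
  apply Subtype.ext
  funext w
  apply Units.ext
  rw [coe_smul_apply, coe_diag_apply, coe_diag_apply, embPlace_apply, embPlace_apply,
    transAut_padicEmbedding q L g _ (x : L).2, smul_inv_smul]
  rfl

/-! ### Components -/

/-- The idele with component `b` at `w` and `1` elsewhere. -/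
noncomputable def single [DecidableEq (PlacesOver q L)] (w : PlacesOver q L) (b : (PadicAlgCl q)ˣ)
    (hb : (b : PadicAlgCl q) ∈ PlacesOver.localField q w) : SemiLocalUnits q L :=
  ⟨Pi.mulSingle w b, by
    intro w'
    by_cases h : w' = w
    · subst h
      rw [Pi.mulSingle_eq_same]
      exact hb
    · rw [Pi.mulSingle_eq_of_ne h, Units.val_one]
      exact one_mem _⟩

omit [FiniteDimensional ℚ L] in
theorem single_apply_same [DecidableEq (PlacesOver q L)] (w : PlacesOver q L) (b : (PadicAlgCl q)ˣ)
    (hb : (b : PadicAlgCl q) ∈ PlacesOver.localField q w) : (single q L w b hb).1 w = b :=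
  Pi.mulSingle_eq_same _ _

omit [FiniteDimensional ℚ L] in
theorem single_apply_of_ne [DecidableEq (PlacesOver q L)] {w w' : PlacesOver q L} (h : w' ≠ w)
    (b : (PadicAlgCl q)ˣ) (hb : (b : PadicAlgCl q) ∈ PlacesOver.localField q w) :
    (single q L w b hb).1 w' = 1 :=
  Pi.mulSingle_eq_of_ne h _

omit [FiniteDimensional ℚ L] in
theorem coe_single [DecidableEq (PlacesOver q L)] (w : PlacesOver q L) (b : (PadicAlgCl q)ˣ)
    (hb : (b : PadicAlgCl q) ∈ PlacesOver.localField q w) :
    (single q L w b hb).1 = Pi.mulSingle w b := rfl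

/-- `g • single w b = single (g • w) (τ_{g,w} b)`. -/
theorem smul_single [DecidableEq (PlacesOver q L)] (g : stabField L) (w : PlacesOver q L)
    (b : (PadicAlgCl q)ˣ) (hb : (b : PadicAlgCl q) ∈ PlacesOver.localField q w)
    (hb' : ((Units.map ((transAut q L g w : PadicAlgCl q →+* PadicAlgCl q) :
        PadicAlgCl q →* PadicAlgCl q) b : (PadicAlgCl q)ˣ) : PadicAlgCl q) ∈
          PlacesOver.localField q (g • w)) :
    g • single q L w b hb = single q L (g • w)
      (Units.map ((transAut q L g w : PadicAlgCl q →+* PadicAlgCl q) :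
        PadicAlgCl q →* PadicAlgCl q) b) hb' := by
  apply Subtype.ext
  funext w'
  apply Units.ext
  rw [coe_smul_apply, coe_single, coe_single]
  by_cases h : w' = g • w
  · subst h
    rw [inv_smul_smul, Pi.mulSingle_eq_same, Pi.mulSingle_eq_same]
    rfl
  · have h' : g⁻¹ • w' ≠ w := fun e => h (by rw [← e, smul_inv_smul])
    rw [Pi.mulSingle_eq_of_ne h, Pi.mulSingle_eq_of_ne h', Units.val_one, map_one]

/-- An element all of whose components (equivalently: the `w₀`-components of all its translates
by a group acting transitively) are `1` is `1`. -/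
theorem eq_one_of_forall_smul_apply_eq_one (x : SemiLocalUnits q L) (w₀ : PlacesOver q L)
    (S : Subgroup (stabField L)) (htrans : ∀ w, ∃ g ∈ S, g • w = w₀)
    (h : ∀ g ∈ S, (g • x : SemiLocalUnits q L).1 w₀ = 1) : x = 1 := by
  apply Subtype.ext
  funext w
  obtain ⟨g, hgS, hg⟩ := htrans w
  have h1 := h g hgS
  have h2 := coe_smul_apply_smul q L g x w
  rw [hg, h1, Units.val_one] at h2
  apply Units.ext
  have h3 := congrArg (transAut q L g w).symm h2
  rw [map_one, AlgEquiv.symm_apply_apply] at h3
  rw [← h3]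
  rfl

end Action

end Fermat.Agent.S55.GL.Places
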