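/-
S55 / GLO12 (part 5): the injection `H¹(G_{L,S}, E_S) ↪ Cl_S(L)` and the final form of
ARITH-L (b).

`L ⊆ ℚ̄` a number field unramified outside `S`.  From `0 → E_S → ℚ_S^× → P_S → 0` and Hilbert 90
over `G_{L,S}` (`LevelH90.h90_levelLS`) the boundary `δ⁰ : H⁰(G_{L,S}, P_S) → H¹(G_{L,S}, E_S)` is
onto with kernel the image of `H⁰(ℚ_S^×) = L^×`; the class map of invariant `S`-principal divisors
(helper17's `DivOf.clInv`) kills exactly that image.  Hence

* `unitClassHom hL : H¹(G_{L,S}, E_S) →+ ClT L (primesAbove L S)`, `unitClassHom_injective`;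
* `sha2_finite_and_card_le_pow_cS`: `Ш²_S(L, μ_p)` (kernel of `locH (brauerData L S) μ_p 2`) is
  finite of cardinality `≤ p ^ cS L S p`.
(helper14)
-/
import Fermat.Agent.S55.GL.LevelH90
import Fermat.Agent.S55.GL.BrauerFinal
import Fermat.Agent.S55.GL.ClassTPhi
import Fermat.Agent.S55.GL.KummerDim
import Fermat.Agent.S55.CF.LowDegree
import Fermat.Agent.S55.CF.BrauerChase

set_option autoImplicit false
set_option linter.unusedSectionVars false

open CategoryTheory IntermediateField groupCohomology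

namespace Fermat.Agent.S55.GL.UnitClassInj

open Fermat.Agent.S55.Level Fermat.Agent.S55.GaloisLevel
  Fermat.Agent.S55.LevelTransport Fermat.Agent.S55.GL.BrauerLocal Fermat.Agent.S55.GL.QSMod
  Fermat.Agent.S55.CF Fermat.Agent.S55.GL.BrauerInst Fermat.Agent.S55.GL.LevelH90
  Fermat.Agent.S55.GL.KummerUnram Fermat.Agent.S55.GL.DivOf Fermat.Agent.S55.GL.ClassT
  Fermat.Agent.S55.GL.Kummer

local notation "Qbar" => AlgebraicClosure ℚ
local notation "Γ" => (AlgebraicClosure ℚ ≃ₐ[ℚ] AlgebraicClosure ℚ)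

local instance isGaloisQbar_UCI : IsGalois ℚ Qbar := Fermat.Agent.S55.Level.isGalois_Qbar

variable (S : Finset Nat.Primes) (L : IntermediateField ℚ Qbar)

/-! ### The sequence `0 → E_S → ℚ_S^× → P_S → 0` over `G_L` -/

/-- `ℚ_S^× → P_S` over `G_L`. -/
noncomputable abbrev gL : resL L (QSUnits S) ⟶ resL L (PSUnits S) :=
  (Rep.resFunctor L.fixingSubgroup.subtype).map (PSUnitsπ S)

/-- The sequence `E_S → ℚ_S^× → P_S` over `G_L`. -/
noncomputable abbrev seqL : ShortComplex (Rep.{0} ℤ ↥L.fixingSubgroup) :=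
  (unitSeq S).map (Rep.resFunctor L.fixingSubgroup.subtype)

theorem seqL_shortExact : (seqL S L).ShortExact :=
  shortExact_map_resFunctor L.fixingSubgroup.subtype (unitSeq_shortExact S)

instance isDiscrete_seqL_X₁ : IsDiscrete (levelLS S L) (seqL S L).X₁ :=
  inferInstanceAs (IsDiscrete (levelLS S L) (resL L (ESUnits S)))

instance isDiscrete_seqL_X₂ : IsDiscrete (levelLS S L) (seqL S L).X₂ :=
  inferInstanceAs (IsDiscrete (levelLS S L) (resL L (QSUnits S)))

instance isDiscrete_seqL_X₃ : IsDiscrete (levelLS S L) (seqL S L).X₃ :=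
  inferInstanceAs (IsDiscrete (levelLS S L) (resL L (PSUnits S)))

/-! ### Elements -/

lemma val_sub (a b : QSUnits S) :
    QSUnits.val S (a - b) = QSUnits.val S a / QSUnits.val S b := by
  rw [eq_div_iff (QSUnits.val_ne_zero S b), ← QSUnits.val_add, sub_add_cancel]

lemma π_surjective : Function.Surjective (PSUnitsπ S).hom :=
  Submodule.mkQ_surjective _

lemma π_eq_iff (a b : QSUnits S) :
    (PSUnitsπ S).hom a = (PSUnitsπ S).hom b ↔ IsSUnit S (QSUnits.val S a / QSUnits.val S b) := by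
  rw [← val_sub]
  exact (Submodule.Quotient.eq (sUnitSubmodule S))

lemma π_ρ (σ : Γ) (b : QSUnits S) :
    (PSUnitsπ S).hom ((QSUnits S).ρ σ b) = (PSUnits S).ρ σ ((PSUnitsπ S).hom b) :=
  Rep.hom_comm_apply (PSUnitsπ S) σ b

/-- A chosen lift of an element of `P_S` to `ℚ_S^×`. -/
noncomputable def liftP (c : PSUnits S) : QSUnits S := Function.surjInv (π_surjective S) c

lemma π_liftP (c : PSUnits S) : (PSUnitsπ S).hom (liftP S c) = c :=
  Function.surjInv_eq (π_surjective S) c

variable {S L}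

/-- The lift of a `G_L`-invariant element of `P_S` is admissible. -/
theorem isAdmissible_liftP {c : PSUnits S}
    (hc : c ∈ (resL L (PSUnits S)).ρ.invariants) :
    IsAdmissible L S (QSUnits.val S (liftP S c)) := by
  obtain ⟨F, hF, -, hxF⟩ := QSUnits.exists_mem S (liftP S c)
  refine ⟨QSUnits.val_ne_zero S _, ⟨F, hF, hxF⟩, fun σ hσ => ?_⟩
  rw [← QSUnits.val_ρ, ← π_eq_iff, π_ρ, π_liftP]
  exact hc ⟨σ, hσ⟩

/-! ### The class map on `H⁰(G_{L,S}, P_S)` -/

section Psi

variable [NumberField L] (hL : L.IsUnramifiedOutside S)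

/-- The class in `Cl_S(L)` of a `G_L`-invariant element of `P_S`. -/
noncomputable def psiFun (c : (resL L (PSUnits S)).ρ.invariants) : ClT L (primesAbove L S) :=
  clInv hL ⟨QSUnits.val S (liftP S c.1), isAdmissible_liftP c.2⟩

/-- `psiFun` computed on an arbitrary lift. -/
theorem psiFun_eq (c : (resL L (PSUnits S)).ρ.invariants) (b : QSUnits S)
    (hb : (PSUnitsπ S).hom b = c.1) (hadm : IsAdmissible L S (QSUnits.val S b)) :
    psiFun hL c = clInv hL ⟨QSUnits.val S b, hadm⟩ := by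
  refine (clInv_eq_of_isSUnit_div hL ⟨QSUnits.val S b, hadm⟩ _ ?_)
  show IsSUnit S (QSUnits.val S (liftP S c.1) / QSUnits.val S b)
  rw [← π_eq_iff, π_liftP, hb]

theorem psiFun_add (c c' : (resL L (PSUnits S)).ρ.invariants) :
    psiFun hL (c + c') = psiFun hL c + psiFun hL c' := by
  have hadm : IsAdmissible L S (QSUnits.val S (liftP S c.1 + liftP S c'.1)) := by
    rw [QSUnits.val_add]
    exact (isAdmissible_liftP c.2).mul (isAdmissible_liftP c'.2)
  rw [psiFun_eq hL (c + c') (liftP S c.1 + liftP S c'.1) (by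
    rw [map_add, π_liftP, π_liftP]; rfl) hadm]
  have h := clInv_mul hL ⟨QSUnits.val S (liftP S c.1), isAdmissible_liftP c.2⟩
    ⟨QSUnits.val S (liftP S c'.1), isAdmissible_liftP c'.2⟩
  exact Eq.trans (congrArg (clInv hL) (Subtype.ext (QSUnits.val_add S _ _))) h

/-- The class map `ψ : H⁰(G_L, P_S) → Cl_S(L)` as a homomorphism. -/
noncomputable def psi : (resL L (PSUnits S)).ρ.invariants →+ ClT L (primesAbove L S) :=
  AddMonoidHom.mk' (psiFun hL) (psiFun_add hL)

/-- The invariants of `ℚ_S^×` under `G_L` are the elements of `L^×`. -/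
theorem val_mem_of_invariant (hL : L.IsUnramifiedOutside S) {m : QSUnits S}
    (hm : m ∈ (resL L (QSUnits S)).ρ.invariants) : QSUnits.val S m ∈ L := by
  have hfd : FiniteDimensional ℚ L := hL.1
  rw [← InfiniteGalois.fixedField_fixingSubgroup L, IntermediateField.mem_fixedField_iff]
  intro σ hσ
  rw [← QSUnits.val_ρ]
  exact congrArg (QSUnits.val S) (hm ⟨σ, hσ⟩)

/-- **The kernel of `ψ`** is the image of `H⁰(G_L, ℚ_S^×)`. -/
theorem psi_eq_zero_iff (c : (resL L (PSUnits S)).ρ.invariants) :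
    psi hL c = 0 ↔ ∃ m : QSUnits S, m ∈ (resL L (QSUnits S)).ρ.invariants ∧
      (PSUnitsπ S).hom m = c.1 := by
  show psiFun hL c = 0 ↔ _
  rw [psiFun, clInv_eq_zero_iff]
  constructor
  · rintro ⟨x, hxL, hx0, hu⟩
    refine ⟨QSUnits.mk S x hx0 hL hxL, fun σ => ?_, ?_⟩
    · apply QSUnits.val_injective S
      show QSUnits.val S ((QSUnits S).ρ (σ : Γ) (QSUnits.mk S x hx0 hL hxL)) = _
      rw [QSUnits.val_ρ, QSUnits.val_mk]
      exact (IntermediateField.mem_fixingSubgroup_iff L σ).1 σ.2 x hxL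
    · rw [← π_liftP S c.1]
      refine ((π_eq_iff S _ _).2 ?_).symm
      rw [QSUnits.val_mk]
      exact hu
  · rintro ⟨m, hm, hmc⟩
    refine ⟨QSUnits.val S m, val_mem_of_invariant hL hm, QSUnits.val_ne_zero S m, ?_⟩
    show IsSUnit S (QSUnits.val S (liftP S c.1) / QSUnits.val S m)
    rw [← π_eq_iff, π_liftP, hmc]

end Psi

/-! ### The injection `H¹(G_{L,S}, E_S) ↪ Cl_S(L)` -/

section Phi

variable (S L)

/-- `Δ = δ⁰ ∘ (H⁰ = invariants)`: `P_S^{G_L} → H¹(G_{L,S}, E_S)`. -/
noncomputable def deltaHom : (resL L (PSUnits S)).ρ.invariants →+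
    levelCohomology (levelLS S L) (resL L (ESUnits S)) 1 :=
  (levelδ (levelLS S L) (seqL_shortExact S L) 0 1 rfl).hom.toAddMonoidHom.comp
    (levelH0π (levelLS S L) (resL L (PSUnits S))).toAddMonoidHom

theorem deltaHom_apply (c : (resL L (PSUnits S)).ρ.invariants) :
    deltaHom S L c = (levelδ (levelLS S L) (seqL_shortExact S L) 0 1 rfl).hom
      (levelH0π (levelLS S L) (resL L (PSUnits S)) c) := rfl

variable {S L}

theorem deltaHom_surjective (hL : L.IsUnramifiedOutside S) :
    Function.Surjective (deltaHom S L) := by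
  intro y
  obtain ⟨x, hx⟩ := levelδ_zero_surjective (levelLS S L) (seqL_shortExact S L)
    (fun x => h90_levelLS S L hL x) y
  obtain ⟨c, rfl⟩ := levelH0π_surjective (levelLS S L) (resL L (PSUnits S)) x
  exact ⟨c, hx⟩

theorem deltaHom_eq_zero_iff (c : (resL L (PSUnits S)).ρ.invariants) :
    deltaHom S L c = 0 ↔ ∃ m : QSUnits S, m ∈ (resL L (QSUnits S)).ρ.invariants ∧
      (PSUnitsπ S).hom m = c.1 := by
  rw [deltaHom_apply]
  refine Iff.trans (levelδ_zero_eq_zero_iff (levelLS S L) (seqL_shortExact S L) _) ?_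
  constructor
  · rintro ⟨b, hb⟩
    obtain ⟨m, rfl⟩ := levelH0π_surjective (levelLS S L) (resL L (QSUnits S)) b
    have hinv : (PSUnitsπ S).hom m.1 ∈ (resL L (PSUnits S)).ρ.invariants := fun σ => by
      show (PSUnits S).ρ (σ : Γ) ((PSUnitsπ S).hom m.1) = _
      rw [← π_ρ]
      exact congrArg (PSUnitsπ S).hom (m.2 σ)
    have h1 := Hmap_levelH0π (levelLS S L) (A := resL L (QSUnits S)) (B := resL L (PSUnits S))
      (gL S L) m ⟨(PSUnitsπ S).hom m.1, hinv⟩ rfl
    have h2 : levelH0π (levelLS S L) (resL L (PSUnits S)) ⟨(PSUnitsπ S).hom m.1, hinv⟩ =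
        levelH0π (levelLS S L) (resL L (PSUnits S)) c := h1.symm.trans hb
    have h3 := levelH0π_injective (levelLS S L) (resL L (PSUnits S)) h2
    exact ⟨m.1, m.2, congrArg Subtype.val h3⟩
  · rintro ⟨m, hm, hmc⟩
    exact ⟨levelH0π (levelLS S L) (resL L (QSUnits S)) ⟨m, hm⟩,
      Hmap_levelH0π (levelLS S L) (A := resL L (QSUnits S)) (B := resL L (PSUnits S))
        (gL S L) ⟨m, hm⟩ c hmc⟩

variable [NumberField L] (hL : L.IsUnramifiedOutside S)

/-- **The class map** `φ : H¹(G_{L,S}, E_S) → Cl_S(L)`. -/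
noncomputable def unitClassHom :
    levelCohomology (levelLS S L) (resL L (ESUnits S)) 1 →+ ClT L (primesAbove L S) :=
  (deltaHom S L).liftOfSurjective (deltaHom_surjective hL) ⟨psi hL, fun c hc => by
    rw [AddMonoidHom.mem_ker] at hc ⊢
    exact (psi_eq_zero_iff hL c).2 ((deltaHom_eq_zero_iff c).1 hc)⟩

theorem unitClassHom_deltaHom (c : (resL L (PSUnits S)).ρ.invariants) :
    unitClassHom hL (deltaHom S L c) = psi hL c :=
  AddMonoidHom.liftOfRightInverse_comp_apply _ _ _ _ c

/-- **`H¹(G_{L,S}, E_S)` embeds into `Cl_S(L)`.** -/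
theorem unitClassHom_injective : Function.Injective (unitClassHom hL) := by
  rw [injective_iff_map_eq_zero]
  intro y hy
  obtain ⟨c, rfl⟩ := deltaHom_surjective hL y
  rw [unitClassHom_deltaHom] at hy
  exact (deltaHom_eq_zero_iff c).2 ((psi_eq_zero_iff hL c).1 hy)

/-- `H¹(G_{L,S}, E_S)` is finite. -/
theorem finite_H1_ESUnits (hL : L.IsUnramifiedOutside S) :
    Finite (levelCohomology (levelLS S L) (resL L (ESUnits S)) 1) :=
  Finite.of_injective _ (unitClassHom_injective hL)

end Phi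

/-! ### ARITH-L (b), final form -/

section Final

open Fermat.Agent.S55.GL.BrauerFinal Fermat.Agent.S55.GL.BrauerData Fermat.Agent.S55.Cone
  Fermat.Agent.S55.GL.Places

local instance factPrime_UCI (q : Nat.Primes) : Fact (q : ℕ).Prime := ⟨q.2⟩

variable {p : ℕ} [NumberField L]
  {F : ∀ v : FinPlace L, CFAbs.Formation (levelv L v)
    (unitsRep (Kv L v) (PadicAlgCl (v.prime : ℕ)))}

/-- **ARITH-L (b), final form**: for `L` unramified outside `S ∋ p`, the kernel of the
localisation map `H²(G_{L,S}, μ_p) → ∏_{w | S} H²(L_w, μ_p)` is finite, of cardinality at most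
`p ^ c_L`, `c_L = dim Cl_S(L)/p` — given the arithmetic inputs `BrauerInput p S L F`. -/
theorem sha2_finite_and_card_le_pow_cS (hp : p.Prime) (hpS : (⟨p, hp⟩ : Nat.Primes) ∈ S)
    (hL : L.IsUnramifiedOutside S) (H : BrauerInput p S L F) :
    Finite {y : levelCohomology (levelLS S L) (resL L (muP S p)) 2 //
        locH (brauerData L S) (resL L (muP S p)) 2 y = 0} ∧
      Nat.card {y : levelCohomology (levelLS S L) (resL L (muP S p)) 2 //
        locH (brauerData L S) (resL L (muP S p)) 2 y = 0} ≤ p ^ cS L S p := by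
  have : Fact p.Prime := ⟨hp⟩
  have h := sha2_finite_and_card_le hp hpS H (unitClassHom hL) (unitClassHom_injective hL)
  rw [card_quotient_ClT L S] at h
  exact h

end Final

end Fermat.Agent.S55.GL.UnitClassInj
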