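import Mathlib
import Fermat.Agent.S55.GL.StabComp
import Fermat.Agent.S55.GL.BrauerInst

/-!
# S55 / GLO12c (U2): `BrauerInput.unit_lift` from the local components

Namespace `Fermat.Agent.S55.GL.StabLocal` (continuation of `GL/StabComp.lean`).
`L` a number field unramified outside `S ∋ p`.

* **`unit_lift_of_levelInf_injective`** : (U2) = the field `unit_lift` of `BrauerInput` (without the
  `IsPPrim` hypothesis), assuming only that the local inflations
  `H²(Gloc ⧸ Vloc, (Ω_qˣ)^Vloc) → H²(Gal(Ω_q/L_v), Ω_qˣ)` are injective (Hilbert 90 on layers).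
* **`unit_lift_of_formation`** : the same from the local class formations `F v` of `BrauerInput`
  (`CFAbs.Formation.levelInf_injective`): VERBATIM the field `unit_lift`.

Route: `y = levelInf y_a` on a layer `a : GoodField S L` (`exists_levelInf_eq`); for `v` off `S`,
`resQ S L v (levelInf y_a) = levelInf_loc (layerBC … y_a)` (`levelCohomologyMap_levelInf_apply`),
so `layerBC … y_a = 0`; hence the component of `y_a` at the layer prime `x = layerPrime a v hv`
vanishes (`map_ordStab_eq_zero_of_layerBC`), these `x` meet every `G_L`-orbit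
(`exists_smul_mem_packRepSet`), and helper4's `exists_Hmap_eq_nsmul_of_stab` concludes.
-/

set_option autoImplicit false
set_option linter.style.haveILetI false
set_option linter.unusedSectionVars false

open CategoryTheory IntermediateField
open Fermat.Agent.S55.GL.ClassTGalois Fermat.Agent.S55.GL.OrbitReps
open Fermat.Agent.S55.GL.Places Fermat.Agent.S55.GL.BrauerLocal
open Fermat.Agent.S55.GL.IdealInst Fermat.Agent.S55.GL.IdealDetect
open Fermat.Agent.S55.GL.DivPackage Fermat.Agent.S55.GL.DivPackInst
open Fermat.Agent.S55.Level Fermat.Agent.S55.GaloisLevel Fermat.Agent.S55.CFAbs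
open Fermat.Agent.S55.GL.QSMod Fermat.Agent.S55.GL.BrauerInst Fermat.Agent.S55.LevelGlobal
open Fermat.Agent.S55.LevelLayer

namespace Fermat.Agent.S55.GL.StabLocal

local notation "Qbar" => AlgebraicClosure ℚ
local notation "Γ" => (AlgebraicClosure ℚ ≃ₐ[ℚ] AlgebraicClosure ℚ)

local instance factPrime_ul (q : Nat.Primes) : Fact (q : ℕ).Prime := ⟨q.2⟩

variable {S : Finset Nat.Primes} {L : IntermediateField ℚ Qbar} [NumberField L]
  {p : ℕ} [hpF : Fact p.Prime] (hpS : (⟨p, hpF.out⟩ : Nat.Primes) ∈ S)

include hpS in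
/-- **(U2)** from the injectivity of the local inflations in degree 2. -/
theorem unit_lift_of_levelInf_injective (hL : L.IsUnramifiedOutside S)
    (hinj : ∀ (a : GoodField S L) (v : FinPlace L), v.prime ∉ S →
      Function.Injective (levelInf (levelv L v)
        (unitsRep (Kv L v) (PadicAlgCl (v.prime : ℕ))) (Vloc_mem a v) 2).hom)
    (y : levelCohomology (levelLS S L) (resL L (QSUnits S)) 2)
    (hy : ∀ v : FinPlace L, v.prime ∉ S → resQ S L v y = 0) :
    ∃ (m : ℕ) (e : levelCohomology (levelLS S L) (resL L (ESUnits S)) 2),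
      m.Coprime p ∧ (Fermat.Agent.S55.CF.Hmap (levelLS S L) (fL S L) 2).hom e = m • y := by
  obtain ⟨a, ya, rfl⟩ := exists_levelInf_eq hL (resL L (QSUnits S)) y
  obtain ⟨m, hm, e, he⟩ := exists_Hmap_eq_nsmul_of_stab (divPack S hpS) hL a ya
    (packRepSet L S hpS a.toGField) (exists_smul_mem_packRepSet L S hpS a.toGField) (by
      rintro x ⟨v, hv, rfl⟩
      apply map_ordStab_eq_zero_of_layerBC hpS a v hv ya
      apply hinj a v hv
      rw [map_zero]
      have h1 := levelCohomologyMap_levelInf_apply (decompHom (v.prime : ℕ) L v.rep)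
        (coeffLoc (v.prime : ℕ) L v.rep (QSUnitsι S)) (Vloc_le a v)
        (refines_decompHom (v.prime : ℕ) L v.rep (globalLevel S) (open_globalLevel S))
        a.U_mem (Vloc_mem a v) 2 ya
      rw [← h1]
      exact hy v hv)
  exact ⟨m, e, hm, he⟩

include hpS in
/-- **(U2) = `BrauerInput.unit_lift` verbatim**, from the local class formations. -/
theorem unit_lift_of_formation (hL : L.IsUnramifiedOutside S)
    (F : ∀ v : FinPlace L, Formation (levelv L v) (unitsRep (Kv L v) (PadicAlgCl (v.prime : ℕ)))) :
    ∀ y : levelCohomology (levelLS S L) (resL L (QSUnits S)) 2,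
      Fermat.Agent.S55.CF.IsPPrim p y →
      (∀ v : FinPlace L, v.prime ∉ S → resQ S L v y = 0) →
      ∃ (m : ℕ) (e : levelCohomology (levelLS S L) (resL L (ESUnits S)) 2),
        m.Coprime p ∧ (Fermat.Agent.S55.CF.Hmap (levelLS S L) (fL S L) 2).hom e = m • y :=
  fun y _ hy => unit_lift_of_levelInf_injective hpS hL
    (fun a v _ => (F v).levelInf_injective (Vloc a v) (Vloc_mem a v)) y hy

end Fermat.Agent.S55.GL.StabLocal
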