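/-
S55 / GLO15 (T1) = (H-ζ) of helper25's #809: the `ζ`-isomorphism of coefficients and the transport
of level cohomology `𝔽_p ↔ μ_p` over `G_L`, globally and at the places of `L`.

`L ⊆ ℚ̄`, `ζ ∈ L` a primitive `p`-th root of unity, `p ∈ S`.

* `zetaElt`, `val_zetaElt`, `zetaAddHom`, `zetaAddEquiv : ZMod p ≃+ muP S p` (`a ↦ ζ ^ a`),
  `ρ_zetaElt`, `ρ_eq_of_mem` (`G_L` fixes `μ_p`);
* ★ `zetaIso p S hpS hζ L hζL : toIntRep (trivL p L) ≅ resL L (muP S p)` in `Rep ℤ G_L`, where
  `trivL p L = Rep.res G_L.subtype (Rep.trivial (ZMod p) Γ (ZMod p))` (`= ArithLInst.trivU`);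
  `zetaIsoLoc` (its restriction along `decompHom q L σ`);
* `hmapAddEquiv` (generic: an iso of coefficients induces `≃+` on level cohomology, any scalars);
* ★ `zetaGlob n : Hⁿ(G_{L,S}, 𝔽_p) ≃+ Hⁿ(G_{L,S}, μ_p)`, `zetaLoc q σ n : Hⁿ(L_σ, 𝔽_p) ≃+ Hⁿ(L_σ, μ_p)`;
* ★ `zetaLoc_res` : `zetaLoc (restriction along decompHom x) = locAt q L σ (muP S p) … (zetaGlob x)`
  (so helper14's `locμ` is the plain restriction map on `𝔽_p`-coefficients).
-/
import Mathlib
import Fermat.Agent.S55.GL.BrauerInst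
import Fermat.Agent.S55.LevelScalars
import Fermat.Agent.S55.LevelDelta

set_option autoImplicit false
set_option linter.unusedSectionVars false
set_option linter.style.haveILetI false

open CategoryTheory

namespace Fermat.Agent.S55.GL.ZetaCoeff

open Fermat.Agent.S55.Level Fermat.Agent.S55.GaloisLevel Fermat.Agent.S55.GL.Places
  Fermat.Agent.S55.LevelTransport Fermat.Agent.S55.GL.BrauerLocal Fermat.Agent.S55.GL.QSMod
  Fermat.Agent.S55.GL.BrauerInst Fermat.Agent.S55.CF Fermat.Agent.S55.LevelScalars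

local notation "Qbar" => AlgebraicClosure ℚ
local notation "Γ" => (AlgebraicClosure ℚ ≃ₐ[ℚ] AlgebraicClosure ℚ)

section GenericIso

universe u

variable {k G : Type u} [CommRing k] [Group G] {𝒰 : LevelStructure G} {A B : Rep.{u} k G}
  [IsDiscrete 𝒰 A] [IsDiscrete 𝒰 B]

/-- The additive equivalence on level cohomology induced by an isomorphism of coefficients
(any commutative ring of scalars). -/
noncomputable def hmapAddEquiv (e : A ≅ B) (n : ℕ) :
    levelCohomology 𝒰 A n ≃+ levelCohomology 𝒰 B n where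
  toFun := (Hmap 𝒰 e.hom n).hom
  invFun := (Hmap 𝒰 e.inv n).hom
  left_inv x := by
    rw [← Hmap_comp_apply, e.hom_inv_id, Hmap_id]
    rfl
  right_inv x := by
    rw [← Hmap_comp_apply, e.inv_hom_id, Hmap_id]
    rfl
  map_add' := map_add _

lemma hmapAddEquiv_apply (e : A ≅ B) (n : ℕ) (x : levelCohomology 𝒰 A n) :
    hmapAddEquiv (𝒰 := 𝒰) e n x = (Hmap 𝒰 e.hom n).hom x := rfl

end GenericIso

section Zeta

variable (p : ℕ) [hpF : Fact p.Prime] (S : Finset Nat.Primes)
  (hpS : (⟨p, hpF.out⟩ : Nat.Primes) ∈ S) {ζ : Qbar} (hζ : IsPrimitiveRoot ζ p)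

include hζ in
lemma zeta_pow_pow (n : ℕ) : (ζ ^ n) ^ p = 1 := by
  rw [← pow_mul, mul_comm, pow_mul, hζ.pow_eq_one, one_pow]

/-- The element of `μ_p ⊆ E_S` with value `ζ ^ a`. -/
noncomputable def zetaElt (a : ZMod p) : muP S p :=
  Classical.choose (muP.exists_val_eq S hpF.out hpS (zeta_pow_pow p hζ a.val))

lemma val_zetaElt (a : ZMod p) : muP.val S p (zetaElt p S hpS hζ a) = ζ ^ a.val :=
  Classical.choose_spec (muP.exists_val_eq S hpF.out hpS (zeta_pow_pow p hζ a.val))

lemma zetaElt_add (a b : ZMod p) :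
    zetaElt p S hpS hζ (a + b) = zetaElt p S hpS hζ a + zetaElt p S hpS hζ b := by
  apply muP.val_injective S p
  rw [muP.val_add, val_zetaElt, val_zetaElt, val_zetaElt, ZMod.val_add, ← pow_add,
    ← pow_eq_pow_mod _ hζ.pow_eq_one]

/-- `a ↦ ζ ^ a` as an additive map `ZMod p →+ μ_p`. -/
noncomputable def zetaAddHom : ZMod p →+ muP S p :=
  AddMonoidHom.mk' (zetaElt p S hpS hζ) (zetaElt_add p S hpS hζ)

lemma zetaAddHom_apply (a : ZMod p) : zetaAddHom p S hpS hζ a = zetaElt p S hpS hζ a := rfl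

lemma zetaAddHom_bijective : Function.Bijective (zetaAddHom p S hpS hζ) := by
  have hp : p.Prime := hpF.out
  haveI : NeZero p := ⟨hp.ne_zero⟩
  constructor
  · intro a b h
    have h1 := congrArg (muP.val S p) h
    rw [zetaAddHom_apply, zetaAddHom_apply, val_zetaElt, val_zetaElt] at h1
    exact ZMod.val_injective p (hζ.pow_inj (ZMod.val_lt a) (ZMod.val_lt b) h1)
  · intro z
    obtain ⟨i, hi, hiz⟩ := hζ.eq_pow_of_pow_eq_one (muP.val_pow S p z)
    refine ⟨(i : ZMod p), ?_⟩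
    apply muP.val_injective S p
    rw [zetaAddHom_apply, val_zetaElt, ZMod.val_natCast, ← pow_eq_pow_mod _ hζ.pow_eq_one, hiz]

/-- `ZMod p ≃+ μ_p`. -/
noncomputable def zetaAddEquiv : ZMod p ≃+ muP S p :=
  AddEquiv.ofBijective (zetaAddHom p S hpS hζ) (zetaAddHom_bijective p S hpS hζ)

lemma zetaAddEquiv_apply (a : ZMod p) : zetaAddEquiv p S hpS hζ a = zetaElt p S hpS hζ a := rfl

/-- Elements of `G_L` fix `μ_p` when `ζ ∈ L`. -/
lemma ρ_zetaElt {L : IntermediateField ℚ Qbar} (hζL : ζ ∈ L) (g : ↥L.fixingSubgroup)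
    (a : ZMod p) :
    (muP S p).ρ (g : Γ) (zetaElt p S hpS hζ a) = zetaElt p S hpS hζ a := by
  apply muP.val_injective S p
  rw [muP.val_ρ, val_zetaElt, map_pow,
    (IntermediateField.mem_fixingSubgroup_iff L (g : Γ)).1 g.2 ζ hζL]

include hpS hζ in
lemma ρ_eq_of_mem {L : IntermediateField ℚ Qbar} (hζL : ζ ∈ L) (g : ↥L.fixingSubgroup)
    (z : muP S p) : (muP S p).ρ (g : Γ) z = z := by
  obtain ⟨a, rfl⟩ := (zetaAddHom_bijective p S hpS hζ).2 z
  exact ρ_zetaElt p S hpS hζ hζL g a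

variable (L : IntermediateField ℚ Qbar) (hζL : ζ ∈ L)

/-- The trivial `𝔽_p`-coefficients over `G_L`. -/
noncomputable abbrev trivL : Rep.{0} (ZMod p) ↥L.fixingSubgroup :=
  Rep.res L.fixingSubgroup.subtype (Rep.trivial (ZMod p) Γ (ZMod p))

/-- `𝔽_p → μ_p`, `a ↦ ζ ^ a`, over `G_L`. -/
noncomputable def zetaHom : toIntRep (trivL p L) ⟶ resL L (muP S p) :=
  Rep.ofHom ⟨(zetaAddHom p S hpS hζ).toIntLinearMap, fun g => by
    refine LinearMap.ext fun (a : ZMod p) => ?_
    exact (ρ_zetaElt p S hpS hζ hζL g a).symm⟩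

/-- `μ_p → 𝔽_p`, the inverse of `zetaHom`. -/
noncomputable def zetaHomInv : resL L (muP S p) ⟶ toIntRep (trivL p L) :=
  Rep.ofHom ⟨((zetaAddEquiv p S hpS hζ).symm : muP S p →+ ZMod p).toIntLinearMap, fun g => by
    refine LinearMap.ext fun (z : muP S p) => ?_
    show (zetaAddEquiv p S hpS hζ).symm ((muP S p).ρ (g : Γ) z) =
      (zetaAddEquiv p S hpS hζ).symm z
    rw [ρ_eq_of_mem p S hpS hζ hζL g z]⟩

lemma zetaHom_hom_apply (a : ZMod p) :
    (zetaHom p S hpS hζ L hζL).hom a = zetaElt p S hpS hζ a := rfl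

lemma zetaHomInv_zetaHom (a : ZMod p) :
    (zetaHomInv p S hpS hζ L hζL).hom ((zetaHom p S hpS hζ L hζL).hom a) = a :=
  (zetaAddEquiv p S hpS hζ).symm_apply_apply a

lemma zetaHom_zetaHomInv (z : muP S p) :
    (zetaHom p S hpS hζ L hζL).hom ((zetaHomInv p S hpS hζ L hζL).hom z) = z :=
  (zetaAddEquiv p S hpS hζ).apply_symm_apply z

/-- **The `ζ`-isomorphism** `𝔽_p ≅ μ_p` of `G_L`-modules (`ζ_p ∈ L`). -/
noncomputable def zetaIso : toIntRep (trivL p L) ≅ resL L (muP S p) where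
  hom := zetaHom p S hpS hζ L hζL
  inv := zetaHomInv p S hpS hζ L hζL
  hom_inv_id := Rep.hom_ext (by
    ext a
    exact zetaHomInv_zetaHom p S hpS hζ L hζL a)
  inv_hom_id := Rep.hom_ext (by
    ext z
    exact zetaHom_zetaHomInv p S hpS hζ L hζL z)

/-! ### Transport of level cohomology -/

section Transport

variable [IsDiscrete (levelLS S L) (trivL p L)]

/-- **(T1), global**: `Hⁿ(G_{L,S}, 𝔽_p) ≃+ Hⁿ(G_{L,S}, μ_p)` (change of scalars `ZMod p → ℤ`
followed by the `ζ`-isomorphism). -/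
noncomputable def zetaGlob (n : ℕ) :
    levelCohomology (levelLS S L) (trivL p L) n ≃+
      levelCohomology (levelLS S L) (resL L (muP S p)) n :=
  (levelCohomologyIntEquiv (trivL p L) (levelLS S L) n).symm.trans
    (hmapAddEquiv (𝒰 := levelLS S L) (zetaIso p S hpS hζ L hζL) n)

lemma zetaGlob_apply (n : ℕ) (x : levelCohomology (levelLS S L) (trivL p L) n) :
    zetaGlob p S hpS hζ L hζL n x =
      (Hmap (levelLS S L) (zetaHom p S hpS hζ L hζL) n).hom
        ((levelCohomologyIntEquiv (trivL p L) (levelLS S L) n).symm x) := rfl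

variable (q : ℕ) [Fact q.Prime] (σ : Γ)
  [IsDiscrete (krullLevel (localFieldAt q L σ) (PadicAlgCl q))
    (Rep.res (decompHom q L σ) (trivL p L))]
  [IsDiscrete (krullLevel (localFieldAt q L σ) (PadicAlgCl q)) (resLoc q L σ (muP S p))]

/-- The `ζ`-isomorphism over the local Galois group at the place `(q, σ)` of `L`. -/
noncomputable def zetaIsoLoc :
    toIntRep (Rep.res (decompHom q L σ) (trivL p L)) ≅ resLoc q L σ (muP S p) :=
  (Rep.resFunctor (decompHom q L σ)).mapIso (zetaIso p S hpS hζ L hζL)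

/-- **(T1), local**: `Hⁿ(L_σ, 𝔽_p) ≃+ Hⁿ(L_σ, μ_p)` at the place `(q, σ)` of `L`. -/
noncomputable def zetaLoc (n : ℕ) :
    levelCohomology (krullLevel (localFieldAt q L σ) (PadicAlgCl q))
        (Rep.res (decompHom q L σ) (trivL p L)) n ≃+
      levelCohomology (krullLevel (localFieldAt q L σ) (PadicAlgCl q))
        (resLoc q L σ (muP S p)) n :=
  (levelCohomologyIntEquiv (Rep.res (decompHom q L σ) (trivL p L))
      (krullLevel (localFieldAt q L σ) (PadicAlgCl q)) n).symm.trans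
    (hmapAddEquiv (𝒰 := krullLevel (localFieldAt q L σ) (PadicAlgCl q))
      (zetaIsoLoc p S hpS hζ L hζL q σ) n)

/-- **(T1), compatibility with localisation**: `zetaLoc ∘ (restriction along decompHom) =
locAt ∘ zetaGlob`. -/
theorem zetaLoc_res (n : ℕ) (x : levelCohomology (levelLS S L) (trivL p L) n) :
    zetaLoc p S hpS hζ L hζL q σ n
      ((levelCohomologyMap (decompHom q L σ)
        (refines_decompHom q L σ (globalLevel S) (open_globalLevel S))
        (𝟙 (Rep.res (decompHom q L σ) (trivL p L))) n).hom x) =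
    (locAt q L σ (muP S p) (globalLevel S) (open_globalLevel S) n).hom
      (zetaGlob p S hpS hζ L hζL n x) := by
  obtain ⟨y, rfl⟩ := (levelCohomologyIntEquiv (trivL p L) (levelLS S L) n).surjective x
  have h1 := levelCohomologyIntEquiv_map (A := trivL p L)
    (B := Rep.res (decompHom q L σ) (trivL p L)) (decompHom q L σ)
    (refines_decompHom q L σ (globalLevel S) (open_globalLevel S))
    (𝟙 (Rep.res (decompHom q L σ) (trivL p L))) n y
  have h2 := levelCohomologyMap_naturality (𝒰 := levelLS S L)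
    (𝒱 := krullLevel (localFieldAt q L σ) (PadicAlgCl q)) (f := decompHom q L σ)
    (hf := refines_decompHom q L σ (globalLevel S) (open_globalLevel S))
    (zetaHom p S hpS hζ L hζL) (zetaIsoLoc p S hpS hζ L hζL q σ).hom
    (toIntRepResMap (decompHom q L σ) (𝟙 (Rep.res (decompHom q L σ) (trivL p L))))
    (𝟙 (resLoc q L σ (muP S p))) (fun _ => rfl) n
  have h3 := congrArg (fun ψ => ψ.hom y) h2
  show (Hmap _ (zetaIsoLoc p S hpS hζ L hζL q σ).hom n).hom
      ((levelCohomologyIntEquiv (Rep.res (decompHom q L σ) (trivL p L))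
        (krullLevel (localFieldAt q L σ) (PadicAlgCl q)) n).symm _) = _
  rw [← h1, AddEquiv.symm_apply_apply, zetaGlob_apply, AddEquiv.symm_apply_apply]
  exact h3.symm

end Transport

end Zeta

end Fermat.Agent.S55.GL.ZetaCoeff
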